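/-
S42 / M11 (helper75): BLR-lite.  A finite-dimensional representation `ρ` of a group `G` over an
algebraically closed field in which every element satisfies a quadratic relation
`ρ g ^ 2 - t • ρ g + χ g = 0` (`χ` a character) has a two-dimensional "companion" `ρ'` with
`charpoly (ρ' g) = X ^ 2 - t X + χ g` for all `g`.  Elementary proof (no Burnside/density).
-/
import Mathlib

set_option autoImplicit false

namespace Fermat.Agent.S42

open Polynomial Module

section Pow

variable {k : Type*} [Field k]

/-- Polynomial form of "powers of a root of `X² - tX + e` are roots of `X² - t'X + e^j`". -/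
theorem blr75_pow_poly (t e : k) (j : ℕ) :
    ∃ s : k, (X ^ 2 - C t * X + C e : k[X]) ∣ X ^ j * X ^ j - C s * X ^ j + C (e ^ j) := by
  set P : k[X] := X ^ 2 - C t * X + C e with hP
  have key : ∀ j : ℕ, ∃ s : k, P ∣ X ^ j + (C t - X) ^ j - C s := by
    intro j
    induction j using Nat.twoStepInduction with
    | zero => exact ⟨2, by simp [show (C (2 : k) : k[X]) = 2 from rfl]; norm_num⟩
    | one => exact ⟨t, by simp⟩
    | more j h0 h1 =>
      obtain ⟨s0, hs0⟩ := h0
      obtain ⟨s1, hs1⟩ := h1
      refine ⟨t * s1 - e * s0, ?_⟩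
      have e1 : (X : k[X]) ^ (j + 2) + (C t - X) ^ (j + 2) - C (t * s1 - e * s0) =
          C t * (X ^ (j + 1) + (C t - X) ^ (j + 1) - C s1) -
            C e * (X ^ j + (C t - X) ^ j - C s0) + P * (X ^ j + (C t - X) ^ j) := by
        rw [hP]; simp only [map_sub, map_mul]; ring
      rw [e1]
      exact dvd_add (dvd_sub (Dvd.dvd.mul_left hs1 _) (Dvd.dvd.mul_left hs0 _))
        (dvd_mul_right _ _)
  obtain ⟨s, hs⟩ := key j
  refine ⟨s, ?_⟩
  have h2 : P ∣ (X * (C t - X)) ^ j - (C e) ^ j := by
    have h3 : (X * (C t - X) - C e : k[X]) ∣ (X * (C t - X)) ^ j - (C e) ^ j :=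
      sub_dvd_pow_sub_pow _ _ j
    have h4 : (X * (C t - X) - C e : k[X]) = -P := by rw [hP]; ring
    rw [h4] at h3
    exact (neg_dvd).mp h3
  have e2 : (X : k[X]) ^ j * X ^ j - C s * X ^ j + C (e ^ j) =
      X ^ j * (X ^ j + (C t - X) ^ j - C s) - ((X * (C t - X)) ^ j - (C e) ^ j) := by
    rw [mul_pow, map_pow]; ring
  rw [e2]
  exact dvd_sub (Dvd.dvd.mul_left hs _) h2

variable {A : Type*} [Ring A] [Algebra k A]

/-- If `x² - t x + e = 0` then `x ^ j` satisfies `y² - t' y + e ^ j = 0` for some `t'`. -/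
theorem blr75_pow (x : A) (t e : k) (h : x * x - t • x + e • (1 : A) = 0) (j : ℕ) :
    ∃ t' : k, x ^ j * x ^ j - t' • x ^ j + (e ^ j) • (1 : A) = 0 := by
  obtain ⟨s, Q, hQ⟩ := blr75_pow_poly t e j
  refine ⟨s, ?_⟩
  have h1 := congrArg (Polynomial.aeval x) hQ
  have h2 : Polynomial.aeval x (X ^ 2 - C t * X + C e : k[X]) = 0 := by
    simp only [map_sub, map_add, map_mul, map_pow, aeval_X, aeval_C, Algebra.algebraMap_eq_smul_one]
    rw [smul_mul_assoc, one_mul, pow_two]
    exact h
  rw [map_mul, h2, zero_mul] at h1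
  simp only [map_sub, map_add, map_mul, map_pow, aeval_X, aeval_C,
    Algebra.algebraMap_eq_smul_one] at h1
  rw [smul_mul_assoc, one_mul, _root_.smul_pow, one_pow] at h1
  exact h1

end Pow

section Main

variable {k : Type*} [Field k] {G : Type*} [Group G]

section Irr

variable {V : Type*} [AddCommGroup V] [Module k V]

/-- The key identity: for a `μ`-eigenvector `u` of `ρ g₀`, the vector `ρ g₀ (ρ h u)` lies in
`k u + k ρ h u`, with explicit coefficients. -/
theorem blr75_key (ρ : G →* Module.End k V) (χ : G →* kˣ) (t : G → k)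
    (hrel : ∀ g, ρ g + (χ g : k) • ρ g⁻¹ = t g • (1 : Module.End k V))
    (g₀ h : G) (μ : k) (u : V) (hu : ρ g₀ u = μ • u) :
    ρ g₀ (ρ h u) = (t (g₀ * h) - (t g₀ - μ) * t h) • u + (t g₀ - μ) • ρ h u := by
  have e1 := LinearMap.congr_fun (hrel (g₀ * h)) u
  have e2 := LinearMap.congr_fun (hrel g₀) u
  have e3 := LinearMap.congr_fun (hrel h) u
  simp only [LinearMap.add_apply, LinearMap.smul_apply, Module.End.one_apply, map_mul,
    Module.End.mul_apply, mul_inv_rev, Units.val_mul] at e1 e2 e3
  rw [hu] at e2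
  have e2' : (χ g₀ : k) • ρ g₀⁻¹ u = (t g₀ - μ) • u := by
    rw [sub_smul]; exact eq_sub_of_add_eq' e2
  have e3' : (χ h : k) • ρ h⁻¹ u = t h • u - ρ h u := eq_sub_of_add_eq' e3
  have e5 : ((χ g₀ : k) * (χ h : k)) • ρ h⁻¹ (ρ g₀⁻¹ u) = (t g₀ - μ) • (t h • u - ρ h u) := by
    rw [← e3', mul_comm, mul_smul, ← map_smul (ρ h⁻¹), e2', map_smul, smul_comm]
  rw [e5] at e1
  have e6 : ρ g₀ (ρ h u) = t (g₀ * h) • u - (t g₀ - μ) • (t h • u - ρ h u) :=
    eq_sub_of_add_eq e1
  rw [e6]
  module

/-- Irreducibility plus the key identity: for a `μ`-eigenvector `u ≠ 0` of `ρ g₀`, the operator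
`ρ g₀ - (t g₀ - μ)` has range in the line `k u`. -/
theorem blr75_range (ρ : G →* Module.End k V) (χ : G →* kˣ) (t : G → k)
    (hrel : ∀ g, ρ g + (χ g : k) • ρ g⁻¹ = t g • (1 : Module.End k V))
    (hirr : ∀ U : Submodule k V, (∀ g, ∀ w ∈ U, ρ g w ∈ U) → U = ⊥ ∨ U = ⊤)
    (g₀ : G) (μ : k) (u : V) (hu0 : u ≠ 0) (hu : ρ g₀ u = μ • u) (w : V) :
    ρ g₀ w - (t g₀ - μ) • w ∈ Submodule.span k {u} := by
  set U : Submodule k V := Submodule.span k (Set.range fun h : G => ρ h u) with hU
  have hinv : ∀ g, ∀ w ∈ U, ρ g w ∈ U := by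
    intro g w hw
    induction hw using Submodule.span_induction with
    | mem x hx =>
      obtain ⟨h, rfl⟩ := hx
      refine Submodule.subset_span ⟨g * h, ?_⟩
      simp only [map_mul, Module.End.mul_apply]
    | zero => rw [map_zero]; exact Submodule.zero_mem _
    | add x y _ _ hx hy => rw [map_add]; exact Submodule.add_mem _ hx hy
    | smul c x _ hx => rw [map_smul]; exact Submodule.smul_mem _ c hx
  have huU : u ∈ U := Submodule.subset_span ⟨1, by simp⟩
  have hUtop : U = ⊤ := by
    rcases hirr U hinv with h | h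
    · exfalso
      rw [h, Submodule.mem_bot] at huU
      exact hu0 huU
    · exact h
  have hw : w ∈ U := by rw [hUtop]; exact Submodule.mem_top
  induction hw using Submodule.span_induction with
  | mem x hx =>
    obtain ⟨h, rfl⟩ := hx
    show ρ g₀ (ρ h u) - (t g₀ - μ) • ρ h u ∈ Submodule.span k {u}
    rw [blr75_key ρ χ t hrel g₀ h μ u hu, add_sub_cancel_right]
    exact Submodule.smul_mem _ _ (Submodule.mem_span_singleton_self u)
  | zero => simp
  | add x y _ _ hx hy =>
    have : ρ g₀ (x + y) - (t g₀ - μ) • (x + y) =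
        (ρ g₀ x - (t g₀ - μ) • x) + (ρ g₀ y - (t g₀ - μ) • y) := by
      rw [map_add, smul_add]; abel
    rw [this]; exact Submodule.add_mem _ hx hy
  | smul c x _ hx =>
    have : ρ g₀ (c • x) - (t g₀ - μ) • (c • x) = c • (ρ g₀ x - (t g₀ - μ) • x) := by
      rw [map_smul, smul_sub, smul_comm]
    rw [this]; exact Submodule.smul_mem _ c hx

/-- If every `ρ g` is a scalar and `ρ` is irreducible, the space is at most one-dimensional. -/
theorem blr75_finrank_le_one_of_scalar [FiniteDimensional k V] [Nontrivial V]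
    (ρ : G →* Module.End k V)
    (hirr : ∀ U : Submodule k V, (∀ g, ∀ w ∈ U, ρ g w ∈ U) → U = ⊥ ∨ U = ⊤)
    (hsc : ∀ g, ∃ α : k, ρ g = α • (1 : Module.End k V)) : Module.finrank k V ≤ 1 := by
  obtain ⟨v, hv⟩ := exists_ne (0 : V)
  have hinv : ∀ g, ∀ w ∈ Submodule.span k {v}, ρ g w ∈ Submodule.span k {v} := by
    intro g w hw
    obtain ⟨α, hα⟩ := hsc g
    rw [hα, LinearMap.smul_apply, Module.End.one_apply]
    exact Submodule.smul_mem _ _ hw
  rcases hirr _ hinv with h | h
  · exfalso
    have := Submodule.mem_span_singleton_self (R := k) v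
    rw [h, Submodule.mem_bot] at this
    exact hv this
  · rw [← finrank_top k V, ← h, finrank_span_singleton hv]

/-- **Irreducible case**: the dimension is at most two. -/
theorem blr75_finrank_le_two [IsAlgClosed k] [FiniteDimensional k V] [Nontrivial V]
    (ρ : G →* Module.End k V) (χ : G →* kˣ) (t : G → k)
    (hrel : ∀ g, ρ g + (χ g : k) • ρ g⁻¹ = t g • (1 : Module.End k V))
    (hirr : ∀ U : Submodule k V, (∀ g, ∀ w ∈ U, ρ g w ∈ U) → U = ⊥ ∨ U = ⊤) :
    Module.finrank k V ≤ 2 := by
  by_cases hsc : ∀ g, ∃ α : k, ρ g = α • (1 : Module.End k V)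
  · exact (blr75_finrank_le_one_of_scalar ρ hirr hsc).trans (by norm_num)
  push Not at hsc
  obtain ⟨g₀, hg₀⟩ := hsc
  obtain ⟨lam, hlam⟩ := Module.End.exists_eigenvalue (ρ g₀)
  obtain ⟨v, hv⟩ := hlam.exists_hasEigenvector
  have hv0 : v ≠ 0 := hv.2
  have hvlam : ρ g₀ v = lam • v := hv.apply_eq_smul
  set D : Module.End k V := ρ g₀ - (t g₀ - lam) • (1 : Module.End k V) with hD
  -- range of D is in the line through v
  have hrange : LinearMap.range D ≤ Submodule.span k {v} := by
    rintro _ ⟨w, rfl⟩
    have := blr75_range ρ χ t hrel hirr g₀ lam v hv0 hvlam w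
    simpa [hD] using this
  -- a nonzero vector in the range of ρ g₀ - lam
  have hne : ρ g₀ - lam • (1 : Module.End k V) ≠ 0 := fun h => hg₀ lam (sub_eq_zero.mp h)
  obtain ⟨w₁, hw₁⟩ : ∃ w₁, (ρ g₀ - lam • (1 : Module.End k V)) w₁ ≠ 0 := by
    by_contra hcon
    push Not at hcon
    exact hne (LinearMap.ext hcon)
  set w₀ : V := (ρ g₀ - lam • (1 : Module.End k V)) w₁ with hw₀
  have hker : LinearMap.ker D ≤ Submodule.span k {w₀} := by
    intro u' hu'
    by_cases hu'0 : u' = 0
    · rw [hu'0]; exact Submodule.zero_mem _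
    have hu'eq : ρ g₀ u' = (t g₀ - lam) • u' := by
      have := LinearMap.mem_ker.mp hu'
      simpa [hD, sub_eq_zero] using this
    have h1 := blr75_range ρ χ t hrel hirr g₀ (t g₀ - lam) u' hu'0 hu'eq w₁
    rw [sub_sub_cancel] at h1
    have h2 : w₀ ∈ Submodule.span k {u'} := by
      simpa [hw₀] using h1
    obtain ⟨c, hc⟩ := Submodule.mem_span_singleton.mp h2
    have hc0 : c ≠ 0 := by
      rintro rfl
      rw [zero_smul] at hc
      exact hw₁ hc.symm
    rw [Submodule.mem_span_singleton]
    exact ⟨c⁻¹, by rw [← hc, smul_smul, inv_mul_cancel₀ hc0, one_smul]⟩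
  have h1 : Module.finrank k (LinearMap.range D) ≤ 1 :=
    (Submodule.finrank_mono hrange).trans_eq (finrank_span_singleton hv0)
  have h2 : Module.finrank k (LinearMap.ker D) ≤ 1 :=
    (Submodule.finrank_mono hker).trans_eq (finrank_span_singleton hw₁)
  have h3 := LinearMap.finrank_range_add_finrank_ker D
  omega

/-- From the quadratic relation to the "trace" relation `ρ g + χ g • ρ g⁻¹ = t`. -/
theorem blr75_rel_of_quad (ρ : G →* Module.End k V) (χ : G →* kˣ) (g : G) (t : k)
    (h : ρ g * ρ g - t • ρ g + (χ g : k) • (1 : Module.End k V) = 0) :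
    ρ g + (χ g : k) • ρ g⁻¹ = t • (1 : Module.End k V) := by
  have h1 : ρ g * ρ g⁻¹ = 1 := by rw [← map_mul, mul_inv_cancel, map_one]
  have h2 := congrArg (· * ρ g⁻¹) h
  simp only [add_mul, sub_mul, mul_assoc, h1, mul_one, smul_mul_assoc, one_mul, zero_mul] at h2
  rw [sub_add_eq_add_sub, sub_eq_zero] at h2
  exact h2

/-- Two-dimensional irreducible case: the characteristic polynomial is the given quadratic. -/
theorem blr75_charpoly_two [FiniteDimensional k V]
    (ρ : G →* Module.End k V) (χ : G →* kˣ)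
    (hq : ∀ g, ∃ t : k, ρ g * ρ g - t • ρ g + (χ g : k) • (1 : Module.End k V) = 0)
    (hirr : ∀ U : Submodule k V, (∀ g, ∀ w ∈ U, ρ g w ∈ U) → U = ⊥ ∨ U = ⊤)
    (h2 : Module.finrank k V = 2) (g : G) (t : k)
    (hg : ρ g * ρ g - t • ρ g + (χ g : k) • (1 : Module.End k V) = 0) :
    LinearMap.charpoly (ρ g) = X ^ 2 - C t * X + C (χ g : k) := by
  have : Nontrivial V := Module.nontrivial_of_finrank_pos (R := k) (by rw [h2]; norm_num)
  have hone : (1 : Module.End k V) ≠ 0 := one_ne_zero
  let b : Basis (Fin 2) k V := Module.finBasisOfFinrankEq k V h2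
  -- general shape of the characteristic polynomial
  have hcp : ∀ f : Module.End k V, LinearMap.charpoly f =
      X ^ 2 - C (LinearMap.trace k V f) * X + C (LinearMap.det f) := by
    intro f
    rw [← LinearMap.charpoly_toMatrix f b, Matrix.charpoly_fin_two,
      LinearMap.trace_eq_matrix_trace k b f, LinearMap.det_toMatrix b f]
  -- Cayley-Hamilton
  have hch : ∀ f : Module.End k V,
      f * f - LinearMap.trace k V f • f + LinearMap.det f • (1 : Module.End k V) = 0 := by
    intro f
    have h := LinearMap.aeval_self_charpoly f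
    rw [hcp f] at h
    simp only [map_sub, map_add, map_mul, map_pow, aeval_X, aeval_C,
      Algebra.algebraMap_eq_smul_one] at h
    rw [smul_mul_assoc, one_mul, pow_two] at h
    exact h
  -- non-scalar case
  have hns : ∀ (f : Module.End k V) (s c : k), (∀ α : k, f ≠ α • (1 : Module.End k V)) →
      f * f - s • f + c • (1 : Module.End k V) = 0 →
      LinearMap.trace k V f = s ∧ LinearMap.det f = c := by
    intro f s c hf hrel
    have h := hch f
    have h3 : (LinearMap.trace k V f - s) • f =
        (LinearMap.det f - c) • (1 : Module.End k V) := by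
      have : (LinearMap.trace k V f - s) • f - (LinearMap.det f - c) • (1 : Module.End k V) =
          (f * f - s • f + c • (1 : Module.End k V)) -
          (f * f - LinearMap.trace k V f • f + LinearMap.det f • (1 : Module.End k V)) := by
        module
      rw [hrel, h, sub_zero] at this
      exact sub_eq_zero.mp this
    have h4 : LinearMap.trace k V f = s := by
      by_contra hne
      have hne' : LinearMap.trace k V f - s ≠ 0 := sub_ne_zero.mpr hne
      refine hf ((LinearMap.trace k V f - s)⁻¹ * (LinearMap.det f - c)) ?_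
      rw [mul_smul, ← h3, smul_smul, inv_mul_cancel₀ hne', one_smul]
    refine ⟨h4, ?_⟩
    rw [h4, sub_self, zero_smul] at h3
    have := (smul_eq_zero.mp h3.symm).resolve_right hone
    exact sub_eq_zero.mp this
  by_cases hsc : ∀ α : k, ρ g ≠ α • (1 : Module.End k V)
  · obtain ⟨h5, h6⟩ := hns (ρ g) t (χ g) hsc hg
    rw [hcp, h5, h6]
  · push Not at hsc
    obtain ⟨α, hα⟩ := hsc
    -- a non-scalar element
    obtain ⟨h, hh⟩ : ∃ h : G, ∀ β : k, ρ h ≠ β • (1 : Module.End k V) := by
      by_contra hcon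
      push Not at hcon
      have := blr75_finrank_le_one_of_scalar ρ hirr hcon
      omega
    obtain ⟨th, hth⟩ := hq h
    obtain ⟨tgh, htgh⟩ := hq (g * h)
    obtain ⟨-, hdeth⟩ := hns (ρ h) th (χ h) hh hth
    -- relation for α
    have hαrel : α * α - t * α + (χ g : k) = 0 := by
      have h7 : (α * α - t * α + (χ g : k)) • (1 : Module.End k V) = 0 := by
        rw [hα] at hg
        rw [← hg]
        simp only [smul_mul_smul_comm, mul_one, smul_smul]
        module
      exact (smul_eq_zero.mp h7).resolve_right hone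
    have hα0 : α ≠ 0 := by
      rintro rfl
      simp only [mul_zero, sub_zero, zero_add] at hαrel
      exact (χ g).ne_zero hαrel
    have hgh : ρ (g * h) = α • ρ h := by
      rw [map_mul, hα, smul_mul_assoc, one_mul]
    have hghns : ∀ β : k, ρ (g * h) ≠ β • (1 : Module.End k V) := by
      intro β hβ
      refine hh (α⁻¹ * β) ?_
      rw [mul_smul, ← hβ, hgh, smul_smul, inv_mul_cancel₀ hα0, one_smul]
    obtain ⟨-, hdetgh⟩ := hns (ρ (g * h)) tgh (χ (g * h)) hghns htgh
    rw [hgh, LinearMap.det_smul, h2, hdeth, map_mul, Units.val_mul] at hdetgh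
    have hχ : α ^ 2 = (χ g : k) := mul_right_cancel₀ (χ h).ne_zero hdetgh
    have ht : t = 2 * α := by
      have : α * (2 * α - t) = 0 := by
        rw [← hχ] at hαrel
        linear_combination hαrel
      rcases mul_eq_zero.mp this with h8 | h8
      · exact absurd h8 hα0
      · exact (sub_eq_zero.mp h8).symm
    have htr : LinearMap.trace k V (α • (1 : Module.End k V)) = 2 * α := by
      rw [map_smul, LinearMap.trace_one, h2, smul_eq_mul]
      push_cast
      ring
    have hdet : LinearMap.det (α • (1 : Module.End k V)) = α ^ 2 := by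
      rw [LinearMap.det_smul, h2, map_one LinearMap.det, mul_one]
    rw [hcp, hα, htr, hdet, ← hχ, ht]

end Irr

section Final

variable {W : Type*} [AddCommGroup W] [Module k W]

/-- Restriction of a representation to an invariant subspace. -/
noncomputable def blr75_restrict (ρ : G →* Module.End k W) (U : Submodule k W)
    (hU : ∀ g, ∀ w ∈ U, ρ g w ∈ U) : G →* Module.End k U where
  toFun g := (ρ g).restrict (hU g)
  map_one' := by
    ext w
    simp [LinearMap.restrict_apply]
  map_mul' g h := by
    ext w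
    simp [LinearMap.restrict_apply]

theorem blr75_restrict_apply (ρ : G →* Module.End k W) (U : Submodule k W)
    (hU : ∀ g, ∀ w ∈ U, ρ g w ∈ U) (g : G) (w : U) :
    ((blr75_restrict ρ U hU g w : U) : W) = ρ g (w : W) := rfl

/-- A minimal nonzero invariant subspace. -/
theorem blr75_exists_min [FiniteDimensional k W] [Nontrivial W] (ρ : G →* Module.End k W) :
    ∃ U : Submodule k W, U ≠ ⊥ ∧ (∀ g, ∀ w ∈ U, ρ g w ∈ U) ∧
      ∀ U' : Submodule k W, U' ≤ U → (∀ g, ∀ w ∈ U', ρ g w ∈ U') → U' = ⊥ ∨ U' = U := by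
  let S : Set (Submodule k W) := {U | U ≠ ⊥ ∧ ∀ g, ∀ w ∈ U, ρ g w ∈ U}
  have hne : S.Nonempty := ⟨⊤, top_ne_bot, fun _ _ _ => Submodule.mem_top⟩
  obtain ⟨U, hUS, hmin⟩ := WellFounded.has_min
    (InvImage.wf (fun U : Submodule k W => Module.finrank k U) Nat.lt_wfRel.wf) S hne
  refine ⟨U, hUS.1, hUS.2, fun U' hle hinv => ?_⟩
  by_cases hb : U' = ⊥
  · exact Or.inl hb
  · right
    have h1 : ¬ (Module.finrank k U' < Module.finrank k U) := hmin U' ⟨hb, hinv⟩
    exact Submodule.eq_of_le_of_finrank_le hle (not_lt.mp h1)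

/-- **BLR-lite.**  If every `ρ g` satisfies `x² - t x + χ g = 0` for some `t` (`χ` a character,
`ρ` finite-dimensional and nonzero over an algebraically closed field), then there is a
two-dimensional representation `ρ'` whose characteristic polynomials are these quadratics;
`ρ'` is trivial wherever `ρ` and `χ` are. -/
theorem blr75_main [IsAlgClosed k] [FiniteDimensional k W] [Nontrivial W]
    (ρ : G →* Module.End k W) (χ : G →* kˣ)
    (hq : ∀ g, ∃ t : k, ρ g * ρ g - t • ρ g + (χ g : k) • (1 : Module.End k W) = 0) :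
    ∃ ρ' : G →* Module.End k (Fin 2 → k),
      (∀ g (t : k), ρ g * ρ g - t • ρ g + (χ g : k) • (1 : Module.End k W) = 0 →
        LinearMap.charpoly (ρ' g) = X ^ 2 - C t * X + C (χ g : k)) ∧
      (∀ g, ρ g = 1 → χ g = 1 → ρ' g = 1) := by
  obtain ⟨U, hU0, hUinv, hUmin⟩ := blr75_exists_min ρ
  have hnt : Nontrivial U := Submodule.nontrivial_iff_ne_bot.mpr hU0
  set ρU := blr75_restrict ρ U hUinv with hρU
  -- the relation transfers
  have hquad : ∀ g (t : k), ρ g * ρ g - t • ρ g + (χ g : k) • (1 : Module.End k W) = 0 →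
      ρU g * ρU g - t • ρU g + (χ g : k) • (1 : Module.End k U) = 0 := by
    intro g t h
    ext w
    have h1 := LinearMap.congr_fun h (w : W)
    simp only [LinearMap.add_apply, LinearMap.sub_apply, LinearMap.smul_apply,
      Module.End.mul_apply, Module.End.one_apply, LinearMap.zero_apply] at h1
    simp only [LinearMap.add_apply, LinearMap.sub_apply, LinearMap.smul_apply,
      Module.End.mul_apply, Module.End.one_apply, LinearMap.zero_apply, Submodule.coe_add,
      Submodule.coe_sub, Submodule.coe_smul, Submodule.coe_zero, hρU, blr75_restrict_apply]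
    exact h1
  have hone : ∀ g, ρ g = 1 → ρU g = 1 := by
    intro g hg
    ext w
    simp only [hρU, blr75_restrict_apply, hg, Module.End.one_apply]
  -- irreducibility
  have hirr : ∀ U' : Submodule k U, (∀ g, ∀ w ∈ U', ρU g w ∈ U') → U' = ⊥ ∨ U' = ⊤ := by
    intro U' hinv
    have h1 := hUmin (U'.map U.subtype) (Submodule.map_subtype_le U U') (by
      rintro g _ ⟨w', hw', rfl⟩
      exact ⟨ρU g w', hinv g w' hw', rfl⟩)
    rcases h1 with h | h
    · left
      exact Submodule.map_injective_of_injective U.injective_subtype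
        (h.trans (Submodule.map_bot _).symm)
    · right
      exact Submodule.map_injective_of_injective U.injective_subtype
        (h.trans (Submodule.map_subtype_top U).symm)
  choose t ht using hq
  have hrel : ∀ g, ρU g + (χ g : k) • ρU g⁻¹ = t g • (1 : Module.End k U) :=
    fun g => blr75_rel_of_quad ρU χ g (t g) (hquad g (t g) (ht g))
  have hle := blr75_finrank_le_two ρU χ t hrel hirr
  have hpos : 0 < Module.finrank k U := Module.finrank_pos
  rcases (by omega : Module.finrank k U = 2 ∨ Module.finrank k U = 1) with h2 | h1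
  · -- dimension two: transport along a basis
    let e : U ≃ₗ[k] (Fin 2 → k) := (Module.finBasisOfFinrankEq k U h2).equivFun
    refine ⟨(e.conjRingEquiv.toMulEquiv.toMonoidHom).comp ρU, ?_, ?_⟩
    · intro g t' hg
      show LinearMap.charpoly (e.conj (ρU g)) = _
      rw [LinearEquiv.charpoly_conj]
      exact blr75_charpoly_two ρU χ (fun g => ⟨t g, hquad g _ (ht g)⟩) hirr h2 g t'
        (hquad g t' hg)
    · intro g hg1 _
      show e.conjRingEquiv (ρU g) = 1
      rw [hone g hg1, map_one]
  · -- dimension one: a character `ψ`, take `ψ ⊕ χ ψ⁻¹`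
    obtain ⟨v, hv⟩ := exists_ne (0 : U)
    have hspan := (finrank_eq_one_iff_of_nonzero' v hv).mp h1
    choose ψ hψ using fun g => hspan (ρU g v)
    have hψ1 : ψ 1 = 1 := by
      apply smul_left_injective k hv
      show ψ 1 • v = (1 : k) • v
      rw [hψ, map_one, Module.End.one_apply, one_smul]
    have hψmul : ∀ g h, ψ (g * h) = ψ g * ψ h := by
      intro g h
      apply smul_left_injective k hv
      show ψ (g * h) • v = (ψ g * ψ h) • v
      rw [hψ, map_mul, Module.End.mul_apply, ← hψ h, map_smul, ← hψ g, smul_smul, mul_comm]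
    have hψ0 : ∀ g, ψ g ≠ 0 := by
      intro g h0
      have := hψmul g g⁻¹
      rw [mul_inv_cancel, hψ1, h0, zero_mul] at this
      exact one_ne_zero this
    have hψrel : ∀ g (t' : k), ρ g * ρ g - t' • ρ g + (χ g : k) • (1 : Module.End k W) = 0 →
        ψ g * ψ g - t' * ψ g + (χ g : k) = 0 := by
      intro g t' hg
      have h3 := LinearMap.congr_fun (hquad g t' hg) v
      simp only [LinearMap.add_apply, LinearMap.sub_apply, LinearMap.smul_apply,
        Module.End.mul_apply, Module.End.one_apply, LinearMap.zero_apply] at h3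
      rw [← hψ g, map_smul, ← hψ g, smul_smul, smul_smul, ← sub_smul, ← add_smul] at h3
      exact (smul_eq_zero.mp h3).resolve_right hv
    let ρ' : G →* Module.End k (Fin 2 → k) :=
      { toFun := fun g => Matrix.toLin' (Matrix.diagonal ![ψ g, (χ g : k) * (ψ g)⁻¹])
        map_one' := by
          have : (![ψ 1, ((χ 1 : kˣ) : k) * (ψ 1)⁻¹] : Fin 2 → k) = 1 := by
            funext i
            fin_cases i <;> simp [hψ1]
          have h1 : Matrix.diagonal (1 : Fin 2 → k) = 1 := Matrix.diagonal_one
          rw [this, h1, Matrix.toLin'_one]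
          rfl
        map_mul' := fun g h => by
          have : (![ψ (g * h), ((χ (g * h) : kˣ) : k) * (ψ (g * h))⁻¹] : Fin 2 → k) =
              fun i => (![ψ g, (χ g : k) * (ψ g)⁻¹] : Fin 2 → k) i *
                (![ψ h, (χ h : k) * (ψ h)⁻¹] : Fin 2 → k) i := by
            funext i
            fin_cases i
            · simp [hψmul]
            · simp [hψmul]
              ring
          rw [this, ← Matrix.diagonal_mul_diagonal, Matrix.toLin'_mul]
          rfl }
    refine ⟨ρ', ?_, ?_⟩
    · intro g t' hg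
      show LinearMap.charpoly (Matrix.toLin' (Matrix.diagonal ![ψ g, (χ g : k) * (ψ g)⁻¹])) = _
      rw [← Matrix.toLin_eq_toLin', Matrix.charpoly_toLin, Matrix.charpoly_fin_two,
        Matrix.trace_fin_two, Matrix.det_fin_two]
      have h4 := hψrel g t' hg
      have h5 : t' = ψ g + (χ g : k) * (ψ g)⁻¹ := by
        have := hψ0 g
        field_simp
        linear_combination -h4
      simp only [Matrix.diagonal_apply_eq, Matrix.diagonal_apply_ne, ne_eq, Fin.isValue,
        zero_ne_one, one_ne_zero, not_false_eq_true, Matrix.cons_val_zero, Matrix.cons_val_one,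
        mul_zero, sub_zero]
      rw [h5, mul_comm (ψ g), mul_assoc, inv_mul_cancel₀ (hψ0 g), mul_one]
    · intro g hg1 hχ1
      have hψg : ψ g = 1 := by
        apply smul_left_injective k hv
        show ψ g • v = (1 : k) • v
        rw [hψ, hone g hg1, Module.End.one_apply, one_smul]
      show Matrix.toLin' (Matrix.diagonal ![ψ g, (χ g : k) * (ψ g)⁻¹]) = 1
      have : (![ψ g, ((χ g : kˣ) : k) * (ψ g)⁻¹] : Fin 2 → k) = 1 := by
        funext i
        fin_cases i <;> simp [hψg, hχ1]
      have h1 : Matrix.diagonal (1 : Fin 2 → k) = 1 := Matrix.diagonal_one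
      rw [this, h1, Matrix.toLin'_one]
      rfl

end Final

end Main

end Fermat.Agent.S42
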