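/-
# S42, M3-concrete, stage 1 (helper41): the degrees (K1)

* `gi41_baseChange_eq` : `laurentBaseChange L (modularFunctionFieldFull N)
    = modularFunctionFieldFullC L N` for every field `L ⊇ ℚ` (so the Prelude's `F_L(N)` is the
  field generated by the `j(q^d)`, `d ∣ N`, over `L`; generalises `ga41_bar_eq`).
* `gi41_index` : `[SL(2,ℤ) : Γ₀(N)] = ψ(N)`.
* `gi41_K1` : `[F_K(N) : K(j)] = [SL(2,ℤ) : Γ₀(N)]` for every field `K` with `(N : K) ≠ 0`
  (`ga41_finrank_res` + the coset count), hence hypothesis `hdeg` of `gc6_*` / `gi41_*`.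
* `gi41_relindex` : `[Γ₀(N) : Γ₀(N ℓ)] = ℓ + 1` for a prime `ℓ ∤ N`.
* `gi41_finrank_alpha` : `[F_L(N ℓ) : F_L(N)] = ℓ + 1` along the inclusion `heckeAlphaBar`.
-/
import Fermat.Agent.S37.GaussBasis41
import Fermat.Agent.Lib.Gamma0Cosets
import Fermat.Agent.S18.NormDescent
import Fermat.Prelude.Def_ModularCurve_HeckeOperator

set_option autoImplicit false
set_option synthInstance.maxHeartbeats 400000

open ModularCurve IntermediateField AlgebraicCurve MatrixGroups CongruenceSubgroup

namespace Fermat.Agent.S42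

open Fermat.Agent.S18 Fermat.Agent.S28 Fermat.Agent.S24 Fermat.Agent.S37

/-- The Prelude's base-changed function field is generated by the `j(q^d)`, over any field
containing `ℚ`. -/
theorem gi41_baseChange_eq (L : Type) [Field L] [Algebra ℚ L] (N : ℕ) :
    laurentBaseChange L (modularFunctionFieldFull N) = modularFunctionFieldFullC L N := by
  have hgen : ∀ (d : ℕ) [NeZero d], coeffEmb L (qExpand ℚ d jq) =
      qExpand L d (jqModC L) := by
    intro d _
    show coeffMap (algebraMap ℚ L) (qExpand ℚ d (jqModC ℚ)) = _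
    rw [coeffMap_qExpand, coeffMap_jqModC]
  have key : ∀ x ∈ IntermediateField.adjoin ℚ (divisorExpansions N),
      coeffEmb L x ∈ modularFunctionFieldFullC L N := by
    intro x hx
    induction hx using IntermediateField.adjoin_induction with
    | mem x hx =>
      obtain ⟨d, hd0, hd, rfl⟩ := hx
      rw [hgen d]
      exact jqModCd_mem_full _ N hd
    | algebraMap r =>
      have e : coeffEmb L (algebraMap ℚ (LaurentSeries ℚ) r) =
          algebraMap L (LaurentSeries L) (algebraMap ℚ L r) := by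
        rw [coeffEmb, algebraMap_laurentSeries_eq_single, coeffMap_single,
          ← algebraMap_laurentSeries_eq_single]
      rw [e]
      exact (modularFunctionFieldFullC L N).algebraMap_mem _
    | add x y _ _ hx hy =>
      rw [map_add]
      exact add_mem hx hy
    | inv x _ hx =>
      rw [map_inv₀]
      exact inv_mem hx
    | mul x y _ _ hx hy =>
      rw [map_mul]
      exact mul_mem hx hy
  apply le_antisymm
  · refine IntermediateField.adjoin_le_iff.mpr ?_
    rintro _ ⟨x, hx, rfl⟩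
    exact key x hx
  · refine IntermediateField.adjoin_le_iff.mpr ?_
    rintro _ ⟨d, hd0, hd, rfl⟩
    rw [SetLike.mem_coe, ← hgen d]
    exact coeffEmb_mem_laurentBaseChange L (jqd_mem_full N hd)

/-- `[SL(2,ℤ) : Γ₀(N)] = ψ(N)`. -/
theorem gi41_index (N : ℕ) [NeZero N] : (Gamma0 N).index = dedekindPsi N :=
  Fermat.Agent.Lib.card_quotient_Gamma0 N

/-- **(K1)**: `[F_K(N) : K(j)] = [SL(2,ℤ) : Γ₀(N)]` for every field `K` in which `N` is
invertible. -/
theorem gi41_K1 (K : Type) [Field K] (N : ℕ) [NeZero N] (hN : (N : K) ≠ 0) :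
    FiniteDimensional (IntermediateField.adjoin K {ga41_jk N K})
        ↥(modularFunctionFieldFullC K N) ∧
      Module.finrank (IntermediateField.adjoin K {ga41_jk N K})
        ↥(modularFunctionFieldFullC K N) = (Gamma0 N).index := by
  rw [gi41_index]
  exact ga41_finrank_res N K hN

/-- `[F_K(N) : K(j)] = ψ(N)` as a relative degree inside `K((q))`. -/
theorem gi41_relfinrank_j (K : Type) [Field K] (N : ℕ) [NeZero N] (hN : (N : K) ≠ 0) :
    (K⟮jqModC K⟯).relfinrank (modularFunctionFieldFullC K N) = dedekindPsi N := by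
  have h1 := (ga41_finrank_res N K hN).2
  set x : ↥(modularFunctionFieldFullC K N) := ga41_jk N K with hx
  have hcomap : (K⟮jqModC K⟯).comap (modularFunctionFieldFullC K N).val = K⟮x⟯ := by
    have hmap : (K⟮x⟯).map (modularFunctionFieldFullC K N).val = K⟮jqModC K⟯ := by
      rw [IntermediateField.adjoin_map, Set.image_singleton]
      rfl
    rw [← hmap]
    ext y
    change (modularFunctionFieldFullC K N).val y ∈
      (K⟮x⟯).map (modularFunctionFieldFullC K N).val ↔ y ∈ K⟮x⟯
    rw [IntermediateField.mem_map]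
    constructor
    · rintro ⟨z, hz, hzy⟩
      have : z = y := (modularFunctionFieldFullC K N).val.injective hzy
      rw [← this]
      exact hz
    · intro hy
      exact ⟨y, hy, rfl⟩
  have h2 := IntermediateField.finrank_comap (A := K⟮jqModC K⟯) (modularFunctionFieldFullC K N).val
  rw [hcomap, IntermediateField.fieldRange_val] at h2
  rw [← h2, h1]

theorem gi41_j_le (K : Type) [Field K] (N : ℕ) [NeZero N] :
    K⟮jqModC K⟯ ≤ modularFunctionFieldFullC K N := by
  rw [IntermediateField.adjoin_simple_le_iff]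
  exact jqModC_mem_full K N

theorem gi41_psi_pos (N : ℕ) [NeZero N] : 0 < dedekindPsi N := by
  rw [← gi41_index]
  have : (Gamma0 N).FiniteIndex := inferInstance
  exact Nat.pos_of_ne_zero Subgroup.FiniteIndex.index_ne_zero

/-- `ψ(N) * [F_K(N') : F_K(N)] = ψ(N')` for `N ∣ N'`, `N'` invertible in `K`. -/
theorem gi41_relfinrank (K : Type) [Field K] {N N' : ℕ} [NeZero N] [NeZero N'] (h : N ∣ N')
    (hN' : (N' : K) ≠ 0) :
    dedekindPsi N * (modularFunctionFieldFullC K N).relfinrank (modularFunctionFieldFullC K N') =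
      dedekindPsi N' := by
  have hN : (N : K) ≠ 0 := by
    obtain ⟨c, rfl⟩ := h
    intro h0
    apply hN'
    rw [Nat.cast_mul, h0, zero_mul]
  rw [← gi41_relfinrank_j K N hN, ← gi41_relfinrank_j K N' hN']
  exact IntermediateField.relfinrank_mul_relfinrank (gi41_j_le K N) (nd38_fullC_le K h)

/-- `[F_K(N ℓ) : F_K(N)] = ℓ + 1` (relative degree inside `K((q))`) for a prime `ℓ ∤ N`. -/
theorem gi41_relfinrank_prime (K : Type) [Field K] (N ℓ : ℕ) [NeZero N] [NeZero ℓ]
    (hℓ : ℓ.Prime) (hNℓ : ¬ ℓ ∣ N) (hK : ((N * ℓ : ℕ) : K) ≠ 0) :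
    (modularFunctionFieldFullC K N).relfinrank (modularFunctionFieldFullC K (N * ℓ)) = ℓ + 1 := by
  have h1 := gi41_relfinrank K (N := N) (N' := N * ℓ) (dvd_mul_right N ℓ) hK
  have hcop : Nat.Coprime N ℓ := ((Nat.Prime.coprime_iff_not_dvd hℓ).mpr hNℓ).symm
  rw [Fermat.Agent.Lib.G0C.dedekindPsi_mul hcop] at h1
  have h2 := Fermat.Agent.Lib.G0C.dedekindPsi_prime_pow hℓ (e := 1) one_pos
  have h3 : dedekindPsi ℓ = ℓ + 1 := by simpa using h2
  rw [h3] at h1
  exact Nat.eq_of_mul_eq_mul_left (gi41_psi_pos N) h1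

/-- `[Γ₀(N) : Γ₀(N ℓ)] = ℓ + 1` for a prime `ℓ ∤ N`. -/
theorem gi41_relindex (N ℓ : ℕ) [NeZero N] [NeZero ℓ] (hℓ : ℓ.Prime) (hNℓ : ¬ ℓ ∣ N) :
    (Gamma0 (N * ℓ)).relIndex (Gamma0 N) = ℓ + 1 := by
  have hle : Gamma0 (N * ℓ) ≤ Gamma0 N := by
    intro g hg
    rw [Gamma0_mem] at hg ⊢
    have h1 : ((N * ℓ : ℕ) : ℤ) ∣ g 1 0 := (ZMod.intCast_zmod_eq_zero_iff_dvd _ _).1 hg
    apply (ZMod.intCast_zmod_eq_zero_iff_dvd _ _).2
    exact dvd_trans (by exact_mod_cast dvd_mul_right N ℓ) h1
  have h1 := Subgroup.relIndex_mul_index hle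
  rw [gi41_index, gi41_index] at h1
  have hcop : Nat.Coprime N ℓ := ((Nat.Prime.coprime_iff_not_dvd hℓ).mpr hNℓ).symm
  rw [Fermat.Agent.Lib.G0C.dedekindPsi_mul hcop] at h1
  have h2 := Fermat.Agent.Lib.G0C.dedekindPsi_prime_pow hℓ (e := 1) one_pos
  have h3 : dedekindPsi ℓ = ℓ + 1 := by simpa using h2
  rw [h3, mul_comm] at h1
  exact Nat.eq_of_mul_eq_mul_left (gi41_psi_pos N) h1

/-- The degree of `F_L(N ℓ)` over `F_L(N)` along the inclusion `α`. -/
theorem gi41_finrank_alpha (L : Type) [Field L] [Algebra ℚ L] (N ℓ : ℕ) [NeZero N] [NeZero ℓ]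
    (hℓ : ℓ.Prime) (hNℓ : ¬ ℓ ∣ N) :
    @Module.finrank (laurentBaseChange L (modularFunctionFieldFull N))
      (laurentBaseChange L (modularFunctionFieldFull (N * ℓ))) _ _
      (algebraAlong (heckeAlphaBar L N ℓ)).toModule = ℓ + 1 := by
  have hle : laurentBaseChange L (modularFunctionFieldFull N) ≤
      laurentBaseChange L (modularFunctionFieldFull (N * ℓ)) :=
    nd38_baseChange_le L (dvd_mul_right N ℓ)
  have hchar : CharZero L := charZero_of_injective_algebraMap (algebraMap ℚ L).injective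
  have hK : ((N * ℓ : ℕ) : L) ≠ 0 := Nat.cast_ne_zero.mpr (NeZero.ne (N * ℓ))
  have hrel : (laurentBaseChange L (modularFunctionFieldFull N)).relfinrank
      (laurentBaseChange L (modularFunctionFieldFull (N * ℓ))) = ℓ + 1 := by
    rw [gi41_baseChange_eq, gi41_baseChange_eq]
    exact gi41_relfinrank_prime L N ℓ hℓ hNℓ hK
  rw [← hrel, IntermediateField.relfinrank_eq_finrank_of_le hle]
  let _ := algebraAlong (heckeAlphaBar L N ℓ)
  let j : ↥(laurentBaseChange L (modularFunctionFieldFull (N * ℓ))) ≃+*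
      ↥(IntermediateField.extendScalars hle) :=
    { toFun := fun x => ⟨x.1, (IntermediateField.mem_extendScalars hle).mpr x.2⟩
      invFun := fun x => ⟨x.1, (IntermediateField.mem_extendScalars hle).mp x.2⟩
      left_inv := fun _ => rfl
      right_inv := fun _ => rfl
      map_mul' := fun _ _ => rfl
      map_add' := fun _ _ => rfl }
  exact Algebra.finrank_eq_of_equiv_equiv (RingEquiv.refl _) j (RingHom.ext fun x => rfl)

end Fermat.Agent.S42
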