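/-
# S42, M8a stage 1 (helper45): Hecke equivariance on the Theta side — the abstract core

Setting: `K` a field, `F`, `F'` fields over `K` (function fields of levels `N` and `N ℓ`),
`φ ψ : F →ₐ[K] F'` (think `φ = heckeBetaBar`, `ψ = heckeAlphaBar`), so that the Prelude Hecke
correspondence is `Divisor.correspondence φ ψ = pushforwardAlong ψ ∘ pullbackAlong φ`.

* `ht45_corr_div`: if `n • D = div u` then `n • (correspondence D) = div (Norm_ψ (φ u))`.
* `ht45_root`: if `ev' (φ x) = a • ev x`, the norm along `ψ` is a product of conjugates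
  `δ j • ·` (K3-relative) and `h ^ p = ev u`, then
  `(∏ j, (δ j * a) • h) ^ p = ev (Norm_ψ (φ u))`.
* `ht45_char`: the multiplier of `∏ j, b j • h` under `γ` is the transfer `∏ j, c (γ' j)`
  where `γ * b j = b (π j) * γ' j`.
* `ht45_kummer_hecke`: bundled statement on Kummer data.

Mathlib + Prelude `Def_AlgebraicCurve_Correspondence` only; the action is any
`MulSemiringAction` (left action, as in the M0 framework).
-/
import Mathlib
import Fermat.Prelude.Def_AlgebraicCurve_Correspondence

set_option autoImplicit false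
set_option linter.style.haveILetI false

namespace Fermat.Agent.S42

open AlgebraicCurve

section Divisors

variable {K F F' : Type*} [Field K] [Field F] [Field F'] [Algebra K F] [Algebra K F']

/-- The norm from `F'` to `F` along `ψ : F →ₐ[K] F'`. -/
noncomputable def ht45_normAlong (ψ : F →ₐ[K] F') (w : F') : F :=
  letI := algebraAlong ψ
  Algebra.norm F w

theorem ht45_normAlong_def (ψ : F →ₐ[K] F') (w : F') :
    ht45_normAlong ψ w = (letI := algebraAlong ψ; Algebra.norm F w) := rfl

theorem ht45_normAlong_ne_zero (ψ : F →ₐ[K] F') (hfin : FiniteAlong K ψ) {w : F'} (hw : w ≠ 0) :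
    ht45_normAlong ψ w ≠ 0 := by
  letI := algebraAlong ψ
  haveI : Module.Finite F F' := hfin
  exact Algebra.norm_ne_zero_iff.mpr hw

theorem ht45_normAlong_mul (ψ : F →ₐ[K] F') (w₁ w₂ : F') :
    ht45_normAlong ψ (w₁ * w₂) = ht45_normAlong ψ w₁ * ht45_normAlong ψ w₂ := by
  letI := algebraAlong ψ
  exact map_mul (Algebra.norm F) w₁ w₂

theorem ht45_normAlong_pow (ψ : F →ₐ[K] F') (w : F') (n : ℕ) :
    ht45_normAlong ψ (w ^ n) = ht45_normAlong ψ w ^ n := by
  letI := algebraAlong ψ
  exact map_pow (Algebra.norm F) w n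

variable [HasPrincipalDivisors K F']
variable (φ ψ : F →ₐ[K] F') (hφ : φ.toRingHom.IsIntegral) (hψ : ψ.toRingHom.IsIntegral)

/-- Pull-back of a principal divisor along `φ`. -/
theorem ht45_pullback_div {D : Divisor K F} {u : F} (hD : ∀ v : Place K F, D v = v.ord u)
    (w : Place K F') : Divisor.pullbackAlong φ hφ D w = w.ord (φ u) := by
  letI := algebraAlong φ
  haveI := isScalarTower_along φ
  haveI := isIntegral_along φ hφ
  exact Divisor.pullback_apply_eq_ord hD w

omit [HasPrincipalDivisors K F'] in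
/-- Push-forward of a principal divisor along `ψ` (norm formula). -/
theorem ht45_pushforward_div (hfin : FiniteAlong K ψ) (hN : NormFormulaAlong K ψ hfin)
    {D : Divisor K F'} {w : F'} (hw : w ≠ 0) (hD : ∀ v : Place K F', D v = v.ord w)
    (v : Place K F) : Divisor.pushforwardAlong ψ hψ D v = v.ord (ht45_normAlong ψ w) := by
  letI := algebraAlong ψ
  haveI := isScalarTower_along ψ
  haveI := isIntegral_along ψ hψ
  haveI : Module.Finite F F' := hfin
  exact hN w hw D hD v

/-- The correspondence applied to a principal divisor. -/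
theorem ht45_corr_div_one (hfin : FiniteAlong K ψ) (hN : NormFormulaAlong K ψ hfin)
    {D : Divisor K F} {u : F} (hu : u ≠ 0) (hD : ∀ v : Place K F, D v = v.ord u)
    (v : Place K F) :
    Divisor.correspondence φ ψ hφ hψ D v = v.ord (ht45_normAlong ψ (φ u)) := by
  rw [Divisor.correspondence_apply]
  exact ht45_pushforward_div ψ hψ hfin hN ((map_ne_zero φ).mpr hu)
    (ht45_pullback_div φ hφ hD) v

/-- **Divisor level**: if `n • D = div u` then `n • T D = div (Norm_ψ (φ u))`. -/
theorem ht45_corr_div (hfin : FiniteAlong K ψ) (hN : NormFormulaAlong K ψ hfin) (n : ℤ)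
    {D : Divisor K F} {u : F} (hu : u ≠ 0) (hD : ∀ v : Place K F, n * D v = v.ord u)
    (v : Place K F) :
    n * Divisor.correspondence φ ψ hφ hψ D v = v.ord (ht45_normAlong ψ (φ u)) := by
  have h1 : ∀ v : Place K F, (n • D) v = v.ord u := fun v => by
    rw [Finsupp.smul_apply, smul_eq_mul]; exact hD v
  have h2 := ht45_corr_div_one φ ψ hφ hψ hfin hN hu h1 v
  rw [map_zsmul, Finsupp.smul_apply, smul_eq_mul] at h2
  exact h2

end Divisors

section Analytic

variable {F F' : Type*} [Field F] [Field F']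
variable {MM : Type*} [Field MM] {GG : Type*} [Group GG] [MulSemiringAction GG MM]
variable {ι : Type*} [Fintype ι]

/-- **Root of the norm**: if the norm is a product of conjugates and `h ^ p = ev u`, then the
product of the translates of `h` is a `p`-th root of the norm of `φ u`. -/
theorem ht45_root_gen (ev : F →+* MM) (ev' : F' →+* MM) (φ : F →+* F') (nm : F' → F)
    (a : GG) (hφev : ∀ x : F, ev' (φ x) = a • ev x)
    (δ : ι → GG) (hnorm : ∀ w : F', ev (nm w) = ∏ j, δ j • ev' w)
    (p : ℕ) {u : F} {h : MM} (hh : h ^ p = ev u) :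
    (∏ j, (δ j * a) • h) ^ p = ev (nm (φ u)) := by
  rw [hnorm, hφev, ← hh, ← Finset.prod_pow]
  refine Finset.prod_congr rfl fun j _ => ?_
  rw [mul_smul, smul_pow', smul_pow']

/-- **Multiplier of the product of translates** (transfer formula, left-action form). -/
theorem ht45_char (b : ι → GG) (h : MM) (c : GG → MM) (γ : GG) (π : Equiv.Perm ι)
    (γ' : ι → GG) (hπ : ∀ j, γ * b j = b (π j) * γ' j)
    (hc : ∀ j, γ' j • h = c (γ' j) * h) (hcfix : ∀ (g : GG) (j : ι), g • c (γ' j) = c (γ' j)) :
    γ • (∏ j, b j • h) = (∏ j, c (γ' j)) * ∏ j, b j • h := by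
  rw [Finset.smul_prod']
  have h1 : ∀ j, γ • b j • h = c (γ' j) * b (π j) • h := fun j => by
    rw [← mul_smul, hπ j, mul_smul, hc j, smul_mul', hcfix]
  rw [Finset.prod_congr rfl fun j _ => h1 j, Finset.prod_mul_distrib]
  congr 1
  exact Equiv.prod_comp π fun j => b j • h

end Analytic

section Root

variable {K F F' : Type*} [Field K] [Field F] [Field F'] [Algebra K F] [Algebra K F']
variable {MM : Type*} [Field MM] {GG : Type*} [Group GG] [MulSemiringAction GG MM]
variable {ι : Type*} [Fintype ι]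

/-- **Root of the norm**, in the shape of the Hecke correspondence: `φ` is pulled back,
`ψ` is pushed forward.  If `ev' ∘ φ = a • ev`, the norm along `ψ` is the product of the
conjugates `δ j • ·`, and `h ^ p = ev u`, then `(∏ j, (δ j * a) • h) ^ p = ev (Norm_ψ (φ u))`. -/
theorem ht45_root (φ ψ : F →ₐ[K] F') (ev : F →+* MM) (ev' : F' →+* MM)
    (a : GG) (hφev : ∀ x : F, ev' (φ x) = a • ev x)
    (δ : ι → GG) (hnorm : ∀ w : F', ev (ht45_normAlong ψ w) = ∏ j, δ j • ev' w)
    (p : ℕ) {u : F} {h : MM} (hh : h ^ p = ev u) :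
    (∏ j, (δ j * a) • h) ^ p = ev (ht45_normAlong ψ (φ u)) :=
  ht45_root_gen ev ev' φ.toRingHom (ht45_normAlong ψ) a hφev δ hnorm p hh

/-- The product of translates of a nonzero element is nonzero. -/
theorem ht45_prod_ne_zero (b : ι → GG) {h : MM} (hh : h ≠ 0) : (∏ j, b j • h) ≠ 0 :=
  Finset.prod_ne_zero_iff.mpr fun j _ => (smul_ne_zero_iff_ne (b j)).mpr hh

end Root

section Bundled

variable {K F F' : Type*} [Field K] [Field F] [Field F'] [Algebra K F] [Algebra K F']
variable [HasPrincipalDivisors K F']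
variable {MM : Type*} [Field MM] {GG : Type*} [Group GG] [MulSemiringAction GG MM]
variable {ι : Type*} [Fintype ι]

/-- **Bundled Kummer datum under the Hecke correspondence.**  Let `D` be a degree-zero divisor
with `n • D = div u` and `h ^ n = ev u`.  Then the image of the class of `D` under
`Pic0.correspondence φ ψ` is the class of a degree-zero divisor `D'` with
`n • D' = div (Norm_ψ (φ u))`, and `H := ∏ j, (δ j * a) • h` satisfies
`H ^ n = ev (Norm_ψ (φ u))`. -/
theorem ht45_kummer_hecke (φ ψ : F →ₐ[K] F') (hφ : φ.toRingHom.IsIntegral)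
    (hψ : ψ.toRingHom.IsIntegral) (hFI : FundamentalIdentityAlong K φ hφ)
    (hfin : FiniteAlong K ψ) (hN : NormFormulaAlong K ψ hfin)
    (ev : F →+* MM) (ev' : F' →+* MM)
    (a : GG) (hφev : ∀ x : F, ev' (φ x) = a • ev x)
    (δ : ι → GG) (hnorm : ∀ w : F', ev (ht45_normAlong ψ w) = ∏ j, δ j • ev' w)
    (n : ℕ) (D : Divisor.degZero (K := K) (F := F)) {u : F} (hu : u ≠ 0)
    (hD : ∀ v : Place K F, (n : ℤ) * (D : Divisor K F) v = v.ord u)
    {h : MM} (hh : h ^ n = ev u) :
    ∃ D' : Divisor.degZero (K := K) (F := F),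
      Pic0.correspondence φ ψ hφ hψ hFI hfin hN (Pic0.mk D) = Pic0.mk D' ∧
      ht45_normAlong ψ (φ u) ≠ 0 ∧
      (∀ v : Place K F, (n : ℤ) * (D' : Divisor K F) v = v.ord (ht45_normAlong ψ (φ u))) ∧
      (∏ j, (δ j * a) • h) ^ n = ev (ht45_normAlong ψ (φ u)) := by
  refine ⟨Pic0.degZeroCorrespondence φ ψ hφ hψ hFI D, Pic0.correspondence_mk φ ψ hφ hψ hFI hfin hN D,
    ht45_normAlong_ne_zero ψ hfin ((map_ne_zero φ).mpr hu), fun v => ?_,
    ht45_root φ ψ ev ev' a hφev δ hnorm n hh⟩
  rw [Pic0.coe_degZeroCorrespondence]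
  exact ht45_corr_div φ ψ hφ hψ hfin hN n hu hD v

end Bundled

end Fermat.Agent.S42
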