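import Fermat.Agent.S42.NormEmb49
import Fermat.Agent.S42.GaloisK1_41
import Fermat.Agent.S42.HeckeTheta45

/-!
# S42, row M8f (helper49): K3-relative for the Hecke correspondence, over `ℚ̄`

`nm49_hecke_hnorm`: for a prime `ℓ ∤ N`, ring homomorphisms `e : F_ℚ̄(N) → M`,
`e' : F_ℚ̄(Nℓ) → M` into a field `M` with an action of a group `G ⊇ ι (Γ₀(N))`, such that
* `e' ∘ α = e` (`α = heckeAlphaBar`, the inclusion),
* `ι γ • e x = e x` for `γ ∈ Γ₀(N)`,
* an element of `Γ₀(N)` fixing `e' (F_ℚ̄(Nℓ))` pointwise lies in `Γ₀(Nℓ)`,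
the norm along `α` is the product over the cosets of `Γ₀(Nℓ)` in `Γ₀(N)`:
`e (Nm_α y) = ∏ q : Γ₀(N) ⧸ Γ₀(Nℓ), ι q.out • e' y`.

This is hypothesis `hnorm` of `ht53_bridge` / `ht45_root` in the concrete situation; no `K2`,
no level-one rationality and no base change to `ℂ` of the norm is used: only
`[F(Nℓ) : F(N)] = ℓ + 1 = [Γ₀(N) : Γ₀(Nℓ)]` (`gi41_finrank_alpha`, `gi41_relindex`) and
`nm49_norm_eq_prod`.
-/

set_option autoImplicit false
set_option linter.style.haveILetI false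
set_option synthInstance.maxHeartbeats 400000

open ModularCurve AlgebraicCurve CongruenceSubgroup MatrixGroups

namespace Fermat.Agent.S42

local notation "Qb" => AlgebraicClosure ℚ

theorem nm49_gamma0_le (N ℓ : ℕ) : Gamma0 (N * ℓ) ≤ Gamma0 N := by
  intro g hg
  rw [Gamma0_mem] at hg ⊢
  have h1 : ((N * ℓ : ℕ) : ℤ) ∣ g 1 0 := (ZMod.intCast_zmod_eq_zero_iff_dvd _ _).1 hg
  apply (ZMod.intCast_zmod_eq_zero_iff_dvd _ _).2
  exact dvd_trans (by exact_mod_cast dvd_mul_right N ℓ) h1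

section Abstract

variable {Γ : Type*} [Group Γ] {G : Type*} [Group G] {M : Type*} [Field M]
  [MulSemiringAction G M]

/-- Group-theoretic packaging of `nm49_norm_eq_prod`: the index set is the coset space `Γ ⧸ S`,
the embeddings are given by the representatives `q.out`. -/
theorem nm49_norm_eq_prod_quot {F F' : Type*} [Field F] [Field F'] [CharZero F]
    [Algebra F F'] [FiniteDimensional F F'] (ι : Γ →* G) (S : Subgroup Γ) [Fintype (Γ ⧸ S)]
    (e : F →+* M) (e' : F' →+* M) (hcomp : ∀ x : F, e' (algebraMap F F' x) = e x)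
    (hinv : ∀ (γ : Γ) (x : F), ι γ • e x = e x)
    (hstab : ∀ γ : Γ, (∀ y : F', ι γ • e' y = e' y) → γ ∈ S)
    (hcard : Fintype.card (Γ ⧸ S) = Module.finrank F F') (y : F') :
    e (Algebra.norm F y) = ∏ q : Γ ⧸ S, ι q.out • e' y := by
  refine nm49_norm_eq_prod e e' hcomp (fun q : Γ ⧸ S => ι q.out) (fun q x => hinv _ x) ?_ hcard y
  intro q q' h
  have h1 : q'.out⁻¹ * q.out ∈ S := by
    apply hstab
    intro y
    rw [map_mul, mul_smul, h y, ← mul_smul, ← map_mul, inv_mul_cancel, map_one, one_smul]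
  have h2 : ((q'.out : Γ) : Γ ⧸ S) = ((q.out : Γ) : Γ ⧸ S) := QuotientGroup.eq.mpr h1
  rw [QuotientGroup.out_eq', QuotientGroup.out_eq'] at h2
  exact h2.symm

end Abstract

section Modular

variable {G : Type*} [Group G] {M : Type*} [Field M] [MulSemiringAction G M]

/-- **K3-relative for `T_ℓ` over `ℚ̄`** (hypothesis `hnorm` of the Hecke bridge). -/
theorem nm49_hecke_hnorm (N ℓ : ℕ) [NeZero N] [NeZero ℓ] (hℓ : ℓ.Prime) (hNℓ : ¬ ℓ ∣ N)
    (ι : ↥(Gamma0 N) →* G)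
    (e : ↥(modularFunctionFieldBar N) →+* M) (e' : ↥(modularFunctionFieldBar (N * ℓ)) →+* M)
    (hcomp : ∀ x : ↥(modularFunctionFieldBar N), e' (heckeAlphaBar Qb N ℓ x) = e x)
    (hinv : ∀ (γ : ↥(Gamma0 N)) (x : ↥(modularFunctionFieldBar N)), ι γ • e x = e x)
    (hstab : ∀ γ : ↥(Gamma0 N), (∀ y : ↥(modularFunctionFieldBar (N * ℓ)), ι γ • e' y = e' y) →
      (γ : SL(2, ℤ)) ∈ Gamma0 (N * ℓ))
    [Fintype (↥(Gamma0 N) ⧸ (Gamma0 (N * ℓ)).subgroupOf (Gamma0 N))]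
    (y : ↥(modularFunctionFieldBar (N * ℓ))) :
    e (ht45_normAlong (heckeAlphaBar Qb N ℓ) y)
      = ∏ q : ↥(Gamma0 N) ⧸ (Gamma0 (N * ℓ)).subgroupOf (Gamma0 N), ι q.out • e' y := by
  letI := algebraAlong (heckeAlphaBar Qb N ℓ)
  have hfr : Module.finrank ↥(modularFunctionFieldBar N) ↥(modularFunctionFieldBar (N * ℓ))
      = ℓ + 1 := gi41_finrank_alpha Qb N ℓ hℓ hNℓ
  haveI : FiniteDimensional ↥(modularFunctionFieldBar N) ↥(modularFunctionFieldBar (N * ℓ)) :=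
    Module.finite_of_finrank_pos (by rw [hfr]; exact Nat.succ_pos ℓ)
  haveI : CharZero ↥(modularFunctionFieldBar N) :=
    charZero_of_injective_algebraMap (algebraMap Qb ↥(modularFunctionFieldBar N)).injective
  have hcard : Fintype.card (↥(Gamma0 N) ⧸ (Gamma0 (N * ℓ)).subgroupOf (Gamma0 N))
      = Module.finrank ↥(modularFunctionFieldBar N) ↥(modularFunctionFieldBar (N * ℓ)) := by
    rw [hfr, ← Nat.card_eq_fintype_card, ← Subgroup.index_eq_card]
    exact gi41_relindex N ℓ hℓ hNℓ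
  exact nm49_norm_eq_prod_quot ι ((Gamma0 (N * ℓ)).subgroupOf (Gamma0 N)) e e'
    (fun x => hcomp x) hinv (fun γ hγ => Subgroup.mem_subgroupOf.mpr (hstab γ hγ)) hcard y

/-- The same with an arbitrary finite family of representatives `r i ∈ Γ₀(N)`, pairwise
inequivalent modulo `Γ₀(Nℓ)` on the right, `ℓ + 1` in number (the shape of `ht45_root`). -/
theorem nm49_hecke_hnorm_family (N ℓ : ℕ) [NeZero N] [NeZero ℓ] (hℓ : ℓ.Prime) (hNℓ : ¬ ℓ ∣ N)
    (ι : ↥(Gamma0 N) →* G)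
    (e : ↥(modularFunctionFieldBar N) →+* M) (e' : ↥(modularFunctionFieldBar (N * ℓ)) →+* M)
    (hcomp : ∀ x : ↥(modularFunctionFieldBar N), e' (heckeAlphaBar Qb N ℓ x) = e x)
    (hinv : ∀ (γ : ↥(Gamma0 N)) (x : ↥(modularFunctionFieldBar N)), ι γ • e x = e x)
    (hstab : ∀ γ : ↥(Gamma0 N), (∀ y : ↥(modularFunctionFieldBar (N * ℓ)), ι γ • e' y = e' y) →
      (γ : SL(2, ℤ)) ∈ Gamma0 (N * ℓ))
    {κ : Type*} [Fintype κ] (r : κ → ↥(Gamma0 N))
    (hr : ∀ i j, (((r j)⁻¹ * r i : ↥(Gamma0 N)) : SL(2, ℤ)) ∈ Gamma0 (N * ℓ) → i = j)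
    (hκ : Fintype.card κ = ℓ + 1)
    (y : ↥(modularFunctionFieldBar (N * ℓ))) :
    e (ht45_normAlong (heckeAlphaBar Qb N ℓ) y) = ∏ i, ι (r i) • e' y := by
  letI := algebraAlong (heckeAlphaBar Qb N ℓ)
  have hfr : Module.finrank ↥(modularFunctionFieldBar N) ↥(modularFunctionFieldBar (N * ℓ))
      = ℓ + 1 := gi41_finrank_alpha Qb N ℓ hℓ hNℓ
  haveI : FiniteDimensional ↥(modularFunctionFieldBar N) ↥(modularFunctionFieldBar (N * ℓ)) :=
    Module.finite_of_finrank_pos (by rw [hfr]; exact Nat.succ_pos ℓ)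
  haveI : CharZero ↥(modularFunctionFieldBar N) :=
    charZero_of_injective_algebraMap (algebraMap Qb ↥(modularFunctionFieldBar N)).injective
  refine nm49_norm_eq_prod e e' (fun x => hcomp x) (fun i => ι (r i)) (fun i x => hinv _ x) ?_
    (by rw [hκ, hfr]) y
  intro i j h
  apply hr i j
  apply hstab
  intro y
  rw [map_mul, mul_smul, h y, ← mul_smul, ← map_mul, inv_mul_cancel, map_one, one_smul]

end Modular

end Fermat.Agent.S42
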