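import Mathlib

/-!
# S42 / descent block D1 (helper16): derivations of a field of characteristic zero over `ℚ`

For a field `K` that is a `ℚ`-algebra (for instance `ℂ`):

* `dc16_algebraic` : every `ℚ`-derivation of `K` kills the elements algebraic over `ℚ`;
* `dc16_extend` : a derivation `S → K` on a subalgebra `S` over which `K` is algebraic extends
  to a derivation of `K`;
* `dc16_exists` : for a transcendental `c` there is a derivation `d` of `K` with `d c = 1`;
* `dc16_const_iff` : the common kernel of all derivations is the set of algebraic elements;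
* `dc16_const_iff_range` : for a ring homomorphism `φ : ℚ̄ → K`, the common kernel of all
  derivations of `K` is the range of `φ`.

Mathlib only.
-/

set_option autoImplicit false
set_option linter.style.haveILetI false

open scoped TensorProduct KaehlerDifferential

namespace Fermat.Agent.S42

/-- Every `ℚ`-derivation of `K` kills the elements that are algebraic over `ℚ`. -/
theorem dc16_algebraic {K : Type*} [Field K] [Algebra ℚ K] (d : Derivation ℚ K K) {a : K}
    (ha : IsAlgebraic ℚ a) : d a = 0 := by
  have hint : IsIntegral ℚ a := ha.isIntegral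
  have hsep : (minpoly ℚ a).Separable := (minpoly.irreducible hint).separable
  have h0 : d (Polynomial.aeval a (minpoly ℚ a)) = 0 := by rw [minpoly.aeval]; simp
  rw [Derivation.map_aeval] at h0
  have hne : Polynomial.aeval a (Polynomial.derivative (minpoly ℚ a)) ≠ 0 :=
    hsep.aeval_derivative_ne_zero (minpoly.aeval ℚ a)
  rcases smul_eq_zero.mp h0 with h | h
  · exact absurd h hne
  · exact h

/-- A field of characteristic zero is formally étale over every `ℚ`-subalgebra over which it is
algebraic. -/
theorem dc16_formallyEtale {K : Type*} [Field K] [Algebra ℚ K] (S : Subalgebra ℚ K)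
    [Algebra.IsAlgebraic S K] : Algebra.FormallyEtale S K := by
  haveI : CharZero K := charZero_of_injective_algebraMap (algebraMap ℚ K).injective
  letI : Algebra (FractionRing S) K := FractionRing.liftAlgebra S K
  haveI : IsScalarTower S (FractionRing S) K := FractionRing.isScalarTower_liftAlgebra S K
  haveI : Algebra.FormallyEtale S (FractionRing S) :=
    Algebra.FormallyEtale.of_isLocalization (nonZeroDivisors S)
  haveI : Algebra.IsAlgebraic (FractionRing S) K :=
    Algebra.IsAlgebraic.extendScalars (R := S) (IsFractionRing.injective S (FractionRing S))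
  haveI : Algebra.FormallyEtale (FractionRing S) K := Algebra.FormallyEtale.of_isSeparable _ _
  exact Algebra.FormallyEtale.comp S (FractionRing S) K

/-- Extension of a derivation from a subalgebra `S` over which `K` is algebraic. -/
theorem dc16_extend {K : Type*} [Field K] [Algebra ℚ K] (S : Subalgebra ℚ K)
    [Algebra.IsAlgebraic S K] (d₀ : Derivation ℚ S K) :
    ∃ d : Derivation ℚ K K, ∀ s : S, d (s : K) = d₀ s := by
  haveI : Algebra.FormallyEtale S K := dc16_formallyEtale S
  let e := KaehlerDifferential.tensorKaehlerEquivOfFormallyEtale ℚ S K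
  let f : (K ⊗[S] Ω[S⁄ℚ]) →ₗ[K] K := LinearMap.liftBaseChange K d₀.liftKaehlerDifferential
  refine ⟨(f.comp e.symm.toLinearMap).compDer (KaehlerDifferential.D ℚ K), fun s => ?_⟩
  have h1 : e.symm (KaehlerDifferential.D ℚ K (algebraMap S K s))
      = 1 ⊗ₜ KaehlerDifferential.D ℚ S s :=
    KaehlerDifferential.tensorKaehlerEquivOfFormallyEtale_symm_D_algebraMap ℚ S K s
  show f (e.symm (KaehlerDifferential.D ℚ K (s : K))) = d₀ s
  rw [show (s : K) = algebraMap S K s from rfl, h1]
  simp [f]

/-- For a transcendental element `c` of `K` there is a `ℚ`-derivation `d` of `K` with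
`d c = 1`. -/
theorem dc16_exists {K : Type*} [Field K] [Algebra ℚ K] (c : K) (hc : Transcendental ℚ c) :
    ∃ d : Derivation ℚ K K, d c = 1 := by
  classical
  have hs : AlgebraicIndepOn ℚ id ({c} : Set K) := by
    have : AlgebraicIndependent ℚ (fun i : ({c} : Set K) => id (i : K)) := by
      rw [algebraicIndependent_singleton_iff (⟨c, Set.mem_singleton c⟩ : ({c} : Set K))]
      exact hc
    exact this
  obtain ⟨t, hct, ht⟩ := exists_isTranscendenceBasis_superset hs
  have hx : AlgebraicIndependent ℚ ((↑) : t → K) := ht.1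
  haveI : Algebra.IsAlgebraic (Algebra.adjoin ℚ (Set.range ((↑) : t → K))) K := ht.isAlgebraic
  let i₀ : t := ⟨c, hct (Set.mem_singleton c)⟩
  have hval : ∀ s : Algebra.adjoin ℚ (Set.range ((↑) : t → K)),
      MvPolynomial.aeval ((↑) : t → K) (hx.aevalEquiv.symm s) = (s : K) := fun s => hx.aeval_repr s
  let L : (Algebra.adjoin ℚ (Set.range ((↑) : t → K))) →ₗ[ℚ] K :=
    (MvPolynomial.aeval ((↑) : t → K)).toLinearMap ∘ₗ
      ((MvPolynomial.pderiv i₀ : Derivation ℚ (MvPolynomial t ℚ) (MvPolynomial t ℚ)) :
        MvPolynomial t ℚ →ₗ[ℚ] MvPolynomial t ℚ) ∘ₗ hx.aevalEquiv.symm.toLinearMap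
  have hL : ∀ s, L s = MvPolynomial.aeval ((↑) : t → K)
      (MvPolynomial.pderiv i₀ (hx.aevalEquiv.symm s)) := fun s => rfl
  let d₀ : Derivation ℚ (Algebra.adjoin ℚ (Set.range ((↑) : t → K))) K :=
    Derivation.mk' L (by
      intro a b
      rw [hL, hL, hL, map_mul, Derivation.leibniz, map_add, smul_eq_mul, smul_eq_mul, map_mul,
        map_mul, hval, hval]
      rfl)
  obtain ⟨d, hd⟩ := dc16_extend _ d₀
  refine ⟨d, ?_⟩
  have h1 : (c : K) = ((hx.aevalEquiv (MvPolynomial.X i₀) :
      Algebra.adjoin ℚ (Set.range ((↑) : t → K))) : K) := by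
    rw [AlgebraicIndependent.aevalEquiv_apply_coe, MvPolynomial.aeval_X]
  rw [h1, hd]
  show L _ = 1
  rw [hL, AlgEquiv.symm_apply_apply, MvPolynomial.pderiv_X_self, map_one]

/-- The common kernel of all `ℚ`-derivations of `K` is the set of elements algebraic over `ℚ`. -/
theorem dc16_const_iff {K : Type*} [Field K] [Algebra ℚ K] (a : K) :
    (∀ d : Derivation ℚ K K, d a = 0) ↔ IsAlgebraic ℚ a := by
  constructor
  · intro h
    by_contra hna
    obtain ⟨d, hd⟩ := dc16_exists a hna
    rw [h d] at hd
    exact zero_ne_one hd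
  · intro ha d
    exact dc16_algebraic d ha

/-- The image of a ring homomorphism `ℚ̄ → K` consists of algebraic elements. -/
theorem dc16_isAlgebraic_range {K : Type*} [Field K] [Algebra ℚ K]
    (φ : AlgebraicClosure ℚ →+* K) (b : AlgebraicClosure ℚ) : IsAlgebraic ℚ (φ b) := by
  obtain ⟨p, hp0, hp⟩ := (AlgebraicClosure.isAlgebraic ℚ).isAlgebraic b
  refine ⟨p, hp0, ?_⟩
  rw [Polynomial.aeval_def] at hp ⊢
  have h2 : Polynomial.eval₂ (algebraMap ℚ K) (φ b) p
      = φ (Polynomial.eval₂ (@algebraMap ℚ (AlgebraicClosure ℚ) _ _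
          (AlgebraicClosure.instAlgebra ℚ)) b p) := by
    rw [Polynomial.hom_eval₂]
    congr 1
    exact Subsingleton.elim _ _
  rw [h2, hp, map_zero]

/-- Every element of `K` algebraic over `ℚ` is in the image of any ring homomorphism
`ℚ̄ → K`. -/
theorem dc16_mem_range_of_isAlgebraic {K : Type*} [Field K] [Algebra ℚ K]
    (φ : AlgebraicClosure ℚ →+* K) {a : K} (ha : IsAlgebraic ℚ a) : a ∈ Set.range φ := by
  letI : Algebra (AlgebraicClosure ℚ) K := φ.toAlgebra
  haveI : IsScalarTower ℚ (AlgebraicClosure ℚ) K :=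
    IsScalarTower.of_algebraMap_eq (fun q => by
      have : algebraMap ℚ K = (algebraMap (AlgebraicClosure ℚ) K).comp
          (algebraMap ℚ (AlgebraicClosure ℚ)) := Subsingleton.elim _ _
      rw [this]; rfl)
  have ha' : IsAlgebraic (AlgebraicClosure ℚ) a := ha.tower_top (AlgebraicClosure ℚ)
  have hint : IsIntegral (AlgebraicClosure ℚ) a := ha'.isIntegral
  have hdeg : (minpoly (AlgebraicClosure ℚ) a).degree = 1 :=
    IsAlgClosed.degree_eq_one_of_irreducible _ (minpoly.irreducible hint)
  have := minpoly.mem_range_of_degree_eq_one (AlgebraicClosure ℚ) a hdeg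
  exact this

/-- For a ring homomorphism `φ : ℚ̄ → K`, the common kernel of all `ℚ`-derivations of `K` is the
range of `φ`. -/
theorem dc16_const_iff_range {K : Type*} [Field K] [Algebra ℚ K]
    (φ : AlgebraicClosure ℚ →+* K) (a : K) :
    (∀ d : Derivation ℚ K K, d a = 0) ↔ a ∈ Set.range φ := by
  rw [dc16_const_iff]
  constructor
  · exact fun ha => dc16_mem_range_of_isAlgebraic φ ha
  · rintro ⟨b, rfl⟩
    exact dc16_isAlgebraic_range φ b

/-- `ℤ`-linear export in the shape of `ds3_Data.exists_adm` (descent block): every element of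
`K` outside the image of `φ : ℚ̄ → K` is moved (to `1`) by a derivation of `K` that kills the
image of `φ`. -/
theorem dc16_exists_adm {K : Type*} [Field K] [CharZero K] (φ : AlgebraicClosure ℚ →+* K)
    (a : K) (ha : a ∉ Set.range φ) :
    ∃ d : Derivation ℤ K K, (∀ c : AlgebraicClosure ℚ, d (φ c) = 0) ∧ d a = 1 := by
  letI : Algebra ℚ K := DivisionRing.toRatAlgebra
  have htr : Transcendental ℚ a := fun halg => ha (dc16_mem_range_of_isAlgebraic φ halg)
  obtain ⟨d, hd⟩ := dc16_exists a htr
  refine ⟨d.restrictScalars ℤ, fun c => ?_, ?_⟩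
  · exact dc16_algebraic d (dc16_isAlgebraic_range φ c)
  · exact hd

/-- Variant of `dc16_exists_adm` with `d a ≠ 0`. -/
theorem dc16_exists_adm_ne {K : Type*} [Field K] [CharZero K] (φ : AlgebraicClosure ℚ →+* K)
    (a : K) (ha : a ∉ Set.range φ) :
    ∃ d : Derivation ℤ K K, (∀ c : AlgebraicClosure ℚ, d (φ c) = 0) ∧ d a ≠ 0 := by
  obtain ⟨d, h1, h2⟩ := dc16_exists_adm φ a ha
  exact ⟨d, h1, by rw [h2]; exact one_ne_zero⟩

/-- Conversely, an element killed by every `ℤ`-derivation of `K` that kills the image of `φ` lies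
in the image of `φ`. -/
theorem dc16_mem_range_of_forall {K : Type*} [Field K] [CharZero K]
    (φ : AlgebraicClosure ℚ →+* K) (a : K)
    (h : ∀ d : Derivation ℤ K K, (∀ c : AlgebraicClosure ℚ, d (φ c) = 0) → d a = 0) :
    a ∈ Set.range φ := by
  by_contra ha
  obtain ⟨d, h1, h2⟩ := dc16_exists_adm φ a ha
  rw [h d h1] at h2
  exact zero_ne_one h2

end Fermat.Agent.S42
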