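import Fermat.Agent.S42.DescKummerOK86

/-!
# (DESC) in generic form: `T1` + place extension `T2` give the descent statement of the route

For `u ∈ F` with `n ∣ ord_P u` at every place of `F / K` there are `g ∈ F0`, `w ∈ F`, `c ∈ K`
with `ι g = c * (w ^ n * u)` and `n ∣ ord_{P0} g` at every place `P0` of `F0 / k0`.
-/

open AlgebraicCurve IntermediateField

namespace Fermat.Agent.S42

open Fermat.Agent.S24

variable {k0 K F0 F : Type*} [Field k0] [Field K] [IsAlgClosed K] [CharZero K] [Field F0]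
  [Field F] [Algebra k0 F0] [Algebra K F]

/-- **(DESC), generic form**, from the local estimates of row D3 and the place extension `T2`.
Only the divisibility at the non-rational places is used for the existence of `g`, and the
divisibility at the (rational) extensions of the places of `F0` for the last clause. -/
theorem dr86_desc [Infinite k0] (S : ds3_Data k0 K F0 F) (x : F0)
    (hy : Transcendental K (S.ι x)) [FiniteDimensional K⟮S.ι x⟯ F]
    (hR : ds3_RatOK S) (hN : ds3_NonRatOK S x)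
    (hT2 : ∀ P0 : Place k0 F0, ∃ P : Place K F, ∀ g : F0, P.ord (S.ι g) = P0.ord g)
    {n : ℕ} (hn : 0 < n) {u : F} (hu : u ≠ 0)
    (hdiv : ∀ P : Place K F, (n : ℤ) ∣ P.ord u) :
    ∃ (g : F0) (w : F) (c : K), g ≠ 0 ∧ w ≠ 0 ∧ c ≠ 0 ∧
      S.ι g = algebraMap K F c * (w ^ n * u) ∧ ∀ P0 : Place k0 F0, (n : ℤ) ∣ P0.ord g := by
  obtain ⟨c, w, g, hc, hw, hg, hG⟩ :=
    dr86_kummer_OK S x hy hR hN hn hu (fun P _ => hdiv P)
  have hc' : algebraMap K F c ≠ 0 := by
    rwa [Ne, map_eq_zero]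
  have hιg : S.ι g = algebraMap K F c⁻¹ * (w⁻¹ ^ n * u) := by
    rw [hG, map_inv₀, inv_pow]
    field_simp
  refine ⟨g, w⁻¹, c⁻¹, hg, inv_ne_zero hw, inv_ne_zero hc, hιg, fun P0 => ?_⟩
  obtain ⟨P, hP⟩ := hT2 P0
  rw [← hP g, hιg]
  have hcinv : algebraMap K F c⁻¹ ≠ 0 := by
    rw [Ne, map_eq_zero]
    exact inv_ne_zero hc
  have hwn : w⁻¹ ^ n ≠ 0 := pow_ne_zero _ (inv_ne_zero hw)
  rw [P.ord_mul hcinv (mul_ne_zero hwn hu), P.ord_mul hwn hu, wp1_ord_algebraMap, zero_add,
    dr86_ord_pow]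
  exact dvd_add (dvd_mul_right _ _) (hdiv P)

end Fermat.Agent.S42
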