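import Fermat.Agent.S42.DescData3
import Mathlib.Algebra.CharZero.Defs
import Mathlib.Tactic.LinearCombination
import Mathlib.Tactic.FieldSimp

/-!
# S42, descent block (owner: helper3), T3: powers descend

If `ι g = c · vⁿ` with `g ∈ F0`, `c ∈ K`, `v ∈ F`, then `g = c0 · v0ⁿ` with `c0 ∈ k0`, `v0 ∈ F0`.
Pure algebra from the fields `eigen` and `const` of `ds3_Data`.
-/

set_option autoImplicit false
set_option linter.style.haveILetI false

namespace Fermat.Agent.S42

variable {k0 K F0 F : Type*} [Field k0] [Field K] [Field F0] [Field F]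
  [Algebra k0 F0] [Algebra K F]

/-- **T3 (powers descend).** -/
theorem ds3_pow_descend [CharZero K] (S : ds3_Data k0 K F0 F) {n : ℕ} (hn : 0 < n) {g : F0}
    (hg : g ≠ 0) {c : K} {v : F} (h : S.ι g = algebraMap K F c * v ^ n) :
    ∃ (c0 : k0) (v0 : F0), g = algebraMap k0 F0 c0 * v0 ^ n := by
  have hιg : S.ι g ≠ 0 := (map_ne_zero S.ι).mpr hg
  have hc : algebraMap K F c ≠ 0 := by
    intro h0
    rw [h0, zero_mul] at h
    exact hιg h
  have hc' : c ≠ 0 := fun h0 => hc (by rw [h0, map_zero])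
  have hv : v ≠ 0 := by
    rintro rfl
    rw [zero_pow hn.ne', mul_zero] at h
    exact hιg h
  haveI : CharZero F := charZero_of_injective_algebraMap (algebraMap K F).injective
  have hnF : (n : F) ≠ 0 := by exact_mod_cast hn.ne'
  have hnK : (n : K) ≠ 0 := by exact_mod_cast hn.ne'
  obtain ⟨c1, v0, hv0⟩ := S.eigen v hv (by
    intro D hD
    obtain ⟨e, he⟩ := hD.2 c
    have h1 : D (S.ι g) = 0 := hD.1 g
    rw [h, Derivation.leibniz, Derivation.leibniz_pow, he] at h1
    simp only [smul_eq_mul, nsmul_eq_mul] at h1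
    refine ⟨-(e / (n * c)), ?_⟩
    have hvn : v ^ n = v ^ (n - 1) * v := by
      rw [← pow_succ, Nat.sub_add_cancel hn]
    have hvn1 : v ^ (n - 1) ≠ 0 := pow_ne_zero _ hv
    rw [hvn] at h1
    have h2 : v ^ (n - 1) * (algebraMap K F c * (n : F) * D v + v * algebraMap K F e) = 0 := by
      linear_combination h1
    have h3 : algebraMap K F c * (n : F) * D v + v * algebraMap K F e = 0 :=
      (mul_eq_zero.mp h2).resolve_left hvn1
    rw [map_neg, map_div₀, map_mul, map_natCast]
    field_simp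
    linear_combination h3)
  have hv0ne : v0 ≠ 0 := by
    rintro rfl
    rw [map_zero, mul_zero] at hv0
    exact hv hv0
  have hιv0 : S.ι v0 ≠ 0 := (map_ne_zero S.ι).mpr hv0ne
  have h4 : S.ι (g / v0 ^ n) = algebraMap K F (c * c1 ^ n) := by
    rw [map_div₀, map_pow, h, hv0, map_mul, map_pow]
    field_simp
    ring
  obtain ⟨c0, hc0⟩ := S.const _ _ h4
  refine ⟨c0, v0, ?_⟩
  rw [← hc0]
  field_simp

end Fermat.Agent.S42
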