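import Fermat.Agent.S42.DescData3
import Fermat.Agent.S18.ConstExtModular25

/-!
# S42, descent block, row D2a (helper80): the coefficientwise derivation

For a field `K` and a derivation `d` of `K`:

* `ld80_D d : Derivation ℤ (LaurentSeries K) (LaurentSeries K)`, the coefficientwise derivation
  (`ld80_D_coeff`, `ld80_D_eq_zero_iff`, `ld80_D_single`, `ld80_D_algebraMap`,
  `ld80_D_coeffMap`, `ld80_D_coeffMap_int`);
* `ld80_D_mem` : it preserves the function field `modularFunctionFieldFullC K N`;
* `ld80_DF d N`, its restriction to that field (`ld80_DF_coe`, `ld80_DF_algebraMap`,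
  `ld80_DF_eq_zero_iff`);
* `ld80_iota φ N`, the base change of functions along `φ : k0 →+* K` (`ld80_iota_coe`,
  `ld80_iota_algebraMap`, `ld80_gen`);
* `ld80_isAdm`, `ld80_exists_adm`, `ld80_const` : admissibility in the sense of `ds3_IsAdm`
  and the fields `exists_adm`, `const` of `ds3_Data` (row D0);
* `ld80_mem_range_of_isAlgebraic`, `ld80_hder_of_d1` : the hypothesis of `ld80_exists_adm`
  from the two facts of row D1.
-/

set_option autoImplicit false
set_option linter.style.haveILetI false

namespace Fermat.Agent.S42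

open HahnSeries ModularCurve IntermediateField AlgebraicCurve Fermat.Agent.S18

section Coeff

variable {K : Type*} [Field K] (d : Derivation ℤ K K)

/-- The coefficientwise map of a derivation, as an additive map. -/
noncomputable def ld80_hom : LaurentSeries K →+ LaurentSeries K where
  toFun x := x.map d
  map_zero' := by
    ext n
    simp
  map_add' x y := by
    ext n
    simp

theorem ld80_hom_coeff (x : LaurentSeries K) (n : ℤ) : (ld80_hom d x).coeff n = d (x.coeff n) :=
  rfl

theorem ld80_hom_support (x : LaurentSeries K) : (ld80_hom d x).support ⊆ x.support := by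
  intro n hn
  rw [HahnSeries.mem_support] at hn ⊢
  intro h0
  apply hn
  rw [ld80_hom_coeff, h0, map_zero]

theorem ld80_hom_mul (x y : LaurentSeries K) :
    ld80_hom d (x * y) = x * ld80_hom d y + y * ld80_hom d x := by
  ext n
  rw [HahnSeries.coeff_add, mul_comm y (ld80_hom d x),
    HahnSeries.coeff_mul_right' y.isPWO_support (ld80_hom_support d y),
    HahnSeries.coeff_mul_left' x.isPWO_support (ld80_hom_support d x),
    ld80_hom_coeff, HahnSeries.coeff_mul, map_sum, ← Finset.sum_add_distrib]
  refine Finset.sum_congr rfl fun ij _ => ?_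
  rw [d.leibniz, ld80_hom_coeff, ld80_hom_coeff, smul_eq_mul, smul_eq_mul, mul_comm (y.coeff ij.2)]

/-- **The coefficientwise derivation** of `K((q))` attached to a derivation of `K`. -/
noncomputable def ld80_D : Derivation ℤ (LaurentSeries K) (LaurentSeries K) :=
  Derivation.mk'
    (@LinearMap.mk ℤ ℤ _ _ (RingHom.id ℤ) (LaurentSeries K) (LaurentSeries K) _ _
      Algebra.toModule _
      (AddHom.mk (fun x => ld80_hom d x) (fun x y => map_add (ld80_hom d) x y))
      (fun n x => by
        have h := @map_intCast_smul (LaurentSeries K) (LaurentSeries K) _ _ _ _ _ (ld80_hom d)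
          ℤ ℤ _ _ Algebra.toModule _ n x
        simp only [Int.cast_id] at h
        exact h))
    (fun a b => by
      show ld80_hom d (a * b) = a • ld80_hom d b + b • ld80_hom d a
      rw [ld80_hom_mul, smul_eq_mul, smul_eq_mul])

@[simp]
theorem ld80_D_coeff (x : LaurentSeries K) (n : ℤ) : (ld80_D d x).coeff n = d (x.coeff n) :=
  rfl

theorem ld80_D_eq_zero_iff (x : LaurentSeries K) :
    ld80_D d x = 0 ↔ ∀ n, d (x.coeff n) = 0 := by
  constructor
  · intro h n
    rw [← ld80_D_coeff, h, HahnSeries.coeff_zero]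
  · intro h
    ext n
    rw [ld80_D_coeff, h, HahnSeries.coeff_zero]

theorem ld80_D_single (n : ℤ) (c : K) :
    ld80_D d (HahnSeries.single n c) = HahnSeries.single n (d c) := by
  ext m
  rw [ld80_D_coeff]
  rcases eq_or_ne m n with rfl | hm
  · rw [HahnSeries.coeff_single_same, HahnSeries.coeff_single_same]
  · rw [HahnSeries.coeff_single_of_ne hm, HahnSeries.coeff_single_of_ne hm, map_zero]

theorem ld80_D_algebraMap (c : K) :
    ld80_D d (algebraMap K (LaurentSeries K) c) = algebraMap K (LaurentSeries K) (d c) := by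
  rw [algebraMap_laurentSeries_eq_single, algebraMap_laurentSeries_eq_single, ld80_D_single]

/-- The coefficientwise derivation kills the series with `d`-constant coefficients. -/
theorem ld80_D_coeffMap {k0 : Type*} [CommRing k0] (φ : k0 →+* K) (hφ : ∀ a, d (φ a) = 0)
    (x : LaurentSeries k0) : ld80_D d (coeffMap φ x) = 0 := by
  rw [ld80_D_eq_zero_iff]
  intro n
  rw [coeffMap_coeff, hφ]

/-- The coefficientwise derivation kills the series with integer coefficients. -/
theorem ld80_D_coeffMap_int (x : LaurentSeries ℤ) :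
    ld80_D d (coeffMap (Int.castRingHom K) x) = 0 :=
  ld80_D_coeffMap d _ (fun a => by rw [eq_intCast, Derivation.map_intCast]) x

end Coeff

section Modular

variable {K : Type*} [Field K] (d : Derivation ℤ K K) (N : ℕ)

/-- The generators of `F(N)_K` have integer coefficients. -/
theorem ld80_gen_int {x : LaurentSeries K} (hx : x ∈ divisorExpansionsC K N) :
    ∃ y : LaurentSeries ℤ, x = coeffMap (Int.castRingHom K) y := by
  obtain ⟨e, he, -, rfl⟩ := hx
  have := he
  exact ⟨qExpand ℤ e (jqModC ℤ), by rw [coeffMap_qExpand, coeffMap_jqModC]⟩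

/-- **The coefficientwise derivation preserves the function field `F(N)_K`.** -/
theorem ld80_D_mem {x : LaurentSeries K} (hx : x ∈ modularFunctionFieldFullC K N) :
    ld80_D d x ∈ modularFunctionFieldFullC K N := by
  unfold modularFunctionFieldFullC at hx
  induction hx using IntermediateField.adjoin_induction with
  | mem x hx =>
    obtain ⟨y, rfl⟩ := ld80_gen_int N hx
    rw [ld80_D_coeffMap_int]
    exact zero_mem _
  | algebraMap c =>
    rw [ld80_D_algebraMap]
    exact IntermediateField.algebraMap_mem _ _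
  | add x y hx hy ihx ihy =>
    rw [map_add]
    exact add_mem ihx ihy
  | inv x hx ihx =>
    rw [Derivation.leibniz_inv, smul_eq_mul]
    exact mul_mem (neg_mem (pow_mem (inv_mem hx) 2)) ihx
  | mul x y hx hy ihx ihy =>
    rw [Derivation.leibniz, smul_eq_mul, smul_eq_mul]
    exact add_mem (mul_mem hx ihy) (mul_mem hy ihx)

/-- The restriction of the coefficientwise derivation to `F(N)_K`, as an additive map. -/
noncomputable def ld80_DFhom :
    ↥(modularFunctionFieldFullC K N) →+ ↥(modularFunctionFieldFullC K N) where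
  toFun x := ⟨ld80_D d (x : LaurentSeries K), ld80_D_mem d N x.2⟩
  map_zero' := Subtype.ext (map_zero (ld80_D d))
  map_add' x y := Subtype.ext (map_add (ld80_D d) (x : LaurentSeries K) y)

/-- **The restriction of the coefficientwise derivation to `F(N)_K`.** -/
noncomputable def ld80_DF :
    Derivation ℤ ↥(modularFunctionFieldFullC K N) ↥(modularFunctionFieldFullC K N) :=
  Derivation.mk'
    (@LinearMap.mk ℤ ℤ _ _ (RingHom.id ℤ) ↥(modularFunctionFieldFullC K N)
      ↥(modularFunctionFieldFullC K N) _ _ Algebra.toModule _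
      (AddHom.mk (fun x => ld80_DFhom d N x) (fun x y => map_add (ld80_DFhom d N) x y))
      (fun n x => by
        have h := @map_intCast_smul ↥(modularFunctionFieldFullC K N)
          ↥(modularFunctionFieldFullC K N) _ _ _ _ _ (ld80_DFhom d N)
          ℤ ℤ _ _ Algebra.toModule _ n x
        simp only [Int.cast_id] at h
        exact h))
    (fun a b => Subtype.ext (by
      show ld80_D d ((a : LaurentSeries K) * b) =
        (a : LaurentSeries K) * ld80_D d b + (b : LaurentSeries K) * ld80_D d a
      rw [Derivation.leibniz, smul_eq_mul, smul_eq_mul]))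

@[simp]
theorem ld80_DF_coe (x : ↥(modularFunctionFieldFullC K N)) :
    ((ld80_DF d N x : ↥(modularFunctionFieldFullC K N)) : LaurentSeries K) =
      ld80_D d (x : LaurentSeries K) := rfl

theorem ld80_DF_algebraMap (c : K) :
    ld80_DF d N (algebraMap K ↥(modularFunctionFieldFullC K N) c) =
      algebraMap K ↥(modularFunctionFieldFullC K N) (d c) :=
  Subtype.ext (ld80_D_algebraMap d c)

theorem ld80_DF_eq_zero_iff (x : ↥(modularFunctionFieldFullC K N)) :
    ld80_DF d N x = 0 ↔ ∀ n, d ((x : LaurentSeries K).coeff n) = 0 := by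
  rw [← ld80_D_eq_zero_iff, ← ld80_DF_coe]
  exact ⟨fun h => by rw [h]; rfl, fun h => Subtype.ext h⟩

end Modular

section BaseChange

variable {k0 K : Type*} [Field k0] [Field K] (φ : k0 →+* K) (N : ℕ)

/-- **Base change of functions** `F(N)_{k0} → F(N)_K`: `coeffMap φ`. -/
noncomputable def ld80_iota :
    ↥(modularFunctionFieldFullC k0 N) →+* ↥(modularFunctionFieldFullC K N) :=
  ((coeffMap φ).comp
    (algebraMap ↥(modularFunctionFieldFullC k0 N) (LaurentSeries k0))).codRestrict
      (modularFunctionFieldFullC K N) (fun f => cx_coeffMap_mem_fullC φ N f.2)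

@[simp]
theorem ld80_iota_coe (f : ↥(modularFunctionFieldFullC k0 N)) :
    ((ld80_iota φ N f : ↥(modularFunctionFieldFullC K N)) : LaurentSeries K) =
      coeffMap φ (f : LaurentSeries k0) := rfl

theorem ld80_iota_algebraMap (c : k0) :
    ld80_iota φ N (algebraMap k0 ↥(modularFunctionFieldFullC k0 N) c) =
      algebraMap K ↥(modularFunctionFieldFullC K N) (φ c) :=
  Subtype.ext (cx_coeffMap_algebraMap φ c)

/-- `F(N)_K` is generated over `K` by the image of `F(N)_{k0}`. -/
theorem ld80_gen :
    IntermediateField.adjoin K (Set.range (ld80_iota φ N)) = ⊤ := by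
  apply IntermediateField.lift_injective
  rw [lift_top, lift_adjoin]
  apply le_antisymm
  · rw [IntermediateField.adjoin_le_iff]
    rintro y ⟨z, -, rfl⟩
    exact z.2
  · conv_lhs => rw [modularFunctionFieldFullC]
    rw [IntermediateField.adjoin_le_iff]
    rintro y ⟨e, he, heN, rfl⟩
    have := he
    have h1 : qExpand K e (jqModC K) =
        ((ld80_iota φ N ⟨qExpand k0 e (jqModC k0), jqModCd_mem_full k0 N heN⟩ :
          ↥(modularFunctionFieldFullC K N)) : LaurentSeries K) := by
      rw [ld80_iota_coe, coeffMap_qExpand, coeffMap_jqModC]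
    rw [h1]
    exact IntermediateField.subset_adjoin _ _ ⟨_, ⟨_, rfl⟩, rfl⟩

variable (d : Derivation ℤ K K)

/-- The restricted coefficientwise derivation kills the base change of `F(N)_{k0}` when `d`
kills `φ k0`. -/
theorem ld80_DF_iota (hφ : ∀ a, d (φ a) = 0) (g : ↥(modularFunctionFieldFullC k0 N)) :
    ld80_DF d N (ld80_iota φ N g) = 0 :=
  Subtype.ext (ld80_D_coeffMap d φ hφ (g : LaurentSeries k0))

/-- **Admissibility** (`ds3_IsAdm`) of the restricted coefficientwise derivation. -/
theorem ld80_isAdm (hφ : ∀ a, d (φ a) = 0) :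
    ds3_IsAdm (K := K) (ld80_iota φ N) (ld80_DF d N) :=
  ⟨fun g => ld80_DF_iota φ N d hφ g, fun c => ⟨d c, ld80_DF_algebraMap d N c⟩⟩

/-- **The field `exists_adm` of `ds3_Data`** from enough derivations of `K` over `φ k0`. -/
theorem ld80_exists_adm
    (hder : ∀ a : K, a ∉ Set.range φ →
      ∃ d : Derivation ℤ K K, (∀ c, d (φ c) = 0) ∧ d a ≠ 0) :
    ∀ a : K, a ∉ Set.range φ →
      ∃ D : Derivation ℤ ↥(modularFunctionFieldFullC K N) ↥(modularFunctionFieldFullC K N),
        ds3_IsAdm (K := K) (ld80_iota φ N) D ∧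
          D (algebraMap K ↥(modularFunctionFieldFullC K N) a) ≠ 0 := by
  intro a ha
  obtain ⟨d, hd, hda⟩ := hder a ha
  refine ⟨ld80_DF d N, ld80_isAdm φ N d hd, ?_⟩
  rw [ld80_DF_algebraMap]
  exact (map_ne_zero (algebraMap K ↥(modularFunctionFieldFullC K N))).mpr hda

/-- **The field `const` of `ds3_Data`**: `ι F(N)_{k0} ∩ K = k0`. -/
theorem ld80_const (g : ↥(modularFunctionFieldFullC k0 N)) (c : K)
    (h : ld80_iota φ N g = algebraMap K ↥(modularFunctionFieldFullC K N) c) :
    ∃ c0 : k0, g = algebraMap k0 ↥(modularFunctionFieldFullC k0 N) c0 := by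
  refine ⟨(g : LaurentSeries k0).coeff 0, Subtype.ext ?_⟩
  have h1 : coeffMap φ (g : LaurentSeries k0) = algebraMap K (LaurentSeries K) c :=
    congrArg Subtype.val h
  show (g : LaurentSeries k0) = algebraMap k0 (LaurentSeries k0) _
  rw [algebraMap_laurentSeries_eq_single]
  ext n
  rcases eq_or_ne n 0 with rfl | hn
  · rw [HahnSeries.coeff_single_same]
  · rw [HahnSeries.coeff_single_of_ne hn]
    have h2 := congrArg (fun y : LaurentSeries K => y.coeff n) h1
    simp only [coeffMap_coeff, algebraMap_laurentSeries_eq_single,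
      HahnSeries.coeff_single_of_ne hn] at h2
    exact (map_eq_zero φ).mp h2

end BaseChange

section DerivAdapter

variable {k0 K : Type*} [Field k0] [Field K] [CharZero k0] [CharZero K] [IsAlgClosed k0]
  [Algebra.IsAlgebraic ℚ k0] (φ : k0 →+* K)

omit [Algebra.IsAlgebraic ℚ k0] in
/-- An element of `K` algebraic over `ℚ` lies in the image of the algebraically closed field
`k0`. -/
theorem ld80_mem_range_of_isAlgebraic {a : K} (ha : IsAlgebraic ℚ a) : a ∈ Set.range φ := by
  letI : Algebra k0 K := φ.toAlgebra
  haveI : IsScalarTower ℚ k0 K := IsScalarTower.of_algebraMap_eq fun q => by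
    rw [RingHom.algebraMap_toAlgebra, eq_ratCast, eq_ratCast, map_ratCast]
  have ha' : IsAlgebraic k0 a := ha.tower_top k0
  have hdeg : (minpoly k0 a).degree = 1 :=
    IsAlgClosed.degree_eq_one_of_irreducible k0 (minpoly.irreducible ha'.isIntegral)
  obtain ⟨c, hc⟩ := minpoly.mem_range_of_degree_eq_one k0 a hdeg
  exact ⟨c, hc⟩

/-- **The hypothesis `hder` of `ld80_exists_adm` from the two facts of row D1** (derivations of
`K` over `ℚ` kill exactly the algebraic elements), for `k0` algebraically closed and algebraic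
over `ℚ`. -/
theorem ld80_hder_of_d1
    (hex : ∀ a : K, Transcendental ℚ a → ∃ d : Derivation ℤ K K, d a ≠ 0)
    (halg : ∀ (d : Derivation ℤ K K) (a : K), IsAlgebraic ℚ a → d a = 0) :
    ∀ a : K, a ∉ Set.range φ → ∃ d : Derivation ℤ K K, (∀ c, d (φ c) = 0) ∧ d a ≠ 0 := by
  intro a ha
  have htr : Transcendental ℚ a := fun h => ha (ld80_mem_range_of_isAlgebraic φ h)
  obtain ⟨d, hd⟩ := hex a htr
  refine ⟨d, fun c => halg d (φ c) ?_, hd⟩
  exact (Algebra.IsAlgebraic.isAlgebraic (R := ℚ) c).algHom φ.toRatAlgHom

end DerivAdapter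

end Fermat.Agent.S42
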