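import Mathlib.RingTheory.Derivation.Basic
import Mathlib.FieldTheory.IntermediateField.Adjoin.Basic
import Fermat.Prelude.Def_AlgebraicCurve_DivisorClassGroup

/-!
# S42, descent block (owner: helper3), row D0: the abstract constant-extension datum

`k0 ⊆ K` fields of constants, `F0 / k0` and `F / K` function fields, `ι : F0 → F` the base
change, `F = K(ι F0)`.  A derivation `D` of `F` is *admissible* if it kills `ι F0` and maps `K`
into `K`.  The datum records the three facts the descent needs:

* `exists_adm` : every `a ∈ K` outside `φ k0` is moved by some admissible derivation;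
* `eigen` : a common eigenvector of all admissible derivations is `c · ι g`;
* `const` : `ι F0 ∩ K = k0`.

For `F0 = modularFunctionFieldFullC k0 N`, `F = modularFunctionFieldFullC K N` and `ι = coeffMap φ`
these hold with `D` = coefficientwise derivation (row D2).  All names are prefixed `ds3_`.
-/

set_option autoImplicit false

namespace Fermat.Agent.S42

open AlgebraicCurve

/-- A derivation of `F` which kills `ι F0` and maps the constants `K` into `K`. -/
def ds3_IsAdm {K F0 F : Type*} [Field K] [Field F0] [Field F] [Algebra K F] (ι : F0 →+* F)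
    (D : Derivation ℤ F F) : Prop :=
  (∀ g : F0, D (ι g) = 0) ∧ ∀ c : K, ∃ c' : K, D (algebraMap K F c) = algebraMap K F c'

/-- The abstract constant-extension datum of the descent block. -/
structure ds3_Data (k0 K F0 F : Type*) [Field k0] [Field K] [Field F0] [Field F]
    [Algebra k0 F0] [Algebra K F] where
  /-- the embedding of the small constant field -/
  φ : k0 →+* K
  /-- base change of functions -/
  ι : F0 →+* F
  ι_algebraMap : ∀ c : k0, ι (algebraMap k0 F0 c) = algebraMap K F (φ c)
  /-- `F = K(ι F0)` -/
  gen : IntermediateField.adjoin K (Set.range ι) = ⊤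
  /-- enough admissible derivations: the field of constants of `K` is `φ k0` -/
  exists_adm : ∀ a : K, a ∉ Set.range φ →
    ∃ D : Derivation ℤ F F, ds3_IsAdm (K := K) ι D ∧ D (algebraMap K F a) ≠ 0
  /-- a common eigenvector of all admissible derivations is `c · ι g` -/
  eigen : ∀ f : F, f ≠ 0 →
    (∀ D : Derivation ℤ F F, ds3_IsAdm (K := K) ι D →
      ∃ lam : K, D f = algebraMap K F lam * f) →
    ∃ (c : K) (g : F0), f = algebraMap K F c * ι g
  /-- `ι F0 ∩ K = k0` -/
  const : ∀ (g : F0) (c : K), ι g = algebraMap K F c → ∃ c0 : k0, g = algebraMap k0 F0 c0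

/-- A place of `F / K` is *non-rational* if its valuation is trivial on `ι F0`. -/
def ds3_NonRat {k0 K F0 F : Type*} [Field k0] [Field K] [Field F0] [Field F]
    [Algebra k0 F0] [Algebra K F] (S : ds3_Data k0 K F0 F) (P : Place K F) : Prop :=
  ∀ g : F0, g ≠ 0 → P.ord (S.ι g) = 0

end Fermat.Agent.S42
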