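import Mathlib
import Fermat.Prelude.Def_ModularCurve_X0ModL
import Fermat.Agent.S42.DescData3

/-!
# S42, descent block, row D2b (owner: helper56): the intersection lemma and the datum

`φ : k0 →+* K` fields.  Names are prefixed `li56_`.

* `li56_inter` : a Laurent series `x` over `k0` whose base change `coeffMap φ x` lies in
  `modularFunctionFieldFullC K N` already lies in `modularFunctionFieldFullC k0 N`
  (linear disjointness of `K` and `k0((q))` over `k0`, proved with `k0`-linear functionals
  `K → k0` applied coefficientwise).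
* `li56_iota` : the base change `F0 := fullC k0 N → F := fullC K N`, with `li56_iota_coe`,
  `li56_iota_algebraMap`, `li56_gen`.
* `li56_const`, `li56_eigen` : the fields `const` and `eigen` of `ds3_Data`.
* `li56_data` : the datum `ds3_Data k0 K F0 F`, from a supply of coefficientwise derivations
  (hypothesis `hder`, rows D1 + D2a).
-/

set_option autoImplicit false
set_option linter.style.haveILetI false

namespace Fermat.Agent.S42

open ModularCurve AlgebraicCurve IntermediateField

section li56_general

variable {k0 K : Type*} [Field k0] [Field K] (φ : k0 →+* K)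

/-- Coefficientwise application of an additive map `K → k0`. -/
noncomputable def li56_Lam (lam : K →+ k0) (s : LaurentSeries K) : LaurentSeries k0 :=
  s.map lam

theorem li56_Lam_coeff (lam : K →+ k0) (s : LaurentSeries K) (n : ℤ) :
    (li56_Lam lam s).coeff n = lam (s.coeff n) := rfl

theorem li56_Lam_add (lam : K →+ k0) (s t : LaurentSeries K) :
    li56_Lam lam (s + t) = li56_Lam lam s + li56_Lam lam t := by
  ext n
  simp [li56_Lam_coeff]

theorem li56_Lam_zero (lam : K →+ k0) : li56_Lam lam (0 : LaurentSeries K) = 0 := by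
  ext n
  simp [li56_Lam_coeff]

/-- `Λ (c * coeffMap φ z) = lam c * z` for a `φ`-semilinear `lam`. -/
theorem li56_Lam_single_mul_coeffMap (lam : K →+ k0)
    (hlam : ∀ (a : k0) (c : K), lam (φ a * c) = a * lam c) (c : K) (z : LaurentSeries k0) :
    li56_Lam lam (HahnSeries.single 0 c * coeffMap φ z) = HahnSeries.single 0 (lam c) * z := by
  ext n
  rw [li56_Lam_coeff, HahnSeries.coeff_single_zero_mul, HahnSeries.coeff_single_zero_mul,
    coeffMap_coeff, mul_comm c, hlam, mul_comm]

/-- `coeffMap φ` is injective. -/
theorem li56_coeffMap_injective : Function.Injective (coeffMap φ) := by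
  intro x y hxy
  ext n
  have h := congrArg (fun s => s.coeff n) hxy
  simp only [coeffMap_coeff] at h
  exact φ.injective h

/-- The multiplicative set `{c · coeffMap φ z | c ∈ K, z ∈ F0}`. -/
def li56_M (F0 : IntermediateField k0 (LaurentSeries k0)) : Submonoid (LaurentSeries K) where
  carrier := {s | ∃ (c : K) (z : LaurentSeries k0), z ∈ F0 ∧
    s = HahnSeries.single 0 c * coeffMap φ z}
  one_mem' := ⟨1, 1, one_mem F0, by
    rw [(coeffMap φ).map_one, mul_one]; rfl⟩
  mul_mem' := by
    rintro _ _ ⟨c, z, hz, rfl⟩ ⟨c', z', hz', rfl⟩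
    refine ⟨c * c', z * z', mul_mem hz hz', ?_⟩
    rw [(coeffMap φ).map_mul, mul_mul_mul_comm, HahnSeries.single_mul_single, add_zero]

/-- The "`K`-span" of `coeffMap φ '' F0`, as an additive submonoid. -/
def li56_V (F0 : IntermediateField k0 (LaurentSeries k0)) : AddSubmonoid (LaurentSeries K) :=
  AddSubmonoid.closure (li56_M φ F0 : Set (LaurentSeries K))

theorem li56_V_mul (F0 : IntermediateField k0 (LaurentSeries k0)) {s t : LaurentSeries K}
    (hs : s ∈ li56_V φ F0) (ht : t ∈ li56_V φ F0) : s * t ∈ li56_V φ F0 :=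
  MulMemClass.mul_mem_add_closure hs ht

theorem li56_V_single (F0 : IntermediateField k0 (LaurentSeries k0)) (c : K) :
    (HahnSeries.single 0 c : LaurentSeries K) ∈ li56_V φ F0 :=
  AddSubmonoid.subset_closure ⟨c, 1, one_mem F0, by rw [(coeffMap φ).map_one, mul_one]⟩

theorem li56_V_coeffMap (F0 : IntermediateField k0 (LaurentSeries k0)) {z : LaurentSeries k0}
    (hz : z ∈ F0) : coeffMap φ z ∈ li56_V φ F0 :=
  AddSubmonoid.subset_closure ⟨1, z, hz, by
    rw [show (HahnSeries.single 0 (1 : K) : LaurentSeries K) = 1 from rfl, one_mul]⟩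

/-- `Λ` maps `V` into `F0`. -/
theorem li56_Lam_mem (F0 : IntermediateField k0 (LaurentSeries k0)) (lam : K →+ k0)
    (hlam : ∀ (a : k0) (c : K), lam (φ a * c) = a * lam c) {s : LaurentSeries K}
    (hs : s ∈ li56_V φ F0) : li56_Lam lam s ∈ F0 := by
  unfold li56_V at hs
  induction hs using AddSubmonoid.closure_induction with
  | mem y hy =>
      obtain ⟨c, z, hz, rfl⟩ := hy
      rw [li56_Lam_single_mul_coeffMap φ lam hlam]
      refine mul_mem ?_ hz
      rw [← algebraMap_laurentSeries_eq_single]
      exact F0.algebraMap_mem _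
  | zero => rw [li56_Lam_zero]; exact zero_mem F0
  | add s t _ _ hs ht => rw [li56_Lam_add]; exact add_mem hs ht

/-- `Λ` is `k0((q))`-semilinear on `V`. -/
theorem li56_Lam_mul (F0 : IntermediateField k0 (LaurentSeries k0)) (lam : K →+ k0)
    (hlam : ∀ (a : k0) (c : K), lam (φ a * c) = a * lam c) (x : LaurentSeries k0)
    {s : LaurentSeries K} (hs : s ∈ li56_V φ F0) :
    li56_Lam lam (coeffMap φ x * s) = x * li56_Lam lam s := by
  unfold li56_V at hs
  induction hs using AddSubmonoid.closure_induction with
  | mem y hy =>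
      obtain ⟨c, z, hz, rfl⟩ := hy
      rw [mul_left_comm, ← (coeffMap φ).map_mul, li56_Lam_single_mul_coeffMap φ lam hlam,
        li56_Lam_single_mul_coeffMap φ lam hlam, mul_left_comm]
  | zero => rw [mul_zero, li56_Lam_zero, mul_zero]
  | add s t _ _ hs ht => rw [mul_add, li56_Lam_add, li56_Lam_add, hs, ht, mul_add]

/-- Existence of semilinear functionals separating a nonzero constant. -/
theorem li56_exists_lam {c : K} (hc : c ≠ 0) :
    ∃ lam : K →+ k0, (∀ (a : k0) (b : K), lam (φ a * b) = a * lam b) ∧ lam c ≠ 0 := by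
  let _ : Algebra k0 K := φ.toAlgebra
  obtain ⟨f, hf⟩ := Module.Projective.exists_dual_ne_zero k0 hc
  refine ⟨f.toAddMonoidHom, fun a b => ?_, hf⟩
  have h := f.map_smul a b
  rw [Algebra.smul_def, smul_eq_mul] at h
  exact h

/-- **Abstract intersection lemma.**  If `coeffMap φ x` is a quotient of two elements of the
`K`-span of `coeffMap φ '' F0`, then `x ∈ F0`. -/
theorem li56_inter_abs (F0 : IntermediateField k0 (LaurentSeries k0)) (x : LaurentSeries k0)
    {A B : LaurentSeries K} (hA : A ∈ li56_V φ F0) (hB : B ∈ li56_V φ F0)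
    (hx : coeffMap φ x = A / B) : x ∈ F0 := by
  by_cases hB0 : B = 0
  · rw [hB0, div_zero] at hx
    have : x = 0 := li56_coeffMap_injective φ (by rw [hx, (coeffMap φ).map_zero])
    rw [this]
    exact zero_mem F0
  · have hxB : coeffMap φ x * B = A := by rw [hx, div_mul_cancel₀ _ hB0]
    obtain ⟨n, hn⟩ : ∃ n : ℤ, B.coeff n ≠ 0 := by
      by_contra h
      exact hB0 (HahnSeries.ext (funext fun n => not_not.mp fun hn => h ⟨n, hn⟩))
    obtain ⟨lam, hlam, hlamn⟩ := li56_exists_lam φ hn
    have hLB : li56_Lam lam B ≠ 0 := by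
      intro h0
      apply hlamn
      have := congrArg (fun s => s.coeff n) h0
      simpa [li56_Lam_coeff] using this
    have h1 : x * li56_Lam lam B = li56_Lam lam A := by
      rw [← li56_Lam_mul φ F0 lam hlam x hB, hxB]
    have h2 : x = li56_Lam lam A / li56_Lam lam B := by
      rw [eq_div_iff hLB, h1]
    rw [h2]
    exact div_mem (li56_Lam_mem φ F0 lam hlam hA) (li56_Lam_mem φ F0 lam hlam hB)

end li56_general

section li56_modular

variable {k0 K : Type*} [Field k0] [Field K] (φ : k0 →+* K) (N : ℕ)

/-- Functoriality of `modularFunctionFieldFullC` in the constants. -/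
theorem li56_coeffMap_mem {x : LaurentSeries k0} (hx : x ∈ modularFunctionFieldFullC k0 N) :
    coeffMap φ x ∈ modularFunctionFieldFullC K N := by
  let S : IntermediateField k0 (LaurentSeries k0) :=
    { ((modularFunctionFieldFullC K N).toSubfield.comap (coeffMap φ)) with
      algebraMap_mem' := fun c => by
        show coeffMap φ (algebraMap k0 (LaurentSeries k0) c) ∈ modularFunctionFieldFullC K N
        rw [algebraMap_laurentSeries_eq_single, coeffMap_single,
          ← algebraMap_laurentSeries_eq_single]
        exact IntermediateField.algebraMap_mem _ _ }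
  have hle : modularFunctionFieldFullC k0 N ≤ S := by
    rw [modularFunctionFieldFullC, IntermediateField.adjoin_le_iff]
    rintro y ⟨d, hd, hdN, rfl⟩
    haveI := hd
    show coeffMap φ (qExpand k0 d (jqModC k0)) ∈ modularFunctionFieldFullC K N
    rw [coeffMap_qExpand, coeffMap_jqModC]
    exact jqModCd_mem_full K N hdN
  exact hle hx

/-- The polynomial ring in the generators lies in the span. -/
theorem li56_adjoin_le {A : LaurentSeries K}
    (hA : A ∈ Algebra.adjoin K (divisorExpansionsC K N)) :
    A ∈ li56_V φ (modularFunctionFieldFullC k0 N) := by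
  induction hA using Algebra.adjoin_induction with
  | mem y hy =>
      obtain ⟨d, hd, hdN, rfl⟩ := hy
      haveI := hd
      have h : qExpand K d (jqModC K) = coeffMap φ (qExpand k0 d (jqModC k0)) := by
        rw [coeffMap_qExpand, coeffMap_jqModC]
      rw [h]
      exact li56_V_coeffMap φ _ (jqModCd_mem_full k0 N hdN)
  | algebraMap c =>
      rw [algebraMap_laurentSeries_eq_single]
      exact li56_V_single φ _ c
  | add s t _ _ hs ht => exact add_mem hs ht
  | mul s t _ _ hs ht => exact li56_V_mul φ _ hs ht

/-- **Intersection lemma (R6).**  `F_K ∩ k0((q)) = F_{k0}`. -/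
theorem li56_inter (x : LaurentSeries k0)
    (hx : coeffMap φ x ∈ modularFunctionFieldFullC K N) :
    x ∈ modularFunctionFieldFullC k0 N := by
  rw [modularFunctionFieldFullC, IntermediateField.mem_adjoin_iff_div] at hx
  obtain ⟨A, hA, B, hB, hAB⟩ := hx
  exact li56_inter_abs φ _ x (li56_adjoin_le φ N hA) (li56_adjoin_le φ N hB) hAB

end li56_modular

section li56_datum

variable {k0 K : Type*} [Field k0] [Field K] (φ : k0 →+* K) (N : ℕ)

/-- The base change `F0 = fullC k0 N → F = fullC K N` (`coeffMap φ`). -/
noncomputable def li56_iota :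
    ↥(modularFunctionFieldFullC k0 N) →+* ↥(modularFunctionFieldFullC K N) :=
  ((coeffMap φ).comp
    (algebraMap ↥(modularFunctionFieldFullC k0 N) (LaurentSeries k0))).codRestrict
      (modularFunctionFieldFullC K N) (fun f => li56_coeffMap_mem φ N f.2)

theorem li56_iota_coe (g : ↥(modularFunctionFieldFullC k0 N)) :
    ((li56_iota φ N g : ↥(modularFunctionFieldFullC K N)) : LaurentSeries K) =
      coeffMap φ (g : LaurentSeries k0) := rfl

variable (ι : ↥(modularFunctionFieldFullC k0 N) →+* ↥(modularFunctionFieldFullC K N))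
  (hι : ∀ g : ↥(modularFunctionFieldFullC k0 N),
    ((ι g : ↥(modularFunctionFieldFullC K N)) : LaurentSeries K) =
      coeffMap φ (g : LaurentSeries k0))

include hι

/-- `ι` maps constants to constants. -/
theorem li56_iota_algebraMap (c : k0) :
    ι (algebraMap k0 ↥(modularFunctionFieldFullC k0 N) c) =
      algebraMap K ↥(modularFunctionFieldFullC K N) (φ c) := by
  apply Subtype.ext
  rw [hι]
  show coeffMap φ (algebraMap k0 (LaurentSeries k0) c) = algebraMap K (LaurentSeries K) (φ c)
  rw [algebraMap_laurentSeries_eq_single, coeffMap_single, ← algebraMap_laurentSeries_eq_single]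

/-- `F = K(ι F0)`. -/
theorem li56_gen : IntermediateField.adjoin K (Set.range ι) = ⊤ := by
  apply IntermediateField.lift_injective
  rw [lift_top, lift_adjoin]
  apply le_antisymm
  · rw [IntermediateField.adjoin_le_iff]
    rintro y ⟨z, -, rfl⟩
    exact z.2
  · conv_lhs => rw [modularFunctionFieldFullC]
    rw [IntermediateField.adjoin_le_iff]
    rintro y ⟨d, hd, hdN, rfl⟩
    haveI := hd
    have h1 : qExpand K d (jqModC K) =
        ((ι ⟨qExpand k0 d (jqModC k0), jqModCd_mem_full k0 N hdN⟩ :
          ↥(modularFunctionFieldFullC K N)) : LaurentSeries K) := by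
      rw [hι]
      show _ = coeffMap φ (qExpand k0 d (jqModC k0))
      rw [coeffMap_qExpand, coeffMap_jqModC]
    rw [h1]
    exact IntermediateField.subset_adjoin _ _ ⟨_, ⟨_, rfl⟩, rfl⟩

/-- The field `const` of `ds3_Data`: `ι F0 ∩ K = k0`. -/
theorem li56_const (g : ↥(modularFunctionFieldFullC k0 N)) (c : K)
    (h : ι g = algebraMap K ↥(modularFunctionFieldFullC K N) c) :
    ∃ c0 : k0, g = algebraMap k0 ↥(modularFunctionFieldFullC k0 N) c0 := by
  have h1 : coeffMap φ (g : LaurentSeries k0) = HahnSeries.single 0 c := by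
    rw [← hι, h, ← algebraMap_laurentSeries_eq_single]
    rfl
  refine ⟨(g : LaurentSeries k0).coeff 0, Subtype.ext ?_⟩
  show (g : LaurentSeries k0) = algebraMap k0 (LaurentSeries k0) _
  rw [algebraMap_laurentSeries_eq_single]
  ext n
  by_cases hn : n = 0
  · subst hn
    rw [HahnSeries.coeff_single_same]
  · rw [HahnSeries.coeff_single_of_ne hn]
    have h2 := congrArg (fun s => s.coeff n) h1
    simp only [coeffMap_coeff, HahnSeries.coeff_single_of_ne hn] at h2
    exact (map_eq_zero φ).mp h2

/-- The field `eigen` of `ds3_Data`: a common eigenvector of all admissible derivations is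
`c · ι g`.  The supply of derivations is the hypothesis `hder` (rows D1 + D2a): every `a ∉ φ k0`
is moved by a derivation `d` of `K` whose coefficientwise extension `D` to `F` is admissible. -/
theorem li56_eigen
    (hder : ∀ a : K, a ∉ Set.range φ →
      ∃ (d : Derivation ℤ K K)
        (D : Derivation ℤ ↥(modularFunctionFieldFullC K N) ↥(modularFunctionFieldFullC K N)),
        ds3_IsAdm (K := K) ι D ∧ d a ≠ 0 ∧
        ∀ (f : ↥(modularFunctionFieldFullC K N)) (n : ℤ),
          ((D f : ↥(modularFunctionFieldFullC K N)) : LaurentSeries K).coeff n =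
            d ((f : LaurentSeries K).coeff n))
    (f : ↥(modularFunctionFieldFullC K N)) (hf : f ≠ 0)
    (h : ∀ D : Derivation ℤ ↥(modularFunctionFieldFullC K N) ↥(modularFunctionFieldFullC K N),
      ds3_IsAdm (K := K) ι D →
        ∃ lam : K, D f = algebraMap K ↥(modularFunctionFieldFullC K N) lam * f) :
    ∃ (c : K) (g : ↥(modularFunctionFieldFullC k0 N)),
      f = algebraMap K ↥(modularFunctionFieldFullC K N) c * ι g := by
  set s : LaurentSeries K := (f : LaurentSeries K) with hs
  have hs0 : s ≠ 0 := fun h0 => hf (Subtype.ext h0)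
  obtain ⟨n0, hn0⟩ : ∃ n : ℤ, s.coeff n ≠ 0 := by
    by_contra hcon
    exact hs0 (HahnSeries.ext (funext fun n => not_not.mp fun hn => hcon ⟨n, hn⟩))
  set c : K := s.coeff n0 with hc
  -- all normalised coefficients lie in `φ k0`
  have hrange : ∀ n : ℤ, s.coeff n / c ∈ Set.range φ := by
    intro n
    by_contra hnot
    obtain ⟨d, D, hadm, hda, hco⟩ := hder _ hnot
    obtain ⟨lam, hlam⟩ := h D hadm
    have hcoef : ∀ m : ℤ, d (s.coeff m) = lam * s.coeff m := by
      intro m
      rw [← hco f m, hlam]
      show (algebraMap K (LaurentSeries K) lam * s).coeff m = _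
      rw [algebraMap_laurentSeries_eq_single, HahnSeries.coeff_single_zero_mul]
    apply hda
    rw [Derivation.leibniz_div, hcoef n, hcoef n0]
    have : c • (lam * s.coeff n) - s.coeff n • (lam * c) = 0 := by
      simp only [smul_eq_mul]
      ring
    rw [this, smul_zero]
  -- the normalised series and its descent to `k0`
  set t : LaurentSeries K := HahnSeries.single 0 c⁻¹ * s with ht
  have htcoeff : ∀ n : ℤ, t.coeff n ∈ Set.range φ := by
    intro n
    rw [ht, HahnSeries.coeff_single_zero_mul, mul_comm, ← div_eq_mul_inv]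
    exact hrange n
  let ψ : ZeroHom K k0 :=
    ⟨Function.invFun φ, by
      have := Function.leftInverse_invFun φ.injective 0
      rwa [map_zero] at this⟩
  set x : LaurentSeries k0 := t.map ψ with hx
  have hxt : coeffMap φ x = t := by
    ext n
    rw [coeffMap_coeff]
    show φ (Function.invFun φ (t.coeff n)) = t.coeff n
    exact Function.invFun_eq (htcoeff n)
  have htmem : t ∈ modularFunctionFieldFullC K N := by
    rw [ht, ← algebraMap_laurentSeries_eq_single]
    exact mul_mem (IntermediateField.algebraMap_mem _ _) f.2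
  have hxmem : x ∈ modularFunctionFieldFullC k0 N := li56_inter φ N x (by rw [hxt]; exact htmem)
  refine ⟨c, ⟨x, hxmem⟩, Subtype.ext ?_⟩
  show s = algebraMap K (LaurentSeries K) c *
    ((ι ⟨x, hxmem⟩ : ↥(modularFunctionFieldFullC K N)) : LaurentSeries K)
  rw [hι, algebraMap_laurentSeries_eq_single]
  show s = HahnSeries.single 0 c * coeffMap φ x
  rw [hxt, ht, ← mul_assoc, HahnSeries.single_mul_single, add_zero, mul_inv_cancel₀ hn0]
  show s = 1 * s
  rw [one_mul]

/-- **The datum of the descent block** for the modular function fields, from a supply of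
coefficientwise derivations. -/
noncomputable def li56_data
    (hder : ∀ a : K, a ∉ Set.range φ →
      ∃ (d : Derivation ℤ K K)
        (D : Derivation ℤ ↥(modularFunctionFieldFullC K N) ↥(modularFunctionFieldFullC K N)),
        ds3_IsAdm (K := K) ι D ∧ d a ≠ 0 ∧
        ∀ (f : ↥(modularFunctionFieldFullC K N)) (n : ℤ),
          ((D f : ↥(modularFunctionFieldFullC K N)) : LaurentSeries K).coeff n =
            d ((f : LaurentSeries K).coeff n)) :
    ds3_Data k0 K ↥(modularFunctionFieldFullC k0 N) ↥(modularFunctionFieldFullC K N) where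
  φ := φ
  ι := ι
  ι_algebraMap := li56_iota_algebraMap φ N ι hι
  gen := li56_gen φ N ι hι
  exists_adm := fun a ha => by
    obtain ⟨d, D, hadm, hda, hco⟩ := hder a ha
    refine ⟨D, hadm, fun h0 => hda ?_⟩
    have h1 := hco (algebraMap K ↥(modularFunctionFieldFullC K N) a) 0
    rw [h0] at h1
    have h2 : ((algebraMap K ↥(modularFunctionFieldFullC K N) a :
        ↥(modularFunctionFieldFullC K N)) : LaurentSeries K).coeff 0 = a := by
      show (algebraMap K (LaurentSeries K) a).coeff 0 = a
      rw [algebraMap_laurentSeries_eq_single, HahnSeries.coeff_single_same]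
    rw [h2] at h1
    rw [← h1]
    rfl
  eigen := li56_eigen φ N ι hι hder
  const := li56_const φ N ι hι

omit hι in
@[simp] theorem li56_data_φ (hι' : ∀ g : ↥(modularFunctionFieldFullC k0 N),
      ((ι g : ↥(modularFunctionFieldFullC K N)) : LaurentSeries K) =
        coeffMap φ (g : LaurentSeries k0)) (hder) :
    (li56_data φ N ι hι' hder).φ = φ := rfl

omit hι in
@[simp] theorem li56_data_ι (hι' : ∀ g : ↥(modularFunctionFieldFullC k0 N),
      ((ι g : ↥(modularFunctionFieldFullC K N)) : LaurentSeries K) =
        coeffMap φ (g : LaurentSeries k0)) (hder) :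
    (li56_data φ N ι hι' hder).ι = ι := rfl

end li56_datum

end Fermat.Agent.S42
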