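import Fermat.Agent.S42.DescData3
import Fermat.Agent.S18.PlaceExt84
import Fermat.Agent.S24.PlacesBasic

/-!
# S42, descent block, row (P) = D4 (owner: helper84): places under a constant field extension

`φ : k0 → K` an extension of algebraically closed fields of characteristic `0` (for instance
`ℚ̄ → ℂ`, NOT algebraic), `F0 / k0` and `F / K` function fields of one variable, `ι : F0 → F`
compatible with `φ`, `F = K(ι F0)`.

* `pb84_restrict` : a place `P` of `F / K` is either trivial on `ι F0` (non-rational) or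
  restricts to a place `P0` of `F0 / k0` with the SAME orders (ramification index one).
* `pb84_extend`   : if `K` and `ι F0` are linearly disjoint over `k0` (`pb84_LinDisj`), every
  place `P0` of `F0 / k0` extends to a place `P` of `F / K` with `ord_P (ι g) = ord_{P0} g`.
* `pb84_unique`   : the extension is unique.
* `pb84_gauss`    : the Gauss formula `ord_P (∑ b_j ι(w_j)) = min ord_{P0} (w_j)` for
  `k0`-linearly independent `b_j ∈ K`.

All names are prefixed `pb84_`.
-/

set_option autoImplicit false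
set_option linter.style.haveILetI false

open AlgebraicCurve IntermediateField

namespace Fermat.Agent.S42

open Fermat.Agent.S24 Fermat.Agent.S18

section Generic

variable {k0 K F0 F : Type*} [Field k0] [Field K] [Field F0] [Field F]
  [Algebra k0 F0] [Algebra K F]

/-- `b : Fin n → K` is linearly independent over `k0` (acting through `φ`). -/
def pb84_Indep (φ : k0 →+* K) {n : ℕ} (b : Fin n → K) : Prop :=
  ∀ c : Fin n → k0, ∑ j, φ (c j) * b j = 0 → ∀ j, c j = 0

/-- `K` and `ι F0` are linearly disjoint over `k0`. -/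
def pb84_LinDisj (φ : k0 →+* K) (ι : F0 →+* F) : Prop :=
  ∀ (n : ℕ) (b : Fin n → K) (w : Fin n → F0), pb84_Indep φ b →
    ∑ j, algebraMap K F (b j) * ι (w j) = 0 → ∀ j, w j = 0

/-- Every `K`-linear combination of elements `ι (u i)`, `u i` in a `k0`-submodule `M` of `F0`,
can be rewritten with `k0`-linearly independent coefficients and elements of `M`. -/
theorem pb84_indep_rep (φ : k0 →+* K) (ι : F0 →+* F)
    (hι : ∀ c : k0, ι (algebraMap k0 F0 c) = algebraMap K F (φ c))
    (M : Submodule k0 F0) {n : ℕ} (a : Fin n → K) (u : Fin n → F0) (hu : ∀ i, u i ∈ M) :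
    ∃ (m : ℕ) (b : Fin m → K) (w : Fin m → F0), pb84_Indep φ b ∧ (∀ j, w j ∈ M) ∧
      ∑ i, algebraMap K F (a i) * ι (u i) = ∑ j, algebraMap K F (b j) * ι (w j) := by
  classical
  letI : Algebra k0 K := φ.toAlgebra
  have hφ : ∀ c : k0, algebraMap k0 K c = φ c := fun _ => rfl
  set V : Submodule k0 K := Submodule.span k0 (Set.range a) with hV
  haveI : FiniteDimensional k0 V := FiniteDimensional.span_of_finite k0 (Set.finite_range a)
  let B := Module.finBasis k0 V
  let a' : Fin n → V := fun i => ⟨a i, Submodule.subset_span ⟨i, rfl⟩⟩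
  refine ⟨Module.finrank k0 V, fun j => (B j : K), fun j => ∑ i, (B.repr (a' i) j) • u i,
    ?_, ?_, ?_⟩
  · intro c hc
    have hli : LinearIndependent k0 (fun j => (B j : K)) :=
      B.linearIndependent.map' V.subtype (Submodule.ker_subtype V)
    rw [Fintype.linearIndependent_iff] at hli
    apply hli c
    rw [← hc]
    exact Finset.sum_congr rfl (fun j _ => by rw [Algebra.smul_def, hφ])
  · intro j
    exact M.sum_mem (fun i _ => M.smul_mem _ (hu i))
  · have ha : ∀ i, a i = ∑ j, φ (B.repr (a' i) j) * (B j : K) := by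
      intro i
      have h1 := congrArg (Subtype.val) (B.sum_repr (a' i))
      rw [AddSubmonoidClass.coe_finsetSum] at h1
      rw [show a i = ((a' i : V) : K) from rfl, ← h1]
      exact Finset.sum_congr rfl (fun j _ => by
        rw [Submodule.coe_smul, Algebra.smul_def, hφ])
    have hιsmul : ∀ (c : k0) (g : F0), ι (c • g) = algebraMap K F (φ c) * ι g := by
      intro c g
      rw [Algebra.smul_def, map_mul, hι]
    calc ∑ i, algebraMap K F (a i) * ι (u i)
        = ∑ i, ∑ j, algebraMap K F (B j : K) * (algebraMap K F (φ (B.repr (a' i) j)) * ι (u i)) := by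
          refine Finset.sum_congr rfl (fun i _ => ?_)
          conv_lhs => rw [ha i]
          rw [map_sum, Finset.sum_mul]
          refine Finset.sum_congr rfl (fun j _ => ?_)
          rw [map_mul]
          ring
      _ = ∑ j, ∑ i, algebraMap K F (B j : K) * (algebraMap K F (φ (B.repr (a' i) j)) * ι (u i)) :=
          Finset.sum_comm
      _ = ∑ j, algebraMap K F (B j : K) * ι (∑ i, (B.repr (a' i) j) • u i) := by
          refine Finset.sum_congr rfl (fun j _ => ?_)
          rw [map_sum, Finset.mul_sum]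
          refine Finset.sum_congr rfl (fun i _ => ?_)
          rw [hιsmul]

/-- Elements of the `K`-algebra generated by `ι T`, `T` a submonoid of `F0`, are `K`-linear
combinations of elements of `ι T`. -/
theorem pb84_mem_adjoin_rep (ι : F0 →+* F) (T : Submonoid F0) {r : F}
    (hr : r ∈ Algebra.adjoin K (ι '' (T : Set F0))) :
    ∃ (n : ℕ) (a : Fin n → K) (u : Fin n → F0), (∀ i, u i ∈ T) ∧
      r = ∑ i, algebraMap K F (a i) * ι (u i) := by
  have h1 : r ∈ Submodule.span K (ι '' (T : Set F0)) := by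
    have h2 : r ∈ Subalgebra.toSubmodule (Algebra.adjoin K (ι '' (T : Set F0))) := hr
    rw [Algebra.adjoin_eq_span] at h2
    have h3 : Submonoid.closure (ι '' (T : Set F0)) = T.map (ι : F0 →* F) := by
      rw [← Submonoid.coe_map, Submonoid.closure_eq]
      rfl
    rw [h3] at h2
    exact h2
  obtain ⟨n, a, g, hg⟩ := Submodule.mem_span_set'.mp h1
  have hex : ∀ i, ∃ u : F0, u ∈ T ∧ ι u = (g i : F) := fun i => (g i).2
  choose u hu hιu using hex
  refine ⟨n, a, u, hu, ?_⟩
  rw [← hg]
  exact Finset.sum_congr rfl (fun i _ => by rw [Algebra.smul_def, hιu])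

/-- If the valuation ring of `P` pulls back to the valuation ring of `P0`, then
`ord_P ∘ ι = e · ord_{P0}` for a positive integer `e`. -/
theorem pb84_ord_of_comap (ι : F0 →+* F) (P : Place K F) (P0 : Place k0 F0)
    (hcomap : ∀ g : F0, ι g ∈ P.toValuationSubring ↔ g ∈ P0.toValuationSubring) :
    ∃ e : ℤ, 0 < e ∧ ∀ g : F0, P.ord (ι g) = e * P0.ord g := by
  obtain ⟨π, hπ⟩ := IsDiscreteValuationRing.exists_irreducible P0.toValuationSubring
  have hπ0 : (π : F0) ≠ 0 := by
    simpa [ne_eq, ZeroMemClass.coe_eq_zero] using hπ.ne_zero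
  have hιπ0 : ι (π : F0) ≠ 0 := (map_ne_zero ι).mpr hπ0
  have hpos : 0 < P.ord (ι (π : F0)) := by
    have h1 : 0 ≤ P.ord (ι (π : F0)) :=
      (wp1_mem_iff_ord_nonneg P _).mp ((hcomap _).mpr π.2)
    rcases h1.lt_or_eq with h | h
    · exact h
    · exfalso
      have h2 : (ι (π : F0))⁻¹ ∈ P.toValuationSubring := by
        rw [wp1_mem_iff_ord_nonneg, P.ord_inv, ← h, neg_zero]
      rw [← map_inv₀, hcomap] at h2
      apply hπ.not_isUnit
      exact ⟨⟨π, ⟨(π : F0)⁻¹, h2⟩, Subtype.ext (mul_inv_cancel₀ hπ0),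
        Subtype.ext (inv_mul_cancel₀ hπ0)⟩, rfl⟩
  refine ⟨P.ord (ι (π : F0)), hpos, ?_⟩
  intro f
  rcases eq_or_ne f 0 with rfl | hf
  · simp
  obtain ⟨u, hu⟩ := P0.exists_unit_mul_zpow hf hπ
  have hu0 : ((u : P0.toValuationSubring) : F0) ≠ 0 := by
    simp [ne_eq, ZeroMemClass.coe_eq_zero]
  have hιu0 : ι ((u : P0.toValuationSubring) : F0) ≠ 0 := (map_ne_zero ι).mpr hu0
  have hu1 : 0 ≤ P.ord (ι ((u : P0.toValuationSubring) : F0)) :=
    (wp1_mem_iff_ord_nonneg P _).mp ((hcomap _).mpr (u : P0.toValuationSubring).2)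
  have hu2 : 0 ≤ P.ord (ι ((u : P0.toValuationSubring) : F0))⁻¹ := by
    apply (wp1_mem_iff_ord_nonneg P _).mp
    rw [← map_inv₀, hcomap]
    have : (((u⁻¹ : P0.toValuationSubringˣ) : P0.toValuationSubring) : F0)
        = ((u : P0.toValuationSubring) : F0)⁻¹ := by
      apply eq_inv_of_mul_eq_one_left
      rw [← MulMemClass.coe_mul, Units.inv_mul]
      rfl
    rw [← this]
    exact ((u⁻¹ : P0.toValuationSubringˣ) : P0.toValuationSubring).2
  rw [P.ord_inv] at hu2
  have hu3 : P.ord (ι ((u : P0.toValuationSubring) : F0)) = 0 := by omega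
  have hιf : ι f = ι ((u : P0.toValuationSubring) : F0) * (ι (π : F0)) ^ (P0.ord f) := by
    conv_lhs => rw [hu]
    rw [map_mul, map_zpow₀]
  rw [hιf, P.ord_mul hιu0 (zpow_ne_zero _ hιπ0), hu3, zero_add, P.ord_zpow]
  ring

/-- Valuation one means order zero. -/
theorem pb84_ord_eq_zero_of_val (P : Place K F) {f : F} (hf : P.adicValuation f = 1) :
    P.ord f = 0 := by
  unfold Place.ord
  rw [hf, WithZero.log_one, neg_zero]

/-- Order zero (for a nonzero element) means valuation one. -/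
theorem pb84_val_of_ord_eq_zero (P : Place K F) {f : F} (hf : f ≠ 0) (h : P.ord f = 0) :
    P.adicValuation f = 1 := by
  have h1 : P.adicValuation f ≤ 1 := (wp1b_ord_nonneg_iff P hf).mp h.ge
  have h2 : ¬ P.adicValuation f < 1 := fun h3 => by
    have := (wp1b_ord_pos_iff P hf).mpr h3
    omega
  exact le_antisymm h1 (not_lt.mp h2)

/-- **Gauss formula** (general index `e`).  If `ord_P ∘ ι = e · ord_{P0}`, then for
`k0`-independent `b j ∈ K` and `w j ∈ F0` not all zero,
`ord_P (∑ b_j ι(w_j)) = e · min_j ord_{P0} (w_j)`. -/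
theorem pb84_gauss_aux [IsAlgClosed k0] (φ : k0 →+* K) (ι : F0 →+* F)
    (hι : ∀ c : k0, ι (algebraMap k0 F0 c) = algebraMap K F (φ c))
    (x : F0) (hx : Transcendental k0 x) [FiniteDimensional k0⟮x⟯ F0]
    (P : Place K F) (P0 : Place k0 F0) (e : ℤ) (he : 0 < e)
    (hord : ∀ g : F0, P.ord (ι g) = e * P0.ord g)
    {n : ℕ} (b : Fin n → K) (w : Fin n → F0) (hb : pb84_Indep φ b) (hw : ∃ j, w j ≠ 0) :
    (∑ j, algebraMap K F (b j) * ι (w j)) ≠ 0 ∧
    ∃ j, w j ≠ 0 ∧ (∀ i, w i ≠ 0 → P0.ord (w j) ≤ P0.ord (w i)) ∧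
      P.ord (∑ j, algebraMap K F (b j) * ι (w j)) = e * P0.ord (w j) := by
  classical
  obtain ⟨j1, hj1⟩ := hw
  have hJ : (Finset.univ.filter (fun j => w j ≠ 0)).Nonempty :=
    ⟨j1, Finset.mem_filter.mpr ⟨Finset.mem_univ _, hj1⟩⟩
  obtain ⟨j0, hj0mem, hj0min⟩ := Finset.exists_min_image _ (fun j => P0.ord (w j)) hJ
  have hj0 : w j0 ≠ 0 := (Finset.mem_filter.mp hj0mem).2
  have hmin : ∀ i, w i ≠ 0 → P0.ord (w j0) ≤ P0.ord (w i) := fun i hi =>
    hj0min i (Finset.mem_filter.mpr ⟨Finset.mem_univ _, hi⟩)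
  obtain ⟨π, hπ⟩ := IsDiscreteValuationRing.exists_irreducible P0.toValuationSubring
  have hπ0 : (π : F0) ≠ 0 := by
    simpa [ne_eq, ZeroMemClass.coe_eq_zero] using hπ.ne_zero
  have hπord : P0.ord (π : F0) = 1 := P0.ord_coe_irreducible hπ
  have hιπ0 : ι (π : F0) ≠ 0 := (map_ne_zero ι).mpr hπ0
  set m : ℤ := P0.ord (w j0) with hm
  -- the normalised coefficients
  set w' : Fin n → F0 := fun j => w j * (π : F0) ^ (-m) with hw'
  have hw'ord : ∀ j, w j ≠ 0 → P0.ord (w' j) = P0.ord (w j) - m := by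
    intro j hj
    rw [hw']
    show P0.ord (w j * (π : F0) ^ (-m)) = _
    rw [P0.ord_mul hj (zpow_ne_zero _ hπ0), P0.ord_zpow, hπord]
    ring
  have hw'mem : ∀ j, w' j ∈ P0.toValuationSubring := by
    intro j
    rw [wp1_mem_iff_ord_nonneg]
    rcases eq_or_ne (w j) 0 with h | h
    · have : w' j = 0 := by rw [hw']; show w j * _ = 0; rw [h, zero_mul]
      rw [this, P0.ord_zero]
    · rw [hw'ord j h]
      have := hmin j h
      omega
  have hconst : ∀ j, ∃ c : k0, w' j = algebraMap k0 F0 c ∨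
      0 < P0.ord (w' j - algebraMap k0 F0 c) := fun j =>
    wp1_exists_const x hx P0 (w' j) (hw'mem j)
  choose c hc using hconst
  have hw'j0 : w' j0 ≠ 0 := by
    rw [hw']
    exact mul_ne_zero hj0 (zpow_ne_zero _ hπ0)
  have hcj0 : c j0 ≠ 0 := by
    intro h0
    rcases hc j0 with h | h
    · rw [h0, map_zero] at h
      exact hw'j0 h
    · rw [h0, map_zero, sub_zero, hw'ord j0 hj0] at h
      omega
  -- the constant part
  set C : K := ∑ j, φ (c j) * b j with hC
  have hC0 : C ≠ 0 := fun h => hcj0 (hb c h j0)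
  -- the part in the maximal ideal
  set T : F := ∑ j, algebraMap K F (b j) * ι (w' j - algebraMap k0 F0 (c j)) with hT
  have hTval : P.adicValuation T < 1 := by
    rw [hT]
    refine Valuation.map_sum_lt _ one_ne_zero (fun j _ => ?_)
    rcases eq_or_ne (algebraMap K F (b j) * ι (w' j - algebraMap k0 F0 (c j))) 0 with h | h
    · rw [h, map_zero]
      exact zero_lt_one
    · rw [← wp1b_ord_pos_iff P h]
      have h1 : algebraMap K F (b j) ≠ 0 := left_ne_zero_of_mul h
      have h2 : ι (w' j - algebraMap k0 F0 (c j)) ≠ 0 := right_ne_zero_of_mul h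
      have h3 : w' j - algebraMap k0 F0 (c j) ≠ 0 := fun h0 => h2 (by rw [h0, map_zero])
      rw [P.ord_mul h1 h2, wp1_ord_algebraMap, zero_add, hord]
      rcases hc j with h4 | h4
      · exact absurd (sub_eq_zero.mpr h4) h3
      · positivity
  have hsum : ∑ j, algebraMap K F (b j) * ι (w' j) = algebraMap K F C + T := by
    rw [hC, hT, map_sum, ← Finset.sum_add_distrib]
    refine Finset.sum_congr rfl (fun j _ => ?_)
    have h1 : algebraMap K F (φ (c j) * b j)
        = algebraMap K F (φ (c j)) * algebraMap K F (b j) := map_mul _ _ _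
    rw [map_sub, hι, h1]
    ring
  have hCval : P.adicValuation (algebraMap K F C) = 1 :=
    pb84_val_of_ord_eq_zero P ((map_ne_zero _).mpr hC0) (wp1_ord_algebraMap P C)
  have hSval : P.adicValuation (algebraMap K F C + T) = 1 := by
    rw [Valuation.map_add_eq_of_lt_left _ (by rw [hCval]; exact hTval), hCval]
  have hS0 : algebraMap K F C + T ≠ 0 := by
    intro h
    rw [h, map_zero] at hSval
    exact zero_ne_one hSval
  have hSord : P.ord (algebraMap K F C + T) = 0 := pb84_ord_eq_zero_of_val P hSval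
  have hA : ∑ j, algebraMap K F (b j) * ι (w j)
      = (algebraMap K F C + T) * (ι (π : F0)) ^ m := by
    rw [← hsum, Finset.sum_mul]
    refine Finset.sum_congr rfl (fun j _ => ?_)
    have h1 : w j = w' j * (π : F0) ^ m := by
      rw [hw']
      show w j = w j * (π : F0) ^ (-m) * (π : F0) ^ m
      rw [mul_assoc, ← zpow_add₀ hπ0]
      simp
    conv_lhs => rw [h1]
    rw [map_mul, map_zpow₀]
    ring
  refine ⟨?_, j0, hj0, hmin, ?_⟩
  · rw [hA]
    exact mul_ne_zero hS0 (zpow_ne_zero _ hιπ0)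
  · rw [hA, P.ord_mul hS0 (zpow_ne_zero _ hιπ0), hSord, zero_add, P.ord_zpow, hord, hπord]
    ring

/-- Every nonzero element of `F = K(ι F0)` is a quotient of two nonzero `K`-linear combinations
of elements of `ι F0` with `k0`-linearly independent coefficients. -/
theorem pb84_exists_frac_indep (φ : k0 →+* K) (ι : F0 →+* F)
    (hι : ∀ c : k0, ι (algebraMap k0 F0 c) = algebraMap K F (φ c))
    (hgen : IntermediateField.adjoin K (Set.range ι) = ⊤) (f : F) (hf : f ≠ 0) :
    ∃ (n : ℕ) (b : Fin n → K) (w : Fin n → F0) (n' : ℕ) (b' : Fin n' → K) (w' : Fin n' → F0),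
      pb84_Indep φ b ∧ pb84_Indep φ b' ∧ (∃ j, w j ≠ 0) ∧ (∃ j, w' j ≠ 0) ∧
      f * ∑ j, algebraMap K F (b' j) * ι (w' j) = ∑ j, algebraMap K F (b j) * ι (w j) := by
  have hfm : f ∈ IntermediateField.adjoin K (Set.range ι) := by
    rw [hgen]
    exact IntermediateField.mem_top
  obtain ⟨r, hr, s, hs, hfrs⟩ := IntermediateField.mem_adjoin_iff_div.mp hfm
  have himg : Set.range ι = ι '' ((⊤ : Submonoid F0) : Set F0) := by
    rw [Submonoid.coe_top, Set.image_univ]
  rw [himg] at hr hs
  obtain ⟨n, a, u, -, hr'⟩ := pb84_mem_adjoin_rep ι ⊤ hr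
  obtain ⟨n', a', u', -, hs'⟩ := pb84_mem_adjoin_rep ι ⊤ hs
  obtain ⟨m, b, w, hb, -, hbw⟩ := pb84_indep_rep φ ι hι ⊤ a u (fun _ => Submodule.mem_top)
  obtain ⟨m', b', w', hb', -, hbw'⟩ := pb84_indep_rep φ ι hι ⊤ a' u' (fun _ => Submodule.mem_top)
  have hs0 : s ≠ 0 := by
    rintro rfl
    rw [div_zero] at hfrs
    exact hf hfrs
  have hr0 : r ≠ 0 := by
    rintro rfl
    rw [zero_div] at hfrs
    exact hf hfrs
  refine ⟨m, b, w, m', b', w', hb, hb', ?_, ?_, ?_⟩
  · by_contra hcon
    push Not at hcon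
    apply hr0
    rw [hr', hbw]
    exact Finset.sum_eq_zero (fun j _ => by rw [hcon j, map_zero, mul_zero])
  · by_contra hcon
    push Not at hcon
    apply hs0
    rw [hs', hbw']
    exact Finset.sum_eq_zero (fun j _ => by rw [hcon j, map_zero, mul_zero])
  · rw [← hbw, ← hbw', ← hr', ← hs', hfrs]
    field_simp

/-- If the valuation ring of `P` pulls back to the valuation ring of `P0`, then `P` has the
same orders as `P0` on `ι F0` (ramification index one). -/
theorem pb84_ord_eq [IsAlgClosed k0] (φ : k0 →+* K) (ι : F0 →+* F)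
    (hι : ∀ c : k0, ι (algebraMap k0 F0 c) = algebraMap K F (φ c))
    (hgen : IntermediateField.adjoin K (Set.range ι) = ⊤)
    (x : F0) (hx : Transcendental k0 x) [FiniteDimensional k0⟮x⟯ F0]
    (P : Place K F) (P0 : Place k0 F0)
    (hcomap : ∀ g : F0, ι g ∈ P.toValuationSubring ↔ g ∈ P0.toValuationSubring) :
    ∀ g : F0, P.ord (ι g) = P0.ord g := by
  obtain ⟨e, he, hord⟩ := pb84_ord_of_comap ι P P0 hcomap
  have hdvd : ∀ f : F, f ≠ 0 → e ∣ P.ord f := by
    intro f hf
    obtain ⟨n, b, w, n', b', w', hb, hb', hw, hw', hfeq⟩ :=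
      pb84_exists_frac_indep φ ι hι hgen f hf
    obtain ⟨hA0, j, -, -, hA⟩ := pb84_gauss_aux φ ι hι x hx P P0 e he hord b w hb hw
    obtain ⟨hB0, j', -, -, hB⟩ := pb84_gauss_aux φ ι hι x hx P P0 e he hord b' w' hb' hw'
    have h1 := P.ord_mul hf hB0
    rw [hfeq, hA, hB] at h1
    exact ⟨P0.ord (w j) - P0.ord (w' j'), by linarith⟩
  obtain ⟨t, ht⟩ := IsDiscreteValuationRing.exists_irreducible P.toValuationSubring
  have ht0 : (t : F) ≠ 0 := by
    simpa [ne_eq, ZeroMemClass.coe_eq_zero] using ht.ne_zero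
  have h1 := hdvd (t : F) ht0
  rw [P.ord_coe_irreducible ht] at h1
  have he1 : e = 1 := Int.eq_one_of_dvd_one he.le h1
  intro g
  rw [hord, he1, one_mul]

/-- **Restriction of places.**  A place of `F / K` is either trivial on `ι F0` or restricts to
a place of `F0 / k0` with the same orders. -/
theorem pb84_restrict [IsAlgClosed k0] [CharZero k0] (φ : k0 →+* K) (ι : F0 →+* F)
    (hι : ∀ c : k0, ι (algebraMap k0 F0 c) = algebraMap K F (φ c))
    (hgen : IntermediateField.adjoin K (Set.range ι) = ⊤)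
    (x : F0) (hx : Transcendental k0 x) [FiniteDimensional k0⟮x⟯ F0] (P : Place K F) :
    (∀ g : F0, g ≠ 0 → P.ord (ι g) = 0) ∨
      ∃ P0 : Place k0 F0, ∀ g : F0, P.ord (ι g) = P0.ord g := by
  by_cases htop : P.toValuationSubring.comap ι = ⊤
  · left
    intro g hg
    have h1 : g ∈ P.toValuationSubring.comap ι := by rw [htop]; exact ValuationSubring.mem_top _
    have h2 : g⁻¹ ∈ P.toValuationSubring.comap ι := by rw [htop]; exact ValuationSubring.mem_top _
    rw [ValuationSubring.mem_comap, wp1_mem_iff_ord_nonneg] at h1 h2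
    rw [map_inv₀, P.ord_inv] at h2
    omega
  · right
    have hk : ∀ c : k0, algebraMap k0 F0 c ∈ P.toValuationSubring.comap ι := by
      intro c
      rw [ValuationSubring.mem_comap, hι]
      exact P.algebraMap_mem' _
    let P0 : Place k0 F0 := ⟨P.toValuationSubring.comap ι, hk, htop, pe84_pid x hx _ hk htop⟩
    exact ⟨P0, pb84_ord_eq φ ι hι hgen x hx P P0 (fun g => Iff.rfl)⟩

/-- **Uniqueness of the extension**: two places of `F / K` with the same restriction to `F0`
have the same orders everywhere. -/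
theorem pb84_ord_eq_of_compat [IsAlgClosed k0] (φ : k0 →+* K) (ι : F0 →+* F)
    (hι : ∀ c : k0, ι (algebraMap k0 F0 c) = algebraMap K F (φ c))
    (hgen : IntermediateField.adjoin K (Set.range ι) = ⊤)
    (x : F0) (hx : Transcendental k0 x) [FiniteDimensional k0⟮x⟯ F0]
    (P P' : Place K F) (P0 : Place k0 F0) (h : ∀ g : F0, P.ord (ι g) = P0.ord g)
    (h' : ∀ g : F0, P'.ord (ι g) = P0.ord g) (f : F) : P.ord f = P'.ord f := by
  rcases eq_or_ne f 0 with rfl | hf
  · rw [P.ord_zero, P'.ord_zero]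
  obtain ⟨n, b, w, n', b', w', hb, hb', hw, hw', hfeq⟩ :=
    pb84_exists_frac_indep φ ι hι hgen f hf
  have hone : ∀ (Q : Place K F), (∀ g : F0, Q.ord (ι g) = P0.ord g) →
      ∀ g : F0, Q.ord (ι g) = 1 * P0.ord g := fun Q hQ g => by rw [hQ, one_mul]
  obtain ⟨hA0, j, hj, hjmin, hA⟩ :=
    pb84_gauss_aux φ ι hι x hx P P0 1 one_pos (hone P h) b w hb hw
  obtain ⟨-, i, hi, himin, hA'⟩ :=
    pb84_gauss_aux φ ι hι x hx P' P0 1 one_pos (hone P' h') b w hb hw
  obtain ⟨hB0, j', hj', hjmin', hB⟩ :=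
    pb84_gauss_aux φ ι hι x hx P P0 1 one_pos (hone P h) b' w' hb' hw'
  obtain ⟨-, i', hi', himin', hB'⟩ :=
    pb84_gauss_aux φ ι hι x hx P' P0 1 one_pos (hone P' h') b' w' hb' hw'
  have e1 : P0.ord (w j) = P0.ord (w i) := le_antisymm (hjmin i hi) (himin j hj)
  have e2 : P0.ord (w' j') = P0.ord (w' i') := le_antisymm (hjmin' i' hi') (himin' j' hj')
  have h1 := P.ord_mul hf hB0
  have h2 := P'.ord_mul hf hB0
  rw [hfeq, hA, hB] at h1
  rw [hfeq, hA', hB'] at h2
  linarith

/-- **Uniqueness of the extension of a place.** -/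
theorem pb84_unique [IsAlgClosed k0] (φ : k0 →+* K) (ι : F0 →+* F)
    (hι : ∀ c : k0, ι (algebraMap k0 F0 c) = algebraMap K F (φ c))
    (hgen : IntermediateField.adjoin K (Set.range ι) = ⊤)
    (x : F0) (hx : Transcendental k0 x) [FiniteDimensional k0⟮x⟯ F0]
    (P P' : Place K F) (P0 : Place k0 F0) (h : ∀ g : F0, P.ord (ι g) = P0.ord g)
    (h' : ∀ g : F0, P'.ord (ι g) = P0.ord g) : P = P' := by
  apply Place.ext
  ext f
  rw [wp1_mem_iff_ord_nonneg, wp1_mem_iff_ord_nonneg,
    pb84_ord_eq_of_compat φ ι hι hgen x hx P P' P0 h h' f]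

/-- **Gauss formula** for the extension of `P0`:
`ord_P (∑ b_j ι(w_j)) = min_j ord_{P0} (w_j)` for `k0`-independent `b_j`. -/
theorem pb84_gauss [IsAlgClosed k0] (φ : k0 →+* K) (ι : F0 →+* F)
    (hι : ∀ c : k0, ι (algebraMap k0 F0 c) = algebraMap K F (φ c))
    (x : F0) (hx : Transcendental k0 x) [FiniteDimensional k0⟮x⟯ F0]
    (P : Place K F) (P0 : Place k0 F0) (hord : ∀ g : F0, P.ord (ι g) = P0.ord g)
    {n : ℕ} (b : Fin n → K) (w : Fin n → F0) (hb : pb84_Indep φ b) (hw : ∃ j, w j ≠ 0) :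
    (∑ j, algebraMap K F (b j) * ι (w j)) ≠ 0 ∧
    ∃ j, w j ≠ 0 ∧ (∀ i, w i ≠ 0 → P0.ord (w j) ≤ P0.ord (w i)) ∧
      P.ord (∑ j, algebraMap K F (b j) * ι (w j)) = P0.ord (w j) := by
  obtain ⟨h0, j, hj, hmin, hA⟩ := pb84_gauss_aux φ ι hι x hx P P0 1 one_pos
    (fun g => by rw [hord, one_mul]) b w hb hw
  exact ⟨h0, j, hj, hmin, by rw [hA, one_mul]⟩

/-- Linear disjointness, constant form: if a combination of elements of `ι F0` with
`k0`-independent coefficients is a constant `a`, then all the elements are constants. -/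
theorem pb84_linDisj_const (φ : k0 →+* K) (ι : F0 →+* F)
    (hι : ∀ c : k0, ι (algebraMap k0 F0 c) = algebraMap K F (φ c))
    (hld : pb84_LinDisj φ ι) {n : ℕ} (b : Fin n → K) (w : Fin n → F0)
    (hb : pb84_Indep φ b) (a : K)
    (h : ∑ j, algebraMap K F (b j) * ι (w j) = algebraMap K F a) :
    ∃ c : Fin n → k0, (∀ j, w j = algebraMap k0 F0 (c j)) ∧ ∑ j, φ (c j) * b j = a := by
  by_cases hex : ∃ c : Fin n → k0, ∑ j, φ (c j) * b j = a
  · obtain ⟨c, hc⟩ := hex
    refine ⟨c, fun j => ?_, hc⟩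
    have h0 : ∑ j, algebraMap K F (b j) * ι (w j - algebraMap k0 F0 (c j)) = 0 := by
      have h1 : ∑ j, algebraMap K F (b j) * ι (w j - algebraMap k0 F0 (c j))
          = ∑ j, algebraMap K F (b j) * ι (w j) - algebraMap K F (∑ j, φ (c j) * b j) := by
        rw [map_sum, ← Finset.sum_sub_distrib]
        refine Finset.sum_congr rfl (fun j _ => ?_)
        have h2 : algebraMap K F (φ (c j) * b j)
            = algebraMap K F (φ (c j)) * algebraMap K F (b j) := map_mul _ _ _
        rw [map_sub, hι, h2]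
        ring
      rw [h1, h, hc, sub_self]
    exact sub_eq_zero.mp (hld n b (fun j => w j - algebraMap k0 F0 (c j)) hb h0 j)
  · exfalso
    have hindep : pb84_Indep φ (Fin.snoc (α := fun _ => K) b a) := by
      intro c hc
      rw [Fin.sum_univ_castSucc] at hc
      simp only [Fin.snoc_castSucc, Fin.snoc_last] at hc
      by_cases hl : c (Fin.last n) = 0
      · rw [hl, map_zero, zero_mul, add_zero] at hc
        have h1 := hb (fun j => c (Fin.castSucc j)) hc
        intro j
        induction j using Fin.lastCases with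
        | last => exact hl
        | cast j => exact h1 j
      · exfalso
        apply hex
        refine ⟨fun j => -(c (Fin.castSucc j)) / c (Fin.last n), ?_⟩
        have hφl : φ (c (Fin.last n)) ≠ 0 := (map_ne_zero φ).mpr hl
        have h2 : ∑ j, φ (-(c (Fin.castSucc j)) / c (Fin.last n)) * b j
            = -(∑ j, φ (c (Fin.castSucc j)) * b j) / φ (c (Fin.last n)) := by
          rw [neg_div, Finset.sum_div, ← Finset.sum_neg_distrib]
          refine Finset.sum_congr rfl (fun j _ => ?_)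
          rw [map_div₀, map_neg]
          ring
        rw [h2, eq_neg_of_add_eq_zero_left hc]
        field_simp
    have hsum : ∑ j, algebraMap K F ((Fin.snoc (α := fun _ => K) b a) j) *
        ι ((Fin.snoc (α := fun _ => F0) w (-1)) j) = 0 := by
      rw [Fin.sum_univ_castSucc]
      simp only [Fin.snoc_castSucc, Fin.snoc_last]
      rw [h, map_neg, map_one]
      ring
    have h1 := hld (n + 1) _ _ hindep hsum (Fin.last n)
    simp only [Fin.snoc_last] at h1
    exact one_ne_zero (neg_eq_zero.mp h1)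

/-- **Extension of places with ramification index one** along an extension of algebraically
closed constant fields (not necessarily algebraic), assuming linear disjointness. -/
theorem pb84_extend [IsAlgClosed k0] [CharZero k0] [IsAlgClosed K] [CharZero K]
    (φ : k0 →+* K) (ι : F0 →+* F)
    (hι : ∀ c : k0, ι (algebraMap k0 F0 c) = algebraMap K F (φ c))
    (hgen : IntermediateField.adjoin K (Set.range ι) = ⊤) (hld : pb84_LinDisj φ ι)
    (x : F0) (hx : Transcendental k0 x) [FiniteDimensional k0⟮x⟯ F0]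
    (hy : Transcendental K (ι x)) [FiniteDimensional K⟮ι x⟯ F] (P0 : Place k0 F0) :
    ∃ P : Place K F, ∀ g : F0, P.ord (ι g) = P0.ord g := by
  obtain ⟨π, hπ⟩ := IsDiscreteValuationRing.exists_irreducible P0.toValuationSubring
  have hπ0 : (π : F0) ≠ 0 := by
    simpa [ne_eq, ZeroMemClass.coe_eq_zero] using hπ.ne_zero
  have hπord : P0.ord (π : F0) = 1 := P0.ord_coe_irreducible hπ
  have hιπ0 : ι (π : F0) ≠ 0 := (map_ne_zero ι).mpr hπ0
  set T : Submonoid F0 := P0.toValuationSubring.toSubring.toSubmonoid with hT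
  set A : Subring F := (Algebra.adjoin K (ι '' (T : Set F0))).toSubring with hA
  have hιA : ∀ g ∈ P0.toValuationSubring, ι g ∈ A := fun g hg =>
    Algebra.subset_adjoin ⟨g, hg, rfl⟩
  let I : Ideal A := Ideal.span {⟨ι (π : F0), hιA _ π.2⟩}
  have hI : I ≠ ⊤ := by
    intro htop
    have h1 : (1 : A) ∈ I := by rw [htop]; exact Submodule.mem_top
    obtain ⟨r, hr⟩ := Ideal.mem_span_singleton'.mp h1
    have hr' : (r : F) * ι (π : F0) = 1 := congrArg Subtype.val hr
    obtain ⟨n, a, u, hu, hrep⟩ := pb84_mem_adjoin_rep ι T r.2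
    -- the `k0`-submodule `π O_{P0}`
    let M : Submodule k0 F0 :=
      { carrier := {g | ∃ h ∈ P0.toValuationSubring, g = h * (π : F0)}
        add_mem' := by
          rintro _ _ ⟨h1, hh1, rfl⟩ ⟨h2, hh2, rfl⟩
          exact ⟨h1 + h2, add_mem hh1 hh2, by ring⟩
        zero_mem' := ⟨0, zero_mem _, by ring⟩
        smul_mem' := by
          rintro c _ ⟨h, hh, rfl⟩
          exact ⟨algebraMap k0 F0 c * h, mul_mem (P0.algebraMap_mem' c) hh, by
            rw [Algebra.smul_def]; ring⟩ }
    have h2 : (1 : F) = ∑ i, algebraMap K F (a i) * ι (u i * (π : F0)) := by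
      rw [← hr', hrep, Finset.sum_mul]
      refine Finset.sum_congr rfl (fun i _ => ?_)
      rw [map_mul]
      ring
    obtain ⟨m, b, w, hb, hwM, hbw⟩ := pb84_indep_rep φ ι hι M a (fun i => u i * (π : F0))
      (fun i => ⟨u i, hu i, rfl⟩)
    have h3 : ∑ j, algebraMap K F (b j) * ι (w j) = algebraMap K F 1 := by
      rw [← hbw, ← h2, map_one]
    obtain ⟨c, hc, hc1⟩ := pb84_linDisj_const φ ι hι hld b w hb 1 h3
    have hc0 : ∀ j, c j = 0 := by
      intro j
      by_contra hne
      obtain ⟨h, hh, hwj⟩ := hwM j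
      have hw0 : w j ≠ 0 := by
        rw [hc j]
        exact (map_ne_zero _).mpr hne
      have hh0 : h ≠ 0 := by
        rintro rfl
        rw [zero_mul] at hwj
        exact hw0 hwj
      have e1 : P0.ord (w j) = 0 := by
        rw [hc j]
        exact wp1_ord_algebraMap P0 _
      have e2 : P0.ord (w j) = P0.ord h + 1 := by
        rw [hwj, P0.ord_mul hh0 hπ0, hπord]
      have e3 : 0 ≤ P0.ord h := (wp1_mem_iff_ord_nonneg P0 h).mp hh
      omega
    have h4 : (1 : K) = 0 := by
      rw [← hc1]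
      exact Finset.sum_eq_zero (fun j _ => by rw [hc0 j, map_zero, zero_mul])
    exact one_ne_zero h4
  obtain ⟨B, hAB, hIB⟩ := Ideal.image_subset_nonunits_valuationSubring I hI
  have hK : ∀ c : K, algebraMap K F c ∈ B := fun c =>
    hAB (Subalgebra.algebraMap_mem (Algebra.adjoin K (ι '' (T : Set F0))) c)
  have hπB : ι (π : F0) ∈ B.nonunits :=
    hIB ⟨⟨ι (π : F0), hιA _ π.2⟩, Ideal.subset_span rfl, rfl⟩
  have hπinv : (ι (π : F0))⁻¹ ∉ B := by
    rcases B.mem_nonunits_iff_or.mp hπB with h | h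
    · exact absurd h hιπ0
    · exact h
  have hB : B ≠ ⊤ := by
    intro h
    apply hπinv
    rw [h]
    exact ValuationSubring.mem_top _
  let P : Place K F := ⟨B, hK, hB, pe84_pid (ι x) hy B hK hB⟩
  refine ⟨P, pb84_ord_eq φ ι hι hgen x hx P P0 ?_⟩
  intro g
  constructor
  · intro hg
    by_contra hgn
    have hg0 : g ≠ 0 := fun h => hgn (h ▸ zero_mem _)
    have hordg : P0.ord g < 0 := by
      have := (wp1_mem_iff_ord_nonneg P0 g).not.mp hgn
      omega
    have hh : g⁻¹ * (π : F0)⁻¹ ∈ P0.toValuationSubring := by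
      rw [wp1_mem_iff_ord_nonneg, P0.ord_mul (inv_ne_zero hg0) (inv_ne_zero hπ0), P0.ord_inv,
        P0.ord_inv, hπord]
      omega
    apply hπinv
    have h5 : (ι (π : F0))⁻¹ = ι g * ι (g⁻¹ * (π : F0)⁻¹) := by
      rw [← map_mul, ← map_inv₀]
      congr 1
      field_simp
    rw [h5]
    exact B.mul_mem _ _ hg (hAB (hιA _ hh))
  · intro hg
    exact hAB (hιA _ hg)

/-- Divisibility of all orders descends along the constant extension. -/
theorem pb84_dvd_descend [IsAlgClosed k0] [CharZero k0] [IsAlgClosed K] [CharZero K]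
    (φ : k0 →+* K) (ι : F0 →+* F)
    (hι : ∀ c : k0, ι (algebraMap k0 F0 c) = algebraMap K F (φ c))
    (hgen : IntermediateField.adjoin K (Set.range ι) = ⊤) (hld : pb84_LinDisj φ ι)
    (x : F0) (hx : Transcendental k0 x) [FiniteDimensional k0⟮x⟯ F0]
    (hy : Transcendental K (ι x)) [FiniteDimensional K⟮ι x⟯ F] (m : ℤ) (g : F0)
    (h : ∀ P : Place K F, m ∣ P.ord (ι g)) (P0 : Place k0 F0) : m ∣ P0.ord g := by
  obtain ⟨P, hP⟩ := pb84_extend φ ι hι hgen hld x hx hy P0
  rw [← hP g]
  exact h P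

end Generic

section Data

variable {k0 K F0 F : Type*} [Field k0] [Field K] [Field F0] [Field F]
  [Algebra k0 F0] [Algebra K F]

/-- **(P), restriction**, for a constant-extension datum: a place of `F / K` is non-rational or
restricts to a place of `F0 / k0` with the same orders. -/
theorem pb84_restrict_ds [IsAlgClosed k0] [CharZero k0] (S : ds3_Data k0 K F0 F)
    (x : F0) (hx : Transcendental k0 x) [FiniteDimensional k0⟮x⟯ F0] (P : Place K F) :
    ds3_NonRat S P ∨ ∃ P0 : Place k0 F0, ∀ g : F0, P.ord (S.ι g) = P0.ord g :=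
  pb84_restrict S.φ S.ι S.ι_algebraMap S.gen x hx P

/-- **(P) = T2, extension with index one**, for a constant-extension datum. -/
theorem pb84_extend_ds [IsAlgClosed k0] [CharZero k0] [IsAlgClosed K] [CharZero K]
    (S : ds3_Data k0 K F0 F) (hld : pb84_LinDisj S.φ S.ι)
    (x : F0) (hx : Transcendental k0 x) [FiniteDimensional k0⟮x⟯ F0]
    (hy : Transcendental K (S.ι x)) [FiniteDimensional K⟮S.ι x⟯ F] (P0 : Place k0 F0) :
    ∃ P : Place K F, ∀ g : F0, P.ord (S.ι g) = P0.ord g :=
  pb84_extend S.φ S.ι S.ι_algebraMap S.gen hld x hx hy P0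

/-- Uniqueness of the extension, for a constant-extension datum. -/
theorem pb84_unique_ds [IsAlgClosed k0] (S : ds3_Data k0 K F0 F)
    (x : F0) (hx : Transcendental k0 x) [FiniteDimensional k0⟮x⟯ F0]
    (P P' : Place K F) (P0 : Place k0 F0) (h : ∀ g : F0, P.ord (S.ι g) = P0.ord g)
    (h' : ∀ g : F0, P'.ord (S.ι g) = P0.ord g) : P = P' :=
  pb84_unique S.φ S.ι S.ι_algebraMap S.gen x hx P P' P0 h h'

/-- A place which is not non-rational has a zero or pole of some `ι g`. -/
theorem pb84_not_nonRat_iff [IsAlgClosed k0] [CharZero k0] (S : ds3_Data k0 K F0 F)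
    (x : F0) (hx : Transcendental k0 x) [FiniteDimensional k0⟮x⟯ F0] (P : Place K F) :
    ¬ ds3_NonRat S P ↔ ∃ P0 : Place k0 F0, ∀ g : F0, P.ord (S.ι g) = P0.ord g := by
  constructor
  · intro h
    rcases pb84_restrict_ds S x hx P with h1 | h1
    · exact absurd h1 h
    · exact h1
  · rintro ⟨P0, hP0⟩ hnr
    obtain ⟨π, hπ⟩ := IsDiscreteValuationRing.exists_irreducible P0.toValuationSubring
    have hπ0 : (π : F0) ≠ 0 := by
      simpa [ne_eq, ZeroMemClass.coe_eq_zero] using hπ.ne_zero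
    have h1 := hnr (π : F0) hπ0
    rw [hP0, P0.ord_coe_irreducible hπ] at h1
    exact one_ne_zero h1

end Data

section Laurent

open ModularCurve

/-- **Linear disjointness for coefficientwise base change of Laurent series.** -/
theorem pb84_linDisj_coeffMap {k0 K : Type*} [Field k0] [Field K] (φ : k0 →+* K)
    (F0 : IntermediateField k0 (LaurentSeries k0)) (F : IntermediateField K (LaurentSeries K))
    (ι : ↥F0 →+* ↥F)
    (hι : ∀ g : ↥F0, ((ι g : ↥F) : LaurentSeries K) = coeffMap φ (g : LaurentSeries k0)) :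
    pb84_LinDisj φ ι := by
  intro n b w hb hsum j
  apply Subtype.ext
  ext k
  have h1 : ∀ i, (((algebraMap K ↥F (b i) * ι (w i) : ↥F) : LaurentSeries K)).coeff k
      = φ (((w i : ↥F0) : LaurentSeries k0).coeff k) * b i := by
    intro i
    have h2 : ((algebraMap K ↥F (b i) * ι (w i) : ↥F) : LaurentSeries K)
        = HahnSeries.single 0 (b i) * coeffMap φ ((w i : ↥F0) : LaurentSeries k0) := by
      rw [← hι, ← algebraMap_laurentSeries_eq_single]
      rfl
    rw [h2, HahnSeries.coeff_single_zero_mul, coeffMap_coeff, mul_comm]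
  have h3 : ∑ i, φ (((w i : ↥F0) : LaurentSeries k0).coeff k) * b i = 0 := by
    have h4 := congrArg (fun s : ↥F => ((s : LaurentSeries K)).coeff k) hsum
    simp only [AddSubmonoidClass.coe_finsetSum, HahnSeries.coeff_sum] at h4
    rw [← Finset.sum_congr rfl (fun i _ => h1 i)]
    simpa using h4
  have h5 := hb (fun i => ((w i : ↥F0) : LaurentSeries k0).coeff k) h3 j
  simpa using h5

end Laurent

end Fermat.Agent.S42
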