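import Fermat.Agent.S42.DescClose29
import Fermat.Agent.S42.DescFinal86
import Fermat.Agent.S42.DescPow3
import Fermat.Agent.S42.LaurentInter56
import Fermat.Agent.S42.LaurentDeriv80
import Fermat.Agent.S42.DerivC16
import Fermat.Agent.S42.PlaceBC84

/-!
# S42, descent block, row D6 / seam (G-DESC) (helper3): the descent in the concrete fields

`φ : AlgebraicClosure ℚ →+* K` an ARBITRARY ring homomorphism into an algebraically closed field
`K` of characteristic zero (in the application `K = ℂ` with the embedding fixed by row M2).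
`F0 = F(N)` over `ℚ̄`, `F = F(N)` over `K` (`modularFunctionFieldFullC`), `ι = coeffMap φ`.

* `di3_data φ N` : the datum `ds3_Data` (rows D1 `dc16_*`, D2a `ld80_*`, D2b `li56_*`).
* `di3_kummer` : T1 (Kummer descent) for it, no hypothesis left (`ld29_kummer`).
* `di3_desc_fullC`, `di3_desc`, `di3_desc_hom`, `di3_desc_bar` : **(DESC)** of ARCH-1: a function
  `u ≠ 0` of `F` with `n ∣ ord_P u` at every place is, up to a constant and an `n`-th power,
  the base change of a function `g` of `F0` with `n ∣ ord_{P0} g` at every place of `F0`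
  (T1 + the place extension T2 `pb84_extend_ds`).
* `di3_pow_descend`, `di3_pow_descend_bar` : T3 / (L): `coeffMap φ f = c · v ^ n` with `v ∈ F`
  forces `f = c0 · v0 ^ n` with `v0 ∈ F0`.

The forms `di3_desc`, `di3_pow_descend` are stated for ANY presentations `E0`, `E` of the two
function fields as intermediate fields of the Laurent series fields (hypotheses
`E0 = modularFunctionFieldFullC ℚ̄ N`, `E = modularFunctionFieldFullC K N`), and on underlying
Laurent series, so that they apply verbatim to `modularFunctionFieldBar N` and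
`laurentBaseChange K (modularFunctionFieldFull N)` (`di3_bar_eq`, `di3_baseChange_eq`).
All names are prefixed `di3_`.
-/

set_option autoImplicit false
set_option linter.unusedSectionVars false
set_option linter.style.haveILetI false

open AlgebraicCurve IntermediateField ModularCurve

namespace Fermat.Agent.S42

open Fermat.Agent.S18

section di3_datum

variable {K : Type} [Field K] [CharZero K] (φ : AlgebraicClosure ℚ →+* K) (N : ℕ)

/-- **The descent datum** for `F(N)_{ℚ̄} ⊆ F(N)_K` along an arbitrary `φ : ℚ̄ →+* K`. -/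
noncomputable def di3_data :
    ds3_Data (AlgebraicClosure ℚ) K ↥(modularFunctionFieldFullC (AlgebraicClosure ℚ) N)
      ↥(modularFunctionFieldFullC K N) :=
  li56_data φ N (ld80_iota φ N) (fun _ => rfl) (fun a ha => by
    obtain ⟨d, hd, hda⟩ := dc16_exists_adm_ne φ a ha
    exact ⟨d, ld80_DF d N, ld80_isAdm φ N d hd, hda, fun _ _ => rfl⟩)

theorem di3_data_phi : (di3_data φ N).φ = φ := rfl

theorem di3_data_iota : (di3_data φ N).ι = ld80_iota φ N := rfl

theorem di3_data_iota_coe (g : ↥(modularFunctionFieldFullC (AlgebraicClosure ℚ) N)) :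
    (((di3_data φ N).ι g : ↥(modularFunctionFieldFullC K N)) : LaurentSeries K) =
      coeffMap φ (g : LaurentSeries (AlgebraicClosure ℚ)) := rfl

/-- The base change of `j` is `j`. -/
theorem di3_iota_J :
    (di3_data φ N).ι (relimc_J (AlgebraicClosure ℚ) N) = relimc_J K N :=
  Subtype.ext (coeffMap_jqModC φ)

/-- Linear disjointness of `K` and `F0` over `ℚ̄` inside `F`. -/
theorem di3_linDisj : pb84_LinDisj (di3_data φ N).φ (di3_data φ N).ι :=
  pb84_linDisj_coeffMap φ _ _ (ld80_iota φ N) (fun _ => rfl)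

variable [IsAlgClosed K] [NeZero N]

theorem di3_transcendental :
    Transcendental K ((di3_data φ N).ι (relimc_J (AlgebraicClosure ℚ) N)) := by
  rw [di3_iota_J]
  exact relimc_J_transcendental K N

theorem di3_finite :
    FiniteDimensional K⟮(di3_data φ N).ι (relimc_J (AlgebraicClosure ℚ) N)⟯
      ↥(modularFunctionFieldFullC K N) := by
  have key : ∀ y : ↥(modularFunctionFieldFullC K N), y = relimc_J K N →
      FiniteDimensional K⟮y⟯ ↥(modularFunctionFieldFullC K N) := by
    rintro _ rfl
    exact relimc_finite K N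
  exact key _ (di3_iota_J φ N)

/-- **T1 for the modular function fields**: Kummer descent, no hypothesis left. -/
theorem di3_kummer {n : ℕ} (hn : 0 < n) {G : ↥(modularFunctionFieldFullC K N)} (hG : G ≠ 0)
    (hdiv : ∀ P : Place K ↥(modularFunctionFieldFullC K N),
      ds3_NonRat (di3_data φ N) P → (n : ℤ) ∣ P.ord G) :
    ∃ (c : K) (w : ↥(modularFunctionFieldFullC K N))
      (g : ↥(modularFunctionFieldFullC (AlgebraicClosure ℚ) N)),
      c ≠ 0 ∧ w ≠ 0 ∧ g ≠ 0 ∧
        G = algebraMap K ↥(modularFunctionFieldFullC K N) c * (di3_data φ N).ι g * w ^ n := by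
  have hx := relimc_J_transcendental (AlgebraicClosure ℚ) N
  haveI := relimc_finite (AlgebraicClosure ℚ) N
  haveI := di3_finite φ N
  exact ld29_kummer (di3_data φ N) (relimc_J (AlgebraicClosure ℚ) N) hx
    (di3_transcendental φ N) hn hG hdiv

/-- **T2 for the modular function fields**: every place of `F(N)_{ℚ̄}` extends to a place of
`F(N)_K` with the same orders. -/
theorem di3_place_ext
    (P0 : Place (AlgebraicClosure ℚ) ↥(modularFunctionFieldFullC (AlgebraicClosure ℚ) N)) :
    ∃ P : Place K ↥(modularFunctionFieldFullC K N),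
      ∀ g : ↥(modularFunctionFieldFullC (AlgebraicClosure ℚ) N),
        P.ord ((di3_data φ N).ι g) = P0.ord g := by
  have hx := relimc_J_transcendental (AlgebraicClosure ℚ) N
  haveI := relimc_finite (AlgebraicClosure ℚ) N
  haveI := di3_finite φ N
  exact pb84_extend_ds (di3_data φ N) (di3_linDisj φ N) (relimc_J (AlgebraicClosure ℚ) N) hx
    (di3_transcendental φ N) P0

/-- **(DESC)** for `modularFunctionFieldFullC`, in the vocabulary of the datum. -/
theorem di3_desc_fullC {n : ℕ} (hn : 0 < n) {u : ↥(modularFunctionFieldFullC K N)} (hu : u ≠ 0)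
    (hdiv : ∀ P : Place K ↥(modularFunctionFieldFullC K N), (n : ℤ) ∣ P.ord u) :
    ∃ (g : ↥(modularFunctionFieldFullC (AlgebraicClosure ℚ) N))
      (w : ↥(modularFunctionFieldFullC K N)) (c : K), g ≠ 0 ∧ w ≠ 0 ∧ c ≠ 0 ∧
      (di3_data φ N).ι g = algebraMap K ↥(modularFunctionFieldFullC K N) c * (w ^ n * u) ∧
      ∀ P0 : Place (AlgebraicClosure ℚ) ↥(modularFunctionFieldFullC (AlgebraicClosure ℚ) N),
        (n : ℤ) ∣ P0.ord g := by
  have hx := relimc_J_transcendental (AlgebraicClosure ℚ) N
  haveI := relimc_finite (AlgebraicClosure ℚ) N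
  haveI := di3_finite φ N
  have hy := di3_transcendental φ N
  exact dr86_desc (di3_data φ N) (relimc_J (AlgebraicClosure ℚ) N) hy
    (ld29_ratOK (di3_data φ N) _ hx) (ld29_nonRatOK (di3_data φ N) _ hx hy)
    (fun P0 => di3_place_ext φ N P0) hn hu hdiv

end di3_datum

section di3_general

variable {K : Type} [Field K] [CharZero K] (φ : AlgebraicClosure ℚ →+* K) (N : ℕ)

/-- **(DESC), presentation-free form** on underlying Laurent series: for any presentations
`E0`, `E` of the function fields over `ℚ̄` and over `K`. -/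
theorem di3_desc [IsAlgClosed K] [NeZero N]
    (E0 : IntermediateField (AlgebraicClosure ℚ) (LaurentSeries (AlgebraicClosure ℚ)))
    (hE0 : E0 = modularFunctionFieldFullC (AlgebraicClosure ℚ) N)
    (E : IntermediateField K (LaurentSeries K)) (hE : E = modularFunctionFieldFullC K N)
    {n : ℕ} (hn : 0 < n) {u : ↥E} (hu : u ≠ 0)
    (hdiv : ∀ P : Place K ↥E, (n : ℤ) ∣ P.ord u) :
    ∃ (g : ↥E0) (w : ↥E) (c : K), g ≠ 0 ∧ w ≠ 0 ∧ c ≠ 0 ∧
      coeffMap φ (g : LaurentSeries (AlgebraicClosure ℚ)) =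
        algebraMap K (LaurentSeries K) c * ((w : LaurentSeries K) ^ n * (u : LaurentSeries K)) ∧
      ∀ P0 : Place (AlgebraicClosure ℚ) ↥E0, (n : ℤ) ∣ P0.ord g := by
  subst hE0 hE
  obtain ⟨g, w, c, hg, hw, hc, h, hP⟩ := di3_desc_fullC φ N hn hu hdiv
  exact ⟨g, w, c, hg, hw, hc, congrArg Subtype.val h, hP⟩

/-- **(DESC), ring-hom form**: the same for any base change map `bc : E0 →+* E` which is
`coeffMap φ` on underlying Laurent series. -/
theorem di3_desc_hom [IsAlgClosed K] [NeZero N]
    (E0 : IntermediateField (AlgebraicClosure ℚ) (LaurentSeries (AlgebraicClosure ℚ)))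
    (hE0 : E0 = modularFunctionFieldFullC (AlgebraicClosure ℚ) N)
    (E : IntermediateField K (LaurentSeries K)) (hE : E = modularFunctionFieldFullC K N)
    (bc : ↥E0 →+* ↥E)
    (hbc : ∀ g : ↥E0, ((bc g : ↥E) : LaurentSeries K) =
      coeffMap φ (g : LaurentSeries (AlgebraicClosure ℚ)))
    {n : ℕ} (hn : 0 < n) {u : ↥E} (hu : u ≠ 0)
    (hdiv : ∀ P : Place K ↥E, (n : ℤ) ∣ P.ord u) :
    ∃ (g : ↥E0) (w : ↥E) (c : K), g ≠ 0 ∧ w ≠ 0 ∧ c ≠ 0 ∧
      bc g = c • (w ^ n * u) ∧ bc g = algebraMap K ↥E c * (w ^ n * u) ∧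
      ∀ P0 : Place (AlgebraicClosure ℚ) ↥E0, (n : ℤ) ∣ P0.ord g := by
  obtain ⟨g, w, c, hg, hw, hc, h, hP⟩ := di3_desc φ N E0 hE0 E hE hn hu hdiv
  have h2 : bc g = algebraMap K ↥E c * (w ^ n * u) := by
    apply Subtype.ext
    rw [hbc, h]
    rfl
  refine ⟨g, w, c, hg, hw, hc, ?_, h2, hP⟩
  rw [h2, Algebra.smul_def]

/-- **T3 / (L), presentation-free form**: if the base change of `f ∈ E0` is a constant times an
`n`-th power in `E`, then `f` is a constant times an `n`-th power in `E0`. -/
theorem di3_pow_descend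
    (E0 : IntermediateField (AlgebraicClosure ℚ) (LaurentSeries (AlgebraicClosure ℚ)))
    (hE0 : E0 = modularFunctionFieldFullC (AlgebraicClosure ℚ) N)
    (E : IntermediateField K (LaurentSeries K)) (hE : E = modularFunctionFieldFullC K N)
    {n : ℕ} (hn : 0 < n) (f : ↥E0) (c : K) (v : ↥E)
    (h : coeffMap φ (f : LaurentSeries (AlgebraicClosure ℚ)) =
      algebraMap K (LaurentSeries K) c * (v : LaurentSeries K) ^ n) :
    ∃ (c0 : AlgebraicClosure ℚ) (v0 : ↥E0), f = algebraMap (AlgebraicClosure ℚ) ↥E0 c0 * v0 ^ n := by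
  subst hE0 hE
  rcases eq_or_ne f 0 with rfl | hf
  · exact ⟨0, 0, by rw [map_zero, zero_mul]⟩
  · refine ds3_pow_descend (di3_data φ N) hn hf (c := c) (v := v) ?_
    apply Subtype.ext
    rw [di3_data_iota_coe, h]
    rfl

/-- **T3 / (L), ring-hom form**: `w' ^ n = bc f` with `w' ∈ E` forces `f = c0 · v0 ^ n`. -/
theorem di3_pow_descend_hom
    (E0 : IntermediateField (AlgebraicClosure ℚ) (LaurentSeries (AlgebraicClosure ℚ)))
    (hE0 : E0 = modularFunctionFieldFullC (AlgebraicClosure ℚ) N)
    (E : IntermediateField K (LaurentSeries K)) (hE : E = modularFunctionFieldFullC K N)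
    (bc : ↥E0 →+* ↥E)
    (hbc : ∀ g : ↥E0, ((bc g : ↥E) : LaurentSeries K) =
      coeffMap φ (g : LaurentSeries (AlgebraicClosure ℚ)))
    {n : ℕ} (hn : 0 < n) (f : ↥E0) (v : ↥E) (h : v ^ n = bc f) :
    ∃ (c0 : AlgebraicClosure ℚ) (v0 : ↥E0), f = algebraMap (AlgebraicClosure ℚ) ↥E0 c0 * v0 ^ n := by
  refine di3_pow_descend φ N E0 hE0 E hE hn f 1 v ?_
  rw [← hbc, ← h, map_one, one_mul]
  rfl

end di3_general

section di3_bar

/-- The base change of the rational function field is the function field over `L`. -/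
theorem di3_baseChange_eq (L : Type) [Field L] [Algebra ℚ L] (N : ℕ) :
    laurentBaseChange L (modularFunctionFieldFull N) = modularFunctionFieldFullC L N := by
  apply le_antisymm
  · unfold laurentBaseChange
    rw [IntermediateField.adjoin_le_iff]
    rintro y ⟨x, hx, rfl⟩
    exact cx_coeffMap_mem_fullC (algebraMap ℚ L) N (by rwa [modularFunctionFieldFullC_rat])
  · rw [modularFunctionFieldFullC, IntermediateField.adjoin_le_iff]
    rintro y ⟨d, hd, hdN, rfl⟩
    haveI := hd
    have h1 : qExpand L d (jqModC L) = coeffEmb L (qExpand ℚ d jq) := by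
      rw [coeffEmb, coeffMap_qExpand, ← jqModC_rat, coeffMap_jqModC]
    rw [h1]
    exact coeffEmb_mem_laurentBaseChange _ (jqd_mem_full N hdN)

theorem di3_bar_eq (N : ℕ) :
    modularFunctionFieldBar N = modularFunctionFieldFullC (AlgebraicClosure ℚ) N :=
  di3_baseChange_eq (AlgebraicClosure ℚ) N

variable {K : Type} [Field K] [CharZero K] [Algebra ℚ K] (φ : AlgebraicClosure ℚ →+* K) (N : ℕ)

/-- **(DESC) in the Prelude fields**: `F0 = modularFunctionFieldBar N` (so `Pic0` of it is
`JZero N`), `F = laurentBaseChange K (modularFunctionFieldFull N)`. -/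
theorem di3_desc_bar [IsAlgClosed K] [NeZero N] {n : ℕ} (hn : 0 < n)
    {u : ↥(laurentBaseChange K (modularFunctionFieldFull N))} (hu : u ≠ 0)
    (hdiv : ∀ P : Place K ↥(laurentBaseChange K (modularFunctionFieldFull N)), (n : ℤ) ∣ P.ord u) :
    ∃ (g : ↥(modularFunctionFieldBar N)) (w : ↥(laurentBaseChange K (modularFunctionFieldFull N)))
      (c : K), g ≠ 0 ∧ w ≠ 0 ∧ c ≠ 0 ∧
      coeffMap φ (g : LaurentSeries (AlgebraicClosure ℚ)) =
        algebraMap K (LaurentSeries K) c * ((w : LaurentSeries K) ^ n * (u : LaurentSeries K)) ∧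
      ∀ P0 : Place (AlgebraicClosure ℚ) ↥(modularFunctionFieldBar N), (n : ℤ) ∣ P0.ord g :=
  di3_desc φ N _ (di3_bar_eq N) _ (di3_baseChange_eq K N) hn hu hdiv

/-- **T3 / (L) in the Prelude fields.** -/
theorem di3_pow_descend_bar {n : ℕ} (hn : 0 < n) (f : ↥(modularFunctionFieldBar N)) (c : K)
    (v : ↥(laurentBaseChange K (modularFunctionFieldFull N)))
    (h : coeffMap φ (f : LaurentSeries (AlgebraicClosure ℚ)) =
      algebraMap K (LaurentSeries K) c * (v : LaurentSeries K) ^ n) :
    ∃ (c0 : AlgebraicClosure ℚ) (v0 : ↥(modularFunctionFieldBar N)),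
      f = algebraMap (AlgebraicClosure ℚ) ↥(modularFunctionFieldBar N) c0 * v0 ^ n :=
  di3_pow_descend φ N _ (di3_bar_eq N) _ (di3_baseChange_eq K N) hn f c v h

end di3_bar

end Fermat.Agent.S42
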