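import Fermat.Agent.S42.FunFieldMer79
import Fermat.Prelude.Thm_ModularCurve_coeffMap_qExpand

/-!
S42 / Project 4, seam (G-inv) (helper79, with helper34): base change of the function field along
a ring hom of constant fields, and the evaluation `ev0 := ev ∘ bc` of the `ℚ̄`-function field
`modularFunctionFieldBar N` in the meromorphic functions on the upper half plane.

* `ff79_bc φ N : F_L(N) →+* F_{L'}(N)` for `φ : L →+* L'` (coefficientwise), with
  `ff79_bc_coe`, `ff79_bc_algebraMap`, `ff79_bc_JJ`, `ff79_bc_injective`, `ff79_bc_alpha`,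
  `ff79_bc_beta` (compatibility with the two degeneracy maps);
* `ff79_ev0 φ N : ↥(modularFunctionFieldBar N) →+* mer95_MER` for ANY `φ : ℚ̄ →+* ℂ`, with
  `ff79_ev0_gen`, `ff79_ev0_C`, `ff79_ev0_injective`,
  `ff79_ev0_smul` / `ff79_ev0_fix` (invariance under `Γ₀(N)`, the hypothesis (E-inv)/`hfix`),
  `ff79_zeta_fix` (`hζfix`: constants are fixed),
  `ff79_ev0_alpha`, `ff79_ev0_beta` (levels).
-/

set_option autoImplicit false

open ModularCurve AlgebraicCurve MatrixGroups UpperHalfPlane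
open Fermat.Agent.S24

namespace Fermat.Agent.S42

section BaseChange

variable {L L' : Type*} [Field L] [Algebra ℚ L] [Field L'] [Algebra ℚ L'] (φ : L →+* L')

theorem ff79_coeffMap_coeffEmb (x : LaurentSeries ℚ) :
    coeffMap φ (coeffEmb L x) = coeffEmb L' x := by
  rw [coeffEmb, coeffEmb, coeffMap_coeffMap]
  exact coeffMap_congr (RingHom.ext fun c => by simp) x

omit [Algebra ℚ L] [Algebra ℚ L'] in
theorem ff79_coeffMap_algebraMap (c : L) :
    coeffMap φ (algebraMap L (LaurentSeries L) c) = algebraMap L' (LaurentSeries L') (φ c) := by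
  rw [algebraMap_laurentSeries_eq_single, algebraMap_laurentSeries_eq_single, coeffMap_single]

theorem ff79_coeffMap_mem (F₀ : IntermediateField ℚ (LaurentSeries ℚ)) {x : LaurentSeries L}
    (hx : x ∈ laurentBaseChange L F₀) : coeffMap φ x ∈ laurentBaseChange L' F₀ := by
  rw [mem_laurentBaseChange_iff] at hx
  induction hx using Subfield.closure_induction with
  | mem y hy =>
      rcases hy with ⟨a, rfl⟩ | ⟨z, hz, rfl⟩
      · rw [ff79_coeffMap_algebraMap]
        exact (laurentBaseChange L' F₀).algebraMap_mem _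
      · rw [ff79_coeffMap_coeffEmb]
        exact coeffEmb_mem_laurentBaseChange L' hz
  | one => rw [map_one]; exact one_mem _
  | add x y _ _ hx hy => rw [map_add]; exact add_mem hx hy
  | neg x _ hx => rw [map_neg]; exact neg_mem hx
  | inv x _ hx => rw [map_inv₀]; exact inv_mem hx
  | mul x y _ _ hx hy => rw [map_mul]; exact mul_mem hx hy

/-- **Base change of functions** `F_L(N) → F_{L'}(N)` along a ring hom of the constant fields:
the coefficientwise map. -/
noncomputable def ff79_bc (N : ℕ) :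
    ↥(laurentBaseChange L (modularFunctionFieldFull N)) →+*
      ↥(laurentBaseChange L' (modularFunctionFieldFull N)) :=
  ((coeffMap φ).comp
    (algebraMap ↥(laurentBaseChange L (modularFunctionFieldFull N)) (LaurentSeries L))).codRestrict
      (laurentBaseChange L' (modularFunctionFieldFull N))
      (fun f => ff79_coeffMap_mem φ (modularFunctionFieldFull N) f.2)

@[simp]
theorem ff79_bc_coe (N : ℕ) (f : ↥(laurentBaseChange L (modularFunctionFieldFull N))) :
    ((ff79_bc φ N f : ↥(laurentBaseChange L' (modularFunctionFieldFull N))) : LaurentSeries L') =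
      coeffMap φ (f : LaurentSeries L) := rfl

theorem ff79_bc_algebraMap (N : ℕ) (c : L) :
    ff79_bc φ N (algebraMap L ↥(laurentBaseChange L (modularFunctionFieldFull N)) c) =
      algebraMap L' ↥(laurentBaseChange L' (modularFunctionFieldFull N)) (φ c) :=
  Subtype.ext (ff79_coeffMap_algebraMap φ c)

theorem ff79_bc_injective (N : ℕ) : Function.Injective (ff79_bc φ N) :=
  (ff79_bc φ N).injective

theorem ff79_coeffMap_JJ (d : ℕ) : coeffMap φ (ff79_JJ L d) = ff79_JJ L' d := by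
  by_cases h : d = 0
  · subst h
    simp [ff79_JJ]
  · have : NeZero d := ⟨h⟩
    rw [ff79_JJ_of_neZero, ff79_JJ_of_neZero, ff79_coeffMap_coeffEmb]

theorem ff79_bc_JJ (N : ℕ) [NeZero N] (d : ℕ) (hd : d ∣ N) :
    ff79_bc φ N ⟨ff79_JJ L d, ff79_JJ_mem L N d hd⟩ = ⟨ff79_JJ L' d, ff79_JJ_mem L' N d hd⟩ :=
  Subtype.ext (ff79_coeffMap_JJ φ d)

/-- Base change commutes with `α` (the inclusion of level `N` in level `N ℓ`). -/
theorem ff79_bc_alpha (N ℓ : ℕ) [NeZero N] [NeZero ℓ]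
    (f : ↥(laurentBaseChange L (modularFunctionFieldFull N))) :
    ff79_bc φ (N * ℓ) (heckeAlphaBar L N ℓ f) = heckeAlphaBar L' N ℓ (ff79_bc φ N f) := by
  apply Subtype.ext
  rw [ff79_bc_coe, coe_heckeAlphaBar, coe_heckeAlphaBar, ff79_bc_coe]

/-- Base change commutes with `β` (`q ↦ q^ℓ`). -/
theorem ff79_bc_beta (N ℓ : ℕ) [NeZero N] [NeZero ℓ]
    (f : ↥(laurentBaseChange L (modularFunctionFieldFull N))) :
    ff79_bc φ (N * ℓ) (heckeBetaBar L N ℓ f) = heckeBetaBar L' N ℓ (ff79_bc φ N f) := by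
  apply Subtype.ext
  rw [ff79_bc_coe, coe_heckeBetaBar, coe_heckeBetaBar, ff79_bc_coe, coeffMap_qExpand]

end BaseChange

section Ev0

variable (φ : AlgebraicClosure ℚ →+* ℂ)

/-- **`ev0 = ev ∘ bc`**: the `ℚ̄`-function field of level `N` inside the meromorphic functions on
the upper half plane, through an arbitrary embedding `φ : ℚ̄ → ℂ`. -/
noncomputable def ff79_ev0 (N : ℕ) [NeZero N] : ↥(modularFunctionFieldBar N) →+* mer95_MER :=
  (ff79_evMer N : ↥(laurentBaseChange ℂ (modularFunctionFieldFull N)) →+* mer95_MER).comp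
    (ff79_bc φ N)

theorem ff79_ev0_apply (N : ℕ) [NeZero N] (f : ↥(modularFunctionFieldBar N)) :
    ff79_ev0 φ N f = ff79_evMer N (ff79_bc φ N f) := rfl

theorem ff79_ev0_injective (N : ℕ) [NeZero N] : Function.Injective (ff79_ev0 φ N) :=
  (ff79_ev0 φ N).injective

theorem ff79_ev0_C (N : ℕ) [NeZero N] (c : AlgebraicClosure ℚ) :
    ff79_ev0 φ N (algebraMap (AlgebraicClosure ℚ) ↥(modularFunctionFieldBar N) c) =
      algebraMap ℂ mer95_MER (φ c) := by
  rw [ff79_ev0_apply]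
  erw [ff79_bc_algebraMap φ N c]
  exact ff79_evMer_C N (φ c)

/-- `ev0 (j(q^d)) = j(d·)`. -/
theorem ff79_ev0_gen (N : ℕ) [NeZero N] (d : ℕ) (hd : d ∣ N) :
    ff79_ev0 φ N ⟨ff79_JJ (AlgebraicClosure ℚ) d, ff79_JJ_mem (AlgebraicClosure ℚ) N d hd⟩ =
      algebraMap mer95_O mer95_MER (ff79_jO d) := by
  rw [ff79_ev0_apply]
  erw [ff79_bc_JJ φ N d hd]
  exact ff79_evMer_gen N d hd

/-- The S24 series `JJ d` is the generator `ff79_JJ ℚ̄ d`. -/
theorem ff79_JJ_eq_JJ (d : ℕ) : ff79_JJ (AlgebraicClosure ℚ) d = JJ d := rfl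

/-- **(E-inv), `hfix`.** The image of `ev0` is fixed by `Γ₀(N)`. -/
theorem ff79_ev0_smul (N : ℕ) [NeZero N] (g : SL(2, ℤ)) (hg : g ∈ CongruenceSubgroup.Gamma0 N)
    (f : ↥(modularFunctionFieldBar N)) : g • ff79_ev0 φ N f = ff79_ev0 φ N f :=
  ff79_evMer_smul N g hg _

/-- `hfix` in the shape of `th70_exists_theta` (`Gam := ↥(Γ₀(N))`). -/
theorem ff79_ev0_fix (N : ℕ) [NeZero N] (g : ↥(CongruenceSubgroup.Gamma0 N))
    (f : ↥(modularFunctionFieldBar N)) : g • ff79_ev0 φ N f = ff79_ev0 φ N f :=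
  ff79_ev0_smul φ N g.1 g.2 f

/-- **`hζfix`.** Complex constants are fixed by `Γ₀(N)` (indeed by `SL(2,ℤ)`). -/
theorem ff79_zeta_fix (N : ℕ) (g : ↥(CongruenceSubgroup.Gamma0 N)) (c : ℂ) :
    g • algebraMap ℂ mer95_MER c = algebraMap ℂ mer95_MER c :=
  mer95_smul_C_SL g.1 c

/-- **Level compatibility along `α`.** -/
theorem ff79_ev0_alpha (N ℓ : ℕ) [NeZero N] [NeZero ℓ] (f : ↥(modularFunctionFieldBar N)) :
    ff79_ev0 φ (N * ℓ) (heckeAlphaBar (AlgebraicClosure ℚ) N ℓ f) = ff79_ev0 φ N f := by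
  rw [ff79_ev0_apply, ff79_ev0_apply]
  erw [ff79_bc_alpha φ N ℓ f]
  exact ff79_evMer_alpha N ℓ _

/-- **Level compatibility along `β`**: `ev0_{Nℓ} (β f) = (diag(ℓ,1))⁻¹ • ev0_N f`, i.e.
`τ ↦ (ev0_N f)(ℓτ)`. -/
theorem ff79_ev0_beta (N ℓ : ℕ) [NeZero N] [NeZero ℓ] (f : ↥(modularFunctionFieldBar N)) :
    ff79_ev0 φ (N * ℓ) (heckeBetaBar (AlgebraicClosure ℚ) N ℓ f) =
      (ff79_diag ℓ)⁻¹ • ff79_ev0 φ N f := by
  rw [ff79_ev0_apply, ff79_ev0_apply]
  erw [ff79_bc_beta φ N ℓ f]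
  exact ff79_evMer_beta N ℓ _

end Ev0

end Fermat.Agent.S42
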