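/-
S42 / Project 4, seam `M8p` (helper88): **the Hecke operators on `Hom(Γ, A)` preserve the
parabolic homomorphisms** — for every Hecke coset system (`LbSys`), in particular for
`heckeHom N ℓ A` at every prime `ℓ ∤ N` (and at `ℓ ∣ N`), and for every abelian group `A`
(no torsion hypothesis).

Proof: for `γ` with `tr γ ^ 2 = 4` the index set splits into the cycles of `i ↦ perm γ i`;
along a cycle of length `m` starting at `i` the elements `kap γ _` multiply to `kap (γ ^ m) i`,
which satisfies `mat i * γ ^ m = kap (γ ^ m) i * mat i`, hence has the trace of `γ ^ m`, whose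
square is `4`.  So a parabolic `φ` kills it, and `(T φ)(γ) = ∑ i, φ (kap γ i) = 0`.

* `hpg88_coh_isParabolicHom`  : any `LbSys`;
* `hpg88_isParabolicHom`, `hpg88_mem_parabolicHoms` : `heckeHom N ℓ A`, `ℓ ∤ N` prime;
* `hpg88_isParabolicHom_U`, `hpg88_mem_parabolicHoms_U` : `heckeHom N ℓ A`, `ℓ ∣ N` prime;
* `hpg88_TPar` : the restricted `ZMod p`-linear operator on `parabolicHoms (ZMod p) Γ₀(N) (ZMod p)`,
  `hpg88_TPar_coe`, `hpg88_subtype_comp`, and `hpg88_TPar_eigen` (an eigen-equation in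
  `k0 ⊗ Hom(Γ₀(N), ZMod p)` of an element of `k0 ⊗ Par` is an eigen-equation in `k0 ⊗ Par`).
-/
import Mathlib
import Fermat.Prelude.Def_ModularCurve_PeriodMap
import Fermat.Agent.S16.LB.BridgeHH

set_option autoImplicit false

open CongruenceSubgroup ModularCurve ModularCurve.Period
open scoped MatrixGroups TensorProduct

namespace Fermat.Agent.S42

open Fermat.Agent.S16

/-! ### sums over the orbits of an injective self-map with periodic points -/

/-- If the sum of `F` over every orbit of `g` vanishes, then the sum of `F` over every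
`g`-stable finite set vanishes. -/
theorem hpg88_sum_stable {ι : Type*} [DecidableEq ι] {A : Type*} [AddCommMonoid A]
    (g : ι → ι) (hg : Function.Injective g) (hper : ∀ i, 0 < Function.minimalPeriod g i)
    (F : ι → A)
    (h : ∀ i, ∑ k ∈ Finset.range (Function.minimalPeriod g i), F (g^[k] i) = 0) :
    ∀ (n : ℕ) (s : Finset ι), s.card = n → (∀ i ∈ s, g i ∈ s) → ∑ i ∈ s, F i = 0 := by
  intro n
  induction n using Nat.strong_induction_on with
  | _ n ih =>
    intro s hs hst
    rcases s.eq_empty_or_nonempty with rfl | ⟨i, hi⟩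
    · simp
    set m := Function.minimalPeriod g i with hm
    have hm0 : 0 < m := hper i
    set o : Finset ι := (Finset.range m).image (fun k => g^[k] i) with ho
    have hiter : ∀ k, g^[k] i ∈ s := by
      intro k
      induction k with
      | zero => exact hi
      | succ k ihk =>
        rw [Function.iterate_succ_apply']
        exact hst _ ihk
    have hos : o ⊆ s := by
      intro x hx
      obtain ⟨k, -, rfl⟩ := Finset.mem_image.mp hx
      exact hiter k
    have hio : i ∈ o := Finset.mem_image.mpr ⟨0, Finset.mem_range.mpr hm0, rfl⟩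
    have hgo : ∀ x ∈ o, g x ∈ o := by
      intro x hx
      obtain ⟨k, hk, rfl⟩ := Finset.mem_image.mp hx
      have hsucc : g (g^[k] i) = g^[k + 1] i := (Function.iterate_succ_apply' g k i).symm
      rw [hsucc]
      by_cases hk1 : k + 1 < m
      · exact Finset.mem_image.mpr ⟨k + 1, Finset.mem_range.mpr hk1, rfl⟩
      · have hkm : k + 1 = m := by
          have := Finset.mem_range.mp hk
          omega
        rw [hkm, hm, Function.iterate_minimalPeriod]
        exact hio
    have hsurj : ∀ y ∈ o, ∃ x ∈ o, g x = y := by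
      have key := Finset.surj_on_of_inj_on_of_card_le (s := o) (t := o) (fun x _ => g x)
        (fun x hx => hgo x hx) (fun a b _ _ hab => hg hab) le_rfl
      intro y hy
      obtain ⟨x, hx, hxy⟩ := key y hy
      exact ⟨x, hx, hxy.symm⟩
    have hsd : ∀ x ∈ s \ o, g x ∈ s \ o := by
      intro x hx
      rw [Finset.mem_sdiff] at hx ⊢
      refine ⟨hst x hx.1, fun hgx => hx.2 ?_⟩
      obtain ⟨y, hy, hyx⟩ := hsurj (g x) hgx
      rw [← hg hyx]
      exact hy
    have hcard : (s \ o).card < n := by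
      rw [← hs]
      exact Finset.card_lt_card (Finset.sdiff_ssubset hos ⟨i, hio⟩)
    have h1 := ih _ hcard (s \ o) rfl hsd
    have h2 : ∑ x ∈ o, F x = 0 := by
      rw [ho, Finset.sum_image]
      · exact h i
      · intro a ha b hb hab
        exact Function.iterate_injOn_Iio_minimalPeriod
          (Set.mem_Iio.mpr (Finset.mem_range.mp (Finset.mem_coe.mp ha)))
          (Set.mem_Iio.mpr (Finset.mem_range.mp (Finset.mem_coe.mp hb))) hab
    rw [← Finset.sum_sdiff hos, h1, h2, add_zero]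

/-! ### `2 × 2` matrix facts -/

/-- Cayley–Hamilton for `2 × 2` integer matrices of determinant `1`. -/
theorem hpg88_sq (M : Matrix (Fin 2) (Fin 2) ℤ) (hdet : M.det = 1) :
    M * M = M.trace • M - 1 := by
  rw [Matrix.det_fin_two] at hdet
  ext i j
  fin_cases i <;> fin_cases j <;>
    simp [Matrix.mul_apply, Fin.sum_univ_two, Matrix.trace_fin_two, Matrix.smul_apply,
      -zsmul_eq_mul] <;>
    first | linear_combination (-1 : ℤ) * hdet | ring

/-- the traces of the powers of a matrix of determinant `1` and trace `2 ε`, `ε = ± 1`. -/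
theorem hpg88_trace_pow_aux (M : Matrix (Fin 2) (Fin 2) ℤ) (hdet : M.det = 1) (ε : ℤ)
    (hε : ε * ε = 1) (ht : M.trace = 2 * ε) (m : ℕ) :
    (M ^ m).trace = 2 * ε ^ m ∧ (M ^ (m + 1)).trace = 2 * ε ^ (m + 1) := by
  induction m with
  | zero =>
    refine ⟨?_, ?_⟩
    · simp
    · simp [ht]
  | succ m ih =>
    refine ⟨ih.2, ?_⟩
    have e : M ^ (m + 1 + 1) = M.trace • M ^ (m + 1) - M ^ m := by
      calc M ^ (m + 1 + 1) = M ^ m * (M * M) := by rw [pow_succ, pow_succ, Matrix.mul_assoc]
        _ = M ^ m * (M.trace • M - 1) := by rw [hpg88_sq M hdet]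
        _ = M.trace • M ^ (m + 1) - M ^ m := by
          rw [Matrix.mul_sub, Matrix.mul_smul, Matrix.mul_one, ← pow_succ]
    rw [e, Matrix.trace_sub, Matrix.trace_smul, ih.1, ih.2, ht, smul_eq_mul]
    have h2 : ε ^ (m + 1 + 1) = ε ^ m := by
      rw [pow_succ, pow_succ, mul_assoc, hε, mul_one]
    rw [h2, pow_succ]
    linear_combination (4 * ε ^ m) * hε

/-- the powers of an element of `SL(2, ℤ)` whose trace has square `4` have the same property. -/
theorem hpg88_trace_pow (g : SL(2, ℤ))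
    (h : (g : Matrix (Fin 2) (Fin 2) ℤ).trace ^ 2 = 4) (m : ℕ) :
    ((g ^ m : SL(2, ℤ)) : Matrix (Fin 2) (Fin 2) ℤ).trace ^ 2 = 4 := by
  have ht : (g : Matrix (Fin 2) (Fin 2) ℤ).trace = 2 ∨
      (g : Matrix (Fin 2) (Fin 2) ℤ).trace = -2 := by
    have h' : ((g : Matrix (Fin 2) (Fin 2) ℤ).trace - 2) *
        ((g : Matrix (Fin 2) (Fin 2) ℤ).trace + 2) = 0 := by
      linear_combination h
    rcases mul_eq_zero.mp h' with h1 | h1
    · left; linarith
    · right; linarith
  rw [Matrix.SpecialLinearGroup.coe_pow]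
  rcases ht with ht | ht
  · have := (hpg88_trace_pow_aux _ g.2 1 (by norm_num) (by rw [ht]; norm_num) m).1
    rw [this]
    simp
  · have := (hpg88_trace_pow_aux _ g.2 (-1) (by norm_num) (by rw [ht]; norm_num) m).1
    rw [this, mul_pow, ← pow_mul, mul_comm m 2, pow_mul]
    norm_num

/-- matrices conjugate by a matrix of nonzero determinant have the same trace. -/
theorem hpg88_trace_eq_of_mul_eq {M G K : Matrix (Fin 2) (Fin 2) ℤ} (hM : M.det ≠ 0)
    (h : M * G = K * M) : K.trace = G.trace := by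
  have h1 : M.det • K = M * G * M.adjugate := by
    rw [h, Matrix.mul_assoc, Matrix.mul_adjugate, Matrix.mul_smul, Matrix.mul_one]
  have h2 : (M * G * M.adjugate).trace = M.det * G.trace := by
    rw [Matrix.trace_mul_cycle, Matrix.adjugate_mul, Matrix.smul_mul, Matrix.one_mul,
      Matrix.trace_smul, smul_eq_mul]
  have h3 : M.det * K.trace = M.det * G.trace := by
    rw [← h2, ← h1, Matrix.trace_smul, smul_eq_mul]
  exact mul_left_cancel₀ hM h3

/-! ### the cycle computation for a Hecke coset system -/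

section Lb

variable {Γ : Subgroup SL(2, ℤ)} (S : LbSys Γ)

theorem hpg88_perm_pow (γ : Γ) (m : ℕ) (i : S.ι) :
    S.perm (γ ^ m) i = (S.perm γ)^[m] i := by
  induction m generalizing i with
  | zero => rw [pow_zero, S.perm_one, Function.iterate_zero, id]
  | succ m ih => rw [pow_succ', S.perm_mul, ih, Function.iterate_succ_apply]

theorem hpg88_kap_pow {A : Type*} [AddCommGroup A] (φ : Additive Γ →+ A) (γ : Γ) (m : ℕ)
    (i : S.ι) :
    φ (Additive.ofMul (S.kap (γ ^ m) i)) =
      ∑ k ∈ Finset.range m, φ (Additive.ofMul (S.kap γ ((S.perm γ)^[k] i))) := by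
  induction m generalizing i with
  | zero => rw [pow_zero, S.kap_one, ofMul_one, map_zero, Finset.sum_range_zero]
  | succ m ih =>
    rw [pow_succ', S.kap_mul, ofMul_mul, map_add, ih, Finset.sum_range_succ', add_comm]
    rfl

/-- **The operator of a Hecke coset system preserves the parabolic homomorphisms.** -/
theorem hpg88_coh_isParabolicHom {A : Type*} [AddCommGroup A] (φ : Additive Γ →+ A)
    (hφ : IsParabolicHom Γ φ) : IsParabolicHom Γ (S.coh A φ) := by
  classical
  intro γ hγ
  rw [LbSys.coh_apply]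
  have hinj : Function.Injective (S.perm γ) := (S.permEquiv γ).injective
  have hper : ∀ i, 0 < Function.minimalPeriod (S.perm γ) i := by
    intro i
    have hn : 0 < orderOf (S.permEquiv γ) := orderOf_pos _
    refine Function.IsPeriodicPt.minimalPeriod_pos hn ?_
    have h1 : ((S.permEquiv γ) ^ orderOf (S.permEquiv γ)) i = i := by
      rw [pow_orderOf_eq_one]
      rfl
    have h2 : ∀ (n : ℕ) (j : S.ι), ((S.permEquiv γ) ^ n) j = (S.perm γ)^[n] j := by
      intro n
      induction n with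
      | zero => intro j; rfl
      | succ n ihn =>
        intro j
        rw [pow_succ, Equiv.Perm.mul_apply, ihn, Function.iterate_succ_apply]
        rfl
    rw [h2] at h1
    exact h1
  refine hpg88_sum_stable (S.perm γ) hinj hper (fun i => φ (Additive.ofMul (S.kap γ i))) ?_ _
    Finset.univ rfl (fun i _ => Finset.mem_univ _)
  intro i
  rw [← hpg88_kap_pow S φ γ (Function.minimalPeriod (S.perm γ) i) i]
  apply hφ
  have hfix : S.perm (γ ^ Function.minimalPeriod (S.perm γ) i) i = i := by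
    rw [hpg88_perm_pow]
    exact Function.iterate_minimalPeriod
  have hmm := S.mat_mul (γ ^ Function.minimalPeriod (S.perm γ) i) i
  rw [hfix] at hmm
  rw [hpg88_trace_eq_of_mul_eq (S.det_pos i).ne' hmm, Subgroup.coe_pow]
  exact hpg88_trace_pow _ hγ _

end Lb

/-! ### `heckeHom` -/

section HeckeHom

variable {N ℓ : ℕ} {A : Type*} [AddCommGroup A]

/-- **`T_ℓ` (`ℓ ∤ N` prime) preserves the parabolic homomorphisms**, any coefficient group. -/
theorem hpg88_isParabolicHom (hℓ : ℓ.Prime) (hℓN : ¬ ℓ ∣ N) (χ : Additive (Gamma0 N) →+ A)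
    (hχ : IsParabolicHom (Gamma0 N) χ) : IsParabolicHom (Gamma0 N) (heckeHom N ℓ A χ) := by
  rw [← hh_lbSysT_coh hℓ hℓN A]
  exact hpg88_coh_isParabolicHom _ χ hχ

/-- **`U_ℓ` (`ℓ ∣ N` prime) preserves the parabolic homomorphisms**, any coefficient group. -/
theorem hpg88_isParabolicHom_U (hℓ : ℓ.Prime) (hℓN : ℓ ∣ N) (χ : Additive (Gamma0 N) →+ A)
    (hχ : IsParabolicHom (Gamma0 N) χ) : IsParabolicHom (Gamma0 N) (heckeHom N ℓ A χ) := by
  rw [← hh_lbSysU_coh hℓ hℓN A]
  exact hpg88_coh_isParabolicHom _ χ hχ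

/-- `heckeHom N ℓ A` preserves the parabolic homomorphisms for every prime `ℓ`. -/
theorem hpg88_isParabolicHom_prime (hℓ : ℓ.Prime) (χ : Additive (Gamma0 N) →+ A)
    (hχ : IsParabolicHom (Gamma0 N) χ) : IsParabolicHom (Gamma0 N) (heckeHom N ℓ A χ) := by
  by_cases hℓN : ℓ ∣ N
  · exact hpg88_isParabolicHom_U hℓ hℓN χ hχ
  · exact hpg88_isParabolicHom hℓ hℓN χ hχ

theorem hpg88_mem_parabolicHoms (hℓ : ℓ.Prime) (hℓN : ¬ ℓ ∣ N) (R : Type*) [Semiring R]
    [Module R A] {χ : Additive (Gamma0 N) →+ A} (hχ : χ ∈ parabolicHoms R (Gamma0 N) A) :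
    heckeHom N ℓ A χ ∈ parabolicHoms R (Gamma0 N) A :=
  hpg88_isParabolicHom hℓ hℓN χ hχ

theorem hpg88_mem_parabolicHoms_U (hℓ : ℓ.Prime) (hℓN : ℓ ∣ N) (R : Type*) [Semiring R]
    [Module R A] {χ : Additive (Gamma0 N) →+ A} (hχ : χ ∈ parabolicHoms R (Gamma0 N) A) :
    heckeHom N ℓ A χ ∈ parabolicHoms R (Gamma0 N) A :=
  hpg88_isParabolicHom_U hℓ hℓN χ hχ

theorem hpg88_mem_parabolicHoms_prime (hℓ : ℓ.Prime) (R : Type*) [Semiring R]
    [Module R A] {χ : Additive (Gamma0 N) →+ A} (hχ : χ ∈ parabolicHoms R (Gamma0 N) A) :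
    heckeHom N ℓ A χ ∈ parabolicHoms R (Gamma0 N) A :=
  hpg88_isParabolicHom_prime hℓ χ hχ

end HeckeHom

/-! ### the restricted operator on `Par_N = parabolicHoms (ZMod p) Γ₀(N) (ZMod p)` -/

section Par

variable (N p ℓ : ℕ)

/-- `T'_ℓ = heckeHom N ℓ (ZMod p)` restricted to `Par_N`, `ZMod p`-linear (`ℓ` prime). -/
noncomputable def hpg88_TPar (hℓ : ℓ.Prime) :
    parabolicHoms (ZMod p) (Gamma0 N) (ZMod p) →ₗ[ZMod p]
      parabolicHoms (ZMod p) (Gamma0 N) (ZMod p) :=
  ((heckeHom N ℓ (ZMod p)).toZModLinearMap p).restrict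
    (fun _ hχ => hpg88_mem_parabolicHoms_prime hℓ (ZMod p) hχ)

theorem hpg88_TPar_coe (hℓ : ℓ.Prime) (χ : parabolicHoms (ZMod p) (Gamma0 N) (ZMod p)) :
    ((hpg88_TPar N p ℓ hℓ χ : parabolicHoms (ZMod p) (Gamma0 N) (ZMod p)) :
      Additive (Gamma0 N) →+ ZMod p) = heckeHom N ℓ (ZMod p) χ := rfl

/-- `incl ∘ T'_ℓ|Par = T'_ℓ ∘ incl`. -/
theorem hpg88_subtype_comp (hℓ : ℓ.Prime) :
    (parabolicHoms (ZMod p) (Gamma0 N) (ZMod p)).subtype.comp (hpg88_TPar N p ℓ hℓ) =
      ((heckeHom N ℓ (ZMod p)).toZModLinearMap p).comp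
        (parabolicHoms (ZMod p) (Gamma0 N) (ZMod p)).subtype :=
  LinearMap.ext fun _ => rfl

/-- An eigen-equation of (the image of) `x ∈ k0 ⊗ Par_N` in `k0 ⊗ Hom(Γ₀(N), ZMod p)` is an
eigen-equation in `k0 ⊗ Par_N` for the restricted operator. -/
theorem hpg88_TPar_eigen [Fact p.Prime] (hℓ : ℓ.Prime) {k0 : Type*} [Field k0]
    [Algebra (ZMod p) k0] (x : k0 ⊗[ZMod p] parabolicHoms (ZMod p) (Gamma0 N) (ZMod p)) (c : k0)
    (h : ((heckeHom N ℓ (ZMod p)).toZModLinearMap p).baseChange k0
        ((parabolicHoms (ZMod p) (Gamma0 N) (ZMod p)).subtype.baseChange k0 x) =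
      c • (parabolicHoms (ZMod p) (Gamma0 N) (ZMod p)).subtype.baseChange k0 x) :
    (hpg88_TPar N p ℓ hℓ).baseChange k0 x = c • x := by
  have hinj : Function.Injective
      ((parabolicHoms (ZMod p) (Gamma0 N) (ZMod p)).subtype.baseChange k0) := by
    rw [LinearMap.baseChange_eq_ltensor]
    exact Module.Flat.lTensor_preserves_injective_linearMap _ (Submodule.subtype_injective _)
  apply hinj
  rw [map_smul, ← h, ← LinearMap.comp_apply, ← LinearMap.baseChange_comp, hpg88_subtype_comp,
    LinearMap.baseChange_comp, LinearMap.comp_apply]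

end Par

end Fermat.Agent.S42
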