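import Fermat.Agent.S42.ThetaAbs70
import Fermat.Agent.S42.DescData3

/-!
# S42, row ARCH / R7 (helper70): admissible pairs over the small constant field

The adapter between the analytic existence statement (X) over the big constant field `K`
(`= ℂ`), the descent (DESC) in the output shape of `dr86_kummer` / `ds3_kummer_of`, the place
extension (P) (`pe99_place_ext`), and the hypothesis `hex` of `th70_I_Theta`:

if `h : M` has character `χ`, `evC u = h ^ p` with `u : F` (over `K`) and `p ∣ P.ord u` at every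
place of `F / K`, then there are `h' : M`, `g : F0` (over `k0`) with `(h', g)` admissible for `χ`
with respect to `ev0 = evC ∘ ι`.

Names are prefixed `th70_`.
-/

set_option autoImplicit false
set_option linter.unusedSectionVars false
set_option linter.unusedVariables false
set_option linter.style.longLine false

open AlgebraicCurve

namespace Fermat.Agent.S42

section th70_ex

variable {k0 K F0 F : Type*} [Field k0] [Field K] [Field F0] [Field F]
  [Algebra k0 F0] [Algebra K F]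
variable {M : Type*} [Field M] {Gam : Type*} [Group Gam] [MulSemiringAction Gam M]

/-- **Admissible pairs descend.**  `ι : F0 →+* F` the base change, `evC : F →+* M`. -/
theorem th70_adm_of_desc_hom (ι : F0 →+* F) (evC : F →+* M) (p : ℕ) (hp : p ≠ 0) (ζ : M)
    (hζ0 : ζ ≠ 0)
    (hfixC : ∀ (g : Gam) (f : F), g • evC f = evC f)
    (hrootK : ∀ c : K, ∃ d : K, d ^ p = c)
    (hext : ∀ P0 : Place k0 F0, ∃ P : Place K F, ∀ g : F0, P.ord (ι g) = P0.ord g)
    (hdesc : ∀ G : F, G ≠ 0 → (∀ P : Place K F, (p : ℤ) ∣ P.ord G) →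
      ∃ (c : K) (w : F) (g : F0), c ≠ 0 ∧ w ≠ 0 ∧ g ≠ 0 ∧ G = algebraMap K F c * ι g * w ^ p)
    {χ : Additive Gam →+ ZMod p} {h : M} {u : F} (h0 : h ≠ 0)
    (hchar : th70_IsChar p ζ χ h) (hpow : evC u = h ^ p)
    (hdvd : ∀ P : Place K F, (p : ℤ) ∣ P.ord u) :
    ∃ (h' : M) (f : F0), th70_Adm k0 (evC.comp ι) p ζ χ h' f := by
  have hu : u ≠ 0 := by
    rintro rfl
    rw [map_zero] at hpow
    exact pow_ne_zero p h0 hpow.symm
  obtain ⟨c, w, g, hc, hw, hg, hG⟩ := hdesc u hu hdvd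
  obtain ⟨d, hd⟩ := hrootK c
  have hd0 : d ≠ 0 := by
    rintro rfl
    rw [zero_pow hp] at hd
    exact hc hd.symm
  have hevd : evC (algebraMap K F d) ≠ 0 := by simpa using hd0
  have hevw : evC w ≠ 0 := by simpa using hw
  have hιg : ι g ≠ 0 := by simpa using hg
  have hcF : algebraMap K F c ≠ 0 := by simpa using hc
  have hwp : w ^ p ≠ 0 := pow_ne_zero _ hw
  refine ⟨h / (evC (algebraMap K F d) * evC w), g,
    div_ne_zero h0 (mul_ne_zero hevd hevw), hg, fun γ => ?_, ?_, fun P0 => ?_⟩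
  · have hz : ζ ^ (χ (Additive.ofMul γ)).val ≠ 0 := pow_ne_zero _ hζ0
    rw [div_eq_mul_inv, smul_mul', smul_inv'', smul_mul', hfixC, hfixC, hchar γ]
    ring
  · rw [div_pow, ← hpow, hG, mul_pow, ← map_pow, ← map_pow, ← map_pow, hd, RingHom.comp_apply,
      map_mul, map_mul]
    have h1 : evC (algebraMap K F c) ≠ 0 := by simpa using hc
    have h2 : evC (w ^ p) ≠ 0 := by simpa using hwp
    field_simp
  · obtain ⟨P, hP⟩ := hext P0
    rw [← hP g]
    have h1 : P.ord u = P.ord (ι g) + (p : ℤ) * P.ord w := by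
      rw [hG, P.ord_mul (mul_ne_zero hcF hιg) hwp, P.ord_mul hcF hιg, th70_ord_algebraMap,
        th70_ord_pow, zero_add]
    have h2 : P.ord (ι g) = P.ord u - (p : ℤ) * P.ord w := by rw [h1]; ring
    rw [h2]
    exact dvd_sub (hdvd P) (dvd_mul_right _ _)

/-- The same for a descent datum `S : ds3_Data k0 K F0 F` (`ι = S.ι`). -/
theorem th70_adm_of_desc (S : ds3_Data k0 K F0 F) (evC : F →+* M) (p : ℕ) (hp : p ≠ 0) (ζ : M)
    (hζ0 : ζ ≠ 0)
    (hfixC : ∀ (g : Gam) (f : F), g • evC f = evC f)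
    (hrootK : ∀ c : K, ∃ d : K, d ^ p = c)
    (hext : ∀ P0 : Place k0 F0, ∃ P : Place K F, ∀ g : F0, P.ord (S.ι g) = P0.ord g)
    (hdesc : ∀ G : F, G ≠ 0 → (∀ P : Place K F, (p : ℤ) ∣ P.ord G) →
      ∃ (c : K) (w : F) (g : F0), c ≠ 0 ∧ w ≠ 0 ∧ g ≠ 0 ∧ G = algebraMap K F c * S.ι g * w ^ p)
    {χ : Additive Gam →+ ZMod p} {h : M} {u : F} (h0 : h ≠ 0)
    (hchar : th70_IsChar p ζ χ h) (hpow : evC u = h ^ p)
    (hdvd : ∀ P : Place K F, (p : ℤ) ∣ P.ord u) :
    ∃ (h' : M) (f : F0), th70_Adm k0 (evC.comp S.ι) p ζ χ h' f :=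
  th70_adm_of_desc_hom S.ι evC p hp ζ hζ0 hfixC hrootK hext hdesc h0 hchar hpow hdvd

/-- The `p`-th-root form (E-K2p) of (K2) over the small field, from (K2) over `K` (in the form
`x ^ p ∈ evC F ⟹ x ∈ evC F`), the power descent `ds3_pow_descend` (hypothesis `hpow`, its
literal shape) and `S.const`-free bookkeeping. -/
theorem th70_K2p_of (ι : F0 →+* F) (evC : F →+* M) (p : ℕ)
    (hK2C : ∀ x : M, x ≠ 0 → (∀ g : Gam, g • x = x) → ∀ u : F, x ^ p = evC u →
      ∃ w : F, x = evC w)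
    (hpowd : ∀ (g : F0), g ≠ 0 → ∀ (c : K) (v : F), ι g = algebraMap K F c * v ^ p →
      ∃ (c0 : k0) (v0 : F0), g = algebraMap k0 F0 c0 * v0 ^ p)
    (x : M) (hx : x ≠ 0) (hinv : ∀ g : Gam, g • x = x) (f : F0)
    (hxf : x ^ p = (evC.comp ι) f) :
    ∃ (w : F0) (a : k0), f = algebraMap k0 F0 a * w ^ p := by
  obtain ⟨w', hw'⟩ := hK2C x hx hinv (ι f) hxf
  have hf0 : f ≠ 0 := by
    rintro rfl
    rw [map_zero] at hxf
    exact pow_ne_zero p hx hxf
  have h1 : ι f = algebraMap K F 1 * w' ^ p := by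
    rw [map_one, one_mul]
    apply evC.injective
    rw [map_pow, ← hw']
    exact hxf.symm
  obtain ⟨c0, v0, h2⟩ := hpowd f hf0 1 w' h1
  exact ⟨v0, c0, h2⟩

end th70_ex

end Fermat.Agent.S42
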