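import Fermat.Agent.S42.ThetaInst70
import Fermat.Agent.S42.ThetaEx70
import Fermat.Agent.S42.FunFieldBar79
import Fermat.Agent.S42.DescInst3
import Fermat.Agent.S42.HeckePar88

/-!
# S42, row ARCH / R7 (helper70): the final instantiation of the `Θ` spine

`ev0 := ff79_ev0 φ N` (M2, helper79), descent = `di3_desc_bar` / `di3_pow_descend_bar` (helper3's
block), parabolic preservation = `hpg88_mem_parabolicHoms_prime` (helper88).  What is left are
the three ANALYTIC statements over `ℂ`, as plain hypotheses on the concrete objects: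

* `hX`  (G-X): for every `χ ∈ Par_N` a nonzero `h : mer95_MER` with character `χ` and
  `u ∈ F_ℂ(N)` with `ev u = h ^ p`, `p ∣ v.ord u` at every place of `F_ℂ(N)`;
* `hK2C` (K2 over `ℂ`, `p`-th root form): a `Γ₀(N)`-invariant `x ≠ 0` with `x ^ p ∈ ev F_ℂ(N)`
  lies in `ev F_ℂ(N)`;
* `hHK` (G-HEC): the Hecke step on roots.

`th70_final_I_Theta` and `th70_final_W1` then hold.
-/

set_option autoImplicit false
set_option linter.unusedSectionVars false
set_option linter.unusedVariables false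
set_option linter.style.longLine false
set_option linter.style.haveILetI false

open CongruenceSubgroup ModularCurve ModularCurve.Period AlgebraicCurve UpperHalfPlane
open scoped TensorProduct MatrixGroups

namespace Fermat.Agent.S42

open Fermat.Agent.S16

section th70_final

variable (φ : AlgebraicClosure ℚ →+* ℂ) (N : ℕ) [NeZero N] (p : ℕ) [Fact p.Prime]

/-- The analytic existence statement (X) over `ℂ` (seam (G-X)). -/
def th70_X : Prop :=
  ∀ χ ∈ w1a28_Par N p, ∃ h : mer95_MER, h ≠ 0 ∧ th70_IsChar p (th70_zeta p) χ h ∧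
    ∃ u : ↥(laurentBaseChange ℂ (modularFunctionFieldFull N)), ff79_evMer N u = h ^ p ∧
      ∀ v : Place ℂ ↥(laurentBaseChange ℂ (modularFunctionFieldFull N)), (p : ℤ) ∣ v.ord u

/-- (K2) over `ℂ` in the `p`-th root form. -/
def th70_K2C : Prop :=
  ∀ x : mer95_MER, x ≠ 0 → (∀ γ : ↥(Gamma0 N), γ • x = x) →
    ∀ u : ↥(laurentBaseChange ℂ (modularFunctionFieldFull N)), x ^ p = ff79_evMer N u →
      ∃ w : ↥(laurentBaseChange ℂ (modularFunctionFieldFull N)), x = ff79_evMer N w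

/-- The Hecke step on roots (seam (G-HEC)), for `ev0 = ff79_ev0 φ N`. -/
def th70_HK : Prop :=
  ∀ (ℓ : ℕ) [NeZero ℓ], ℓ.Prime → ¬ ℓ ∣ N * p → ∀ χ ∈ w1a28_Par N p,
    ∀ (h : mer95_MER) (f : ↥(modularFunctionFieldBar N)), h ≠ 0 → f ≠ 0 →
      th70_IsChar p (th70_zeta p) χ h → h ^ p = ff79_ev0 φ N f →
        ∃ h' : mer95_MER, h' ≠ 0 ∧ th70_IsChar p (th70_zeta p) (heckeHom N ℓ (ZMod p) χ) h' ∧
          h' ^ p = ff79_ev0 φ N (hd63_heckeNorm N ℓ f)

/-- `hK2` of `th70_I_Theta` from (K2) over `ℂ` and the power descent. -/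
theorem th70_final_hK2 (hK2C : th70_K2C N p) :
    ∀ x : mer95_MER, x ≠ 0 → (∀ γ : ↥(Gamma0 N), γ • x = x) →
      ∀ f : ↥(modularFunctionFieldBar N), x ^ p = ff79_ev0 φ N f →
        ∃ (w : ↥(modularFunctionFieldBar N)) (a : AlgebraicClosure ℚ),
          f = algebraMap (AlgebraicClosure ℚ) ↥(modularFunctionFieldBar N) a * w ^ p := by
  have hp : 0 < p := (Fact.out : p.Prime).pos
  intro x hx hinv f hxf
  obtain ⟨w', hw'⟩ := hK2C x hx hinv (ff79_bc φ N f) hxf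
  have h1 : w' ^ p = ff79_bc φ N f := by
    apply (ff79_evMer N).toRingHom.injective
    show ff79_evMer N (w' ^ p) = ff79_evMer N (ff79_bc φ N f)
    rw [map_pow, ← hw']
    exact hxf
  have h2 : coeffMap φ (f : LaurentSeries (AlgebraicClosure ℚ)) =
      algebraMap ℂ (LaurentSeries ℂ) 1 * (w' : LaurentSeries ℂ) ^ p := by
    rw [map_one, one_mul, ← ff79_bc_coe φ N f, ← h1]
    rfl
  obtain ⟨c0, v0, h3⟩ := di3_pow_descend_bar φ N hp f 1 w' h2
  exact ⟨v0, c0, h3⟩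

/-- `hex` of `th70_I_Theta` from (X) over `ℂ` and the descent (DESC). -/
theorem th70_final_hex (hX : th70_X N p) :
    ∀ χ ∈ w1a28_Par N p, ∃ (h : mer95_MER) (f : ↥(modularFunctionFieldBar N)),
      th70_Adm (AlgebraicClosure ℚ) (ff79_ev0 φ N) p (th70_zeta p) χ h f := by
  have hp : p ≠ 0 := (Fact.out : p.Prime).ne_zero
  have hζ0 : th70_zeta p ≠ 0 := (th70_zeta_isPrimitiveRoot p hp).ne_zero hp
  intro χ hχ
  obtain ⟨h, h0, hchar, u, hu, hdvd⟩ := hX χ hχ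
  have hu0 : u ≠ 0 := by
    rintro rfl
    rw [map_zero] at hu
    exact pow_ne_zero p h0 hu.symm
  obtain ⟨g, w, c, hg, hw, hc, hgw, hP0⟩ :=
    di3_desc_bar φ N (Nat.pos_of_ne_zero hp) hu0 hdvd
  -- the identity in `F_ℂ(N)`
  have hbc : ff79_bc φ N g =
      algebraMap ℂ ↥(laurentBaseChange ℂ (modularFunctionFieldFull N)) c * (w ^ p * u) := by
    apply Subtype.ext
    rw [ff79_bc_coe, hgw]
    rfl
  obtain ⟨d, hd⟩ := IsAlgClosed.exists_pow_nat_eq c (Nat.pos_of_ne_zero hp)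
  have hd0 : d ≠ 0 := by
    rintro rfl
    rw [zero_pow hp] at hd
    exact hc hd.symm
  have hCd : algebraMap ℂ mer95_MER d ≠ 0 := by simpa using hd0
  have hevw : ff79_evMer N w ≠ 0 := by simpa using hw
  refine ⟨algebraMap ℂ mer95_MER d * ff79_evMer N w * h, g,
    mul_ne_zero (mul_ne_zero hCd hevw) h0, hg, fun γ => ?_, ?_, hP0⟩
  · rw [smul_mul', smul_mul', hchar γ]
    have e1 : γ • algebraMap ℂ mer95_MER d = algebraMap ℂ mer95_MER d :=
      mer95_smul_C_SL (γ : SL(2, ℤ)) d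
    have e2 : γ • ff79_evMer N w = ff79_evMer N w := ff79_evMer_smul N γ.1 γ.2 w
    rw [e1, e2]
    ring
  · rw [ff79_ev0_apply, hbc, map_mul, map_mul, map_pow, hu, ff79_evMer_C, mul_pow, mul_pow,
      ← map_pow, hd]
    ring

/-- **(I-Theta), final form**: only the three analytic statements over `ℂ` are left. -/
theorem th70_final_I_Theta (hX : th70_X N p) (hK2C : th70_K2C N p) (hHK : th70_HK φ N p) :
    ∃ Θ : w1a28_Par N p →+ JZero N, Function.Injective Θ ∧ (∀ χ, (p : ℤ) • Θ χ = 0) ∧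
      ∀ ℓ : Nat.Primes, ¬ (ℓ : ℕ) ∣ N * p → ∀ χ : w1a28_Par N p,
        ∃ hχ : heckeHom N ℓ (ZMod p) χ ∈ w1a28_Par N p,
          heckeOperatorBar N ℓ (Θ χ) = Θ ⟨heckeHom N ℓ (ZMod p) χ, hχ⟩ :=
  th70_I_Theta N p (ff79_ev0 φ N) (ff79_ev0_fix φ N) (th70_final_hK2 φ N p hK2C)
    (th70_final_hex φ N p hX)
    (fun ℓ _ χ hχ => hpg88_mem_parabolicHoms_prime ℓ.2 (ZMod p) hχ)
    (fun ℓ _ hℓ hℓN χ hχ h f h0 f0 hc hpow => hHK ℓ hℓ hℓN χ hχ h f h0 f0 hc hpow)

/-- **(W1), final form**. -/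
theorem th70_final_W1 {k0 : Type*} [Field k0] [Algebra (ZMod p) k0]
    (hX : th70_X N p) (hK2C : th70_K2C N p) (hHK : th70_HK φ N p)
    (f : CuspForm (Gamma0 N) 2) (ψ : integralClosure ℤ ℂ →+* k0)
    (heig : ∃ x : k0 ⊗[ZMod p] w1a28_Par N p, x ≠ 0 ∧
      ∀ ℓ : Nat.Primes, ¬ (ℓ : ℕ) ∣ N * p →
        ∃ a : integralClosure ℤ ℂ, (a : ℂ) = ModularFormClass.qCoeff (⇑f) ℓ ∧
          (w1a28_TX N p ℓ).baseChange k0 ((w1a28_Par N p).subtype.baseChange k0 x)
            = ψ a • (w1a28_Par N p).subtype.baseChange k0 x) :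
    ∃ y : k0 ⊗[ZMod p] w1a28_J N p, y ≠ 0 ∧
      ∀ ℓ : Nat.Primes, ¬ (ℓ : ℕ) ∣ N * p →
        ∃ a : integralClosure ℤ ℂ, (a : ℂ) = ModularFormClass.qCoeff (⇑f) ℓ ∧
          (w1a28_TJ N p ℓ).baseChange k0 y = ψ a • y := by
  obtain ⟨Θ, hΘ, htors, hhec⟩ := th70_final_I_Theta φ N p hX hK2C hHK
  exact w1t70_main_eigenform Θ hΘ htors hhec f ψ heig

end th70_final

end Fermat.Agent.S42
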