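import Fermat.Agent.S42.HeckeChar45
import Fermat.Agent.S42.HeckeNormInst49
import Fermat.Agent.S42.ThetaFinal70

/-!
# S42, seam (G-H1)/(G-HEC) (helper10): the Hecke step on roots, `th70_HK φ N p`

For `ev0 := ff79_ev0 φ N` (`φ : ℚ̄ →+* ℂ` arbitrary), a prime `ℓ ∤ N`, a nonzero `h : mer95_MER`
with character `χ` on `Γ₀(N)` and `h ^ p = ev0 f`, the product of translates

`H := ∏ q : Γ₀(N) ⧸ Γ₀(N ℓ), (q.out * diag(ℓ, 1)⁻¹) • h`

is nonzero, has character `heckeHom N ℓ (ZMod p) χ`, and `H ^ p = ev0 (hd63_heckeNorm N ℓ f)`.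
This is hypothesis (5) `hHK` of `th70_I_Theta` / `th70_W1`, i.e. the proposition `th70_HK φ N p`
of `ThetaFinal70` (`hk10_HK`).

Inputs, all on main: `hc45_hecke_pair` (root of the norm + transfer character, helper45),
`nm49_hecke_hnorm` (K3-relative over `ℚ̄`, helper49), `ff79_ev0_alpha / _fix / _beta / _gen`
(M2, helper79), `wpA4_stab` (S24).  All names are prefixed `hk10_`.
-/

set_option autoImplicit false
set_option linter.unusedSectionVars false
set_option linter.unusedVariables false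
set_option linter.style.longLine false
set_option linter.style.haveILetI false

open CongruenceSubgroup ModularCurve AlgebraicCurve UpperHalfPlane
open scoped MatrixGroups

namespace Fermat.Agent.S42

open Fermat.Agent.S16 Fermat.Agent.S24

local notation "Qb" => AlgebraicClosure ℚ

/-- An element of `SL(2,ℤ)` fixing `ev0 (F_ℚ̄(N))` pointwise lies in `Γ₀(N)`. -/
theorem hk10_stab (φ : Qb →+* ℂ) (N : ℕ) [NeZero N] (γ : SL(2, ℤ))
    (h : ∀ y : ↥(modularFunctionFieldBar N), γ • ff79_ev0 φ N y = ff79_ev0 φ N y) :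
    γ ∈ Gamma0 N := by
  have h0 := h ⟨ff79_JJ Qb N, ff79_JJ_mem Qb N N dvd_rfl⟩
  rw [ff79_ev0_gen φ N N dvd_rfl, mer95_smul_algebraMap_SL] at h0
  have h1 : γ • ff79_jO N = ff79_jO N := mer95_algebraMap_injective h0
  apply wpA4_stab N γ
  funext τ
  have h2 : (γ • ff79_jO N).1 τ = (ff79_jO N).1 τ := by rw [h1]
  rw [mer95_smul_apply_SL] at h2
  exact h2

/-- `a ↦ exp(2πi/p) ^ a.val` as a monoid homomorphism `Multiplicative (ZMod p) →* ℂ`. -/
noncomputable def hk10_e (p : ℕ) [NeZero p] : Multiplicative (ZMod p) →* ℂ where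
  toFun a := Complex.exp (2 * Real.pi * Complex.I / p) ^ (Multiplicative.toAdd a).val
  map_one' := by
    show Complex.exp (2 * Real.pi * Complex.I / p) ^ (0 : ZMod p).val = 1
    rw [ZMod.val_zero, pow_zero]
  map_mul' a b := by
    show Complex.exp (2 * Real.pi * Complex.I / p)
        ^ (Multiplicative.toAdd a + Multiplicative.toAdd b).val = _
    exact th70_zeta_pow_add ((Complex.isPrimitiveRoot_exp p (NeZero.ne p)).pow_eq_one) _ _

theorem hk10_e_apply (p : ℕ) [NeZero p] (a : ZMod p) :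
    algebraMap ℂ mer95_MER (hk10_e p (Multiplicative.ofAdd a)) = th70_zeta p ^ a.val := by
  unfold th70_zeta
  rw [← map_pow]
  rfl

/-- **The Hecke step on roots** (hypothesis `hHK` of `th70_I_Theta`, seam (G-HEC)). -/
theorem hk10_HK (φ : Qb →+* ℂ) (N : ℕ) [NeZero N] (p : ℕ) [Fact p.Prime] : th70_HK φ N p := by
  intro ℓ _ hℓ hℓNp χ hχ h f h0 f0 hchar hpow
  have hℓN : ¬ ℓ ∣ N := fun hd => hℓNp (Dvd.dvd.mul_right hd p)
  haveI : NeZero p := ⟨(Fact.out : p.Prime).ne_zero⟩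
  have hpos : 0 < (!![(ℓ : ℤ), 0; 0, 1] : Matrix (Fin 2) (Fin 2) ℤ).det := by
    rw [Matrix.det_fin_two_of]
    have : (0 : ℤ) < ℓ := by exact_mod_cast hℓ.pos
    linarith
  haveI : ((Gamma0 (N * ℓ)).subgroupOf (Gamma0 N)).FiniteIndex := ⟨by
    have h1 := gi41_relindex N ℓ hℓ hℓN
    rw [Subgroup.relIndex] at h1
    rw [h1]
    exact Nat.succ_ne_zero ℓ⟩
  letI : Fintype (↥(Gamma0 N) ⧸ (Gamma0 (N * ℓ)).subgroupOf (Gamma0 N)) := Fintype.ofFinite _
  have hh : ∀ γ : Gamma0 N, (γ : SL(2, ℤ)) • h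
      = algebraMap ℂ mer95_MER (hk10_e p (Multiplicative.ofAdd (χ (Additive.ofMul γ)))) * h := by
    intro γ
    rw [hk10_e_apply]
    exact hchar γ
  obtain ⟨k1, k2, k3⟩ := hc45_hecke_pair (N := N) (ℓ := ℓ) (K := Qb) hℓ hℓN
    (heckeBetaBar Qb N ℓ) (heckeAlphaBar Qb N ℓ) (ff79_ev0 φ N) (ff79_ev0 φ (N * ℓ)) hpos
    (fun x => ff79_ev0_beta φ N ℓ x)
    (fun w => nm49_hecke_hnorm N ℓ hℓ hℓN (mer95_slToGL.comp (Gamma0 N).subtype)
      (ff79_ev0 φ N) (ff79_ev0 φ (N * ℓ)) (ff79_ev0_alpha φ N ℓ)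
      (fun γ x => ff79_ev0_fix φ N γ x)
      (fun γ hγ => hk10_stab φ (N * ℓ) (γ : SL(2, ℤ)) hγ) w)
    χ (hk10_e p) h hh p hpow
  refine ⟨_, k3 h0, ?_, k1⟩
  intro γ
  rw [← hk10_e_apply]
  exact k2 γ

end Fermat.Agent.S42
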