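import Fermat.Agent.S42.K2pInst5
import Fermat.Agent.S42.ThetaFinal70

/-!
# S42, seam (G-K2p) / M3c (helper5): the closing term of `th70_K2C`

`th70_K2C N p` (file `ThetaFinal70`, helper70) is the second of the three named analytic
statements over `ℂ` of the `Θ` spine: a `Γ₀(N)`-invariant `x ≠ 0` with `x ^ p ∈ ev F_ℂ(N)` lies in
`ev F_ℂ(N)`, for `ev = ff79_evMer N`.  It is `gk5_mer_K2_top` (file `K2pInst5`) applied to the
polynomial `X ^ p - C u`.

* `gk5_K2C N p : th70_K2C N p` - no hypothesis, every prime `p` (indeed every `p > 0`: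
  `gk5_K2C_pos`);
* `gk5_final_I_Theta`, `gk5_final_W1` : `th70_final_I_Theta` / `th70_final_W1` with `hK2C`
  discharged: only (G-X) `th70_X N p` and (G-HEC) `th70_HK φ N p` are left.
-/

set_option autoImplicit false
set_option linter.unusedSectionVars false
set_option linter.unusedVariables false
set_option linter.style.longLine false

open CongruenceSubgroup ModularCurve ModularCurve.Period AlgebraicCurve UpperHalfPlane
open scoped TensorProduct MatrixGroups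

namespace Fermat.Agent.S42

open Fermat.Agent.S16

section gk5_K2C

variable (N : ℕ) [NeZero N]

/-- (K2) over `ℂ` in the `p`-th root form, any `p > 0`. -/
theorem gk5_K2C_pos (p : ℕ) (hp : 0 < p) :
    ∀ x : mer95_MER, x ≠ 0 → (∀ γ : ↥(Gamma0 N), γ • x = x) →
      ∀ u : ↥(laurentBaseChange ℂ (modularFunctionFieldFull N)), x ^ p = ff79_evMer N u →
        ∃ w : ↥(laurentBaseChange ℂ (modularFunctionFieldFull N)), x = ff79_evMer N w := by
  intro x _ hinv u hxu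
  obtain ⟨w, hw⟩ := gk5_mer_K2_top N (x := x) (fun g hg => hinv ⟨g, hg⟩)
    (gk5_root_poly (ff79_evMer N : gi41_FC N →+* mer95_MER) hp hxu)
  exact ⟨w, hw.symm⟩

variable (p : ℕ) [Fact p.Prime]

/-- **The closing term of `th70_K2C`.** -/
theorem gk5_K2C : th70_K2C N p :=
  gk5_K2C_pos N p (Fact.out : p.Prime).pos

variable (φ : AlgebraicClosure ℚ →+* ℂ)

/-- `th70_final_I_Theta` with (K2) over `ℂ` discharged: (I-Theta) from (G-X) and (G-HEC). -/
theorem gk5_final_I_Theta (hX : th70_X N p) (hHK : th70_HK φ N p) :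
    ∃ Θ : w1a28_Par N p →+ JZero N, Function.Injective Θ ∧ (∀ χ, (p : ℤ) • Θ χ = 0) ∧
      ∀ ℓ : Nat.Primes, ¬ (ℓ : ℕ) ∣ N * p → ∀ χ : w1a28_Par N p,
        ∃ hχ : heckeHom N ℓ (ZMod p) χ ∈ w1a28_Par N p,
          heckeOperatorBar N ℓ (Θ χ) = Θ ⟨heckeHom N ℓ (ZMod p) χ, hχ⟩ :=
  th70_final_I_Theta φ N p hX (gk5_K2C N p) hHK

/-- `th70_final_W1` with (K2) over `ℂ` discharged: (W1) from (G-X), (G-HEC) and (I-EIG). -/
theorem gk5_final_W1 {k0 : Type*} [Field k0] [Algebra (ZMod p) k0]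
    (hX : th70_X N p) (hHK : th70_HK φ N p)
    (f : CuspForm (Gamma0 N) 2) (ψ : integralClosure ℤ ℂ →+* k0)
    (heig : ∃ x : k0 ⊗[ZMod p] w1a28_Par N p, x ≠ 0 ∧
      ∀ ℓ : Nat.Primes, ¬ (ℓ : ℕ) ∣ N * p →
        ∃ a : integralClosure ℤ ℂ, (a : ℂ) = ModularFormClass.qCoeff (⇑f) ℓ ∧
          (w1a28_TX N p ℓ).baseChange k0 ((w1a28_Par N p).subtype.baseChange k0 x)
            = ψ a • (w1a28_Par N p).subtype.baseChange k0 x) :
    ∃ y : k0 ⊗[ZMod p] w1a28_J N p, y ≠ 0 ∧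
      ∀ ℓ : Nat.Primes, ¬ (ℓ : ℕ) ∣ N * p →
        ∃ a : integralClosure ℤ ℂ, (a : ℂ) = ModularFormClass.qCoeff (⇑f) ℓ ∧
          (w1a28_TJ N p ℓ).baseChange k0 y = ψ a • y :=
  th70_final_W1 φ N p hX (gk5_K2C N p) hHK f ψ heig

end gk5_K2C

end Fermat.Agent.S42
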