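/-
Project 4 (S42), row M0: the framework.
`mer95_O`   : the ring of holomorphic functions on the upper half plane (a domain),
`mer95_MER` : its fraction field,
the left actions of `GL(2, ℝ)⁺` and `SL(2, ℤ)` by `(g • f) τ = f (g⁻¹ • τ)`,
the order `mer95_ord τ` at a point, and its basic properties.
-/
import Mathlib

set_option autoImplicit false

open UpperHalfPlane Filter Topology
open scoped Manifold MatrixGroups

namespace Fermat.Agent.S42

noncomputable section

/-! ### The ring `O` of holomorphic functions -/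

/-- The open upper half plane as a subset of `ℂ`. -/
def mer95_U : Set ℂ := {z : ℂ | 0 < z.im}

theorem mer95_isOpen_U : IsOpen mer95_U := isOpen_upperHalfPlaneSet

theorem mer95_isPreconnected_U : IsPreconnected mer95_U :=
  (Complex.isConnected_of_upperHalfPlane subset_rfl (by intro z hz; exact le_of_lt (show 0 < z.im from hz))).isPreconnected

theorem mer95_coe_mem_U (τ : ℍ) : (τ : ℂ) ∈ mer95_U := τ.im_pos

/-- Holomorphic functions on the upper half plane. -/
def mer95_O : Subalgebra ℂ (ℍ → ℂ) where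
  carrier := {f | MDifferentiable 𝓘(ℂ) 𝓘(ℂ) f}
  mul_mem' := fun {_ _} hf hg => hf.mul hg
  one_mem' := mdifferentiable_const
  add_mem' := fun {_ _} hf hg => hf.add hg
  zero_mem' := mdifferentiable_const
  algebraMap_mem' := fun _ => mdifferentiable_const

theorem mer95_mem_O {f : ℍ → ℂ} : f ∈ mer95_O ↔ MDifferentiable 𝓘(ℂ) 𝓘(ℂ) f := Iff.rfl

/-- Constructor. -/
def mer95_mk (f : ℍ → ℂ) (hf : MDifferentiable 𝓘(ℂ) 𝓘(ℂ) f) : mer95_O := ⟨f, hf⟩

@[simp] theorem mer95_mk_coe (f : ℍ → ℂ) (hf : MDifferentiable 𝓘(ℂ) 𝓘(ℂ) f) :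
    (mer95_mk f hf).1 = f := rfl

/-- The function on `ℂ` attached to an element of `O`. -/
def mer95_F (f : mer95_O) : ℂ → ℂ := f.1 ∘ ofComplex

theorem mer95_F_apply_coe (f : mer95_O) (τ : ℍ) : mer95_F f (τ : ℂ) = f.1 τ := by
  simp [mer95_F, ofComplex_apply]

theorem mer95_F_differentiableOn (f : mer95_O) : DifferentiableOn ℂ (mer95_F f) mer95_U :=
  UpperHalfPlane.mdifferentiable_iff.mp f.2

theorem mer95_F_analyticOnNhd (f : mer95_O) : AnalyticOnNhd ℂ (mer95_F f) mer95_U :=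
  (mer95_F_differentiableOn f).analyticOnNhd mer95_isOpen_U

theorem mer95_F_analyticAt (f : mer95_O) {z : ℂ} (hz : z ∈ mer95_U) :
    AnalyticAt ℂ (mer95_F f) z := mer95_F_analyticOnNhd f z hz

theorem mer95_F_mul (f g : mer95_O) : mer95_F (f * g) = mer95_F f * mer95_F g := rfl

theorem mer95_F_add (f g : mer95_O) : mer95_F (f + g) = mer95_F f + mer95_F g := rfl

theorem mer95_F_one : mer95_F 1 = 1 := rfl

theorem mer95_F_zero : mer95_F 0 = 0 := rfl

theorem mer95_F_algebraMap (c : ℂ) : mer95_F (algebraMap ℂ mer95_O c) = fun _ => c := rfl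

theorem mer95_ext_F {f g : mer95_O} (h : ∀ z ∈ mer95_U, mer95_F f z = mer95_F g z) : f = g := by
  apply Subtype.ext
  funext τ
  have := h τ (mer95_coe_mem_U τ)
  rwa [mer95_F_apply_coe, mer95_F_apply_coe] at this

theorem mer95_F_eq_zero_iff (f : mer95_O) : (∀ z ∈ mer95_U, mer95_F f z = 0) ↔ f = 0 := by
  constructor
  · intro h
    exact mer95_ext_F (fun z hz => by rw [h z hz]; rfl)
  · rintro rfl z _
    rfl

instance mer95_isDomain : IsDomain mer95_O := by
  have h1 : NoZeroDivisors mer95_O := by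
    refine ⟨fun {a b} hab => ?_⟩
    have h := AnalyticOnNhd.eq_zero_or_eq_zero_of_mul_eq_zero (mer95_F_analyticOnNhd a)
      (mer95_F_analyticOnNhd b) (fun z _ => by
        have := congrFun (congrArg mer95_F hab) z
        rwa [mer95_F_mul] at this) mer95_isPreconnected_U
    rcases h with h | h
    · exact Or.inl ((mer95_F_eq_zero_iff a).mp h)
    · exact Or.inr ((mer95_F_eq_zero_iff b).mp h)
  have h2 : Nontrivial mer95_O := by
    refine ⟨⟨0, 1, fun h => ?_⟩⟩
    have h3 := congrFun (congrArg Subtype.val h) UpperHalfPlane.I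
    simp at h3
  exact NoZeroDivisors.to_isDomain _

/-- The field of meromorphic functions: the fraction field of `O`. -/
def mer95_MER : Type := FractionRing mer95_O

instance mer95_instField : Field mer95_MER := inferInstanceAs (Field (FractionRing mer95_O))

instance mer95_instAlgebraO : Algebra mer95_O mer95_MER :=
  inferInstanceAs (Algebra mer95_O (FractionRing mer95_O))

instance mer95_instIsFractionRing : IsFractionRing mer95_O mer95_MER :=
  inferInstanceAs (IsFractionRing mer95_O (FractionRing mer95_O))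

instance mer95_instAlgebraC : Algebra ℂ mer95_MER :=
  inferInstanceAs (Algebra ℂ (FractionRing mer95_O))

instance mer95_instIsScalarTower : IsScalarTower ℂ mer95_O mer95_MER :=
  inferInstanceAs (IsScalarTower ℂ mer95_O (FractionRing mer95_O))

instance mer95_instCharZero : CharZero mer95_MER :=
  charZero_of_injective_algebraMap (algebraMap ℂ mer95_MER).injective

theorem mer95_algebraMap_injective : Function.Injective (algebraMap mer95_O mer95_MER) :=
  IsFractionRing.injective mer95_O mer95_MER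

/-- A nonzero element of `O` is nonzero on a punctured neighbourhood of every point. -/
theorem mer95_F_eventually_ne {f : mer95_O} (hf : f ≠ 0) {z : ℂ} (hz : z ∈ mer95_U) :
    ∀ᶠ w in 𝓝[≠] z, mer95_F f w ≠ 0 := by
  rcases (mer95_F_analyticAt f hz).eventually_eq_zero_or_eventually_ne_zero with h | h
  · exfalso
    apply hf
    rw [← mer95_F_eq_zero_iff]
    exact (mer95_F_analyticOnNhd f).eqOn_zero_of_preconnected_of_eventuallyEq_zero
      mer95_isPreconnected_U hz h
  · exact h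

theorem mer95_eventually_mem_U {z : ℂ} (hz : z ∈ mer95_U) : ∀ᶠ w in 𝓝[≠] z, w ∈ mer95_U :=
  nhdsWithin_le_nhds (mer95_isOpen_U.mem_nhds hz)

/-! ### The actions of `GL(2, ℝ)⁺` and `SL(2, ℤ)` -/

theorem mer95_det_pos (g : GL(2, ℝ)⁺) : 0 < ((g : GL (Fin 2) ℝ).det).val := g.2

theorem mer95_mdiff_smul (g : GL(2, ℝ)⁺) : MDifferentiable 𝓘(ℂ) 𝓘(ℂ) (fun τ : ℍ => g • τ) :=
  UpperHalfPlane.mdifferentiable_smul (mer95_det_pos g)

instance mer95_smulO : SMul GL(2, ℝ)⁺ mer95_O :=
  ⟨fun g f => ⟨fun τ => f.1 (g⁻¹ • τ), f.2.comp (mer95_mdiff_smul g⁻¹)⟩⟩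

theorem mer95_smul_apply (g : GL(2, ℝ)⁺) (f : mer95_O) (τ : ℍ) :
    (g • f).1 τ = f.1 (g⁻¹ • τ) := rfl

instance mer95_actO : MulSemiringAction GL(2, ℝ)⁺ mer95_O where
  one_smul f := by
    apply Subtype.ext; funext τ
    rw [mer95_smul_apply, inv_one, one_smul]
  mul_smul g h f := by
    apply Subtype.ext; funext τ
    rw [mer95_smul_apply, mer95_smul_apply, mer95_smul_apply, mul_inv_rev, mul_smul]
  smul_zero g := by
    apply Subtype.ext; funext τ
    rfl
  smul_add g f₁ f₂ := by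
    apply Subtype.ext; funext τ
    rfl
  smul_one g := by
    apply Subtype.ext; funext τ
    rfl
  smul_mul g f₁ f₂ := by
    apply Subtype.ext; funext τ
    rfl

instance mer95_actMER : MulSemiringAction GL(2, ℝ)⁺ mer95_MER :=
  IsFractionRing.mulSemiringAction GL(2, ℝ)⁺ mer95_O mer95_MER

instance mer95_smulMER : SMul GL(2, ℝ)⁺ mer95_MER := mer95_actMER.toDistribMulAction.toMulAction.toSMul

instance mer95_smulDistribClass : SMulDistribClass GL(2, ℝ)⁺ mer95_O mer95_MER :=
  IsFractionRing.smulDistribClass GL(2, ℝ)⁺ mer95_O mer95_MER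

theorem mer95_smul_algebraMap (g : GL(2, ℝ)⁺) (f : mer95_O) :
    g • algebraMap mer95_O mer95_MER f = algebraMap mer95_O mer95_MER (g • f) :=
  (algebraMap.coe_smul' g f mer95_MER).symm

/-- The comparison homomorphism `SL(2, ℤ) → GL(2, ℝ)⁺`. -/
def mer95_slToGL : SL(2, ℤ) →* GL(2, ℝ)⁺ :=
  (Matrix.SpecialLinearGroup.toGLPos).comp
    (Matrix.SpecialLinearGroup.map (Int.castRingHom ℝ))

theorem mer95_slToGL_smul (g : SL(2, ℤ)) (τ : ℍ) : mer95_slToGL g • τ = g • τ := by
  rfl

instance mer95_actO_SL : MulSemiringAction SL(2, ℤ) mer95_O :=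
  MulSemiringAction.compHom mer95_O mer95_slToGL

instance mer95_actMER_SL : MulSemiringAction SL(2, ℤ) mer95_MER :=
  MulSemiringAction.compHom mer95_MER mer95_slToGL

instance mer95_smulMER_SL : SMul SL(2, ℤ) mer95_MER :=
  mer95_actMER_SL.toDistribMulAction.toMulAction.toSMul

instance mer95_smulO_SL : SMul SL(2, ℤ) mer95_O :=
  mer95_actO_SL.toDistribMulAction.toMulAction.toSMul

theorem mer95_SL_smul_eq (g : SL(2, ℤ)) (x : mer95_MER) : g • x = mer95_slToGL g • x := rfl

theorem mer95_SL_smul_eq_O (g : SL(2, ℤ)) (f : mer95_O) : g • f = mer95_slToGL g • f := rfl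

theorem mer95_smul_apply_SL (g : SL(2, ℤ)) (f : mer95_O) (τ : ℍ) :
    (g • f).1 τ = f.1 (g⁻¹ • τ) := by
  rw [mer95_SL_smul_eq_O, mer95_smul_apply, ← map_inv, mer95_slToGL_smul]

theorem mer95_smul_algebraMap_SL (g : SL(2, ℤ)) (f : mer95_O) :
    g • algebraMap mer95_O mer95_MER f = algebraMap mer95_O mer95_MER (g • f) := by
  rw [mer95_SL_smul_eq, mer95_smul_algebraMap, mer95_SL_smul_eq_O]

theorem mer95_smul_C_O (g : GL(2, ℝ)⁺) (c : ℂ) :
    g • algebraMap ℂ mer95_O c = algebraMap ℂ mer95_O c := by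
  apply Subtype.ext; funext τ
  rfl

theorem mer95_smul_C (g : GL(2, ℝ)⁺) (c : ℂ) :
    g • algebraMap ℂ mer95_MER c = algebraMap ℂ mer95_MER c := by
  rw [IsScalarTower.algebraMap_apply ℂ mer95_O mer95_MER, mer95_smul_algebraMap, mer95_smul_C_O]

theorem mer95_smul_C_SL (g : SL(2, ℤ)) (c : ℂ) :
    g • algebraMap ℂ mer95_MER c = algebraMap ℂ mer95_MER c := by
  rw [mer95_SL_smul_eq, mer95_smul_C]

/-! ### Germs and the order at a point -/

theorem mer95_algebraMap_ne_zero {f : mer95_O} (hf : f ≠ 0) :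
    algebraMap mer95_O mer95_MER f ≠ 0 := fun h =>
  hf (mer95_algebraMap_injective (by rw [h, map_zero]))

theorem mer95_exists_rep (x : mer95_MER) : ∃ a b : mer95_O, b ≠ 0 ∧
    x * algebraMap mer95_O mer95_MER b = algebraMap mer95_O mer95_MER a := by
  obtain ⟨a, b, hb, rfl⟩ := IsFractionRing.div_surjective mer95_O x
  have hb0 : b ≠ 0 := nonZeroDivisors.ne_zero hb
  exact ⟨a, b, hb0, div_mul_cancel₀ _ (mer95_algebraMap_ne_zero hb0)⟩

/-- A numerator, chosen once and for all. -/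
def mer95_num (x : mer95_MER) : mer95_O := (mer95_exists_rep x).choose

/-- A denominator, chosen once and for all. -/
def mer95_den (x : mer95_MER) : mer95_O := (mer95_exists_rep x).choose_spec.choose

theorem mer95_den_ne_zero (x : mer95_MER) : mer95_den x ≠ 0 :=
  (mer95_exists_rep x).choose_spec.choose_spec.1

theorem mer95_num_den (x : mer95_MER) :
    x * algebraMap mer95_O mer95_MER (mer95_den x) = algebraMap mer95_O mer95_MER (mer95_num x) :=
  (mer95_exists_rep x).choose_spec.choose_spec.2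

/-- The quotient function of a pair of elements of `O`. -/
def mer95_Q (a b : mer95_O) : ℂ → ℂ := fun z => mer95_F a z / mer95_F b z

/-- The chosen germ of an element of `MER`. -/
def mer95_germ (x : mer95_MER) : ℂ → ℂ := mer95_Q (mer95_num x) (mer95_den x)

theorem mer95_Q_meromorphicAt (a b : mer95_O) {z : ℂ} (hz : z ∈ mer95_U) :
    MeromorphicAt (mer95_Q a b) z :=
  (mer95_F_analyticAt a hz).meromorphicAt.div (mer95_F_analyticAt b hz).meromorphicAt

theorem mer95_germ_meromorphicAt (x : mer95_MER) {z : ℂ} (hz : z ∈ mer95_U) :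
    MeromorphicAt (mer95_germ x) z := mer95_Q_meromorphicAt _ _ hz

theorem mer95_Q_congr {a b c d : mer95_O} (hb : b ≠ 0) (hd : d ≠ 0) (h : a * d = c * b)
    {z : ℂ} (hz : z ∈ mer95_U) : mer95_Q a b =ᶠ[𝓝[≠] z] mer95_Q c d := by
  filter_upwards [mer95_F_eventually_ne hb hz, mer95_F_eventually_ne hd hz] with w hw1 hw2
  have h1 : mer95_F a w * mer95_F d w = mer95_F c w * mer95_F b w := by
    have := congrFun (congrArg mer95_F h) w
    rwa [mer95_F_mul, mer95_F_mul] at this
  simp only [mer95_Q]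
  rw [div_eq_div_iff hw1 hw2]
  exact h1

theorem mer95_germ_eq {x : mer95_MER} {a b : mer95_O} (hb : b ≠ 0)
    (h : x * algebraMap mer95_O mer95_MER b = algebraMap mer95_O mer95_MER a)
    {z : ℂ} (hz : z ∈ mer95_U) : mer95_germ x =ᶠ[𝓝[≠] z] mer95_Q a b := by
  refine mer95_Q_congr (mer95_den_ne_zero x) hb ?_ hz
  apply mer95_algebraMap_injective
  rw [map_mul, map_mul, ← mer95_num_den x, ← h]
  ring

/-- The order at a point of the upper half plane, with values in `WithTop ℤ`. -/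
def mer95_ordC (z : ℂ) (x : mer95_MER) : WithTop ℤ := meromorphicOrderAt (mer95_germ x) z

/-- The order at a point (junk value `0` at `x = 0`). -/
def mer95_ord (τ : ℍ) (x : mer95_MER) : ℤ := (mer95_ordC (τ : ℂ) x).untop₀

theorem mer95_ordC_eq {x : mer95_MER} {a b : mer95_O} (hb : b ≠ 0)
    (h : x * algebraMap mer95_O mer95_MER b = algebraMap mer95_O mer95_MER a)
    {z : ℂ} (hz : z ∈ mer95_U) : mer95_ordC z x = meromorphicOrderAt (mer95_Q a b) z :=
  meromorphicOrderAt_congr (mer95_germ_eq hb h hz)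

theorem mer95_num_ne_zero {x : mer95_MER} (hx : x ≠ 0) : mer95_num x ≠ 0 := by
  intro h0
  have h := mer95_num_den x
  rw [h0, map_zero] at h
  rcases mul_eq_zero.mp h with h | h
  · exact hx h
  · exact mer95_algebraMap_ne_zero (mer95_den_ne_zero x) h

theorem mer95_ordC_ne_top {x : mer95_MER} (hx : x ≠ 0) {z : ℂ} (hz : z ∈ mer95_U) :
    mer95_ordC z x ≠ ⊤ := by
  rw [mer95_ordC, meromorphicOrderAt_ne_top_iff_eventually_ne_zero (mer95_germ_meromorphicAt x hz)]
  filter_upwards [mer95_F_eventually_ne (mer95_num_ne_zero hx) hz,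
    mer95_F_eventually_ne (mer95_den_ne_zero x) hz] with w hw1 hw2
  exact div_ne_zero hw1 hw2

theorem mer95_ordC_zero (z : ℂ) : mer95_ordC z 0 = ⊤ := by
  have h0 : mer95_num (0 : mer95_MER) = 0 := by
    apply mer95_algebraMap_injective
    rw [← mer95_num_den, zero_mul, map_zero]
  rw [mer95_ordC, meromorphicOrderAt_eq_top_iff]
  refine Filter.Eventually.of_forall fun w => ?_
  simp [mer95_germ, mer95_Q, h0, mer95_F_zero]

theorem mer95_ord_zero (τ : ℍ) : mer95_ord τ 0 = 0 := by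
  rw [mer95_ord, mer95_ordC_zero]
  rfl

theorem mer95_coe_ord {x : mer95_MER} (hx : x ≠ 0) (τ : ℍ) :
    ((mer95_ord τ x : ℤ) : WithTop ℤ) = mer95_ordC (τ : ℂ) x :=
  WithTop.coe_untop₀_of_ne_top (mer95_ordC_ne_top hx (mer95_coe_mem_U τ))

theorem mer95_ordC_mul (x y : mer95_MER) {z : ℂ} (hz : z ∈ mer95_U) :
    mer95_ordC z (x * y) = mer95_ordC z x + mer95_ordC z y := by
  have hb := mer95_den_ne_zero x
  have hd := mer95_den_ne_zero y
  have h : x * y * algebraMap mer95_O mer95_MER (mer95_den x * mer95_den y) =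
      algebraMap mer95_O mer95_MER (mer95_num x * mer95_num y) := by
    rw [map_mul, map_mul, ← mer95_num_den x, ← mer95_num_den y]
    ring
  rw [mer95_ordC_eq (mul_ne_zero hb hd) h hz]
  have h2 : mer95_Q (mer95_num x * mer95_num y) (mer95_den x * mer95_den y) =
      mer95_germ x * mer95_germ y := by
    funext w
    simp only [mer95_Q, mer95_germ, mer95_F_mul, Pi.mul_apply]
    rw [mul_div_mul_comm]
  rw [h2, meromorphicOrderAt_mul (mer95_germ_meromorphicAt x hz) (mer95_germ_meromorphicAt y hz)]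
  rfl

theorem mer95_ord_mul (τ : ℍ) {x y : mer95_MER} (hx : x ≠ 0) (hy : y ≠ 0) :
    mer95_ord τ (x * y) = mer95_ord τ x + mer95_ord τ y := by
  have h := mer95_ordC_mul x y (mer95_coe_mem_U τ)
  rw [← mer95_coe_ord (mul_ne_zero hx hy), ← mer95_coe_ord hx, ← mer95_coe_ord hy,
    ← WithTop.coe_add] at h
  exact WithTop.coe_injective h

theorem mer95_ordC_add (x y : mer95_MER) {z : ℂ} (hz : z ∈ mer95_U) :
    min (mer95_ordC z x) (mer95_ordC z y) ≤ mer95_ordC z (x + y) := by
  have hb := mer95_den_ne_zero x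
  have hd := mer95_den_ne_zero y
  have h : (x + y) * algebraMap mer95_O mer95_MER (mer95_den x * mer95_den y) =
      algebraMap mer95_O mer95_MER (mer95_num x * mer95_den y + mer95_num y * mer95_den x) := by
    rw [map_mul, map_add, map_mul, map_mul, ← mer95_num_den x, ← mer95_num_den y]
    ring
  rw [mer95_ordC_eq (mul_ne_zero hb hd) h hz]
  have h2 : mer95_Q (mer95_num x * mer95_den y + mer95_num y * mer95_den x)
      (mer95_den x * mer95_den y) =ᶠ[𝓝[≠] z] mer95_germ x + mer95_germ y := by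
    filter_upwards [mer95_F_eventually_ne hb hz, mer95_F_eventually_ne hd hz] with w hw1 hw2
    simp only [mer95_Q, mer95_germ, mer95_F_mul, mer95_F_add, Pi.mul_apply, Pi.add_apply]
    field_simp
  rw [meromorphicOrderAt_congr h2]
  exact meromorphicOrderAt_add (mer95_germ_meromorphicAt x hz) (mer95_germ_meromorphicAt y hz)

theorem mer95_ord_add (τ : ℍ) {x y : mer95_MER} (hxy : x + y ≠ 0) :
    min (mer95_ord τ x) (mer95_ord τ y) ≤ mer95_ord τ (x + y) := by
  by_cases hx : x = 0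
  · subst hx
    rw [zero_add, mer95_ord_zero]
    exact min_le_right _ _
  by_cases hy : y = 0
  · subst hy
    rw [add_zero, mer95_ord_zero]
    exact min_le_left _ _
  have h := mer95_ordC_add x y (mer95_coe_mem_U τ)
  rw [← mer95_coe_ord hxy, ← mer95_coe_ord hx, ← mer95_coe_ord hy, ← WithTop.coe_min] at h
  exact WithTop.coe_le_coe.mp h

theorem mer95_ordC_algebraMap (f : mer95_O) {z : ℂ} (hz : z ∈ mer95_U) :
    mer95_ordC z (algebraMap mer95_O mer95_MER f) =
      (analyticOrderAt (mer95_F f) z).map (Nat.cast : ℕ → ℤ) := by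
  have h : algebraMap mer95_O mer95_MER f * algebraMap mer95_O mer95_MER 1 =
      algebraMap mer95_O mer95_MER f := by rw [map_one, mul_one]
  rw [mer95_ordC_eq one_ne_zero h hz]
  have h2 : mer95_Q f 1 = mer95_F f := by
    funext w
    simp [mer95_Q, mer95_F_one]
  rw [h2, (mer95_F_analyticAt f hz).meromorphicOrderAt_eq]

theorem mer95_analyticOrderAt_ne_top {f : mer95_O} (hf : f ≠ 0) (τ : ℍ) :
    analyticOrderAt (f.1 ∘ ofComplex) (τ : ℂ) ≠ ⊤ := by
  intro h
  have h1 := mer95_ordC_algebraMap f (mer95_coe_mem_U τ)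
  have h2 := mer95_ordC_ne_top (mer95_algebraMap_ne_zero hf) (mer95_coe_mem_U τ)
  apply h2
  rw [h1]
  show (analyticOrderAt (f.1 ∘ ofComplex) (τ : ℂ)).map (Nat.cast : ℕ → ℤ) = ⊤
  rw [h]
  rfl

theorem mer95_ord_algebraMap (τ : ℍ) (f : mer95_O) :
    mer95_ord τ (algebraMap mer95_O mer95_MER f) =
      ((analyticOrderAt (f.1 ∘ ofComplex) (τ : ℂ)).toNat : ℤ) := by
  rw [mer95_ord, mer95_ordC_algebraMap f (mer95_coe_mem_U τ)]
  show ((analyticOrderAt (f.1 ∘ ofComplex) (τ : ℂ)).map (Nat.cast : ℕ → ℤ)).untop₀ = _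
  cases h : analyticOrderAt (f.1 ∘ ofComplex) (τ : ℂ) with
  | top => rfl
  | coe n => rfl

theorem mer95_ord_algebraMap_nonneg (τ : ℍ) (f : mer95_O) :
    0 ≤ mer95_ord τ (algebraMap mer95_O mer95_MER f) := by
  rw [mer95_ord_algebraMap]
  exact Int.natCast_nonneg _

theorem mer95_ord_one (τ : ℍ) : mer95_ord τ 1 = 0 := by
  have h := mer95_ord_mul τ (one_ne_zero (α := mer95_MER)) one_ne_zero
  rw [mul_one] at h
  omega

theorem mer95_ord_inv (τ : ℍ) (x : mer95_MER) : mer95_ord τ x⁻¹ = - mer95_ord τ x := by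
  by_cases hx : x = 0
  · subst hx
    rw [inv_zero, mer95_ord_zero, neg_zero]
  have h := mer95_ord_mul τ hx (inv_ne_zero hx)
  rw [mul_inv_cancel₀ hx, mer95_ord_one] at h
  omega

theorem mer95_ord_div (τ : ℍ) {x y : mer95_MER} (hx : x ≠ 0) (hy : y ≠ 0) :
    mer95_ord τ (x / y) = mer95_ord τ x - mer95_ord τ y := by
  rw [div_eq_mul_inv, mer95_ord_mul τ hx (inv_ne_zero hy), mer95_ord_inv]
  ring

theorem mer95_ord_pow (τ : ℍ) (x : mer95_MER) (n : ℕ) :
    mer95_ord τ (x ^ n) = n * mer95_ord τ x := by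
  by_cases hx : x = 0
  · subst hx
    rcases Nat.eq_zero_or_pos n with rfl | hn
    · simp [mer95_ord_one]
    · rw [zero_pow hn.ne', mer95_ord_zero, mul_zero]
  induction n with
  | zero => simp [mer95_ord_one]
  | succ n ih =>
    rw [pow_succ, mer95_ord_mul τ (pow_ne_zero n hx) hx, ih]
    push_cast
    ring

theorem mer95_ord_C (τ : ℍ) (c : ℂ) : mer95_ord τ (algebraMap ℂ mer95_MER c) = 0 := by
  by_cases hc : c = 0
  · subst hc
    rw [map_zero, mer95_ord_zero]
  rw [IsScalarTower.algebraMap_apply ℂ mer95_O mer95_MER, mer95_ord_algebraMap]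
  have h : analyticOrderAt ((algebraMap ℂ mer95_O c).1 ∘ ofComplex) (τ : ℂ) = 0 := by
    rw [analyticOrderAt_eq_zero]
    right
    exact hc
  rw [h]
  rfl

/-! ### The order and the action -/

/-- The Moebius map of `g` as a map `ℂ → ℂ`. -/
def mer95_phi (g : GL(2, ℝ)⁺) : ℂ → ℂ := fun z => ((g • ofComplex z : ℍ) : ℂ)

theorem mer95_phi_mem_U (g : GL(2, ℝ)⁺) (z : ℂ) : mer95_phi g z ∈ mer95_U :=
  (g • ofComplex z).im_pos

theorem mer95_phi_coe (g : GL(2, ℝ)⁺) (τ : ℍ) : mer95_phi g (τ : ℂ) = ((g • τ : ℍ) : ℂ) := by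
  simp [mer95_phi, ofComplex_apply]

theorem mer95_phi_differentiableOn (g : GL(2, ℝ)⁺) : DifferentiableOn ℂ (mer95_phi g) mer95_U :=
  UpperHalfPlane.mdifferentiable_iff.mp
    (UpperHalfPlane.mdifferentiable_coe.comp (mer95_mdiff_smul g))

theorem mer95_phi_analyticAt (g : GL(2, ℝ)⁺) {z : ℂ} (hz : z ∈ mer95_U) :
    AnalyticAt ℂ (mer95_phi g) z :=
  (mer95_phi_differentiableOn g).analyticOnNhd mer95_isOpen_U z hz

theorem mer95_phi_inv_phi (g : GL(2, ℝ)⁺) {z : ℂ} (hz : z ∈ mer95_U) :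
    mer95_phi g⁻¹ (mer95_phi g z) = z := by
  simp only [mer95_phi, ofComplex_apply, inv_smul_smul]
  rw [ofComplex_apply_of_im_pos hz]

theorem mer95_deriv_phi_ne_zero (g : GL(2, ℝ)⁺) {z : ℂ} (hz : z ∈ mer95_U) :
    deriv (mer95_phi g) z ≠ 0 := by
  have h1 : HasDerivAt (mer95_phi g) (deriv (mer95_phi g) z) z :=
    (mer95_phi_analyticAt g hz).differentiableAt.hasDerivAt
  have h2 : HasDerivAt (mer95_phi g⁻¹) (deriv (mer95_phi g⁻¹) (mer95_phi g z)) (mer95_phi g z) :=
    (mer95_phi_analyticAt g⁻¹ (mer95_phi_mem_U g z)).differentiableAt.hasDerivAt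
  have h3 := h2.comp z h1
  have h4 : (mer95_phi g⁻¹ ∘ mer95_phi g) =ᶠ[𝓝 z] id := by
    filter_upwards [mer95_isOpen_U.mem_nhds hz] with w hw
    exact mer95_phi_inv_phi g hw
  have h5 : HasDerivAt id (deriv (mer95_phi g⁻¹) (mer95_phi g z) * deriv (mer95_phi g) z) z :=
    h3.congr_of_eventuallyEq h4.symm
  have h6 := h5.unique (hasDerivAt_id z)
  intro h0
  rw [h0, mul_zero] at h6
  exact zero_ne_one h6

theorem mer95_F_smul (g : GL(2, ℝ)⁺) (a : mer95_O) :
    mer95_F (g • a) = mer95_F a ∘ mer95_phi g⁻¹ := by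
  funext z
  simp only [mer95_F, Function.comp_apply, mer95_phi, ofComplex_apply]
  rfl

theorem mer95_ordC_smul (g : GL(2, ℝ)⁺) (x : mer95_MER) {z : ℂ} (hz : z ∈ mer95_U) :
    mer95_ordC z (g • x) = mer95_ordC (mer95_phi g⁻¹ z) x := by
  have hb : g • mer95_den x ≠ 0 := by
    intro h
    exact mer95_den_ne_zero x ((smul_eq_zero_iff_eq g).mp h)
  have h : g • x * algebraMap mer95_O mer95_MER (g • mer95_den x) =
      algebraMap mer95_O mer95_MER (g • mer95_num x) := by
    rw [← mer95_smul_algebraMap, ← mer95_smul_algebraMap, ← smul_mul', mer95_num_den]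
  rw [mer95_ordC_eq hb h hz]
  have h2 : mer95_Q (g • mer95_num x) (g • mer95_den x) = mer95_germ x ∘ mer95_phi g⁻¹ := by
    funext w
    simp only [mer95_Q, mer95_germ, mer95_F_smul, Function.comp_apply]
  rw [h2, meromorphicOrderAt_comp_of_deriv_ne_zero (mer95_phi_analyticAt g⁻¹ hz)
    (mer95_deriv_phi_ne_zero g⁻¹ hz)]
  rfl

theorem mer95_ord_smul (g : GL(2, ℝ)⁺) (τ : ℍ) (x : mer95_MER) :
    mer95_ord τ (g • x) = mer95_ord (g⁻¹ • τ) x := by
  rw [mer95_ord, mer95_ord, mer95_ordC_smul g x (mer95_coe_mem_U τ), mer95_phi_coe]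

theorem mer95_ord_smul_SL (g : SL(2, ℤ)) (τ : ℍ) (x : mer95_MER) :
    mer95_ord τ (g • x) = mer95_ord (g⁻¹ • τ) x := by
  rw [mer95_SL_smul_eq, mer95_ord_smul, ← map_inv, mer95_slToGL_smul]

/-! ### Elements without poles are holomorphic -/

theorem mer95_germ_meromorphicOn (x : mer95_MER) : MeromorphicOn (mer95_germ x) mer95_U :=
  fun _ hz => mer95_germ_meromorphicAt x hz

theorem mer95_exists_of_ord_nonneg (x : mer95_MER) (h : ∀ τ : ℍ, 0 ≤ mer95_ord τ x) :
    ∃ f : mer95_O, algebraMap mer95_O mer95_MER f = x := by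
  by_cases hx : x = 0
  · exact ⟨0, by rw [hx, map_zero]⟩
  set G : ℂ → ℂ := toMeromorphicNFOn (mer95_germ x) mer95_U with hG
  have hmer := mer95_germ_meromorphicOn x
  have hGan : ∀ z ∈ mer95_U, AnalyticAt ℂ G z := by
    intro z hz
    have hNF : MeromorphicNFAt G z := meromorphicNFOn_toMeromorphicNFOn (mer95_germ x) mer95_U hz
    rw [← hNF.meromorphicOrderAt_nonneg_iff_analyticAt, hG,
      meromorphicOrderAt_toMeromorphicNFOn hmer hz]
    have h1 := h ⟨z, hz⟩
    have h2 := mer95_coe_ord hx ⟨z, hz⟩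
    change ((mer95_ord ⟨z, hz⟩ x : ℤ) : WithTop ℤ) = meromorphicOrderAt (mer95_germ x) z at h2
    rw [← h2]
    exact_mod_cast h1
  have hGdiff : DifferentiableOn ℂ G mer95_U := fun z hz =>
    (hGan z hz).differentiableAt.differentiableWithinAt
  let c : ℍ → ℂ := fun τ => G (τ : ℂ)
  have hc : MDifferentiable 𝓘(ℂ) 𝓘(ℂ) c := by
    rw [UpperHalfPlane.mdifferentiable_iff]
    refine hGdiff.congr ?_
    intro z hz
    simp only [Function.comp_apply, c]
    rw [ofComplex_apply_of_im_pos hz]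
  refine ⟨mer95_mk c hc, ?_⟩
  have hkey : mer95_mk c hc * mer95_den x = mer95_num x := by
    apply mer95_ext_F
    intro z hz
    rw [mer95_F_mul]
    have hcF : mer95_F (mer95_mk c hc) z = G z := by
      simp only [mer95_F, Function.comp_apply, mer95_mk_coe, c]
      rw [ofComplex_apply_of_im_pos hz]
    simp only [Pi.mul_apply]
    rw [hcF]
    have hev : (fun w => G w * mer95_F (mer95_den x) w) =ᶠ[𝓝[≠] z] mer95_F (mer95_num x) := by
      filter_upwards [hmer.toMeromorphicNFOn_eq_self_on_nhdsNE hz,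
        mer95_F_eventually_ne (mer95_den_ne_zero x) hz] with w hw1 hw2
      rw [← hG] at hw1
      rw [hw1]
      simp only [mer95_germ, mer95_Q]
      exact div_mul_cancel₀ _ hw2
    have hcont1 : ContinuousAt (fun w => G w * mer95_F (mer95_den x) w) z :=
      (hGan z hz).continuousAt.mul (mer95_F_analyticAt _ hz).continuousAt
    have hcont2 : ContinuousAt (mer95_F (mer95_num x)) z := (mer95_F_analyticAt _ hz).continuousAt
    exact ((hcont1.eventuallyEq_nhds_iff_eventuallyEq_nhdsNE hcont2).mp hev).eq_of_nhds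
  have hden := mer95_algebraMap_ne_zero (mer95_den_ne_zero x)
  have h3 : algebraMap mer95_O mer95_MER (mer95_mk c hc) *
      algebraMap mer95_O mer95_MER (mer95_den x) = x * algebraMap mer95_O mer95_MER (mer95_den x) := by
    rw [← map_mul, hkey, mer95_num_den]
  exact mul_right_cancel₀ hden h3

/-! ### Roots of unity are constants -/

theorem mer95_root_of_unity (x : mer95_MER) {n : ℕ} (hn : 0 < n) (h : x ^ n = 1) :
    ∃ ζ : ℂ, ζ ^ n = 1 ∧ x = algebraMap ℂ mer95_MER ζ := by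
  have hx : x ≠ 0 := by
    rintro rfl
    rw [zero_pow hn.ne'] at h
    exact zero_ne_one h
  have hord : ∀ τ : ℍ, mer95_ord τ x = 0 := by
    intro τ
    have h1 := mer95_ord_pow τ x n
    rw [h, mer95_ord_one] at h1
    have hn' : (n : ℤ) ≠ 0 := by exact_mod_cast hn.ne'
    rcases mul_eq_zero.mp h1.symm with h2 | h2
    · exact absurd h2 hn'
    · exact h2
  obtain ⟨f, rfl⟩ := mer95_exists_of_ord_nonneg x (fun τ => (hord τ).ge)
  have hf : f ^ n = 1 := by
    apply mer95_algebraMap_injective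
    rw [map_pow, h, map_one]
  have hζ := Complex.isPrimitiveRoot_exp n hn.ne'
  have hprod := Polynomial.X_pow_sub_one_eq_prod hn hζ
  have h2 := congrArg (Polynomial.aeval f) hprod
  rw [map_sub, map_pow, Polynomial.aeval_X, map_one, hf, sub_self, map_prod] at h2
  obtain ⟨ξ, hξ, h3⟩ := Finset.prod_eq_zero_iff.mp h2.symm
  rw [map_sub, Polynomial.aeval_X, Polynomial.aeval_C, sub_eq_zero] at h3
  refine ⟨ξ, ?_, ?_⟩
  · exact (Polynomial.mem_nthRootsFinset hn 1).mp hξ
  · rw [h3, ← IsScalarTower.algebraMap_apply]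

/-! ### Integer matrices of positive determinant -/

theorem mer95_det_map_pos (A : Matrix (Fin 2) (Fin 2) ℤ) (hA : 0 < A.det) :
    0 < (A.map (Int.cast : ℤ → ℝ)).det := by
  have h : (A.map (Int.cast : ℤ → ℝ)).det = ((A.det : ℤ) : ℝ) := by
    rw [Matrix.det_fin_two, Matrix.det_fin_two]
    simp
  rw [h]
  exact_mod_cast hA

/-- An integer matrix of positive determinant, as an element of `GL(2, ℝ)⁺`. -/
def mer95_gl (A : Matrix (Fin 2) (Fin 2) ℤ) (hA : 0 < A.det) : GL(2, ℝ)⁺ :=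
  ⟨Matrix.GeneralLinearGroup.mkOfDetNeZero (A.map (Int.cast : ℤ → ℝ))
    (mer95_det_map_pos A hA).ne', by
    rw [Matrix.mem_glpos]
    exact mer95_det_map_pos A hA⟩

theorem mer95_gl_coe (A : Matrix (Fin 2) (Fin 2) ℤ) (hA : 0 < A.det) (i j : Fin 2) :
    ((mer95_gl A hA : GL (Fin 2) ℝ) : Matrix (Fin 2) (Fin 2) ℝ) i j = (A i j : ℝ) := rfl

theorem mer95_gl_smul_coe (A : Matrix (Fin 2) (Fin 2) ℤ) (hA : 0 < A.det) (τ : ℍ) :
    ((mer95_gl A hA • τ : ℍ) : ℂ) =
      ((A 0 0 : ℂ) * τ + A 0 1) / ((A 1 0 : ℂ) * τ + A 1 1) := by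
  have h := UpperHalfPlane.coe_smul_of_det_pos (mer95_det_pos (mer95_gl A hA)) τ
  have h2 : ((mer95_gl A hA • τ : ℍ) : ℂ) = (((mer95_gl A hA : GL (Fin 2) ℝ) • τ : ℍ) : ℂ) := rfl
  rw [h2, h]
  simp only [UpperHalfPlane.num, UpperHalfPlane.denom, mer95_gl_coe]
  push_cast
  rfl

end

end Fermat.Agent.S42
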