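import Mathlib
import Fermat.Agent.S24.Counting
import Fermat.Agent.S24.PlacesBasic
import Fermat.Agent.S37.FunFieldRel63

/-!
# S42, module M4 (abstract form, helper36): places of a function field from point valuations

Setting: `K` algebraically closed of characteristic zero, `F / K` a function field (`x : F`
transcendental, `F` finite over `K(x)`), `M` an ambient field of "meromorphic functions" with a
family `u : T → OrdFn K M` of `ℤ`-valued order functions (`u τ = ord_τ`), and a `K`-embedding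
`ev : F →ₐ[K] M`.

* `pa36_P1` : a nontrivial order function pulled back to `F` is a positive multiple of the order
  at one place of `F`.
* `pa36_P2` : if the orders satisfy the analytic norm formula (`hK3`), `x` is invariant (`hinv`)
  and takes every value (`hsurj`), then every place of `F` over a finite value `x = a` is the
  place of some point `τ`.
* `pa36_dvd_ord_finite` : divisibility of `ord_τ (ev G)` by `p` at all points gives divisibility
  of `v.ord G` at all finite places, when the ramification of `x` is prime to `p`.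
* `pa36_P3` : a function whose norms `N(G - c)`, `N(G⁻¹ - c)` (`c` outside a finite set) have
  order zero at the places over `x = ∞` has order zero at these places.
* `pa36_P3_ordFn` : the same with the hypothesis at a single order function of `F` which is
  negative at `x` (the `q`-order at the cusp `∞`).
-/

set_option autoImplicit false
set_option linter.unusedSectionVars false
set_option linter.style.haveILetI false
set_option linter.unusedVariables false

open AlgebraicCurve IntermediateField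

namespace Fermat.Agent.S42

open Fermat.Agent.S24 Fermat.Agent.S37

section Pull

variable {K F M : Type*} [Field K] [Field F] [Algebra K F] [Field M] [Algebra K M]

/-- Pull back an order function along a `K`-algebra embedding. -/
def pa36_pull (u : OrdFn K M) (ev : F →ₐ[K] M) : OrdFn K F where
  ord f := u.ord (ev f)
  ord_mul f g hf hg := by
    rw [map_mul]
    exact u.ord_mul _ _ ((map_ne_zero ev).mpr hf) ((map_ne_zero ev).mpr hg)
  ord_add f g hf hg hfg := by
    rw [map_add]
    exact u.ord_add _ _ ((map_ne_zero ev).mpr hf) ((map_ne_zero ev).mpr hg)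
      (by rw [← map_add]; exact (map_ne_zero ev).mpr hfg)
  ord_const c hc := by
    rw [AlgHom.commutes]
    exact u.ord_const c hc

/-- **(P1)** A nontrivial order function on `M`, pulled back to `F`, is a positive multiple of
the order at one place of `F`. -/
theorem pa36_P1 (u : OrdFn K M) (ev : F →ₐ[K] M) (h : ∃ y₀ : F, y₀ ≠ 0 ∧ 0 < u.ord (ev y₀)) :
    ∃ (v : Place K F) (κ : ℤ), 0 < κ ∧ ∀ f : F, f ≠ 0 → u.ord (ev f) = κ * v.ord f := by
  obtain ⟨m, ϖ, hm, -, -, hall⟩ := wp3_ord_eq_mul (pa36_pull u ev) h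
  exact ⟨wp3_place (pa36_pull u ev) h, m, hm, hall⟩

/-- (P1) for an order function of `F` itself. -/
theorem pa36_P1_self (u : OrdFn K F) (h : ∃ y₀ : F, y₀ ≠ 0 ∧ 0 < u.ord y₀) :
    ∃ (v : Place K F) (κ : ℤ), 0 < κ ∧ ∀ f : F, f ≠ 0 → u.ord f = κ * v.ord f := by
  obtain ⟨m, ϖ, hm, -, -, hall⟩ := wp3_ord_eq_mul u h
  exact ⟨wp3_place u h, m, hm, hall⟩

theorem pa36_ord_neg (v : Place K F) (f : F) : v.ord (-f) = v.ord f := by
  simp [Place.ord]

theorem pa36_ord_pow (v : Place K F) (f : F) (n : ℕ) : v.ord (f ^ n) = n * v.ord f := by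
  rcases eq_or_ne f 0 with rfl | hf
  · rcases Nat.eq_zero_or_pos n with rfl | hn
    · simp
    · simp [zero_pow hn.ne']
  induction n with
  | zero => simp
  | succ n ih =>
    rw [pow_succ, v.ord_mul (pow_ne_zero n hf) hf, ih]
    push_cast
    ring

/-- Exact ultrametric inequality. -/
theorem pa36_ord_add_eq_of_lt (v : Place K F) {f g : F} (hf : f ≠ 0) (hg : g ≠ 0)
    (h : v.ord f < v.ord g) : v.ord (f + g) = v.ord f := by
  have hfg : f + g ≠ 0 := by
    intro h0
    have : g = -f := by linear_combination h0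
    rw [this, pa36_ord_neg] at h
    exact lt_irrefl _ h
  have h1 := wp1_ord_add v f g hfg hf hg
  have h2 := wp1_ord_add v (f + g) (-g) (by simpa using hf) hfg (neg_ne_zero.mpr hg)
  rw [add_neg_cancel_right, pa36_ord_neg] at h2
  rw [min_eq_left h.le] at h1
  rcases min_le_iff.mp h2 with h3 | h3
  · omega
  · omega

theorem pa36_transcendental_sub (x : F) (hx : Transcendental K x) (a : K) :
    Transcendental K (x - algebraMap K F a) := by
  intro halg
  apply hx
  have := halg.add (isAlgebraic_algebraMap (R := K) (A := F) a)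
  rwa [sub_add_cancel] at this

end Pull

section Base

variable {K F : Type*} [Field K] [IsAlgClosed K] [CharZero K] [Field F] [Algebra K F]

theorem pa36_transcendental_gen (x : F) (hx : Transcendental K x) :
    Transcendental K (AdjoinSimple.gen K x) := by
  rw [← transcendental_algebraMap_iff (algebraMap K⟮x⟯ F).injective, AdjoinSimple.algebraMap_gen]
  exact hx

theorem pa36_algebraMap_gen_sub (x : F) (a : K) :
    algebraMap K⟮x⟯ F (AdjoinSimple.gen K x - algebraMap K K⟮x⟯ a) = x - algebraMap K F a := by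
  rw [map_sub, AdjoinSimple.algebraMap_gen, ← IsScalarTower.algebraMap_apply]

theorem pa36_adjoin_gen_sub (x : F) (a : K) :
    K⟮(AdjoinSimple.gen K x - algebraMap K K⟮x⟯ a : K⟮x⟯)⟯ = ⊤ := by
  apply IntermediateField.lift_injective K⟮x⟯
  rw [IntermediateField.lift_adjoin_simple, IntermediateField.lift_top]
  have hcoe : ((AdjoinSimple.gen K x - algebraMap K K⟮x⟯ a : K⟮x⟯) : F) =
      x - algebraMap K F a := pa36_algebraMap_gen_sub x a
  rw [hcoe]
  apply le_antisymm
  · rw [IntermediateField.adjoin_simple_le_iff]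
    exact sub_mem (IntermediateField.mem_adjoin_simple_self K x) (IntermediateField.algebraMap_mem _ a)
  · rw [IntermediateField.adjoin_simple_le_iff]
    have h := add_mem (IntermediateField.mem_adjoin_simple_self K (x - algebraMap K F a))
      (IntermediateField.algebraMap_mem K⟮x - algebraMap K F a⟯ a)
    rwa [sub_add_cancel] at h

theorem pa36_finrank_gen_sub (x : F) (a : K) :
    Module.finrank K⟮(AdjoinSimple.gen K x - algebraMap K K⟮x⟯ a : K⟮x⟯)⟯ K⟮x⟯ = 1 :=
  IntermediateField.finrank_eq_one_iff_eq_top.mpr (pa36_adjoin_gen_sub x a)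

theorem pa36_finite_gen_sub (x : F) (a : K) :
    FiniteDimensional K⟮(AdjoinSimple.gen K x - algebraMap K K⟮x⟯ a : K⟮x⟯)⟯ K⟮x⟯ :=
  Module.finite_of_finrank_pos (by rw [pa36_finrank_gen_sub]; exact one_pos)

/-- The place of `K(x)` over a finite value `x = a` is unique. -/
theorem pa36_unique_zero (x : F) (hx : Transcendental K x) (a : K) (P P' : Place K K⟮x⟯)
    (hP : 0 < P.ord (AdjoinSimple.gen K x - algebraMap K K⟮x⟯ a))
    (hP' : 0 < P'.ord (AdjoinSimple.gen K x - algebraMap K K⟮x⟯ a)) : P = P' := by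
  classical
  have hy : Transcendental K (AdjoinSimple.gen K x - algebraMap K K⟮x⟯ a) :=
    pa36_transcendental_sub _ (pa36_transcendental_gen x hx) a
  haveI := pa36_finite_gen_sub x a
  have hsum := wp1_sum_ord_zeros (AdjoinSimple.gen K x - algebraMap K K⟮x⟯ a) hy
  rw [pa36_finrank_gen_sub] at hsum
  by_contra hne
  have hsub : ({P, P'} : Finset (Place K K⟮x⟯)) ⊆ (wp1_finite_zeros _ hy).toFinset := by
    intro w hw
    simp only [Finset.mem_insert, Finset.mem_singleton] at hw
    rw [Set.Finite.mem_toFinset]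
    rcases hw with rfl | rfl
    · exact hP
    · exact hP'
  have h2 := Finset.sum_le_sum_of_subset_of_nonneg hsub
    (f := fun w : Place K K⟮x⟯ => w.ord (AdjoinSimple.gen K x - algebraMap K K⟮x⟯ a))
    (fun w hw _ => by
      rw [Set.Finite.mem_toFinset] at hw
      exact le_of_lt hw)
  rw [Finset.sum_pair hne, hsum] at h2
  push_cast at h2
  omega

/-- The exact norm formula for `F / K(x)`. -/
theorem pa36_norm_formula (x : F) (hx : Transcendental K x) [FiniteDimensional K⟮x⟯ F]
    [HasPrincipalDivisors K F] (P : Place K K⟮x⟯) (f : F) (hf : f ≠ 0) :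
    ∑ w ∈ P.fiber F, w.ord f = P.ord (Algebra.norm K⟮x⟯ f) := by
  have hy : Transcendental K (AdjoinSimple.gen K x - algebraMap K K⟮x⟯ 0) :=
    pa36_transcendental_sub _ (pa36_transcendental_gen x hx) 0
  haveI := pa36_finite_gen_sub x (0 : K)
  exact (hi63_local_all (F := K⟮x⟯) (F' := F) _ hy P).2 f hf

theorem pa36_ord_restrict_pos_iff (x : F) [FiniteDimensional K⟮x⟯ F] (w : Place K F)
    (r : K⟮x⟯) : 0 < w.ord (algebraMap K⟮x⟯ F r) ↔ 0 < (w.restrict K⟮x⟯).ord r := by
  rw [Place.ord_restrict (F := K⟮x⟯) w r]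
  have he : (0 : ℤ) < (Place.ramificationIndex (F := K⟮x⟯) w : ℤ) := by
    exact_mod_cast Place.ramificationIndex_pos (F := K⟮x⟯) w
  constructor
  · intro h
    exact (mul_pos_iff_of_pos_left he).mp h
  · intro h
    exact mul_pos he h

theorem pa36_ord_restrict_neg_iff (x : F) [FiniteDimensional K⟮x⟯ F] (w : Place K F)
    (r : K⟮x⟯) : w.ord (algebraMap K⟮x⟯ F r) < 0 ↔ (w.restrict K⟮x⟯).ord r < 0 := by
  rw [Place.ord_restrict (F := K⟮x⟯) w r]
  have he : (0 : ℤ) < (Place.ramificationIndex (F := K⟮x⟯) w : ℤ) := by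
    exact_mod_cast Place.ramificationIndex_pos (F := K⟮x⟯) w
  constructor
  · intro h
    by_contra h'
    have := mul_nonneg he.le (not_lt.mp h')
    omega
  · intro h
    exact mul_neg_of_pos_of_neg he h

theorem pa36_ord_restrict_eq_zero_iff (x : F) [FiniteDimensional K⟮x⟯ F] (w : Place K F)
    (r : K⟮x⟯) : w.ord (algebraMap K⟮x⟯ F r) = 0 ↔ (w.restrict K⟮x⟯).ord r = 0 := by
  rw [Place.ord_restrict (F := K⟮x⟯) w r]
  have he : (Place.ramificationIndex (F := K⟮x⟯) w : ℤ) ≠ 0 := by
    exact_mod_cast (Place.ramificationIndex_pos (F := K⟮x⟯) w).ne'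
  constructor
  · intro h
    exact (mul_eq_zero.mp h).resolve_left he
  · intro h
    rw [h, mul_zero]

end Base

section Main

variable {K F M : Type*} [Field K] [IsAlgClosed K] [CharZero K] [Field F] [Algebra K F]
  [Field M] [Algebra K M]

/-- Every place of `F` is over `x = ∞` or over a finite value `x = a`. -/
theorem pa36_cases (x : F) (hx : Transcendental K x) [FiniteDimensional K⟮x⟯ F]
    (v : Place K F) : v.ord x < 0 ∨ ∃ a : K, 0 < v.ord (x - algebraMap K F a) := by
  by_cases h : v.ord x < 0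
  · exact Or.inl h
  · right
    obtain ⟨c, hc | hc⟩ := wp1_exists_const x hx v x ((wp1_mem_iff_ord_nonneg v x).mpr (not_lt.mp h))
    · exact absurd (hc ▸ isAlgebraic_algebraMap c) hx
    · exact ⟨c, hc⟩

/-- **(P2)** Every place of `F` over a finite value `x = a` is the place of a point. -/
theorem pa36_P2 (ev : F →ₐ[K] M) {T : Type*} (u : T → OrdFn K M)
    (x : F) (hx : Transcendental K x) [FiniteDimensional K⟮x⟯ F]
    {ι : Type*} [Fintype ι] (s : ι → T → T)
    (hK3 : ∀ (τ : T) (g : F), g ≠ 0 →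
      (u τ).ord (ev (algebraMap K⟮x⟯ F (Algebra.norm K⟮x⟯ g))) = ∑ i, (u (s i τ)).ord (ev g))
    (hinv : ∀ (i : ι) (τ : T) (a : K),
      (u (s i τ)).ord (ev (x - algebraMap K F a)) = (u τ).ord (ev (x - algebraMap K F a)))
    (hsurj : ∀ a : K, ∃ τ : T, 0 < (u τ).ord (ev (x - algebraMap K F a)))
    (v : Place K F) (a : K) (hv : 0 < v.ord (x - algebraMap K F a)) :
    ∃ (τ : T) (κ : ℤ), 0 < κ ∧ 0 < (u τ).ord (ev (x - algebraMap K F a)) ∧
      ∀ f : F, f ≠ 0 → (u τ).ord (ev f) = κ * v.ord f := by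
  classical
  haveI hPD : HasPrincipalDivisors K F := hi63_hasPrincipalDivisors x hx
  have hy : Transcendental K (x - algebraMap K F a) := pa36_transcendental_sub x hx a
  haveI : FiniteDimensional K⟮x - algebraMap K F a⟯ F :=
    wp1_finite_of_transcendental x hx _ hy
  have hy0 : x - algebraMap K F a ≠ 0 := by
    intro h0
    apply hy
    rw [h0]
    exact isAlgebraic_zero
  obtain ⟨τ₀, hτ₀⟩ := hsurj a
  have hex : ∀ i : ι, ∃ (w : Place K F) (κ : ℤ), 0 < κ ∧
      ∀ f : F, f ≠ 0 → (u (s i τ₀)).ord (ev f) = κ * w.ord f := by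
    intro i
    refine pa36_P1 (u (s i τ₀)) ev ⟨x - algebraMap K F a, hy0, ?_⟩
    rw [hinv]
    exact hτ₀
  choose w κ hκ hw using hex
  by_contra hcon
  have hne : ∀ i, w i ≠ v := by
    intro i hi
    apply hcon
    refine ⟨s i τ₀, κ i, hκ i, ?_, ?_⟩
    · rw [hinv]
      exact hτ₀
    · rw [← hi]
      exact hw i
  have hwy : ∀ i, 0 < (w i).ord (x - algebraMap K F a) := by
    intro i
    have h1 := hw i _ hy0
    have h2 : 0 < (u (s i τ₀)).ord (ev (x - algebraMap K F a)) := by
      rw [hinv]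
      exact hτ₀
    rw [h1] at h2
    exact (mul_pos_iff_of_pos_left (hκ i)).mp h2
  obtain ⟨g, hg0, -, hgv, hgT⟩ := wp1_exists_integral_sep (x - algebraMap K F a) hy v hv
    ((wp1_finite_zeros (x - algebraMap K F a) hy).toFinset.erase v)
    (fun u hu => by
      rw [Finset.mem_erase, Set.Finite.mem_toFinset] at hu
      exact hu.2)
    (Finset.notMem_erase _ _)
  have hsum0 : ∑ i, (u (s i τ₀)).ord (ev g) = 0 := by
    refine Finset.sum_eq_zero (fun i _ => ?_)
    rw [hw i g hg0, hgT (w i) (by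
      rw [Finset.mem_erase, Set.Finite.mem_toFinset]
      exact ⟨hne i, hwy i⟩), mul_zero]
  have hN0 : Algebra.norm K⟮x⟯ g ≠ 0 := Algebra.norm_ne_zero_iff.mpr hg0
  have hN := hK3 τ₀ g hg0
  rw [hsum0] at hN
  obtain ⟨v', κ', hκ', hv'⟩ := pa36_P1 (u τ₀) ev ⟨x - algebraMap K F a, hy0, hτ₀⟩
  have hv'y : 0 < v'.ord (x - algebraMap K F a) := by
    have h1 := hv' _ hy0
    rw [h1] at hτ₀
    exact (mul_pos_iff_of_pos_left hκ').mp hτ₀
  have hv'N : v'.ord (algebraMap K⟮x⟯ F (Algebra.norm K⟮x⟯ g)) = 0 := by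
    have h1 := hv' _ ((map_ne_zero (algebraMap K⟮x⟯ F)).mpr hN0)
    rw [hN] at h1
    exact (mul_eq_zero.mp h1.symm).resolve_left hκ'.ne'
  have hPv : 0 < (v.restrict K⟮x⟯).ord (AdjoinSimple.gen K x - algebraMap K K⟮x⟯ a) := by
    rw [← pa36_ord_restrict_pos_iff, pa36_algebraMap_gen_sub]
    exact hv
  have hPv' : 0 < (v'.restrict K⟮x⟯).ord (AdjoinSimple.gen K x - algebraMap K K⟮x⟯ a) := by
    rw [← pa36_ord_restrict_pos_iff, pa36_algebraMap_gen_sub]
    exact hv'y
  have hPP : v.restrict K⟮x⟯ = v'.restrict K⟮x⟯ := pa36_unique_zero x hx a _ _ hPv hPv'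
  have hnorm := pa36_norm_formula x hx (v'.restrict K⟮x⟯) g hg0
  rw [(pa36_ord_restrict_eq_zero_iff x v' _).mp hv'N] at hnorm
  have hpos : 0 < ∑ w ∈ (v'.restrict K⟮x⟯).fiber F, w.ord g := by
    refine Finset.sum_pos' (fun w hw => ?_) ⟨v, Place.mem_fiber.mpr hPP, hgv⟩
    rw [Place.mem_fiber] at hw
    by_cases hwv : w = v
    · rw [hwv]
      exact le_of_lt hgv
    · have hwy' : 0 < w.ord (x - algebraMap K F a) := by
        rw [← pa36_algebraMap_gen_sub, pa36_ord_restrict_pos_iff, hw]
        exact hPv'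
      rw [hgT w (by
        rw [Finset.mem_erase, Set.Finite.mem_toFinset]
        exact ⟨hwv, hwy'⟩)]
  omega

/-- Divisibility by `p` of the orders at all points gives divisibility at the finite places. -/
theorem pa36_dvd_ord_finite (ev : F →ₐ[K] M) {T : Type*} (u : T → OrdFn K M)
    (x : F) (hx : Transcendental K x) [FiniteDimensional K⟮x⟯ F]
    {ι : Type*} [Fintype ι] (s : ι → T → T)
    (hK3 : ∀ (τ : T) (g : F), g ≠ 0 →
      (u τ).ord (ev (algebraMap K⟮x⟯ F (Algebra.norm K⟮x⟯ g))) = ∑ i, (u (s i τ)).ord (ev g))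
    (hinv : ∀ (i : ι) (τ : T) (a : K),
      (u (s i τ)).ord (ev (x - algebraMap K F a)) = (u τ).ord (ev (x - algebraMap K F a)))
    (hsurj : ∀ a : K, ∃ τ : T, 0 < (u τ).ord (ev (x - algebraMap K F a)))
    (p : ℕ) (G : F) (hG : G ≠ 0)
    (hp : ∀ τ : T, (p : ℤ) ∣ (u τ).ord (ev G))
    (hcop : ∀ (τ : T) (a : K), 0 < (u τ).ord (ev (x - algebraMap K F a)) →
      IsCoprime ((u τ).ord (ev (x - algebraMap K F a))) (p : ℤ))
    (v : Place K F) (hv : 0 ≤ v.ord x) : (p : ℤ) ∣ v.ord G := by
  obtain h | ⟨a, ha⟩ := pa36_cases x hx v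
  · omega
  obtain ⟨τ, κ, hκ, hτ, hall⟩ := pa36_P2 ev u x hx s hK3 hinv hsurj v a ha
  have hy0 : x - algebraMap K F a ≠ 0 := by
    intro h0
    rw [h0] at ha
    simp at ha
  have hc := hcop τ a hτ
  rw [hall _ hy0] at hc
  have hc' : IsCoprime κ (p : ℤ) := hc.of_mul_left_left
  have hd := hp τ
  rw [hall G hG] at hd
  exact hc'.symm.dvd_of_dvd_mul_left hd

/-- Order of a polynomial in `x` at a place over `x = ∞`. -/
theorem pa36_ord_aeval_infty (x : F) (v : Place K F) (hv : v.ord x < 0) :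
    ∀ (n : ℕ) (P : Polynomial K), P ≠ 0 → P.natDegree = n →
      Polynomial.aeval x P ≠ 0 ∧ v.ord (Polynomial.aeval x P) = (n : ℤ) * v.ord x := by
  have hx : Transcendental K x := by
    intro halg
    obtain ⟨c, hc⟩ := wp1b_exists_eq_algebraMap_of_isAlgebraic halg
    rw [hc, wp1_ord_algebraMap] at hv
    exact lt_irrefl _ hv
  have hx0 : x ≠ 0 := by
    rintro rfl
    exact hx isAlgebraic_zero
  intro n
  induction n using Nat.strong_induction_on with
  | _ n ih =>
    intro P hP hn
    have hne : Polynomial.aeval x P ≠ 0 := fun h0 => hx ⟨P, hP, h0⟩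
    refine ⟨hne, ?_⟩
    have hlc : P.leadingCoeff ≠ 0 := Polynomial.leadingCoeff_ne_zero.mpr hP
    have hdecomp : Polynomial.aeval x P =
        algebraMap K F P.leadingCoeff * x ^ n + Polynomial.aeval x P.eraseLead := by
      conv_lhs => rw [← Polynomial.eraseLead_add_C_mul_X_pow P]
      rw [map_add, map_mul, Polynomial.aeval_C, map_pow, Polynomial.aeval_X, hn, add_comm]
    have hlead0 : algebraMap K F P.leadingCoeff * x ^ n ≠ 0 :=
      mul_ne_zero ((map_ne_zero _).mpr hlc) (pow_ne_zero n hx0)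
    have hlead : v.ord (algebraMap K F P.leadingCoeff * x ^ n) = (n : ℤ) * v.ord x := by
      rw [v.ord_mul ((map_ne_zero _).mpr hlc) (pow_ne_zero n hx0), wp1_ord_algebraMap,
        pa36_ord_pow, zero_add]
    by_cases hE : P.eraseLead = 0
    · rw [hdecomp, hE, map_zero, add_zero, hlead]
    · have hdeg : P.eraseLead.natDegree < n := by
        rcases Polynomial.eraseLead_natDegree_lt_or_eraseLead_eq_zero P with h | h
        · rw [← hn]
          exact h
        · exact absurd h hE
      obtain ⟨hE0, hEord⟩ := ih _ hdeg P.eraseLead hE rfl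
      rw [hdecomp, pa36_ord_add_eq_of_lt v hlead0 hE0, hlead]
      rw [hlead, hEord]
      have : (P.eraseLead.natDegree : ℤ) < (n : ℤ) := by exact_mod_cast hdeg
      nlinarith

/-- Order of a rational function of `x` at a place over `x = ∞`. -/
theorem pa36_ord_ratfunc_infty (x : F) (v : Place K F) (hv : v.ord x < 0)
    (P Q : Polynomial K) (hP : P ≠ 0) (hQ : Q ≠ 0) :
    v.ord (Polynomial.aeval x P / Polynomial.aeval x Q) =
      ((Q.natDegree : ℤ) - (P.natDegree : ℤ)) * (-(v.ord x)) := by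
  obtain ⟨hP0, hPo⟩ := pa36_ord_aeval_infty x v hv _ P hP rfl
  obtain ⟨hQ0, hQo⟩ := pa36_ord_aeval_infty x v hv _ Q hQ rfl
  rw [div_eq_mul_inv, v.ord_mul hP0 (inv_ne_zero hQ0), v.ord_inv, hPo, hQo]
  ring

/-- An element of `K(x)` whose order vanishes at one place over `x = ∞` has order zero at
all of them. -/
theorem pa36_ord_infty_indep (x : F) (r : K⟮x⟯) (v v' : Place K F) (hv : v.ord x < 0)
    (hv' : v'.ord x < 0) (h : v.ord (algebraMap K⟮x⟯ F r) = 0) :
    v'.ord (algebraMap K⟮x⟯ F r) = 0 := by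
  rcases eq_or_ne r 0 with rfl | hr
  · simp
  obtain ⟨P, Q, hPQ⟩ := (IntermediateField.mem_adjoin_simple_iff K _).mp r.2
  have hcoe : algebraMap K⟮x⟯ F r = Polynomial.aeval x P / Polynomial.aeval x Q := hPQ
  have hr0 : algebraMap K⟮x⟯ F r ≠ 0 := (map_ne_zero _).mpr hr
  rw [hcoe] at hr0 h ⊢
  have hP : P ≠ 0 := by
    rintro rfl
    simp at hr0
  have hQ : Q ≠ 0 := by
    rintro rfl
    simp at hr0
  rw [pa36_ord_ratfunc_infty x v hv P Q hP hQ] at h
  rw [pa36_ord_ratfunc_infty x v' hv' P Q hP hQ]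
  have h1 : (Q.natDegree : ℤ) - (P.natDegree : ℤ) = 0 := by
    rcases mul_eq_zero.mp h with h1 | h1
    · exact h1
    · omega
  rw [h1, zero_mul]

/-- If the norms `N(G - c)` (`c` outside a finite set) have order zero at `v`, then `G` has no
pole at `v` (nor at any place with the same restriction to `K(x)`). -/
theorem pa36_no_pole (x : F) (hx : Transcendental K x) [FiniteDimensional K⟮x⟯ F]
    (G : F) (B : Finset K) (v : Place K F)
    (h1 : ∀ c : K, c ∉ B →
      v.ord (algebraMap K⟮x⟯ F (Algebra.norm K⟮x⟯ (G - algebraMap K F c))) = 0) :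
    0 ≤ v.ord G := by
  classical
  haveI hPD : HasPrincipalDivisors K F := hi63_hasPrincipalDivisors x hx
  by_contra hneg
  rw [not_le] at hneg
  have hGc : ∀ c : K, G - algebraMap K F c ≠ 0 := by
    intro c h0
    rw [sub_eq_zero] at h0
    rw [h0, wp1_ord_algebraMap] at hneg
    exact lt_irrefl _ hneg
  have hG0 : G ≠ 0 := by simpa using hGc 0
  have hex : ∀ w : Place K F, ∃ c : K, 0 ≤ w.ord G → 0 < w.ord (G - algebraMap K F c) := by
    intro w
    by_cases hw : 0 ≤ w.ord G
    · obtain ⟨c, hc | hc⟩ := wp1_exists_const x hx w G ((wp1_mem_iff_ord_nonneg w G).mpr hw)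
      · exact absurd (sub_eq_zero.mpr hc) (hGc c)
      · exact ⟨c, fun _ => hc⟩
    · exact ⟨0, fun h => absurd h hw⟩
  choose cw hcw using hex
  obtain ⟨c, hc⟩ := Infinite.exists_notMem_finset (B ∪ ((v.restrict K⟮x⟯).fiber F).image cw)
  rw [Finset.mem_union, not_or] at hc
  obtain ⟨hcB, hcS⟩ := hc
  have hterm : ∀ w ∈ (v.restrict K⟮x⟯).fiber F,
      w.ord (G - algebraMap K F c) = min (w.ord G) 0 := by
    intro w hw
    by_cases hwG : 0 ≤ w.ord G
    · rw [min_eq_right hwG]
      have hcne : cw w ≠ c := by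
        intro h
        apply hcS
        rw [← h]
        exact Finset.mem_image_of_mem cw hw
      have hpos := hcw w hwG
      have hconst : algebraMap K F (cw w - c) ≠ 0 :=
        (map_ne_zero _).mpr (sub_ne_zero.mpr hcne)
      have heq : G - algebraMap K F c =
          algebraMap K F (cw w - c) + (G - algebraMap K F (cw w)) := by
        rw [map_sub]
        ring
      rw [heq, pa36_ord_add_eq_of_lt w hconst (hGc _) (by
        rw [wp1_ord_algebraMap]
        exact hpos), wp1_ord_algebraMap]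
    · rw [not_le] at hwG
      rw [min_eq_left hwG.le]
      rcases eq_or_ne c 0 with rfl | hc0
      · simp
      · rw [sub_eq_add_neg, pa36_ord_add_eq_of_lt w hG0
          (neg_ne_zero.mpr ((map_ne_zero _).mpr hc0)) (by
            rw [pa36_ord_neg, wp1_ord_algebraMap]
            exact hwG)]
  have hnorm := pa36_norm_formula x hx (v.restrict K⟮x⟯) (G - algebraMap K F c) (hGc c)
  rw [(pa36_ord_restrict_eq_zero_iff x v _).mp (h1 c hcB)] at hnorm
  have hvS : v ∈ (v.restrict K⟮x⟯).fiber F := Place.mem_fiber.mpr rfl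
  have hlt : ∑ w ∈ (v.restrict K⟮x⟯).fiber F, w.ord (G - algebraMap K F c) < 0 := by
    rw [Finset.sum_congr rfl hterm]
    refine Finset.sum_neg' (fun w _ => min_le_right _ _) ⟨v, hvS, ?_⟩
    rw [min_eq_left hneg.le]
    exact hneg
  omega

/-- **(P3)** If the norms `N(G - c)` and `N(G⁻¹ - c)` (`c` outside a finite set) have order zero
at `v`, then `G` has order zero at `v`. -/
theorem pa36_P3 (x : F) (hx : Transcendental K x) [FiniteDimensional K⟮x⟯ F]
    (G : F) (B : Finset K) (v : Place K F)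
    (h1 : ∀ c : K, c ∉ B →
      v.ord (algebraMap K⟮x⟯ F (Algebra.norm K⟮x⟯ (G - algebraMap K F c))) = 0)
    (h2 : ∀ c : K, c ∉ B →
      v.ord (algebraMap K⟮x⟯ F (Algebra.norm K⟮x⟯ (G⁻¹ - algebraMap K F c))) = 0) :
    v.ord G = 0 := by
  have ha := pa36_no_pole x hx G B v h1
  have hb := pa36_no_pole x hx G⁻¹ B v h2
  rw [v.ord_inv] at hb
  omega

/-- **(P3), order-function form.** `u∞` is any order function of `F` which is negative at `x`
(the `q`-order at the cusp `∞`): if `N(G - c)` and `N(G⁻¹ - c)` have `u∞`-order zero for `c`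
outside a finite set, then `G` has order zero at every place of `F` over `x = ∞`. -/
theorem pa36_P3_ordFn (x : F) (hx : Transcendental K x) [FiniteDimensional K⟮x⟯ F]
    (G : F) (B : Finset K) (uinf : OrdFn K F) (hu : uinf.ord x < 0)
    (h1 : ∀ c : K, c ∉ B →
      uinf.ord (algebraMap K⟮x⟯ F (Algebra.norm K⟮x⟯ (G - algebraMap K F c))) = 0)
    (h2 : ∀ c : K, c ∉ B →
      uinf.ord (algebraMap K⟮x⟯ F (Algebra.norm K⟮x⟯ (G⁻¹ - algebraMap K F c))) = 0)
    (v : Place K F) (hv : v.ord x < 0) : v.ord G = 0 := by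
  have hx0 : x ≠ 0 := by
    rintro rfl
    exact hx isAlgebraic_zero
  obtain ⟨vinf, κ, hκ, hall⟩ := pa36_P1_self uinf ⟨x⁻¹, inv_ne_zero hx0, by
    rw [wp3_ord_inv uinf hx0]
    omega⟩
  have hvinf : vinf.ord x < 0 := by
    have h := hall x hx0
    rw [h] at hu
    by_contra hcon
    have := mul_nonneg hκ.le (not_lt.mp hcon)
    omega
  have key : ∀ r : K⟮x⟯, uinf.ord (algebraMap K⟮x⟯ F r) = 0 →
      v.ord (algebraMap K⟮x⟯ F r) = 0 := by
    intro r hr
    rcases eq_or_ne r 0 with rfl | hr0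
    · simp
    have h := hall _ ((map_ne_zero (algebraMap K⟮x⟯ F)).mpr hr0)
    rw [hr] at h
    have h0 : vinf.ord (algebraMap K⟮x⟯ F r) = 0 :=
      (mul_eq_zero.mp h.symm).resolve_left hκ.ne'
    exact pa36_ord_infty_indep x r vinf v hvinf hv h0
  exact pa36_P3 x hx G B v (fun c hc => key _ (h1 c hc)) (fun c hc => key _ (h2 c hc))

/-- **All places.** Divisibility by `p` of the order of `G` at every place of `F`: at the
finite places from the points (`pa36_dvd_ord_finite`), at the places over `x = ∞` the order is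
zero (`pa36_P3_ordFn`). -/
theorem pa36_dvd_ord_all (ev : F →ₐ[K] M) {T : Type*} (u : T → OrdFn K M)
    (x : F) (hx : Transcendental K x) [FiniteDimensional K⟮x⟯ F]
    {ι : Type*} [Fintype ι] (s : ι → T → T)
    (hK3 : ∀ (τ : T) (g : F), g ≠ 0 →
      (u τ).ord (ev (algebraMap K⟮x⟯ F (Algebra.norm K⟮x⟯ g))) = ∑ i, (u (s i τ)).ord (ev g))
    (hinv : ∀ (i : ι) (τ : T) (a : K),
      (u (s i τ)).ord (ev (x - algebraMap K F a)) = (u τ).ord (ev (x - algebraMap K F a)))
    (hsurj : ∀ a : K, ∃ τ : T, 0 < (u τ).ord (ev (x - algebraMap K F a)))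
    (p : ℕ) (G : F) (hG : G ≠ 0)
    (hp : ∀ τ : T, (p : ℤ) ∣ (u τ).ord (ev G))
    (hcop : ∀ (τ : T) (a : K), 0 < (u τ).ord (ev (x - algebraMap K F a)) →
      IsCoprime ((u τ).ord (ev (x - algebraMap K F a))) (p : ℤ))
    (B : Finset K) (uinf : OrdFn K F) (hu : uinf.ord x < 0)
    (h1 : ∀ c : K, c ∉ B →
      uinf.ord (algebraMap K⟮x⟯ F (Algebra.norm K⟮x⟯ (G - algebraMap K F c))) = 0)
    (h2 : ∀ c : K, c ∉ B →
      uinf.ord (algebraMap K⟮x⟯ F (Algebra.norm K⟮x⟯ (G⁻¹ - algebraMap K F c))) = 0)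
    (v : Place K F) : (p : ℤ) ∣ v.ord G := by
  by_cases hv : v.ord x < 0
  · rw [pa36_P3_ordFn x hx G B uinf hu h1 h2 v hv]
    exact dvd_zero _
  · exact pa36_dvd_ord_finite ev u x hx s hK3 hinv hsurj p G hG hp hcop v (not_lt.mp hv)

/-- A function without zeros and poles is constant. -/
theorem pa36_const_of_ord_eq_zero (x : F) (hx : Transcendental K x) [FiniteDimensional K⟮x⟯ F]
    (f : F) (hf : ∀ v : Place K F, v.ord f = 0) : ∃ c : K, f = algebraMap K F c := by
  classical
  by_contra hcon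
  have htr : Transcendental K f := by
    intro halg
    exact hcon (wp1b_exists_eq_algebraMap_of_isAlgebraic halg)
  haveI : FiniteDimensional K⟮f⟯ F := wp1_finite_of_transcendental x hx f htr
  have hsum := wp1_sum_ord_zeros f htr
  have h0 : ∑ v ∈ (wp1_finite_zeros f htr).toFinset, v.ord f = 0 :=
    Finset.sum_eq_zero (fun v _ => hf v)
  rw [h0] at hsum
  have hpos : 0 < Module.finrank K⟮f⟯ F := Module.finrank_pos
  omega

end Main

end Fermat.Agent.S42
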