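import Mathlib
import Fermat.Agent.S42.Mer95
import Fermat.Agent.S42.PlacesAbs36
import Fermat.Agent.S24.KleinJSurj

/-!
# S42, row M4c (helper36): the places over `j = ∞` (cusps), concrete form on `mer95_MER`

Norm route on top of `PlacesAbs36` (`pa36_P3`, `pa36_ord_ratfunc_infty`).

* `pc36_natDegree_eq_of_tendsto` : a rational function `A / B` with a finite nonzero limit along
  a family tending to infinity has `deg A = deg B`.
* `pc36_norm_ord_zero` : if `ev f = a / b` (`a, b` holomorphic on `ℍ`) and all the translates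
  `(a / b) ∘ (r i)⁻¹` have finite nonzero limits at `i∞`, then `N_{F/ℂ(x)} f` has order `0` at
  every place over `x = ∞` (`K3` in product form is the hypothesis `hnorm`).
* `pc36_cusp` : under the same hypotheses for `G`, `v.ord G = 0` at every place over `x = ∞`.
* `pc36_cusp_one` : the instance `j = kleinJ`, all limits `1` (shape of `ec77_Gchi_tendsto`).
-/

set_option autoImplicit false
set_option linter.style.haveILetI false
set_option linter.unusedSectionVars false
set_option linter.unusedVariables false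

open Filter Topology Polynomial UpperHalfPlane AlgebraicCurve IntermediateField
open scoped MatrixGroups

namespace Fermat.Agent.S42

open Fermat.Agent.S24

section Poly

variable {α : Type*} {l : Filter α} {f : α → ℂ}

theorem pc36_tendsto_inv (hf : Tendsto (fun t => ‖f t‖) l atTop) :
    Tendsto (fun t => (f t)⁻¹) l (𝓝 0) := by
  rw [tendsto_zero_iff_norm_tendsto_zero]
  simp only [norm_inv]
  exact tendsto_inv_atTop_zero.comp hf

theorem pc36_eventually_ne_zero (hf : Tendsto (fun t => ‖f t‖) l atTop) :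
    ∀ᶠ t in l, f t ≠ 0 := by
  filter_upwards [hf.eventually_ge_atTop 1] with t ht h0
  rw [h0, norm_zero] at ht
  linarith

theorem pc36_eval_eq (P : ℂ[X]) {z : ℂ} (hz : z ≠ 0) :
    P.eval z = z ^ P.natDegree * P.reverse.eval z⁻¹ := by
  letI : Invertible z := invertibleOfNonzero hz
  have h := Polynomial.eval₂_reverse_mul_pow (RingHom.id ℂ) z P
  rw [invOf_eq_inv] at h
  simp only [Polynomial.eval₂_id] at h
  rw [← h, mul_comm]

theorem pc36_tendsto_reverse (P : ℂ[X]) (hf : Tendsto (fun t => ‖f t‖) l atTop) :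
    Tendsto (fun t => P.reverse.eval (f t)⁻¹) l (𝓝 P.leadingCoeff) := by
  have h0 : P.reverse.eval 0 = P.leadingCoeff := by
    rw [← Polynomial.coeff_zero_eq_eval_zero, Polynomial.coeff_zero_reverse]
  rw [← h0]
  exact (P.reverse.continuous.tendsto 0).comp (pc36_tendsto_inv hf)

theorem pc36_eventually_eval_ne_zero (P : ℂ[X]) (hP : P ≠ 0)
    (hf : Tendsto (fun t => ‖f t‖) l atTop) : ∀ᶠ t in l, P.eval (f t) ≠ 0 := by
  have hlc : P.leadingCoeff ≠ 0 := Polynomial.leadingCoeff_ne_zero.mpr hP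
  filter_upwards [pc36_eventually_ne_zero hf,
    (pc36_tendsto_reverse P hf).eventually_ne hlc] with t ht hr
  rw [pc36_eval_eq P ht]
  exact mul_ne_zero (pow_ne_zero _ ht) hr

theorem pc36_natDegree_le_of_tendsto [l.NeBot] (hf : Tendsto (fun t => ‖f t‖) l atTop)
    (A B : ℂ[X]) (hA : A ≠ 0) (hB : B ≠ 0) (Λ : ℂ)
    (h : Tendsto (fun t => A.eval (f t) / B.eval (f t)) l (𝓝 Λ)) :
    A.natDegree ≤ B.natDegree := by
  by_contra hlt
  rw [not_le] at hlt
  have hlcA : A.leadingCoeff ≠ 0 := Polynomial.leadingCoeff_ne_zero.mpr hA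
  have hlcB : B.leadingCoeff ≠ 0 := Polynomial.leadingCoeff_ne_zero.mpr hB
  have hRA := pc36_tendsto_reverse A hf
  have hRB := pc36_tendsto_reverse B hf
  have hev : ∀ᶠ t in l, (f t) ^ (A.natDegree - B.natDegree) =
      A.eval (f t) / B.eval (f t) * (B.reverse.eval (f t)⁻¹ / A.reverse.eval (f t)⁻¹) := by
    filter_upwards [pc36_eventually_ne_zero hf, hRA.eventually_ne hlcA,
      hRB.eventually_ne hlcB] with t ht hra hrb
    rw [pc36_eval_eq A ht, pc36_eval_eq B ht]
    have hpow : (f t) ^ A.natDegree =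
        (f t) ^ (A.natDegree - B.natDegree) * (f t) ^ B.natDegree := by
      rw [← pow_add, Nat.sub_add_cancel hlt.le]
    have h1 : (f t) ^ B.natDegree ≠ 0 := pow_ne_zero _ ht
    rw [hpow]
    generalize Polynomial.eval (f t)⁻¹ A.reverse = ra at hra ⊢
    generalize Polynomial.eval (f t)⁻¹ B.reverse = rb at hrb ⊢
    generalize (f t) ^ B.natDegree = w at h1 ⊢
    field_simp
  have hlim : Tendsto (fun t => (f t) ^ (A.natDegree - B.natDegree)) l
      (𝓝 (Λ * (B.leadingCoeff / A.leadingCoeff))) :=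
    (h.mul (hRB.div hRA hlcA)).congr' (hev.mono fun t ht => ht.symm)
  have hnorm : Tendsto (fun t => ‖f t‖ ^ (A.natDegree - B.natDegree)) l atTop :=
    (tendsto_pow_atTop (Nat.sub_ne_zero_of_lt hlt)).comp hf
  have hlim' := hlim.norm
  simp only [norm_pow] at hlim'
  exact not_tendsto_nhds_of_tendsto_atTop hnorm _ hlim'

/-- A rational function `A / B` with a finite nonzero limit along a family going to infinity
has `deg A = deg B`. -/
theorem pc36_natDegree_eq_of_tendsto [l.NeBot] (hf : Tendsto (fun t => ‖f t‖) l atTop)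
    (A B : ℂ[X]) (hA : A ≠ 0) (hB : B ≠ 0) (Λ : ℂ) (hΛ : Λ ≠ 0)
    (h : Tendsto (fun t => A.eval (f t) / B.eval (f t)) l (𝓝 Λ)) :
    A.natDegree = B.natDegree := by
  apply le_antisymm (pc36_natDegree_le_of_tendsto hf A B hA hB Λ h)
  refine pc36_natDegree_le_of_tendsto hf B A hB hA Λ⁻¹ ?_
  have := h.inv₀ hΛ
  simpa only [inv_div] using this

end Poly

section Cusp

theorem pc36_prod_smul_apply {ι : Type*} [Fintype ι] (r : ι → SL(2, ℤ)) (a : mer95_O) (z : ℍ) :
    (∏ i, r i • a : mer95_O).1 z = ∏ i, a.1 ((r i)⁻¹ • z) := by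
  have h1 : (∏ i, r i • a : mer95_O).1 = ∏ i, (r i • a : mer95_O).1 :=
    map_prod mer95_O.val _ _
  rw [h1, Finset.prod_apply]
  exact Finset.prod_congr rfl (fun i _ => mer95_smul_apply_SL (r i) a z)

theorem pc36_aeval_apply (jO : mer95_O) (P : ℂ[X]) (z : ℍ) :
    (Polynomial.aeval jO P : mer95_O).1 z = P.eval (jO.1 z) := by
  have h1 : (Polynomial.aeval jO P : mer95_O).1 = Polynomial.aeval jO.1 P :=
    (Polynomial.aeval_algHom_apply mer95_O.val jO P).symm
  rw [h1]
  have h2 : (Polynomial.aeval jO.1 P) z = Polynomial.aeval (jO.1 z) P :=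
    (Polynomial.aeval_algHom_apply (Pi.evalAlgHom ℂ (fun _ : ℍ => ℂ) z) jO.1 P).symm
  rw [h2, Polynomial.coe_aeval_eq_eval]

variable {F : Type*} [Field F] [Algebra ℂ F]

/-- **Norms have order zero over `∞`.**  If `ev f = a / b` with `a, b` holomorphic and every
translate `(a / b) ∘ (r i)⁻¹` has a finite nonzero limit at `i∞`, then the norm of `f` to
`ℂ(x)` has order `0` at every place over `x = ∞`. -/
theorem pc36_norm_ord_zero (ev : F →ₐ[ℂ] mer95_MER) (x : F) (hx : Transcendental ℂ x)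
    [FiniteDimensional ℂ⟮x⟯ F] (jO : mer95_O)
    (hevx : ev x = algebraMap mer95_O mer95_MER jO)
    (hj : Tendsto (fun τ : ℍ => ‖jO.1 τ‖) atImInfty atTop)
    {ι : Type*} [Fintype ι] (r : ι → SL(2, ℤ))
    (hnorm : ∀ f : F, ev (algebraMap ℂ⟮x⟯ F (Algebra.norm ℂ⟮x⟯ f)) = ∏ i, r i • ev f)
    (f : F) (a b : mer95_O) (hb : b ≠ 0)
    (hfab : ev f * algebraMap mer95_O mer95_MER b = algebraMap mer95_O mer95_MER a)
    (L : ι → ℂ) (hL : ∀ i, L i ≠ 0)
    (hlim : ∀ i, Tendsto (fun z : ℍ => a.1 ((r i)⁻¹ • z) / b.1 ((r i)⁻¹ • z)) atImInfty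
      (𝓝 (L i)))
    (v : Place ℂ F) (hv : v.ord x < 0) :
    v.ord (algebraMap ℂ⟮x⟯ F (Algebra.norm ℂ⟮x⟯ f)) = 0 := by
  classical
  rcases eq_or_ne (Algebra.norm ℂ⟮x⟯ f) 0 with h0 | h0
  · rw [h0, map_zero]
    exact Place.ord_zero v
  obtain ⟨A, B, hAB⟩ := (IntermediateField.mem_adjoin_simple_iff ℂ _).mp
    (Algebra.norm ℂ⟮x⟯ f).2
  have hcoe : algebraMap ℂ⟮x⟯ F (Algebra.norm ℂ⟮x⟯ f) =
      Polynomial.aeval x A / Polynomial.aeval x B := hAB
  have hN0 : algebraMap ℂ⟮x⟯ F (Algebra.norm ℂ⟮x⟯ f) ≠ 0 := (_root_.map_ne_zero _).mpr h0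
  have hA : A ≠ 0 := by
    rintro rfl
    rw [hcoe] at hN0
    simp at hN0
  have hB : B ≠ 0 := by
    rintro rfl
    rw [hcoe] at hN0
    simp at hN0
  have hevA : ∀ P : ℂ[X], ev (Polynomial.aeval x P) =
      algebraMap mer95_O mer95_MER (Polynomial.aeval jO P) := by
    intro P
    rw [← Polynomial.aeval_algHom_apply, hevx, Polynomial.aeval_algebraMap_apply]
  have hBne : algebraMap mer95_O mer95_MER (Polynomial.aeval jO B) ≠ 0 := by
    rw [← hevA]
    exact (_root_.map_ne_zero ev).mpr (fun h => hx ⟨B, hB, h⟩)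
  have htr : ∀ i, r i • ev f * algebraMap mer95_O mer95_MER (r i • b) =
      algebraMap mer95_O mer95_MER (r i • a) := by
    intro i
    rw [← mer95_smul_algebraMap_SL, ← mer95_smul_algebraMap_SL, ← smul_mul', hfab]
  have hprod : (∏ i, r i • ev f) * algebraMap mer95_O mer95_MER (∏ i, r i • b) =
      algebraMap mer95_O mer95_MER (∏ i, r i • a) := by
    rw [map_prod, map_prod, ← Finset.prod_mul_distrib]
    exact Finset.prod_congr rfl (fun i _ => htr i)
  have hkey : Polynomial.aeval jO A * ∏ i, r i • b =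
      (∏ i, r i • a) * Polynomial.aeval jO B := by
    apply mer95_algebraMap_injective
    rw [map_mul, map_mul, ← hprod, ← hnorm f, hcoe, map_div₀, hevA, hevA]
    field_simp
  have hpt : ∀ z : ℍ, A.eval (jO.1 z) * ∏ i, b.1 ((r i)⁻¹ • z) =
      (∏ i, a.1 ((r i)⁻¹ • z)) * B.eval (jO.1 z) := by
    intro z
    have h1 : (Polynomial.aeval jO A * ∏ i, r i • b : mer95_O).1 z =
        ((∏ i, r i • a) * Polynomial.aeval jO B : mer95_O).1 z := by rw [hkey]
    have h2 : (Polynomial.aeval jO A * ∏ i, r i • b : mer95_O).1 z =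
        (Polynomial.aeval jO A : mer95_O).1 z * (∏ i, r i • b : mer95_O).1 z := rfl
    have h3 : ((∏ i, r i • a) * Polynomial.aeval jO B : mer95_O).1 z =
        (∏ i, r i • a : mer95_O).1 z * (Polynomial.aeval jO B : mer95_O).1 z := rfl
    rw [h2, h3, pc36_prod_smul_apply, pc36_prod_smul_apply, pc36_aeval_apply,
      pc36_aeval_apply] at h1
    exact h1
  have hbne : ∀ᶠ z in atImInfty, ∀ i, b.1 ((r i)⁻¹ • z) ≠ 0 := by
    rw [Filter.eventually_all]
    intro i
    filter_upwards [(hlim i).eventually_ne (hL i)] with z hz h0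
    apply hz
    rw [h0, div_zero]
  have hBev := pc36_eventually_eval_ne_zero B hB hj
  have hev : ∀ᶠ z in atImInfty, A.eval (jO.1 z) / B.eval (jO.1 z) =
      ∏ i, a.1 ((r i)⁻¹ • z) / b.1 ((r i)⁻¹ • z) := by
    filter_upwards [hbne, hBev] with z hz hBz
    rw [Finset.prod_div_distrib,
      div_eq_div_iff hBz (Finset.prod_ne_zero_iff.mpr fun i _ => hz i)]
    exact hpt z
  have hlimN : Tendsto (fun z : ℍ => A.eval (jO.1 z) / B.eval (jO.1 z)) atImInfty
      (𝓝 (∏ i, L i)) :=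
    (tendsto_finsetProd _ (fun i _ => hlim i)).congr' (hev.mono fun z hz => hz.symm)
  have hdeg := pc36_natDegree_eq_of_tendsto hj A B hA hB _
    (Finset.prod_ne_zero_iff.mpr fun i _ => hL i) hlimN
  rw [hcoe, pa36_ord_ratfunc_infty x v hv A B hA hB, hdeg]
  simp

/-- **Concrete (P3) at the cusps.**  `ev : F →ₐ[ℂ] MER`, `ev x = j`, `K3` in product form over
a finite family `r` of elements of `SL(2,ℤ)`.  If `ev G = a / b` with `a, b` holomorphic and
every translate `(a / b) ∘ (r i)⁻¹` has a finite nonzero limit at `i∞`, then `G` has order `0`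
at every place of `F` over `x = ∞`. -/
theorem pc36_cusp (ev : F →ₐ[ℂ] mer95_MER) (x : F) (hx : Transcendental ℂ x)
    [FiniteDimensional ℂ⟮x⟯ F] (jO : mer95_O)
    (hevx : ev x = algebraMap mer95_O mer95_MER jO)
    (hj : Tendsto (fun τ : ℍ => ‖jO.1 τ‖) atImInfty atTop)
    {ι : Type*} [Fintype ι] (r : ι → SL(2, ℤ))
    (hnorm : ∀ f : F, ev (algebraMap ℂ⟮x⟯ F (Algebra.norm ℂ⟮x⟯ f)) = ∏ i, r i • ev f)
    (G : F) (hG : G ≠ 0) (a b : mer95_O) (hb : b ≠ 0)
    (hGab : ev G * algebraMap mer95_O mer95_MER b = algebraMap mer95_O mer95_MER a)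
    (L : ι → ℂ) (hL : ∀ i, L i ≠ 0)
    (hlim : ∀ i, Tendsto (fun z : ℍ => a.1 ((r i)⁻¹ • z) / b.1 ((r i)⁻¹ • z)) atImInfty
      (𝓝 (L i)))
    (v : Place ℂ F) (hv : v.ord x < 0) : v.ord G = 0 := by
  classical
  have hevG : ev G ≠ 0 := (_root_.map_ne_zero ev).mpr hG
  have ha : a ≠ 0 := by
    rintro rfl
    rw [map_zero] at hGab
    rcases mul_eq_zero.mp hGab with h | h
    · exact hevG h
    · exact mer95_algebraMap_ne_zero hb h
  have hbne : ∀ i, ∀ᶠ z in atImInfty, b.1 ((r i)⁻¹ • z) ≠ 0 := by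
    intro i
    filter_upwards [(hlim i).eventually_ne (hL i)] with z hz h0
    apply hz
    rw [h0, div_zero]
  have hane : ∀ i, ∀ᶠ z in atImInfty, a.1 ((r i)⁻¹ • z) ≠ 0 := by
    intro i
    filter_upwards [(hlim i).eventually_ne (hL i)] with z hz h0
    apply hz
    rw [h0, zero_div]
  have hGinv : ev G⁻¹ * algebraMap mer95_O mer95_MER a = algebraMap mer95_O mer95_MER b := by
    rw [← hGab, map_inv₀, ← mul_assoc, inv_mul_cancel₀ hevG, one_mul]
  refine pa36_P3 x hx G (Finset.univ.image L ∪ Finset.univ.image (fun i => (L i)⁻¹)) v ?_ ?_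
  · intro c hc
    rw [Finset.mem_union, not_or] at hc
    have hc1 : ∀ i, L i ≠ c := fun i h =>
      hc.1 (Finset.mem_image.mpr ⟨i, Finset.mem_univ i, h⟩)
    refine pc36_norm_ord_zero ev x hx jO hevx hj r hnorm (G - algebraMap ℂ F c)
      (a - c • b) b hb ?_ (fun i => L i - c) (fun i => sub_ne_zero.mpr (hc1 i)) ?_ v hv
    · rw [map_sub, AlgHom.commutes, sub_mul, hGab, map_sub, Algebra.smul_def, map_mul,
        ← IsScalarTower.algebraMap_apply]
    · intro i
      refine ((hlim i).sub_const c).congr' ?_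
      filter_upwards [hbne i] with z hz
      have h1 : (a - c • b : mer95_O).1 ((r i)⁻¹ • z) =
          a.1 ((r i)⁻¹ • z) - c * b.1 ((r i)⁻¹ • z) := rfl
      rw [h1]
      field_simp
  · intro c hc
    rw [Finset.mem_union, not_or] at hc
    have hc2 : ∀ i, (L i)⁻¹ ≠ c := fun i h =>
      hc.2 (Finset.mem_image.mpr ⟨i, Finset.mem_univ i, h⟩)
    refine pc36_norm_ord_zero ev x hx jO hevx hj r hnorm (G⁻¹ - algebraMap ℂ F c)
      (b - c • a) a ha ?_ (fun i => (L i)⁻¹ - c) (fun i => sub_ne_zero.mpr (hc2 i)) ?_ v hv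
    · rw [map_sub, AlgHom.commutes, sub_mul, hGinv, map_sub, Algebra.smul_def, map_mul,
        ← IsScalarTower.algebraMap_apply]
    · intro i
      have hinv : Tendsto (fun z : ℍ => b.1 ((r i)⁻¹ • z) / a.1 ((r i)⁻¹ • z)) atImInfty
          (𝓝 (L i)⁻¹) := by
        have := (hlim i).inv₀ (hL i)
        simpa only [inv_div] using this
      refine (hinv.sub_const c).congr' ?_
      filter_upwards [hane i] with z hz
      have h1 : (b - c • a : mer95_O).1 ((r i)⁻¹ • z) =
          b.1 ((r i)⁻¹ • z) - c * a.1 ((r i)⁻¹ • z) := rfl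
      rw [h1]
      field_simp

/-- **Concrete (P3), `j = kleinJ`, all limits equal to `1`** (the shape of `ec77_Gchi_tendsto`):
if `ev G = a / b` and `(a / b)(s • z) → 1` as `Im z → ∞` for every `s ∈ SL(2,ℤ)`, then `G` has
order `0` at every place over `x = ∞`. -/
theorem pc36_cusp_one (ev : F →ₐ[ℂ] mer95_MER) (x : F) (hx : Transcendental ℂ x)
    [FiniteDimensional ℂ⟮x⟯ F] (jO : mer95_O) (hjO : ∀ τ : ℍ, jO.1 τ = kleinJ τ)
    (hevx : ev x = algebraMap mer95_O mer95_MER jO)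
    {ι : Type*} [Fintype ι] (r : ι → SL(2, ℤ))
    (hnorm : ∀ f : F, ev (algebraMap ℂ⟮x⟯ F (Algebra.norm ℂ⟮x⟯ f)) = ∏ i, r i • ev f)
    (G : F) (hG : G ≠ 0) (a b : mer95_O) (hb : b ≠ 0)
    (hGab : ev G = algebraMap mer95_O mer95_MER a / algebraMap mer95_O mer95_MER b)
    (hlim : ∀ s : SL(2, ℤ), Tendsto (fun z : ℍ => a.1 (s • z) / b.1 (s • z)) atImInfty (𝓝 1))
    (v : Place ℂ F) (hv : v.ord x < 0) : v.ord G = 0 := by
  have hj : Tendsto (fun τ : ℍ => ‖jO.1 τ‖) atImInfty atTop := by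
    refine wpA2_norm_kleinJ_tendsto.congr (fun τ => ?_)
    rw [hjO]
  refine pc36_cusp ev x hx jO hevx hj r hnorm G hG a b hb ?_ (fun _ => 1)
    (fun _ => one_ne_zero) (fun i => hlim (r i)⁻¹) v hv
  rw [hGab, div_mul_cancel₀ _ (mer95_algebraMap_ne_zero hb)]

end Cusp

end Fermat.Agent.S42
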