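import Mathlib
import Fermat.Prelude.Def_ModularCurve_X0
import Fermat.Prelude.Def_ModularCurve_LaurentCoeff

/-!
S42 / Project 4, row M2 (twin seat, helper79): the formal function field
`laurentBaseChange L (modularFunctionFieldFull N) = L(j(q^d) : d ∣ N) ⊆ L((q))` over an arbitrary
constant field `L ⊇ ℚ`, and its embeddings into an arbitrary field `M` over `L`:

* `ff79_JJ L d` : the formal series `j(q^d)` with coefficients in `L`;
* `ff79_eq_adjoin` : the formal function field is generated over `L` by the `ff79_JJ L d`, `d ∣ N`;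
* `ff79_emb jd hrel` : given elements `jd d` of a field `M` over `L` satisfying exactly the same
  polynomial relations over `L` as the formal series, the `L`-algebra embedding of the formal
  function field into `M` sending `ff79_JJ L d` to `jd d` (`ff79_emb_gen`);
* `ff79_ringHom_ext` : a ring hom out of the formal function field is determined by its values on
  the constants and on the `ff79_JJ L d`.

This mirrors `S24/AsmBridgeB` (which is the case `L = ℚ̄`, `M` the field of a `ModularData`), for an
arbitrary constant field and target.  Nothing analytic is used here.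
-/

set_option autoImplicit false

open ModularCurve IntermediateField

namespace Fermat.Agent.S42

section Formal

variable (L : Type*) [Field L] [Algebra ℚ L]

/-- The formal series `j(q^d)` with coefficients in `L` (and `0` for `d = 0`). -/
noncomputable def ff79_JJ (d : ℕ) : LaurentSeries L :=
  if h : d = 0 then 0 else
    haveI : NeZero d := ⟨h⟩
    coeffEmb L (qExpand ℚ d jq)

theorem ff79_JJ_of_neZero (d : ℕ) [NeZero d] : ff79_JJ L d = coeffEmb L (qExpand ℚ d jq) := by
  unfold ff79_JJ
  rw [dif_neg (NeZero.ne d)]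

/-- `ff79_JJ L d` lies in the formal function field of level `N` for `d ∣ N`. -/
theorem ff79_JJ_mem (N : ℕ) [NeZero N] (d : ℕ) (hd : d ∣ N) :
    ff79_JJ L d ∈ laurentBaseChange L (modularFunctionFieldFull N) := by
  have hd0 : d ≠ 0 := fun h => NeZero.ne N (by simpa [h] using hd)
  have : NeZero d := ⟨hd0⟩
  rw [ff79_JJ_of_neZero]
  exact coeffEmb_mem_laurentBaseChange L (jqd_mem_full N hd)

/-- The generators `ff79_JJ L d`, `d ∣ N`. -/
def ff79_gens (N : ℕ) : Set (LaurentSeries L) := Set.range (fun d : N.divisors => ff79_JJ L d.1)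

theorem ff79_coeffEmb_algebraMap (c : ℚ) :
    coeffEmb L (algebraMap ℚ (LaurentSeries ℚ) c)
      = algebraMap L (LaurentSeries L) (algebraMap ℚ L c) := by
  rw [algebraMap_laurentSeries_eq_single, algebraMap_laurentSeries_eq_single]
  exact coeffMap_single _ _ _

theorem ff79_coeffEmb_mem (N : ℕ) [NeZero N] (x : LaurentSeries ℚ)
    (hx : x ∈ modularFunctionFieldFull N) :
    coeffEmb L x ∈ IntermediateField.adjoin L (ff79_gens L N) := by
  unfold modularFunctionFieldFull at hx
  induction hx using IntermediateField.adjoin_induction with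
  | mem y hy =>
    obtain ⟨d, hne, hdvd, rfl⟩ := hy
    have := hne
    apply IntermediateField.subset_adjoin
    refine ⟨⟨d, Nat.mem_divisors.mpr ⟨hdvd, NeZero.ne N⟩⟩, ?_⟩
    exact ff79_JJ_of_neZero L d
  | algebraMap c =>
    rw [ff79_coeffEmb_algebraMap]
    exact IntermediateField.algebraMap_mem _ _
  | add x y _ _ hx hy => rw [map_add]; exact add_mem hx hy
  | inv x _ hx => rw [map_inv₀]; exact inv_mem hx
  | mul x y _ _ hx hy => rw [map_mul]; exact mul_mem hx hy

/-- The formal function field is generated over `L` by the `ff79_JJ L d`, `d ∣ N`. -/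
theorem ff79_eq_adjoin (N : ℕ) [NeZero N] :
    laurentBaseChange L (modularFunctionFieldFull N) =
      IntermediateField.adjoin L (ff79_gens L N) := by
  apply le_antisymm
  · unfold laurentBaseChange
    rw [IntermediateField.adjoin_le_iff]
    rintro y ⟨x, hx, rfl⟩
    exact ff79_coeffEmb_mem L N x hx
  · rw [IntermediateField.adjoin_le_iff]
    rintro y ⟨d, rfl⟩
    exact ff79_JJ_mem L N d.1 (Nat.dvd_of_mem_divisors d.2)

/-- Evaluation of polynomials at the formal series `ff79_JJ L d`. -/
noncomputable def ff79_phiJ (N : ℕ) : MvPolynomial N.divisors L →ₐ[L] LaurentSeries L :=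
  MvPolynomial.aeval (fun d : N.divisors => ff79_JJ L d.1)

theorem ff79_range (N : ℕ) : (ff79_phiJ L N).range = Algebra.adjoin L (ff79_gens L N) :=
  MvPolynomial.aeval_range _

end Formal

section Embedding

variable {L : Type*} [Field L] [Algebra ℚ L] {N : ℕ} {M : Type*} [Field M] [Algebra L M]
  (jd : N.divisors → M)
  (hrel : ∀ P : MvPolynomial N.divisors L,
    MvPolynomial.aeval (fun d : N.divisors => ff79_JJ L d.1) P = 0 ↔ MvPolynomial.aeval jd P = 0)

include hrel in
theorem ff79_ker_eq :
    RingHom.ker (ff79_phiJ L N) =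
      RingHom.ker (MvPolynomial.aeval jd : MvPolynomial N.divisors L →ₐ[L] M) := by
  ext P
  rw [RingHom.mem_ker, RingHom.mem_ker]
  exact hrel P

/-- The algebra map `L[JJ d] → M`, `JJ d ↦ jd d` (on the range of `ff79_phiJ`). -/
noncomputable def ff79_psiRange : (ff79_phiJ L N).range →ₐ[L] M :=
  (Ideal.Quotient.liftₐ (RingHom.ker (ff79_phiJ L N))
      (MvPolynomial.aeval jd : MvPolynomial N.divisors L →ₐ[L] M)
      (fun a ha => by rw [ff79_ker_eq jd hrel] at ha; exact ha)).comp
    ((Ideal.quotientKerEquivRange (ff79_phiJ L N)).symm : (ff79_phiJ L N).range →ₐ[L] _)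

theorem ff79_psiRange_apply (P : MvPolynomial N.divisors L) :
    ff79_psiRange jd hrel ⟨ff79_phiJ L N P, ⟨P, rfl⟩⟩ = MvPolynomial.aeval jd P := by
  have h : (Ideal.quotientKerEquivRange (ff79_phiJ L N)).symm ⟨ff79_phiJ L N P, ⟨P, rfl⟩⟩
      = Ideal.Quotient.mk _ P := by
    rw [AlgEquiv.symm_apply_eq]
    rfl
  unfold ff79_psiRange
  rw [AlgHom.comp_apply]
  erw [h]
  rfl

theorem ff79_psiRange_injective : Function.Injective (ff79_psiRange jd hrel) := by
  rw [injective_iff_map_eq_zero]
  rintro ⟨x, P, hP⟩ h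
  have hx : (⟨x, P, hP⟩ : (ff79_phiJ L N).range) = ⟨ff79_phiJ L N P, ⟨P, rfl⟩⟩ :=
    Subtype.ext hP.symm
  rw [hx, ff79_psiRange_apply] at h
  have hP' : P ∈ RingHom.ker (ff79_phiJ L N) := by
    rw [ff79_ker_eq jd hrel]; exact h
  rw [hx]
  exact Subtype.ext hP'

/-- The algebra map `L[JJ d : d ∣ N] → M`, `JJ d ↦ jd d`. -/
noncomputable def ff79_psi : Algebra.adjoin L (ff79_gens L N) →ₐ[L] M :=
  (ff79_psiRange jd hrel).comp
    (Subalgebra.equivOfEq (Algebra.adjoin L (ff79_gens L N)) (ff79_phiJ L N).range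
      (ff79_range L N).symm).toAlgHom

theorem ff79_psi_injective : Function.Injective (ff79_psi jd hrel) := by
  unfold ff79_psi
  exact (ff79_psiRange_injective jd hrel).comp
    (Subalgebra.equivOfEq (Algebra.adjoin L (ff79_gens L N)) (ff79_phiJ L N).range
      (ff79_range L N).symm).injective

theorem ff79_psi_gen (d : N.divisors) :
    ff79_psi jd hrel ⟨ff79_JJ L d.1, Algebra.subset_adjoin ⟨d, rfl⟩⟩ = jd d := by
  have h1 : ff79_phiJ L N (MvPolynomial.X d) = ff79_JJ L d.1 := by
    unfold ff79_phiJ
    exact MvPolynomial.aeval_X _ _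
  have h2 : (MvPolynomial.aeval jd : MvPolynomial N.divisors L →ₐ[L] M) (MvPolynomial.X d)
      = jd d := MvPolynomial.aeval_X _ _
  have h3 : (Subalgebra.equivOfEq (Algebra.adjoin L (ff79_gens L N)) (ff79_phiJ L N).range
      (ff79_range L N).symm
      (⟨ff79_JJ L d.1, Algebra.subset_adjoin ⟨d, rfl⟩⟩ : Algebra.adjoin L (ff79_gens L N)))
      = ⟨ff79_phiJ L N (MvPolynomial.X d), ⟨MvPolynomial.X d, rfl⟩⟩ :=
    Subtype.ext h1.symm
  show ff79_psiRange jd hrel (Subalgebra.equivOfEq (Algebra.adjoin L (ff79_gens L N))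
      (ff79_phiJ L N).range (ff79_range L N).symm
      (⟨ff79_JJ L d.1, Algebra.subset_adjoin ⟨d, rfl⟩⟩ : Algebra.adjoin L (ff79_gens L N))) = jd d
  rw [h3, ff79_psiRange_apply, h2]

open IntermediateField.algebraAdjoinAdjoin in
/-- The embedding of the fraction field `L(JJ d : d ∣ N)` into `M`. -/
noncomputable def ff79_iota' : ↥(IntermediateField.adjoin L (ff79_gens L N)) →ₐ[L] M :=
  IsFractionRing.liftAlgHom (ff79_psi_injective jd hrel)

open IntermediateField.algebraAdjoinAdjoin in
theorem ff79_iota'_gen (d : N.divisors) :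
    ff79_iota' jd hrel ⟨ff79_JJ L d.1, IntermediateField.subset_adjoin L _ ⟨d, rfl⟩⟩ = jd d := by
  have h : (⟨ff79_JJ L d.1, IntermediateField.subset_adjoin L _ ⟨d, rfl⟩⟩ :
      ↥(IntermediateField.adjoin L (ff79_gens L N)))
      = algebraMap (Algebra.adjoin L (ff79_gens L N)) _
          ⟨ff79_JJ L d.1, Algebra.subset_adjoin ⟨d, rfl⟩⟩ := rfl
  rw [h]
  unfold ff79_iota'
  rw [IsFractionRing.liftAlgHom_apply, IsFractionRing.lift_algebraMap]
  exact ff79_psi_gen jd hrel d

variable [NeZero N]

/-- **The embedding of the formal function field of level `N` over `L` into `M`** attached to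
elements `jd d` with the same polynomial relations as the formal `j(q^d)`. -/
noncomputable def ff79_emb :
    ↥(laurentBaseChange L (modularFunctionFieldFull N)) →ₐ[L] M :=
  (ff79_iota' jd hrel).comp (IntermediateField.equivOfEq (ff79_eq_adjoin L N)).toAlgHom

theorem ff79_emb_gen (d : N.divisors) :
    ff79_emb jd hrel ⟨ff79_JJ L d.1, ff79_JJ_mem L N d.1 (Nat.dvd_of_mem_divisors d.2)⟩ = jd d :=
  ff79_iota'_gen jd hrel d

theorem ff79_emb_injective : Function.Injective (ff79_emb jd hrel) :=
  (ff79_emb jd hrel).toRingHom.injective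

end Embedding

section Uniqueness

variable {L : Type*} [Field L] [Algebra ℚ L] {N : ℕ} [NeZero N] {M : Type*} [Field M]

/-- A ring hom out of the formal function field is determined by its values on the constants and
on the generators `ff79_JJ L d`, `d ∣ N`. -/
theorem ff79_ringHom_ext (f g : ↥(laurentBaseChange L (modularFunctionFieldFull N)) →+* M)
    (hc : ∀ c : L, f (algebraMap L _ c) = g (algebraMap L _ c))
    (hJ : ∀ d : N.divisors,
      f ⟨ff79_JJ L d.1, ff79_JJ_mem L N d.1 (Nat.dvd_of_mem_divisors d.2)⟩ =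
        g ⟨ff79_JJ L d.1, ff79_JJ_mem L N d.1 (Nat.dvd_of_mem_divisors d.2)⟩) : f = g := by
  have key : ∀ (x : LaurentSeries L) (hx : x ∈ IntermediateField.adjoin L (ff79_gens L N))
      (hx' : x ∈ laurentBaseChange L (modularFunctionFieldFull N)), f ⟨x, hx'⟩ = g ⟨x, hx'⟩ := by
    intro x hx
    induction hx using IntermediateField.adjoin_induction with
    | mem y hy =>
      obtain ⟨d, rfl⟩ := hy
      intro _
      exact hJ d
    | algebraMap c =>
      intro _
      exact hc c
    | add x y hx hy ihx ihy =>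
      intro _
      have hx' : x ∈ laurentBaseChange L (modularFunctionFieldFull N) := by
        rw [ff79_eq_adjoin]; exact hx
      have hy' : y ∈ laurentBaseChange L (modularFunctionFieldFull N) := by
        rw [ff79_eq_adjoin]; exact hy
      have h : (⟨x + y, ‹_›⟩ : ↥(laurentBaseChange L (modularFunctionFieldFull N)))
          = ⟨x, hx'⟩ + ⟨y, hy'⟩ := rfl
      rw [h, map_add, map_add, ihx hx', ihy hy']
    | inv x hx ihx =>
      intro _
      have hx' : x ∈ laurentBaseChange L (modularFunctionFieldFull N) := by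
        rw [ff79_eq_adjoin]; exact hx
      have h : (⟨x⁻¹, ‹_›⟩ : ↥(laurentBaseChange L (modularFunctionFieldFull N)))
          = (⟨x, hx'⟩ : ↥(laurentBaseChange L (modularFunctionFieldFull N)))⁻¹ := rfl
      rw [h, map_inv₀, map_inv₀, ihx hx']
    | mul x y hx hy ihx ihy =>
      intro _
      have hx' : x ∈ laurentBaseChange L (modularFunctionFieldFull N) := by
        rw [ff79_eq_adjoin]; exact hx
      have hy' : y ∈ laurentBaseChange L (modularFunctionFieldFull N) := by
        rw [ff79_eq_adjoin]; exact hy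
      have h : (⟨x * y, ‹_›⟩ : ↥(laurentBaseChange L (modularFunctionFieldFull N)))
          = ⟨x, hx'⟩ * ⟨y, hy'⟩ := rfl
      rw [h, map_mul, map_mul, ihx hx', ihy hy']
  ext ⟨x, hx⟩
  exact key x (by rw [← ff79_eq_adjoin]; exact hx) hx

/-- Algebra-hom form of `ff79_ringHom_ext`. -/
theorem ff79_algHom_ext [Algebra L M]
    (f g : ↥(laurentBaseChange L (modularFunctionFieldFull N)) →ₐ[L] M)
    (hJ : ∀ d : N.divisors,
      f ⟨ff79_JJ L d.1, ff79_JJ_mem L N d.1 (Nat.dvd_of_mem_divisors d.2)⟩ =
        g ⟨ff79_JJ L d.1, ff79_JJ_mem L N d.1 (Nat.dvd_of_mem_divisors d.2)⟩) : f = g := by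
  have h : (f : ↥(laurentBaseChange L (modularFunctionFieldFull N)) →+* M) = g :=
    ff79_ringHom_ext _ _ (fun c => by simp) hJ
  exact AlgHom.coe_ringHom_injective h

end Uniqueness

end Fermat.Agent.S42
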