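import Fermat.Agent.S24.Infinity
import Fermat.Agent.S24.ModIntegral
import Fermat.Agent.S42.FunFieldGen79

/-!
S42 / Project 4, row M2 (twin seat, helper79): polynomial relations with COMPLEX coefficients.

S24 (`wpA4_rel_iff`) compares the relations over `ℚ̄` among the formal series `j(q^d)` and among
the analytic functions `τ ↦ j(dτ)` (`genFn 1 d`).  Here the same with coefficients in `ℂ`:

* `ff79_genFn_hasWExp` : `j(dτ)` has the expansion `qExpand ℂ N (ff79_JJ ℂ d)` in `e^{2πiτ/N}`;
* `ff79_hasWExp` : so does every polynomial over `ℂ` in the `j(dτ)`, `d ∣ N`;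
* `ff79_rel_iff` : a polynomial relation over `ℂ` holds among the formal `ff79_JJ ℂ d` iff it holds
  among the functions `genFn 1 d` on the upper half plane;
* `ff79_rel_iff_of_subalgebra` : the same relations hold in any field `M` receiving injectively a
  `ℂ`-subalgebra `O` of functions on `ℍ` containing the `genFn 1 d`;
* `ff79_ev` : the resulting embedding of `F_ℂ(N) = laurentBaseChange ℂ (modularFunctionFieldFull N)`
  into `M`, with `ff79_ev_gen : ev (j(q^d)) = ι (j(d·))`.
-/

set_option autoImplicit false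

open ModularCurve AlgebraicCurve MatrixGroups UpperHalfPlane ModularForm EisensteinSeries
open Fermat.Agent.S24

open scoped Manifold

namespace Fermat.Agent.S42

theorem ff79_coeffMap_qExpand {R S : Type*} [CommRing R] [CommRing S] (f : R →+* S) (n : ℕ)
    [NeZero n] (x : LaurentSeries R) : coeffMap f (qExpand R n x) = qExpand S n (coeffMap f x) := by
  ext k
  by_cases hk : (n : ℤ) ∣ k
  · obtain ⟨m, rfl⟩ := hk
    rw [coeffMap_coeff, qExpand_coeff_mul, qExpand_coeff_mul, coeffMap_coeff]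
  · rw [coeffMap_coeff, qExpand_coeff_of_not_dvd n _ hk, qExpand_coeff_of_not_dvd n _ hk,
      map_zero]

/-- The complex formal series `j(q^d)` is the image of the `ℚ̄`-series of S24. -/
theorem ff79_coeffMap_phi_JJ (d : ℕ) : coeffMap phi (JJ d) = ff79_JJ ℂ d := by
  by_cases h : d = 0
  · subst h
    simp [JJ, ff79_JJ]
  · have : NeZero d := ⟨h⟩
    rw [JJ_of_neZero, ff79_JJ_of_neZero, coeffEmb, coeffEmb, coeffMap_coeffMap]
    exact coeffMap_congr (RingHom.ext fun c => by simp) _

/-- `j(dτ)` has the expansion `j(w^{Nd})` with complex coefficients. -/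
theorem ff79_genFn_hasWExp (N : ℕ) [NeZero N] (d : ℕ) (hd : d ∣ N) :
    HasWExp N (genFn 1 d) (qExpand ℂ N (ff79_JJ ℂ d)) := by
  have h := wpA4_genFn_one_hasWExp N d hd
  rwa [ff79_coeffMap_qExpand, ff79_coeffMap_phi_JJ] at h

theorem ff79_hasWExp (N : ℕ) [NeZero N] (P : MvPolynomial N.divisors ℂ) :
    HasWExp N (MvPolynomial.aeval (fun d : N.divisors => genFn 1 d.1) P)
      (qExpand ℂ N (MvPolynomial.aeval (fun d : N.divisors => ff79_JJ ℂ d.1) P)) := by
  induction P using MvPolynomial.induction_on with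
  | C c =>
    rw [MvPolynomial.aeval_C, MvPolynomial.aeval_C, algebraMap_laurentSeries_eq_single,
      qExpand_single, mul_zero]
    exact hasWExp_const N c
  | add p q hp hq =>
    rw [map_add, map_add, map_add]
    exact hp.add hq
  | mul_X p i hp =>
    rw [map_mul, map_mul, map_mul, MvPolynomial.aeval_X, MvPolynomial.aeval_X]
    exact hp.mul (ff79_genFn_hasWExp N i.1 (Nat.dvd_of_mem_divisors i.2))

/-- **Relations over `ℂ`.** A polynomial relation with complex coefficients holds among the formal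
series `j(q^d)`, `d ∣ N`, iff it holds among the functions `τ ↦ j(dτ)` on the upper half plane. -/
theorem ff79_rel_iff (N : ℕ) [NeZero N] (P : MvPolynomial N.divisors ℂ) :
    MvPolynomial.aeval (fun d : N.divisors => ff79_JJ ℂ d.1) P = 0 ↔
      MvPolynomial.aeval (fun d : N.divisors => genFn 1 d.1) P = 0 := by
  have h := ff79_hasWExp N P
  rw [h.eq_zero_iff]
  constructor
  · intro h0
    rw [h0, map_zero]
  · intro h0
    apply qExpand_injective (R := ℂ) N
    rw [h0, map_zero]

/-- `j(dτ)` is holomorphic. -/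
theorem ff79_genFn_mdiff (d : ℕ) : MDiff (genFn 1 d) := wpA5_genFn_mdiff 1 d

/-- `j(dτ)` is `Γ₀(N)`-invariant for `d ∣ N`. -/
theorem ff79_genFn_invariant (N d : ℕ) (hd : d ∣ N) (g : SL(2, ℤ))
    (hg : g ∈ CongruenceSubgroup.Gamma0 N) (τ : ℍ) : genFn 1 d (g⁻¹ • τ) = genFn 1 d τ :=
  congrFun (wpA5b_actFn_genFn_one N d hd g hg) τ

/-- `j(d · ℓτ) = j(ℓd · τ)`. -/
theorem ff79_genFn_scale (d ℓ : ℕ) (hd : d ≠ 0) (hℓ : ℓ ≠ 0) (τ : ℍ) :
    genFn 1 d (scaleH ℓ τ) = genFn 1 (ℓ * d) τ := by
  simp only [genFn_apply, inv_one, one_smul]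
  congr 1
  apply UpperHalfPlane.ext
  rw [coe_scaleH d hd, coe_scaleH ℓ hℓ, coe_scaleH (ℓ * d) (Nat.mul_ne_zero hℓ hd)]
  push_cast
  ring

section Target

variable {N : ℕ} [NeZero N] (O : Subalgebra ℂ (ℍ → ℂ))
  (hO : ∀ d : ℕ, d ∣ N → genFn 1 d ∈ O)
  {M : Type*} [Field M] [Algebra ℂ M] (ι : O →ₐ[ℂ] M) (hι : Function.Injective ι)

/-- The elements `j(d·)` of the target field. -/
noncomputable def ff79_jd (d : N.divisors) : M :=
  ι ⟨genFn 1 d.1, hO d.1 (Nat.dvd_of_mem_divisors d.2)⟩

include hι in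
/-- The relations over `ℂ` among the `j(d·)` in any field `M` receiving (injectively) a ring `O` of
functions on `ℍ` that contains them are those of the formal series. -/
theorem ff79_rel_iff_of_subalgebra (P : MvPolynomial N.divisors ℂ) :
    MvPolynomial.aeval (fun d : N.divisors => ff79_JJ ℂ d.1) P = 0 ↔
      MvPolynomial.aeval (ff79_jd O hO ι) P = 0 := by
  rw [ff79_rel_iff N P]
  have h1 : MvPolynomial.aeval (ff79_jd O hO ι) P =
      ι (MvPolynomial.aeval (fun d : N.divisors =>
        (⟨genFn 1 d.1, hO d.1 (Nat.dvd_of_mem_divisors d.2)⟩ : O)) P) := by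
    rw [MvPolynomial.comp_aeval_apply]
    rfl
  have h2 : MvPolynomial.aeval (fun d : N.divisors => genFn 1 d.1) P =
      O.val (MvPolynomial.aeval (fun d : N.divisors =>
        (⟨genFn 1 d.1, hO d.1 (Nat.dvd_of_mem_divisors d.2)⟩ : O)) P) := by
    rw [MvPolynomial.comp_aeval_apply]
    rfl
  rw [h1, h2]
  constructor
  · intro h
    have h0 : MvPolynomial.aeval (fun d : N.divisors =>
        (⟨genFn 1 d.1, hO d.1 (Nat.dvd_of_mem_divisors d.2)⟩ : O)) P = 0 :=
      Subtype.val_injective (by simpa using h)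
    rw [h0, map_zero]
  · intro h
    have h0 : MvPolynomial.aeval (fun d : N.divisors =>
        (⟨genFn 1 d.1, hO d.1 (Nat.dvd_of_mem_divisors d.2)⟩ : O)) P = 0 :=
      hι (by rw [h, map_zero])
    rw [h0, map_zero]

/-- **The embedding `ev`** of the complex function field of level `N` into a field `M` receiving a
ring `O` of functions on `ℍ` that contains the `j(d·)`, `d ∣ N`. -/
noncomputable def ff79_ev :
    ↥(laurentBaseChange ℂ (modularFunctionFieldFull N)) →ₐ[ℂ] M :=
  ff79_emb (ff79_jd O hO ι) (ff79_rel_iff_of_subalgebra O hO ι hι)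

theorem ff79_ev_gen (d : ℕ) (hd : d ∣ N) :
    ff79_ev O hO ι hι ⟨ff79_JJ ℂ d, ff79_JJ_mem ℂ N d hd⟩ = ι ⟨genFn 1 d, hO d hd⟩ :=
  ff79_emb_gen (ff79_jd O hO ι) (ff79_rel_iff_of_subalgebra O hO ι hι)
    ⟨d, Nat.mem_divisors.mpr ⟨hd, NeZero.ne N⟩⟩

theorem ff79_ev_injective : Function.Injective (ff79_ev O hO ι hι) :=
  (ff79_ev O hO ι hι).toRingHom.injective

/-- Two ring homs into a field that agree on the constants and on the `j(d·)` agree on the image
of `ev`. -/
theorem ff79_ev_comp_eq {M' : Type*} [Field M'] (φ ψ : M →+* M')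
    (hc : ∀ c : ℂ, φ (algebraMap ℂ M c) = ψ (algebraMap ℂ M c))
    (hJ : ∀ (d : ℕ) (hd : d ∣ N), φ (ι ⟨genFn 1 d, hO d hd⟩) = ψ (ι ⟨genFn 1 d, hO d hd⟩))
    (f : ↥(laurentBaseChange ℂ (modularFunctionFieldFull N))) :
    φ (ff79_ev O hO ι hι f) = ψ (ff79_ev O hO ι hι f) := by
  have h : φ.comp (ff79_ev O hO ι hι : ↥(laurentBaseChange ℂ (modularFunctionFieldFull N)) →+* M)
      = ψ.comp (ff79_ev O hO ι hι : ↥(laurentBaseChange ℂ (modularFunctionFieldFull N)) →+* M) := by
    apply ff79_ringHom_ext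
    · intro c
      simp only [RingHom.comp_apply, RingHom.coe_coe, AlgHom.commutes]
      exact hc c
    · intro d
      simp only [RingHom.comp_apply, RingHom.coe_coe]
      rw [ff79_ev_gen O hO ι hι d.1 (Nat.dvd_of_mem_divisors d.2)]
      exact hJ d.1 (Nat.dvd_of_mem_divisors d.2)
  exact congrArg (fun k => k f) h

end Target

end Fermat.Agent.S42
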