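import Fermat.Agent.S42.FunFieldGen79
import Fermat.Prelude.Def_ModularCurve_HeckeOperator

/-!
S42 / Project 4, row M2 (twin seat, helper79): compatibility of the embeddings `ff79_emb` of the
formal function fields of levels `N` and `N * ℓ` with the two degeneracy maps of the Hecke
correspondence (`heckeAlphaBar` = inclusion, `heckeBetaBar` = `q ↦ q^ℓ`).

* `ff79_qExpand_JJ` : `qExpand L ℓ (j(q^d)) = j(q^{ℓ d})`;
* `ff79_heckeAlphaBar_gen`, `ff79_heckeBetaBar_gen` : the degeneracy maps on generators;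
* `ff79_emb_alpha` : `ev_{Nℓ} (α f) = ev_N f` when the two families of elements agree;
* `ff79_emb_beta` : `ev_{Nℓ} (β f) = θ (ev_N f)` for a ring endomorphism `θ` of the target fixing
  the constants with `θ (jd d) = jd' (ℓ d)` (analytically: `θ f = f (ℓ ·)`).
-/

set_option autoImplicit false

open ModularCurve IntermediateField

namespace Fermat.Agent.S42

section Formal

variable (L : Type*) [Field L] [Algebra ℚ L]

theorem ff79_coeffEmb_qExpand (n : ℕ) [NeZero n] (x : LaurentSeries ℚ) :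
    coeffEmb L (qExpand ℚ n x) = qExpand L n (coeffEmb L x) := by
  ext k
  by_cases hk : (n : ℤ) ∣ k
  · obtain ⟨m, rfl⟩ := hk
    rw [coeffEmb_coeff, qExpand_coeff_mul, qExpand_coeff_mul, coeffEmb_coeff]
  · rw [coeffEmb_coeff, qExpand_coeff_of_not_dvd n _ hk, qExpand_coeff_of_not_dvd n _ hk,
      map_zero]

/-- `q ↦ q^ℓ` sends `j(q^d)` to `j(q^{ℓ d})`. -/
theorem ff79_qExpand_JJ (ℓ : ℕ) [NeZero ℓ] (d : ℕ) (hd : d ≠ 0) :
    qExpand L ℓ (ff79_JJ L d) = ff79_JJ L (ℓ * d) := by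
  have : NeZero d := ⟨hd⟩
  rw [ff79_JJ_of_neZero, ff79_JJ_of_neZero, ← ff79_coeffEmb_qExpand, qExpand_qExpand]

end Formal

section Levels

variable {L : Type*} [Field L] [Algebra ℚ L] {N ℓ : ℕ} [NeZero N] [NeZero ℓ]

omit [NeZero N] [NeZero ℓ] in
theorem ff79_dvd_mul {d : ℕ} (hd : d ∣ N) : d ∣ N * ℓ := Dvd.dvd.mul_right hd ℓ

omit [NeZero N] [NeZero ℓ] in
theorem ff79_mul_dvd_mul {d : ℕ} (hd : d ∣ N) : ℓ * d ∣ N * ℓ := by
  rw [mul_comm ℓ d]
  exact Nat.mul_dvd_mul_right hd ℓ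

/-- `α` (inclusion) on the generators. -/
theorem ff79_heckeAlphaBar_gen (d : ℕ) (hd : d ∣ N) :
    heckeAlphaBar L N ℓ ⟨ff79_JJ L d, ff79_JJ_mem L N d hd⟩ =
      ⟨ff79_JJ L d, ff79_JJ_mem L (N * ℓ) d (ff79_dvd_mul hd)⟩ :=
  Subtype.ext (coe_heckeAlphaBar N ℓ _)

/-- `β` (`q ↦ q^ℓ`) on the generators. -/
theorem ff79_heckeBetaBar_gen (d : ℕ) (hd : d ∣ N) :
    heckeBetaBar L N ℓ ⟨ff79_JJ L d, ff79_JJ_mem L N d hd⟩ =
      ⟨ff79_JJ L (ℓ * d), ff79_JJ_mem L (N * ℓ) (ℓ * d) (ff79_mul_dvd_mul hd)⟩ := by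
  have hd0 : d ≠ 0 := fun h => NeZero.ne N (by simpa [h] using hd)
  apply Subtype.ext
  rw [coe_heckeBetaBar]
  exact ff79_qExpand_JJ L ℓ d hd0

variable {M : Type*} [Field M] [Algebra L M]
  (jd : N.divisors → M)
  (hrel : ∀ P : MvPolynomial N.divisors L,
    MvPolynomial.aeval (fun d : N.divisors => ff79_JJ L d.1) P = 0 ↔ MvPolynomial.aeval jd P = 0)
  (jd' : (N * ℓ).divisors → M)
  (hrel' : ∀ P : MvPolynomial (N * ℓ).divisors L,
    MvPolynomial.aeval (fun d : (N * ℓ).divisors => ff79_JJ L d.1) P = 0 ↔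
      MvPolynomial.aeval jd' P = 0)

/-- **Level compatibility along `α`.** -/
theorem ff79_emb_alpha
    (hcompat : ∀ (d : N.divisors) (d' : (N * ℓ).divisors), d'.1 = d.1 → jd' d' = jd d)
    (f : ↥(laurentBaseChange L (modularFunctionFieldFull N))) :
    ff79_emb jd' hrel' (heckeAlphaBar L N ℓ f) = ff79_emb jd hrel f := by
  have h : (ff79_emb jd' hrel').comp (heckeAlphaBar L N ℓ) = ff79_emb jd hrel := by
    apply ff79_algHom_ext
    intro d
    have hd : d.1 ∣ N := Nat.dvd_of_mem_divisors d.2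
    rw [AlgHom.comp_apply, ff79_heckeAlphaBar_gen d.1 hd, ff79_emb_gen jd hrel d]
    have hmem : d.1 ∈ (N * ℓ).divisors :=
      Nat.mem_divisors.mpr ⟨ff79_dvd_mul hd, NeZero.ne (N * ℓ)⟩
    rw [← hcompat d ⟨d.1, hmem⟩ rfl]
    exact ff79_emb_gen jd' hrel' ⟨d.1, hmem⟩
  exact congrArg (fun k => k f) h

/-- **Level compatibility along `β`.** -/
theorem ff79_emb_beta (θ : M →+* M) (hθc : ∀ c : L, θ (algebraMap L M c) = algebraMap L M c)
    (hθ : ∀ (d : N.divisors) (d' : (N * ℓ).divisors), d'.1 = ℓ * d.1 → θ (jd d) = jd' d')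
    (f : ↥(laurentBaseChange L (modularFunctionFieldFull N))) :
    ff79_emb jd' hrel' (heckeBetaBar L N ℓ f) = θ (ff79_emb jd hrel f) := by
  have h : ((ff79_emb jd' hrel' :
        ↥(laurentBaseChange L (modularFunctionFieldFull (N * ℓ))) →+* M)).comp
        (heckeBetaBar L N ℓ : ↥(laurentBaseChange L (modularFunctionFieldFull N)) →+*
          ↥(laurentBaseChange L (modularFunctionFieldFull (N * ℓ))))
      = θ.comp (ff79_emb jd hrel : ↥(laurentBaseChange L (modularFunctionFieldFull N)) →+* M) := by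
    apply ff79_ringHom_ext
    · intro c
      simp only [RingHom.comp_apply, RingHom.coe_coe, AlgHom.commutes]
      exact (hθc c).symm
    · intro d
      have hd : d.1 ∣ N := Nat.dvd_of_mem_divisors d.2
      simp only [RingHom.comp_apply, RingHom.coe_coe]
      rw [ff79_heckeBetaBar_gen d.1 hd, ff79_emb_gen jd hrel d]
      have hmem : ℓ * d.1 ∈ (N * ℓ).divisors :=
        Nat.mem_divisors.mpr ⟨ff79_mul_dvd_mul hd, NeZero.ne (N * ℓ)⟩
      rw [hθ d ⟨ℓ * d.1, hmem⟩ rfl]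
      exact ff79_emb_gen jd' hrel' ⟨ℓ * d.1, hmem⟩
  exact congrArg (fun k => k f) h

end Levels

end Fermat.Agent.S42
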