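import Fermat.Agent.S42.Mer95
import Fermat.Agent.S42.FunFieldC79
import Fermat.Agent.S42.FunFieldLvl79

/-!
S42 / Project 4, row M2 (twin seat, helper79): THE EMBEDDING `ev` INTO `mer95_MER`.

`ff79_evMer N : F_ℂ(N) →ₐ[ℂ] mer95_MER`, where `F_ℂ(N) = laurentBaseChange ℂ
(modularFunctionFieldFull N)` is the complex function field of `X₀(N)` (as a field of Laurent
series in `q`) and `mer95_MER` is the field of meromorphic functions on the upper half plane
(M0, `Mer95`).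

* `ff79_evMer_gen` : `ev (j(q^d)) = j(d·)` (as the element `ff79_jO d` of `mer95_O`), `d ∣ N`;
* `ff79_evMer_one` : `ev (j(q)) = j`;
* `ff79_evMer_injective`;
* `ff79_evMer_smul` : the image is fixed by `Γ₀(N)`;
* `ff79_evMer_alpha` : `ev_{Nℓ} (α f) = ev_N f` (`α = heckeAlphaBar`, the inclusion);
* `ff79_evMer_beta` : `ev_{Nℓ} (β f) = (diag(ℓ,1))⁻¹ • ev_N f`, i.e. `τ ↦ (ev_N f)(ℓτ)`
  (`β = heckeBetaBar`, `q ↦ q^ℓ`);
* `ff79_evMer_unique` : any `ℂ`-algebra hom `F_ℂ(N) → mer95_MER` with the same values on the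
  generators is `ff79_evMer N`.
-/

set_option autoImplicit false

open ModularCurve AlgebraicCurve MatrixGroups UpperHalfPlane ModularForm EisensteinSeries
open Fermat.Agent.S24

open scoped Manifold

namespace Fermat.Agent.S42

/-- The function `τ ↦ j(dτ)` as an element of the ring of holomorphic functions. -/
noncomputable def ff79_jO (d : ℕ) : mer95_O := mer95_mk (genFn 1 d) (ff79_genFn_mdiff d)

theorem ff79_jO_apply (d : ℕ) (τ : ℍ) : (ff79_jO d).1 τ = kleinJ (scaleH d τ) := by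
  show genFn 1 d τ = _
  simp [genFn_apply]

/-- `mer95_O → mer95_MER` as a `ℂ`-algebra hom. -/
noncomputable def ff79_incl : mer95_O →ₐ[ℂ] mer95_MER :=
  IsScalarTower.toAlgHom ℂ mer95_O mer95_MER

theorem ff79_incl_apply (f : mer95_O) : ff79_incl f = algebraMap mer95_O mer95_MER f := rfl

theorem ff79_incl_injective : Function.Injective ff79_incl := mer95_algebraMap_injective

theorem ff79_genFn_mem_O (N : ℕ) (d : ℕ) (_hd : d ∣ N) : genFn 1 d ∈ mer95_O :=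
  ff79_genFn_mdiff d

/-- **`ev`**: the complex function field of level `N` inside the meromorphic functions on `ℍ`. -/
noncomputable def ff79_evMer (N : ℕ) [NeZero N] :
    ↥(laurentBaseChange ℂ (modularFunctionFieldFull N)) →ₐ[ℂ] mer95_MER :=
  ff79_ev mer95_O (ff79_genFn_mem_O N) ff79_incl ff79_incl_injective

theorem ff79_evMer_gen (N : ℕ) [NeZero N] (d : ℕ) (hd : d ∣ N) :
    ff79_evMer N ⟨ff79_JJ ℂ d, ff79_JJ_mem ℂ N d hd⟩ =
      algebraMap mer95_O mer95_MER (ff79_jO d) :=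
  ff79_ev_gen mer95_O (ff79_genFn_mem_O N) ff79_incl ff79_incl_injective d hd

theorem ff79_evMer_injective (N : ℕ) [NeZero N] : Function.Injective (ff79_evMer N) :=
  (ff79_evMer N).toRingHom.injective

theorem ff79_evMer_C (N : ℕ) [NeZero N] (c : ℂ) :
    ff79_evMer N (algebraMap ℂ _ c) = algebraMap ℂ mer95_MER c :=
  (ff79_evMer N).commutes c

/-- Uniqueness of `ev`. -/
theorem ff79_evMer_unique (N : ℕ) [NeZero N]
    (e : ↥(laurentBaseChange ℂ (modularFunctionFieldFull N)) →ₐ[ℂ] mer95_MER)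
    (he : ∀ (d : ℕ) (hd : d ∣ N), e ⟨ff79_JJ ℂ d, ff79_JJ_mem ℂ N d hd⟩ =
      algebraMap mer95_O mer95_MER (ff79_jO d)) : e = ff79_evMer N := by
  apply ff79_algHom_ext
  intro d
  rw [he d.1 (Nat.dvd_of_mem_divisors d.2), ff79_evMer_gen N d.1 (Nat.dvd_of_mem_divisors d.2)]

/-! ### `Γ₀(N)`-invariance -/

theorem ff79_smul_jO (N : ℕ) (d : ℕ) (hd : d ∣ N) (g : SL(2, ℤ))
    (hg : g ∈ CongruenceSubgroup.Gamma0 N) : g • ff79_jO d = ff79_jO d := by
  apply Subtype.ext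
  funext τ
  rw [mer95_smul_apply_SL]
  exact ff79_genFn_invariant N d hd g hg τ

/-- The image of `ev` is fixed by `Γ₀(N)`. -/
theorem ff79_evMer_smul (N : ℕ) [NeZero N] (g : SL(2, ℤ))
    (hg : g ∈ CongruenceSubgroup.Gamma0 N)
    (f : ↥(laurentBaseChange ℂ (modularFunctionFieldFull N))) :
    g • ff79_evMer N f = ff79_evMer N f := by
  have h := ff79_ev_comp_eq mer95_O (ff79_genFn_mem_O N) ff79_incl ff79_incl_injective
    (MulSemiringAction.toRingHom SL(2, ℤ) mer95_MER g) (RingHom.id mer95_MER)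
    (fun c => mer95_smul_C_SL g c)
    (fun d hd => by
      show g • algebraMap mer95_O mer95_MER (ff79_jO d) = algebraMap mer95_O mer95_MER (ff79_jO d)
      rw [mer95_smul_algebraMap_SL, ff79_smul_jO N d hd g hg]) f
  exact h

/-! ### Levels -/

/-- The family of elements of `mer95_MER` used to define `ff79_evMer N`. -/
theorem ff79_jd_mer (N : ℕ) [NeZero N] (d : N.divisors) :
    ff79_jd mer95_O (ff79_genFn_mem_O N) ff79_incl d =
      algebraMap mer95_O mer95_MER (ff79_jO d.1) := rfl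

theorem ff79_evMer_alpha (N ℓ : ℕ) [NeZero N] [NeZero ℓ]
    (f : ↥(laurentBaseChange ℂ (modularFunctionFieldFull N))) :
    ff79_evMer (N * ℓ) (heckeAlphaBar ℂ N ℓ f) = ff79_evMer N f :=
  ff79_emb_alpha (ff79_jd mer95_O (ff79_genFn_mem_O N) ff79_incl)
    (ff79_rel_iff_of_subalgebra mer95_O (ff79_genFn_mem_O N) ff79_incl ff79_incl_injective)
    (ff79_jd mer95_O (ff79_genFn_mem_O (N * ℓ)) ff79_incl)
    (ff79_rel_iff_of_subalgebra mer95_O (ff79_genFn_mem_O (N * ℓ)) ff79_incl ff79_incl_injective)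
    (fun d d' h => by rw [ff79_jd_mer, ff79_jd_mer, h]) f

/-- The matrix `diag(ℓ, 1)` as an element of `GL(2, ℝ)⁺`. -/
noncomputable def ff79_diag (ℓ : ℕ) [NeZero ℓ] : GL(2, ℝ)⁺ :=
  mer95_gl !![(ℓ : ℤ), 0; 0, 1] (by
    rw [Matrix.det_fin_two_of]
    have : 0 < (ℓ : ℤ) := by exact_mod_cast Nat.pos_of_ne_zero (NeZero.ne ℓ)
    simpa using this)

theorem ff79_diag_smul (ℓ : ℕ) [NeZero ℓ] (τ : ℍ) : ff79_diag ℓ • τ = scaleH ℓ τ := by
  apply UpperHalfPlane.ext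
  rw [coe_scaleH ℓ (NeZero.ne ℓ)]
  unfold ff79_diag
  rw [mer95_gl_smul_coe]
  simp

/-- `(diag(ℓ,1))⁻¹ • j(d·) = j(ℓd·)`. -/
theorem ff79_diag_inv_smul_jO (ℓ : ℕ) [NeZero ℓ] (d : ℕ) (hd : d ≠ 0) :
    (ff79_diag ℓ)⁻¹ • ff79_jO d = ff79_jO (ℓ * d) := by
  apply Subtype.ext
  funext τ
  rw [mer95_smul_apply, inv_inv, ff79_diag_smul]
  exact ff79_genFn_scale d ℓ hd (NeZero.ne ℓ) τ

/-- `ev_{Nℓ} (β f) = (diag(ℓ,1))⁻¹ • ev_N f`: the degeneracy map `q ↦ q^ℓ` is `τ ↦ ℓτ`. -/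
theorem ff79_evMer_beta (N ℓ : ℕ) [NeZero N] [NeZero ℓ]
    (f : ↥(laurentBaseChange ℂ (modularFunctionFieldFull N))) :
    ff79_evMer (N * ℓ) (heckeBetaBar ℂ N ℓ f) = (ff79_diag ℓ)⁻¹ • ff79_evMer N f :=
  ff79_emb_beta (ff79_jd mer95_O (ff79_genFn_mem_O N) ff79_incl)
    (ff79_rel_iff_of_subalgebra mer95_O (ff79_genFn_mem_O N) ff79_incl ff79_incl_injective)
    (ff79_jd mer95_O (ff79_genFn_mem_O (N * ℓ)) ff79_incl)
    (ff79_rel_iff_of_subalgebra mer95_O (ff79_genFn_mem_O (N * ℓ)) ff79_incl ff79_incl_injective)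
    (MulSemiringAction.toRingHom GL(2, ℝ)⁺ mer95_MER (ff79_diag ℓ)⁻¹)
    (fun c => mer95_smul_C _ c)
    (fun d d' h => by
      have hd0 : d.1 ≠ 0 := fun h0 => by
        have := Nat.pos_of_mem_divisors d.2
        omega
      rw [ff79_jd_mer, ff79_jd_mer, h, ← ff79_diag_inv_smul_jO ℓ d.1 hd0, ← mer95_smul_algebraMap]
      rfl) f

theorem ff79_jO_one : ff79_jO 1 = mer95_mk kleinJ wpA5_kleinJ_mdiff := by
  apply Subtype.ext
  funext τ
  rw [ff79_jO_apply]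
  show kleinJ (scaleH 1 τ) = kleinJ τ
  congr 1
  apply UpperHalfPlane.ext
  rw [coe_scaleH 1 one_ne_zero]
  simp

/-- `ev (j(q)) = j`. -/
theorem ff79_evMer_one (N : ℕ) [NeZero N] :
    ff79_evMer N ⟨ff79_JJ ℂ 1, ff79_JJ_mem ℂ N 1 (one_dvd N)⟩ =
      algebraMap mer95_O mer95_MER (mer95_mk kleinJ wpA5_kleinJ_mdiff) := by
  rw [ff79_evMer_gen N 1 (one_dvd N), ff79_jO_one]

end Fermat.Agent.S42
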