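/-
# S42, M3-abs (helper6): the abstract Galois core (K2 + K3)

A field `M` (think: meromorphic functions on the upper half plane), a group `G` acting on `M` by
ring automorphisms through `ρ : G →* (M ≃+* M)`, a subgroup `Γ` with a finite system of left coset
representatives `r : ι → G`, a field `K` with `Algebra K M` fixed by all of `G`, an intermediate
field `L` fixed by `Γ` with `[L : K] ≥ [G : Γ]`, and the "level one" hypothesis

  (L1)  `x` fixed by `G` and algebraic over `K`  ⟹  `x ∈ K`.

Then: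
* `gc6_mem` (K2): every `Γ`-invariant `x` algebraic over `K` lies in `L`;
* `gc6_finrank` (K1'): `[L : K] = [G : Γ]`;
* `gc6_norm`, `gc6_trace` (K3): norm and trace from `L` to `K` are the product / sum of the
  conjugates `ρ (r i) y`;
* `gc6_exists_poly`: for every `Γ`-invariant `y` algebraic over `K`, the polynomial
  `∏ i, (X - C (ρ (r i) y))` has coefficients in `K`.

Mathlib only.  Nothing depends on the convention by which `G` acts.
-/
import Mathlib

set_option autoImplicit false

namespace Fermat.Agent.S42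

open Polynomial

section Core

variable {M : Type*} [Field M] {G : Type*} [Group G] (ρ : G →* (M ≃+* M)) (Γ : Subgroup G)

/-- Conjugates of a `Γ`-invariant element depend only on the left coset. -/
theorem gc6_smul_coset {y : M} (hy : ∀ g ∈ Γ, ρ g y = y) {a b : G} (hab : a⁻¹ * b ∈ Γ) :
    ρ b y = ρ a y := by
  have h : b = a * (a⁻¹ * b) := by group
  rw [h, map_mul, RingAut.mul_apply, hy _ hab]

/-- The coset polynomial `∏ i, (X - C (ρ (r i) y))`. -/
noncomputable def gc6_poly {ι : Type*} [Fintype ι] (r : ι → G) (y : M) : M[X] :=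
  ∏ i, (X - C (ρ (r i) y))

theorem gc6_poly_monic {ι : Type*} [Fintype ι] (r : ι → G) (y : M) : (gc6_poly ρ r y).Monic :=
  monic_prod_of_monic _ _ fun _ _ => monic_X_sub_C _

theorem gc6_poly_natDegree {ι : Type*} [Fintype ι] (r : ι → G) (y : M) :
    (gc6_poly ρ r y).natDegree = Fintype.card ι := by
  unfold gc6_poly
  rw [natDegree_prod_of_monic _ _ fun i _ => monic_X_sub_C _]
  simp

variable {ι : Type*} [Fintype ι] {r : ι → G}

/-- `G` permutes the conjugates: the coset polynomial is `G`-invariant. -/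
theorem gc6_poly_map (hr : Function.Bijective (fun i => (r i : G ⧸ Γ))) {y : M}
    (hy : ∀ g ∈ Γ, ρ g y = y) (g : G) :
    (gc6_poly ρ r y).map ((ρ g : M ≃+* M) : M →+* M) = gc6_poly ρ r y := by
  classical
  let e : ι ≃ G ⧸ Γ := Equiv.ofBijective _ hr
  let σ : ι ≃ ι := e.trans ((MulAction.toPerm g).trans e.symm)
  have hσ : ∀ i, ρ (g * r i) y = ρ (r (σ i)) y := by
    intro i
    apply gc6_smul_coset ρ Γ hy
    rw [← QuotientGroup.eq]
    have h1 : e (σ i) = g • e i := by simp [σ]
    exact h1
  unfold gc6_poly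
  rw [Polynomial.map_prod]
  have h2 : ∀ i, ((X : M[X]) - C (ρ (r i) y)).map ((ρ g : M ≃+* M) : M →+* M)
      = X - C (ρ (r (σ i)) y) := by
    intro i
    rw [Polynomial.map_sub, Polynomial.map_X, Polynomial.map_C, ← hσ i, map_mul,
      RingAut.mul_apply]
    rfl
  rw [Finset.prod_congr rfl fun i _ => h2 i]
  exact Equiv.prod_comp σ fun i => (X : M[X]) - C (ρ (r i) y)

theorem gc6_coeff_fixed (hr : Function.Bijective (fun i => (r i : G ⧸ Γ))) {y : M}
    (hy : ∀ g ∈ Γ, ρ g y = y) (g : G) (n : ℕ) :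
    ρ g ((gc6_poly ρ r y).coeff n) = (gc6_poly ρ r y).coeff n := by
  have h := congrArg (fun p => p.coeff n) (gc6_poly_map ρ Γ hr hy g)
  simpa [Polynomial.coeff_map] using h

/-- `y` is a root of its coset polynomial. -/
theorem gc6_poly_eval_self (hr : Function.Bijective (fun i => (r i : G ⧸ Γ))) {y : M}
    (hy : ∀ g ∈ Γ, ρ g y = y) : (gc6_poly ρ r y).eval y = 0 := by
  obtain ⟨i0, hi0⟩ := hr.2 ((1 : G) : G ⧸ Γ)
  have h1 : ρ (r i0) y = y := by
    have h := gc6_smul_coset ρ Γ hy (a := r i0) (b := 1) (by rw [← QuotientGroup.eq]; exact hi0)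
    rw [map_one] at h
    exact h.symm
  unfold gc6_poly
  rw [Polynomial.eval_prod]
  exact Finset.prod_eq_zero (Finset.mem_univ i0) (by simp [h1])

end Core

section OverK

variable {M : Type*} [Field M] {G : Type*} [Group G] (ρ : G →* (M ≃+* M)) (Γ : Subgroup G)
  {K : Type*} [Field K] [Algebra K M]
  {ι : Type*} [Fintype ι] {r : ι → G}

/-- `ρ g` as a `K`-algebra homomorphism, when `G` fixes `K`. -/
noncomputable def gc6_algHom (hK : ∀ (g : G) (c : K), ρ g (algebraMap K M c) = algebraMap K M c)
    (g : G) : M →ₐ[K] M :=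
  { ((ρ g : M ≃+* M) : M →+* M) with commutes' := hK g }

@[simp] theorem gc6_algHom_apply
    (hK : ∀ (g : G) (c : K), ρ g (algebraMap K M c) = algebraMap K M c) (g : G) (x : M) :
    gc6_algHom ρ hK g x = ρ g x := rfl

theorem gc6_isAlgebraic_conj
    (hK : ∀ (g : G) (c : K), ρ g (algebraMap K M c) = algebraMap K M c) (g : G) {y : M}
    (hy : IsAlgebraic K y) : IsAlgebraic K (ρ g y) :=
  hy.algHom (gc6_algHom ρ hK g)

/-- The coefficients of the coset polynomial are algebraic over `K`. -/
theorem gc6_coeff_isAlgebraic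
    (hK : ∀ (g : G) (c : K), ρ g (algebraMap K M c) = algebraMap K M c) (r : ι → G) {y : M}
    (hy : IsAlgebraic K y) (n : ℕ) : IsAlgebraic K ((gc6_poly ρ r y).coeff n) := by
  classical
  let A : IntermediateField K M := algebraicClosure K M
  have hmem : ∀ i, ρ (r i) y ∈ A := fun i =>
    (mem_algebraicClosure_iff).2 (gc6_isAlgebraic_conj ρ hK (r i) hy)
  let Q : A[X] := ∏ i, (X - C (⟨ρ (r i) y, hmem i⟩ : A))
  have hQ : Q.map (algebraMap A M) = gc6_poly ρ r y := by
    unfold gc6_poly
    rw [Polynomial.map_prod]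
    refine Finset.prod_congr rfl fun i _ => ?_
    rw [Polynomial.map_sub, Polynomial.map_X, Polynomial.map_C]
    rfl
  rw [← hQ, Polynomial.coeff_map]
  exact (mem_algebraicClosure_iff).1 (Q.coeff n).2

/-- **Coefficients in `K`**: for a `Γ`-invariant `y` algebraic over `K`, the coset polynomial
`∏ i, (X - C (ρ (r i) y))` comes from a monic polynomial over `K` of degree `card ι`, and `y`
is a root of it. -/
theorem gc6_exists_poly
    (hK : ∀ (g : G) (c : K), ρ g (algebraMap K M c) = algebraMap K M c)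
    (hL1 : ∀ x : M, (∀ g : G, ρ g x = x) → IsAlgebraic K x → ∃ c : K, algebraMap K M c = x)
    (hr : Function.Bijective (fun i => (r i : G ⧸ Γ))) {y : M}
    (hy : ∀ g ∈ Γ, ρ g y = y) (hyalg : IsAlgebraic K y) :
    ∃ P : K[X], P.Monic ∧ P.natDegree = Fintype.card ι ∧
      P.map (algebraMap K M) = gc6_poly ρ r y ∧ Polynomial.aeval y P = 0 := by
  have hlift : gc6_poly ρ r y ∈ Polynomial.lifts (algebraMap K M) := by
    rw [Polynomial.lifts_iff_coeff_lifts]
    intro n
    obtain ⟨c, hc⟩ := hL1 _ (fun g => gc6_coeff_fixed ρ Γ hr hy g n)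
      (gc6_coeff_isAlgebraic ρ hK r hyalg n)
    exact ⟨c, hc⟩
  obtain ⟨P, hP, hdeg, hmon⟩ :=
    Polynomial.lifts_and_natDegree_eq_and_monic hlift (gc6_poly_monic ρ r y)
  refine ⟨P, hmon, by rw [hdeg, gc6_poly_natDegree], hP, ?_⟩
  rw [Polynomial.aeval_def, ← Polynomial.eval_map, hP]
  exact gc6_poly_eval_self ρ Γ hr hy

/-- The fixed field of `Γ`, as an intermediate field of `M / K`. -/
noncomputable def gc6_fixed
    (hK : ∀ (g : G) (c : K), ρ g (algebraMap K M c) = algebraMap K M c) :
    IntermediateField K M where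
  carrier := {x | ∀ g ∈ Γ, ρ g x = x}
  mul_mem' := fun {a b} ha hb g hg => by rw [map_mul, ha g hg, hb g hg]
  one_mem' := fun g _ => map_one _
  add_mem' := fun {a b} ha hb g hg => by rw [map_add, ha g hg, hb g hg]
  zero_mem' := fun g _ => map_zero _
  algebraMap_mem' := fun c g _ => hK g c
  inv_mem' := fun a ha g hg => by rw [map_inv₀, ha g hg]

theorem gc6_mem_fixed
    (hK : ∀ (g : G) (c : K), ρ g (algebraMap K M c) = algebraMap K M c) {x : M} :
    x ∈ gc6_fixed ρ Γ hK ↔ ∀ g ∈ Γ, ρ g x = x := Iff.rfl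

variable [CharZero K] (L : IntermediateField K M) [FiniteDimensional K L]

/-- Key bound: a finite intermediate field fixed by `Γ` has degree at most the number of
cosets. -/
theorem gc6_finrank_le
    (hK : ∀ (g : G) (c : K), ρ g (algebraMap K M c) = algebraMap K M c)
    (hL1 : ∀ x : M, (∀ g : G, ρ g x = x) → IsAlgebraic K x → ∃ c : K, algebraMap K M c = x)
    (hr : Function.Bijective (fun i => (r i : G ⧸ Γ)))
    (hL : ∀ g ∈ Γ, ∀ x ∈ L, ρ g x = x) :
    Module.finrank K L ≤ Fintype.card ι := by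
  obtain ⟨α, hα⟩ := Field.exists_primitive_element K L
  have hαint : IsIntegral K α := Algebra.IsIntegral.isIntegral α
  have hfix : ∀ g ∈ Γ, ρ g (α : M) = (α : M) := fun g hg => hL g hg _ α.2
  have halg : IsAlgebraic K (α : M) := by
    have h1 : IsAlgebraic K α := hαint.isAlgebraic
    exact h1.algHom L.val
  obtain ⟨P, hmon, hdeg, -, hroot⟩ := gc6_exists_poly ρ Γ hK hL1 hr hfix halg
  have hroot' : Polynomial.aeval α P = 0 := by
    apply Subtype.ext
    have h2 : ((Polynomial.aeval α P : L) : M) = Polynomial.aeval (α : M) P := by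
      have := Polynomial.aeval_algHom_apply L.val α P
      exact this.symm
    rw [h2, hroot]
    rfl
  have hdvd : minpoly K α ∣ P := minpoly.dvd K α hroot'
  have hle : (minpoly K α).natDegree ≤ P.natDegree :=
    Polynomial.natDegree_le_of_dvd hdvd hmon.ne_zero
  have hfr : Module.finrank K L = (minpoly K α).natDegree := by
    rw [← IntermediateField.adjoin.finrank hαint, hα, IntermediateField.finrank_top']
  omega

/-- **(K2)**: a `Γ`-invariant element of `M`, algebraic over `K`, lies in `L`. -/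
theorem gc6_mem
    (hK : ∀ (g : G) (c : K), ρ g (algebraMap K M c) = algebraMap K M c)
    (hL1 : ∀ x : M, (∀ g : G, ρ g x = x) → IsAlgebraic K x → ∃ c : K, algebraMap K M c = x)
    (hr : Function.Bijective (fun i => (r i : G ⧸ Γ)))
    (hL : ∀ g ∈ Γ, ∀ x ∈ L, ρ g x = x)
    (hdeg : Fintype.card ι ≤ Module.finrank K L)
    {x : M} (hx : ∀ g ∈ Γ, ρ g x = x) (hxalg : IsAlgebraic K x) : x ∈ L := by
  have : FiniteDimensional K (IntermediateField.adjoin K {x}) :=
    IntermediateField.adjoin.finiteDimensional hxalg.isIntegral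
  let L' : IntermediateField K M := L ⊔ IntermediateField.adjoin K {x}
  have : FiniteDimensional K L' := IntermediateField.finiteDimensional_sup L _
  have hLL' : L ≤ L' := le_sup_left
  have hxL' : x ∈ L' :=
    (le_sup_right : IntermediateField.adjoin K {x} ≤ L') (IntermediateField.mem_adjoin_simple_self K x)
  have hL'fix : L' ≤ gc6_fixed ρ Γ hK := by
    refine sup_le (fun z hz g hg => hL g hg z hz) ?_
    rw [IntermediateField.adjoin_simple_le_iff]
    exact hx
  have h1 : Module.finrank K L' ≤ Fintype.card ι :=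
    gc6_finrank_le ρ Γ L' hK hL1 hr (fun g hg z hz => hL'fix hz g hg)
  have heq : L = L' := IntermediateField.eq_of_le_of_finrank_le hLL' (h1.trans hdeg)
  rw [heq]
  exact hxL'

/-- **(K1')**: `[L : K]` equals the number of cosets. -/
theorem gc6_finrank
    (hK : ∀ (g : G) (c : K), ρ g (algebraMap K M c) = algebraMap K M c)
    (hL1 : ∀ x : M, (∀ g : G, ρ g x = x) → IsAlgebraic K x → ∃ c : K, algebraMap K M c = x)
    (hr : Function.Bijective (fun i => (r i : G ⧸ Γ)))
    (hL : ∀ g ∈ Γ, ∀ x ∈ L, ρ g x = x)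
    (hdeg : Fintype.card ι ≤ Module.finrank K L) :
    Module.finrank K L = Fintype.card ι :=
  le_antisymm (gc6_finrank_le ρ Γ L hK hL1 hr hL) hdeg

/-- The conjugates of a primitive element are pairwise distinct: `i ↦ ρ (r i) θ` is injective
as soon as `K⟮θ⟯ = L`. -/
theorem gc6_conj_injective
    (hK : ∀ (g : G) (c : K), ρ g (algebraMap K M c) = algebraMap K M c)
    (hL1 : ∀ x : M, (∀ g : G, ρ g x = x) → IsAlgebraic K x → ∃ c : K, algebraMap K M c = x)
    (hr : Function.Bijective (fun i => (r i : G ⧸ Γ)))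
    (hL : ∀ g ∈ Γ, ∀ x ∈ L, ρ g x = x)
    (hdeg : Fintype.card ι ≤ Module.finrank K L)
    {θ : L} (hθ : IntermediateField.adjoin K {θ} = ⊤) :
    Function.Injective (fun i => ρ (r i) (θ : M)) := by
  have hθint : IsIntegral K θ := Algebra.IsIntegral.isIntegral θ
  have hfix : ∀ g ∈ Γ, ρ g (θ : M) = (θ : M) := fun g hg => hL g hg _ θ.2
  have halg : IsAlgebraic K (θ : M) := (hθint.isAlgebraic).algHom L.val
  obtain ⟨P, hmon, hPdeg, hPmap, hroot⟩ := gc6_exists_poly ρ Γ hK hL1 hr hfix halg
  have hroot' : Polynomial.aeval θ P = 0 := by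
    apply Subtype.ext
    have h2 : ((Polynomial.aeval θ P : L) : M) = Polynomial.aeval (θ : M) P :=
      (Polynomial.aeval_algHom_apply L.val θ P).symm
    rw [h2, hroot]
    rfl
  have hdvd : minpoly K θ ∣ P := minpoly.dvd K θ hroot'
  have hfr : Module.finrank K L = (minpoly K θ).natDegree := by
    rw [← IntermediateField.adjoin.finrank hθint, hθ, IntermediateField.finrank_top']
  have hdegeq : P.natDegree = (minpoly K θ).natDegree := by
    have h1 := Polynomial.natDegree_le_of_dvd hdvd hmon.ne_zero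
    omega
  have hPeq : P = minpoly K θ :=
    Polynomial.eq_of_monic_of_dvd_of_natDegree_le (minpoly.monic hθint) hmon hdvd
      hdegeq.le
  have hsep : P.Separable := by
    rw [hPeq]
    exact Algebra.IsSeparable.isSeparable K θ
  have hsep' : (gc6_poly ρ r (θ : M)).Separable := by
    rw [← hPmap]
    exact hsep.map
  exact Polynomial.separable_prod_X_sub_C_iff.1 hsep'

/-- The `K`-embedding of `L` into the algebraic closure of `M` attached to a group element. -/
noncomputable def gc6_emb
    (hK : ∀ (g : G) (c : K), ρ g (algebraMap K M c) = algebraMap K M c) (g : G) :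
    L →ₐ[K] AlgebraicClosure M :=
  ((IsScalarTower.toAlgHom K M (AlgebraicClosure M)).comp (gc6_algHom ρ hK g)).comp L.val

omit [CharZero K] [FiniteDimensional K L] in
theorem gc6_emb_apply
    (hK : ∀ (g : G) (c : K), ρ g (algebraMap K M c) = algebraMap K M c) (g : G) (y : L) :
    gc6_emb ρ L hK g y = algebraMap M (AlgebraicClosure M) (ρ g (y : M)) := rfl

/-- The embeddings attached to a system of coset representatives are exactly all
`K`-embeddings of `L` into the algebraic closure of `M`. -/
theorem gc6_emb_bijective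
    (hK : ∀ (g : G) (c : K), ρ g (algebraMap K M c) = algebraMap K M c)
    (hL1 : ∀ x : M, (∀ g : G, ρ g x = x) → IsAlgebraic K x → ∃ c : K, algebraMap K M c = x)
    (hr : Function.Bijective (fun i => (r i : G ⧸ Γ)))
    (hL : ∀ g ∈ Γ, ∀ x ∈ L, ρ g x = x)
    (hdeg : Fintype.card ι ≤ Module.finrank K L) :
    Function.Bijective (fun i => gc6_emb ρ L hK (r i)) := by
  obtain ⟨θ, hθ⟩ := Field.exists_primitive_element K L
  have hinj : Function.Injective (fun i => gc6_emb ρ L hK (r i)) := by
    intro i j hij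
    apply gc6_conj_injective ρ Γ L hK hL1 hr hL hdeg hθ
    have h := congrArg (fun f : L →ₐ[K] AlgebraicClosure M => f θ) hij
    simp only [gc6_emb_apply] at h
    exact (algebraMap M (AlgebraicClosure M)).injective h
  rw [Fintype.bijective_iff_injective_and_card]
  refine ⟨hinj, ?_⟩
  rw [AlgHom.card, gc6_finrank ρ Γ L hK hL1 hr hL hdeg]

/-- **(K3), norm**: the norm from `L` to `K` is the product of the conjugates. -/
theorem gc6_norm
    (hK : ∀ (g : G) (c : K), ρ g (algebraMap K M c) = algebraMap K M c)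
    (hL1 : ∀ x : M, (∀ g : G, ρ g x = x) → IsAlgebraic K x → ∃ c : K, algebraMap K M c = x)
    (hr : Function.Bijective (fun i => (r i : G ⧸ Γ)))
    (hL : ∀ g ∈ Γ, ∀ x ∈ L, ρ g x = x)
    (hdeg : Fintype.card ι ≤ Module.finrank K L) (y : L) :
    algebraMap K M (Algebra.norm K y) = ∏ i, ρ (r i) (y : M) := by
  have hbij := gc6_emb_bijective ρ Γ L hK hL1 hr hL hdeg
  have h1 := Algebra.norm_eq_prod_embeddings K (AlgebraicClosure M) y
  have h2 : ∏ σ : L →ₐ[K] AlgebraicClosure M, σ y
      = ∏ i, gc6_emb ρ L hK (r i) y :=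
    (hbij.prod_comp fun σ : L →ₐ[K] AlgebraicClosure M => σ y).symm
  rw [h2] at h1
  simp only [gc6_emb_apply] at h1
  rw [← map_prod, IsScalarTower.algebraMap_apply K M (AlgebraicClosure M)] at h1
  exact (algebraMap M (AlgebraicClosure M)).injective h1

/-- **(K3), trace**: the trace from `L` to `K` is the sum of the conjugates. -/
theorem gc6_trace
    (hK : ∀ (g : G) (c : K), ρ g (algebraMap K M c) = algebraMap K M c)
    (hL1 : ∀ x : M, (∀ g : G, ρ g x = x) → IsAlgebraic K x → ∃ c : K, algebraMap K M c = x)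
    (hr : Function.Bijective (fun i => (r i : G ⧸ Γ)))
    (hL : ∀ g ∈ Γ, ∀ x ∈ L, ρ g x = x)
    (hdeg : Fintype.card ι ≤ Module.finrank K L) (y : L) :
    algebraMap K M (Algebra.trace K L y) = ∑ i, ρ (r i) (y : M) := by
  have hbij := gc6_emb_bijective ρ Γ L hK hL1 hr hL hdeg
  have h1 := trace_eq_sum_embeddings (K := K) (L := L) (AlgebraicClosure M) (x := y)
  have h2 : ∑ σ : L →ₐ[K] AlgebraicClosure M, σ y
      = ∑ i, gc6_emb ρ L hK (r i) y :=
    (hbij.sum_comp fun σ : L →ₐ[K] AlgebraicClosure M => σ y).symm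
  rw [h2] at h1
  simp only [gc6_emb_apply] at h1
  rw [← map_sum, IsScalarTower.algebraMap_apply K M (AlgebraicClosure M)] at h1
  exact (algebraMap M (AlgebraicClosure M)).injective h1

/-- Tower form of (K2): a `Γ`-invariant element algebraic over `L` lies in `L`.  (This is the
hypothesis `(L1)` for the pair "`Γ` acting, base field `L`", i.e. the input of the relative
case.) -/
theorem gc6_mem_of_isAlgebraic_top
    (hK : ∀ (g : G) (c : K), ρ g (algebraMap K M c) = algebraMap K M c)
    (hL1 : ∀ x : M, (∀ g : G, ρ g x = x) → IsAlgebraic K x → ∃ c : K, algebraMap K M c = x)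
    (hr : Function.Bijective (fun i => (r i : G ⧸ Γ)))
    (hL : ∀ g ∈ Γ, ∀ x ∈ L, ρ g x = x)
    (hdeg : Fintype.card ι ≤ Module.finrank K L)
    {x : M} (hx : ∀ g ∈ Γ, ρ g x = x) (hxalg : IsAlgebraic L x) : x ∈ L :=
  gc6_mem ρ Γ L hK hL1 hr hL hdeg hx (hxalg.restrictScalars K)

/-- Conjugated form of (K2): if `x` is invariant under `δ⁻¹ Γ δ` and `ρ δ x` is algebraic over
`K`, then `ρ δ x ∈ L`. -/
theorem gc6_mem_conj
    (hK : ∀ (g : G) (c : K), ρ g (algebraMap K M c) = algebraMap K M c)
    (hL1 : ∀ x : M, (∀ g : G, ρ g x = x) → IsAlgebraic K x → ∃ c : K, algebraMap K M c = x)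
    (hr : Function.Bijective (fun i => (r i : G ⧸ Γ)))
    (hL : ∀ g ∈ Γ, ∀ x ∈ L, ρ g x = x)
    (hdeg : Fintype.card ι ≤ Module.finrank K L) (δ : G)
    {x : M} (hx : ∀ g ∈ Γ, ρ (δ⁻¹ * g * δ) x = x) (hxalg : IsAlgebraic K (ρ δ x)) :
    ρ δ x ∈ L := by
  refine gc6_mem ρ Γ L hK hL1 hr hL hdeg (fun g hg => ?_) hxalg
  have h1 : g * δ = δ * (δ⁻¹ * g * δ) := by group
  rw [← RingAut.mul_apply, ← map_mul, h1, map_mul, RingAut.mul_apply, hx g hg]

end OverK

section Degree

variable {M : Type*} [Field M] {G : Type*} [Group G] (ρ : G →* (M ≃+* M))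
  {K : Type*} [Field K] [Algebra K M]
  {ι : Type*} [Fintype ι] {r : ι → G}
  (L : IntermediateField K M) [FiniteDimensional K L]

/-- **Lower bound for the degree (a way to get `hdeg`)**: if some `θ ∈ L` has pairwise distinct
conjugates `ρ (r i) θ`, then `card ι ≤ [L : K]`.  Needs only that `G` fixes `K`. -/
theorem gc6_card_le_finrank
    (hK : ∀ (g : G) (c : K), ρ g (algebraMap K M c) = algebraMap K M c)
    (θ : L) (hinj : Function.Injective (fun i => ρ (r i) (θ : M))) :
    Fintype.card ι ≤ Module.finrank K L := by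
  classical
  have hθint : IsIntegral K θ := Algebra.IsIntegral.isIntegral θ
  set m := minpoly K θ with hm
  have hm0 : m.map (algebraMap K M) ≠ 0 :=
    (Polynomial.map_ne_zero_iff (algebraMap K M).injective).2 (minpoly.ne_zero hθint)
  have hroot0 : Polynomial.aeval (θ : M) m = 0 := by
    have h2 : ((Polynomial.aeval θ m : L) : M) = Polynomial.aeval (θ : M) m :=
      (Polynomial.aeval_algHom_apply L.val θ m).symm
    rw [← h2, hm, minpoly.aeval]
    rfl
  have hroots : ∀ i, ρ (r i) (θ : M) ∈ (m.map (algebraMap K M)).roots.toFinset := by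
    intro i
    rw [Multiset.mem_toFinset, Polynomial.mem_roots hm0, Polynomial.IsRoot, Polynomial.eval_map,
      ← Polynomial.aeval_def]
    have h3 := Polynomial.aeval_algHom_apply (gc6_algHom ρ hK (r i)) (θ : M) m
    rw [gc6_algHom_apply] at h3
    rw [h3, hroot0, map_zero]
  have h1 : Fintype.card ι ≤ (m.map (algebraMap K M)).roots.toFinset.card := by
    rw [← Finset.card_univ]
    exact Finset.card_le_card_of_injOn (fun i => ρ (r i) (θ : M)) (fun i _ => hroots i)
      (fun i _ j _ h => hinj h)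
  have h2 : (m.map (algebraMap K M)).roots.toFinset.card ≤ m.natDegree :=
    (Multiset.toFinset_card_le _).trans
      ((Polynomial.card_roots' _).trans (Polynomial.natDegree_map_le))
  have h3 : m.natDegree ≤ Module.finrank K L := by
    rw [hm, ← IntermediateField.adjoin.finrank hθint]
    exact (IntermediateField.adjoin K {θ}).toSubalgebra.toSubmodule.finrank_le
  omega

end Degree

section Out

variable {M : Type*} [Field M] {G : Type*} [Group G] (Γ : Subgroup G)

/-- `Quotient.out` is a system of left coset representatives. -/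
theorem gc6_out_bijective :
    Function.Bijective (fun q : G ⧸ Γ => ((Quotient.out q : G) : G ⧸ Γ)) := by
  have h : (fun q : G ⧸ Γ => ((Quotient.out q : G) : G ⧸ Γ)) = id := by
    funext q
    exact QuotientGroup.out_eq' q
  rw [h]
  exact Function.bijective_id

/-- The number of representatives is the index. -/
theorem gc6_card_eq_index {ι : Type*} [Fintype ι] {r : ι → G}
    (hr : Function.Bijective (fun i => (r i : G ⧸ Γ))) : Fintype.card ι = Γ.index := by
  rw [Subgroup.index, ← Nat.card_eq_fintype_card]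
  exact Nat.card_eq_of_bijective _ hr

end Out

end Fermat.Agent.S42
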