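/-
# S42, M3-ev (helper6): the Galois core in `ev`-form, over an arbitrary base

Same mathematics as `GaloisCore6.lean`, but stated for two abstract fields `F ⊆ F'`
(`[Algebra F F']`) embedded in the big field `M` by ring homomorphisms `ev : F →+* M`,
`ev' : F' →+* M` (compatible: `ev' (algebraMap F F' x) = ev x`), with a group `G` acting on `M`
through `ρ : G →* (M ≃+* M)`:

* `G` fixes `ev F` pointwise, the subgroup `Γ` fixes `ev' F'` pointwise;
* `(L1)`: a `G`-invariant element of `M` that is a root of a nonzero polynomial over `F`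
  lies in `ev F`;
* `card (reps of G ⧸ Γ) ≤ [F' : F]`.

Then (`gc6ev_mem`) every `Γ`-invariant element of `M` algebraic over `F` is `ev' w`;
(`gc6ev_norm`) `ev (Algebra.norm F w) = ∏ i, ρ (r i) (ev' w)`; and (`gc6ev_L1_sub`) the pair
`(Γ, F', ev')` satisfies `(L1)` again, so the statement can be iterated (absolute case: base
`ℂ(j)`, group `SL(2,ℤ)`; relative case: base `F(N)`, group `Γ₀(N)`, subgroup `Γ₀(Nℓ)`).
-/
import Fermat.Agent.S42.GaloisCore6

set_option autoImplicit false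
set_option linter.style.haveILetI false

namespace Fermat.Agent.S42

open Polynomial

section Ev

variable {M : Type*} [Field M] {G : Type*} [Group G] (ρ : G →* (M ≃+* M)) (Γ : Subgroup G)
  {F F' : Type*} [Field F] [Field F'] [Algebra F F']
  (ev : F →+* M) (ev' : F' →+* M)
  {ι : Type*} [Fintype ι] {r : ι → G}

/-- The image of `ev'` as an intermediate field of `M` over `F` (algebra structure through
`ev`). -/
noncomputable def gc6ev_range (hcompat : ∀ x : F, ev' (algebraMap F F' x) = ev x) :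
    @IntermediateField F M _ _ ev.toAlgebra :=
  letI : Algebra F M := ev.toAlgebra
  AlgHom.fieldRange ({ ev' with commutes' := fun x => hcompat x } : F' →ₐ[F] M)

theorem gc6ev_mem_range (hcompat : ∀ x : F, ev' (algebraMap F F' x) = ev x) {x : M} :
    x ∈ gc6ev_range ev ev' hcompat ↔ ∃ w : F', ev' w = x := by
  let _ : Algebra F M := ev.toAlgebra
  unfold gc6ev_range
  rw [AlgHom.mem_fieldRange]
  rfl

/-- The `F`-algebra isomorphism of `F'` with its image. -/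
noncomputable def gc6ev_equiv (hcompat : ∀ x : F, ev' (algebraMap F F' x) = ev x) :
    letI : Algebra F M := ev.toAlgebra
    F' ≃ₐ[F] gc6ev_range ev ev' hcompat :=
  letI : Algebra F M := ev.toAlgebra
  AlgEquiv.ofInjectiveField ({ ev' with commutes' := fun x => hcompat x } : F' →ₐ[F] M)

theorem gc6ev_equiv_coe (hcompat : ∀ x : F, ev' (algebraMap F F' x) = ev x) (w : F') :
    ((gc6ev_equiv ev ev' hcompat w : gc6ev_range ev ev' hcompat) : M) = ev' w := rfl

variable [FiniteDimensional F F'] [CharZero F]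

omit [CharZero F] in
/-- Translation of the `ev`-form hypotheses into the hypotheses of `GaloisCore6`. -/
theorem gc6ev_hyps
    (hcompat : ∀ x : F, ev' (algebraMap F F' x) = ev x)
    (hF : ∀ (g : G) (x : F), ρ g (ev x) = ev x)
    (hF' : ∀ g ∈ Γ, ∀ w : F', ρ g (ev' w) = ev' w)
    (hL1 : ∀ x : M, (∀ g : G, ρ g x = x) → (∃ P : F[X], P ≠ 0 ∧ P.eval₂ ev x = 0) →
      ∃ f : F, ev f = x)
    (hdeg : Fintype.card ι ≤ Module.finrank F F') :
    letI : Algebra F M := ev.toAlgebra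
    (∀ (g : G) (c : F), ρ g (algebraMap F M c) = algebraMap F M c) ∧
    (∀ x : M, (∀ g : G, ρ g x = x) → IsAlgebraic F x → ∃ c : F, algebraMap F M c = x) ∧
    (∀ g ∈ Γ, ∀ x ∈ gc6ev_range ev ev' hcompat, ρ g x = x) ∧
    FiniteDimensional F (gc6ev_range ev ev' hcompat) ∧
    Fintype.card ι ≤ Module.finrank F (gc6ev_range ev ev' hcompat) := by
  letI : Algebra F M := ev.toAlgebra
  refine ⟨hF, ?_, ?_, ?_, ?_⟩
  · intro x hx hxalg
    obtain ⟨P, hP0, hP⟩ := hxalg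
    exact hL1 x hx ⟨P, hP0, by rw [← hP, Polynomial.aeval_def]; rfl⟩
  · intro g hg x hx
    obtain ⟨w, rfl⟩ := (gc6ev_mem_range ev ev' hcompat).1 hx
    exact hF' g hg w
  · exact Module.Finite.equiv (gc6ev_equiv ev ev' hcompat).toLinearEquiv
  · rw [← (gc6ev_equiv ev ev' hcompat).toLinearEquiv.finrank_eq]
    exact hdeg

/-- **(K2), `ev`-form**: a `Γ`-invariant element of `M` that is a root of a nonzero polynomial
over `F` is of the form `ev' w`. -/
theorem gc6ev_mem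
    (hcompat : ∀ x : F, ev' (algebraMap F F' x) = ev x)
    (hF : ∀ (g : G) (x : F), ρ g (ev x) = ev x)
    (hF' : ∀ g ∈ Γ, ∀ w : F', ρ g (ev' w) = ev' w)
    (hL1 : ∀ x : M, (∀ g : G, ρ g x = x) → (∃ P : F[X], P ≠ 0 ∧ P.eval₂ ev x = 0) →
      ∃ f : F, ev f = x)
    (hr : Function.Bijective (fun i => (r i : G ⧸ Γ)))
    (hdeg : Fintype.card ι ≤ Module.finrank F F')
    {x : M} (hx : ∀ g ∈ Γ, ρ g x = x) (hxalg : ∃ P : F[X], P ≠ 0 ∧ P.eval₂ ev x = 0) :
    ∃ w : F', ev' w = x := by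
  letI : Algebra F M := ev.toAlgebra
  obtain ⟨hK, hL1', hL, hfin, hdeg'⟩ := gc6ev_hyps ρ Γ ev ev' hcompat hF hF' hL1 hdeg
  obtain ⟨P, hP0, hP⟩ := hxalg
  have hxalg' : IsAlgebraic F x := ⟨P, hP0, by rw [Polynomial.aeval_def]; exact hP⟩
  exact (gc6ev_mem_range ev ev' hcompat).1
    (gc6_mem ρ Γ (gc6ev_range ev ev' hcompat) hK hL1' hr hL hdeg' hx hxalg')

/-- **(K1'), `ev`-form**. -/
theorem gc6ev_finrank
    (hcompat : ∀ x : F, ev' (algebraMap F F' x) = ev x)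
    (hF : ∀ (g : G) (x : F), ρ g (ev x) = ev x)
    (hF' : ∀ g ∈ Γ, ∀ w : F', ρ g (ev' w) = ev' w)
    (hL1 : ∀ x : M, (∀ g : G, ρ g x = x) → (∃ P : F[X], P ≠ 0 ∧ P.eval₂ ev x = 0) →
      ∃ f : F, ev f = x)
    (hr : Function.Bijective (fun i => (r i : G ⧸ Γ)))
    (hdeg : Fintype.card ι ≤ Module.finrank F F') :
    Module.finrank F F' = Fintype.card ι := by
  letI : Algebra F M := ev.toAlgebra
  obtain ⟨hK, hL1', hL, hfin, hdeg'⟩ := gc6ev_hyps ρ Γ ev ev' hcompat hF hF' hL1 hdeg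
  rw [(gc6ev_equiv ev ev' hcompat).toLinearEquiv.finrank_eq]
  exact gc6_finrank ρ Γ (gc6ev_range ev ev' hcompat) hK hL1' hr hL hdeg'

/-- **(K3), `ev`-form, norm**: `ev (N_{F'/F} w) = ∏ i, ρ (r i) (ev' w)`. -/
theorem gc6ev_norm
    (hcompat : ∀ x : F, ev' (algebraMap F F' x) = ev x)
    (hF : ∀ (g : G) (x : F), ρ g (ev x) = ev x)
    (hF' : ∀ g ∈ Γ, ∀ w : F', ρ g (ev' w) = ev' w)
    (hL1 : ∀ x : M, (∀ g : G, ρ g x = x) → (∃ P : F[X], P ≠ 0 ∧ P.eval₂ ev x = 0) →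
      ∃ f : F, ev f = x)
    (hr : Function.Bijective (fun i => (r i : G ⧸ Γ)))
    (hdeg : Fintype.card ι ≤ Module.finrank F F') (w : F') :
    ev (Algebra.norm F w) = ∏ i, ρ (r i) (ev' w) := by
  letI : Algebra F M := ev.toAlgebra
  obtain ⟨hK, hL1', hL, hfin, hdeg'⟩ := gc6ev_hyps ρ Γ ev ev' hcompat hF hF' hL1 hdeg
  have h := gc6_norm ρ Γ (gc6ev_range ev ev' hcompat) hK hL1' hr hL hdeg'
    (gc6ev_equiv ev ev' hcompat w)
  rw [Algebra.norm_eq_of_algEquiv] at h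
  exact h

/-- **(K3), `ev`-form, trace**: `ev (Tr_{F'/F} w) = ∑ i, ρ (r i) (ev' w)`. -/
theorem gc6ev_trace
    (hcompat : ∀ x : F, ev' (algebraMap F F' x) = ev x)
    (hF : ∀ (g : G) (x : F), ρ g (ev x) = ev x)
    (hF' : ∀ g ∈ Γ, ∀ w : F', ρ g (ev' w) = ev' w)
    (hL1 : ∀ x : M, (∀ g : G, ρ g x = x) → (∃ P : F[X], P ≠ 0 ∧ P.eval₂ ev x = 0) →
      ∃ f : F, ev f = x)
    (hr : Function.Bijective (fun i => (r i : G ⧸ Γ)))
    (hdeg : Fintype.card ι ≤ Module.finrank F F') (w : F') :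
    ev (Algebra.trace F F' w) = ∑ i, ρ (r i) (ev' w) := by
  letI : Algebra F M := ev.toAlgebra
  obtain ⟨hK, hL1', hL, hfin, hdeg'⟩ := gc6ev_hyps ρ Γ ev ev' hcompat hF hF' hL1 hdeg
  have h := gc6_trace ρ Γ (gc6ev_range ev ev' hcompat) hK hL1' hr hL hdeg'
    (gc6ev_equiv ev ev' hcompat w)
  rw [Algebra.trace_eq_of_algEquiv] at h
  exact h

/-- **`(L1)` for the pair `(Γ, F', ev')`**, in exactly the shape of the hypothesis `hL1`
(group `↥Γ` acting through `ρ.comp Γ.subtype`): the output of one application is the input of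
the next (relative) one. -/
theorem gc6ev_L1_sub
    (hcompat : ∀ x : F, ev' (algebraMap F F' x) = ev x)
    (hF : ∀ (g : G) (x : F), ρ g (ev x) = ev x)
    (hF' : ∀ g ∈ Γ, ∀ w : F', ρ g (ev' w) = ev' w)
    (hL1 : ∀ x : M, (∀ g : G, ρ g x = x) → (∃ P : F[X], P ≠ 0 ∧ P.eval₂ ev x = 0) →
      ∃ f : F, ev f = x)
    (hr : Function.Bijective (fun i => (r i : G ⧸ Γ)))
    (hdeg : Fintype.card ι ≤ Module.finrank F F') :
    ∀ x : M, (∀ g : Γ, (ρ.comp Γ.subtype) g x = x) →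
      (∃ P : F'[X], P ≠ 0 ∧ P.eval₂ ev' x = 0) → ∃ f : F', ev' f = x := by
  intro x hx hxalg
  have hx' : ∀ g ∈ Γ, ρ g x = x := fun g hg => hx ⟨g, hg⟩
  refine gc6ev_mem ρ Γ ev ev' hcompat hF hF' hL1 hr hdeg hx' ?_
  letI : Algebra F M := ev.toAlgebra
  letI : Algebra F' M := ev'.toAlgebra
  haveI : IsScalarTower F F' M := IsScalarTower.of_algebraMap_eq fun x => (hcompat x).symm
  obtain ⟨P, hP0, hP⟩ := hxalg
  have h1 : IsAlgebraic F' x := ⟨P, hP0, by rw [Polynomial.aeval_def]; exact hP⟩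
  have h2 : IsAlgebraic F x := h1.restrictScalars F
  obtain ⟨Q, hQ0, hQ⟩ := h2
  exact ⟨Q, hQ0, by rw [← hQ, Polynomial.aeval_def]; rfl⟩

end Ev

end Fermat.Agent.S42
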