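/-
# S42, M3-concrete, stage 1 (helper41): the Galois core in `F`-terms

`helper6`'s abstract Galois core `gc6_*` (file `GaloisCore6`) is stated for a field `K` with
`Algebra K M` and an intermediate field `L` of `M / K`.  Here we instantiate it for the image of
a field embedding `ev : F →+* M` of a finite extension `F / K0` (think: `F` = the function field
of `X₀(N)` over `ℂ`, `K0 = ℂ(j)`, `M` = meromorphic functions on the upper half plane), and
re-express every output in terms of `F`, `K0` and `ev` only, so that no consumer has to touch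
the auxiliary `Algebra K0 M` structure:

* `gi41_K2`     : a `Γ`-invariant `x : M` that is a root of a nonzero polynomial over `K0`
                  (coefficients mapped through `ev`) is `ev f` for some `f : F`;
* `gi41_finrank`: `[F : K0]` equals the number of cosets;
* `gi41_norm`, `gi41_trace` : `ev (N_{F/K0} f) = ∏ i, ρ (r i) (ev f)`, same for the trace;
* `gi41_charpoly` : the characteristic polynomial of `f` over `K0` maps to
                  `∏ i, (X - C (ρ (r i) (ev f)))`;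
* `gi41_exists_poly` : the coset polynomial of a `Γ`-invariant algebraic element has
                  coefficients in `ev K0`;
* `gi41_conj_injective` : the conjugates of a primitive element are pairwise distinct.
-/
import Mathlib
import Fermat.Agent.S42.GaloisCore6

set_option autoImplicit false
set_option linter.style.haveILetI false
set_option linter.unusedSectionVars false

namespace Fermat.Agent.S42

open Polynomial

section Abs

variable {K0 F M : Type*} [Field K0] [Field F] [Algebra K0 F] [Field M] (ev : F →+* M)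

/-- The `K0`-algebra structure on `M` through `ev`. -/
@[reducible] noncomputable def gi41_alg : Algebra K0 M := (ev.comp (algebraMap K0 F)).toAlgebra

/-- `ev` as a `K0`-algebra homomorphism. -/
noncomputable def gi41_evAlg : @AlgHom K0 F M _ _ _ _ (gi41_alg ev) :=
  letI := gi41_alg (K0 := K0) ev
  { ev with commutes' := fun _ => rfl }

/-- The image of `F` in `M`, as an intermediate field of `M / K0`. -/
noncomputable def gi41_L : @IntermediateField K0 M _ _ (gi41_alg ev) :=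
  letI := gi41_alg (K0 := K0) ev
  (gi41_evAlg (K0 := K0) ev).fieldRange

theorem gi41_mem_L {x : M} : x ∈ gi41_L (K0 := K0) ev ↔ ∃ f : F, ev f = x := by
  letI := gi41_alg (K0 := K0) ev
  unfold gi41_L
  rw [AlgHom.mem_fieldRange]
  rfl

/-- `F ≃ₐ[K0] ev F`. -/
noncomputable def gi41_equiv :
    letI := gi41_alg (K0 := K0) ev
    F ≃ₐ[K0] gi41_L (K0 := K0) ev :=
  letI := gi41_alg (K0 := K0) ev
  AlgEquiv.ofInjectiveField (gi41_evAlg (K0 := K0) ev)

theorem gi41_equiv_coe (f : F) :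
    ((gi41_equiv (K0 := K0) ev f : gi41_L (K0 := K0) ev) : M) = ev f := rfl

/-- Being a root of a nonzero polynomial over `K0` (through `ev`) is algebraicity for the
auxiliary algebra structure. -/
theorem gi41_isAlgebraic_iff {x : M} :
    letI := gi41_alg (K0 := K0) ev
    IsAlgebraic K0 x ↔
      ∃ P : K0[X], P ≠ 0 ∧ P.eval₂ (ev.comp (algebraMap K0 F)) x = 0 := by
  letI := gi41_alg (K0 := K0) ev
  rfl

variable [FiniteDimensional K0 F]

theorem gi41_finiteDimensional :
    letI := gi41_alg (K0 := K0) ev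
    FiniteDimensional K0 (gi41_L (K0 := K0) ev) := by
  letI := gi41_alg (K0 := K0) ev
  exact LinearEquiv.finiteDimensional (gi41_equiv (K0 := K0) ev).toLinearEquiv

theorem gi41_finrank_L :
    letI := gi41_alg (K0 := K0) ev
    Module.finrank K0 (gi41_L (K0 := K0) ev) = Module.finrank K0 F := by
  letI := gi41_alg (K0 := K0) ev
  exact (LinearEquiv.finrank_eq (gi41_equiv (K0 := K0) ev).toLinearEquiv).symm

variable [CharZero K0] {G : Type*} [Group G] (ρ : G →* (M ≃+* M)) (Γ : Subgroup G)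
  {ι : Type*} [Fintype ι] {r : ι → G}

/-- **(K2) in `F`-terms.** -/
theorem gi41_K2
    (hK : ∀ (g : G) (c : K0), ρ g (ev (algebraMap K0 F c)) = ev (algebraMap K0 F c))
    (hL1 : ∀ x : M, (∀ g : G, ρ g x = x) →
      (∃ P : K0[X], P ≠ 0 ∧ P.eval₂ (ev.comp (algebraMap K0 F)) x = 0) →
      ∃ c : K0, ev (algebraMap K0 F c) = x)
    (hr : Function.Bijective (fun i => (r i : G ⧸ Γ)))
    (hL : ∀ g ∈ Γ, ∀ f : F, ρ g (ev f) = ev f)
    (hdeg : Fintype.card ι ≤ Module.finrank K0 F)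
    {x : M} (hx : ∀ g ∈ Γ, ρ g x = x)
    (hxalg : ∃ P : K0[X], P ≠ 0 ∧ P.eval₂ (ev.comp (algebraMap K0 F)) x = 0) :
    ∃ f : F, ev f = x := by
  letI := gi41_alg (K0 := K0) ev
  haveI := gi41_finiteDimensional (K0 := K0) ev
  rw [← gi41_mem_L (K0 := K0)]
  refine gc6_mem ρ Γ (gi41_L (K0 := K0) ev) hK hL1 hr ?_ ?_ hx hxalg
  · intro g hg x hx
    obtain ⟨f, rfl⟩ := (gi41_mem_L (K0 := K0) ev).1 hx
    exact hL g hg f
  · rw [gi41_finrank_L]
    exact hdeg

/-- **(K1')**: `[F : K0]` is the number of cosets. -/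
theorem gi41_finrank
    (hK : ∀ (g : G) (c : K0), ρ g (ev (algebraMap K0 F c)) = ev (algebraMap K0 F c))
    (hL1 : ∀ x : M, (∀ g : G, ρ g x = x) →
      (∃ P : K0[X], P ≠ 0 ∧ P.eval₂ (ev.comp (algebraMap K0 F)) x = 0) →
      ∃ c : K0, ev (algebraMap K0 F c) = x)
    (hr : Function.Bijective (fun i => (r i : G ⧸ Γ)))
    (hL : ∀ g ∈ Γ, ∀ f : F, ρ g (ev f) = ev f)
    (hdeg : Fintype.card ι ≤ Module.finrank K0 F) :
    Module.finrank K0 F = Fintype.card ι := by
  letI := gi41_alg (K0 := K0) ev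
  haveI := gi41_finiteDimensional (K0 := K0) ev
  rw [← gi41_finrank_L (K0 := K0) ev]
  refine gc6_finrank ρ Γ (gi41_L (K0 := K0) ev) hK hL1 hr ?_ ?_
  · intro g hg x hx
    obtain ⟨f, rfl⟩ := (gi41_mem_L (K0 := K0) ev).1 hx
    exact hL g hg f
  · rw [gi41_finrank_L]
    exact hdeg

/-- **(K3), norm, in `F`-terms**: `ev (N_{F/K0} f) = ∏ i, ρ (r i) (ev f)`. -/
theorem gi41_norm
    (hK : ∀ (g : G) (c : K0), ρ g (ev (algebraMap K0 F c)) = ev (algebraMap K0 F c))
    (hL1 : ∀ x : M, (∀ g : G, ρ g x = x) →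
      (∃ P : K0[X], P ≠ 0 ∧ P.eval₂ (ev.comp (algebraMap K0 F)) x = 0) →
      ∃ c : K0, ev (algebraMap K0 F c) = x)
    (hr : Function.Bijective (fun i => (r i : G ⧸ Γ)))
    (hL : ∀ g ∈ Γ, ∀ f : F, ρ g (ev f) = ev f)
    (hdeg : Fintype.card ι ≤ Module.finrank K0 F) (f : F) :
    ev (algebraMap K0 F (Algebra.norm K0 f)) = ∏ i, ρ (r i) (ev f) := by
  letI := gi41_alg (K0 := K0) ev
  haveI := gi41_finiteDimensional (K0 := K0) ev
  have hL' : ∀ g ∈ Γ, ∀ x ∈ gi41_L (K0 := K0) ev, ρ g x = x := by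
    intro g hg x hx
    obtain ⟨f, rfl⟩ := (gi41_mem_L (K0 := K0) ev).1 hx
    exact hL g hg f
  have hdeg' : Fintype.card ι ≤ Module.finrank K0 (gi41_L (K0 := K0) ev) := by
    rw [gi41_finrank_L]
    exact hdeg
  have h := gc6_norm ρ Γ (gi41_L (K0 := K0) ev) hK hL1 hr hL' hdeg' (gi41_equiv (K0 := K0) ev f)
  rw [Algebra.norm_eq_of_algEquiv (gi41_equiv (K0 := K0) ev) f] at h
  exact h

/-- **(K3), trace, in `F`-terms**: `ev (Tr_{F/K0} f) = ∑ i, ρ (r i) (ev f)`. -/
theorem gi41_trace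
    (hK : ∀ (g : G) (c : K0), ρ g (ev (algebraMap K0 F c)) = ev (algebraMap K0 F c))
    (hL1 : ∀ x : M, (∀ g : G, ρ g x = x) →
      (∃ P : K0[X], P ≠ 0 ∧ P.eval₂ (ev.comp (algebraMap K0 F)) x = 0) →
      ∃ c : K0, ev (algebraMap K0 F c) = x)
    (hr : Function.Bijective (fun i => (r i : G ⧸ Γ)))
    (hL : ∀ g ∈ Γ, ∀ f : F, ρ g (ev f) = ev f)
    (hdeg : Fintype.card ι ≤ Module.finrank K0 F) (f : F) :
    ev (algebraMap K0 F (Algebra.trace K0 F f)) = ∑ i, ρ (r i) (ev f) := by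
  letI := gi41_alg (K0 := K0) ev
  haveI := gi41_finiteDimensional (K0 := K0) ev
  have hL' : ∀ g ∈ Γ, ∀ x ∈ gi41_L (K0 := K0) ev, ρ g x = x := by
    intro g hg x hx
    obtain ⟨f, rfl⟩ := (gi41_mem_L (K0 := K0) ev).1 hx
    exact hL g hg f
  have hdeg' : Fintype.card ι ≤ Module.finrank K0 (gi41_L (K0 := K0) ev) := by
    rw [gi41_finrank_L]
    exact hdeg
  have h := gc6_trace ρ Γ (gi41_L (K0 := K0) ev) hK hL1 hr hL' hdeg' (gi41_equiv (K0 := K0) ev f)
  rw [Algebra.trace_eq_of_algEquiv (gi41_equiv (K0 := K0) ev) f] at h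
  exact h

/-- The coset polynomial of a `Γ`-invariant element algebraic over `K0` has coefficients in
`ev K0` (no degree hypothesis needed). -/
theorem gi41_exists_poly
    (hK : ∀ (g : G) (c : K0), ρ g (ev (algebraMap K0 F c)) = ev (algebraMap K0 F c))
    (hL1 : ∀ x : M, (∀ g : G, ρ g x = x) →
      (∃ P : K0[X], P ≠ 0 ∧ P.eval₂ (ev.comp (algebraMap K0 F)) x = 0) →
      ∃ c : K0, ev (algebraMap K0 F c) = x)
    (hr : Function.Bijective (fun i => (r i : G ⧸ Γ)))
    {y : M} (hy : ∀ g ∈ Γ, ρ g y = y)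
    (hyalg : ∃ P : K0[X], P ≠ 0 ∧ P.eval₂ (ev.comp (algebraMap K0 F)) y = 0) :
    ∃ P : K0[X], P.Monic ∧ P.natDegree = Fintype.card ι ∧
      P.map (ev.comp (algebraMap K0 F)) = ∏ i, (X - C (ρ (r i) y)) ∧
      P.eval₂ (ev.comp (algebraMap K0 F)) y = 0 := by
  letI := gi41_alg (K0 := K0) ev
  obtain ⟨P, hmon, hdeg, hmap, hroot⟩ := gc6_exists_poly ρ Γ hK hL1 hr hy hyalg
  exact ⟨P, hmon, hdeg, hmap, hroot⟩

/-- The conjugates of a primitive element of `F / K0` are pairwise distinct. -/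
theorem gi41_conj_injective
    (hK : ∀ (g : G) (c : K0), ρ g (ev (algebraMap K0 F c)) = ev (algebraMap K0 F c))
    (hL1 : ∀ x : M, (∀ g : G, ρ g x = x) →
      (∃ P : K0[X], P ≠ 0 ∧ P.eval₂ (ev.comp (algebraMap K0 F)) x = 0) →
      ∃ c : K0, ev (algebraMap K0 F c) = x)
    (hr : Function.Bijective (fun i => (r i : G ⧸ Γ)))
    (hL : ∀ g ∈ Γ, ∀ f : F, ρ g (ev f) = ev f)
    (hdeg : Fintype.card ι ≤ Module.finrank K0 F)
    {θ : F} (hθ : IntermediateField.adjoin K0 {θ} = ⊤) :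
    Function.Injective (fun i => ρ (r i) (ev θ)) := by
  letI := gi41_alg (K0 := K0) ev
  haveI := gi41_finiteDimensional (K0 := K0) ev
  have hL' : ∀ g ∈ Γ, ∀ x ∈ gi41_L (K0 := K0) ev, ρ g x = x := by
    intro g hg x hx
    obtain ⟨f, rfl⟩ := (gi41_mem_L (K0 := K0) ev).1 hx
    exact hL g hg f
  have hdeg' : Fintype.card ι ≤ Module.finrank K0 (gi41_L (K0 := K0) ev) := by
    rw [gi41_finrank_L]
    exact hdeg
  have hθ' : IntermediateField.adjoin K0 {gi41_equiv (K0 := K0) ev θ} = ⊤ := by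
    have h := IntermediateField.adjoin_map K0 {θ} (gi41_equiv (K0 := K0) ev).toAlgHom
    rw [hθ, Set.image_singleton] at h
    have h2 : IntermediateField.map (gi41_equiv (K0 := K0) ev).toAlgHom ⊤ = ⊤ := by
      rw [← AlgHom.fieldRange_eq_map]
      exact AlgHom.fieldRange_eq_top.2 (gi41_equiv (K0 := K0) ev).surjective
    rw [h2] at h
    exact h.symm
  exact gc6_conj_injective ρ Γ (gi41_L (K0 := K0) ev) hK hL1 hr hL' hdeg' hθ'

omit [CharZero K0] in
/-- Algebraic over `F` (through `ev`) implies algebraic over `K0`. -/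
theorem gi41_isAlgebraic_of_top {x : M}
    (hxalg : ∃ P : F[X], P ≠ 0 ∧ P.eval₂ ev x = 0) :
    ∃ P : K0[X], P ≠ 0 ∧ P.eval₂ (ev.comp (algebraMap K0 F)) x = 0 := by
  letI := gi41_alg (K0 := K0) ev
  letI : Algebra F M := ev.toAlgebra
  haveI : IsScalarTower K0 F M := IsScalarTower.of_algebraMap_eq fun _ => rfl
  have h1 : IsAlgebraic F x := hxalg
  have h2 : IsAlgebraic K0 x := by
    haveI : Algebra.IsAlgebraic K0 F := Algebra.IsAlgebraic.of_finite K0 F
    exact IsAlgebraic.restrictScalars K0 h1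
  exact h2

/-- **(K2), tower form**: a `Γ`-invariant element algebraic over `ev F` lies in `ev F`.  This
is hypothesis `hL1` of the relative case (`Γ` acting, base field `F`). -/
theorem gi41_K2_top
    (hK : ∀ (g : G) (c : K0), ρ g (ev (algebraMap K0 F c)) = ev (algebraMap K0 F c))
    (hL1 : ∀ x : M, (∀ g : G, ρ g x = x) →
      (∃ P : K0[X], P ≠ 0 ∧ P.eval₂ (ev.comp (algebraMap K0 F)) x = 0) →
      ∃ c : K0, ev (algebraMap K0 F c) = x)
    (hr : Function.Bijective (fun i => (r i : G ⧸ Γ)))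
    (hL : ∀ g ∈ Γ, ∀ f : F, ρ g (ev f) = ev f)
    (hdeg : Fintype.card ι ≤ Module.finrank K0 F)
    {x : M} (hx : ∀ g ∈ Γ, ρ g x = x)
    (hxalg : ∃ P : F[X], P ≠ 0 ∧ P.eval₂ ev x = 0) :
    ∃ f : F, ev f = x :=
  gi41_K2 ev ρ Γ hK hL1 hr hL hdeg hx (gi41_isAlgebraic_of_top (K0 := K0) ev hxalg)

end Abs

section Gen

variable {k F M : Type*} [Field k] [Field F] [Algebra k F] [Field M] (ev : F →+* M)
  {G : Type*} [Group G] (ρ : G →* (M ≃+* M))

/-- A way to get `hK` when `K0 = k(S)`: it suffices that `G` fixes `ev k` and `ev S`. -/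
theorem gi41_fixed_adjoin (S : Set F)
    (hk : ∀ (g : G) (c : k), ρ g (ev (algebraMap k F c)) = ev (algebraMap k F c))
    (hS : ∀ (g : G), ∀ s ∈ S, ρ g (ev s) = ev s) (g : G) (c : IntermediateField.adjoin k S) :
    ρ g (ev (algebraMap (IntermediateField.adjoin k S) F c)) =
      ev (algebraMap (IntermediateField.adjoin k S) F c) := by
  obtain ⟨c, hc⟩ := c
  show ρ g (ev c) = ev c
  induction hc using IntermediateField.adjoin_induction with
  | mem x hx => exact hS g x hx
  | algebraMap x => exact hk g x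
  | add x y _ _ hx hy => rw [map_add, map_add, hx, hy]
  | inv x _ hx => rw [map_inv₀, map_inv₀, hx]
  | mul x y _ _ hx hy => rw [map_mul, map_mul, hx, hy]

end Gen

end Fermat.Agent.S42
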