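/-
# S42, M3-concrete, stage 2 (helper41): K2 and K3 on `mer95_MER`

The concrete instance of the Galois core (`gc6_*`, `gi41_*`, `gc6ev_*`) for

* `M := mer95_MER` (meromorphic functions on the upper half plane, `SL(2,ℤ)` acting),
* `F := F_ℂ(N) = laurentBaseChange ℂ (modularFunctionFieldFull N)`, `K0 := ℂ(j) ⊆ F`,
* `G := SL(2,ℤ)`, `Γ := Γ₀(N)`,

and the relative instance `F_ℂ(N) ⊆ F_ℂ(N ℓ)` along `heckeAlphaBar`, `G := Γ₀(N)`,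
`Γ := Γ₀(N ℓ)`.

The embedding `ev` of M2 and the level-one statement `(L1)` of M1 are *hypotheses* here, in plain
form:

* `hJ    : ∀ g : SL(2, ℤ), g • J = J`
* `hevj  : ev j0 = J`                                  (`j0 ∈ F` the series `jqModC ℂ`)
* `hinv  : ∀ g ∈ Gamma0 N, ∀ f, g • ev f = ev f`
* `hL1   : ∀ x, (∀ g : SL(2, ℤ), g • x = x) → IsAlgebraic ℂ⟮J⟯ x → x ∈ ℂ⟮J⟯`
* `hcompat : ∀ f, ev' (heckeAlphaBar ℂ N ℓ f) = ev f`  (relative case).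

The degree inputs (`[F : ℂ(j)] = [SL(2,ℤ) : Γ₀(N)]`, `[F_ℂ(Nℓ) : F_ℂ(N)] = ℓ + 1 = [Γ₀(N) : Γ₀(Nℓ)]`)
are proved in `GaloisK1_41`.
-/
import Fermat.Agent.S42.GaloisInst41
import Fermat.Agent.S42.GaloisK1_41
import Fermat.Agent.S42.GaloisEv6
import Fermat.Agent.S42.Mer95

set_option autoImplicit false
set_option linter.style.haveILetI false
set_option linter.unusedSectionVars false
set_option synthInstance.maxHeartbeats 400000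

open ModularCurve IntermediateField AlgebraicCurve MatrixGroups CongruenceSubgroup Polynomial

namespace Fermat.Agent.S42

open Fermat.Agent.S18 Fermat.Agent.S28 Fermat.Agent.S24 Fermat.Agent.S37

/-- The action of `SL(2,ℤ)` on `mer95_MER` as a homomorphism to ring automorphisms. -/
noncomputable def gi41_rho : SL(2, ℤ) →* (mer95_MER ≃+* mer95_MER) :=
  MulSemiringAction.toRingAut SL(2, ℤ) mer95_MER

@[simp] theorem gi41_rho_apply (g : SL(2, ℤ)) (x : mer95_MER) : gi41_rho g x = g • x := rfl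

/-- The Prelude's `F_ℂ(N)`. -/
abbrev gi41_FC (N : ℕ) : Type := ↥(laurentBaseChange ℂ (modularFunctionFieldFull N))

section Absolute

variable (N : ℕ) [NeZero N]
  (ev : gi41_FC N →ₐ[ℂ] mer95_MER)
  (j0 : gi41_FC N)
  (J : mer95_MER)

/-- **(K1)** for the Prelude's `F_ℂ(N)`: `[F_ℂ(N) : ℂ(j)] = [SL(2,ℤ) : Γ₀(N)]`. -/
theorem gi41_K1C (hj0 : (j0 : LaurentSeries ℂ) = jqModC ℂ) :
    FiniteDimensional ℂ⟮j0⟯ (gi41_FC N) ∧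
      Module.finrank ℂ⟮j0⟯ (gi41_FC N) = (Gamma0 N).index := by
  rw [gi41_index]
  exact ga41_finrank_eq ℂ N (Nat.cast_ne_zero.mpr (NeZero.ne N)) _ (gi41_baseChange_eq ℂ N) j0 hj0

/-- `SL(2,ℤ)` fixes `ev ℂ(j)`. -/
theorem gi41_mer_hK (hJ : ∀ g : SL(2, ℤ), g • J = J) (hevj : ev j0 = J)
    (g : SL(2, ℤ)) (c : ℂ⟮j0⟯) :
    gi41_rho g ((ev : gi41_FC N →+* mer95_MER) (algebraMap ℂ⟮j0⟯ _ c)) =
      (ev : gi41_FC N →+* mer95_MER) (algebraMap ℂ⟮j0⟯ _ c) := by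
  refine gi41_fixed_adjoin (k := ℂ) (ev : gi41_FC N →+* mer95_MER) gi41_rho {j0} ?_ ?_ g c
  · intro g c
    show g • ev (algebraMap ℂ _ c) = ev (algebraMap ℂ _ c)
    rw [AlgHom.commutes, mer95_smul_C_SL]
  · intro g s hs
    rw [Set.mem_singleton_iff] at hs
    subst hs
    show g • ev s = ev s
    rw [hevj, hJ]

/-- The image of `ℂ(j0)` under `ev` is `ℂ(J)`. -/
theorem gi41_map_adjoin (hevj : ev j0 = J) :
    (ℂ⟮j0⟯).map ev = ℂ⟮J⟯ := by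
  rw [IntermediateField.adjoin_map, Set.image_singleton, hevj]

/-- Algebraicity over `ℂ(j0)` through `ev` is algebraicity over `ℂ(J)`. -/
theorem gi41_isAlgebraic_J (hevj : ev j0 = J) {x : mer95_MER}
    (hx : ∃ P : (ℂ⟮j0⟯)[X], P ≠ 0 ∧
      P.eval₂ ((ev : gi41_FC N →+* mer95_MER).comp (algebraMap ℂ⟮j0⟯ _)) x = 0) :
    IsAlgebraic ℂ⟮J⟯ x := by
  obtain ⟨P, hP0, hP⟩ := hx
  have hmem : ∀ c : ℂ⟮j0⟯, ev (c : gi41_FC N) ∈ ℂ⟮J⟯ := by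
    intro c
    rw [← gi41_map_adjoin N ev j0 J hevj]
    exact ⟨c, c.2, rfl⟩
  let ψ : ℂ⟮j0⟯ →+* ℂ⟮J⟯ :=
    { toFun := fun c => ⟨ev (c : gi41_FC N), hmem c⟩
      map_one' := Subtype.ext (by simp)
      map_mul' := fun a b => Subtype.ext (by simp)
      map_zero' := Subtype.ext (by simp)
      map_add' := fun a b => Subtype.ext (by simp) }
  refine ⟨P.map ψ, (Polynomial.map_ne_zero_iff ψ.injective).2 hP0, ?_⟩
  rw [Polynomial.aeval_def, Polynomial.eval₂_map]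
  exact hP

/-- Conversely. -/
theorem gi41_isAlgebraic_j0 (hevj : ev j0 = J) {x : mer95_MER} (hx : IsAlgebraic ℂ⟮J⟯ x) :
    ∃ P : (ℂ⟮j0⟯)[X], P ≠ 0 ∧
      P.eval₂ ((ev : gi41_FC N →+* mer95_MER).comp (algebraMap ℂ⟮j0⟯ _)) x = 0 := by
  letI : Algebra ℂ⟮j0⟯ mer95_MER :=
    ((ev : gi41_FC N →+* mer95_MER).comp (algebraMap ℂ⟮j0⟯ _)).toAlgebra
  have hmem : ∀ c : ℂ⟮j0⟯, ev (c : gi41_FC N) ∈ ℂ⟮J⟯ := by
    intro c
    rw [← gi41_map_adjoin N ev j0 J hevj]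
    exact ⟨c, c.2, rfl⟩
  let ψ : ℂ⟮j0⟯ →+* ℂ⟮J⟯ :=
    { toFun := fun c => ⟨ev (c : gi41_FC N), hmem c⟩
      map_one' := Subtype.ext (by simp)
      map_mul' := fun a b => Subtype.ext (by simp)
      map_zero' := Subtype.ext (by simp)
      map_add' := fun a b => Subtype.ext (by simp) }
  have hsurj : Function.Surjective ψ := by
    rintro ⟨y, hy⟩
    rw [← gi41_map_adjoin N ev j0 J hevj] at hy
    obtain ⟨c, hc, rfl⟩ := hy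
    exact ⟨⟨c, hc⟩, rfl⟩
  obtain ⟨Q, hQ0, hQ⟩ := hx
  obtain ⟨P, rfl⟩ := Polynomial.map_surjective ψ hsurj Q
  refine ⟨P, fun h => hQ0 (by rw [h, Polynomial.map_zero]), ?_⟩
  rw [Polynomial.aeval_def, Polynomial.eval₂_map] at hQ
  exact hQ

/-- `(L1)` in the `ev`-form wanted by `gi41_*`. -/
theorem gi41_mer_hL1 (hevj : ev j0 = J)
    (hL1 : ∀ x : mer95_MER, (∀ g : SL(2, ℤ), g • x = x) → IsAlgebraic ℂ⟮J⟯ x → x ∈ ℂ⟮J⟯)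
    (x : mer95_MER) (hx : ∀ g : SL(2, ℤ), gi41_rho g x = x)
    (hxalg : ∃ P : (ℂ⟮j0⟯)[X], P ≠ 0 ∧
      P.eval₂ ((ev : gi41_FC N →+* mer95_MER).comp (algebraMap ℂ⟮j0⟯ _)) x = 0) :
    ∃ c : ℂ⟮j0⟯, (ev : gi41_FC N →+* mer95_MER) (algebraMap ℂ⟮j0⟯ _ c) = x := by
  have h := hL1 x hx (gi41_isAlgebraic_J N ev j0 J hevj hxalg)
  rw [← gi41_map_adjoin N ev j0 J hevj] at h
  obtain ⟨c, hc, rfl⟩ := h
  exact ⟨⟨c, hc⟩, rfl⟩

variable {ι : Type*} [Fintype ι] {r : ι → SL(2, ℤ)}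

/-- **(K2) on `mer95_MER`**: a `Γ₀(N)`-invariant meromorphic function that is algebraic over
`ℂ(J)` lies in `ev F_ℂ(N)`. -/
theorem gi41_mer_K2 (hj0 : (j0 : LaurentSeries ℂ) = jqModC ℂ)
    (hJ : ∀ g : SL(2, ℤ), g • J = J) (hevj : ev j0 = J)
    (hinv : ∀ g ∈ Gamma0 N, ∀ f, g • ev f = ev f)
    (hL1 : ∀ x : mer95_MER, (∀ g : SL(2, ℤ), g • x = x) → IsAlgebraic ℂ⟮J⟯ x → x ∈ ℂ⟮J⟯)
    {x : mer95_MER} (hx : ∀ g ∈ Gamma0 N, g • x = x) (hxalg : IsAlgebraic ℂ⟮J⟯ x) :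
    ∃ f, ev f = x := by
  obtain ⟨hfin, hdeg⟩ := gi41_K1C N j0 hj0
  have hr := gc6_out_bijective (Gamma0 N)
  haveI : Finite (SL(2, ℤ) ⧸ Gamma0 N) := Subgroup.finite_quotient_of_finiteIndex
  letI : Fintype (SL(2, ℤ) ⧸ Gamma0 N) := Fintype.ofFinite _
  exact gi41_K2 (K0 := ℂ⟮j0⟯) (ev : gi41_FC N →+* mer95_MER) gi41_rho (Gamma0 N)
    (gi41_mer_hK N ev j0 J hJ hevj) (gi41_mer_hL1 N ev j0 J hevj hL1) hr hinv
    (by rw [hdeg, gc6_card_eq_index (Gamma0 N) hr]) hx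
    (gi41_isAlgebraic_j0 N ev j0 J hevj hxalg)

/-- **(K2), tower form**: a `Γ₀(N)`-invariant meromorphic function that is a root of a nonzero
polynomial with coefficients in `ev F_ℂ(N)` lies in `ev F_ℂ(N)`. -/
theorem gi41_mer_K2_top (hj0 : (j0 : LaurentSeries ℂ) = jqModC ℂ)
    (hJ : ∀ g : SL(2, ℤ), g • J = J) (hevj : ev j0 = J)
    (hinv : ∀ g ∈ Gamma0 N, ∀ f, g • ev f = ev f)
    (hL1 : ∀ x : mer95_MER, (∀ g : SL(2, ℤ), g • x = x) → IsAlgebraic ℂ⟮J⟯ x → x ∈ ℂ⟮J⟯)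
    {x : mer95_MER} (hx : ∀ g ∈ Gamma0 N, g • x = x)
    (hxalg : ∃ P : (gi41_FC N)[X],
      P ≠ 0 ∧ P.eval₂ (ev : gi41_FC N →+* mer95_MER) x = 0) :
    ∃ f, ev f = x := by
  obtain ⟨hfin, hdeg⟩ := gi41_K1C N j0 hj0
  have hr := gc6_out_bijective (Gamma0 N)
  haveI : Finite (SL(2, ℤ) ⧸ Gamma0 N) := Subgroup.finite_quotient_of_finiteIndex
  letI : Fintype (SL(2, ℤ) ⧸ Gamma0 N) := Fintype.ofFinite _
  exact gi41_K2_top (K0 := ℂ⟮j0⟯) (ev : gi41_FC N →+* mer95_MER) gi41_rho (Gamma0 N)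
    (gi41_mer_hK N ev j0 J hJ hevj) (gi41_mer_hL1 N ev j0 J hevj hL1) hr hinv
    (by rw [hdeg, gc6_card_eq_index (Gamma0 N) hr]) hx hxalg

/-- **(K3) on `mer95_MER`, norm**: `ev (N_{F_ℂ(N)/ℂ(j)} f) = ∏ i, r i • ev f` for every system
`r` of left coset representatives of `Γ₀(N)` in `SL(2,ℤ)`. -/
theorem gi41_mer_norm (hj0 : (j0 : LaurentSeries ℂ) = jqModC ℂ)
    (hJ : ∀ g : SL(2, ℤ), g • J = J) (hevj : ev j0 = J)
    (hinv : ∀ g ∈ Gamma0 N, ∀ f, g • ev f = ev f)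
    (hL1 : ∀ x : mer95_MER, (∀ g : SL(2, ℤ), g • x = x) → IsAlgebraic ℂ⟮J⟯ x → x ∈ ℂ⟮J⟯)
    (hr : Function.Bijective (fun i => (r i : SL(2, ℤ) ⧸ Gamma0 N)))
    (f : gi41_FC N) :
    ev ((Algebra.norm ℂ⟮j0⟯ f : ℂ⟮j0⟯) : gi41_FC N) =
      ∏ i, r i • ev f := by
  obtain ⟨hfin, hdeg⟩ := gi41_K1C N j0 hj0
  exact gi41_norm (K0 := ℂ⟮j0⟯) (ev : gi41_FC N →+* mer95_MER) gi41_rho (Gamma0 N)
    (gi41_mer_hK N ev j0 J hJ hevj) (gi41_mer_hL1 N ev j0 J hevj hL1) hr hinv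
    (by rw [hdeg, gc6_card_eq_index (Gamma0 N) hr]) f

/-- **(K3) on `mer95_MER`, trace.** -/
theorem gi41_mer_trace (hj0 : (j0 : LaurentSeries ℂ) = jqModC ℂ)
    (hJ : ∀ g : SL(2, ℤ), g • J = J) (hevj : ev j0 = J)
    (hinv : ∀ g ∈ Gamma0 N, ∀ f, g • ev f = ev f)
    (hL1 : ∀ x : mer95_MER, (∀ g : SL(2, ℤ), g • x = x) → IsAlgebraic ℂ⟮J⟯ x → x ∈ ℂ⟮J⟯)
    (hr : Function.Bijective (fun i => (r i : SL(2, ℤ) ⧸ Gamma0 N)))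
    (f : gi41_FC N) :
    ev ((Algebra.trace ℂ⟮j0⟯ _ f : ℂ⟮j0⟯) : gi41_FC N) =
      ∑ i, r i • ev f := by
  obtain ⟨hfin, hdeg⟩ := gi41_K1C N j0 hj0
  exact gi41_trace (K0 := ℂ⟮j0⟯) (ev : gi41_FC N →+* mer95_MER) gi41_rho (Gamma0 N)
    (gi41_mer_hK N ev j0 J hJ hevj) (gi41_mer_hL1 N ev j0 J hevj hL1) hr hinv
    (by rw [hdeg, gc6_card_eq_index (Gamma0 N) hr]) f

/-- The coset polynomial of a `Γ₀(N)`-invariant meromorphic function algebraic over `ℂ(J)` has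
coefficients in `ev ℂ(j)`. -/
theorem gi41_mer_exists_poly
    (hJ : ∀ g : SL(2, ℤ), g • J = J) (hevj : ev j0 = J)
    (hL1 : ∀ x : mer95_MER, (∀ g : SL(2, ℤ), g • x = x) → IsAlgebraic ℂ⟮J⟯ x → x ∈ ℂ⟮J⟯)
    (hr : Function.Bijective (fun i => (r i : SL(2, ℤ) ⧸ Gamma0 N)))
    {y : mer95_MER} (hy : ∀ g ∈ Gamma0 N, g • y = y) (hyalg : IsAlgebraic ℂ⟮J⟯ y) :
    ∃ P : (ℂ⟮j0⟯)[X], P.Monic ∧ P.natDegree = Fintype.card ι ∧
      P.map ((ev : gi41_FC N →+* mer95_MER).comp (algebraMap ℂ⟮j0⟯ _)) = ∏ i, (X - C (r i • y)) := by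
  letI : Algebra ℂ⟮j0⟯ mer95_MER :=
    ((ev : gi41_FC N →+* mer95_MER).comp (algebraMap ℂ⟮j0⟯ _)).toAlgebra
  obtain ⟨P, hmon, hdeg, hmap, -⟩ := gc6_exists_poly gi41_rho (Gamma0 N) (K := ℂ⟮j0⟯)
    (gi41_mer_hK N ev j0 J hJ hevj) (gi41_mer_hL1 N ev j0 J hevj hL1) hr hy
    (gi41_isAlgebraic_j0 N ev j0 J hevj hyalg)
  exact ⟨P, hmon, hdeg, hmap⟩

end Absolute

section Relative

variable (N ℓ : ℕ) [NeZero N] [NeZero ℓ]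
  (ev : gi41_FC N →ₐ[ℂ] mer95_MER) (ev' : gi41_FC (N * ℓ) →ₐ[ℂ] mer95_MER)
  (j0 : gi41_FC N) (J : mer95_MER)
  {ι : Type*} [Fintype ι] {r : ι → ↥(Gamma0 N)}

/-- The action of `Γ₀(N)` on `mer95_MER`. -/
noncomputable def gi41_rhoN : ↥(Gamma0 N) →* (mer95_MER ≃+* mer95_MER) :=
  gi41_rho.comp (Gamma0 N).subtype

omit [NeZero N] in
@[simp] theorem gi41_rhoN_apply (g : ↥(Gamma0 N)) (x : mer95_MER) :
    gi41_rhoN N g x = (g : SL(2, ℤ)) • x := rfl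

omit [NeZero N] [NeZero ℓ] in
/-- A system of left coset representatives of `Γ₀(N ℓ)` in `Γ₀(N)` has `ℓ + 1` elements. -/
theorem gi41_card_reps [NeZero N] [NeZero ℓ] (hℓ : ℓ.Prime) (hNℓ : ¬ ℓ ∣ N)
    (hr : Function.Bijective
      (fun i => (r i : ↥(Gamma0 N) ⧸ (Gamma0 (N * ℓ)).subgroupOf (Gamma0 N)))) :
    Fintype.card ι = ℓ + 1 := by
  rw [gc6_card_eq_index _ hr, ← gi41_relindex N ℓ hℓ hNℓ]
  rfl

/-- **(K3), relative, on `mer95_MER`**: for the inclusion `α : F_ℂ(N) → F_ℂ(N ℓ)`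
(`heckeAlphaBar`), `ev (N_α w) = ∏ i, r i • ev' w` for every system `r` of left coset
representatives of `Γ₀(N ℓ)` in `Γ₀(N)`. -/
theorem gi41_mer_rel_norm (hℓ : ℓ.Prime) (hNℓ : ¬ ℓ ∣ N)
    (hj0 : (j0 : LaurentSeries ℂ) = jqModC ℂ)
    (hJ : ∀ g : SL(2, ℤ), g • J = J) (hevj : ev j0 = J)
    (hinv : ∀ g ∈ Gamma0 N, ∀ f, g • ev f = ev f)
    (hL1 : ∀ x : mer95_MER, (∀ g : SL(2, ℤ), g • x = x) → IsAlgebraic ℂ⟮J⟯ x → x ∈ ℂ⟮J⟯)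
    (hinv' : ∀ g ∈ Gamma0 (N * ℓ), ∀ w, g • ev' w = ev' w)
    (hcompat : ∀ f, ev' (heckeAlphaBar ℂ N ℓ f) = ev f)
    (hr : Function.Bijective
      (fun i => (r i : ↥(Gamma0 N) ⧸ (Gamma0 (N * ℓ)).subgroupOf (Gamma0 N))))
    (w : gi41_FC (N * ℓ)) :
    letI := algebraAlong (heckeAlphaBar ℂ N ℓ)
    ev (Algebra.norm (gi41_FC N) w) = ∏ i, (r i : SL(2, ℤ)) • ev' w := by
  letI := algebraAlong (heckeAlphaBar ℂ N ℓ)
  have hfr : Module.finrank (gi41_FC N) (gi41_FC (N * ℓ)) = ℓ + 1 :=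
    gi41_finrank_alpha ℂ N ℓ hℓ hNℓ
  haveI : FiniteDimensional (gi41_FC N) (gi41_FC (N * ℓ)) :=
    Module.finite_of_finrank_pos (by rw [hfr]; omega)
  haveI : CharZero (gi41_FC N) :=
    charZero_of_injective_algebraMap (algebraMap ℂ (gi41_FC N)).injective
  exact gc6ev_norm (gi41_rhoN N) ((Gamma0 (N * ℓ)).subgroupOf (Gamma0 N))
    (ev : gi41_FC N →+* mer95_MER) (ev' : gi41_FC (N * ℓ) →+* mer95_MER)
    hcompat
    (fun g x => hinv g.1 g.2 x)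
    (fun g hg w => hinv' g.1 (Subgroup.mem_subgroupOf.1 hg) w)
    (fun x hx hxalg => gi41_mer_K2_top N ev j0 J hj0 hJ hevj hinv hL1
      (fun g hg => hx ⟨g, hg⟩) hxalg)
    hr (by rw [hfr, gi41_card_reps N ℓ hℓ hNℓ hr]) w

/-- **(K3), relative, trace.** -/
theorem gi41_mer_rel_trace (hℓ : ℓ.Prime) (hNℓ : ¬ ℓ ∣ N)
    (hj0 : (j0 : LaurentSeries ℂ) = jqModC ℂ)
    (hJ : ∀ g : SL(2, ℤ), g • J = J) (hevj : ev j0 = J)
    (hinv : ∀ g ∈ Gamma0 N, ∀ f, g • ev f = ev f)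
    (hL1 : ∀ x : mer95_MER, (∀ g : SL(2, ℤ), g • x = x) → IsAlgebraic ℂ⟮J⟯ x → x ∈ ℂ⟮J⟯)
    (hinv' : ∀ g ∈ Gamma0 (N * ℓ), ∀ w, g • ev' w = ev' w)
    (hcompat : ∀ f, ev' (heckeAlphaBar ℂ N ℓ f) = ev f)
    (hr : Function.Bijective
      (fun i => (r i : ↥(Gamma0 N) ⧸ (Gamma0 (N * ℓ)).subgroupOf (Gamma0 N))))
    (w : gi41_FC (N * ℓ)) :
    letI := algebraAlong (heckeAlphaBar ℂ N ℓ)
    ev (Algebra.trace (gi41_FC N) (gi41_FC (N * ℓ)) w) = ∑ i, (r i : SL(2, ℤ)) • ev' w := by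
  letI := algebraAlong (heckeAlphaBar ℂ N ℓ)
  have hfr : Module.finrank (gi41_FC N) (gi41_FC (N * ℓ)) = ℓ + 1 :=
    gi41_finrank_alpha ℂ N ℓ hℓ hNℓ
  haveI : FiniteDimensional (gi41_FC N) (gi41_FC (N * ℓ)) :=
    Module.finite_of_finrank_pos (by rw [hfr]; omega)
  haveI : CharZero (gi41_FC N) :=
    charZero_of_injective_algebraMap (algebraMap ℂ (gi41_FC N)).injective
  exact gc6ev_trace (gi41_rhoN N) ((Gamma0 (N * ℓ)).subgroupOf (Gamma0 N))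
    (ev : gi41_FC N →+* mer95_MER) (ev' : gi41_FC (N * ℓ) →+* mer95_MER)
    hcompat
    (fun g x => hinv g.1 g.2 x)
    (fun g hg w => hinv' g.1 (Subgroup.mem_subgroupOf.1 hg) w)
    (fun x hx hxalg => gi41_mer_K2_top N ev j0 J hj0 hJ hevj hinv hL1
      (fun g hg => hx ⟨g, hg⟩) hxalg)
    hr (by rw [hfr, gi41_card_reps N ℓ hℓ hNℓ hr]) w

/-- **(K2), relative**: a `Γ₀(N ℓ)`-invariant meromorphic function that is a root of a nonzero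
polynomial over `ev F_ℂ(N)` lies in `ev' F_ℂ(N ℓ)`. -/
theorem gi41_mer_rel_K2 (hℓ : ℓ.Prime) (hNℓ : ¬ ℓ ∣ N)
    (hj0 : (j0 : LaurentSeries ℂ) = jqModC ℂ)
    (hJ : ∀ g : SL(2, ℤ), g • J = J) (hevj : ev j0 = J)
    (hinv : ∀ g ∈ Gamma0 N, ∀ f, g • ev f = ev f)
    (hL1 : ∀ x : mer95_MER, (∀ g : SL(2, ℤ), g • x = x) → IsAlgebraic ℂ⟮J⟯ x → x ∈ ℂ⟮J⟯)
    (hinv' : ∀ g ∈ Gamma0 (N * ℓ), ∀ w, g • ev' w = ev' w)
    (hcompat : ∀ f, ev' (heckeAlphaBar ℂ N ℓ f) = ev f)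
    {x : mer95_MER} (hx : ∀ g ∈ Gamma0 (N * ℓ), g • x = x)
    (hxalg : ∃ P : (gi41_FC N)[X], P ≠ 0 ∧ P.eval₂ (ev : gi41_FC N →+* mer95_MER) x = 0) :
    ∃ w, ev' w = x := by
  letI := algebraAlong (heckeAlphaBar ℂ N ℓ)
  have hfr : Module.finrank (gi41_FC N) (gi41_FC (N * ℓ)) = ℓ + 1 :=
    gi41_finrank_alpha ℂ N ℓ hℓ hNℓ
  haveI : FiniteDimensional (gi41_FC N) (gi41_FC (N * ℓ)) :=
    Module.finite_of_finrank_pos (by rw [hfr]; omega)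
  haveI : CharZero (gi41_FC N) :=
    charZero_of_injective_algebraMap (algebraMap ℂ (gi41_FC N)).injective
  have hr := gc6_out_bijective ((Gamma0 (N * ℓ)).subgroupOf (Gamma0 N))
  haveI : ((Gamma0 (N * ℓ)).subgroupOf (Gamma0 N)).FiniteIndex :=
    ⟨by
      have h := gi41_relindex N ℓ hℓ hNℓ
      rw [Subgroup.relIndex] at h
      rw [h]; omega⟩
  haveI : Finite (↥(Gamma0 N) ⧸ (Gamma0 (N * ℓ)).subgroupOf (Gamma0 N)) :=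
    Subgroup.finite_quotient_of_finiteIndex
  letI : Fintype (↥(Gamma0 N) ⧸ (Gamma0 (N * ℓ)).subgroupOf (Gamma0 N)) := Fintype.ofFinite _
  exact gc6ev_mem (gi41_rhoN N) ((Gamma0 (N * ℓ)).subgroupOf (Gamma0 N))
    (ev : gi41_FC N →+* mer95_MER) (ev' : gi41_FC (N * ℓ) →+* mer95_MER)
    hcompat
    (fun g x => hinv g.1 g.2 x)
    (fun g hg w => hinv' g.1 (Subgroup.mem_subgroupOf.1 hg) w)
    (fun x hx hxalg => gi41_mer_K2_top N ev j0 J hj0 hJ hevj hinv hL1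
      (fun g hg => hx ⟨g, hg⟩) hxalg)
    hr (by rw [hfr, gi41_card_reps N ℓ hℓ hNℓ hr])
    (fun g hg => hx g.1 (Subgroup.mem_subgroupOf.1 hg)) hxalg

end Relative

end Fermat.Agent.S42
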