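import Mathlib

/-!
# S42 / M1 (level one), part 1: invariant functions of moderate growth are polynomials in `j`

Plain-function core of (L1) of Directive 11 (helper27).

* `l1j27_j` : the modular invariant `j = E₄³/Δ` on `ℍ`.
* `l1j27_form_eq` : a level one modular form of weight `12 M` is `Δ^M · P(j)`, `deg P ≤ M`.
* `l1j27_poly` (L1') : an `SL(2, ℤ)`-invariant holomorphic `y` with `|y| ≤ C (1 + |j|)^M`
  is `P(j)`, `deg P ≤ M`.
* `l1j27_integral` (L1'') : an `SL(2, ℤ)`-invariant holomorphic `y` which is a root of a monic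
  polynomial with coefficients in `ℂ[j]` is a polynomial in `j`.
-/

open UpperHalfPlane ModularForm EisensteinSeries MatrixGroups Filter Asymptotics
open scoped Manifold Topology

namespace Fermat.Agent.S42

/-- The modular invariant `j = E₄³ / Δ` (normalised so that `j = 1/q + ...`). -/
noncomputable def l1j27_j (z : ℍ) : ℂ := E₄ z ^ 3 / ModularForm.discriminant z

theorem l1j27_E4_cube (z : ℍ) : E₄ z ^ 3 = ModularForm.discriminant z * l1j27_j z := by
  unfold l1j27_j
  field_simp [discriminant_ne_zero z]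

/-- the `n`-th power of `E₄` has constant term `1`. -/
theorem l1j27_E4pow_coeff (n : ℕ) : (qExpansion 1 (E₄.pow n)).coeff 0 = 1 := by
  rw [ModularForm.qExpansion_pow one_pos one_mem_strictPeriods_SL]
  simp only [PowerSeries.coeff_zero_eq_constantCoeff, map_pow]
  have := E_qExpansion_coeff_zero (k := 4) (by norm_num) ⟨2, rfl⟩
  simp only [PowerSeries.coeff_zero_eq_constantCoeff] at this
  rw [this, one_pow]

/-- Every level one modular form of weight `12 M` is `Δ^M · P(j)` with `deg P ≤ M`. -/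
theorem l1j27_form_eq (M : ℕ) : ∀ (k : ℤ), k = 12 * (M : ℤ) → ∀ f : ModularForm 𝒮ℒ k,
    ∃ P : Polynomial ℂ, P.natDegree ≤ M ∧
      ∀ z : ℍ, f z = ModularForm.discriminant z ^ M * P.eval (l1j27_j z) := by
  induction M with
  | zero =>
    intro k hk f
    obtain rfl : k = 0 := by simpa using hk
    obtain ⟨c, hc⟩ := ModularFormClass.levelOne_weight_zero_const f
    refine ⟨Polynomial.C c, by simp, fun z => ?_⟩
    simp [hc]
  | succ M ih =>
    intro k hk f
    -- the comparison form `E₄^(3(M+1))`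
    let e : ModularForm 𝒮ℒ k := ModularForm.mcast (by rw [hk]; push_cast; ring) (E₄.pow (3 * (M + 1)))
    have he : (qExpansion 1 e).coeff 0 = 1 := l1j27_E4pow_coeff _
    have hcusp := ModularForm.sub_smul_isCuspForm f e he
    rw [isCuspForm_iff_coeffZero_eq_zero] at hcusp
    set a := (qExpansion 1 f).coeff 0 with ha
    let g := CuspForm.discriminantEquiv (toCuspForm (f - a • e) hcusp)
    obtain ⟨Q, hQ, hQe⟩ := ih (k - 12) (by rw [hk]; push_cast; ring) g
    refine ⟨Polynomial.C a * Polynomial.X ^ (M + 1) + Q, ?_, fun z => ?_⟩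
    · refine (Polynomial.natDegree_add_le _ _).trans (max_le ?_ (hQ.trans (Nat.le_succ M)))
      exact (Polynomial.natDegree_C_mul_le _ _).trans (Polynomial.natDegree_X_pow_le _)
    · have h1 : ModularForm.discriminant z * g z = f z - a * e z :=
        discriminant_mul_discriminantEquiv_apply (toCuspForm (f - a • e) hcusp) z
      have h2 : e z = E₄ z ^ (3 * (M + 1)) := by
        show (E₄.pow (3 * (M + 1))) z = _
        rw [ModularForm.coe_pow]; rfl
      have h3 : E₄ z ^ (3 * (M + 1)) = ModularForm.discriminant z ^ (M + 1) * l1j27_j z ^ (M + 1) := by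
        rw [pow_mul, l1j27_E4_cube, mul_pow]
      have h4 := hQe z
      simp only [Polynomial.eval_add, Polynomial.eval_mul, Polynomial.eval_C, Polynomial.eval_pow,
        Polynomial.eval_X]
      have : f z = a * e z + ModularForm.discriminant z * g z := by rw [h1]; ring
      rw [this, h2, h3, h4]
      ring

/-- transformation of `Δ` under `SL(2, ℤ)`. -/
theorem l1j27_disc_smul (g : SL(2, ℤ)) (z : ℍ) :
    ModularForm.discriminant (g • z) * denom g z ^ (-(12 : ℤ)) = ModularForm.discriminant z := by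
  have h := CuspForm.discriminant.slash_action_eq' (Matrix.SpecialLinearGroup.mapGL ℝ g) ⟨g, rfl⟩
  have h2 := congrFun h z
  rw [← ModularForm.SL_slash_apply]
  exact h2

/-- `j` is `SL(2, ℤ)`-invariant. -/
theorem l1j27_j_smul (g : SL(2, ℤ)) (z : ℍ) : l1j27_j (g • z) = l1j27_j z := by
  have h := E₄.slash_action_eq' (Matrix.SpecialLinearGroup.mapGL ℝ g) ⟨g, rfl⟩
  have h2 : E₄ (g • z) * denom g z ^ (-(4 : ℤ)) = E₄ z := by
    rw [← ModularForm.SL_slash_apply]; exact congrFun h z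
  have h3 := l1j27_disc_smul g z
  have hd : denom g z ≠ 0 := denom_ne_zero g z
  unfold l1j27_j
  rw [← h2, ← h3]
  have : ModularForm.discriminant (g • z) ≠ 0 := discriminant_ne_zero _
  field_simp

/-- The modular form `y · Δ^M` attached to an invariant holomorphic `y` of moderate growth. -/
noncomputable def l1j27_mk (y : ℍ → ℂ) (hy : MDifferentiable 𝓘(ℂ) 𝓘(ℂ) y)
    (hinv : ∀ (γ : SL(2, ℤ)) (z : ℍ), y (γ • z) = y z) (M : ℕ)
    (hb : IsBoundedAtImInfty (fun z => y z * ModularForm.discriminant z ^ M)) :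
    ModularForm 𝒮ℒ ((M : ℤ) * 12) where
  toFun := fun z => y z * ModularForm.discriminant z ^ M
  slash_action_eq' := by
    rintro γ ⟨g, rfl⟩
    ext z
    show ((fun z => y z * ModularForm.discriminant z ^ M) ∣[(M : ℤ) * 12] g) z = _
    rw [ModularForm.SL_slash_apply, hinv]
    have h3 := l1j27_disc_smul g z
    rw [← h3, mul_pow, ← zpow_natCast (denom g z ^ (-(12:ℤ))) M, ← zpow_mul, mul_assoc]
    congr 2
    ring_nf
  holo' := hy.mul (CuspForm.discriminant.holo'.pow M)
  bdd_at_cusps' := fun {c} hc => by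
    rw [Subgroup.IsArithmetic.isCusp_iff_isCusp_SL2Z] at hc
    rw [OnePoint.isBoundedAt_iff_forall_SL2Z hc]
    intro g _
    have : (fun z => y z * ModularForm.discriminant z ^ M) ∣[(M : ℤ) * 12] g
        = fun z => y z * ModularForm.discriminant z ^ M := by
      ext z
      rw [ModularForm.SL_slash_apply, hinv]
      have h3 := l1j27_disc_smul g z
      rw [← h3, mul_pow, ← zpow_natCast (denom g z ^ (-(12:ℤ))) M, ← zpow_mul, mul_assoc]
      congr 2
      ring_nf
    rw [this]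
    exact hb

/-- growth bound `|y| ≤ C (1 + |j|)^M` makes `y · Δ^M` bounded at `i∞`. -/
theorem l1j27_bdd (y : ℍ → ℂ) (C : ℝ) (M : ℕ)
    (hb : ∀ z : ℍ, ‖y z‖ ≤ C * (1 + ‖l1j27_j z‖) ^ M) :
    IsBoundedAtImInfty (fun z => y z * ModularForm.discriminant z ^ M) := by
  have hE : IsBoundedAtImInfty (E₄ : ℍ → ℂ) := ModularFormClass.bdd_at_infty E₄
  have hD : IsBoundedAtImInfty (ModularForm.discriminant : ℍ → ℂ) :=
    discriminant_isZeroAtImInfty.boundedAtFilter
  obtain ⟨A, hA⟩ := hE.bound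
  obtain ⟨B, hB⟩ := hD.bound
  have hC : 0 ≤ C := by
    have h0 := (norm_nonneg _).trans (hb UpperHalfPlane.I)
    exact nonneg_of_mul_nonneg_left h0 (by positivity)
  refine IsBigO.of_bound (C * (B + A ^ 3) ^ M) ?_
  filter_upwards [hA, hB] with z hzA hzB
  simp only [Pi.one_apply, norm_one, mul_one] at hzA hzB ⊢
  rw [norm_mul, norm_pow]
  have h1 : (1 + ‖l1j27_j z‖) * ‖ModularForm.discriminant z‖
      = ‖ModularForm.discriminant z‖ + ‖E₄ z‖ ^ 3 := by
    rw [← norm_pow, l1j27_E4_cube, norm_mul]; ring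
  calc ‖y z‖ * ‖ModularForm.discriminant z‖ ^ M
      ≤ C * (1 + ‖l1j27_j z‖) ^ M * ‖ModularForm.discriminant z‖ ^ M :=
        mul_le_mul_of_nonneg_right (hb z) (by positivity)
    _ = C * (‖ModularForm.discriminant z‖ + ‖E₄ z‖ ^ 3) ^ M := by
        rw [mul_assoc, ← mul_pow, h1]
    _ ≤ C * (B + A ^ 3) ^ M := by
        gcongr

/-- **(L1')** An `SL(2, ℤ)`-invariant holomorphic function on `ℍ` with `|y| ≤ C (1 + |j|)^M`
is a polynomial of degree `≤ M` in `j`. -/
theorem l1j27_poly (y : ℍ → ℂ) (hy : MDifferentiable 𝓘(ℂ) 𝓘(ℂ) y)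
    (hinv : ∀ (γ : SL(2, ℤ)) (z : ℍ), y (γ • z) = y z) (C : ℝ) (M : ℕ)
    (hb : ∀ z : ℍ, ‖y z‖ ≤ C * (1 + ‖l1j27_j z‖) ^ M) :
    ∃ P : Polynomial ℂ, P.natDegree ≤ M ∧ ∀ z : ℍ, y z = P.eval (l1j27_j z) := by
  obtain ⟨P, hP, hPe⟩ := l1j27_form_eq M _ (by ring)
    (l1j27_mk y hy hinv M (l1j27_bdd y C M hb))
  refine ⟨P, hP, fun z => ?_⟩
  have h := hPe z
  have h' : y z * ModularForm.discriminant z ^ M
      = ModularForm.discriminant z ^ M * P.eval (l1j27_j z) := h
  exact mul_right_cancel₀ (pow_ne_zero M (discriminant_ne_zero z)) (by rw [h']; ring)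

/-- Cauchy bound for a root of a monic polynomial, in sum form. -/
theorem l1j27_root_bound (p : Polynomial ℂ) (hp : p.Monic) (a : ℂ) (h : p.eval a = 0) :
    ‖a‖ ≤ 1 + ∑ i ∈ Finset.range p.natDegree, ‖p.coeff i‖ := by
  have h1 := Polynomial.IsRoot.norm_lt_cauchyBound hp.ne_zero (a := a) h
  have h2 : Polynomial.cauchyBound p ≤ ∑ i ∈ Finset.range p.natDegree, ‖p.coeff i‖₊ + 1 := by
    unfold Polynomial.cauchyBound
    rw [hp.leadingCoeff, nnnorm_one, div_one]
    gcongr
    exact Finset.sup_le fun i hi =>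
      Finset.single_le_sum (f := fun i => ‖p.coeff i‖₊) (fun _ _ => by positivity) hi
  have h3 := (h1.trans_le h2).le
  have h4 : (‖a‖₊ : ℝ) ≤ ((∑ i ∈ Finset.range p.natDegree, ‖p.coeff i‖₊ + 1 : NNReal) : ℝ) := by
    exact_mod_cast h3
  push_cast at h4
  linarith

/-- polynomial growth of a polynomial. -/
theorem l1j27_eval_bound (a : Polynomial ℂ) (w : ℂ) :
    ‖a.eval w‖ ≤ (∑ k ∈ Finset.range (a.natDegree + 1), ‖a.coeff k‖) * (1 + ‖w‖) ^ a.natDegree := by
  rw [Polynomial.eval_eq_sum_range, Finset.sum_mul]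
  refine (norm_sum_le _ _).trans (Finset.sum_le_sum fun k hk => ?_)
  rw [norm_mul, norm_pow]
  have hk' : k ≤ a.natDegree := by simpa [Nat.lt_succ_iff] using hk
  have : ‖w‖ ^ k ≤ (1 + ‖w‖) ^ a.natDegree :=
    calc ‖w‖ ^ k ≤ (1 + ‖w‖) ^ k := by gcongr; linarith
      _ ≤ (1 + ‖w‖) ^ a.natDegree := pow_le_pow_right₀ (by linarith [norm_nonneg w]) hk'
  gcongr

/-- **(L1'')** An `SL(2, ℤ)`-invariant holomorphic function on `ℍ` which is a root of a monic
polynomial with coefficients in `ℂ[j]` is a polynomial in `j`. -/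
theorem l1j27_integral (y : ℍ → ℂ) (hy : MDifferentiable 𝓘(ℂ) 𝓘(ℂ) y)
    (hinv : ∀ (γ : SL(2, ℤ)) (z : ℍ), y (γ • z) = y z)
    (Q : Polynomial (Polynomial ℂ)) (hQ : Q.Monic)
    (hroot : ∀ z : ℍ, (Q.map (Polynomial.evalRingHom (l1j27_j z))).eval (y z) = 0) :
    ∃ P : Polynomial ℂ, ∀ z : ℍ, y z = P.eval (l1j27_j z) := by
  set n := Q.natDegree with hn
  set A : ℕ → ℝ := fun i => ∑ k ∈ Finset.range ((Q.coeff i).natDegree + 1), ‖(Q.coeff i).coeff k‖
    with hA
  set M : ℕ := (Finset.range n).sup fun i => (Q.coeff i).natDegree with hM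
  have hA0 : ∀ i, 0 ≤ A i := fun i => Finset.sum_nonneg fun _ _ => norm_nonneg _
  have hb : ∀ z : ℍ, ‖y z‖ ≤ (1 + ∑ i ∈ Finset.range n, A i) * (1 + ‖l1j27_j z‖) ^ M := by
    intro z
    have hmon : (Q.map (Polynomial.evalRingHom (l1j27_j z))).Monic := hQ.map _
    have h1 := l1j27_root_bound _ hmon (y z) (hroot z)
    rw [hQ.natDegree_map] at h1
    have hone : (1 : ℝ) ≤ 1 + ‖l1j27_j z‖ := by linarith [norm_nonneg (l1j27_j z)]
    have h2 : ∀ i ∈ Finset.range n, ‖(Q.map (Polynomial.evalRingHom (l1j27_j z))).coeff i‖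
        ≤ A i * (1 + ‖l1j27_j z‖) ^ M := by
      intro i hi
      rw [Polynomial.coeff_map, Polynomial.coe_evalRingHom]
      refine (l1j27_eval_bound (Q.coeff i) (l1j27_j z)).trans ?_
      have : (Q.coeff i).natDegree ≤ M := Finset.le_sup (f := fun i => (Q.coeff i).natDegree) hi
      exact mul_le_mul_of_nonneg_left (pow_le_pow_right₀ hone this) (hA0 i)
    calc ‖y z‖ ≤ 1 + ∑ i ∈ Finset.range n, ‖(Q.map (Polynomial.evalRingHom (l1j27_j z))).coeff i‖ := h1
      _ ≤ 1 + ∑ i ∈ Finset.range n, A i * (1 + ‖l1j27_j z‖) ^ M := by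
          gcongr with i hi; exact h2 i hi
      _ ≤ (1 + ‖l1j27_j z‖) ^ M + ∑ i ∈ Finset.range n, A i * (1 + ‖l1j27_j z‖) ^ M := by
          gcongr; exact one_le_pow₀ hone
      _ = (1 + ∑ i ∈ Finset.range n, A i) * (1 + ‖l1j27_j z‖) ^ M := by
          rw [add_mul, one_mul, Finset.sum_mul]
  obtain ⟨P, -, hP⟩ := l1j27_poly y hy hinv (1 + ∑ i ∈ Finset.range n, A i) M hb
  exact ⟨P, hP⟩

end Fermat.Agent.S42
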