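import Mathlib
import Fermat.Agent.S42.LevelOne27

/-!
# S42 / M1 (level one), part 2: the order of `j − j(τ)` is `1`, `2` or `3`

Plain-function core of (L2) of Directive 11 (helper27).

* `l1j27_B_eq` : the bracket identity `2 E₄ D E₆ − 3 E₆ D E₄ = −1728 Δ`
  (`D = (2πi)⁻¹ d/dz`), proved from `dim S₁₂ = 1` and the `q`-coefficients.
* `l1j27_E4_simple`, `l1j27_E6_simple` : the zeros of `E₄`, `E₆` are simple.
* `l1j27_j_hasDerivAt` : `j' = −2πi E₄² E₆ / Δ`.
* `l1j27_ord_eq_three`, `l1j27_ord_eq_two`, `l1j27_ord_eq_one`, `l1j27_ord` (L2'),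
  `l1j27_ord_eq_three_iff`, `l1j27_ord_eq_two_iff`, `l1j27_ord_sub_const`.
-/

open UpperHalfPlane ModularForm EisensteinSeries MatrixGroups Filter Asymptotics
open scoped Manifold Topology
open Function.Periodic (qParam)

namespace Fermat.Agent.S42

/-- `D F = q · (cuspFunction F)'(q)` for a level one modular form. -/
theorem l1j27_D_eq {k : ℤ} (F : ModularForm 𝒮ℒ k) (z : ℍ) :
    Derivative.normalizedDerivOfComplex F z
      = qParam 1 z * deriv (cuspFunction 1 F) (qParam 1 z) := by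
  unfold Derivative.normalizedDerivOfComplex
  have hq : ‖qParam 1 (z : ℂ)‖ < 1 := Function.Periodic.norm_qParam_lt_one one_pos z.im_pos
  have hd : DifferentiableAt ℂ (cuspFunction 1 F) (qParam 1 z) :=
    ModularFormClass.differentiableAt_cuspFunction F one_pos one_mem_strictPeriods_SL hq
  have hcomp : (F ∘ ofComplex) =ᶠ[𝓝 (z : ℂ)] (cuspFunction 1 F) ∘ (qParam 1) := by
    filter_upwards [isOpen_upperHalfPlaneSet.mem_nhds z.im_pos] with w hw
    simp only [Function.comp_apply]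
    have := SlashInvariantFormClass.eq_cuspFunction F (ofComplex w) one_mem_strictPeriods_SL
      one_ne_zero
    rw [← this]
    congr 1
    simp [ofComplex_apply_of_im_pos hw]
  have hqd : HasDerivAt (qParam 1) (qParam 1 (z : ℂ) * (2 * Real.pi * Complex.I)) (z : ℂ) := by
    unfold qParam
    have h1 : HasDerivAt (fun w : ℂ => 2 * Real.pi * Complex.I * w / (1 : ℝ))
        (2 * Real.pi * Complex.I) (z : ℂ) := by
      have := ((hasDerivAt_id (z : ℂ)).const_mul (2 * Real.pi * Complex.I)).div_const ((1 : ℝ) : ℂ)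
      simpa using this
    exact h1.cexp
  rw [hcomp.deriv_eq, deriv_comp (z : ℂ) hd hqd.differentiableAt, hqd.deriv]
  have : (2 * (Real.pi : ℂ) * Complex.I) ≠ 0 := Complex.two_pi_I_ne_zero
  field_simp

/-- `D F` vanishes at `i∞`. -/
theorem l1j27_D_zero {k : ℤ} (F : ModularForm 𝒮ℒ k) :
    IsZeroAtImInfty (Derivative.normalizedDerivOfComplex F) := by
  have hq := qParam_tendsto_atImInfty (h := 1) one_pos
  have han := ModularFormClass.analyticAt_cuspFunction_zero F one_pos one_mem_strictPeriods_SL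
  have hcont : ContinuousAt (deriv (cuspFunction 1 F)) 0 := han.deriv.continuousAt
  have := hq.mul (hcont.tendsto.comp hq)
  simp only [zero_mul] at this
  exact this.congr (fun z => (l1j27_D_eq F z).symm)

/-- `D F / q → a₁(F)` at `i∞`. -/
theorem l1j27_D_div_tendsto {k : ℤ} (F : ModularForm 𝒮ℒ k) :
    Tendsto (fun z : ℍ => Derivative.normalizedDerivOfComplex F z / qParam 1 z) atImInfty
      (𝓝 ((qExpansion 1 F).coeff 1)) := by
  have hq := qParam_tendsto_atImInfty (h := 1) one_pos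
  have han := ModularFormClass.analyticAt_cuspFunction_zero F one_pos one_mem_strictPeriods_SL
  have hcont : ContinuousAt (deriv (cuspFunction 1 F)) 0 := han.deriv.continuousAt
  have h1 : (qExpansion 1 F).coeff 1 = deriv (cuspFunction 1 F) 0 := by
    simp [qExpansion_coeff]
  rw [h1]
  refine (hcont.tendsto.comp hq).congr (fun z => ?_)
  rw [l1j27_D_eq]
  have : qParam 1 (z : ℂ) ≠ 0 := Function.Periodic.qParam_ne_zero _
  simp only [Function.comp_apply]
  field_simp

/-- `F → a₀(F)` at `i∞`. -/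
theorem l1j27_tendsto {k : ℤ} (F : ModularForm 𝒮ℒ k) :
    Tendsto (fun z : ℍ => F z) atImInfty (𝓝 ((qExpansion 1 F).coeff 0)) := by
  have hq := qParam_tendsto_atImInfty (h := 1) one_pos
  have han := ModularFormClass.analyticAt_cuspFunction_zero F one_pos one_mem_strictPeriods_SL
  have h1 : (qExpansion 1 F).coeff 0 = cuspFunction 1 F 0 := by
    simp [qExpansion_coeff]
  rw [h1]
  refine (han.continuousAt.tendsto.comp hq).congr (fun z => ?_)
  exact SlashInvariantFormClass.eq_cuspFunction F z one_mem_strictPeriods_SL one_ne_zero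

/-- transformation of a level one form under `SL(2, ℤ)`. -/
theorem l1j27_form_smul {k : ℤ} (F : ModularForm 𝒮ℒ k) (g : SL(2, ℤ)) (z : ℍ) :
    F (g • z) * denom g z ^ (-k) = F z := by
  have h := F.slash_action_eq' (Matrix.SpecialLinearGroup.mapGL ℝ g) ⟨g, rfl⟩
  rw [← ModularForm.SL_slash_apply]
  exact congrFun h z

/-- transformation of `D F` under `SL(2, ℤ)`. -/
theorem l1j27_D_smul {k : ℤ} (F : ModularForm 𝒮ℒ k) (g : SL(2, ℤ)) (z : ℍ) :
    Derivative.normalizedDerivOfComplex F (g • z) * denom g z ^ (-(k + 2))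
      = Derivative.normalizedDerivOfComplex F z
        + (k : ℂ) * (2 * Real.pi * Complex.I)⁻¹ * (g 1 0 / denom g z) * F z := by
  have h := F.slash_action_eq' (Matrix.SpecialLinearGroup.mapGL ℝ g) ⟨g, rfl⟩
  have h' : (⇑F) ∣[k] g = ⇑F := h
  have h1 := Derivative.normalizedDerivOfComplex_SL_slash (k := k) (F := ⇑F) F.holo' (γ := g)
  rw [h'] at h1
  have h2 := congrFun h1 z
  simp only [Pi.sub_apply] at h2
  rw [ModularForm.SL_slash_apply] at h2
  rw [h2]
  ring

/-- The bracket `2 E₄ D E₆ − 3 E₆ D E₄` (first Rankin–Cohen bracket of `E₄`, `E₆`). -/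
noncomputable def l1j27_B (z : ℍ) : ℂ :=
  2 * E₄ z * Derivative.normalizedDerivOfComplex E₆ z
    - 3 * E₆ z * Derivative.normalizedDerivOfComplex E₄ z

theorem l1j27_B_smul (g : SL(2, ℤ)) (z : ℍ) :
    l1j27_B (g • z) * denom g z ^ (-(12 : ℤ)) = l1j27_B z := by
  have hd : denom g z ≠ 0 := denom_ne_zero g z
  have h4 := l1j27_form_smul E₄ g z
  have h6 := l1j27_form_smul E₆ g z
  have hD4 := l1j27_D_smul E₄ g z
  have hD6 := l1j27_D_smul E₆ g z
  have e1 : denom g z ^ (-(12 : ℤ)) = denom g z ^ (-(4 : ℤ)) * denom g z ^ (-(8 : ℤ)) := by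
    rw [← zpow_add₀ hd]; norm_num
  have e2 : denom g z ^ (-(12 : ℤ)) = denom g z ^ (-(6 : ℤ)) * denom g z ^ (-(6 : ℤ)) := by
    rw [← zpow_add₀ hd]; norm_num
  unfold l1j27_B
  have hD4' : Derivative.normalizedDerivOfComplex E₄ (g • z) * denom g z ^ (-(6 : ℤ)) = _ := hD4
  have hD6' : Derivative.normalizedDerivOfComplex E₆ (g • z) * denom g z ^ (-(8 : ℤ)) = _ := hD6
  push_cast at hD4' hD6'
  linear_combination (2 * E₄ (g • z) * Derivative.normalizedDerivOfComplex E₆ (g • z)) * e1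
    - (3 * E₆ (g • z) * Derivative.normalizedDerivOfComplex E₄ (g • z)) * e2
    + (2 * Derivative.normalizedDerivOfComplex E₆ (g • z) * denom g z ^ (-(8 : ℤ))) * h4
    + (2 * E₄ z) * hD6'
    - (3 * Derivative.normalizedDerivOfComplex E₄ (g • z) * denom g z ^ (-(6 : ℤ))) * h6
    - (3 * E₆ z) * hD4'

theorem l1j27_B_zero : IsZeroAtImInfty l1j27_B := by
  have h4 := l1j27_tendsto E₄
  have h6 := l1j27_tendsto E₆
  have hD4 : Tendsto (Derivative.normalizedDerivOfComplex E₄) atImInfty (𝓝 0) := l1j27_D_zero E₄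
  have hD6 : Tendsto (Derivative.normalizedDerivOfComplex E₆) atImInfty (𝓝 0) := l1j27_D_zero E₆
  have := ((h4.const_mul 2).mul hD6).sub ((h6.const_mul 3).mul hD4)
  simp only [mul_zero, sub_zero] at this
  exact this.congr (fun z => by simp [l1j27_B])

theorem l1j27_B_holo : MDifferentiable 𝓘(ℂ) 𝓘(ℂ) l1j27_B := by
  have h4 : MDifferentiable 𝓘(ℂ) 𝓘(ℂ) (E₄ : ℍ → ℂ) := E₄.holo'
  have h6 : MDifferentiable 𝓘(ℂ) 𝓘(ℂ) (E₆ : ℍ → ℂ) := E₆.holo'
  have hD4 := Derivative.normalizedDerivOfComplex_mdifferentiable h4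
  have hD6 := Derivative.normalizedDerivOfComplex_mdifferentiable h6
  exact ((mdifferentiable_const.mul h4).mul hD6).sub ((mdifferentiable_const.mul h6).mul hD4)

/-- The bracket as a cusp form of weight 12. -/
noncomputable def l1j27_Bform : CuspForm 𝒮ℒ 12 where
  toFun := l1j27_B
  slash_action_eq' := by
    rintro γ ⟨g, rfl⟩
    ext z
    show (l1j27_B ∣[(12 : ℤ)] g) z = _
    rw [ModularForm.SL_slash_apply]
    exact l1j27_B_smul g z
  holo' := l1j27_B_holo
  zero_at_cusps' := fun {c} hc => by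
    rw [Subgroup.IsArithmetic.isCusp_iff_isCusp_SL2Z] at hc
    rw [OnePoint.isZeroAt_iff_forall_SL2Z hc]
    intro g _
    have : l1j27_B ∣[(12 : ℤ)] g = l1j27_B := by
      ext z
      rw [ModularForm.SL_slash_apply]
      exact l1j27_B_smul g z
    rw [this]
    exact l1j27_B_zero

/-- **Bracket identity** `2 E₄ D E₆ − 3 E₆ D E₄ = −1728 Δ`. -/
theorem l1j27_B_eq (z : ℍ) : l1j27_B z = -1728 * ModularForm.discriminant z := by
  obtain ⟨c, hc⟩ := CuspForm.exists_smul_discriminant_of_weight_eq_twelve l1j27_Bform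
  have hcz : ∀ z : ℍ, l1j27_B z = c * ModularForm.discriminant z := by
    intro z
    have := congrArg (fun f : CuspForm 𝒮ℒ 12 => f z) hc
    exact this.symm
  -- compare the limits of `B / q` at `i∞`
  have h4 := l1j27_tendsto E₄
  have h6 := l1j27_tendsto E₆
  rw [E_qExpansion_coeff_zero (k := 4) (by norm_num) ⟨2, rfl⟩] at h4
  rw [E_qExpansion_coeff_zero (k := 6) (by norm_num) ⟨3, rfl⟩] at h6
  have hD4 := l1j27_D_div_tendsto E₄
  have hD6 := l1j27_D_div_tendsto E₆
  rw [E₄_qExpansion_coeff_one] at hD4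
  rw [E₆_qExpansion_coeff_one] at hD6
  have hlim1 : Tendsto (fun z : ℍ => l1j27_B z / qParam 1 z) atImInfty (𝓝 (-1728)) := by
    have := ((h4.const_mul 2).mul hD6).sub ((h6.const_mul 3).mul hD4)
    have e : (2 * 1 * (-504) - 3 * 1 * 240 : ℂ) = -1728 := by norm_num
    rw [e] at this
    refine this.congr (fun z => ?_)
    simp only [l1j27_B]
    ring
  have hlim2 : Tendsto (fun z : ℍ => l1j27_B z / qParam 1 z) atImInfty (𝓝 c) := by
    have := (tendsto_atImInfty_tprod_one_sub_eta_q_pow.const_mul c)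
    rw [mul_one] at this
    refine this.congr (fun z => ?_)
    rw [hcz z, discriminant_eq_q_prod]
    have : qParam 1 (z : ℂ) ≠ 0 := Function.Periodic.qParam_ne_zero _
    field_simp
  have hc' : c = -1728 := tendsto_nhds_unique hlim2 hlim1
  rw [hcz z, hc']

/-- `E₄` and `E₆` have no common zero. -/
theorem l1j27_E4_E6_ne (z : ℍ) : E₄ z ≠ 0 ∨ E₆ z ≠ 0 := by
  by_contra h
  push Not at h
  have := discriminant_eq_E₄_cube_sub_E₆_sq z
  rw [h.1, h.2] at this
  exact discriminant_ne_zero z (by rw [this]; norm_num)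

theorem l1j27_DE4_ne (z : ℍ) (h : E₄ z = 0) : Derivative.normalizedDerivOfComplex E₄ z ≠ 0 := by
  intro h0
  have := l1j27_B_eq z
  unfold l1j27_B at this
  rw [h, h0] at this
  exact discriminant_ne_zero z (by linear_combination (1 / 1728 : ℂ) * this)

theorem l1j27_DE6_ne (z : ℍ) (h : E₆ z = 0) : Derivative.normalizedDerivOfComplex E₆ z ≠ 0 := by
  intro h0
  have := l1j27_B_eq z
  unfold l1j27_B at this
  rw [h, h0] at this
  exact discriminant_ne_zero z (by linear_combination (1 / 1728 : ℂ) * this)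

/-- a holomorphic function on `ℍ`, read on `ℂ`, is analytic at points of `ℍ`. -/
theorem l1j27_analyticAt {F : ℍ → ℂ} (hF : MDifferentiable 𝓘(ℂ) 𝓘(ℂ) F) (τ : ℍ) :
    AnalyticAt ℂ (F ∘ ofComplex) (τ : ℂ) :=
  (UpperHalfPlane.mdifferentiable_iff.mp hF).analyticAt
    (isOpen_upperHalfPlaneSet.mem_nhds τ.im_pos)

theorem l1j27_deriv_eq (F : ℍ → ℂ) (τ : ℍ) :
    deriv (F ∘ ofComplex) (τ : ℂ)
      = 2 * Real.pi * Complex.I * Derivative.normalizedDerivOfComplex F τ := by
  unfold Derivative.normalizedDerivOfComplex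
  have : (2 * (Real.pi : ℂ) * Complex.I) ≠ 0 := Complex.two_pi_I_ne_zero
  field_simp

/-- zeros of `E₄` are simple. -/
theorem l1j27_E4_simple (τ : ℍ) (h : E₄ τ = 0) :
    analyticOrderAt ((E₄ : ℍ → ℂ) ∘ ofComplex) (τ : ℂ) = 1 := by
  refine (l1j27_analyticAt (ModularFormClass.holo E₄) τ).analyticOrderAt_eq_one_of_zero_deriv_ne_zero ?_ ?_
  · simpa using h
  · rw [l1j27_deriv_eq]
    exact mul_ne_zero Complex.two_pi_I_ne_zero (l1j27_DE4_ne τ h)

/-- zeros of `E₆` are simple. -/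
theorem l1j27_E6_simple (τ : ℍ) (h : E₆ τ = 0) :
    analyticOrderAt ((E₆ : ℍ → ℂ) ∘ ofComplex) (τ : ℂ) = 1 := by
  refine (l1j27_analyticAt (ModularFormClass.holo E₆) τ).analyticOrderAt_eq_one_of_zero_deriv_ne_zero ?_ ?_
  · simpa using h
  · rw [l1j27_deriv_eq]
    exact mul_ne_zero Complex.two_pi_I_ne_zero (l1j27_DE6_ne τ h)

theorem l1j27_disc_inv_analyticAt (τ : ℍ) :
    AnalyticAt ℂ (fun w : ℂ => (ModularForm.discriminant (ofComplex w))⁻¹) (τ : ℂ) := by
  have h := l1j27_analyticAt (ModularFormClass.holo CuspForm.discriminant) τ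
  exact h.inv (by simpa using discriminant_ne_zero τ)

/-- `ord_τ (j − j(τ)) = 3` at the zeros of `E₄`. -/
theorem l1j27_ord_eq_three (τ : ℍ) (h : E₄ τ = 0) :
    analyticOrderAt (fun w : ℂ => l1j27_j (ofComplex w) - l1j27_j τ) (τ : ℂ) = 3 := by
  have hj : l1j27_j τ = 0 := by simp [l1j27_j, h]
  have e : (fun w : ℂ => l1j27_j (ofComplex w) - l1j27_j τ)
      = ((E₄ : ℍ → ℂ) ∘ ofComplex) ^ 3 * (fun w : ℂ => (ModularForm.discriminant (ofComplex w))⁻¹) := by
    funext w
    rw [hj, sub_zero]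
    simp [l1j27_j, div_eq_mul_inv]
  have h4 := l1j27_analyticAt (ModularFormClass.holo E₄) τ
  have hd := l1j27_disc_inv_analyticAt τ
  rw [e, analyticOrderAt_mul (h4.pow 3) hd, analyticOrderAt_pow h4, l1j27_E4_simple τ h,
    hd.analyticOrderAt_eq_zero.mpr (by simpa using discriminant_ne_zero τ)]
  norm_num

/-- `ord_τ (j − j(τ)) = 2` at the zeros of `E₆`. -/
theorem l1j27_ord_eq_two (τ : ℍ) (h : E₆ τ = 0) :
    analyticOrderAt (fun w : ℂ => l1j27_j (ofComplex w) - l1j27_j τ) (τ : ℂ) = 2 := by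
  have hj : l1j27_j τ = 1728 := by
    have := discriminant_eq_E₄_cube_sub_E₆_sq τ
    rw [h] at this
    unfold l1j27_j
    rw [div_eq_iff (discriminant_ne_zero τ), this]
    ring
  have e : (fun w : ℂ => l1j27_j (ofComplex w) - l1j27_j τ)
      = ((E₆ : ℍ → ℂ) ∘ ofComplex) ^ 2 * (fun w : ℂ => (ModularForm.discriminant (ofComplex w))⁻¹) := by
    funext w
    have := discriminant_eq_E₄_cube_sub_E₆_sq (ofComplex w)
    have hne := discriminant_ne_zero (ofComplex w)
    rw [hj]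
    simp only [l1j27_j, Pi.mul_apply, Pi.pow_apply, Function.comp_apply]
    field_simp
    rw [this]
    ring
  have h6 := l1j27_analyticAt (ModularFormClass.holo E₆) τ
  have hd := l1j27_disc_inv_analyticAt τ
  rw [e, analyticOrderAt_mul (h6.pow 2) hd, analyticOrderAt_pow h6, l1j27_E6_simple τ h,
    hd.analyticOrderAt_eq_zero.mpr (by simpa using discriminant_ne_zero τ)]
  norm_num

/-- `j` is holomorphic on `ℍ`. -/
theorem l1j27_j_holo : MDifferentiable 𝓘(ℂ) 𝓘(ℂ) l1j27_j :=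
  ((ModularFormClass.holo E₄).pow 3).div (ModularFormClass.holo CuspForm.discriminant)
    discriminant_ne_zero

theorem l1j27_hasDerivAt {F : ℍ → ℂ} (hF : MDifferentiable 𝓘(ℂ) 𝓘(ℂ) F) (τ : ℍ) :
    HasDerivAt (F ∘ ofComplex)
      (2 * Real.pi * Complex.I * Derivative.normalizedDerivOfComplex F τ) (τ : ℂ) := by
  rw [← l1j27_deriv_eq]
  exact (l1j27_analyticAt hF τ).differentiableAt.hasDerivAt

/-- the derivative of `j`:  `j' = −2πi · E₄² E₆ / Δ`. -/
theorem l1j27_j_hasDerivAt (τ : ℍ) :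
    HasDerivAt (fun w : ℂ => l1j27_j (ofComplex w))
      (-(2 * Real.pi * Complex.I) * E₄ τ ^ 2 * E₆ τ / ModularForm.discriminant τ) (τ : ℂ) := by
  have h4 := l1j27_hasDerivAt (ModularFormClass.holo E₄) τ
  have h6 := l1j27_hasDerivAt (ModularFormClass.holo E₆) τ
  have hdl : HasDerivAt (fun w : ℂ => ModularForm.discriminant (ofComplex w))
      ((3 * E₄ τ ^ 2 * (2 * Real.pi * Complex.I * Derivative.normalizedDerivOfComplex E₄ τ)
        - 2 * E₆ τ * (2 * Real.pi * Complex.I * Derivative.normalizedDerivOfComplex E₆ τ)) / 1728)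
      (τ : ℂ) := by
    have e : (fun w : ℂ => ModularForm.discriminant (ofComplex w))
        = fun w : ℂ => ((((E₄ : ℍ → ℂ) ∘ ofComplex) w) ^ 3 - (((E₆ : ℍ → ℂ) ∘ ofComplex) w) ^ 2) / 1728 := by
      funext w
      exact discriminant_eq_E₄_cube_sub_E₆_sq (ofComplex w)
    rw [e]
    have key : HasDerivAt
        (fun w : ℂ => ((((E₄ : ℍ → ℂ) ∘ ofComplex) w) ^ 3 - (((E₆ : ℍ → ℂ) ∘ ofComplex) w) ^ 2) / 1728)
        _ (τ : ℂ) := ((h4.pow 3).sub (h6.pow 2)).div_const 1728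
    refine key.congr_deriv ?_
    simp only [Function.comp_apply, ofComplex_apply]
    norm_num
  have hne : ModularForm.discriminant (ofComplex (τ : ℂ)) ≠ 0 := discriminant_ne_zero _
  have hq := (h4.pow 3).div hdl hne
  have hB := l1j27_B_eq τ
  unfold l1j27_B at hB
  have hD := discriminant_eq_E₄_cube_sub_E₆_sq τ
  have e2 : (fun w : ℂ => l1j27_j (ofComplex w))
      = fun w : ℂ => (((E₄ : ℍ → ℂ) ∘ ofComplex) w) ^ 3 / ModularForm.discriminant (ofComplex w) := by
    funext w; rfl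
  rw [e2]
  have key : HasDerivAt
      (fun w : ℂ => (((E₄ : ℍ → ℂ) ∘ ofComplex) w) ^ 3 / ModularForm.discriminant (ofComplex w))
      _ (τ : ℂ) := hq
  refine key.congr_deriv ?_
  simp only [Function.comp_apply, ofComplex_apply, Pi.pow_apply]
  have hne' : ModularForm.discriminant τ ≠ 0 := discriminant_ne_zero _
  field_simp
  linear_combination (3 * E₄ τ ^ 2 * Derivative.normalizedDerivOfComplex E₄ τ * 1728) * hD
    + (E₄ τ ^ 2 * E₆ τ) * hB

/-- `ord_τ (j − j(τ)) = 1` away from the zeros of `E₄ E₆`. -/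
theorem l1j27_ord_eq_one (τ : ℍ) (h4 : E₄ τ ≠ 0) (h6 : E₆ τ ≠ 0) :
    analyticOrderAt (fun w : ℂ => l1j27_j (ofComplex w) - l1j27_j τ) (τ : ℂ) = 1 := by
  have han : AnalyticAt ℂ (fun w : ℂ => l1j27_j (ofComplex w)) (τ : ℂ) :=
    l1j27_analyticAt l1j27_j_holo τ
  have hd := l1j27_j_hasDerivAt τ
  have hne : deriv (fun w : ℂ => l1j27_j (ofComplex w)) (τ : ℂ) ≠ 0 := by
    rw [hd.deriv]
    have h1 : (2 * (Real.pi : ℂ) * Complex.I) ≠ 0 := Complex.two_pi_I_ne_zero
    have h2 : ModularForm.discriminant τ ≠ 0 := discriminant_ne_zero τ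
    exact div_ne_zero (mul_ne_zero (mul_ne_zero (neg_ne_zero.mpr h1) (pow_ne_zero 2 h4)) h6) h2
  have := han.analyticOrderAt_sub_eq_one_of_deriv_ne_zero hne
  simpa only [ofComplex_apply] using this

/-- **(L2')** `ord_τ (j − j(τ)) ∈ {1, 2, 3}` for every `τ ∈ ℍ`. -/
theorem l1j27_ord (τ : ℍ) :
    analyticOrderAt (fun w : ℂ => l1j27_j (ofComplex w) - l1j27_j τ) (τ : ℂ)
      ∈ ({1, 2, 3} : Set ℕ∞) := by
  by_cases h4 : E₄ τ = 0
  · rw [l1j27_ord_eq_three τ h4]; simp
  · by_cases h6 : E₆ τ = 0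
    · rw [l1j27_ord_eq_two τ h6]; simp
    · rw [l1j27_ord_eq_one τ h4 h6]; simp

theorem l1j27_ord_eq_three_iff (τ : ℍ) :
    analyticOrderAt (fun w : ℂ => l1j27_j (ofComplex w) - l1j27_j τ) (τ : ℂ) = 3 ↔ E₄ τ = 0 := by
  refine ⟨fun h => ?_, l1j27_ord_eq_three τ⟩
  by_contra h4
  by_cases h6 : E₆ τ = 0
  · rw [l1j27_ord_eq_two τ h6] at h; exact absurd h (by decide)
  · rw [l1j27_ord_eq_one τ h4 h6] at h; exact absurd h (by decide)

theorem l1j27_ord_eq_two_iff (τ : ℍ) :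
    analyticOrderAt (fun w : ℂ => l1j27_j (ofComplex w) - l1j27_j τ) (τ : ℂ) = 2 ↔ E₆ τ = 0 := by
  refine ⟨fun h => ?_, l1j27_ord_eq_two τ⟩
  by_contra h6
  by_cases h4 : E₄ τ = 0
  · rw [l1j27_ord_eq_three τ h4] at h; exact absurd h (by decide)
  · rw [l1j27_ord_eq_one τ h4 h6] at h; exact absurd h (by decide)

/-- `ord_τ (j − a) ∈ {0, 1, 2, 3}` for every `τ ∈ ℍ` and every constant `a`. -/
theorem l1j27_ord_sub_const (τ : ℍ) (a : ℂ) :
    analyticOrderAt (fun w : ℂ => l1j27_j (ofComplex w) - a) (τ : ℂ)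
      ∈ ({0, 1, 2, 3} : Set ℕ∞) := by
  by_cases ha : a = l1j27_j τ
  · subst ha
    have := l1j27_ord τ
    simp only [Set.mem_insert_iff, Set.mem_singleton_iff] at this ⊢
    tauto
  · have han : AnalyticAt ℂ (fun w : ℂ => l1j27_j (ofComplex w) - a) (τ : ℂ) :=
      (l1j27_analyticAt l1j27_j_holo τ).sub analyticAt_const
    have : analyticOrderAt (fun w : ℂ => l1j27_j (ofComplex w) - a) (τ : ℂ) = 0 := by
      rw [han.analyticOrderAt_eq_zero]
      simp only [ofComplex_apply]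
      exact sub_ne_zero.mpr (Ne.symm ha)
    rw [this]; simp

end Fermat.Agent.S42
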