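import Mathlib
import Fermat.Agent.S42.Mer95
import Fermat.Agent.S42.LevelOneOrd27

/-!
# S42 / M1 (level one), part 3: (L1) in the `MER` language of `Mer95`

* `l1j27_jO : mer95_O`, `l1j27_J : mer95_MER` : the modular invariant.
* `l1j27_V τ` : the valuation subring of `mer95_MER` at `τ`.
* `l1j27_INT` : `x ∈ MER`, `SL(2, ℤ)`-invariant, root of a monic polynomial with coefficients
  in `ℂ[J]`  ⟹  `x = P(J)`.
* `l1j27_INT_adjoin` : `x` invariant and integral over `Algebra.adjoin ℂ {J}` ⟹ `x ∈ ℂ[J]`.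
* `l1j27_L1_MER` : `x` invariant and algebraic over `ℂ(J)` ⟹ `x ∈ ℂ(J)`.
-/

open UpperHalfPlane Filter Topology Polynomial
open scoped Manifold MatrixGroups

namespace Fermat.Agent.S42

noncomputable section

/-- `j` as an element of the ring `O` of holomorphic functions. -/
def l1j27_jO : mer95_O := mer95_mk l1j27_j l1j27_j_holo

/-- `j` as an element of the field `MER`. -/
def l1j27_J : mer95_MER := algebraMap mer95_O mer95_MER l1j27_jO

theorem l1j27_jO_apply (z : ℍ) : l1j27_jO.1 z = l1j27_j z := rfl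

theorem l1j27_jO_smul (g : SL(2, ℤ)) : g • l1j27_jO = l1j27_jO := by
  apply Subtype.ext
  funext τ
  rw [mer95_smul_apply_SL]
  exact l1j27_j_smul g⁻¹ τ

theorem l1j27_J_smul (g : SL(2, ℤ)) : g • l1j27_J = l1j27_J := by
  unfold l1j27_J
  rw [mer95_smul_algebraMap_SL, l1j27_jO_smul]

/-- every polynomial in `J` is `SL(2, ℤ)`-invariant. -/
theorem l1j27_aeval_J_smul (g : SL(2, ℤ)) (P : ℂ[X]) :
    g • (aeval l1j27_J P) = aeval l1j27_J P := by
  induction P using Polynomial.induction_on' with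
  | add p q hp hq => rw [map_add, smul_add, hp, hq]
  | monomial n a =>
    rw [aeval_monomial, smul_mul', smul_pow', l1j27_J_smul, mer95_smul_C_SL]

theorem l1j27_aeval_J (P : ℂ[X]) :
    aeval l1j27_J P = algebraMap mer95_O mer95_MER (aeval l1j27_jO P) := by
  unfold l1j27_J
  rw [aeval_algebraMap_apply]

theorem l1j27_aeval_jO_apply (P : ℂ[X]) (z : ℍ) :
    (aeval l1j27_jO P).1 z = P.eval (l1j27_j z) := by
  induction P using Polynomial.induction_on' with
  | add p q hp hq =>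
    rw [map_add, eval_add, ← hp, ← hq]; rfl
  | monomial n a =>
    rw [aeval_monomial, eval_monomial]; rfl

/-! ### the valuation ring at a point -/

theorem l1j27_ord_neg (τ : ℍ) (x : mer95_MER) : mer95_ord τ (-x) = mer95_ord τ x := by
  by_cases hx : x = 0
  · subst hx; rw [neg_zero]
  have h1 : (-x) = algebraMap ℂ mer95_MER (-1) * x := by
    rw [map_neg, map_one, neg_one_mul]
  have h2 : algebraMap ℂ mer95_MER (-1) ≠ 0 := by
    rw [map_neg, map_one]; exact neg_ne_zero.mpr one_ne_zero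
  rw [h1, mer95_ord_mul τ h2 hx, mer95_ord_C, zero_add]

/-- The valuation subring `{x | 0 ≤ ord_τ x}` of `MER`. -/
def l1j27_V (τ : ℍ) : ValuationSubring mer95_MER where
  carrier := {x | 0 ≤ mer95_ord τ x}
  mul_mem' := by
    intro x y hx hy
    by_cases hx0 : x = 0
    · subst hx0; simp only [zero_mul, Set.mem_ofPred_eq, mer95_ord_zero, le_refl]
    by_cases hy0 : y = 0
    · subst hy0; simp only [mul_zero, Set.mem_ofPred_eq, mer95_ord_zero, le_refl]
    simp only [Set.mem_ofPred_eq] at hx hy ⊢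
    rw [mer95_ord_mul τ hx0 hy0]
    omega
  one_mem' := by simp only [Set.mem_ofPred_eq, mer95_ord_one, le_refl]
  add_mem' := by
    intro x y hx hy
    simp only [Set.mem_ofPred_eq] at hx hy ⊢
    by_cases hxy : x + y = 0
    · rw [hxy, mer95_ord_zero]
    · exact (le_min hx hy).trans (mer95_ord_add τ hxy)
  zero_mem' := by simp only [Set.mem_ofPred_eq, mer95_ord_zero, le_refl]
  neg_mem' := by
    intro x hx
    simp only [Set.mem_ofPred_eq] at hx ⊢
    rw [l1j27_ord_neg]; exact hx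
  mem_or_inv_mem' := by
    intro x
    simp only [Set.mem_ofPred_eq]
    rw [mer95_ord_inv]
    omega

theorem l1j27_mem_V (τ : ℍ) (x : mer95_MER) : x ∈ l1j27_V τ ↔ 0 ≤ mer95_ord τ x := Iff.rfl

theorem l1j27_algebraMap_mem_V (τ : ℍ) (f : mer95_O) :
    algebraMap mer95_O mer95_MER f ∈ l1j27_V τ :=
  mer95_ord_algebraMap_nonneg τ f

/-- An element of `MER` integral over `O` is in `O`. -/
theorem l1j27_integral_O (x : mer95_MER) (hx : IsIntegral mer95_O x) :
    ∃ f : mer95_O, algebraMap mer95_O mer95_MER f = x := by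
  refine mer95_exists_of_ord_nonneg x (fun τ => ?_)
  obtain ⟨Q, hQ, hQx⟩ := hx
  -- move the equation to the valuation ring
  let ι : mer95_O →+* l1j27_V τ :=
    (algebraMap mer95_O mer95_MER).codRestrict (l1j27_V τ).toSubring
      (fun f => l1j27_algebraMap_mem_V τ f)
  have hint : IsIntegral (l1j27_V τ) x := by
    refine ⟨Q.map ι, hQ.map ι, ?_⟩
    rw [eval₂_map]
    exact hQx
  obtain ⟨y, hy⟩ := (IsIntegrallyClosed.isIntegral_iff (R := l1j27_V τ) (K := mer95_MER)).mp hint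
  rw [← hy]
  exact y.2

/-- **(INT)** `x ∈ MER`, `SL(2, ℤ)`-invariant, root of a monic polynomial with coefficients
polynomials in `J`  ⟹  `x` is a polynomial in `J`. -/
theorem l1j27_INT (x : mer95_MER) (hx : ∀ g : SL(2, ℤ), g • x = x)
    (Q : Polynomial (Polynomial ℂ)) (hQ : Q.Monic)
    (h : eval₂ (aeval l1j27_J : ℂ[X] →ₐ[ℂ] mer95_MER).toRingHom x Q = 0) :
    ∃ P : ℂ[X], x = aeval l1j27_J P := by
  have hcompJ : (algebraMap mer95_O mer95_MER).comp
      (aeval l1j27_jO : ℂ[X] →ₐ[ℂ] mer95_O).toRingHom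
      = (aeval l1j27_J : ℂ[X] →ₐ[ℂ] mer95_MER).toRingHom :=
    RingHom.ext fun P => (l1j27_aeval_J P).symm
  -- `x` is integral over `O`, hence in `O`
  have hO : IsIntegral mer95_O x := by
    refine ⟨Q.map (aeval l1j27_jO : ℂ[X] →ₐ[ℂ] mer95_O).toRingHom, hQ.map _, ?_⟩
    rw [eval₂_map, hcompJ]
    exact h
  obtain ⟨f, hf⟩ := l1j27_integral_O x hO
  -- `f` is invariant
  have hfinv : ∀ (γ : SL(2, ℤ)) (z : ℍ), f.1 (γ • z) = f.1 z := by
    intro γ z
    have h1 : γ⁻¹ • f = f :=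
      mer95_algebraMap_injective (by rw [← mer95_smul_algebraMap_SL, hf, hx])
    have h2 := mer95_smul_apply_SL γ⁻¹ f z
    rw [h1, inv_inv] at h2
    exact h2.symm
  -- the equation for `f` in `O`
  have hQf : eval₂ (aeval l1j27_jO : ℂ[X] →ₐ[ℂ] mer95_O).toRingHom f Q = 0 := by
    apply mer95_algebraMap_injective
    rw [map_zero, hom_eval₂, hcompJ, hf]
    exact h
  -- evaluate at points
  have hroot : ∀ z : ℍ, (Q.map (evalRingHom (l1j27_j z))).eval (f.1 z) = 0 := by
    intro z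
    let ez : mer95_O →+* ℂ :=
      (Pi.evalRingHom (fun _ : ℍ => ℂ) z).comp mer95_O.toSubring.subtype
    have h3 := congrArg ez hQf
    rw [hom_eval₂, map_zero] at h3
    have hcomp : ez.comp (aeval l1j27_jO : ℂ[X] →ₐ[ℂ] mer95_O).toRingHom
        = evalRingHom (l1j27_j z) :=
      RingHom.ext fun P => l1j27_aeval_jO_apply P z
    rw [hcomp] at h3
    rw [eval_map]
    exact h3
  obtain ⟨P, hP⟩ := l1j27_integral f.1 f.2 hfinv Q hQ hroot
  refine ⟨P, ?_⟩
  rw [l1j27_aeval_J, ← hf]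
  congr 1
  apply Subtype.ext
  funext z
  rw [hP z, l1j27_aeval_jO_apply]

/-- elements of `ℂ[J]` are `SL(2, ℤ)`-invariant. -/
theorem l1j27_adjoin_smul (g : SL(2, ℤ)) {y : mer95_MER}
    (hy : y ∈ Algebra.adjoin ℂ {l1j27_J}) : g • y = y := by
  rw [Algebra.adjoin_singleton_eq_range_aeval] at hy
  obtain ⟨P, rfl⟩ := hy
  exact l1j27_aeval_J_smul g P

/-- **(INT), subalgebra form.** `x ∈ MER` invariant and integral over `ℂ[J]` ⟹ `x ∈ ℂ[J]`. -/
theorem l1j27_INT_adjoin (x : mer95_MER) (hx : ∀ g : SL(2, ℤ), g • x = x)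
    (hint : IsIntegral (Algebra.adjoin ℂ {l1j27_J}) x) :
    x ∈ Algebra.adjoin ℂ {l1j27_J} := by
  obtain ⟨Q₀, hQ₀, h₀⟩ := hint
  let ψ : ℂ[X] →ₐ[ℂ] Algebra.adjoin ℂ {l1j27_J} :=
    aeval (⟨l1j27_J, Algebra.self_mem_adjoin_singleton ℂ l1j27_J⟩ : Algebra.adjoin ℂ {l1j27_J})
  have hψ : ∀ P : ℂ[X], ((ψ P : Algebra.adjoin ℂ {l1j27_J}) : mer95_MER) = aeval l1j27_J P :=
    fun P => aeval_subalgebra_coe P _ _
  have hsurj : Function.Surjective ψ.toRingHom := by
    rintro ⟨a, ha⟩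
    have ha' := ha
    rw [Algebra.adjoin_singleton_eq_range_aeval] at ha'
    obtain ⟨P, hP⟩ := ha'
    exact ⟨P, Subtype.ext ((hψ P).trans hP)⟩
  obtain ⟨Q, hQmap, -, hQ⟩ := lifts_and_natDegree_eq_and_monic
    ((mem_lifts _).mpr (map_surjective ψ.toRingHom hsurj Q₀)) hQ₀
  have hcomp : (algebraMap (Algebra.adjoin ℂ {l1j27_J}) mer95_MER).comp ψ.toRingHom
      = (aeval l1j27_J : ℂ[X] →ₐ[ℂ] mer95_MER).toRingHom :=
    RingHom.ext fun P => hψ P
  obtain ⟨P, hP⟩ := l1j27_INT x hx Q hQ (by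
    rw [← hcomp, ← eval₂_map, hQmap]
    exact h₀)
  rw [hP, Algebra.adjoin_singleton_eq_range_aeval]
  exact ⟨P, rfl⟩

open scoped IntermediateField.algebraAdjoinAdjoin in
/-- **(L1) in `MER`.** An `SL(2, ℤ)`-invariant element of `MER` which is algebraic over `ℂ(J)`
lies in `ℂ(J)`. -/
theorem l1j27_L1_MER (x : mer95_MER) (hx : ∀ g : SL(2, ℤ), g • x = x)
    (halg : IsAlgebraic (IntermediateField.adjoin ℂ {l1j27_J}) x) :
    x ∈ IntermediateField.adjoin ℂ {l1j27_J} := by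
  have hA : IsAlgebraic (Algebra.adjoin ℂ {l1j27_J}) x :=
    (IsFractionRing.isAlgebraic_iff (Algebra.adjoin ℂ {l1j27_J})
      (IntermediateField.adjoin ℂ {l1j27_J}) mer95_MER).mpr halg
  obtain ⟨y, hy0, hy⟩ := hA.exists_integral_multiple
  have hyne : (y : mer95_MER) ≠ 0 := fun h0 => hy0 (Subtype.ext h0)
  have hyx : ∀ g : SL(2, ℤ), g • ((y : mer95_MER) * x) = (y : mer95_MER) * x := by
    intro g
    rw [smul_mul', hx, l1j27_adjoin_smul g y.2]
  have hmem := l1j27_INT_adjoin _ hyx (by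
    have : y • x = (y : mer95_MER) * x := rfl
    rw [← this]; exact hy)
  have hx' : x = ((y : mer95_MER) * x) / (y : mer95_MER) := by
    field_simp
  rw [hx']
  exact div_mem (IntermediateField.algebra_adjoin_le_adjoin ℂ _ hmem)
    (IntermediateField.algebra_adjoin_le_adjoin ℂ _ y.2)

end

end Fermat.Agent.S42
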