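/-
Project 4 (S42), seam M1 -> M3c (helper90): (L1) on `mer95_MER` in the literal shape of the
hypotheses `hK`, `hL1` of `gi41_K2` / `gi41_norm` (GaloisInst41).

Built on `LevelOneMer27` (`l1j27_J : mer95_MER`, `l1j27_INT`).

* `l1m90_aeval_J_eq_zero` : `j` is transcendental over `ℂ` in `mer95_MER`.
* `l1m90_L1` : an `SL(2, ℤ)`-invariant `x : mer95_MER` which is a root of a nonzero polynomial
  with coefficients in `ℂ(j)` lies in `ℂ(j)`; stated for an arbitrary field `K0` with a ring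
  hom `i : K0 →+* mer95_MER` of image `ℂ(j)`.
* `l1m90_ev_aeval`, `l1m90_hK`, `l1m90_L1_adjoin` : for a field `F` over `ℂ`, a `ℂ`-algebra
  embedding `ev : F →+* mer95_MER` and `jF : F` with `ev jF = l1j27_J`: the hypotheses `hK` and
  `hL1` of `gi41_K2` for `K0 = ℂ⟮jF⟯`.
-/
import Fermat.Agent.S42.LevelOneMer27
import Fermat.Agent.S24.KleinJSurj

set_option autoImplicit false

open UpperHalfPlane MatrixGroups Filter Polynomial
open scoped Manifold Topology IntermediateField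

namespace Fermat.Agent.S42

noncomputable section

theorem l1m90_j_eq_kleinJ : l1j27_j = Fermat.Agent.S24.kleinJ := rfl

/-- `j` is transcendental over `ℂ`. -/
theorem l1m90_aeval_J_eq_zero (c : ℂ[X]) (h : aeval l1j27_J c = 0) : c = 0 := by
  rw [l1j27_aeval_J] at h
  have h0 : aeval l1j27_jO c = 0 := mer95_algebraMap_injective (by rw [h, map_zero])
  apply Polynomial.funext
  intro w
  obtain ⟨τ, hτ⟩ := Fermat.Agent.S24.wpA2_kleinJ_surjective w
  have h1 := l1j27_aeval_jO_apply c τ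
  rw [h0] at h1
  rw [eval_zero, ← hτ]
  exact h1.symm

theorem l1m90_transcendental_J : Transcendental ℂ l1j27_J := by
  intro h
  obtain ⟨c, hc0, hc⟩ := h
  exact hc0 (l1m90_aeval_J_eq_zero c hc)

/-! ### (L1) over `ℂ(j)` -/

/-- Clearing denominators: a polynomial over a field `K0` mapping into `ℂ(j)`, multiplied by a
suitable nonzero polynomial in `j`, has coefficients in `ℂ[j]`. -/
theorem l1m90_clear {K0 : Type*} [Field K0] (i : K0 →+* mer95_MER)
    (hrange : ∀ c : K0, ∃ A B : ℂ[X], aeval l1j27_J B ≠ 0 ∧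
      i c * aeval l1j27_J B = aeval l1j27_J A) (P : K0[X]) :
    ∃ (B : ℂ[X]) (P' : Polynomial (Polynomial ℂ)), aeval l1j27_J B ≠ 0 ∧
      P'.map (aeval l1j27_J : ℂ[X] →ₐ[ℂ] mer95_MER).toRingHom =
        Polynomial.C (aeval l1j27_J B) * P.map i := by
  induction P using Polynomial.induction_on' with
  | add p q hp hq =>
    obtain ⟨B1, P1, hB1, h1⟩ := hp
    obtain ⟨B2, P2, hB2, h2⟩ := hq
    refine ⟨B1 * B2, Polynomial.C B2 * P1 + Polynomial.C B1 * P2, ?_, ?_⟩
    · rw [map_mul]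
      exact mul_ne_zero hB1 hB2
    · rw [Polynomial.map_add, Polynomial.map_mul, Polynomial.map_mul, Polynomial.map_C,
        Polynomial.map_C, h1, h2, Polynomial.map_add, map_mul, Polynomial.C_mul]
      simp only [AlgHom.toRingHom_eq_coe, RingHom.coe_coe]
      ring
  | monomial n a =>
    obtain ⟨A, B, hB, hAB⟩ := hrange a
    refine ⟨B, Polynomial.monomial n A, hB, ?_⟩
    rw [Polynomial.map_monomial, Polynomial.map_monomial, Polynomial.C_mul_monomial]
    simp only [AlgHom.toRingHom_eq_coe, RingHom.coe_coe]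
    rw [← hAB, mul_comm]

/-- (L1): an `SL(2, ℤ)`-invariant element of `mer95_MER` which is algebraic over `ℂ(j)` lies in
`ℂ(j)`. Here `ℂ(j)` is the image of an arbitrary field `K0` under a ring hom `i`. -/
theorem l1m90_L1 {K0 : Type*} [Field K0] (i : K0 →+* mer95_MER)
    (hrange : ∀ c : K0, ∃ A B : ℂ[X], aeval l1j27_J B ≠ 0 ∧
      i c * aeval l1j27_J B = aeval l1j27_J A)
    (hsurj : ∀ A B : ℂ[X], aeval l1j27_J B ≠ 0 →
      ∃ c : K0, i c * aeval l1j27_J B = aeval l1j27_J A)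
    (x : mer95_MER) (hinv : ∀ g : SL(2, ℤ), g • x = x)
    (hx : ∃ P : K0[X], P ≠ 0 ∧ P.eval₂ i x = 0) : ∃ c : K0, i c = x := by
  obtain ⟨P, hP0, hPx⟩ := hx
  obtain ⟨B, P', hB, hP'⟩ := l1m90_clear i hrange P
  set φ : ℂ[X] →+* mer95_MER := (aeval l1j27_J : ℂ[X] →ₐ[ℂ] mer95_MER).toRingHom with hφ
  have hφinj : ∀ c : ℂ[X], φ c = 0 → c = 0 := fun c hc => l1m90_aeval_J_eq_zero c hc
  -- `P'` is nonzero and kills `x`
  have hP'0 : P' ≠ 0 := by
    intro h0
    rw [h0, Polynomial.map_zero] at hP'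
    have h1 : P.map i ≠ 0 := (Polynomial.map_ne_zero_iff i.injective).mpr hP0
    exact mul_ne_zero (Polynomial.C_ne_zero.mpr hB) h1 hP'.symm
  have hP'x : P'.eval₂ φ x = 0 := by
    rw [← Polynomial.eval_map, hP', Polynomial.eval_mul, Polynomial.eval_C, Polynomial.eval_map,
      hPx, mul_zero]
  -- the leading coefficient
  set a : ℂ[X] := P'.leadingCoeff with ha
  have ha0 : a ≠ 0 := Polynomial.leadingCoeff_ne_zero.mpr hP'0
  have hφa : φ a ≠ 0 := fun h => ha0 (hφinj a h)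
  have hroot : (Polynomial.integralNormalization P').eval₂ φ (φ a * x) = 0 :=
    Polynomial.integralNormalization_eval₂_eq_zero φ hP'x hφinj
  have hinv' : ∀ g : SL(2, ℤ), g • (φ a * x) = φ a * x := by
    intro g
    rw [smul_mul', hinv g]
    congr 1
    exact l1j27_aeval_J_smul g a
  obtain ⟨R, hR⟩ := l1j27_INT (φ a * x) hinv' _
    (Polynomial.monic_integralNormalization hP'0) hroot
  obtain ⟨c, hc⟩ := hsurj R a hφa
  refine ⟨c, ?_⟩
  have h1 : i c * φ a = φ a * x := by rw [hR]; exact hc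
  have h2 : φ a * i c = φ a * x := by rw [mul_comm]; exact h1
  exact mul_left_cancel₀ hφa h2

/-! ### The hypotheses `hK`, `hL1` of `gi41_K2` for `K0 = ℂ⟮jF⟯` -/

/-- A `ℂ`-algebra embedding `ev` with `ev jF = j` sends polynomials in `jF` to polynomials in
`j`. -/
theorem l1m90_ev_aeval {F : Type*} [Field F] [Algebra ℂ F] (ev : F →+* mer95_MER)
    (hevC : ∀ c : ℂ, ev (algebraMap ℂ F c) = algebraMap ℂ mer95_MER c) (jF : F)
    (hj : ev jF = l1j27_J) (A : ℂ[X]) : ev (aeval jF A) = aeval l1j27_J A := by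
  rw [Polynomial.aeval_def, Polynomial.hom_eval₂, hj, Polynomial.aeval_def]
  congr 1
  exact RingHom.ext hevC

/-- `jF` is transcendental over `ℂ`. -/
theorem l1m90_transcendental {F : Type*} [Field F] [Algebra ℂ F] (ev : F →+* mer95_MER)
    (hevC : ∀ c : ℂ, ev (algebraMap ℂ F c) = algebraMap ℂ mer95_MER c) (jF : F)
    (hj : ev jF = l1j27_J) : Transcendental ℂ jF := by
  intro h
  obtain ⟨c, hc0, hc⟩ := h
  apply hc0
  apply l1m90_aeval_J_eq_zero
  rw [← l1m90_ev_aeval ev hevC jF hj, hc, map_zero]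

/-- The hypothesis `hK` of `gi41_K2` for `K0 = ℂ⟮jF⟯`: `SL(2, ℤ)` fixes `ev (ℂ(jF))`. -/
theorem l1m90_hK {F : Type*} [Field F] [Algebra ℂ F] (ev : F →+* mer95_MER)
    (hevC : ∀ c : ℂ, ev (algebraMap ℂ F c) = algebraMap ℂ mer95_MER c) (jF : F)
    (hj : ev jF = l1j27_J) (g : SL(2, ℤ)) (c : ℂ⟮jF⟯) :
    g • ev (algebraMap ℂ⟮jF⟯ F c) = ev (algebraMap ℂ⟮jF⟯ F c) := by
  show g • ev (c : F) = ev (c : F)
  obtain ⟨r, s, hrs⟩ := (IntermediateField.mem_adjoin_simple_iff ℂ (c : F)).mp c.2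
  rw [hrs, map_div₀, l1m90_ev_aeval ev hevC jF hj, l1m90_ev_aeval ev hevC jF hj, smul_div₀',
    l1j27_aeval_J_smul, l1j27_aeval_J_smul]

/-- (L1) in the shape of the hypothesis `hL1` of `gi41_K2`: `F` a field over `ℂ`, `ev : F →+* MER`
a `ℂ`-algebra embedding, `jF : F` with `ev jF = j`, `K0 = ℂ⟮jF⟯`. -/
theorem l1m90_L1_adjoin {F : Type*} [Field F] [Algebra ℂ F] (ev : F →+* mer95_MER)
    (hevC : ∀ c : ℂ, ev (algebraMap ℂ F c) = algebraMap ℂ mer95_MER c) (jF : F)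
    (hj : ev jF = l1j27_J) (x : mer95_MER) (hinv : ∀ g : SL(2, ℤ), g • x = x)
    (hx : ∃ P : Polynomial ℂ⟮jF⟯, P ≠ 0 ∧ P.eval₂ (ev.comp (algebraMap ℂ⟮jF⟯ F)) x = 0) :
    ∃ c : ℂ⟮jF⟯, ev (algebraMap ℂ⟮jF⟯ F c) = x := by
  have hev : ∀ A : ℂ[X], ev (aeval jF A) = aeval l1j27_J A :=
    l1m90_ev_aeval ev hevC jF hj
  have key := l1m90_L1 (ev.comp (algebraMap ℂ⟮jF⟯ F)) ?_ ?_ x hinv hx
  · exact key
  · intro c
    obtain ⟨r, s, hrs⟩ := (IntermediateField.mem_adjoin_simple_iff ℂ (c : F)).mp c.2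
    by_cases hs : aeval jF s = 0
    · refine ⟨0, 1, ?_, ?_⟩
      · rw [map_one]; exact one_ne_zero
      · have hc0 : (c : F) = 0 := by rw [hrs, hs, div_zero]
        show ev (c : F) * _ = _
        rw [hc0, map_zero, map_zero, zero_mul]
    · refine ⟨r, s, ?_, ?_⟩
      · rw [← hev]
        exact (map_ne_zero ev).mpr hs
      · show ev (c : F) * _ = _
        rw [hrs, ← hev, ← hev, ← map_mul, div_mul_cancel₀ _ hs]
  · intro A B hB
    have hB' : aeval jF B ≠ 0 := by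
      intro h0
      apply hB
      rw [← hev, h0, map_zero]
    have hmem : aeval jF A / aeval jF B ∈ ℂ⟮jF⟯ :=
      (IntermediateField.mem_adjoin_simple_iff ℂ _).mpr ⟨A, B, rfl⟩
    refine ⟨⟨_, hmem⟩, ?_⟩
    show ev (aeval jF A / aeval jF B) * _ = _
    rw [← hev, ← hev, ← map_mul, div_mul_cancel₀ _ hB']

end

end Fermat.Agent.S42
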