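import Fermat.Agent.S42.DivGEll93
import Fermat.Agent.S42.GaloisMer41
import Fermat.Agent.S42.LevelOneMer27
import Fermat.Agent.S42.L1Mer90
import Fermat.Agent.S42.FunFieldMer79

/-!
S42 / S29, seam (G-X), divisibility half, CONCRETE (helper93).

`F := gi41_FC N = ↥(laurentBaseChange ℂ (modularFunctionFieldFull N))` (the Prelude's `F_ℂ(N)`),
`ev := ff79_evMer N : F →ₐ[ℂ] mer95_MER` (helper79), `j₀ := dg93_j0 N` (the series `j(q)`).
Every hypothesis of `dg93_finite_mer` is discharged: `K1` (`gi41_K1C`, helper41), `K3`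
(`gi41_mer_norm`, helper41, with `(L1) = l1j27_L1_MER`, helper27).

* `dg93_finite_FC` : `ev u = h ^ p`, `h ≠ 0` invariant under the finite-order elements of
  `Γ₀(N)` ⟹ `p ∣ v.ord u` at every place over a finite value of `j` (ANY `p`).
* `dg93_div_FC` : the same at ALL places, given `p ∣ v.ord u` at the places over `j = ∞`.
* `dg93_X_div` : the `th70_IsChar` form for `p ≥ 5` = the divisibility clause of (X).
-/

set_option autoImplicit false
set_option synthInstance.maxHeartbeats 400000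

open AlgebraicCurve IntermediateField MatrixGroups UpperHalfPlane ModularCurve CongruenceSubgroup
open scoped Manifold

namespace Fermat.Agent.S42

open Fermat.Agent.S24

theorem dg93_jM_eq_J : dg93_jM = l1j27_J := rfl

/-- The series `j(q)` as an element of `F_ℂ(N)`. -/
noncomputable def dg93_j0 (N : ℕ) [NeZero N] : gi41_FC N :=
  ⟨ff79_JJ ℂ 1, ff79_JJ_mem ℂ N 1 (one_dvd N)⟩

theorem dg93_j0_coe (N : ℕ) [NeZero N] : ((dg93_j0 N : gi41_FC N) : LaurentSeries ℂ) = jqModC ℂ := by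
  show ff79_JJ ℂ 1 = jqModC ℂ
  rw [ff79_JJ_of_neZero]
  show coeffMap (algebraMap ℚ ℂ) (qExpand ℚ 1 (jqModC ℚ)) = _
  rw [qExpand_one_apply, coeffMap_jqModC]

theorem dg93_ev_j0 (N : ℕ) [NeZero N] : ff79_evMer N (dg93_j0 N) = dg93_jM :=
  ff79_evMer_one N

theorem dg93_j0_transcendental (N : ℕ) [NeZero N] : Transcendental ℂ (dg93_j0 N) :=
  l1m90_transcendental (ff79_evMer N : gi41_FC N →+* mer95_MER)
    (fun c => (ff79_evMer N).commutes c) (dg93_j0 N) (dg93_ev_j0 N)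

/-- `K3` in the shape of `dg93_finite_mer`. -/
theorem dg93_hnorm_FC (N : ℕ) [NeZero N] [Fintype (Cosets N)] (f : gi41_FC N) :
    ∃ r : gi41_FC N, r ∈ ℂ⟮dg93_j0 N⟯ ∧
      ff79_evMer N r = ∏ b : Cosets N, b.out • ff79_evMer N f := by
  obtain ⟨hfd, -⟩ := gi41_K1C N (dg93_j0 N) (dg93_j0_coe N)
  haveI := hfd
  refine ⟨((Algebra.norm ℂ⟮dg93_j0 N⟯ f : ℂ⟮dg93_j0 N⟯) : gi41_FC N), SetLike.coe_mem _, ?_⟩
  exact gi41_mer_norm N (ff79_evMer N) (dg93_j0 N) dg93_jM (dg93_j0_coe N) dg93_jM_smul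
    (dg93_ev_j0 N) (ff79_evMer_smul N) l1j27_L1_MER (gc6_out_bijective (Gamma0 N)) f

/-- **Finite places, concrete.** -/
theorem dg93_finite_FC (N : ℕ) [NeZero N] (p : ℕ) (u : gi41_FC N) (h : mer95_MER) (hh : h ≠ 0)
    (hu : ff79_evMer N u = h ^ p)
    (hfin : ∀ δ ∈ Gamma0 N, IsOfFinOrder δ → δ • h = h)
    (c : ℂ) (v : Place ℂ (gi41_FC N))
    (hv : 0 < v.ord (dg93_j0 N - algebraMap ℂ (gi41_FC N) c)) : (p : ℤ) ∣ v.ord u := by
  obtain ⟨hfd, hdeg⟩ := gi41_K1C N (dg93_j0 N) (dg93_j0_coe N)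
  haveI := hfd
  haveI : Finite (SL(2, ℤ) ⧸ Gamma0 N) := Subgroup.finite_quotient_of_finiteIndex
  letI : Fintype (Cosets N) := Fintype.ofFinite _
  exact dg93_finite_mer N (ff79_evMer N) (ff79_evMer_smul N) (dg93_j0 N) (dg93_ev_j0 N)
    (dg93_j0_transcendental N) hdeg (dg93_hnorm_FC N) p u h hh hu hfin c v hv

/-- **Finite places, concrete, elliptic form** (invariance only under the conjugates of powers
of `S * T` and `S` lying in `Γ₀(N)`). -/
theorem dg93_finite_FC_ell (N : ℕ) [NeZero N] (p : ℕ) (u : gi41_FC N) (h : mer95_MER)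
    (hh : h ≠ 0) (hu : ff79_evMer N u = h ^ p)
    (hell : ∀ δ ∈ Gamma0 N, dg93_IsEll δ → δ • h = h)
    (c : ℂ) (v : Place ℂ (gi41_FC N))
    (hv : 0 < v.ord (dg93_j0 N - algebraMap ℂ (gi41_FC N) c)) : (p : ℤ) ∣ v.ord u := by
  obtain ⟨hfd, hdeg⟩ := gi41_K1C N (dg93_j0 N) (dg93_j0_coe N)
  haveI := hfd
  haveI : Finite (SL(2, ℤ) ⧸ Gamma0 N) := Subgroup.finite_quotient_of_finiteIndex
  letI : Fintype (Cosets N) := Fintype.ofFinite _
  exact dg93_finite_mer_ell N (ff79_evMer N) (ff79_evMer_smul N) (dg93_j0 N) (dg93_ev_j0 N)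
    (dg93_j0_transcendental N) hdeg (dg93_hnorm_FC N) p u h hh hu hell c v hv

/-- Every place of `F_ℂ(N)` lies over `j = ∞` or over a finite value of `j`. -/
theorem dg93_cases_FC (N : ℕ) [NeZero N] (v : Place ℂ (gi41_FC N)) :
    v.ord (dg93_j0 N) < 0 ∨
      ∃ c : ℂ, 0 < v.ord (dg93_j0 N - algebraMap ℂ (gi41_FC N) c) := by
  obtain ⟨hfd, -⟩ := gi41_K1C N (dg93_j0 N) (dg93_j0_coe N)
  haveI := hfd
  by_cases hv : v.ord (dg93_j0 N) < 0
  · exact Or.inl hv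
  · right
    obtain ⟨c, hc | hc⟩ := wp1_exists_const (dg93_j0 N) (dg93_j0_transcendental N) v (dg93_j0 N)
      ((wp1_mem_iff_ord_nonneg v _).mpr (not_lt.mp hv))
    · exact absurd (hc ▸ isAlgebraic_algebraMap c) (dg93_j0_transcendental N)
    · exact ⟨c, hc⟩

/-- **All places, concrete** (ANY `p`; finite-order form). -/
theorem dg93_div_FC (N : ℕ) [NeZero N] (p : ℕ) (u : gi41_FC N) (h : mer95_MER) (hh : h ≠ 0)
    (hu : ff79_evMer N u = h ^ p)
    (hfin : ∀ δ ∈ Gamma0 N, IsOfFinOrder δ → δ • h = h)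
    (hcusp : ∀ v : Place ℂ (gi41_FC N), v.ord (dg93_j0 N) < 0 → (p : ℤ) ∣ v.ord u)
    (v : Place ℂ (gi41_FC N)) : (p : ℤ) ∣ v.ord u := by
  rcases dg93_cases_FC N v with hv | ⟨c, hc⟩
  · exact hcusp v hv
  · exact dg93_finite_FC N p u h hh hu hfin c v hc

/-- **All places, concrete, elliptic form** (ANY `p`). -/
theorem dg93_div_FC_ell (N : ℕ) [NeZero N] (p : ℕ) (u : gi41_FC N) (h : mer95_MER) (hh : h ≠ 0)
    (hu : ff79_evMer N u = h ^ p)
    (hell : ∀ δ ∈ Gamma0 N, dg93_IsEll δ → δ • h = h)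
    (hcusp : ∀ v : Place ℂ (gi41_FC N), v.ord (dg93_j0 N) < 0 → (p : ℤ) ∣ v.ord u)
    (v : Place ℂ (gi41_FC N)) : (p : ℤ) ∣ v.ord u := by
  rcases dg93_cases_FC N v with hv | ⟨c, hc⟩
  · exact hcusp v hv
  · exact dg93_finite_FC_ell N p u h hh hu hell c v hc

/-- **The divisibility clause of (X)**, `p ≥ 5`: `h ≠ 0` with a character `ζ ^ χ` of `Γ₀(N)`,
`ev u = h ^ p`, and `v.ord u = 0` at the places over `j = ∞` give `p ∣ v.ord u` at every place
of `F_ℂ(N)`. -/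
theorem dg93_X_div (N : ℕ) [NeZero N] (p : ℕ) (hp : p.Prime) (hp5 : 5 ≤ p) (ζ : mer95_MER)
    (χ : Additive (Gamma0 N) →+ ZMod p) (u : gi41_FC N) (h : mer95_MER) (hh : h ≠ 0)
    (hchar : th70_IsChar p ζ χ h) (hu : ff79_evMer N u = h ^ p)
    (hcusp : ∀ v : Place ℂ (gi41_FC N), v.ord (dg93_j0 N) < 0 → v.ord u = 0)
    (v : Place ℂ (gi41_FC N)) : (p : ℤ) ∣ v.ord u :=
  dg93_div_FC_ell N p u h hh hu
    (fun δ hδ hell => dg93_char_ell N p hp hp5 ζ χ h hchar δ hδ hell)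
    (fun v hv => by rw [hcusp v hv]; exact dvd_zero _) v

end Fermat.Agent.S42
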