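import Mathlib
import Fermat.Prelude.Def_AlgebraicCurve_Correspondence

/-!
# S42, row ARCH / R7 (helper70): the abstract Kummer map `Θ`

Abstract setting: a field `K` of constants, a function field `F / K` (Prelude `Place`, `Divisor`,
`Pic0`) with principal divisors, a field `M` (in the application: meromorphic functions on the
upper half plane) with an action of a group `Gam` by ring automorphisms, an evaluation
`ev : F →+* M`, a prime `p` and a primitive `p`-th root of unity `ζ : M`.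

For `χ : Additive Gam →+ ZMod p` a pair `(h, f)`, `h : M`, `f : F`, is *admissible* (`th70_Adm`) if
`h ≠ 0`, `f ≠ 0`, `g • h = ζ ^ χ(g) * h` for all `g`, `h ^ p = ev f`, and `p ∣ v.ord f` at every
place.  Then `(1/p) div f` is a divisor of degree `0` (`th70_exists_div`); its class `Θ χ`

* depends only on `χ` (`th70_class_unique`),
* is additive in `χ`, is killed by `p`, and `Θ χ = 0` forces `χ = 0` (`th70_exists_theta`),
* is computed by ANY admissible pair (the evaluation clause of `th70_exists_theta`),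
* commutes with a correspondence as soon as admissible pairs can be pushed through it
  (`th70_hecke_of`, `th70_isDivOf_corr`, `th70_corr_mk`).

All names are prefixed `th70_`.
-/

set_option autoImplicit false
set_option linter.unusedSectionVars false
set_option linter.unusedVariables false
set_option linter.style.longLine false
set_option linter.style.haveILetI false

open AlgebraicCurve

namespace Fermat.Agent.S42

section th70_defs

/-- `h` transforms under `Gam` by the character `ζ ^ χ`. -/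
def th70_IsChar {M Gam : Type*} [Field M] [Group Gam] [MulSemiringAction Gam M]
    (p : ℕ) (ζ : M) (χ : Additive Gam →+ ZMod p) (h : M) : Prop :=
  ∀ g : Gam, g • h = ζ ^ (χ (Additive.ofMul g)).val * h

/-- Admissible pairs `(h, f)` for the character `χ`. -/
def th70_Adm (K : Type*) {F M Gam : Type*} [Field K] [Field F] [Algebra K F] [Field M]
    [Group Gam] [MulSemiringAction Gam M] (ev : F →+* M) (p : ℕ) (ζ : M)
    (χ : Additive Gam →+ ZMod p) (h : M) (f : F) : Prop :=
  h ≠ 0 ∧ f ≠ 0 ∧ th70_IsChar p ζ χ h ∧ h ^ p = ev f ∧ ∀ v : Place K F, (p : ℤ) ∣ v.ord f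

/-- `D = (1/p) div f`. -/
def th70_IsDivOf {K F : Type*} [Field K] [Field F] [Algebra K F] (p : ℕ) (f : F)
    (D : Divisor K F) : Prop :=
  ∀ v : Place K F, (p : ℤ) * D v = v.ord f

end th70_defs

section th70_div

variable {K F : Type*} [Field K] [Field F] [Algebra K F]

theorem th70_ord_algebraMap (v : Place K F) (c : K) : v.ord (algebraMap K F c) = 0 := by
  rcases eq_or_ne c 0 with rfl | hc
  · simp
  have hu : IsUnit (algebraMap K v.toValuationSubring c) := (Ne.isUnit hc).map _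
  have := v.ord_coe_unit hu.unit
  rwa [IsUnit.unit_spec, v.coe_algebraMap] at this

theorem th70_ord_pow (v : Place K F) (f : F) (n : ℕ) : v.ord (f ^ n) = (n : ℤ) * v.ord f := by
  have := v.ord_zpow f (n : ℤ)
  rwa [zpow_natCast] at this

/-- `(1/p) div f` exists and has degree `0`. -/
theorem th70_exists_div [HasPrincipalDivisors K F] {p : ℕ} (hp : p ≠ 0) {f : F} (hf : f ≠ 0)
    (hdvd : ∀ v : Place K F, (p : ℤ) ∣ v.ord f) :
    ∃ D : Divisor K F, th70_IsDivOf p f D ∧ Divisor.degree D = 0 := by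
  obtain ⟨D₀, hD₀, hdeg⟩ := HasPrincipalDivisors.exists_divisor (K := K) f hf
  have hp' : (p : ℤ) ≠ 0 := by exact_mod_cast hp
  have key : ∀ v, (p : ℤ) * (D₀.mapRange (fun n => n / (p : ℤ)) (by simp)) v = v.ord f := by
    intro v
    rw [Finsupp.mapRange_apply, hD₀ v]
    exact Int.mul_ediv_cancel' (hdvd v)
  refine ⟨D₀.mapRange (fun n => n / (p : ℤ)) (by simp), key, ?_⟩
  have h1 : (p : ℤ) • (D₀.mapRange (fun n => n / (p : ℤ)) (by simp)) = D₀ := by
    ext v
    rw [Finsupp.smul_apply, smul_eq_mul, key v, hD₀ v]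
  have h2 := congrArg Divisor.degree h1
  rw [map_zsmul, hdeg, smul_eq_mul] at h2
  exact (mul_eq_zero.mp h2).resolve_left hp'

theorem th70_isDivOf_unique {p : ℕ} (hp : p ≠ 0) {f : F} {D D' : Divisor K F}
    (hD : th70_IsDivOf p f D) (hD' : th70_IsDivOf p f D') : D = D' := by
  have hp' : (p : ℤ) ≠ 0 := by exact_mod_cast hp
  ext v
  exact mul_left_cancel₀ hp' ((hD v).trans (hD' v).symm)

theorem th70_degree_eq_zero [HasPrincipalDivisors K F] {p : ℕ} (hp : p ≠ 0) {f : F} (hf : f ≠ 0)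
    {D : Divisor K F} (hD : th70_IsDivOf p f D) : Divisor.degree D = 0 := by
  obtain ⟨D₁, hD₁, hdeg⟩ := th70_exists_div (K := K) hp hf (fun v => ⟨D v, (hD v).symm⟩)
  rw [th70_isDivOf_unique hp hD hD₁, hdeg]

theorem th70_isDivOf_mul {p : ℕ} {f₁ f₂ : F} (hf₁ : f₁ ≠ 0) (hf₂ : f₂ ≠ 0) {D₁ D₂ : Divisor K F}
    (h₁ : th70_IsDivOf p f₁ D₁) (h₂ : th70_IsDivOf p f₂ D₂) :
    th70_IsDivOf p (f₁ * f₂) (D₁ + D₂) := by
  intro v
  rw [Finsupp.add_apply, mul_add, h₁ v, h₂ v, v.ord_mul hf₁ hf₂]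

/-- If `f' = a * w ^ p * f` then `(1/p) div f' - (1/p) div f = div w`: same class. -/
theorem th70_mk_eq {p : ℕ} (hp : p ≠ 0) {f f' w : F} {a : K} (ha : a ≠ 0) (hw : w ≠ 0)
    (hf : f ≠ 0) (hff' : f' = algebraMap K F a * w ^ p * f)
    (D D' : Divisor.degZero (K := K) (F := F))
    (hD : th70_IsDivOf p f (D : Divisor K F)) (hD' : th70_IsDivOf p f' (D' : Divisor K F)) :
    Pic0.mk D' = Pic0.mk D := by
  have hp' : (p : ℤ) ≠ 0 := by exact_mod_cast hp
  have ha' : algebraMap K F a ≠ 0 := by simpa using ha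
  have hwp : w ^ p ≠ 0 := pow_ne_zero _ hw
  unfold Pic0.mk
  rw [QuotientAddGroup.eq, AddSubgroup.mem_addSubgroupOf]
  refine ⟨w⁻¹, inv_ne_zero hw, fun v => ?_⟩
  have h1 : v.ord f' = (p : ℤ) * v.ord w + v.ord f := by
    rw [hff', v.ord_mul (mul_ne_zero ha' hwp) hf, v.ord_mul ha' hwp, th70_ord_algebraMap,
      th70_ord_pow, zero_add]
  have h2 : (p : ℤ) * (D' : Divisor K F) v = (p : ℤ) * (v.ord w + (D : Divisor K F) v) := by
    rw [hD' v, h1, mul_add, hD v]
  have h3 := mul_left_cancel₀ hp' h2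
  rw [v.ord_inv]
  show (-(D' : Divisor K F) + (D : Divisor K F)) v = -v.ord w
  rw [Finsupp.add_apply, Finsupp.neg_apply, h3]
  ring

end th70_div

section th70_main

variable {K F : Type*} [Field K] [Field F] [Algebra K F]
variable {M : Type*} [Field M] {Gam : Type*} [Group Gam] [MulSemiringAction Gam M]

theorem th70_zeta_pow_add {p : ℕ} [NeZero p] {ζ : M} (hζ : ζ ^ p = 1) (a b : ZMod p) :
    ζ ^ (a + b).val = ζ ^ a.val * ζ ^ b.val := by
  rw [← pow_add, ZMod.val_add, ← pow_eq_pow_mod _ hζ]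

/-- Products of admissible pairs are admissible for the sum of the characters. -/
theorem th70_adm_mul {ev : F →+* M} {p : ℕ} [NeZero p] {ζ : M} (hζ : ζ ^ p = 1)
    {χ₁ χ₂ : Additive Gam →+ ZMod p} {h₁ h₂ : M} {f₁ f₂ : F}
    (H₁ : th70_Adm K ev p ζ χ₁ h₁ f₁) (H₂ : th70_Adm K ev p ζ χ₂ h₂ f₂) :
    th70_Adm K ev p ζ (χ₁ + χ₂) (h₁ * h₂) (f₁ * f₂) := by
  obtain ⟨a1, a2, a3, a4, a5⟩ := H₁
  obtain ⟨b1, b2, b3, b4, b5⟩ := H₂
  refine ⟨mul_ne_zero a1 b1, mul_ne_zero a2 b2, fun g => ?_, ?_, fun v => ?_⟩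
  · rw [smul_mul', a3 g, b3 g, AddMonoidHom.add_apply, th70_zeta_pow_add hζ]
    ring
  · rw [mul_pow, a4, b4, map_mul]
  · rw [v.ord_mul a2 b2]
    exact dvd_add (a5 v) (b5 v)

/-- **Independence of the admissible pair.** -/
theorem th70_class_unique {ev : F →+* M} {p : ℕ} (hp : p ≠ 0) {ζ : M} (hζ0 : ζ ≠ 0)
    (hK2 : ∀ x : M, x ≠ 0 → (∀ g : Gam, g • x = x) → ∀ f : F, x ^ p = ev f →
      ∃ (w : F) (a : K), f = algebraMap K F a * w ^ p)
    {χ : Additive Gam →+ ZMod p} {h h' : M} {f f' : F}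
    (H : th70_Adm K ev p ζ χ h f) (H' : th70_Adm K ev p ζ χ h' f')
    (D D' : Divisor.degZero (K := K) (F := F))
    (hD : th70_IsDivOf p f (D : Divisor K F)) (hD' : th70_IsDivOf p f' (D' : Divisor K F)) :
    Pic0.mk D' = Pic0.mk D := by
  obtain ⟨a1, a2, a3, a4, a5⟩ := H
  obtain ⟨b1, b2, b3, b4, b5⟩ := H'
  have hx0 : h' / h ≠ 0 := div_ne_zero b1 a1
  have hinv : ∀ g : Gam, g • (h' / h) = h' / h := by
    intro g
    have hz : ζ ^ (χ (Additive.ofMul g)).val ≠ 0 := pow_ne_zero _ hζ0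
    rw [div_eq_mul_inv, smul_mul', smul_inv'', b3 g, a3 g]
    field_simp
  have hpow : (h' / h) ^ p = ev (f' / f) := by
    rw [div_pow, b4, a4, map_div₀]
  obtain ⟨w, a, hwa⟩ := hK2 _ hx0 hinv _ hpow
  have hff : f' / f ≠ 0 := div_ne_zero b2 a2
  have ha : a ≠ 0 := by
    rintro rfl
    rw [map_zero, zero_mul] at hwa
    exact hff hwa
  have hw : w ≠ 0 := by
    rintro rfl
    rw [zero_pow hp, mul_zero] at hwa
    exact hff hwa
  have hff' : f' = algebraMap K F a * w ^ p * f := by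
    rw [← hwa, div_mul_cancel₀ _ a2]
  exact th70_mk_eq hp ha hw a2 hff' D D' hD hD'

/-- **The abstract Kummer map.**  From invariance of `ev F`, the `p`-th-root form of (K2), the
constancy of functions without zeros and poles, and the existence of admissible pairs for every
`χ ∈ Par`: an additive, injective map `Θ : Par → Pic0 K F` killed by `p`, computed by ANY
admissible pair. -/
theorem th70_exists_theta [HasPrincipalDivisors K F] (ev : F →+* M) (p : ℕ) [Fact p.Prime]
    (ζ : M) (hζ : IsPrimitiveRoot ζ p) (hζfix : ∀ g : Gam, g • ζ = ζ)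
    (hfix : ∀ (g : Gam) (f : F), g • ev f = ev f)
    (hK2 : ∀ x : M, x ≠ 0 → (∀ g : Gam, g • x = x) → ∀ f : F, x ^ p = ev f →
      ∃ (w : F) (a : K), f = algebraMap K F a * w ^ p)
    (hconst : ∀ f : F, f ≠ 0 → (∀ v : Place K F, v.ord f = 0) → ∃ a : K, f = algebraMap K F a)
    (hroot : ∀ a : K, ∃ b : K, b ^ p = a)
    (Par : AddSubgroup (Additive Gam →+ ZMod p))
    (hex : ∀ χ ∈ Par, ∃ (h : M) (f : F), th70_Adm K ev p ζ χ h f) :
    ∃ Θ : Par →+ Pic0 K F, Function.Injective Θ ∧ (∀ χ, (p : ℤ) • Θ χ = 0) ∧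
      ∀ (χ : Par) (h : M) (f : F), th70_Adm K ev p ζ (χ : Additive Gam →+ ZMod p) h f →
        ∀ D : Divisor.degZero (K := K) (F := F), th70_IsDivOf p f (D : Divisor K F) →
          Θ χ = Pic0.mk D := by
  classical
  have hp : p ≠ 0 := (Fact.out : p.Prime).ne_zero
  have : NeZero p := ⟨hp⟩
  have hζp : ζ ^ p = 1 := hζ.pow_eq_one
  have hζ0 : ζ ≠ 0 := hζ.ne_zero hp
  choose hh ff hA using fun χ : Par => hex χ.1 χ.2
  choose DD hDD hdeg using fun χ : Par =>
    th70_exists_div (K := K) hp (hA χ).2.1 (hA χ).2.2.2.2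
  let θ : Par → Pic0 K F := fun χ => Pic0.mk ⟨DD χ, hdeg χ⟩
  have heval : ∀ (χ : Par) (h : M) (f : F),
      th70_Adm K ev p ζ (χ : Additive Gam →+ ZMod p) h f →
        ∀ D : Divisor.degZero (K := K) (F := F), th70_IsDivOf p f (D : Divisor K F) →
          θ χ = Pic0.mk D := by
    intro χ h f H D hD
    exact th70_class_unique hp hζ0 hK2 H (hA χ) D ⟨DD χ, hdeg χ⟩ hD (hDD χ)
  have hadd : ∀ χ₁ χ₂ : Par, θ (χ₁ + χ₂) = θ χ₁ + θ χ₂ := by
    intro χ₁ χ₂
    have H := th70_adm_mul (K := K) hζp (hA χ₁) (hA χ₂)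
    have hD := th70_isDivOf_mul (hA χ₁).2.1 (hA χ₂).2.1 (hDD χ₁) (hDD χ₂)
    have := heval (χ₁ + χ₂) _ _ H (⟨DD χ₁, hdeg χ₁⟩ + ⟨DD χ₂, hdeg χ₂⟩) hD
    rw [this, Pic0.mk_add]
  refine ⟨AddMonoidHom.mk' θ hadd, ?_, ?_, heval⟩
  · -- injectivity
    rw [injective_iff_map_eq_zero]
    intro χ hχ
    have hχ' : Pic0.mk (⟨DD χ, hdeg χ⟩ : Divisor.degZero (K := K) (F := F)) = 0 := hχ
    unfold Pic0.mk at hχ'
    rw [QuotientAddGroup.eq_zero_iff, AddSubgroup.mem_addSubgroupOf] at hχ'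
    obtain ⟨w, hw, hwD⟩ := hχ'
    obtain ⟨a1, a2, a3, a4, a5⟩ := hA χ
    -- `f / w ^ p` has no zeros and poles
    have hwp : w ^ p ≠ 0 := pow_ne_zero _ hw
    have hord : ∀ v : Place K F, v.ord (ff χ / w ^ p) = 0 := by
      intro v
      rw [div_eq_mul_inv, v.ord_mul a2 (inv_ne_zero hwp), v.ord_inv, th70_ord_pow, ← hDD χ v]
      have := hwD v
      simp only at this
      rw [this]
      ring
    obtain ⟨a, ha⟩ := hconst _ (div_ne_zero a2 hwp) hord
    obtain ⟨b, hb⟩ := hroot a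
    have ha0 : a ≠ 0 := by
      rintro rfl
      rw [map_zero] at ha
      exact div_ne_zero a2 hwp ha
    have hb0 : b ≠ 0 := by
      rintro rfl
      rw [zero_pow hp] at hb
      exact ha0 hb.symm
    have hevb : ev (algebraMap K F b) ≠ 0 := by
      simpa using hb0
    have hevw : ev w ≠ 0 := by simpa using hw
    -- `y := h / (ev w * ev b)` is a `p`-th root of unity
    have hy : (hh χ / (ev w * ev (algebraMap K F b))) ^ p = 1 := by
      have hf : ff χ = algebraMap K F a * w ^ p := by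
        rw [← ha, div_mul_cancel₀ _ hwp]
      rw [div_pow, a4, hf, ← hb, map_mul, map_pow, map_pow, map_pow, mul_pow]
      have h1 : ev (algebraMap K F b) ^ p ≠ 0 := pow_ne_zero _ hevb
      have h2 : ev w ^ p ≠ 0 := pow_ne_zero _ hevw
      field_simp
    obtain ⟨i, -, hi⟩ := hζ.eq_pow_of_pow_eq_one hy
    have hhval : hh χ = ζ ^ i * (ev w * ev (algebraMap K F b)) := by
      rw [hi, div_mul_cancel₀ _ (mul_ne_zero hevw hevb)]
    have hinvh : ∀ g : Gam, g • hh χ = hh χ := by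
      intro g
      rw [hhval, smul_mul', smul_mul', smul_pow', hζfix, hfix, hfix]
    -- hence the character is trivial
    have hχ0 : (χ : Additive Gam →+ ZMod p) = 0 := by
      refine DFunLike.ext _ _ fun g => ?_
      have h1 := a3 (Additive.toMul g)
      rw [ofMul_toMul] at h1
      rw [hinvh] at h1
      have h2 : ζ ^ ((χ : Additive Gam →+ ZMod p) g).val = 1 := by
        have h3 : (ζ ^ ((χ : Additive Gam →+ ZMod p) g).val - 1) * hh χ = 0 := by
          rw [sub_mul, one_mul]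
          exact sub_eq_zero.mpr h1.symm
        rcases mul_eq_zero.mp h3 with h4 | h4
        · exact sub_eq_zero.mp h4
        · exact absurd h4 a1
      have h5 := (hζ.pow_eq_one_iff_dvd _).mp h2
      have h6 : ((χ : Additive Gam →+ ZMod p) g).val = 0 :=
        Nat.eq_zero_of_dvd_of_lt h5 (ZMod.val_lt _)
      rw [AddMonoidHom.zero_apply]
      exact (ZMod.val_eq_zero _).mp h6
    exact Subtype.ext hχ0
  · -- `p`-torsion
    intro χ
    show (p : ℤ) • θ χ = 0
    show (p : ℤ) • Pic0.mk (⟨DD χ, hdeg χ⟩ : Divisor.degZero (K := K) (F := F)) = 0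
    unfold Pic0.mk
    rw [← QuotientAddGroup.mk_zsmul, QuotientAddGroup.eq_zero_iff, AddSubgroup.mem_addSubgroupOf]
    refine ⟨ff χ, (hA χ).2.1, fun v => ?_⟩
    have := hDD χ v
    simpa using this

/-- **Abstract Hecke step.**  If admissible pairs can be pushed through an endomorphism `T` of
`Pic0` compatibly with an operator `T'` on characters, then `Θ` intertwines `T'` and `T`. -/
theorem th70_hecke_of {ev : F →+* M} {p : ℕ} {ζ : M}
    {Par : AddSubgroup (Additive Gam →+ ZMod p)}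
    (hex : ∀ χ ∈ Par, ∃ (h : M) (f : F), th70_Adm K ev p ζ χ h f)
    (Θ : Par →+ Pic0 K F)
    (heval : ∀ (χ : Par) (h : M) (f : F), th70_Adm K ev p ζ (χ : Additive Gam →+ ZMod p) h f →
        ∀ D : Divisor.degZero (K := K) (F := F), th70_IsDivOf p f (D : Divisor K F) →
          Θ χ = Pic0.mk D)
    (hp : p ≠ 0) [HasPrincipalDivisors K F]
    (T : Pic0 K F →+ Pic0 K F) (T' : (Additive Gam →+ ZMod p) → (Additive Gam →+ ZMod p))
    (hT : ∀ χ ∈ Par, ∀ (h : M) (f : F), th70_Adm K ev p ζ χ h f →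
      ∀ D : Divisor.degZero (K := K) (F := F), th70_IsDivOf p f (D : Divisor K F) →
        ∃ (h' : M) (f' : F) (D' : Divisor.degZero (K := K) (F := F)),
          th70_Adm K ev p ζ (T' χ) h' f' ∧ th70_IsDivOf p f' (D' : Divisor K F) ∧
            T (Pic0.mk D) = Pic0.mk D')
    (χ : Par) (hχ : T' (χ : Additive Gam →+ ZMod p) ∈ Par) :
    T (Θ χ) = Θ ⟨T' (χ : Additive Gam →+ ZMod p), hχ⟩ := by
  obtain ⟨h, f, H⟩ := hex χ.1 χ.2
  obtain ⟨D, hD, hdeg⟩ := th70_exists_div (K := K) hp H.2.1 H.2.2.2.2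
  obtain ⟨h', f', D', H', hD', hTD⟩ := hT χ.1 χ.2 h f H ⟨D, hdeg⟩ hD
  rw [heval χ h f H ⟨D, hdeg⟩ hD, hTD]
  exact (heval ⟨T' (χ : Additive Gam →+ ZMod p), hχ⟩ h' f' H' D' hD').symm

end th70_main

section th70_corr

variable {K F F' : Type*} [Field K] [Field F] [Field F'] [Algebra K F] [Algebra K F']
variable [HasPrincipalDivisors K F']

/-- The correspondence `ψ_* φ^*` sends `(1/p) div f` to `(1/p) div (Norm_ψ (φ f))`. -/
theorem th70_isDivOf_corr (φ ψ : F →ₐ[K] F') (hφ : φ.toRingHom.IsIntegral)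
    (hψ : ψ.toRingHom.IsIntegral) (hfin : FiniteAlong K ψ) (hN : NormFormulaAlong K ψ hfin)
    {p : ℕ} {f : F} (hf : f ≠ 0) {D : Divisor K F} (hD : th70_IsDivOf p f D) :
    th70_IsDivOf p (letI := algebraAlong ψ; Algebra.norm F (φ f))
      (Divisor.correspondence φ ψ hφ hψ D) := by
  intro v
  -- the divisor of `f`
  have h0 : ∀ w : Place K F, ((p : ℤ) • D) w = w.ord f := fun w => by
    rw [Finsupp.smul_apply, smul_eq_mul, hD w]
  -- pull back along `φ`
  have h1 : ∀ w : Place K F', Divisor.pullbackAlong φ hφ ((p : ℤ) • D) w = w.ord (φ f) := by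
    intro w
    letI := algebraAlong φ
    haveI := isScalarTower_along φ
    haveI := isIntegral_along φ hφ
    exact Divisor.pullback_apply_eq_ord (F' := F') h0 w
  have hφf : φ f ≠ 0 := by simpa using hf
  -- push forward along `ψ`
  have h2 : Divisor.pushforwardAlong ψ hψ (Divisor.pullbackAlong φ hφ ((p : ℤ) • D)) v
      = v.ord (letI := algebraAlong ψ; Algebra.norm F (φ f)) := by
    letI := algebraAlong ψ
    haveI := isScalarTower_along ψ
    haveI := isIntegral_along ψ hψ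
    haveI : Module.Finite F F' := hfin
    exact hN (φ f) hφf _ h1 v
  rw [← h2, ← Divisor.correspondence_apply, map_zsmul, Finsupp.smul_apply, smul_eq_mul]

/-- The class of the image divisor under the `Pic0`-correspondence. -/
theorem th70_corr_mk (φ ψ : F →ₐ[K] F') (hφ : φ.toRingHom.IsIntegral)
    (hψ : ψ.toRingHom.IsIntegral) (hFI : FundamentalIdentityAlong K φ hφ)
    (hfin : FiniteAlong K ψ) (hN : NormFormulaAlong K ψ hfin)
    (D : Divisor.degZero (K := K) (F := F)) :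
    Pic0.correspondence φ ψ hφ hψ hFI hfin hN (Pic0.mk D) =
      Pic0.mk ⟨Divisor.correspondence φ ψ hφ hψ (D : Divisor K F),
        Divisor.correspondence_mem_degZero φ ψ hφ hψ hFI D.2⟩ :=
  rfl

end th70_corr

end Fermat.Agent.S42
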