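/-
S42 / Project 4, row M5a (helper77): the `h`-half of seam (G-X) in the exact `th70` shape.

For `χ : Additive ↥Γ →+ ZMod p` parabolic and `ζ : ℂˣ` with `ζ ^ p = 1` the element
`ec77_hX k Γ ζ hζ χ hk : mer95_MER` (`= E_χ / E_1`, weight `k` even `≥ 4`) satisfies

* `ec77_hX_ne_zero`   : `h ≠ 0`;
* `ec77_hX_isChar`    : `th70_IsChar p (algebraMap ℂ mer95_MER ζ) χ h`  (for `Gam := ↥Γ` acting on
  `mer95_MER` through `SL(2, ℤ)`);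
* `ec77_hX_pow_smul`  : `h ^ p` is `Γ`-invariant;
* `ec77_hX_pow_eq_div`, `ec77_hX_pow_tendsto`, `ec77_hX_den_eventually_ne_zero` : `h ^ p` is the
  quotient of two elements of `mer95_O` whose values along every cusp `s • z`, `Im z → ∞`, have
  quotient tending to `1` (the denominator being eventually nonzero);
* `ec77_hX_ord`       : `ord_τ (h ^ p) = p * ord_τ h`.
-/
import Mathlib
import Fermat.Agent.S42.EisChiMer77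
import Fermat.Agent.S42.ThetaAbs70

set_option autoImplicit false

open Matrix UpperHalfPlane Filter Topology
open scoped MatrixGroups

namespace Fermat.Agent.S42

open ModularCurve.Period

section CharZ

variable {Γ : Subgroup SL(2, ℤ)} {p : ℕ} [NeZero p]

/-- The character `γ ↦ ζ ^ (χ γ).val` of `Γ`, for `χ` with values in `ZMod p` and `ζ ^ p = 1`. -/
def ec77_charZ (ζ : ℂˣ) (hζ : ζ ^ p = 1) (χ : Additive ↥Γ →+ ZMod p) : ↥Γ →* ℂˣ where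
  toFun γ := ζ ^ (χ (Additive.ofMul γ)).val
  map_one' := by
    have : χ (Additive.ofMul (1 : ↥Γ)) = 0 := χ.map_zero
    rw [this, ZMod.val_zero, pow_zero]
  map_mul' a b := by
    have h : χ (Additive.ofMul (a * b)) = χ (Additive.ofMul a) + χ (Additive.ofMul b) :=
      χ.map_add _ _
    rw [h, ← pow_add, ZMod.val_add, ← pow_eq_pow_mod _ hζ]

theorem ec77_charZ_apply (ζ : ℂˣ) (hζ : ζ ^ p = 1) (χ : Additive ↥Γ →+ ZMod p) (γ : ↥Γ) :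
    ec77_charZ ζ hζ χ γ = ζ ^ (χ (Additive.ofMul γ)).val := rfl

theorem ec77_charZ_par (ζ : ℂˣ) (hζ : ζ ^ p = 1) {χ : Additive ↥Γ →+ ZMod p}
    (hχ : IsParabolicHom Γ χ) (γ : ↥Γ)
    (h : ((γ : SL(2, ℤ)) : Matrix (Fin 2) (Fin 2) ℤ).trace ^ 2 = 4) :
    ec77_charZ ζ hζ χ γ = 1 := by
  rw [ec77_charZ_apply, hχ γ h, ZMod.val_zero, pow_zero]

theorem ec77_charZ_pow (ζ : ℂˣ) (hζ : ζ ^ p = 1) (χ : Additive ↥Γ →+ ZMod p) (γ : ↥Γ) :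
    ec77_charZ ζ hζ χ γ ^ p = 1 := by
  rw [ec77_charZ_apply, ← pow_mul, mul_comm, pow_mul, hζ, one_pow]

theorem ec77_charZ_unit (ζ : ℂˣ) (hζ : ζ ^ p = 1) (χ : Additive ↥Γ →+ ZMod p) (γ : ↥Γ) :
    ‖((ec77_charZ ζ hζ χ γ : ℂˣ) : ℂ)‖ = 1 :=
  ec77_unit_of_pow (NeZero.ne p) (ec77_charZ_pow ζ hζ χ) γ

end CharZ

section HX

variable (k : ℤ) (Γ : Subgroup SL(2, ℤ)) {p : ℕ} [NeZero p]

/-- **The Kummer generator attached to `χ`**: `h_χ = E_{ζ^χ} / E_1` in `mer95_MER`. -/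
noncomputable def ec77_hX (ζ : ℂˣ) (hζ : ζ ^ p = 1) (χ : Additive ↥Γ →+ ZMod p) (hk : 3 ≤ k) :
    mer95_MER :=
  ec77_Fchi k Γ (ec77_charZ ζ hζ χ) hk (ec77_charZ_unit ζ hζ χ)

variable {k Γ}

theorem ec77_hX_ne_zero (ζ : ℂˣ) (hζ : ζ ^ p = 1) {χ : Additive ↥Γ →+ ZMod p}
    (hχ : IsParabolicHom Γ χ) (hk : 3 ≤ k) (hk2 : Even k) :
    ec77_hX k Γ ζ hζ χ hk ≠ 0 :=
  ec77_Fchi_ne_zero hk hk2 _ (ec77_charZ_par ζ hζ hχ)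

/-- transformation law, `SL(2, ℤ)`-form. -/
theorem ec77_hX_smul (ζ : ℂˣ) (hζ : ζ ^ p = 1) {χ : Additive ↥Γ →+ ZMod p}
    (hχ : IsParabolicHom Γ χ) (hk : 3 ≤ k) (hk2 : Even k) (γ : ↥Γ) :
    (γ : SL(2, ℤ)) • ec77_hX k Γ ζ hζ χ hk =
      algebraMap ℂ mer95_MER (ζ : ℂ) ^ (χ (Additive.ofMul γ)).val * ec77_hX k Γ ζ hζ χ hk := by
  unfold ec77_hX
  rw [ec77_Fchi_smul hk hk2 _ (ec77_charZ_par ζ hζ hχ) γ, ec77_charZ_apply,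
    Units.val_pow_eq_pow_val, map_pow]

/-- **`h_χ` has the character `ζ ^ χ`** (`th70_IsChar`, `Gam := ↥Γ`). -/
theorem ec77_hX_isChar (ζ : ℂˣ) (hζ : ζ ^ p = 1) {χ : Additive ↥Γ →+ ZMod p}
    (hχ : IsParabolicHom Γ χ) (hk : 3 ≤ k) (hk2 : Even k) :
    th70_IsChar p (algebraMap ℂ mer95_MER (ζ : ℂ)) χ (ec77_hX k Γ ζ hζ χ hk) :=
  fun γ => ec77_hX_smul ζ hζ hχ hk hk2 γ

/-- `h_χ ^ p` is `Γ`-invariant. -/
theorem ec77_hX_pow_smul (ζ : ℂˣ) (hζ : ζ ^ p = 1) {χ : Additive ↥Γ →+ ZMod p}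
    (hχ : IsParabolicHom Γ χ) (hk : 3 ≤ k) (hk2 : Even k) (γ : SL(2, ℤ)) (hγ : γ ∈ Γ) :
    γ • ec77_hX k Γ ζ hζ χ hk ^ p = ec77_hX k Γ ζ hζ χ hk ^ p := by
  have h := ec77_hX_smul ζ hζ hχ hk hk2 ⟨γ, hγ⟩
  rw [smul_pow']
  simp only at h
  rw [h, mul_pow, ← pow_mul, mul_comm _ p, pow_mul, ← map_pow, ← Units.val_pow_eq_pow_val, hζ,
    Units.val_one, map_one, one_pow, one_mul]

theorem ec77_hX_ord (ζ : ℂˣ) (hζ : ζ ^ p = 1) (χ : Additive ↥Γ →+ ZMod p) (hk : 3 ≤ k) (τ : ℍ) :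
    mer95_ord τ (ec77_hX k Γ ζ hζ χ hk ^ p) = p * mer95_ord τ (ec77_hX k Γ ζ hζ χ hk) :=
  mer95_ord_pow τ _ p

/-- `h_χ ^ p` as a quotient of two elements of `mer95_O`. -/
theorem ec77_hX_pow_eq_div (ζ : ℂˣ) (hζ : ζ ^ p = 1) (χ : Additive ↥Γ →+ ZMod p) (hk : 3 ≤ k) :
    ec77_hX k Γ ζ hζ χ hk ^ p =
      algebraMap mer95_O mer95_MER
          (ec77_EchiO k Γ (ec77_charZ ζ hζ χ) hk (ec77_charZ_unit ζ hζ χ) ^ p) /
        algebraMap mer95_O mer95_MER (ec77_EoneO k hk ^ p) :=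
  ec77_Gchi_eq_div hk p _

/-- **Cusp behaviour of `h_χ ^ p`**: numerator / denominator tends to `1` along `s • z`,
`Im z → ∞`, for every `s ∈ SL(2, ℤ)`. -/
theorem ec77_hX_pow_tendsto (ζ : ℂˣ) (hζ : ζ ^ p = 1) {χ : Additive ↥Γ →+ ZMod p}
    (hχ : IsParabolicHom Γ χ) (hk : 3 ≤ k) (hk2 : Even k) (s : SL(2, ℤ)) :
    Tendsto (fun z : ℍ =>
      (ec77_EchiO k Γ (ec77_charZ ζ hζ χ) hk (ec77_charZ_unit ζ hζ χ) ^ p).1 (s • z) /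
        (ec77_EoneO k hk ^ p).1 (s • z)) atImInfty (𝓝 1) :=
  ec77_Gchi_tendsto hk hk2 (NeZero.ne p) (ec77_charZ_pow ζ hζ χ) (ec77_charZ_par ζ hζ hχ) s

theorem ec77_hX_den_eventually_ne_zero (hk : 3 ≤ k) (hk2 : Even k) (p : ℕ) (s : SL(2, ℤ)) :
    ∀ᶠ z in atImInfty, (ec77_EoneO k hk ^ p).1 (s • z) ≠ 0 :=
  ec77_EoneO_pow_eventually_ne_zero hk hk2 p s

end HX

end Fermat.Agent.S42
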