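import Fermat.Agent.S37.HeckeExports63

/-!
# S42, row M8f (owner: helper63): the divisor side of the Hecke operator on Kummer presentations

A class `c` of `J₀(N)(ℚ̄)` killed by `n` has a *Kummer presentation*: `c = [D]`, `n • D = div u`.
We show that the Hecke correspondence maps Kummer presentations to Kummer presentations:

  `T_ℓ [D] = [D']`,  `n • D' = div (Nm_α (β u))`,

where `α, β : F(N) → F(N ℓ)` are the two degeneracy maps (`heckeAlphaBar`, `heckeBetaBar`) and
`Nm_α` is the norm of `F(N ℓ)` over `α F(N)`.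

* `hd63_pullbackAlong_div`, `hd63_pushforwardAlong_div`, `hd63_correspondence_div`: generic
  function fields;
* `hd63_heckeNorm N ℓ u = Nm_α (β u)`;
* `hd63_heckeDivBar_div`, `hd63_heckeOperatorBar_kummer`: the modular case;
* `hd63_exists_kummer`, `hd63_torsion_of_kummer`: Kummer presentations of torsion classes.

All names are prefixed `hd63_`.
-/

set_option autoImplicit false
set_option linter.style.haveILetI false
set_option linter.unusedSectionVars false

open ModularCurve AlgebraicCurve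

namespace Fermat.Agent.S42

open Fermat.Agent.S37

section hd63_generic

variable {K F F' : Type*} [Field K] [Field F] [Field F'] [Algebra K F] [Algebra K F']

/-- If `n • D = div u` then `n • φ^* D = div (φ u)`. -/
theorem hd63_pullbackAlong_div [HasPrincipalDivisors K F'] (φ : F →ₐ[K] F')
    (hφ : φ.toRingHom.IsIntegral) (D : Divisor K F) (n : ℤ) (u : F)
    (hD : ∀ v, n * D v = v.ord u) (w : Place K F') :
    n * Divisor.pullbackAlong φ hφ D w = w.ord (φ u) := by
  rw [Divisor.pullbackAlong_apply, Place.ord_restrictAlong φ hφ w u, ← hD]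
  ring

/-- If `n • E = div f` then `n • ψ_* E = div (Nm_ψ f)`. -/
theorem hd63_pushforwardAlong_div (ψ : F →ₐ[K] F') (hψ : ψ.toRingHom.IsIntegral)
    (hfin : FiniteAlong K ψ) (hN : NormFormulaAlong K ψ hfin) (E : Divisor K F') (n : ℤ)
    (f : F') (hf : f ≠ 0) (hE : ∀ w, n * E w = w.ord f) (v : Place K F) :
    n * Divisor.pushforwardAlong ψ hψ E v =
      v.ord (letI := algebraAlong ψ; Algebra.norm F f) := by
  have h1 : n * Divisor.pushforwardAlong ψ hψ E v = Divisor.pushforwardAlong ψ hψ (n • E) v := by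
    rw [map_zsmul, Finsupp.smul_apply, smul_eq_mul]
  rw [h1]
  letI := algebraAlong ψ
  haveI := isScalarTower_along ψ
  haveI := isIntegral_along ψ hψ
  haveI : Module.Finite F F' := hfin
  have hN' : Divisor.PushforwardNormFormula K F F' := hN
  exact hN' f hf (n • E) (fun w => by rw [Finsupp.smul_apply, smul_eq_mul, hE]) v

/-- If `n • D = div u` then `n • ψ_* φ^* D = div (Nm_ψ (φ u))`. -/
theorem hd63_correspondence_div [HasPrincipalDivisors K F'] (φ ψ : F →ₐ[K] F')
    (hφ : φ.toRingHom.IsIntegral) (hψ : ψ.toRingHom.IsIntegral)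
    (hfin : FiniteAlong K ψ) (hN : NormFormulaAlong K ψ hfin) (D : Divisor K F) (n : ℤ)
    (u : F) (hu : u ≠ 0) (hD : ∀ v, n * D v = v.ord u) (v : Place K F) :
    n * Divisor.correspondence φ ψ hφ hψ D v =
      v.ord (letI := algebraAlong ψ; Algebra.norm F (φ u)) := by
  rw [Divisor.correspondence_apply]
  exact hd63_pushforwardAlong_div ψ hψ hfin hN _ n (φ u)
    (fun h => hu (φ.injective (h.trans (map_zero φ).symm)))
    (hd63_pullbackAlong_div φ hφ D n u hD) v

end hd63_generic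

section hd63_modular

local notation "Qb" => AlgebraicClosure ℚ

variable (N ℓ : ℕ) [NeZero N] [NeZero ℓ]

/-- `Nm_α (β u)`: the norm, along the inclusion `α : F(N) → F(N ℓ)`, of `β u = u(q^ℓ)`. -/
noncomputable def hd63_heckeNorm (u : ↥(modularFunctionFieldBar N)) :
    ↥(modularFunctionFieldBar N) :=
  letI := algebraAlong (heckeAlphaBar Qb N ℓ)
  Algebra.norm ↥(modularFunctionFieldBar N) (heckeBetaBar Qb N ℓ u)

theorem hd63_heckeNorm_def (u : ↥(modularFunctionFieldBar N)) :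
    hd63_heckeNorm N ℓ u =
      (letI := algebraAlong (heckeAlphaBar Qb N ℓ)
       Algebra.norm ↥(modularFunctionFieldBar N) (heckeBetaBar Qb N ℓ u)) := rfl

theorem hd63_heckeNorm_one : hd63_heckeNorm N ℓ 1 = 1 := by
  letI := algebraAlong (heckeAlphaBar Qb N ℓ)
  show Algebra.norm ↥(modularFunctionFieldBar N) (heckeBetaBar Qb N ℓ 1) = 1
  rw [map_one, map_one]

theorem hd63_heckeNorm_mul (u v : ↥(modularFunctionFieldBar N)) :
    hd63_heckeNorm N ℓ (u * v) = hd63_heckeNorm N ℓ u * hd63_heckeNorm N ℓ v := by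
  letI := algebraAlong (heckeAlphaBar Qb N ℓ)
  show Algebra.norm ↥(modularFunctionFieldBar N) (heckeBetaBar Qb N ℓ (u * v)) =
    Algebra.norm ↥(modularFunctionFieldBar N) (heckeBetaBar Qb N ℓ u) *
      Algebra.norm ↥(modularFunctionFieldBar N) (heckeBetaBar Qb N ℓ v)
  rw [map_mul, map_mul]

theorem hd63_heckeNorm_pow (u : ↥(modularFunctionFieldBar N)) (k : ℕ) :
    hd63_heckeNorm N ℓ (u ^ k) = hd63_heckeNorm N ℓ u ^ k := by
  letI := algebraAlong (heckeAlphaBar Qb N ℓ)
  show Algebra.norm ↥(modularFunctionFieldBar N) (heckeBetaBar Qb N ℓ (u ^ k)) =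
    Algebra.norm ↥(modularFunctionFieldBar N) (heckeBetaBar Qb N ℓ u) ^ k
  rw [map_pow, map_pow]

theorem hd63_heckeNorm_ne_zero {u : ↥(modularFunctionFieldBar N)} (hu : u ≠ 0) :
    hd63_heckeNorm N ℓ u ≠ 0 := by
  haveI : NeZero (N * ℓ) := ⟨mul_ne_zero (NeZero.ne N) (NeZero.ne ℓ)⟩
  have hfin : FiniteAlong Qb (heckeAlphaBar Qb N ℓ) := hx63_finiteAlong_gen N (N * ℓ) _
  letI := algebraAlong (heckeAlphaBar Qb N ℓ)
  haveI : Module.Finite ↥(modularFunctionFieldBar N) ↥(modularFunctionFieldBar (N * ℓ)) := hfin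
  show Algebra.norm ↥(modularFunctionFieldBar N) (heckeBetaBar Qb N ℓ u) ≠ 0
  rw [Algebra.norm_ne_zero_iff]
  exact fun h => hu ((heckeBetaBar Qb N ℓ).injective (h.trans (map_zero _).symm))

variable {N ℓ}

/-- If `n • D = div u` then `n • T_ℓ D = div (Nm_α (β u))`, on divisors. -/
theorem hd63_heckeDivBar_div (hα : HeckeAlphaBarIntegral Qb N ℓ)
    (hβ : HeckeBetaBarIntegral Qb N ℓ)
    [HasPrincipalDivisors Qb ↥(modularFunctionFieldBar (N * ℓ))]
    (D : Divisor Qb ↥(modularFunctionFieldBar N)) (n : ℤ) (u : ↥(modularFunctionFieldBar N))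
    (hu : u ≠ 0) (hD : ∀ v, n * D v = v.ord u) (v : Place Qb ↥(modularFunctionFieldBar N)) :
    n * heckeDivBar hα hβ D v = v.ord (hd63_heckeNorm N ℓ u) := by
  haveI : NeZero (N * ℓ) := ⟨mul_ne_zero (NeZero.ne N) (NeZero.ne ℓ)⟩
  obtain ⟨-, hfin, hNF⟩ := hx63_inputs_gen (φ := heckeAlphaBar Qb N ℓ) hα
  exact hd63_correspondence_div (heckeBetaBar Qb N ℓ) (heckeAlphaBar Qb N ℓ) hβ hα hfin hNF
    D n u hu hD v

/-- **The Hecke operator on Kummer presentations**: if `n • D = div u` then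
`T_ℓ [D] = [D']` with `n • D' = div (Nm_α (β u))`. -/
theorem hd63_heckeOperatorBar_kummer (hℓ : ℓ.Prime) (n : ℤ)
    (D : Divisor.degZero (K := Qb) (F := ↥(modularFunctionFieldBar N)))
    (u : ↥(modularFunctionFieldBar N)) (hu : u ≠ 0)
    (hD : ∀ v, n * (D : Divisor Qb ↥(modularFunctionFieldBar N)) v = v.ord u) :
    ∃ D' : Divisor.degZero (K := Qb) (F := ↥(modularFunctionFieldBar N)),
      heckeOperatorBar N ⟨ℓ, hℓ⟩ (Pic0.mk D) = Pic0.mk D' ∧
        ∀ v, n * (D' : Divisor Qb ↥(modularFunctionFieldBar N)) v =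
          v.ord (hd63_heckeNorm N ℓ u) := by
  haveI : NeZero (N * ℓ) := ⟨mul_ne_zero (NeZero.ne N) (NeZero.ne ℓ)⟩
  haveI := hi63_hasPrincipalDivisors_bar (N * ℓ)
  have hα := hx63_heckeAlphaBarIntegral N ℓ
  have hβ := hx63_heckeBetaBarIntegral N ℓ
  obtain ⟨hD', hmk⟩ := hx63_heckeOperatorBar_mk hℓ hα hβ D
  exact ⟨⟨_, hD'⟩, hmk, fun v => hd63_heckeDivBar_div hα hβ _ n u hu hD v⟩

variable (N)

/-- A class with a Kummer presentation `n • D = div u` is killed by `n`. -/
theorem hd63_torsion_of_kummer (n : ℤ)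
    (D : Divisor.degZero (K := Qb) (F := ↥(modularFunctionFieldBar N)))
    (u : ↥(modularFunctionFieldBar N)) (hu : u ≠ 0)
    (hD : ∀ v, n * (D : Divisor Qb ↥(modularFunctionFieldBar N)) v = v.ord u) :
    n • (Pic0.mk D : JZero N) = 0 := by
  have h1 : (Pic0.mk (n • D) : JZero N) = n • Pic0.mk D := QuotientAddGroup.mk_zsmul _ D n
  rw [← h1]
  refine (QuotientAddGroup.eq_zero_iff _).mpr ?_
  rw [AddSubgroup.mem_addSubgroupOf]
  refine ⟨u, hu, fun v => ?_⟩
  rw [← hD v]
  simp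

/-- Every class killed by `n` has a Kummer presentation `n • D = div u`. -/
theorem hd63_exists_kummer (n : ℤ) (c : JZero N) (hc : n • c = 0) :
    ∃ (D : Divisor.degZero (K := Qb) (F := ↥(modularFunctionFieldBar N)))
      (u : ↥(modularFunctionFieldBar N)), u ≠ 0 ∧ c = Pic0.mk D ∧
        ∀ v, n * (D : Divisor Qb ↥(modularFunctionFieldBar N)) v = v.ord u := by
  obtain ⟨D, rfl⟩ := QuotientAddGroup.mk_surjective c
  have h1 : (Pic0.mk (n • D) : JZero N) = 0 := by
    have h0 : (Pic0.mk (n • D) : JZero N) = n • Pic0.mk D := QuotientAddGroup.mk_zsmul _ D n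
    rw [h0]
    exact hc
  have h2 := (QuotientAddGroup.eq_zero_iff _).mp h1
  rw [AddSubgroup.mem_addSubgroupOf] at h2
  obtain ⟨u, hu, hDu⟩ := h2
  refine ⟨D, u, hu, rfl, fun v => ?_⟩
  rw [← hDu v]
  simp

end hd63_modular

end Fermat.Agent.S42
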