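import Fermat.Agent.S42.W1Asm28

/-!
# S42, row ARCH / R7 (helper70): (W1) from the `Θ`-side interface

Directive 11a puts the Kummer map in the direction `Θ : Par_N → J₀(N)(ℚ̄)[p]` (class of
`(1/p) div u_χ`).  This file is the `Θ`-twin of `W1Asm28`: from

* (I-Theta)  `Θ : Par_N →+ JZero N` additive, injective, killed by `p`,
* (I-ThetaHEC) for `ℓ ∤ N p`: `T'_ℓ χ ∈ Par_N` and `heckeOperatorBar N ℓ (Θ χ) = Θ (T'_ℓ χ)`,
* (I-EIG) exactly as in `w1a28_main_eigenform`,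

it derives the SAME conclusion (W1) as `w1a28_main` / `w1a28_main_eigenform`, so the consumers
of (W1) do not change.  Names are prefixed `w1t70_`.
-/

set_option autoImplicit false
set_option linter.unusedSectionVars false
set_option linter.unusedVariables false

open CongruenceSubgroup ModularCurve ModularCurve.Period AlgebraicCurve
open scoped TensorProduct MatrixGroups

namespace Fermat.Agent.S42

open Fermat.Agent.S16

section Abstract

variable {F : Type*} [Field F] {k0 : Type*} [Field k0] [Algebra F k0]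
variable {J X P : Type*} [AddCommGroup J] [Module F J] [AddCommGroup X] [Module F X]
  [AddCommGroup P] [Module F P]

/-- Abstract `Θ`-form of (W1): `Θ : P → J` injective, `ι : P → X` injective, `x ≠ 0` in
`k0 ⊗ P`; then `y := (1 ⊗ Θ) x ≠ 0`, and for operators `TJ`, `TX`, `TP` with
`ι ∘ TP = TX ∘ ι` and `TJ ∘ Θ = Θ ∘ TP` every eigen-equation of `(1 ⊗ ι) x` under `1 ⊗ TX`
is an eigen-equation of `y` under `1 ⊗ TJ`. -/
theorem w1t70_abs (Θ : P →ₗ[F] J) (hΘ : Function.Injective Θ) (ι : P →ₗ[F] X)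
    (hι : Function.Injective ι) (x : k0 ⊗[F] P) (hx0 : x ≠ 0) :
    Θ.baseChange k0 x ≠ 0 ∧
      ∀ (TJ : J →ₗ[F] J) (TX : X →ₗ[F] X) (TP : P →ₗ[F] P), ι.comp TP = TX.comp ι →
        TJ.comp Θ = Θ.comp TP → ∀ c : k0,
        TX.baseChange k0 (ι.baseChange k0 x) = c • ι.baseChange k0 x →
        TJ.baseChange k0 (Θ.baseChange k0 x) = c • Θ.baseChange k0 x := by
  have hΘinj : Function.Injective (Θ.baseChange k0) := by
    rw [LinearMap.baseChange_eq_ltensor]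
    exact Module.Flat.lTensor_preserves_injective_linearMap Θ hΘ
  have hιinj : Function.Injective (ι.baseChange k0) := by
    rw [LinearMap.baseChange_eq_ltensor]
    exact Module.Flat.lTensor_preserves_injective_linearMap ι hι
  refine ⟨fun h0 => hx0 (hΘinj (by rw [h0, map_zero])), fun TJ TX TP h1 h2 c hc => ?_⟩
  have h3 : TP.baseChange k0 x = c • x := by
    apply hιinj
    rw [← LinearMap.comp_apply, ← LinearMap.baseChange_comp, h1, LinearMap.baseChange_comp,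
      LinearMap.comp_apply, hc, map_smul]
  rw [← LinearMap.comp_apply, ← LinearMap.baseChange_comp, h2, LinearMap.baseChange_comp,
    LinearMap.comp_apply, h3, map_smul]

end Abstract

section Main

variable {N : ℕ} {p : ℕ} [NeZero N]

/-- `Θ` corestricted to the `p`-torsion `J_p`. -/
noncomputable def w1t70_ThetaJ (Θ : w1a28_Par N p →+ JZero N)
    (htors : ∀ χ, (p : ℤ) • Θ χ = 0) : w1a28_Par N p →+ w1a28_J N p where
  toFun χ := ⟨Θ χ, Pic0.mem_torsion.mpr (htors χ)⟩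
  map_zero' := Subtype.ext (map_zero Θ)
  map_add' χ χ' := Subtype.ext (map_add Θ χ χ')

theorem w1t70_ThetaJ_coe (Θ : w1a28_Par N p →+ JZero N)
    (htors : ∀ χ, (p : ℤ) • Θ χ = 0) (χ : w1a28_Par N p) :
    ((w1t70_ThetaJ Θ htors χ : w1a28_J N p) : JZero N) = Θ χ := rfl

theorem w1t70_ThetaJ_injective (Θ : w1a28_Par N p →+ JZero N)
    (htors : ∀ χ, (p : ℤ) • Θ χ = 0) (hΘ : Function.Injective Θ) :
    Function.Injective (w1t70_ThetaJ Θ htors) := fun χ χ' h =>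
  hΘ (congrArg (fun c : w1a28_J N p => (c : JZero N)) h)

/-- `T'_ℓ` restricted to `Par_N`, given that it preserves `Par_N`. -/
noncomputable def w1t70_TP (ℓ : ℕ)
    (h : ∀ χ : w1a28_Par N p, heckeHom N ℓ (ZMod p) χ ∈ w1a28_Par N p) :
    w1a28_Par N p →ₗ[ZMod p] w1a28_Par N p :=
  ((w1a28_TX N p ℓ).comp (w1a28_Par N p).subtype).codRestrict (w1a28_Par N p) h

variable [Fact p.Prime] {k0 : Type*} [Field k0] [Algebra (ZMod p) k0]

/-- **(W1) from the `Θ`-side interfaces**, abstract eigenvalues `lam`. -/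
theorem w1t70_main
    (Θ : w1a28_Par N p →+ JZero N) (hΘ : Function.Injective Θ)
    (htors : ∀ χ, (p : ℤ) • Θ χ = 0)
    (hhec : ∀ ℓ : Nat.Primes, ¬ (ℓ : ℕ) ∣ N * p → ∀ χ : w1a28_Par N p,
      ∃ hχ : heckeHom N ℓ (ZMod p) χ ∈ w1a28_Par N p,
        heckeOperatorBar N ℓ (Θ χ) = Θ ⟨heckeHom N ℓ (ZMod p) χ, hχ⟩)
    (lam : Nat.Primes → k0)
    (heig : ∃ x : k0 ⊗[ZMod p] w1a28_Par N p, x ≠ 0 ∧
      ∀ ℓ : Nat.Primes, ¬ (ℓ : ℕ) ∣ N * p →
        (w1a28_TX N p ℓ).baseChange k0 ((w1a28_Par N p).subtype.baseChange k0 x)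
          = lam ℓ • (w1a28_Par N p).subtype.baseChange k0 x) :
    ∃ y : k0 ⊗[ZMod p] w1a28_J N p, y ≠ 0 ∧
      ∀ ℓ : Nat.Primes, ¬ (ℓ : ℕ) ∣ N * p →
        (w1a28_TJ N p ℓ).baseChange k0 y = lam ℓ • y := by
  obtain ⟨x, hx0, hx⟩ := heig
  have key := w1t70_abs (k0 := k0) ((w1t70_ThetaJ Θ htors).toZModLinearMap p)
    (w1t70_ThetaJ_injective Θ htors hΘ) (w1a28_Par N p).subtype
    (Submodule.subtype_injective _) x hx0
  refine ⟨_, key.1, fun ℓ hℓ => ?_⟩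
  have hpar : ∀ χ : w1a28_Par N p, heckeHom N ℓ (ZMod p) χ ∈ w1a28_Par N p :=
    fun χ => (hhec ℓ hℓ χ).1
  refine key.2 (w1a28_TJ N p ℓ) (w1a28_TX N p ℓ) (w1t70_TP ℓ hpar) ?_ ?_ (lam ℓ) (hx ℓ hℓ)
  · exact LinearMap.ext fun χ => rfl
  · refine LinearMap.ext fun χ => Subtype.ext ?_
    exact (hhec ℓ hℓ χ).2

/-- **(W1) for an eigenform from the `Θ`-side interfaces**: same conclusion as
`w1a28_main_eigenform`. -/
theorem w1t70_main_eigenform
    (Θ : w1a28_Par N p →+ JZero N) (hΘ : Function.Injective Θ)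
    (htors : ∀ χ, (p : ℤ) • Θ χ = 0)
    (hhec : ∀ ℓ : Nat.Primes, ¬ (ℓ : ℕ) ∣ N * p → ∀ χ : w1a28_Par N p,
      ∃ hχ : heckeHom N ℓ (ZMod p) χ ∈ w1a28_Par N p,
        heckeOperatorBar N ℓ (Θ χ) = Θ ⟨heckeHom N ℓ (ZMod p) χ, hχ⟩)
    (f : CuspForm (Gamma0 N) 2) (φ : integralClosure ℤ ℂ →+* k0)
    (heig : ∃ x : k0 ⊗[ZMod p] w1a28_Par N p, x ≠ 0 ∧
      ∀ ℓ : Nat.Primes, ¬ (ℓ : ℕ) ∣ N * p →
        ∃ a : integralClosure ℤ ℂ, (a : ℂ) = ModularFormClass.qCoeff (⇑f) ℓ ∧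
          (w1a28_TX N p ℓ).baseChange k0 ((w1a28_Par N p).subtype.baseChange k0 x)
            = φ a • (w1a28_Par N p).subtype.baseChange k0 x) :
    ∃ y : k0 ⊗[ZMod p] w1a28_J N p, y ≠ 0 ∧
      ∀ ℓ : Nat.Primes, ¬ (ℓ : ℕ) ∣ N * p →
        ∃ a : integralClosure ℤ ℂ, (a : ℂ) = ModularFormClass.qCoeff (⇑f) ℓ ∧
          (w1a28_TJ N p ℓ).baseChange k0 y = φ a • y := by
  obtain ⟨x, hx0, hx⟩ := heig
  have key := w1t70_abs (k0 := k0) ((w1t70_ThetaJ Θ htors).toZModLinearMap p)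
    (w1t70_ThetaJ_injective Θ htors hΘ) (w1a28_Par N p).subtype
    (Submodule.subtype_injective _) x hx0
  refine ⟨_, key.1, fun ℓ hℓ => ?_⟩
  obtain ⟨a, ha, hax⟩ := hx ℓ hℓ
  have hpar : ∀ χ : w1a28_Par N p, heckeHom N ℓ (ZMod p) χ ∈ w1a28_Par N p :=
    fun χ => (hhec ℓ hℓ χ).1
  refine ⟨a, ha, key.2 (w1a28_TJ N p ℓ) (w1a28_TX N p ℓ) (w1t70_TP ℓ hpar) ?_ ?_ (φ a) hax⟩
  · exact LinearMap.ext fun χ => rfl
  · refine LinearMap.ext fun χ => Subtype.ext ?_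
    exact (hhec ℓ hℓ χ).2

end Main

end Fermat.Agent.S42
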