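import Fermat.Agent.S42.ThetaAbs70
import Fermat.Agent.S42.W1Theta70
import Fermat.Agent.S42.Mer95
import Fermat.Agent.S42.HeckeDiv63
import Fermat.Agent.S18.ConstFk11

/-!
# S42, row ARCH / R7 (helper70): the concrete `Θ : Par_N → J₀(N)(ℚ̄)[p]`

Instantiation of `ThetaAbs70` at `K = ℚ̄`, `F = modularFunctionFieldBar N`, `M = mer95_MER`,
`Gam = Γ₀(N)`, `ζ = exp(2πi/p)`.  The four remaining inputs are stated as PLAIN hypotheses, each
the export of one row of the registry (binding shapes):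

* `ev0`, `hfix`  (M2): the evaluation `F_ℚ̄(N) → MER`, with `Γ₀(N)`-invariant image;
* `hK2`  (M3c + (L)): a `Γ₀(N)`-invariant `x ≠ 0` with `x ^ p = ev0 f` forces `f = a • w ^ p`;
* `hex`  ((X) + (DESC)): every `χ ∈ Par_N` has an admissible pair;
* `hHK`  (M8): the Hecke step on roots, `h ↦ h'` with `h' ^ p = ev0 (Nm_α (β f))` and character
  `heckeHom N ℓ χ`;
* `hpar` (M8p): `heckeHom N ℓ` preserves `Par_N`.

Conclusions: `th70_I_Theta` (the interface (I-Theta) of ARCH-1) and `th70_W1` ((W1) in the shape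
of `w1a28_main_eigenform`).
-/

set_option autoImplicit false
set_option linter.unusedSectionVars false
set_option linter.unusedVariables false
set_option linter.style.longLine false
set_option linter.style.haveILetI false

open CongruenceSubgroup ModularCurve ModularCurve.Period AlgebraicCurve UpperHalfPlane
open IntermediateField
open scoped TensorProduct MatrixGroups

namespace Fermat.Agent.S42

open Fermat.Agent.S16 Fermat.Agent.S24 Fermat.Agent.S37 Fermat.Agent.S18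

/-- `ζ_p = exp(2πi/p)` as a constant meromorphic function. -/
noncomputable def th70_zeta (p : ℕ) : mer95_MER :=
  algebraMap ℂ mer95_MER (Complex.exp (2 * Real.pi * Complex.I / p))

theorem th70_zeta_isPrimitiveRoot (p : ℕ) (hp : p ≠ 0) : IsPrimitiveRoot (th70_zeta p) p :=
  (Complex.isPrimitiveRoot_exp p hp).map_of_injective (algebraMap ℂ mer95_MER).injective

theorem th70_zeta_fix (N p : ℕ) (γ : ↥(Gamma0 N)) : γ • th70_zeta p = th70_zeta p :=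
  mer95_smul_C_SL (γ : SL(2, ℤ)) _

/-- A function of `F_ℚ̄(N)` without zeros and poles is constant. -/
theorem th70_const (N : ℕ) [NeZero N] (f : ↥(modularFunctionFieldBar N)) (hf : f ≠ 0)
    (h : ∀ v : Place (AlgebraicClosure ℚ) ↥(modularFunctionFieldBar N), v.ord f = 0) :
    ∃ a : AlgebraicClosure ℚ, f = algebraMap (AlgebraicClosure ℚ) ↥(modularFunctionFieldBar N) a := by
  by_cases halg : IsAlgebraic (AlgebraicClosure ℚ) f
  · exact wp1b_exists_eq_algebraMap_of_isAlgebraic halg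
  · exfalso
    haveI := hi63_finite_x N
    haveI : FiniteDimensional (AlgebraicClosure ℚ)⟮f⟯ ↥(modularFunctionFieldBar N) :=
      wp1_finite_of_transcendental (hi63_x N) (hi63_x_transcendental N) f halg
    obtain ⟨Q, hQ⟩ := ck11_exists_place_pos f halg
    rw [h Q] at hQ
    exact lt_irrefl _ hQ

section th70_inst

variable (N : ℕ) [NeZero N] (p : ℕ) [Fact p.Prime]

/-- **(I-Theta)**: the concrete Kummer map, from the binding interfaces. -/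
theorem th70_I_Theta
    (ev0 : ↥(modularFunctionFieldBar N) →+* mer95_MER)
    (hfix : ∀ (γ : ↥(Gamma0 N)) (f : ↥(modularFunctionFieldBar N)), γ • ev0 f = ev0 f)
    (hK2 : ∀ x : mer95_MER, x ≠ 0 → (∀ γ : ↥(Gamma0 N), γ • x = x) →
      ∀ f : ↥(modularFunctionFieldBar N), x ^ p = ev0 f →
        ∃ (w : ↥(modularFunctionFieldBar N)) (a : AlgebraicClosure ℚ),
          f = algebraMap (AlgebraicClosure ℚ) ↥(modularFunctionFieldBar N) a * w ^ p)
    (hex : ∀ χ ∈ w1a28_Par N p, ∃ (h : mer95_MER) (f : ↥(modularFunctionFieldBar N)),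
      th70_Adm (AlgebraicClosure ℚ) ev0 p (th70_zeta p) χ h f)
    (hpar : ∀ ℓ : Nat.Primes, ¬ (ℓ : ℕ) ∣ N * p → ∀ χ ∈ w1a28_Par N p,
      heckeHom N ℓ (ZMod p) χ ∈ w1a28_Par N p)
    (hHK : ∀ (ℓ : ℕ) [NeZero ℓ], ℓ.Prime → ¬ ℓ ∣ N * p → ∀ χ ∈ w1a28_Par N p,
      ∀ (h : mer95_MER) (f : ↥(modularFunctionFieldBar N)), h ≠ 0 → f ≠ 0 →
        th70_IsChar p (th70_zeta p) χ h → h ^ p = ev0 f →
          ∃ h' : mer95_MER, h' ≠ 0 ∧ th70_IsChar p (th70_zeta p) (heckeHom N ℓ (ZMod p) χ) h' ∧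
            h' ^ p = ev0 (hd63_heckeNorm N ℓ f)) :
    ∃ Θ : w1a28_Par N p →+ JZero N, Function.Injective Θ ∧ (∀ χ, (p : ℤ) • Θ χ = 0) ∧
      ∀ ℓ : Nat.Primes, ¬ (ℓ : ℕ) ∣ N * p → ∀ χ : w1a28_Par N p,
        ∃ hχ : heckeHom N ℓ (ZMod p) χ ∈ w1a28_Par N p,
          heckeOperatorBar N ℓ (Θ χ) = Θ ⟨heckeHom N ℓ (ZMod p) χ, hχ⟩ := by
  have hp : p ≠ 0 := (Fact.out : p.Prime).ne_zero
  haveI := hi63_hasPrincipalDivisors_bar N
  have hroot : ∀ a : AlgebraicClosure ℚ, ∃ b : AlgebraicClosure ℚ, b ^ p = a :=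
    fun a => IsAlgClosed.exists_pow_nat_eq a (Nat.pos_of_ne_zero hp)
  have hex' : ∀ χ ∈ (w1a28_Par N p).toAddSubgroup,
      ∃ (h : mer95_MER) (f : ↥(modularFunctionFieldBar N)),
        th70_Adm (AlgebraicClosure ℚ) ev0 p (th70_zeta p) χ h f := hex
  obtain ⟨Θ, hΘ, htors, heval⟩ := th70_exists_theta (K := AlgebraicClosure ℚ) ev0 p (th70_zeta p)
    (th70_zeta_isPrimitiveRoot p hp) (th70_zeta_fix N p) hfix hK2 (th70_const N) hroot
    (w1a28_Par N p).toAddSubgroup hex'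
  refine ⟨Θ, hΘ, htors, fun ℓ hℓ χ => ⟨hpar ℓ hℓ χ.1 χ.2, ?_⟩⟩
  refine th70_hecke_of (K := AlgebraicClosure ℚ) hex' Θ heval hp
    (heckeOperatorBar N ℓ).toAddMonoidHom (fun χ => heckeHom N ℓ (ZMod p) χ) ?_ χ
    (hpar ℓ hℓ χ.1 χ.2)
  intro χ hχ h f H D hD
  obtain ⟨h0, f0, hchar, hpow, hdvd⟩ := H
  haveI : NeZero (ℓ : ℕ) := ⟨ℓ.2.ne_zero⟩
  obtain ⟨h', h'0, hchar', hpow'⟩ := hHK (ℓ : ℕ) ℓ.2 hℓ χ hχ h f h0 f0 hchar hpow
  obtain ⟨D', hTD, hD'⟩ := hd63_heckeOperatorBar_kummer (N := N) (ℓ := (ℓ : ℕ)) ℓ.2 (p : ℤ) D f f0 hD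
  exact ⟨h', hd63_heckeNorm N ℓ f, D',
    ⟨h'0, hd63_heckeNorm_ne_zero N ℓ f0, hchar', hpow', fun v => ⟨_, (hD' v).symm⟩⟩, hD', hTD⟩

/-- **(W1) from the binding interfaces** (conclusion in the shape of `w1a28_main_eigenform`). -/
theorem th70_W1 {k0 : Type*} [Field k0] [Algebra (ZMod p) k0]
    (ev0 : ↥(modularFunctionFieldBar N) →+* mer95_MER)
    (hfix : ∀ (γ : ↥(Gamma0 N)) (f : ↥(modularFunctionFieldBar N)), γ • ev0 f = ev0 f)
    (hK2 : ∀ x : mer95_MER, x ≠ 0 → (∀ γ : ↥(Gamma0 N), γ • x = x) →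
      ∀ f : ↥(modularFunctionFieldBar N), x ^ p = ev0 f →
        ∃ (w : ↥(modularFunctionFieldBar N)) (a : AlgebraicClosure ℚ),
          f = algebraMap (AlgebraicClosure ℚ) ↥(modularFunctionFieldBar N) a * w ^ p)
    (hex : ∀ χ ∈ w1a28_Par N p, ∃ (h : mer95_MER) (f : ↥(modularFunctionFieldBar N)),
      th70_Adm (AlgebraicClosure ℚ) ev0 p (th70_zeta p) χ h f)
    (hpar : ∀ ℓ : Nat.Primes, ¬ (ℓ : ℕ) ∣ N * p → ∀ χ ∈ w1a28_Par N p,
      heckeHom N ℓ (ZMod p) χ ∈ w1a28_Par N p)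
    (hHK : ∀ (ℓ : ℕ) [NeZero ℓ], ℓ.Prime → ¬ ℓ ∣ N * p → ∀ χ ∈ w1a28_Par N p,
      ∀ (h : mer95_MER) (f : ↥(modularFunctionFieldBar N)), h ≠ 0 → f ≠ 0 →
        th70_IsChar p (th70_zeta p) χ h → h ^ p = ev0 f →
          ∃ h' : mer95_MER, h' ≠ 0 ∧ th70_IsChar p (th70_zeta p) (heckeHom N ℓ (ZMod p) χ) h' ∧
            h' ^ p = ev0 (hd63_heckeNorm N ℓ f))
    (f : CuspForm (Gamma0 N) 2) (φ : integralClosure ℤ ℂ →+* k0)
    (heig : ∃ x : k0 ⊗[ZMod p] w1a28_Par N p, x ≠ 0 ∧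
      ∀ ℓ : Nat.Primes, ¬ (ℓ : ℕ) ∣ N * p →
        ∃ a : integralClosure ℤ ℂ, (a : ℂ) = ModularFormClass.qCoeff (⇑f) ℓ ∧
          (w1a28_TX N p ℓ).baseChange k0 ((w1a28_Par N p).subtype.baseChange k0 x)
            = φ a • (w1a28_Par N p).subtype.baseChange k0 x) :
    ∃ y : k0 ⊗[ZMod p] w1a28_J N p, y ≠ 0 ∧
      ∀ ℓ : Nat.Primes, ¬ (ℓ : ℕ) ∣ N * p →
        ∃ a : integralClosure ℤ ℂ, (a : ℂ) = ModularFormClass.qCoeff (⇑f) ℓ ∧
          (w1a28_TJ N p ℓ).baseChange k0 y = φ a • y := by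
  obtain ⟨Θ, hΘ, htors, hhec⟩ := th70_I_Theta N p ev0 hfix hK2 hex hpar hHK
  exact w1t70_main_eigenform Θ hΘ htors hhec f φ heig

end th70_inst

end Fermat.Agent.S42
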