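/-
S42 / Project 4, row M5a (helper77): the Kummer generator for `ζ = th70_zeta p = exp(2πi/p)`.

`ec77_hZ N p χ : mer95_MER` for `χ : Additive ↥(Gamma0 N) →+ ZMod p` is `E_{ζ^χ} / E_1` in weight
`4`; for parabolic `χ` (in particular for every `χ ∈ w1a28_Par N p`):

* `ec77_hZ_ne_zero` : `h ≠ 0`;
* `ec77_hZ_isChar`  : `th70_IsChar p (th70_zeta p) χ h`        (the literal clause of (X));
* `ec77_hZ_pow_smul`: `h ^ p` is `Γ₀(N)`-invariant;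
* `ec77_hZ_pow_eq_div`, `ec77_hZ_pow_tendsto`, `ec77_hZ_den_eventually_ne_zero` : `h ^ p = a / b`
  with `a = ec77_hZ_num N p χ`, `b = ec77_hZ_den p` in `mer95_O`, and `a (s z) / b (s z) → 1` as
  `Im z → ∞`, for every `s ∈ SL(2, ℤ)`;
* `ec77_hZ_exists`  : the packaged statement for `χ ∈ w1a28_Par N p`.
-/
import Mathlib
import Fermat.Agent.S42.EisChiX77
import Fermat.Agent.S42.ThetaInst70

set_option autoImplicit false

open Matrix UpperHalfPlane Filter Topology CongruenceSubgroup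
open scoped MatrixGroups

namespace Fermat.Agent.S42

open ModularCurve.Period

/-- `exp(2πi/p)` as a unit of `ℂ`. -/
noncomputable def ec77_zetaU (p : ℕ) : ℂˣ :=
  Units.mk0 (Complex.exp (2 * Real.pi * Complex.I / p)) (Complex.exp_ne_zero _)

theorem ec77_zetaU_val (p : ℕ) :
    ((ec77_zetaU p : ℂˣ) : ℂ) = Complex.exp (2 * Real.pi * Complex.I / p) := rfl

theorem ec77_zetaU_pow (p : ℕ) [NeZero p] : ec77_zetaU p ^ p = 1 := by
  apply Units.ext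
  rw [Units.val_pow_eq_pow_val, ec77_zetaU_val, Units.val_one]
  exact (Complex.isPrimitiveRoot_exp p (NeZero.ne p)).pow_eq_one

theorem ec77_zetaU_algebraMap (p : ℕ) :
    algebraMap ℂ mer95_MER ((ec77_zetaU p : ℂˣ) : ℂ) = th70_zeta p := rfl

section HZ

variable (N : ℕ) (p : ℕ) [NeZero p]

/-- **The Kummer generator `h_χ`** for `ζ = exp(2πi/p)`, weight `4`, level `Γ₀(N)`. -/
noncomputable def ec77_hZ (χ : Additive ↥(Gamma0 N) →+ ZMod p) : mer95_MER :=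
  ec77_hX 4 (Gamma0 N) (ec77_zetaU p) (ec77_zetaU_pow p) χ (by norm_num)

/-- The numerator of `h_χ ^ p` in `mer95_O`. -/
noncomputable def ec77_hZ_num (χ : Additive ↥(Gamma0 N) →+ ZMod p) : mer95_O :=
  ec77_EchiO 4 (Gamma0 N) (ec77_charZ (ec77_zetaU p) (ec77_zetaU_pow p) χ) (by norm_num)
    (ec77_charZ_unit (ec77_zetaU p) (ec77_zetaU_pow p) χ) ^ p

/-- The denominator of `h_χ ^ p` in `mer95_O` (independent of `χ` and `N`). -/
noncomputable def ec77_hZ_den (p : ℕ) : mer95_O :=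
  ec77_EoneO 4 (by norm_num) ^ p

variable {N p}

theorem ec77_hZ_ne_zero {χ : Additive ↥(Gamma0 N) →+ ZMod p}
    (hχ : IsParabolicHom (Gamma0 N) χ) : ec77_hZ N p χ ≠ 0 :=
  ec77_hX_ne_zero _ _ hχ _ ⟨2, by norm_num⟩

/-- **`h_χ` has the character `th70_zeta p ^ χ`.** -/
theorem ec77_hZ_isChar {χ : Additive ↥(Gamma0 N) →+ ZMod p}
    (hχ : IsParabolicHom (Gamma0 N) χ) : th70_IsChar p (th70_zeta p) χ (ec77_hZ N p χ) :=
  ec77_hX_isChar _ _ hχ _ ⟨2, by norm_num⟩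

theorem ec77_hZ_pow_smul {χ : Additive ↥(Gamma0 N) →+ ZMod p}
    (hχ : IsParabolicHom (Gamma0 N) χ) (γ : SL(2, ℤ)) (hγ : γ ∈ Gamma0 N) :
    γ • ec77_hZ N p χ ^ p = ec77_hZ N p χ ^ p :=
  ec77_hX_pow_smul _ _ hχ _ ⟨2, by norm_num⟩ γ hγ

theorem ec77_hZ_pow_smul' {χ : Additive ↥(Gamma0 N) →+ ZMod p}
    (hχ : IsParabolicHom (Gamma0 N) χ) (γ : ↥(Gamma0 N)) :
    γ • ec77_hZ N p χ ^ p = ec77_hZ N p χ ^ p :=
  ec77_hZ_pow_smul hχ γ.1 γ.2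

theorem ec77_hZ_ord (χ : Additive ↥(Gamma0 N) →+ ZMod p) (τ : ℍ) :
    mer95_ord τ (ec77_hZ N p χ ^ p) = p * mer95_ord τ (ec77_hZ N p χ) :=
  mer95_ord_pow τ _ p

theorem ec77_hZ_pow_eq_div (χ : Additive ↥(Gamma0 N) →+ ZMod p) :
    ec77_hZ N p χ ^ p =
      algebraMap mer95_O mer95_MER (ec77_hZ_num N p χ) /
        algebraMap mer95_O mer95_MER (ec77_hZ_den p) :=
  ec77_hX_pow_eq_div _ _ χ _

theorem ec77_hZ_den_ne_zero (p : ℕ) : ec77_hZ_den p ≠ 0 :=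
  pow_ne_zero p (ec77_EoneO_ne_zero 4 (by norm_num) ⟨2, by norm_num⟩)

theorem ec77_hZ_num_ne_zero {χ : Additive ↥(Gamma0 N) →+ ZMod p}
    (hχ : IsParabolicHom (Gamma0 N) χ) : ec77_hZ_num N p χ ≠ 0 :=
  pow_ne_zero p (ec77_EchiO_ne_zero (by norm_num) ⟨2, by norm_num⟩ _
    (ec77_charZ_par (ec77_zetaU p) (ec77_zetaU_pow p) hχ))

/-- **Cusp behaviour**: `a (s z) / b (s z) → 1` as `Im z → ∞`, for every `s ∈ SL(2, ℤ)`. -/
theorem ec77_hZ_pow_tendsto {χ : Additive ↥(Gamma0 N) →+ ZMod p}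
    (hχ : IsParabolicHom (Gamma0 N) χ) (s : SL(2, ℤ)) :
    Tendsto (fun z : ℍ => (ec77_hZ_num N p χ).1 (s • z) / (ec77_hZ_den p).1 (s • z))
      atImInfty (𝓝 1) :=
  ec77_hX_pow_tendsto _ _ hχ _ ⟨2, by norm_num⟩ s

theorem ec77_hZ_den_eventually_ne_zero (p : ℕ) (s : SL(2, ℤ)) :
    ∀ᶠ z in atImInfty, (ec77_hZ_den p).1 (s • z) ≠ 0 :=
  ec77_EoneO_pow_eventually_ne_zero (by norm_num) ⟨2, by norm_num⟩ p s

/-- **Packaged**: for every `χ ∈ Par_N` there is `h ≠ 0` with character `th70_zeta p ^ χ`,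
`Γ₀(N)`-invariant `p`-th power, which is a quotient `a / b` in `mer95_O` with `a/b → 1` along
every cusp. -/
theorem ec77_hZ_exists (χ : Additive ↥(Gamma0 N) →+ ZMod p) (hχ : χ ∈ w1a28_Par N p) :
    ∃ (h : mer95_MER) (a b : mer95_O), h ≠ 0 ∧ th70_IsChar p (th70_zeta p) χ h ∧
      (∀ γ : ↥(Gamma0 N), γ • h ^ p = h ^ p) ∧ b ≠ 0 ∧
      h ^ p = algebraMap mer95_O mer95_MER a / algebraMap mer95_O mer95_MER b ∧
      ∀ s : SL(2, ℤ), Tendsto (fun z : ℍ => a.1 (s • z) / b.1 (s • z)) atImInfty (𝓝 1) := by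
  have hχ' : IsParabolicHom (Gamma0 N) χ := mem_parabolicHoms_iff.mp hχ
  exact ⟨ec77_hZ N p χ, ec77_hZ_num N p χ, ec77_hZ_den p, ec77_hZ_ne_zero hχ',
    ec77_hZ_isChar hχ', ec77_hZ_pow_smul' hχ', ec77_hZ_den_ne_zero p, ec77_hZ_pow_eq_div χ,
    ec77_hZ_pow_tendsto hχ'⟩

end HZ

end Fermat.Agent.S42
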