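/-
# S42, M3-concrete, stage 3 (helper41): K2 and K3 on `mer95_MER`, hypothesis-free

`GaloisMer41` instantiated at

* `ev := ff79_evMer N : F_ℂ(N) →ₐ[ℂ] mer95_MER` (helper79, `FunFieldMer79`),
* `J := l1j27_J` and `(L1) := l1j27_L1_MER` (helper27, `LevelOneMer27`).

Exports (all without hypotheses on `ev`, `J`):

* `gi41_final_K2`      : `x` `Γ₀(N)`-invariant and algebraic over `ℂ(J)` ⟹ `x = ev f`;
* `gi41_final_K2_top`  : the same for `x` a root of a nonzero polynomial over `ev F_ℂ(N)`;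
* `gi41_final_K2_pow`  : the same for `x ^ n = ev u`, `0 < n`;
* `gi41_final_norm`, `gi41_final_trace` : `ev (N_{F/ℂ(j)} f) = ∏ i, r i • ev f`;
* `gi41_final_exists_poly` : coset polynomial has coefficients in `ev ℂ(j)`;
* `gi41_final_rel_norm`, `gi41_final_rel_trace`, `gi41_final_rel_K2` : relative versions along
  `heckeAlphaBar ℂ N ℓ`;
* `gi41_final_hecke_norm` : `ev (N_α (β u)) = ∏ i, r i • (diag(ℓ,1))⁻¹ • ev u`;
* `gi41_final_stab` : an element of `SL(2,ℤ)` fixing `ev F_ℂ(N)` pointwise lies in `Γ₀(N)`.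
-/
import Fermat.Agent.S42.GaloisMer41
import Fermat.Agent.S42.FunFieldMer79
import Fermat.Agent.S42.LevelOneMer27

set_option autoImplicit false
set_option linter.style.haveILetI false
set_option linter.unusedSectionVars false
set_option synthInstance.maxHeartbeats 400000

open ModularCurve IntermediateField AlgebraicCurve MatrixGroups CongruenceSubgroup Polynomial

namespace Fermat.Agent.S42

open Fermat.Agent.S18 Fermat.Agent.S28 Fermat.Agent.S24 Fermat.Agent.S37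

/-- `j` as an element of `F_ℂ(N)`. -/
noncomputable def gi41_j0 (N : ℕ) [NeZero N] : gi41_FC N :=
  ⟨ff79_JJ ℂ 1, ff79_JJ_mem ℂ N 1 (one_dvd N)⟩

theorem gi41_j0_coe (N : ℕ) [NeZero N] : ((gi41_j0 N : gi41_FC N) : LaurentSeries ℂ) = jqModC ℂ := by
  show ff79_JJ ℂ 1 = jqModC ℂ
  rw [ff79_JJ_of_neZero, qExpand_one_apply]
  show coeffMap (algebraMap ℚ ℂ) (jqModC ℚ) = _
  rw [coeffMap_jqModC]

theorem gi41_ev_j0 (N : ℕ) [NeZero N] : ff79_evMer N (gi41_j0 N) = l1j27_J :=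
  ff79_evMer_one N

section Absolute

variable (N : ℕ) [NeZero N] {ι : Type*} [Fintype ι] {r : ι → SL(2, ℤ)}

/-- **(K2)**: a `Γ₀(N)`-invariant meromorphic function algebraic over `ℂ(J)` is in the image of
`ev`. -/
theorem gi41_final_K2 {x : mer95_MER} (hx : ∀ g ∈ Gamma0 N, g • x = x)
    (hxalg : IsAlgebraic ℂ⟮l1j27_J⟯ x) : ∃ f, ff79_evMer N f = x :=
  gi41_mer_K2 N (ff79_evMer N) (gi41_j0 N) l1j27_J (gi41_j0_coe N) l1j27_J_smul (gi41_ev_j0 N)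
    (ff79_evMer_smul N) l1j27_L1_MER hx hxalg

/-- **(K2), tower form.** -/
theorem gi41_final_K2_top {x : mer95_MER} (hx : ∀ g ∈ Gamma0 N, g • x = x)
    (hxalg : ∃ P : (gi41_FC N)[X], P ≠ 0 ∧
      P.eval₂ (ff79_evMer N : gi41_FC N →+* mer95_MER) x = 0) : ∃ f, ff79_evMer N f = x :=
  gi41_mer_K2_top N (ff79_evMer N) (gi41_j0 N) l1j27_J (gi41_j0_coe N) l1j27_J_smul
    (gi41_ev_j0 N) (ff79_evMer_smul N) l1j27_L1_MER hx hxalg

/-- **(K2), power form**: a `Γ₀(N)`-invariant `x` with `x ^ n = ev u` (`0 < n`) is `ev f`. -/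
theorem gi41_final_K2_pow {x : mer95_MER} (hx : ∀ g ∈ Gamma0 N, g • x = x) {n : ℕ} (hn : 0 < n)
    (u : gi41_FC N) (hxu : x ^ n = ff79_evMer N u) : ∃ f, ff79_evMer N f = x := by
  refine gi41_final_K2_top N hx ⟨X ^ n - C u, ?_, ?_⟩
  · exact Polynomial.X_pow_sub_C_ne_zero hn u
  · rw [Polynomial.eval₂_sub, Polynomial.eval₂_pow, Polynomial.eval₂_X, Polynomial.eval₂_C, hxu]
    exact sub_self _

/-- **(K3), norm.** -/
theorem gi41_final_norm (hr : Function.Bijective (fun i => (r i : SL(2, ℤ) ⧸ Gamma0 N)))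
    (f : gi41_FC N) :
    ff79_evMer N ((Algebra.norm ℂ⟮gi41_j0 N⟯ f : ℂ⟮gi41_j0 N⟯) : gi41_FC N) =
      ∏ i, r i • ff79_evMer N f :=
  gi41_mer_norm N (ff79_evMer N) (gi41_j0 N) l1j27_J (gi41_j0_coe N) l1j27_J_smul (gi41_ev_j0 N)
    (ff79_evMer_smul N) l1j27_L1_MER hr f

/-- **(K3), trace.** -/
theorem gi41_final_trace (hr : Function.Bijective (fun i => (r i : SL(2, ℤ) ⧸ Gamma0 N)))
    (f : gi41_FC N) :
    ff79_evMer N ((Algebra.trace ℂ⟮gi41_j0 N⟯ _ f : ℂ⟮gi41_j0 N⟯) : gi41_FC N) =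
      ∑ i, r i • ff79_evMer N f :=
  gi41_mer_trace N (ff79_evMer N) (gi41_j0 N) l1j27_J (gi41_j0_coe N) l1j27_J_smul (gi41_ev_j0 N)
    (ff79_evMer_smul N) l1j27_L1_MER hr f

/-- The coset polynomial of a `Γ₀(N)`-invariant function algebraic over `ℂ(J)` has coefficients
in `ev ℂ(j)`. -/
theorem gi41_final_exists_poly (hr : Function.Bijective (fun i => (r i : SL(2, ℤ) ⧸ Gamma0 N)))
    {y : mer95_MER} (hy : ∀ g ∈ Gamma0 N, g • y = y) (hyalg : IsAlgebraic ℂ⟮l1j27_J⟯ y) :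
    ∃ P : (ℂ⟮gi41_j0 N⟯)[X], P.Monic ∧ P.natDegree = Fintype.card ι ∧
      P.map ((ff79_evMer N : gi41_FC N →+* mer95_MER).comp (algebraMap ℂ⟮gi41_j0 N⟯ _)) =
        ∏ i, (X - C (r i • y)) :=
  gi41_mer_exists_poly N (ff79_evMer N) (gi41_j0 N) l1j27_J l1j27_J_smul (gi41_ev_j0 N)
    l1j27_L1_MER hr hy hyalg

/-- `[F_ℂ(N) : ℂ(j)] = [SL(2,ℤ) : Γ₀(N)]`. -/
theorem gi41_final_K1 :
    FiniteDimensional ℂ⟮gi41_j0 N⟯ (gi41_FC N) ∧
      Module.finrank ℂ⟮gi41_j0 N⟯ (gi41_FC N) = (Gamma0 N).index :=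
  gi41_K1C N (gi41_j0 N) (gi41_j0_coe N)

/-- **The stabiliser of `ev F_ℂ(N)` is `Γ₀(N)`**: an element of `SL(2,ℤ)` fixing the image of
`ev` pointwise lies in `Γ₀(N)`. -/
theorem gi41_final_stab (γ : SL(2, ℤ)) (h : ∀ f, γ • ff79_evMer N f = ff79_evMer N f) :
    γ ∈ Gamma0 N := by
  obtain ⟨hfin, hdeg⟩ := gi41_final_K1 N
  haveI := hfin
  have hr := gc6_out_bijective (Gamma0 N)
  haveI : Finite (SL(2, ℤ) ⧸ Gamma0 N) := Subgroup.finite_quotient_of_finiteIndex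
  letI : Fintype (SL(2, ℤ) ⧸ Gamma0 N) := Fintype.ofFinite _
  obtain ⟨θ, hθ⟩ := Field.exists_primitive_element ℂ⟮gi41_j0 N⟯ (gi41_FC N)
  have hinj := gi41_conj_injective (K0 := ℂ⟮gi41_j0 N⟯)
    (ff79_evMer N : gi41_FC N →+* mer95_MER) gi41_rho (Gamma0 N)
    (gi41_mer_hK N (ff79_evMer N) (gi41_j0 N) l1j27_J l1j27_J_smul (gi41_ev_j0 N))
    (gi41_mer_hL1 N (ff79_evMer N) (gi41_j0 N) l1j27_J (gi41_ev_j0 N) l1j27_L1_MER) hr
    (ff79_evMer_smul N) (by rw [hdeg, gc6_card_eq_index (Gamma0 N) hr]) hθ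
  -- compare the cosets of `γ` and of `1`
  have hq : ((γ : SL(2, ℤ)) : SL(2, ℤ) ⧸ Gamma0 N) = ((1 : SL(2, ℤ)) : SL(2, ℤ) ⧸ Gamma0 N) := by
    apply hinj
    show (Quotient.out ((γ : SL(2, ℤ)) : SL(2, ℤ) ⧸ Gamma0 N) : SL(2, ℤ)) • ff79_evMer N θ =
      (Quotient.out ((1 : SL(2, ℤ)) : SL(2, ℤ) ⧸ Gamma0 N) : SL(2, ℤ)) • ff79_evMer N θ
    have h1 : ∀ a : SL(2, ℤ), (Quotient.out ((a : SL(2, ℤ)) : SL(2, ℤ) ⧸ Gamma0 N) : SL(2, ℤ)) •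
        ff79_evMer N θ = a • ff79_evMer N θ := by
      intro a
      have hmem : a⁻¹ * (Quotient.out ((a : SL(2, ℤ)) : SL(2, ℤ) ⧸ Gamma0 N) : SL(2, ℤ)) ∈
          Gamma0 N := by
        rw [← QuotientGroup.eq]
        exact (QuotientGroup.out_eq' _).symm
      have h2 : (Quotient.out ((a : SL(2, ℤ)) : SL(2, ℤ) ⧸ Gamma0 N) : SL(2, ℤ)) =
          a * (a⁻¹ * (Quotient.out ((a : SL(2, ℤ)) : SL(2, ℤ) ⧸ Gamma0 N) : SL(2, ℤ))) := by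
        group
      rw [h2, mul_smul, ff79_evMer_smul N _ hmem]
    rw [h1 γ, h1 1, h θ, one_smul]
  have := QuotientGroup.eq.1 hq
  simpa using this

end Absolute

section Relative

variable (N ℓ : ℕ) [NeZero N] [NeZero ℓ] {ι : Type*} [Fintype ι] {r : ι → ↥(Gamma0 N)}

/-- **(K3), relative, norm** along `α = heckeAlphaBar ℂ N ℓ`. -/
theorem gi41_final_rel_norm (hℓ : ℓ.Prime) (hNℓ : ¬ ℓ ∣ N)
    (hr : Function.Bijective
      (fun i => (r i : ↥(Gamma0 N) ⧸ (Gamma0 (N * ℓ)).subgroupOf (Gamma0 N))))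
    (w : gi41_FC (N * ℓ)) :
    letI := algebraAlong (heckeAlphaBar ℂ N ℓ)
    ff79_evMer N (Algebra.norm (gi41_FC N) w) = ∏ i, (r i : SL(2, ℤ)) • ff79_evMer (N * ℓ) w :=
  gi41_mer_rel_norm N ℓ (ff79_evMer N) (ff79_evMer (N * ℓ)) (gi41_j0 N) l1j27_J hℓ hNℓ
    (gi41_j0_coe N) l1j27_J_smul (gi41_ev_j0 N) (ff79_evMer_smul N) l1j27_L1_MER
    (ff79_evMer_smul (N * ℓ)) (ff79_evMer_alpha N ℓ) hr w

/-- **(K3), relative, trace.** -/
theorem gi41_final_rel_trace (hℓ : ℓ.Prime) (hNℓ : ¬ ℓ ∣ N)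
    (hr : Function.Bijective
      (fun i => (r i : ↥(Gamma0 N) ⧸ (Gamma0 (N * ℓ)).subgroupOf (Gamma0 N))))
    (w : gi41_FC (N * ℓ)) :
    letI := algebraAlong (heckeAlphaBar ℂ N ℓ)
    ff79_evMer N (Algebra.trace (gi41_FC N) (gi41_FC (N * ℓ)) w) =
      ∑ i, (r i : SL(2, ℤ)) • ff79_evMer (N * ℓ) w :=
  gi41_mer_rel_trace N ℓ (ff79_evMer N) (ff79_evMer (N * ℓ)) (gi41_j0 N) l1j27_J hℓ hNℓ
    (gi41_j0_coe N) l1j27_J_smul (gi41_ev_j0 N) (ff79_evMer_smul N) l1j27_L1_MER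
    (ff79_evMer_smul (N * ℓ)) (ff79_evMer_alpha N ℓ) hr w

/-- **(K2), relative.** -/
theorem gi41_final_rel_K2 (hℓ : ℓ.Prime) (hNℓ : ¬ ℓ ∣ N)
    {x : mer95_MER} (hx : ∀ g ∈ Gamma0 (N * ℓ), g • x = x)
    (hxalg : ∃ P : (gi41_FC N)[X], P ≠ 0 ∧
      P.eval₂ (ff79_evMer N : gi41_FC N →+* mer95_MER) x = 0) :
    ∃ w, ff79_evMer (N * ℓ) w = x :=
  gi41_mer_rel_K2 N ℓ (ff79_evMer N) (ff79_evMer (N * ℓ)) (gi41_j0 N) l1j27_J hℓ hNℓ
    (gi41_j0_coe N) l1j27_J_smul (gi41_ev_j0 N) (ff79_evMer_smul N) l1j27_L1_MER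
    (ff79_evMer_smul (N * ℓ)) (ff79_evMer_alpha N ℓ) hx hxalg

/-- **The Hecke norm**: `ev (N_α (β u)) = ∏ i, r i • (diag(ℓ,1))⁻¹ • ev u`. -/
theorem gi41_final_hecke_norm (hℓ : ℓ.Prime) (hNℓ : ¬ ℓ ∣ N)
    (hr : Function.Bijective
      (fun i => (r i : ↥(Gamma0 N) ⧸ (Gamma0 (N * ℓ)).subgroupOf (Gamma0 N))))
    (u : gi41_FC N) :
    letI := algebraAlong (heckeAlphaBar ℂ N ℓ)
    ff79_evMer N (Algebra.norm (gi41_FC N) (heckeBetaBar ℂ N ℓ u)) =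
      ∏ i, (r i : SL(2, ℤ)) • ((ff79_diag ℓ)⁻¹ • ff79_evMer N u) := by
  have h := gi41_final_rel_norm N ℓ hℓ hNℓ hr (heckeBetaBar ℂ N ℓ u)
  simp only [ff79_evMer_beta] at h
  exact h

end Relative

end Fermat.Agent.S42
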