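/-
S42 / Project 4, row M5a (helper77): Eisenstein series with coefficients.

For a bounded coefficient function `c : (Fin 2 → ℤ) → ℂ` and a weight `k ≥ 3`,
`ec77_E k c z = ∑ c v * (v 0 * z + v 1) ^ (-k)`, the sum over coprime integer vectors `v`.

* `ec77_E_mdifferentiable`, `ec77_E_differentiableOn`: holomorphy on the upper half plane;
* `ec77_E_smul`: `E_c (s • z) = (denom s z) ^ k * E_{c'} z`, `c' v = c (v ᵥ* s⁻¹)`, `s ∈ SL(2, ℤ)`;
* `ec77_E_equivariant`: if `c (v ᵥ* g) = c v * m` for all `v` then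
  `E_c (g • z) = m⁻¹ * (denom g z) ^ k * E_c z`;
* `ec77_E_tendsto`: `E_c z → c (0, 1) + (-1) ^ k * c (0, -1)` as `Im z → ∞` (filter `atImInfty`).
-/
import Mathlib

set_option autoImplicit false

open Matrix UpperHalfPlane Filter Topology EisensteinSeries ModularForm
open scoped MatrixGroups Manifold

namespace Fermat.Agent.S42

/-- The Eisenstein series of weight `k` with coefficient function `c`. -/
noncomputable def ec77_E (k : ℤ) (c : (Fin 2 → ℤ) → ℂ) (z : ℍ) : ℂ :=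
  ∑' v : gammaSet 1 1 0, c v.1 * eisSummand k v.1 z

section Summable

variable {k : ℤ} {c : (Fin 2 → ℤ) → ℂ}

theorem ec77_norm_term_le (hc : ∀ v, ‖c v‖ ≤ 1) (v : Fin 2 → ℤ) (z : ℍ) :
    ‖c v * eisSummand k v z‖ ≤ ‖eisSummand k v z‖ := by
  rw [norm_mul]
  exact mul_le_of_le_one_left (norm_nonneg _) (hc v)

theorem ec77_summable_norm (hk : 3 ≤ k) (hc : ∀ v, ‖c v‖ ≤ 1) (z : ℍ) :
    Summable fun v : Fin 2 → ℤ => ‖c v * eisSummand k v z‖ :=
  (summable_norm_eisSummand hk z).of_nonneg_of_le (fun _ => norm_nonneg _)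
    (fun v => ec77_norm_term_le hc v z)

theorem ec77_summable (hk : 3 ≤ k) (hc : ∀ v, ‖c v‖ ≤ 1) (z : ℍ) :
    Summable fun v : gammaSet 1 1 0 => c v.1 * eisSummand k v.1 z :=
  ((ec77_summable_norm hk hc z).subtype _).of_norm

end Summable

section Holomorphic

variable {k : ℤ} {c : (Fin 2 → ℤ) → ℂ}

/-- Locally uniform convergence of the series defining `ec77_E`. -/
theorem ec77_tendstoLocallyUniformly (hk : 3 ≤ k) (hc : ∀ v, ‖c v‖ ≤ 1) :
    TendstoLocallyUniformly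
      (fun (s : Finset (gammaSet 1 1 0)) ↦ (∑ x ∈ s, c x.1 * eisSummand k x.1 ·))
      (ec77_E k c ·) Filter.atTop := by
  have hk' : (2 : ℝ) < k := by norm_cast
  have p_sum : Summable fun x : gammaSet 1 1 0 ↦ ‖x.val‖ ^ (-k) :=
    mod_cast (summable_one_div_norm_rpow hk').subtype (· ∈ gammaSet 1 1 0)
  simp only [tendstoLocallyUniformly_iff_forall_isCompact, ec77_E]
  intro K hK
  obtain ⟨A, B, hB, HABK⟩ := subset_verticalStrip_of_isCompact hK
  refine (tendstoUniformlyOn_tsum (hu := p_sum.mul_left <| r ⟨⟨A, B⟩, hB⟩ ^ (-k : ℝ))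
    (fun p z hz ↦ ?_)).mono HABK
  refine (ec77_norm_term_le hc p.1 z).trans ?_
  simpa only [eisSummand, one_div, ← _root_.zpow_neg, norm_zpow, ← Real.rpow_intCast,
    Int.cast_neg] using summand_bound_of_mem_verticalStrip (by positivity) p hB hz

theorem ec77_tendstoLocallyUniformlyOn (hk : 3 ≤ k) (hc : ∀ v, ‖c v‖ ≤ 1) :
    TendstoLocallyUniformlyOn (fun (s : Finset (gammaSet 1 1 0)) ↦
      ↑ₕ(fun (z : ℍ) ↦ ∑ x ∈ s, c x.1 * eisSummand k x.1 z)) (↑ₕ(ec77_E k c))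
          Filter.atTop {z : ℂ | 0 < z.im} := by
  rw [← upperHalfPlaneSet, ← range_coe, ← Set.image_univ]
  apply TendstoLocallyUniformlyOn.comp (s := ⊤) _ _ _ (OpenPartialHomeomorph.continuousOn_symm _)
  · simp only [Set.top_eq_univ, tendstoLocallyUniformlyOn_univ]
    exact ec77_tendstoLocallyUniformly hk hc
  · simp only [IsOpenEmbedding.toOpenPartialHomeomorph_target, Set.top_eq_univ,
      Set.mapsTo_range_iff, Set.mem_univ, forall_const]

/-- `ec77_E k c`, read on `ℂ`, is holomorphic on the upper half plane. -/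
theorem ec77_E_differentiableOn (hk : 3 ≤ k) (hc : ∀ v, ‖c v‖ ≤ 1) :
    DifferentiableOn ℂ (↑ₕ(ec77_E k c)) {z : ℂ | 0 < z.im} := by
  refine (ec77_tendstoLocallyUniformlyOn hk hc).differentiableOn
    (Eventually.of_forall fun s ↦ ?_) isOpen_upperHalfPlaneSet
  have h : ∀ x : gammaSet 1 1 0,
      DifferentiableOn ℂ (↑ₕ(fun z : ℍ => c x.1 * eisSummand k x.1 z)) {z : ℂ | 0 < z.im} := by
    intro x
    have := (eisSummand_extension_differentiableOn k x.1).const_mul (c x.1)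
    refine this.congr fun z hz => ?_
    simp
  have h2 : (↑ₕ(fun (z : ℍ) ↦ ∑ x ∈ s, c x.1 * eisSummand k x.1 z)) =
      fun w : ℂ => ∑ x ∈ s, (↑ₕ(fun z : ℍ => c x.1 * eisSummand k x.1 z)) w := by
    funext w
    simp
  rw [h2]
  exact DifferentiableOn.fun_sum fun x _ => h x

/-- `ec77_E k c` is holomorphic on `ℍ`. -/
theorem ec77_E_mdifferentiable (hk : 3 ≤ k) (hc : ∀ v, ‖c v‖ ≤ 1) :
    MDiff (ec77_E k c) := by
  intro τ
  suffices DifferentiableAt ℂ (↑ₕ(ec77_E k c)) τ.1 by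
    convert!
      MDifferentiableAt.comp τ (DifferentiableAt.mdifferentiableAt this) τ.mdifferentiable_coe
    exact funext fun z ↦ (comp_ofComplex (ec77_E k c) z).symm
  exact (ec77_E_differentiableOn hk hc).differentiableAt (isOpen_upperHalfPlaneSet.mem_nhds τ.2)

end Holomorphic

section Slash

/-- Right multiplication by `s ∈ SL(2, ℤ)` on coprime vectors. -/
noncomputable def ec77_equiv (s : SL(2, ℤ)) : gammaSet 1 1 0 ≃ gammaSet 1 1 0 :=
  (gammaSetEquiv (0 : Fin 2 → ZMod 1) s).trans (gammaSet_one_equiv 1 _ _)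

theorem ec77_equiv_coe (s : SL(2, ℤ)) (v : gammaSet 1 1 0) :
    ((ec77_equiv s v : gammaSet 1 1 0) : Fin 2 → ℤ) = v.1 ᵥ* s.1 := rfl

/-- **Transformation under `SL(2, ℤ)`**: `E_c (s • z) = (denom s z) ^ k * E_{c'} z` with
`c' v = c (v ᵥ* s⁻¹)`. No convergence hypothesis is needed. -/
theorem ec77_E_smul (k : ℤ) (c : (Fin 2 → ℤ) → ℂ) (s : SL(2, ℤ)) (z : ℍ) :
    ec77_E k c (s • z) =
      (denom s z) ^ k * ec77_E k (fun v => c (v ᵥ* (s⁻¹ : SL(2, ℤ)).1)) z := by
  unfold ec77_E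
  rw [← tsum_mul_left]
  rw [← (ec77_equiv s).tsum_eq (fun w : gammaSet 1 1 0 =>
    (denom s z) ^ k * (c (w.1 ᵥ* (s⁻¹ : SL(2, ℤ)).1) * eisSummand k w.1 z))]
  refine tsum_congr fun v => ?_
  rw [ec77_equiv_coe, eisSummand_SL2_apply, Matrix.vecMul_vecMul,
    ← Matrix.SpecialLinearGroup.coe_mul, mul_inv_cancel, Matrix.SpecialLinearGroup.coe_one,
    Matrix.vecMul_one]
  ring

/-- **Equivariance**: if `c (v ᵥ* g) = c v * m` for all coprime `v`, with `m ≠ 0`, then
`E_c (g • z) = m⁻¹ * (denom g z) ^ k * E_c z`. -/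
theorem ec77_E_equivariant (k : ℤ) (c : (Fin 2 → ℤ) → ℂ) (g : SL(2, ℤ)) (m : ℂ) (hm : m ≠ 0)
    (hcg : ∀ v : Fin 2 → ℤ, IsCoprime (v 0) (v 1) → c (v ᵥ* g.1) = c v * m) (z : ℍ) :
    ec77_E k c (g • z) = m⁻¹ * (denom g z) ^ k * ec77_E k c z := by
  rw [ec77_E_smul]
  have h : ∀ w : gammaSet 1 1 0, c (w.1 ᵥ* (g⁻¹ : SL(2, ℤ)).1) * eisSummand k w.1 z =
      m⁻¹ * (c w.1 * eisSummand k w.1 z) := by
    intro w
    have hw : IsCoprime ((w.1 ᵥ* (g⁻¹ : SL(2, ℤ)).1) 0) ((w.1 ᵥ* (g⁻¹ : SL(2, ℤ)).1) 1) :=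
      ((mem_gammaSet_one w.1).mp w.2).vecMulSL g⁻¹
    have h1 := hcg _ hw
    rw [Matrix.vecMul_vecMul, ← Matrix.SpecialLinearGroup.coe_mul, inv_mul_cancel,
      Matrix.SpecialLinearGroup.coe_one, Matrix.vecMul_one] at h1
    rw [h1]
    field_simp
  unfold ec77_E
  rw [tsum_congr h, tsum_mul_left]
  ring

end Slash

section Limit

variable {k : ℤ} {c : (Fin 2 → ℤ) → ℂ}

/-- Right multiplication by `A ∈ SL(2, ℤ)` on all integer vectors. -/
def ec77_vecEquiv (A : SL(2, ℤ)) : (Fin 2 → ℤ) ≃ (Fin 2 → ℤ) where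
  toFun v := v ᵥ* A.1
  invFun v := v ᵥ* (A⁻¹ : SL(2, ℤ)).1
  left_inv v := by
    show (v ᵥ* A.1) ᵥ* (A⁻¹ : SL(2, ℤ)).1 = v
    rw [Matrix.vecMul_vecMul, ← Matrix.SpecialLinearGroup.coe_mul, mul_inv_cancel,
      Matrix.SpecialLinearGroup.coe_one, Matrix.vecMul_one]
  right_inv v := by
    show (v ᵥ* (A⁻¹ : SL(2, ℤ)).1) ᵥ* A.1 = v
    rw [Matrix.vecMul_vecMul, ← Matrix.SpecialLinearGroup.coe_mul, inv_mul_cancel,
      Matrix.SpecialLinearGroup.coe_one, Matrix.vecMul_one]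

/-- The majorant: the sum of the norms of the terms with `v 0 ≠ 0`. -/
noncomputable def ec77_M (k : ℤ) (z : ℍ) : ℝ :=
  ∑' v : Fin 2 → ℤ, if v 0 = 0 then 0 else ‖eisSummand k v z‖

theorem ec77_M_summable (hk : 3 ≤ k) (z : ℍ) :
    Summable fun v : Fin 2 → ℤ => if v 0 = 0 then 0 else ‖eisSummand k v z‖ := by
  refine (summable_norm_eisSummand hk z).of_nonneg_of_le (fun v => ?_) (fun v => ?_)
  · split_ifs
    · exact le_rfl
    · exact norm_nonneg _
  · split_ifs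
    · exact norm_nonneg _
    · exact le_rfl

/-- The majorant is invariant under translations `z ↦ z + n`. -/
theorem ec77_M_T_zpow (k : ℤ) (n : ℤ) (z : ℍ) :
    ec77_M k (ModularGroup.T ^ n • z) = ec77_M k z := by
  unfold ec77_M
  rw [← (ec77_vecEquiv (ModularGroup.T ^ n)).tsum_eq
    (fun w : Fin 2 → ℤ => if w 0 = 0 then 0 else ‖eisSummand k w z‖)]
  refine tsum_congr fun v => ?_
  have h0 : (ec77_vecEquiv (ModularGroup.T ^ n) v) 0 = v 0 := by
    show (v ᵥ* (ModularGroup.T ^ n : SL(2, ℤ)).1) 0 = v 0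
    rw [ModularGroup.coe_T_zpow]
    simp [Matrix.vecMul, dotProduct, Fin.sum_univ_two]
  have hden : denom (ModularGroup.T ^ n : SL(2, ℤ)) z = 1 := by
    rw [ModularGroup.denom_apply]
    have h10 : (ModularGroup.T ^ n : SL(2, ℤ)).1 1 0 = 0 := by
      rw [ModularGroup.coe_T_zpow]; rfl
    have h11 : (ModularGroup.T ^ n : SL(2, ℤ)).1 1 1 = 1 := by
      rw [ModularGroup.coe_T_zpow]; rfl
    rw [h10, h11]
    simp
  rw [h0, eisSummand_SL2_apply, hden, _root_.one_zpow, one_mul]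
  rfl

theorem ec77_term_tendsto (hk : 3 ≤ k) (v : Fin 2 → ℤ) :
    Tendsto (fun z : ℍ => if v 0 = 0 then (0 : ℝ) else ‖eisSummand k v z‖) atImInfty (𝓝 0) := by
  by_cases hv : v 0 = 0
  · simp only [hv, if_true]
    exact tendsto_const_nhds
  · simp only [hv, if_false]
    have hk0 : (0 : ℤ) ≤ k := by omega
    have hlim : Tendsto (fun z : ℍ => (z.im) ^ (-k)) atImInfty (𝓝 0) :=
      (tendsto_zpow_atTop_zero (by omega : -k < 0)).comp tendsto_comap
    refine squeeze_zero (fun z => norm_nonneg _) (fun z => ?_) hlim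
    have him : z.im ≤ ‖(v 0 : ℂ) * (z : ℂ) + v 1‖ := by
      have h1 : ((v 0 : ℂ) * (z : ℂ) + v 1).im = v 0 * z.im := by simp
      have h2 : |((v 0 : ℂ) * (z : ℂ) + v 1).im| ≤ ‖(v 0 : ℂ) * (z : ℂ) + v 1‖ :=
        Complex.abs_im_le_norm _
      rw [h1, abs_mul, abs_of_pos z.im_pos] at h2
      have h3 : (1 : ℝ) ≤ |(v 0 : ℝ)| := by
        have : (1 : ℤ) ≤ |v 0| := Int.one_le_abs hv
        exact_mod_cast this
      calc z.im = 1 * z.im := (one_mul _).symm
        _ ≤ |(v 0 : ℝ)| * z.im := mul_le_mul_of_nonneg_right h3 z.im_pos.le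
        _ ≤ _ := h2
    simp only [eisSummand, norm_zpow]
    rw [_root_.zpow_neg, _root_.zpow_neg]
    exact inv_anti₀ (zpow_pos z.im_pos k) (zpow_le_zpow_left₀ hk0 z.im_pos.le him)

theorem ec77_M_tendsto_strip (hk : 3 ≤ k) :
    Tendsto (ec77_M k) (atImInfty ⊓ 𝓟 (verticalStrip 1 2)) (𝓝 0) := by
  have hk' : (2 : ℝ) < k := by norm_cast
  have hsum : Summable fun v : Fin 2 → ℤ =>
      r ⟨⟨1, 2⟩, two_pos⟩ ^ (-k) * ‖v‖ ^ (-k) := by
    exact_mod_cast (summable_one_div_norm_rpow hk').mul_left <| r ⟨⟨1, 2⟩, two_pos⟩ ^ (-k)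
  have h := tendsto_tsum_of_dominated_convergence (𝓕 := atImInfty ⊓ 𝓟 (verticalStrip 1 2))
    (f := fun (z : ℍ) (v : Fin 2 → ℤ) => if v 0 = 0 then (0 : ℝ) else ‖eisSummand k v z‖)
    (g := fun _ => (0 : ℝ)) hsum
    (fun v => (ec77_term_tendsto hk v).mono_left inf_le_left) ?_
  · have h' : Tendsto (fun z : ℍ => ∑' v : Fin 2 → ℤ,
        if v 0 = 0 then (0 : ℝ) else ‖eisSummand k v z‖)
        (atImInfty ⊓ 𝓟 (verticalStrip 1 2)) (𝓝 0) := by
      simpa using h
    exact h'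
  · refine Filter.eventually_of_mem (Filter.mem_inf_of_right (Filter.mem_principal_self _))
      (fun z hz v => ?_)
    split_ifs
    · rw [norm_zero]
      exact mul_nonneg (zpow_nonneg (r_pos _).le _) (zpow_nonneg (norm_nonneg _) _)
    · rw [norm_norm]
      simp_rw [eisSummand, norm_zpow]
      exact_mod_cast
        summand_bound_of_mem_verticalStrip (lt_trans two_pos hk').le v two_pos hz

/-- The majorant tends to `0` as `Im z → ∞` (uniformly in `Re z`). -/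
theorem ec77_M_tendsto (hk : 3 ≤ k) : Tendsto (ec77_M k) atImInfty (𝓝 0) := by
  rw [Metric.tendsto_nhds]
  intro ε hε
  have h1 := (Metric.tendsto_nhds.mp (ec77_M_tendsto_strip (k := k) hk)) ε hε
  rw [Filter.eventually_inf_principal] at h1
  obtain ⟨A, hA⟩ := (atImInfty_mem _).mp h1
  refine (atImInfty_mem _).mpr ⟨max A 2, fun z hz => ?_⟩
  obtain ⟨n, hn⟩ := ModularGroup_T_zpow_mem_verticalStrip z one_pos
  have hn' : ModularGroup.T ^ (((1 : ℕ) : ℤ) * n) • z ∈ verticalStrip 1 2 := by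
    refine ⟨by simpa using hn.1, le_trans ?_ hn.2⟩
    exact le_trans (le_max_right _ _) hz
  have h2 : dist (ec77_M k (ModularGroup.T ^ (((1 : ℕ) : ℤ) * n) • z)) 0 < ε :=
    hA _ (le_trans (le_trans (le_max_left _ _) hz) hn.2) hn'
  rw [ec77_M_T_zpow] at h2
  exact h2

/-- `(-1) ^ (-k) = (-1) ^ k`. -/
theorem ec77_neg_one_zpow (k : ℤ) : ((-1 : ℂ)) ^ (-k) = (-1) ^ k := by
  rw [_root_.zpow_neg, ← _root_.inv_zpow, inv_neg_one]

/-- The key estimate: `E_c z` differs from `c (0, 1) + (-1) ^ k c (0, -1)` by at most the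
majorant. -/
theorem ec77_E_sub_le (hk : 3 ≤ k) (hc : ∀ v, ‖c v‖ ≤ 1) (z : ℍ) :
    ‖ec77_E k c z - (c ![0, 1] + (-1) ^ k * c ![0, -1])‖ ≤ ec77_M k z := by
  classical
  have he1 : (![0, 1] : Fin 2 → ℤ) ∈ gammaSet 1 1 0 := by
    rw [mem_gammaSet_one]
    exact isCoprime_zero_left.mpr isUnit_one
  have he2 : (![0, -1] : Fin 2 → ℤ) ∈ gammaSet 1 1 0 := by
    rw [mem_gammaSet_one]
    exact isCoprime_zero_left.mpr isUnit_one.neg
  set e1 : gammaSet 1 1 0 := ⟨![0, 1], he1⟩ with he1def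
  set e2 : gammaSet 1 1 0 := ⟨![0, -1], he2⟩ with he2def
  have hne : e1 ≠ e2 := by
    intro h
    have := congrFun (congrArg Subtype.val h) 1
    simp [e1, e2] at this
  let hfun : gammaSet 1 1 0 → ℂ := fun v =>
    if v.1 0 = 0 then 0 else c v.1 * eisSummand k v.1 z
  let dfun : gammaSet 1 1 0 → ℂ := fun v =>
    if v.1 0 = 0 then c v.1 * eisSummand k v.1 z else 0
  let mfun : (Fin 2 → ℤ) → ℝ := fun v => if v 0 = 0 then 0 else ‖eisSummand k v z‖
  have hsplit : ∀ v : gammaSet 1 1 0, c v.1 * eisSummand k v.1 z = hfun v + dfun v := by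
    intro v
    by_cases hv : v.1 0 = 0 <;> simp [hfun, dfun, hv]
  have hh_le : ∀ v : gammaSet 1 1 0, ‖hfun v‖ ≤ mfun v.1 := by
    intro v
    by_cases hv : v.1 0 = 0
    · simp [hfun, mfun, hv]
    · simp only [hfun, mfun, hv, if_false]
      exact ec77_norm_term_le hc v.1 z
  have hm_sum : Summable mfun := ec77_M_summable hk z
  have hm_sub : Summable fun v : gammaSet 1 1 0 => mfun v.1 := hm_sum.subtype _
  have hh_norm : Summable fun v : gammaSet 1 1 0 => ‖hfun v‖ :=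
    hm_sub.of_nonneg_of_le (fun _ => norm_nonneg _) hh_le
  have hh_sum : Summable hfun := hh_norm.of_norm
  have hd_zero : ∀ v : gammaSet 1 1 0, v ∉ ({e1, e2} : Finset (gammaSet 1 1 0)) → dfun v = 0 := by
    intro v hv
    by_cases hv0 : v.1 0 = 0
    · exfalso
      apply hv
      have hcop := (mem_gammaSet_one v.1).mp v.2
      rw [hv0, isCoprime_zero_left, Int.isUnit_iff] at hcop
      rcases hcop with h1 | h1
      · have : v = e1 := by
          apply Subtype.ext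
          ext i
          fin_cases i
          · simpa [e1] using hv0
          · simpa [e1] using h1
        simp [this]
      · have : v = e2 := by
          apply Subtype.ext
          ext i
          fin_cases i
          · simpa [e2] using hv0
          · simpa [e2] using h1
        simp [this]
    · simp [dfun, hv0]
  have hd_sum : Summable dfun := summable_of_ne_finset_zero hd_zero
  have hd_tsum : ∑' v, dfun v = c ![0, 1] + (-1) ^ k * c ![0, -1] := by
    rw [tsum_eq_sum hd_zero, Finset.sum_pair hne]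
    have h1 : dfun e1 = c ![0, 1] := by
      simp [dfun, e1, eisSummand]
    have h2 : dfun e2 = (-1) ^ k * c ![0, -1] := by
      have : eisSummand k ![0, -1] z = (-1) ^ k := by
        simp only [eisSummand]
        rw [← ec77_neg_one_zpow]
        congr 1
        simp
      simp only [dfun, e2, Matrix.cons_val_zero, if_true, this]
      ring
    rw [h1, h2]
  have hE : ec77_E k c z = ∑' v, hfun v + ∑' v, dfun v := by
    unfold ec77_E
    rw [tsum_congr hsplit, hh_sum.tsum_add hd_sum]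
  rw [hE, hd_tsum, add_sub_cancel_right]
  calc ‖∑' v, hfun v‖ ≤ ∑' v, ‖hfun v‖ := norm_tsum_le_tsum_norm hh_norm
    _ ≤ ∑' v : gammaSet 1 1 0, mfun v.1 := hh_norm.tsum_le_tsum hh_le hm_sub
    _ ≤ ∑' v, mfun v := Summable.tsum_subtype_le mfun _ (fun v => by
        simp only [mfun]; split_ifs
        · exact le_rfl
        · exact norm_nonneg _) hm_sum

/-- **The limit at `i∞`**: `E_c z → c (0, 1) + (-1) ^ k * c (0, -1)` as `Im z → ∞`. -/
theorem ec77_E_tendsto (hk : 3 ≤ k) (hc : ∀ v, ‖c v‖ ≤ 1) :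
    Tendsto (ec77_E k c) atImInfty (𝓝 (c ![0, 1] + (-1) ^ k * c ![0, -1])) := by
  rw [tendsto_iff_norm_sub_tendsto_zero]
  exact squeeze_zero (fun z => norm_nonneg _) (fun z => ec77_E_sub_le hk hc z)
    (ec77_M_tendsto hk)

end Limit

end Fermat.Agent.S42
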