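/-
S42 / Project 4, row M5a (helper77): the multiplier `χ~` on integer vectors.

`Γ` a subgroup of `SL(2, ℤ)`, `χ : Γ →* R` a character which is trivial on every element of
trace `± 2` (the Prelude's parabolic condition `IsParabolicHom`, written multiplicatively).
Then there is a function `ec77_chit Γ χ : (Fin 2 → ℤ) → R` with

* `ec77_chit Γ χ (v ᵥ* γ) = ec77_chit Γ χ v * χ γ` for `γ ∈ Γ`, `v ≠ 0`;
* `ec77_chit Γ χ (-v) = ec77_chit Γ χ v`;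
* every value of `ec77_chit Γ χ` is a value of `χ`.

(`Γ_∞ \ SL(2, ℤ) / Γ` = cusps of `Γ`; the function is well defined because `χ` is trivial on the
stabiliser `Γ ∩ s⁻¹ (± T^ℤ) s` of every cusp.)
-/
import Mathlib

set_option autoImplicit false

open Matrix
open scoped MatrixGroups

namespace Fermat.Agent.S42

/-- An element of `SL(2, ℤ)` fixing a nonzero integer vector up to sign has trace `± 2`. -/
theorem ec77_trace_sq_of_fix (g : SL(2, ℤ)) (v : Fin 2 → ℤ) (hv : v ≠ 0)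
    (h : v ᵥ* g.1 = v ∨ v ᵥ* g.1 = -v) :
    (g : Matrix (Fin 2) (Fin 2) ℤ).trace ^ 2 = 4 := by
  have hdet : g.1 0 0 * g.1 1 1 - g.1 0 1 * g.1 1 0 = 1 := by
    have := g.2
    rwa [Matrix.det_fin_two] at this
  have htr : (g : Matrix (Fin 2) (Fin 2) ℤ).trace = g.1 0 0 + g.1 1 1 := Matrix.trace_fin_two _
  rw [htr]
  have hv' : v 0 ≠ 0 ∨ v 1 ≠ 0 := by
    by_contra hcon
    rw [not_or, not_not, not_not] at hcon
    apply hv
    ext i
    fin_cases i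
    · exact hcon.1
    · exact hcon.2
  rcases h with h | h
  · have h0 := congrFun h 0
    have h1 := congrFun h 1
    simp only [Matrix.vecMul, dotProduct, Fin.sum_univ_two] at h0 h1
    have key : g.1 0 0 + g.1 1 1 = 2 := by
      rcases hv' with hv0 | hv1
      · have : v 0 * (g.1 0 0 + g.1 1 1 - 2) = 0 := by
          linear_combination (-(g.1 1 1 - 1)) * h0 + g.1 1 0 * h1 + v 0 * hdet
        rcases mul_eq_zero.mp this with h' | h'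
        · exact absurd h' hv0
        · linarith
      · have : v 1 * (g.1 0 0 + g.1 1 1 - 2) = 0 := by
          linear_combination (-(g.1 0 0 - 1)) * h1 + g.1 0 1 * h0 + v 1 * hdet
        rcases mul_eq_zero.mp this with h' | h'
        · exact absurd h' hv1
        · linarith
    rw [key]; norm_num
  · have h0 := congrFun h 0
    have h1 := congrFun h 1
    simp only [Matrix.vecMul, dotProduct, Fin.sum_univ_two, Pi.neg_apply] at h0 h1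
    have key : g.1 0 0 + g.1 1 1 = -2 := by
      rcases hv' with hv0 | hv1
      · have : v 0 * (g.1 0 0 + g.1 1 1 + 2) = 0 := by
          linear_combination (g.1 1 1 + 1) * h0 - g.1 1 0 * h1 - v 0 * hdet
        rcases mul_eq_zero.mp this with h' | h'
        · exact absurd h' hv0
        · linarith
      · have : v 1 * (g.1 0 0 + g.1 1 1 + 2) = 0 := by
          linear_combination (g.1 0 0 + 1) * h1 - g.1 0 1 * h0 - v 1 * hdet
        rcases mul_eq_zero.mp this with h' | h'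
        · exact absurd h' hv1
        · linarith
    rw [key]; norm_num

section Chit

variable (Γ : Subgroup SL(2, ℤ))

/-- Two integer vectors are related when they differ by an element of `Γ` and a sign. -/
def ec77_setoid : Setoid (Fin 2 → ℤ) where
  r v w := ∃ γ : ↥Γ, w = v ᵥ* (γ : SL(2, ℤ)).1 ∨ w = -(v ᵥ* (γ : SL(2, ℤ)).1)
  iseqv := by
    refine ⟨fun v => ⟨1, Or.inl (by simp)⟩, ?_, ?_⟩
    · rintro v w ⟨γ, h⟩
      refine ⟨γ⁻¹, ?_⟩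
      have hinv : (γ : SL(2, ℤ)).1 * ((γ⁻¹ : ↥Γ) : SL(2, ℤ)).1 = 1 := by
        rw [← Matrix.SpecialLinearGroup.coe_mul, ← Subgroup.coe_mul, mul_inv_cancel]
        rfl
      rcases h with h | h
      · left
        rw [h, Matrix.vecMul_vecMul, hinv, Matrix.vecMul_one]
      · right
        rw [h, Matrix.neg_vecMul, Matrix.vecMul_vecMul, hinv, Matrix.vecMul_one, neg_neg]
    · rintro u v w ⟨γ, h⟩ ⟨δ, h'⟩
      refine ⟨γ * δ, ?_⟩
      have hmul : ((γ * δ : ↥Γ) : SL(2, ℤ)).1 = (γ : SL(2, ℤ)).1 * (δ : SL(2, ℤ)).1 := rfl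
      rw [hmul, ← Matrix.vecMul_vecMul]
      rcases h with h | h <;> rcases h' with h' | h'
      · left; rw [h', h]
      · right; rw [h', h]
      · right; rw [h', h, Matrix.neg_vecMul]
      · left; rw [h', h, Matrix.neg_vecMul, neg_neg]

/-- The chosen representative of the class of `v`. -/
noncomputable def ec77_rep (v : Fin 2 → ℤ) : Fin 2 → ℤ :=
  (Quotient.mk (ec77_setoid Γ) v).out

theorem ec77_rep_spec (v : Fin 2 → ℤ) :
    ∃ γ : ↥Γ, v = ec77_rep Γ v ᵥ* (γ : SL(2, ℤ)).1 ∨ v = -(ec77_rep Γ v ᵥ* (γ : SL(2, ℤ)).1) :=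
  Quotient.mk_out (s := ec77_setoid Γ) v

theorem ec77_rep_eq_of_rel {v w : Fin 2 → ℤ} (h : (ec77_setoid Γ).r v w) :
    ec77_rep Γ v = ec77_rep Γ w := by
  unfold ec77_rep
  rw [Quotient.sound (s := ec77_setoid Γ) h]

theorem ec77_rep_vecMul (v : Fin 2 → ℤ) (γ : ↥Γ) :
    ec77_rep Γ (v ᵥ* (γ : SL(2, ℤ)).1) = ec77_rep Γ v :=
  (ec77_rep_eq_of_rel Γ ⟨γ, Or.inl rfl⟩).symm

theorem ec77_rep_neg (v : Fin 2 → ℤ) : ec77_rep Γ (-v) = ec77_rep Γ v :=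
  (ec77_rep_eq_of_rel Γ ⟨1, Or.inr (by simp)⟩).symm

theorem ec77_rep_ne_zero {v : Fin 2 → ℤ} (hv : v ≠ 0) : ec77_rep Γ v ≠ 0 := by
  intro h0
  obtain ⟨γ, h⟩ := ec77_rep_spec Γ v
  rw [h0] at h
  apply hv
  rcases h with h | h
  · rw [h, Matrix.zero_vecMul]
  · rw [h, Matrix.zero_vecMul, neg_zero]

variable {R : Type*} [CommGroup R] (χ : ↥Γ →* R)

/-- The multiplier `χ~` on integer vectors. -/
noncomputable def ec77_chit (v : Fin 2 → ℤ) : R :=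
  χ (Classical.choose (ec77_rep_spec Γ v))

theorem ec77_chit_mem_range (v : Fin 2 → ℤ) : ec77_chit Γ χ v ∈ Set.range χ :=
  ⟨_, rfl⟩

variable {Γ χ}

/-- `χ` takes the same value on two elements of `Γ` moving a nonzero vector to the same vector
up to sign. -/
theorem ec77_chi_eq_of_fix
    (hpar : ∀ γ : ↥Γ, ((γ : SL(2, ℤ)) : Matrix (Fin 2) (Fin 2) ℤ).trace ^ 2 = 4 → χ γ = 1)
    {r : Fin 2 → ℤ} (hr : r ≠ 0) (γ δ : ↥Γ)
    (h : r ᵥ* (γ : SL(2, ℤ)).1 = r ᵥ* (δ : SL(2, ℤ)).1 ∨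
      r ᵥ* (γ : SL(2, ℤ)).1 = -(r ᵥ* (δ : SL(2, ℤ)).1)) :
    χ γ = χ δ := by
  have hinv : (δ : SL(2, ℤ)).1 * ((δ⁻¹ : ↥Γ) : SL(2, ℤ)).1 = 1 := by
    rw [← Matrix.SpecialLinearGroup.coe_mul, ← Subgroup.coe_mul, mul_inv_cancel]
    rfl
  have hmul : ((γ * δ⁻¹ : ↥Γ) : SL(2, ℤ)).1 = (γ : SL(2, ℤ)).1 * ((δ⁻¹ : ↥Γ) : SL(2, ℤ)).1 := rfl
  have hfix : r ᵥ* ((γ * δ⁻¹ : ↥Γ) : SL(2, ℤ)).1 = r ∨
      r ᵥ* ((γ * δ⁻¹ : ↥Γ) : SL(2, ℤ)).1 = -r := by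
    rw [hmul, ← Matrix.vecMul_vecMul]
    rcases h with h | h
    · left; rw [h, Matrix.vecMul_vecMul, hinv, Matrix.vecMul_one]
    · right; rw [h, Matrix.neg_vecMul, Matrix.vecMul_vecMul, hinv, Matrix.vecMul_one]
  have h1 := hpar (γ * δ⁻¹) (ec77_trace_sq_of_fix _ r hr hfix)
  rw [map_mul, map_inv, mul_inv_eq_one] at h1
  exact h1

/-- Characterisation of `χ~`: its value at `v ≠ 0` is `χ γ` for ANY `γ ∈ Γ` carrying the chosen
representative to `± v`. -/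
theorem ec77_chit_eq
    (hpar : ∀ γ : ↥Γ, ((γ : SL(2, ℤ)) : Matrix (Fin 2) (Fin 2) ℤ).trace ^ 2 = 4 → χ γ = 1)
    {v : Fin 2 → ℤ} (hv : v ≠ 0) (γ : ↥Γ)
    (h : v = ec77_rep Γ v ᵥ* (γ : SL(2, ℤ)).1 ∨ v = -(ec77_rep Γ v ᵥ* (γ : SL(2, ℤ)).1)) :
    ec77_chit Γ χ v = χ γ := by
  have hs := Classical.choose_spec (ec77_rep_spec Γ v)
  refine ec77_chi_eq_of_fix hpar (ec77_rep_ne_zero Γ hv) _ _ ?_
  rcases hs with hs | hs <;> rcases h with h | h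
  · left; exact hs.symm.trans h
  · right; exact hs.symm.trans h
  · right; exact neg_eq_iff_eq_neg.mp (hs.symm.trans h)
  · left; exact neg_injective (hs.symm.trans h)

/-- **Equivariance of `χ~`**: `χ~ (v γ) = χ~ v * χ γ` for `γ ∈ Γ` and `v ≠ 0`. -/
theorem ec77_chit_vecMul
    (hpar : ∀ γ : ↥Γ, ((γ : SL(2, ℤ)) : Matrix (Fin 2) (Fin 2) ℤ).trace ^ 2 = 4 → χ γ = 1)
    {v : Fin 2 → ℤ} (hv : v ≠ 0) (γ : ↥Γ) :
    ec77_chit Γ χ (v ᵥ* (γ : SL(2, ℤ)).1) = ec77_chit Γ χ v * χ γ := by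
  obtain ⟨δ, hδ⟩ := ec77_rep_spec Γ v
  have hvγ : v ᵥ* (γ : SL(2, ℤ)).1 ≠ 0 := by
    intro h0
    apply hv
    have hinv : (γ : SL(2, ℤ)).1 * ((γ⁻¹ : ↥Γ) : SL(2, ℤ)).1 = 1 := by
      rw [← Matrix.SpecialLinearGroup.coe_mul, ← Subgroup.coe_mul, mul_inv_cancel]
      rfl
    have h2 : (v ᵥ* (γ : SL(2, ℤ)).1) ᵥ* ((γ⁻¹ : ↥Γ) : SL(2, ℤ)).1 = v := by
      rw [Matrix.vecMul_vecMul, hinv, Matrix.vecMul_one]
    rw [h0, Matrix.zero_vecMul] at h2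
    exact h2.symm
  have hmul : ((δ * γ : ↥Γ) : SL(2, ℤ)).1 = (δ : SL(2, ℤ)).1 * (γ : SL(2, ℤ)).1 := rfl
  rw [ec77_chit_eq hpar hv δ hδ, ← map_mul]
  refine ec77_chit_eq hpar hvγ (δ * γ) ?_
  rw [ec77_rep_vecMul, hmul, ← Matrix.vecMul_vecMul]
  rcases hδ with hδ | hδ
  · left; exact congrArg (fun w => w ᵥ* (γ : SL(2, ℤ)).1) hδ
  · right
    exact (congrArg (fun w => w ᵥ* (γ : SL(2, ℤ)).1) hδ).trans (Matrix.neg_vecMul _ _)

/-- **Evenness of `χ~`**. -/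
theorem ec77_chit_neg
    (hpar : ∀ γ : ↥Γ, ((γ : SL(2, ℤ)) : Matrix (Fin 2) (Fin 2) ℤ).trace ^ 2 = 4 → χ γ = 1)
    (v : Fin 2 → ℤ) : ec77_chit Γ χ (-v) = ec77_chit Γ χ v := by
  by_cases hv : v = 0
  · rw [hv, neg_zero]
  obtain ⟨δ, hδ⟩ := ec77_rep_spec Γ v
  rw [ec77_chit_eq hpar hv δ hδ]
  refine ec77_chit_eq hpar (neg_ne_zero.mpr hv) δ ?_
  rw [ec77_rep_neg]
  rcases hδ with hδ | hδ
  · right; exact congrArg Neg.neg hδ
  · left; exact neg_eq_iff_eq_neg.mpr hδ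

/-- Packaged existence statement. -/
theorem ec77_exists_chit
    (hpar : ∀ γ : ↥Γ, ((γ : SL(2, ℤ)) : Matrix (Fin 2) (Fin 2) ℤ).trace ^ 2 = 4 → χ γ = 1) :
    ∃ ct : (Fin 2 → ℤ) → R,
      (∀ v : Fin 2 → ℤ, v ≠ 0 → ∀ γ : ↥Γ, ct (v ᵥ* (γ : SL(2, ℤ)).1) = ct v * χ γ) ∧
      (∀ v : Fin 2 → ℤ, ct (-v) = ct v) ∧ (∀ v : Fin 2 → ℤ, ct v ∈ Set.range χ) :=
  ⟨ec77_chit Γ χ, fun _ hv γ => ec77_chit_vecMul hpar hv γ, ec77_chit_neg hpar,
    ec77_chit_mem_range Γ χ⟩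

end Chit

end Fermat.Agent.S42
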