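/-
S42 / Project 4, row M5a (helper77): the twisted Eisenstein series `E_χ`.

`Γ ≤ SL(2, ℤ)`, `χ : Γ →* ℂˣ` unitary and trivial on the elements of trace `± 2`.
`ec77_Echi k Γ χ = ∑ χ~(v) (v 0 z + v 1) ^ (-k)` (sum over coprime `v`), `χ~ = ec77_chit Γ χ`.

* `ec77_Echi_mdifferentiable` : holomorphic on `ℍ` (`k ≥ 3`);
* `ec77_Echi_smul` : `E_χ (γ • z) = (χ γ)⁻¹ * (denom γ z) ^ k * E_χ z` for `γ ∈ Γ`;
* `ec77_Echi_slash` : `E_χ ∣[k] γ = (χ γ)⁻¹ • E_χ` for `γ ∈ Γ`;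
* `ec77_Echi_slash_tendsto` : for EVERY `s ∈ SL(2, ℤ)`, `(E_χ ∣[k] s) z → 2 χ~(bottom row of s⁻¹)`
  as `Im z → ∞` (`k` even); `ec77_Echi_slash_isBoundedAtImInfty`;
* `ec77_Eone k = ec77_E k 1` is Mathlib's level one Eisenstein series `eisensteinSeries 0 k`;
  `ec77_ratio_smul`, `ec77_ratio_tendsto` : the quotient `F = E_χ / E_1` satisfies
  `F (γ • z) = (χ γ)⁻¹ * F z` and `F (s • z) → χ~(bottom row of s⁻¹)` for every `s ∈ SL(2, ℤ)`.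
-/
import Mathlib
import Fermat.Agent.S42.EisChi77
import Fermat.Agent.S42.EisChiGrp77

set_option autoImplicit false

open Matrix UpperHalfPlane Filter Topology EisensteinSeries ModularForm
open scoped MatrixGroups Manifold

namespace Fermat.Agent.S42

section General

variable {k : ℤ} {c : (Fin 2 → ℤ) → ℂ}

/-- Slash form of `ec77_E_smul`. -/
theorem ec77_E_slash (k : ℤ) (c : (Fin 2 → ℤ) → ℂ) (s : SL(2, ℤ)) :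
    (ec77_E k c) ∣[k] s = ec77_E k (fun v => c (v ᵥ* (s⁻¹ : SL(2, ℤ)).1)) := by
  ext z
  rw [SL_slash_apply, ec77_E_smul, mul_comm, ← mul_assoc, ← zpow_add₀ (denom_ne_zero s z)]
  simp

theorem ec77_E_slash_tendsto (hk : 3 ≤ k) (hc : ∀ v, ‖c v‖ ≤ 1) (s : SL(2, ℤ)) :
    Tendsto ((ec77_E k c) ∣[k] s) atImInfty
      (𝓝 (c (![0, 1] ᵥ* (s⁻¹ : SL(2, ℤ)).1) + (-1) ^ k * c (![0, -1] ᵥ* (s⁻¹ : SL(2, ℤ)).1))) := by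
  rw [ec77_E_slash]
  exact ec77_E_tendsto (c := fun v => c (v ᵥ* (s⁻¹ : SL(2, ℤ)).1)) hk (fun v => hc _)

theorem ec77_E_slash_isBoundedAtImInfty (hk : 3 ≤ k) (hc : ∀ v, ‖c v‖ ≤ 1) (s : SL(2, ℤ)) :
    IsBoundedAtImInfty ((ec77_E k c) ∣[k] s) :=
  (ec77_E_slash_tendsto hk hc s).isBigO_one ℝ

end General

section Chi

variable (k : ℤ) (Γ : Subgroup SL(2, ℤ)) (χ : ↥Γ →* ℂˣ)

/-- The complex valued multiplier `χ~`. -/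
noncomputable def ec77_cchi (v : Fin 2 → ℤ) : ℂ := ((ec77_chit Γ χ v : ℂˣ) : ℂ)

/-- The twisted Eisenstein series `E_χ`. -/
noncomputable def ec77_Echi : ℍ → ℂ := ec77_E k (ec77_cchi Γ χ)

variable {k Γ χ}

theorem ec77_cchi_norm (hunit : ∀ γ : ↥Γ, ‖((χ γ : ℂˣ) : ℂ)‖ = 1) (v : Fin 2 → ℤ) :
    ‖ec77_cchi Γ χ v‖ = 1 := by
  obtain ⟨γ, hγ⟩ := ec77_chit_mem_range Γ χ v
  unfold ec77_cchi
  rw [← hγ]
  exact hunit γ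

theorem ec77_cchi_norm_le (hunit : ∀ γ : ↥Γ, ‖((χ γ : ℂˣ) : ℂ)‖ = 1) (v : Fin 2 → ℤ) :
    ‖ec77_cchi Γ χ v‖ ≤ 1 := (ec77_cchi_norm hunit v).le

/-- A character of finite exponent is unitary. -/
theorem ec77_unit_of_pow {p : ℕ} (hp : p ≠ 0) (hχp : ∀ γ : ↥Γ, χ γ ^ p = 1) (γ : ↥Γ) :
    ‖((χ γ : ℂˣ) : ℂ)‖ = 1 := by
  have h : ((χ γ : ℂˣ) : ℂ) ^ p = 1 := by
    rw [← Units.val_pow_eq_pow_val, hχp γ, Units.val_one]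
  exact Complex.norm_eq_one_of_pow_eq_one h hp

theorem ec77_cchi_pow {p : ℕ} (hχp : ∀ γ : ↥Γ, χ γ ^ p = 1) (v : Fin 2 → ℤ) :
    ec77_cchi Γ χ v ^ p = 1 := by
  obtain ⟨γ, hγ⟩ := ec77_chit_mem_range Γ χ v
  unfold ec77_cchi
  rw [← hγ, ← Units.val_pow_eq_pow_val, hχp γ, Units.val_one]

theorem ec77_cchi_vecMul
    (hpar : ∀ γ : ↥Γ, ((γ : SL(2, ℤ)) : Matrix (Fin 2) (Fin 2) ℤ).trace ^ 2 = 4 → χ γ = 1)
    {v : Fin 2 → ℤ} (hv : v ≠ 0) (γ : ↥Γ) :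
    ec77_cchi Γ χ (v ᵥ* (γ : SL(2, ℤ)).1) = ec77_cchi Γ χ v * ((χ γ : ℂˣ) : ℂ) := by
  unfold ec77_cchi
  rw [ec77_chit_vecMul hpar hv γ, Units.val_mul]

theorem ec77_cchi_neg
    (hpar : ∀ γ : ↥Γ, ((γ : SL(2, ℤ)) : Matrix (Fin 2) (Fin 2) ℤ).trace ^ 2 = 4 → χ γ = 1)
    (v : Fin 2 → ℤ) : ec77_cchi Γ χ (-v) = ec77_cchi Γ χ v := by
  unfold ec77_cchi
  rw [ec77_chit_neg hpar v]

/-- `E_χ` is holomorphic on the upper half plane. -/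
theorem ec77_Echi_mdifferentiable (hk : 3 ≤ k) (hunit : ∀ γ : ↥Γ, ‖((χ γ : ℂˣ) : ℂ)‖ = 1) :
    MDifferentiable 𝓘(ℂ) 𝓘(ℂ) (ec77_Echi k Γ χ) :=
  ec77_E_mdifferentiable hk (ec77_cchi_norm_le hunit)

theorem ec77_Echi_differentiableOn (hk : 3 ≤ k) (hunit : ∀ γ : ↥Γ, ‖((χ γ : ℂˣ) : ℂ)‖ = 1) :
    DifferentiableOn ℂ ((ec77_Echi k Γ χ) ∘ ofComplex) {z : ℂ | 0 < z.im} :=
  ec77_E_differentiableOn hk (ec77_cchi_norm_le hunit)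

/-- **Transformation law**: `E_χ (γ • z) = (χ γ)⁻¹ * (denom γ z) ^ k * E_χ z` for `γ ∈ Γ`. -/
theorem ec77_Echi_smul
    (hpar : ∀ γ : ↥Γ, ((γ : SL(2, ℤ)) : Matrix (Fin 2) (Fin 2) ℤ).trace ^ 2 = 4 → χ γ = 1)
    (γ : ↥Γ) (z : ℍ) :
    ec77_Echi k Γ χ ((γ : SL(2, ℤ)) • z) =
      ((χ γ : ℂˣ) : ℂ)⁻¹ * (denom (γ : SL(2, ℤ)) z) ^ k * ec77_Echi k Γ χ z := by
  refine ec77_E_equivariant k (ec77_cchi Γ χ) (γ : SL(2, ℤ)) ((χ γ : ℂˣ) : ℂ) (Units.ne_zero _)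
    (fun v hv => ?_) z
  refine ec77_cchi_vecMul hpar ?_ γ
  rintro rfl
  exact not_isCoprime_zero_zero hv

/-- **Slash form of the transformation law**: `E_χ ∣[k] γ = (χ γ)⁻¹ • E_χ` for `γ ∈ Γ`. -/
theorem ec77_Echi_slash
    (hpar : ∀ γ : ↥Γ, ((γ : SL(2, ℤ)) : Matrix (Fin 2) (Fin 2) ℤ).trace ^ 2 = 4 → χ γ = 1)
    (γ : ↥Γ) :
    (ec77_Echi k Γ χ) ∣[k] (γ : SL(2, ℤ)) = (((χ γ : ℂˣ) : ℂ)⁻¹) • ec77_Echi k Γ χ := by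
  ext z
  rw [SL_slash_apply, ec77_Echi_smul hpar γ z, Pi.smul_apply, smul_eq_mul, mul_assoc,
    mul_assoc, mul_comm (ec77_Echi k Γ χ z), ← mul_assoc (denom _ _ ^ k),
    ← zpow_add₀ (denom_ne_zero _ z)]
  simp

/-- The limit of `E_χ ∣[k] s` at `i∞`, for every `s ∈ SL(2, ℤ)` (any weight `k ≥ 3`). -/
theorem ec77_Echi_slash_tendsto' (hk : 3 ≤ k) (hunit : ∀ γ : ↥Γ, ‖((χ γ : ℂˣ) : ℂ)‖ = 1)
    (s : SL(2, ℤ)) :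
    Tendsto ((ec77_Echi k Γ χ) ∣[k] s) atImInfty
      (𝓝 (ec77_cchi Γ χ (![0, 1] ᵥ* (s⁻¹ : SL(2, ℤ)).1) +
        (-1) ^ k * ec77_cchi Γ χ (![0, -1] ᵥ* (s⁻¹ : SL(2, ℤ)).1))) :=
  ec77_E_slash_tendsto hk (ec77_cchi_norm_le hunit) s

/-- **The limit at every cusp** (`k` even): `(E_χ ∣[k] s) z → 2 χ~((0, 1) s⁻¹)` as
`Im z → ∞`. -/
theorem ec77_Echi_slash_tendsto (hk : 3 ≤ k) (hk2 : Even k)
    (hunit : ∀ γ : ↥Γ, ‖((χ γ : ℂˣ) : ℂ)‖ = 1)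
    (hpar : ∀ γ : ↥Γ, ((γ : SL(2, ℤ)) : Matrix (Fin 2) (Fin 2) ℤ).trace ^ 2 = 4 → χ γ = 1)
    (s : SL(2, ℤ)) :
    Tendsto ((ec77_Echi k Γ χ) ∣[k] s) atImInfty
      (𝓝 (2 * ec77_cchi Γ χ (![0, 1] ᵥ* (s⁻¹ : SL(2, ℤ)).1))) := by
  have h := ec77_Echi_slash_tendsto' (k := k) (χ := χ) hk hunit s
  have hneg : (![0, -1] : Fin 2 → ℤ) ᵥ* (s⁻¹ : SL(2, ℤ)).1 =
      -((![0, 1] : Fin 2 → ℤ) ᵥ* (s⁻¹ : SL(2, ℤ)).1) := by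
    rw [← Matrix.neg_vecMul]
    congr 1
    ext i
    fin_cases i <;> simp
  rw [hneg, ec77_cchi_neg hpar, hk2.neg_one_zpow, one_mul, ← two_mul] at h
  exact h

theorem ec77_Echi_slash_isBoundedAtImInfty (hk : 3 ≤ k)
    (hunit : ∀ γ : ↥Γ, ‖((χ γ : ℂˣ) : ℂ)‖ = 1) (s : SL(2, ℤ)) :
    IsBoundedAtImInfty ((ec77_Echi k Γ χ) ∣[k] s) :=
  ec77_E_slash_isBoundedAtImInfty hk (ec77_cchi_norm_le hunit) s

end Chi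

section One

/-- The untwisted series: Mathlib's level one Eisenstein series (sum over coprime pairs). -/
noncomputable def ec77_Eone (k : ℤ) : ℍ → ℂ := ec77_E k (fun _ => 1)

theorem ec77_Eone_eq (k : ℤ) (z : ℍ) :
    ec77_Eone k z = eisensteinSeries (0 : Fin 2 → ZMod 1) k z := by
  unfold ec77_Eone ec77_E eisensteinSeries
  exact tsum_congr fun v => one_mul _

variable {k : ℤ}

theorem ec77_Eone_mdifferentiable (hk : 3 ≤ k) : MDifferentiable 𝓘(ℂ) 𝓘(ℂ) (ec77_Eone k) :=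
  ec77_E_mdifferentiable hk (fun _ => by simp)

/-- `E_1 (s • z) = (denom s z) ^ k * E_1 z` for every `s ∈ SL(2, ℤ)`. -/
theorem ec77_Eone_smul (k : ℤ) (s : SL(2, ℤ)) (z : ℍ) :
    ec77_Eone k (s • z) = (denom s z) ^ k * ec77_Eone k z :=
  ec77_E_smul k (fun _ => 1) s z

theorem ec77_Eone_slash (k : ℤ) (s : SL(2, ℤ)) : (ec77_Eone k) ∣[k] s = ec77_Eone k :=
  ec77_E_slash k (fun _ => 1) s

/-- `E_1 z → 2` as `Im z → ∞` (`k` even). -/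
theorem ec77_Eone_tendsto (hk : 3 ≤ k) (hk2 : Even k) :
    Tendsto (ec77_Eone k) atImInfty (𝓝 2) := by
  have h := ec77_E_tendsto (k := k) (c := fun _ => (1 : ℂ)) hk (fun _ => by simp)
  rw [hk2.neg_one_zpow, one_mul, one_add_one_eq_two] at h
  exact h

/-- `E_1` does not vanish for `Im z` large. -/
theorem ec77_Eone_eventually_ne_zero (hk : 3 ≤ k) (hk2 : Even k) :
    ∀ᶠ z in atImInfty, ec77_Eone k z ≠ 0 :=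
  (ec77_Eone_tendsto hk hk2).eventually_ne two_ne_zero

theorem ec77_Eone_ne_zero (hk : 3 ≤ k) (hk2 : Even k) : ec77_Eone k ≠ 0 := by
  intro h0
  obtain ⟨z, hz⟩ := (ec77_Eone_eventually_ne_zero hk hk2).exists
  exact hz (by rw [h0]; rfl)

end One

section Ratio

variable {k : ℤ} {Γ : Subgroup SL(2, ℤ)} {χ : ↥Γ →* ℂˣ}

/-- The quotient `F = E_χ / E_1` transforms by `χ⁻¹` under `Γ`:
`F (γ • z) = (χ γ)⁻¹ * F z`. -/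
theorem ec77_ratio_smul
    (hpar : ∀ γ : ↥Γ, ((γ : SL(2, ℤ)) : Matrix (Fin 2) (Fin 2) ℤ).trace ^ 2 = 4 → χ γ = 1)
    (γ : ↥Γ) (z : ℍ) :
    ec77_Echi k Γ χ ((γ : SL(2, ℤ)) • z) / ec77_Eone k ((γ : SL(2, ℤ)) • z) =
      ((χ γ : ℂˣ) : ℂ)⁻¹ * (ec77_Echi k Γ χ z / ec77_Eone k z) := by
  rw [ec77_Echi_smul hpar γ z, ec77_Eone_smul]
  have hd : (denom (γ : SL(2, ℤ)) z) ^ k ≠ 0 := zpow_ne_zero _ (denom_ne_zero _ z)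
  by_cases h1 : ec77_Eone k z = 0
  · simp [h1]
  · field_simp

/-- **The quotient at every cusp**: `F (s • z) → χ~((0, 1) s⁻¹)` as `Im z → ∞`, for every
`s ∈ SL(2, ℤ)` (`k ≥ 3` even). -/
theorem ec77_ratio_tendsto (hk : 3 ≤ k) (hk2 : Even k)
    (hunit : ∀ γ : ↥Γ, ‖((χ γ : ℂˣ) : ℂ)‖ = 1)
    (hpar : ∀ γ : ↥Γ, ((γ : SL(2, ℤ)) : Matrix (Fin 2) (Fin 2) ℤ).trace ^ 2 = 4 → χ γ = 1)
    (s : SL(2, ℤ)) :
    Tendsto (fun z : ℍ => ec77_Echi k Γ χ (s • z) / ec77_Eone k (s • z)) atImInfty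
      (𝓝 (ec77_cchi Γ χ (![0, 1] ᵥ* (s⁻¹ : SL(2, ℤ)).1))) := by
  have h1 := ec77_Echi_slash_tendsto (k := k) (χ := χ) hk hk2 hunit hpar s
  have h2 : Tendsto ((ec77_Eone k) ∣[k] s) atImInfty (𝓝 2) := by
    rw [ec77_Eone_slash]
    exact ec77_Eone_tendsto hk hk2
  have h3 := h1.div h2 two_ne_zero
  rw [mul_div_cancel_left₀ _ (two_ne_zero' ℂ)] at h3
  refine h3.congr fun z => ?_
  have hd : (denom s z) ^ (-k) ≠ 0 := zpow_ne_zero _ (denom_ne_zero _ z)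
  simp only [Pi.div_apply, SL_slash_apply]
  rw [mul_div_mul_right _ _ hd]

/-- `G = F ^ p` tends to `1` at every cusp when `χ ^ p = 1`. -/
theorem ec77_ratio_pow_tendsto (hk : 3 ≤ k) (hk2 : Even k) {p : ℕ} (hp : p ≠ 0)
    (hχp : ∀ γ : ↥Γ, χ γ ^ p = 1)
    (hpar : ∀ γ : ↥Γ, ((γ : SL(2, ℤ)) : Matrix (Fin 2) (Fin 2) ℤ).trace ^ 2 = 4 → χ γ = 1)
    (s : SL(2, ℤ)) :
    Tendsto (fun z : ℍ => (ec77_Echi k Γ χ (s • z) / ec77_Eone k (s • z)) ^ p) atImInfty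
      (𝓝 1) := by
  have h := (ec77_ratio_tendsto hk hk2 (ec77_unit_of_pow hp hχp) hpar s).pow p
  rwa [ec77_cchi_pow hχp] at h

end Ratio

end Fermat.Agent.S42
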