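/-
S42 / Project 4, row M5a (helper77): `E_χ ^ p` as a Mathlib `ModularForm`.

For `Γ ≤ SL(2, ℤ)` of finite index, `χ : Γ →* ℂˣ` with `χ ^ p = 1` (`p ≠ 0`), trivial on the
elements of trace `± 2`, and `k ≥ 3`: `ec77_EchiPow` is the modular form `E_χ ^ p` of weight
`k * p` on `Γ` (trivial character).  `ec77_EonePow` is `E_1 ^ p` on `Γ`.
-/
import Mathlib
import Fermat.Agent.S42.EisChiTop77

set_option autoImplicit false

open Matrix UpperHalfPlane Filter Topology EisensteinSeries ModularForm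
open scoped MatrixGroups Manifold

namespace Fermat.Agent.S42

/-- The slash action of `SL(2, ℤ)` on a power. -/
theorem ec77_pow_slash (f : ℍ → ℂ) (k : ℤ) (p : ℕ) (s : SL(2, ℤ)) :
    (fun z => f z ^ p) ∣[k * (p : ℤ)] s = fun z => ((f ∣[k] s) z) ^ p := by
  ext z
  rw [SL_slash_apply, SL_slash_apply, mul_pow]
  congr 1
  rw [← zpow_natCast (denom s z ^ (-k)) p, ← _root_.zpow_mul, neg_mul]

theorem ec77_isBoundedAtImInfty_pow {f : ℍ → ℂ} (hf : IsBoundedAtImInfty f) (p : ℕ) :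
    IsBoundedAtImInfty (fun z => f z ^ p) := by
  have h := Asymptotics.IsBigO.pow hf p
  simp only [Pi.one_apply, one_pow] at h
  exact h

section MF

variable (k : ℤ) (Γ : Subgroup SL(2, ℤ)) [Γ.FiniteIndex] (χ : ↥Γ →* ℂˣ) (p : ℕ)

/-- `E_χ ^ p` as a modular form of weight `k * p` on `Γ`. -/
noncomputable def ec77_EchiPow (hk : 3 ≤ k) (hp : p ≠ 0) (hχp : ∀ γ : ↥Γ, χ γ ^ p = 1)
    (hpar : ∀ γ : ↥Γ, ((γ : SL(2, ℤ)) : Matrix (Fin 2) (Fin 2) ℤ).trace ^ 2 = 4 → χ γ = 1) :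
    ModularForm (Γ : Subgroup (GL (Fin 2) ℝ)) (k * (p : ℤ)) where
  toFun z := ec77_Echi k Γ χ z ^ p
  slash_action_eq' A hA := by
    obtain ⟨g, hg, rfl⟩ := hA
    have h1 := ec77_pow_slash (ec77_Echi k Γ χ) k p g
    have h2 := ec77_Echi_slash (k := k) hpar ⟨g, hg⟩
    change (fun z => ec77_Echi k Γ χ z ^ p) ∣[k * (p : ℤ)] g = _
    rw [h1]
    ext z
    have h3 : (ec77_Echi k Γ χ ∣[k] g) z = (((χ ⟨g, hg⟩ : ℂˣ) : ℂ)⁻¹) * ec77_Echi k Γ χ z := by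
      have := congrFun h2 z
      simpa using this
    rw [h3, mul_pow, inv_pow, ← Units.val_pow_eq_pow_val, hχp, Units.val_one, inv_one, one_mul]
  holo' := (ec77_Echi_mdifferentiable hk (ec77_unit_of_pow hp hχp)).pow p
  bdd_at_cusps' {c} hc := by
    rw [Subgroup.IsArithmetic.isCusp_iff_isCusp_SL2Z] at hc
    rw [OnePoint.isBoundedAt_iff_forall_SL2Z hc]
    intro γ _
    rw [ec77_pow_slash]
    exact ec77_isBoundedAtImInfty_pow
      (ec77_Echi_slash_isBoundedAtImInfty hk (ec77_unit_of_pow hp hχp) γ) p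

theorem ec77_EchiPow_apply (hk : 3 ≤ k) (hp : p ≠ 0) (hχp : ∀ γ : ↥Γ, χ γ ^ p = 1)
    (hpar : ∀ γ : ↥Γ, ((γ : SL(2, ℤ)) : Matrix (Fin 2) (Fin 2) ℤ).trace ^ 2 = 4 → χ γ = 1)
    (z : ℍ) : ec77_EchiPow k Γ χ p hk hp hχp hpar z = ec77_Echi k Γ χ z ^ p := rfl

/-- `E_1 ^ p` as a modular form of weight `k * p` on `Γ`. -/
noncomputable def ec77_EonePow (hk : 3 ≤ k) :
    ModularForm (Γ : Subgroup (GL (Fin 2) ℝ)) (k * (p : ℤ)) where
  toFun z := ec77_Eone k z ^ p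
  slash_action_eq' A hA := by
    obtain ⟨g, hg, rfl⟩ := hA
    change (fun z => ec77_Eone k z ^ p) ∣[k * (p : ℤ)] g = _
    rw [ec77_pow_slash, ec77_Eone_slash]
  holo' := (ec77_Eone_mdifferentiable hk).pow p
  bdd_at_cusps' {c} hc := by
    rw [Subgroup.IsArithmetic.isCusp_iff_isCusp_SL2Z] at hc
    rw [OnePoint.isBoundedAt_iff_forall_SL2Z hc]
    intro γ _
    rw [ec77_pow_slash]
    exact ec77_isBoundedAtImInfty_pow
      (ec77_E_slash_isBoundedAtImInfty hk (fun _ => by simp) γ) p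

theorem ec77_EonePow_apply (hk : 3 ≤ k) (z : ℍ) :
    ec77_EonePow k Γ p hk z = ec77_Eone k z ^ p := rfl

end MF

/-- `E_1 ^ p` as a LEVEL ONE modular form of weight `k * p`. -/
noncomputable def ec77_EonePowSL (k : ℤ) (p : ℕ) (hk : 3 ≤ k) :
    ModularForm 𝒮ℒ (k * (p : ℤ)) where
  toFun z := ec77_Eone k z ^ p
  slash_action_eq' A hA := by
    obtain ⟨g, rfl⟩ := hA
    change (fun z => ec77_Eone k z ^ p) ∣[k * (p : ℤ)] g = _
    rw [ec77_pow_slash, ec77_Eone_slash]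
  holo' := (ec77_Eone_mdifferentiable hk).pow p
  bdd_at_cusps' {c} hc := by
    rw [Subgroup.IsArithmetic.isCusp_iff_isCusp_SL2Z] at hc
    rw [OnePoint.isBoundedAt_iff_forall_SL2Z hc]
    intro γ _
    rw [ec77_pow_slash]
    exact ec77_isBoundedAtImInfty_pow
      (ec77_E_slash_isBoundedAtImInfty hk (fun _ => by simp) γ) p

theorem ec77_EonePowSL_apply (k : ℤ) (p : ℕ) (hk : 3 ≤ k) (z : ℍ) :
    ec77_EonePowSL k p hk z = ec77_Eone k z ^ p := rfl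

theorem ec77_EonePowSL_ne_zero (k : ℤ) (p : ℕ) (hk : 3 ≤ k) (hk2 : Even k) :
    ec77_EonePowSL k p hk ≠ 0 := by
  intro h0
  obtain ⟨z, hz⟩ := (ec77_Eone_eventually_ne_zero hk hk2).exists
  have h1 : ec77_EonePowSL k p hk z = 0 := by rw [h0]; rfl
  rw [ec77_EonePowSL_apply] at h1
  exact hz (eq_zero_of_pow_eq_zero h1)

end Fermat.Agent.S42
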