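/-
S42 / Project 4, row M5a (helper77): characters `Γ →* ℂˣ` from additive parabolic homomorphisms.

`ec77_charOfHom ζ φ γ = ζ ^ φ γ` for `φ : Additive Γ →+ ℤ` and a unit `ζ`.  If `φ` is parabolic
(Prelude `IsParabolicHom`) the character is trivial on the elements of trace `± 2`; if
`ζ ^ p = 1` it has exponent `p`; it is multiplicative in `φ`; if `ζ` is a primitive `p`-th
root of unity it is trivial exactly when `p ∣ φ`.
-/
import Mathlib
import Fermat.Prelude.Def_ModularCurve_PeriodMap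

set_option autoImplicit false

open scoped MatrixGroups

namespace Fermat.Agent.S42

open ModularCurve.Period

variable {Γ : Subgroup SL(2, ℤ)}

/-- The character `γ ↦ ζ ^ φ γ`. -/
def ec77_charOfHom (ζ : ℂˣ) (φ : Additive ↥Γ →+ ℤ) : ↥Γ →* ℂˣ where
  toFun γ := ζ ^ φ (Additive.ofMul γ)
  map_one' := by
    have : φ (Additive.ofMul (1 : ↥Γ)) = 0 := φ.map_zero
    rw [this, zpow_zero]
  map_mul' a b := by
    have : φ (Additive.ofMul (a * b)) = φ (Additive.ofMul a) + φ (Additive.ofMul b) :=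
      φ.map_add _ _
    rw [this, zpow_add]

theorem ec77_charOfHom_apply (ζ : ℂˣ) (φ : Additive ↥Γ →+ ℤ) (γ : ↥Γ) :
    ec77_charOfHom ζ φ γ = ζ ^ φ (Additive.ofMul γ) := rfl

/-- A parabolic homomorphism gives a character trivial on the elements of trace `± 2`. -/
theorem ec77_charOfHom_par (ζ : ℂˣ) {φ : Additive ↥Γ →+ ℤ} (hφ : IsParabolicHom Γ φ)
    (γ : ↥Γ) (h : ((γ : SL(2, ℤ)) : Matrix (Fin 2) (Fin 2) ℤ).trace ^ 2 = 4) :
    ec77_charOfHom ζ φ γ = 1 := by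
  rw [ec77_charOfHom_apply, hφ γ h, zpow_zero]

theorem ec77_charOfHom_pow {ζ : ℂˣ} {p : ℕ} (hζ : ζ ^ p = 1) (φ : Additive ↥Γ →+ ℤ) (γ : ↥Γ) :
    ec77_charOfHom ζ φ γ ^ p = 1 := by
  rw [ec77_charOfHom_apply, ← zpow_natCast, ← zpow_mul, mul_comm, zpow_mul, zpow_natCast, hζ,
    one_zpow]

theorem ec77_charOfHom_add (ζ : ℂˣ) (φ ψ : Additive ↥Γ →+ ℤ) :
    ec77_charOfHom ζ (φ + ψ) = ec77_charOfHom ζ φ * ec77_charOfHom ζ ψ := by
  ext γ
  simp only [ec77_charOfHom_apply, MonoidHom.mul_apply, AddMonoidHom.add_apply, zpow_add,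
    Units.val_mul]

theorem ec77_charOfHom_zero (ζ : ℂˣ) : ec77_charOfHom ζ (0 : Additive ↥Γ →+ ℤ) = 1 := by
  ext γ
  simp [ec77_charOfHom_apply]

theorem ec77_charOfHom_neg (ζ : ℂˣ) (φ : Additive ↥Γ →+ ℤ) :
    ec77_charOfHom ζ (-φ) = (ec77_charOfHom ζ φ)⁻¹ := by
  ext γ
  simp only [ec77_charOfHom_apply, MonoidHom.inv_apply, AddMonoidHom.neg_apply, zpow_neg]

/-- Homomorphisms congruent modulo `p` give the same character when `ζ ^ p = 1`. -/
theorem ec77_charOfHom_congr {ζ : ℂˣ} {p : ℕ} (hζ : ζ ^ p = 1) {φ ψ : Additive ↥Γ →+ ℤ}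
    (h : ∀ γ : ↥Γ, (p : ℤ) ∣ φ (Additive.ofMul γ) - ψ (Additive.ofMul γ)) :
    ec77_charOfHom ζ φ = ec77_charOfHom ζ ψ := by
  ext γ
  obtain ⟨c, hc⟩ := h γ
  have h1 : φ (Additive.ofMul γ) = ψ (Additive.ofMul γ) + (p : ℤ) * c := by linarith
  simp only [ec77_charOfHom_apply]
  rw [h1, zpow_add, zpow_mul, zpow_natCast, hζ, one_zpow, mul_one]

/-- For a primitive `p`-th root of unity the character is trivial iff `p ∣ φ`. -/
theorem ec77_charOfHom_eq_one_iff {ζ : ℂˣ} {p : ℕ} (hζ : IsPrimitiveRoot ζ p)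
    (φ : Additive ↥Γ →+ ℤ) :
    ec77_charOfHom ζ φ = 1 ↔ ∀ γ : ↥Γ, (p : ℤ) ∣ φ (Additive.ofMul γ) := by
  constructor
  · intro h γ
    have h1 : ζ ^ φ (Additive.ofMul γ) = 1 := by
      have := congrArg (fun χ : ↥Γ →* ℂˣ => χ γ) h
      simpa [ec77_charOfHom_apply] using this
    exact (hζ.zpow_eq_one_iff_dvd _).mp h1
  · intro h
    ext γ
    simp only [ec77_charOfHom_apply, MonoidHom.one_apply]
    rw [(hζ.zpow_eq_one_iff_dvd _).mpr (h γ)]

end Fermat.Agent.S42
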