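/-
S42 / Project 4, row M5a (helper77): the twisted Eisenstein quotient inside `mer95_MER`.

`ec77_Fchi = E_χ / E_1 ∈ mer95_MER` (helper95's field of meromorphic functions on `ℍ`, left
action `(g • f) τ = f (g⁻¹ • τ)`):

* `ec77_Fchi_smul` : `γ • F_χ = χ(γ) • F_χ` for `γ ∈ Γ`;
* `ec77_Fchi_ne_zero`;
* `ec77_Gchi = F_χ ^ p` is `Γ`-invariant when `χ ^ p = 1` (`ec77_Gchi_smul`).
-/
import Mathlib
import Fermat.Agent.S42.Mer95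
import Fermat.Agent.S42.EisChiTop77
import Fermat.Agent.S42.EisChiChar77

set_option autoImplicit false

open Matrix UpperHalfPlane Filter Topology EisensteinSeries ModularForm
open scoped MatrixGroups Manifold

namespace Fermat.Agent.S42

section Mer

variable (k : ℤ) (Γ : Subgroup SL(2, ℤ)) (χ : ↥Γ →* ℂˣ)

/-- `E_χ` as an element of `mer95_O`. -/
noncomputable def ec77_EchiO (hk : 3 ≤ k) (hunit : ∀ γ : ↥Γ, ‖((χ γ : ℂˣ) : ℂ)‖ = 1) : mer95_O :=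
  mer95_mk (ec77_Echi k Γ χ) (ec77_Echi_mdifferentiable hk hunit)

/-- `E_1` as an element of `mer95_O`. -/
noncomputable def ec77_EoneO (hk : 3 ≤ k) : mer95_O :=
  mer95_mk (ec77_Eone k) (ec77_Eone_mdifferentiable hk)

theorem ec77_EchiO_apply (hk : 3 ≤ k) (hunit : ∀ γ : ↥Γ, ‖((χ γ : ℂˣ) : ℂ)‖ = 1) (τ : ℍ) :
    (ec77_EchiO k Γ χ hk hunit).1 τ = ec77_Echi k Γ χ τ := rfl

theorem ec77_EoneO_apply (hk : 3 ≤ k) (τ : ℍ) : (ec77_EoneO k hk).1 τ = ec77_Eone k τ := rfl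

theorem ec77_EoneO_ne_zero (hk : 3 ≤ k) (hk2 : Even k) : ec77_EoneO k hk ≠ 0 := by
  intro h0
  apply ec77_Eone_ne_zero hk hk2
  funext τ
  have := congrArg (fun f : mer95_O => f.1 τ) h0
  exact this

variable {k Γ χ}

/-- `E_χ ≠ 0` (its limit at `i∞` is `2 χ~(0, 1) ≠ 0`). -/
theorem ec77_Echi_ne_zero (hk : 3 ≤ k) (hk2 : Even k)
    (hunit : ∀ γ : ↥Γ, ‖((χ γ : ℂˣ) : ℂ)‖ = 1)
    (hpar : ∀ γ : ↥Γ, ((γ : SL(2, ℤ)) : Matrix (Fin 2) (Fin 2) ℤ).trace ^ 2 = 4 → χ γ = 1) :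
    ec77_Echi k Γ χ ≠ 0 := by
  intro h0
  have h := ec77_Echi_slash_tendsto (k := k) (χ := χ) hk hk2 hunit hpar 1
  rw [h0] at h
  have h1 : ((0 : ℍ → ℂ) ∣[k] (1 : SL(2, ℤ))) = 0 := by
    ext z
    rw [SL_slash_apply]
    simp
  rw [h1] at h
  have h2 : Tendsto (0 : ℍ → ℂ) atImInfty (𝓝 0) := tendsto_const_nhds
  have h3 := tendsto_nhds_unique h h2
  have h4 : ‖ec77_cchi Γ χ (![0, 1] ᵥ* ((1 : SL(2, ℤ))⁻¹ : SL(2, ℤ)).1)‖ = 1 :=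
    ec77_cchi_norm hunit _
  have h5 : ec77_cchi Γ χ (![0, 1] ᵥ* ((1 : SL(2, ℤ))⁻¹ : SL(2, ℤ)).1) = 0 := by
    have := mul_eq_zero.mp h3
    rcases this with h | h
    · exact absurd h two_ne_zero
    · exact h
  rw [h5, norm_zero] at h4
  exact zero_ne_one h4

theorem ec77_EchiO_ne_zero (hk : 3 ≤ k) (hk2 : Even k)
    (hunit : ∀ γ : ↥Γ, ‖((χ γ : ℂˣ) : ℂ)‖ = 1)
    (hpar : ∀ γ : ↥Γ, ((γ : SL(2, ℤ)) : Matrix (Fin 2) (Fin 2) ℤ).trace ^ 2 = 4 → χ γ = 1) :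
    ec77_EchiO k Γ χ hk hunit ≠ 0 := by
  intro h0
  apply ec77_Echi_ne_zero (k := k) (χ := χ) hk hk2 hunit hpar
  funext τ
  have := congrArg (fun f : mer95_O => f.1 τ) h0
  exact this

variable (k Γ χ)

/-- `F_χ = E_χ / E_1` in `mer95_MER`. -/
noncomputable def ec77_Fchi (hk : 3 ≤ k) (hunit : ∀ γ : ↥Γ, ‖((χ γ : ℂˣ) : ℂ)‖ = 1) : mer95_MER :=
  algebraMap mer95_O mer95_MER (ec77_EchiO k Γ χ hk hunit) /
    algebraMap mer95_O mer95_MER (ec77_EoneO k hk)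

variable {k Γ χ}

theorem ec77_Fchi_ne_zero (hk : 3 ≤ k) (hk2 : Even k)
    (hunit : ∀ γ : ↥Γ, ‖((χ γ : ℂˣ) : ℂ)‖ = 1)
    (hpar : ∀ γ : ↥Γ, ((γ : SL(2, ℤ)) : Matrix (Fin 2) (Fin 2) ℤ).trace ^ 2 = 4 → χ γ = 1) :
    ec77_Fchi k Γ χ hk hunit ≠ 0 :=
  div_ne_zero (mer95_algebraMap_ne_zero (ec77_EchiO_ne_zero hk hk2 hunit hpar))
    (mer95_algebraMap_ne_zero (ec77_EoneO_ne_zero k hk hk2))

/-- The key identity in `mer95_O`: `(γ • E_χ) * E_1 = χ(γ) * E_χ * (γ • E_1)`. -/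
theorem ec77_EchiO_smul_mul (hk : 3 ≤ k) (hunit : ∀ γ : ↥Γ, ‖((χ γ : ℂˣ) : ℂ)‖ = 1)
    (hpar : ∀ γ : ↥Γ, ((γ : SL(2, ℤ)) : Matrix (Fin 2) (Fin 2) ℤ).trace ^ 2 = 4 → χ γ = 1)
    (γ : ↥Γ) :
    ((γ : SL(2, ℤ)) • ec77_EchiO k Γ χ hk hunit) * ec77_EoneO k hk =
      algebraMap ℂ mer95_O ((χ γ : ℂˣ) : ℂ) * ec77_EchiO k Γ χ hk hunit *
        ((γ : SL(2, ℤ)) • ec77_EoneO k hk) := by
  apply Subtype.ext
  funext τ
  show ((γ : SL(2, ℤ)) • ec77_EchiO k Γ χ hk hunit).1 τ * (ec77_EoneO k hk).1 τ =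
    ((χ γ : ℂˣ) : ℂ) * (ec77_EchiO k Γ χ hk hunit).1 τ *
      ((γ : SL(2, ℤ)) • ec77_EoneO k hk).1 τ
  rw [mer95_smul_apply_SL, mer95_smul_apply_SL, ec77_EchiO_apply, ec77_EoneO_apply,
    ec77_EchiO_apply, ec77_EoneO_apply]
  have h1 := ec77_Echi_smul (k := k) hpar γ⁻¹ τ
  have h2 := ec77_Eone_smul k ((γ⁻¹ : ↥Γ) : SL(2, ℤ)) τ
  have hinv : ((γ⁻¹ : ↥Γ) : SL(2, ℤ)) = ((γ : SL(2, ℤ)))⁻¹ := rfl
  rw [hinv] at h1 h2
  rw [h1, h2, map_inv, Units.val_inv_eq_inv_val, inv_inv]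
  ring

/-- **Transformation law in `mer95_MER`**: `γ • F_χ = χ(γ) • F_χ` for `γ ∈ Γ`. -/
theorem ec77_Fchi_smul (hk : 3 ≤ k) (hk2 : Even k)
    (hunit : ∀ γ : ↥Γ, ‖((χ γ : ℂˣ) : ℂ)‖ = 1)
    (hpar : ∀ γ : ↥Γ, ((γ : SL(2, ℤ)) : Matrix (Fin 2) (Fin 2) ℤ).trace ^ 2 = 4 → χ γ = 1)
    (γ : ↥Γ) :
    (γ : SL(2, ℤ)) • ec77_Fchi k Γ χ hk hunit =
      algebraMap ℂ mer95_MER ((χ γ : ℂˣ) : ℂ) * ec77_Fchi k Γ χ hk hunit := by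
  have hb : algebraMap mer95_O mer95_MER (ec77_EoneO k hk) ≠ 0 :=
    mer95_algebraMap_ne_zero (ec77_EoneO_ne_zero k hk hk2)
  have hgb : (γ : SL(2, ℤ)) • algebraMap mer95_O mer95_MER (ec77_EoneO k hk) ≠ 0 := by
    intro h0
    apply hb
    have := congrArg (fun x => ((γ : SL(2, ℤ)))⁻¹ • x) h0
    simpa using this
  have key := congrArg (algebraMap mer95_O mer95_MER) (ec77_EchiO_smul_mul hk hunit hpar γ)
  rw [map_mul, map_mul, map_mul, ← mer95_smul_algebraMap_SL, ← mer95_smul_algebraMap_SL,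
    ← IsScalarTower.algebraMap_apply ℂ mer95_O mer95_MER] at key
  unfold ec77_Fchi
  rw [smul_div₀', div_eq_iff hgb]
  have h2 : (γ : SL(2, ℤ)) • algebraMap mer95_O mer95_MER (ec77_EchiO k Γ χ hk hunit) =
      (algebraMap ℂ mer95_MER ((χ γ : ℂˣ) : ℂ) *
        algebraMap mer95_O mer95_MER (ec77_EchiO k Γ χ hk hunit) *
        ((γ : SL(2, ℤ)) • algebraMap mer95_O mer95_MER (ec77_EoneO k hk))) /
        algebraMap mer95_O mer95_MER (ec77_EoneO k hk) := by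
    rw [eq_div_iff hb]
    exact key
  rw [h2]
  ring

/-- `G_χ = F_χ ^ p`. -/
noncomputable def ec77_Gchi (k : ℤ) (Γ : Subgroup SL(2, ℤ)) (χ : ↥Γ →* ℂˣ) (p : ℕ)
    (hk : 3 ≤ k) (hunit : ∀ γ : ↥Γ, ‖((χ γ : ℂˣ) : ℂ)‖ = 1) : mer95_MER :=
  ec77_Fchi k Γ χ hk hunit ^ p

/-- `G_χ` is `Γ`-invariant when `χ ^ p = 1`. -/
theorem ec77_Gchi_smul (hk : 3 ≤ k) (hk2 : Even k) {p : ℕ} (hp : p ≠ 0)
    (hχp : ∀ γ : ↥Γ, χ γ ^ p = 1)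
    (hpar : ∀ γ : ↥Γ, ((γ : SL(2, ℤ)) : Matrix (Fin 2) (Fin 2) ℤ).trace ^ 2 = 4 → χ γ = 1)
    (γ : ↥Γ) :
    (γ : SL(2, ℤ)) • ec77_Gchi k Γ χ p hk (ec77_unit_of_pow hp hχp) =
      ec77_Gchi k Γ χ p hk (ec77_unit_of_pow hp hχp) := by
  unfold ec77_Gchi
  rw [smul_pow', ec77_Fchi_smul hk hk2 _ hpar γ, mul_pow, ← map_pow,
    ← Units.val_pow_eq_pow_val, hχp γ, Units.val_one, map_one, one_mul]

theorem ec77_Gchi_ne_zero (hk : 3 ≤ k) (hk2 : Even k) {p : ℕ}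
    (hunit : ∀ γ : ↥Γ, ‖((χ γ : ℂˣ) : ℂ)‖ = 1)
    (hpar : ∀ γ : ↥Γ, ((γ : SL(2, ℤ)) : Matrix (Fin 2) (Fin 2) ℤ).trace ^ 2 = 4 → χ γ = 1) :
    ec77_Gchi k Γ χ p hk hunit ≠ 0 :=
  pow_ne_zero p (ec77_Fchi_ne_zero hk hk2 hunit hpar)

/-- The order of `G_χ` at every point of `ℍ` is divisible by `p`. -/
theorem ec77_Gchi_ord (hk : 3 ≤ k) {p : ℕ} (hunit : ∀ γ : ↥Γ, ‖((χ γ : ℂˣ) : ℂ)‖ = 1) (τ : ℍ) :
    mer95_ord τ (ec77_Gchi k Γ χ p hk hunit) = p * mer95_ord τ (ec77_Fchi k Γ χ hk hunit) :=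
  mer95_ord_pow τ _ p

end Mer

section Limits

variable {k : ℤ} {Γ : Subgroup SL(2, ℤ)} {χ : ↥Γ →* ℂˣ}

/-- `G_χ` as a quotient of two elements of `mer95_O`. -/
theorem ec77_Gchi_eq_div (hk : 3 ≤ k) (p : ℕ) (hunit : ∀ γ : ↥Γ, ‖((χ γ : ℂˣ) : ℂ)‖ = 1) :
    ec77_Gchi k Γ χ p hk hunit =
      algebraMap mer95_O mer95_MER (ec77_EchiO k Γ χ hk hunit ^ p) /
        algebraMap mer95_O mer95_MER (ec77_EoneO k hk ^ p) := by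
  unfold ec77_Gchi ec77_Fchi
  rw [div_pow, map_pow, map_pow]

/-- **The cusp behaviour of `G_χ`, in terms of its numerator and denominator in `mer95_O`**:
for every `s ∈ SL(2, ℤ)` the quotient of the values at `s • z` tends to `1` as `Im z → ∞`. -/
theorem ec77_Gchi_tendsto (hk : 3 ≤ k) (hk2 : Even k) {p : ℕ} (hp : p ≠ 0)
    (hχp : ∀ γ : ↥Γ, χ γ ^ p = 1)
    (hpar : ∀ γ : ↥Γ, ((γ : SL(2, ℤ)) : Matrix (Fin 2) (Fin 2) ℤ).trace ^ 2 = 4 → χ γ = 1)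
    (s : SL(2, ℤ)) :
    Tendsto (fun z : ℍ => (ec77_EchiO k Γ χ hk (ec77_unit_of_pow hp hχp) ^ p).1 (s • z) /
      (ec77_EoneO k hk ^ p).1 (s • z)) atImInfty (𝓝 1) := by
  refine (ec77_ratio_pow_tendsto hk hk2 hp hχp hpar s).congr fun z => ?_
  rw [div_pow]
  rfl

/-- The denominator `E_1 ^ p` of `G_χ` does not vanish at `s • z` for `Im z` large. -/
theorem ec77_EoneO_pow_eventually_ne_zero (hk : 3 ≤ k) (hk2 : Even k) (p : ℕ) (s : SL(2, ℤ)) :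
    ∀ᶠ z in atImInfty, (ec77_EoneO k hk ^ p).1 (s • z) ≠ 0 := by
  have h2 : Tendsto ((ec77_Eone k) ∣[k] s) atImInfty (𝓝 2) := by
    rw [ec77_Eone_slash]
    exact ec77_Eone_tendsto hk hk2
  filter_upwards [h2.eventually_ne two_ne_zero] with z hz
  have h3 : ec77_Eone k (s • z) ≠ 0 := by
    intro h0
    apply hz
    rw [SL_slash_apply, h0, zero_mul]
  exact pow_ne_zero p h3

end Limits

section FinOrder

variable {k : ℤ} {Γ : Subgroup SL(2, ℤ)}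

/-- A character `ζ ^ φ` coming from an INTEGRAL homomorphism is trivial on elements of finite
order. -/
theorem ec77_charOfHom_finOrder (ζ : ℂˣ) (φ : Additive ↥Γ →+ ℤ) (δ : ↥Γ)
    (hδ : IsOfFinOrder δ) : ec77_charOfHom ζ φ δ = 1 := by
  obtain ⟨n, hn, hδn⟩ := isOfFinOrder_iff_pow_eq_one.mp hδ
  have h1 : φ (Additive.ofMul (δ ^ n)) = n • φ (Additive.ofMul δ) := by
    rw [ofMul_pow, map_nsmul]
  rw [hδn] at h1
  have h0 : φ (Additive.ofMul (1 : ↥Γ)) = 0 := φ.map_zero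
  rw [h0] at h1
  have h2 : φ (Additive.ofMul δ) = 0 := by
    rcases smul_eq_zero.mp h1.symm with h | h
    · exact absurd h hn.ne'
    · exact h
  rw [ec77_charOfHom_apply, h2, zpow_zero]

/-- For `χ = ζ ^ φ` with `φ` integral: elements of finite order of `Γ` fix `F_χ`. -/
theorem ec77_Fchi_smul_finOrder (hk : 3 ≤ k) (hk2 : Even k) (ζ : ℂˣ) (φ : Additive ↥Γ →+ ℤ)
    (hunit : ∀ γ : ↥Γ, ‖((ec77_charOfHom ζ φ γ : ℂˣ) : ℂ)‖ = 1)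
    (hφ : ModularCurve.Period.IsParabolicHom Γ φ) (δ : ↥Γ) (hδ : IsOfFinOrder δ) :
    (δ : SL(2, ℤ)) • ec77_Fchi k Γ (ec77_charOfHom ζ φ) hk hunit =
      ec77_Fchi k Γ (ec77_charOfHom ζ φ) hk hunit := by
  rw [ec77_Fchi_smul hk hk2 hunit (ec77_charOfHom_par ζ hφ) δ, ec77_charOfHom_finOrder ζ φ δ hδ,
    Units.val_one, map_one, one_mul]

end FinOrder

end Fermat.Agent.S42
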