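/-
S42 / M5b (helper96): ratios of level-one modular forms are rational functions of `j`.

* `lr96_j`                 : Klein's `j = E₄³ / Δ` as a function on `ℍ`;
* `lr96_eq_delta_pow_mul`  : every level-one form of weight `12 m` is `Δ ^ m * P(j)`,
  `natDegree P ≤ m`;
* `lr96_ratio`             : for level-one forms `A`, `B ≠ 0` of the same weight there are
  polynomials `P`, `Q ≠ 0` with `A * Q(j) = B * P(j)`.
-/
import Mathlib

set_option autoImplicit false

open UpperHalfPlane ModularForm ModularFormClass MatrixGroups EisensteinSeries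

namespace Fermat.Agent.S42

noncomputable section

/-- Klein's `j`-function `E₄³ / Δ` on the upper half plane. -/
def lr96_j (z : ℍ) : ℂ := E₄ z ^ 3 / ModularForm.discriminant z

theorem lr96_E4_cube (z : ℍ) : E₄ z ^ 3 = ModularForm.discriminant z * lr96_j z := by
  rw [lr96_j, mul_div_cancel₀ _ (discriminant_ne_zero z)]

theorem lr96_pow_apply {Γ : Subgroup (GL (Fin 2) ℝ)} [Γ.HasDetPlusMinusOne] {k : ℤ}
    (f : ModularForm Γ k) (n : ℕ) (z : ℍ) : (f.pow n) z = f z ^ n := by
  have h := congrFun (ModularForm.coe_pow f n) z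
  rwa [Pi.pow_apply] at h

/-- Every level-one modular form of weight `12 m` is `Δ ^ m * P(j)` with `natDegree P ≤ m`. -/
theorem lr96_eq_delta_pow_mul (m : ℕ) : ∀ (k : ℤ) (_ : k = 12 * m) (F : ModularForm 𝒮ℒ k),
    ∃ P : Polynomial ℂ, P.natDegree ≤ m ∧
      ∀ z : ℍ, F z = ModularForm.discriminant z ^ m * P.eval (lr96_j z) := by
  induction m with
  | zero =>
    intro k hk F
    have hk0 : k = 0 := by simpa using hk
    subst hk0
    obtain ⟨c, hc⟩ := ModularFormClass.levelOne_weight_zero_const F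
    exact ⟨Polynomial.C c, by simp, fun z => by simp [hc]⟩
  | succ m ih =>
    intro k hk F
    have hw : ((3 * (m + 1) : ℕ) : ℤ) * 4 = k := by rw [hk]; push_cast; ring
    let g : ModularForm 𝒮ℒ k := ModularForm.mcast hw (E₄.pow (3 * (m + 1)))
    have hgz : ∀ z : ℍ, g z = E₄ z ^ (3 * (m + 1)) := fun z => by
      show (E₄.pow (3 * (m + 1))) z = _
      rw [lr96_pow_apply]
    have hg0 : (qExpansion 1 g).coeff 0 = 1 := by
      have h1 : qExpansion 1 g = qExpansion 1 E₄ ^ (3 * (m + 1)) := by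
        rw [← ModularForm.qExpansion_pow one_pos one_mem_strictPeriods_SL]
        rfl
      rw [h1, PowerSeries.coeff_zero_eq_constantCoeff, map_pow,
        ← PowerSeries.coeff_zero_eq_constantCoeff, E_qExpansion_coeff_zero _ ⟨2, rfl⟩, one_pow]
    obtain ⟨f', hf'⟩ := ModularForm.sub_smul_isCuspForm F g hg0
    have hf'z : ∀ z : ℍ, f' z = F z - (qExpansion 1 F).coeff 0 * g z := fun z => by
      have := congrArg (fun h : ModularForm 𝒮ℒ k => h z) hf'
      simpa using this
    obtain ⟨P', hP', hP'z⟩ := ih (k - 12) (by rw [hk]; push_cast; ring)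
      (CuspForm.discriminantEquiv f')
    refine ⟨Polynomial.C ((qExpansion 1 F).coeff 0) * Polynomial.X ^ (m + 1) + P', ?_, fun z => ?_⟩
    · refine (Polynomial.natDegree_add_le _ _).trans (max_le ?_ (hP'.trans (Nat.le_succ m)))
      exact (Polynomial.natDegree_C_mul_le _ _).trans (Polynomial.natDegree_X_pow_le _)
    · have h1 := ModularForm.discriminant_mul_discriminantEquiv_apply f' z
      rw [hP'z z, hf'z z, hgz z] at h1
      have h2 : E₄ z ^ (3 * (m + 1)) = ModularForm.discriminant z ^ (m + 1) * lr96_j z ^ (m + 1) := by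
        rw [pow_mul, lr96_E4_cube, mul_pow]
      rw [h2] at h1
      simp only [Polynomial.eval_add, Polynomial.eval_mul, Polynomial.eval_C, Polynomial.eval_pow,
        Polynomial.eval_X]
      linear_combination -h1

/-- **Ratios of level-one forms are rational functions of `j`.** -/
theorem lr96_ratio (k : ℤ) (A B : ModularForm 𝒮ℒ k) (hB : B ≠ 0) :
    ∃ P Q : Polynomial ℂ, Q ≠ 0 ∧ ∀ z : ℍ, A z * Q.eval (lr96_j z) = B z * P.eval (lr96_j z) := by
  have hk0 : 0 ≤ k := by
    by_contra h
    apply hB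
    ext z
    simpa using congrFun (ModularFormClass.levelOne_neg_weight_eq_zero (not_le.mp h) B) z
  obtain ⟨m, rfl⟩ := Int.eq_ofNat_of_zero_le hk0
  let F₁ : ModularForm 𝒮ℒ (12 * (m : ℤ)) :=
    ModularForm.mcast (by push_cast; ring) (A.mul (B.pow 11))
  let F₂ : ModularForm 𝒮ℒ (12 * (m : ℤ)) := ModularForm.mcast (by push_cast; ring) (B.pow 12)
  have hF₁ : ∀ z : ℍ, F₁ z = A z * B z ^ 11 := fun z => by
    show A z * (B.pow 11) z = _
    rw [lr96_pow_apply]
  have hF₂ : ∀ z : ℍ, F₂ z = B z ^ 12 := fun z => by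
    show (B.pow 12) z = _
    rw [lr96_pow_apply]
  obtain ⟨P, -, hP⟩ := lr96_eq_delta_pow_mul m _ rfl F₁
  obtain ⟨Q, -, hQ⟩ := lr96_eq_delta_pow_mul m _ rfl F₂
  refine ⟨P, Q, ?_, fun z => ?_⟩
  · rintro rfl
    apply hB
    ext z
    have := hQ z
    rw [hF₂] at this
    simpa using this
  · have h1 := hP z
    have h2 := hQ z
    rw [hF₁] at h1
    rw [hF₂] at h2
    have hΔ : ModularForm.discriminant z ^ m ≠ 0 := pow_ne_zero _ (discriminant_ne_zero z)
    apply mul_left_cancel₀ hΔ
    linear_combination (A z) * (-h2) + (B z) * h1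

end

end Fermat.Agent.S42
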