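/-
S42 / M5b (helper96): algebraicity over `ℂ(j)` of quotients `f / g`, `f` modular on a finite-index
subgroup `Γ` of `SL(2, ℤ)`, `g` of level one and of the same weight.

* `na96_lagrange`, `na96_isIntegral`, `na96_isAlgebraic_of_le` : Lagrange interpolation over a
  subfield (pure algebra);
* `na96_ratio_den`   : ratio lemma for level-one forms with a denominator depending only on `B`;
* `na96_norm_ratio`  : (B2) the norm `∏ i, (t g - f∣(r i)⁻¹)` over a coset family is `g ^ μ` times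
  a rational function of `j`;
* `na96_coset_poly`, `na96_isIntegral_translate`, `na96_isIntegral_quot`, `na96_isAlgebraic_quot` :
  (B4, abstract form) for any field `M` and injective ring hom `φ` from a subalgebra `O` of
  functions on the upper half plane: `φ f / φ g` is integral over the subfield generated by the
  constants and `φ j`, with the translates as conjugates.
-/
import Mathlib
import Fermat.Agent.S42.LevelOneRatio96

set_option autoImplicit false

open UpperHalfPlane ModularForm ModularFormClass MatrixGroups EisensteinSeries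
open Matrix.SpecialLinearGroup

namespace Fermat.Agent.S42

open Polynomial

noncomputable section

/-- **Lagrange interpolation**: if the monic polynomial `∏ i, (X - C (y i))` takes values in a
subfield `K` at infinitely many points of `K`, then its coefficients lie in `K`. -/
theorem na96_lagrange {M : Type*} [Field M] (K : Subfield M) {ι : Type*} [Fintype ι]
    (y : ι → M) (t : ℕ → M) (ht : Function.Injective t) (htK : ∀ n, t n ∈ K)
    (h : ∀ n, ∏ i, (t n - y i) ∈ K) :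
    ∃ p : K[X], p.Monic ∧ p.natDegree = Fintype.card ι ∧
      p.map K.subtype = ∏ i, (X - C (y i)) := by
  classical
  set f : M[X] := ∏ i, (X - C (y i)) with hf
  have hfmon : f.Monic := monic_prod_of_monic _ _ fun _ _ => monic_X_sub_C _
  have hfdeg : f.natDegree = Fintype.card ι := by
    rw [hf, natDegree_prod_of_monic _ _ fun i _ => monic_X_sub_C _]
    simp
  let s : Finset ℕ := Finset.range (Fintype.card ι + 1)
  let vK : ℕ → K := fun n => ⟨t n, htK n⟩
  let rK : ℕ → K := fun n => ⟨∏ i, (t n - y i), h n⟩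
  have hvK : Function.Injective vK := fun a b hab => ht (congrArg Subtype.val hab)
  let g : K[X] := Lagrange.interpolate s vK rK
  have hgdeg : g.degree < s.card := Lagrange.degree_interpolate_lt _ hvK.injOn
  have hgeval : ∀ n ∈ s, g.eval (vK n) = rK n := fun n hn =>
    Lagrange.eval_interpolate_at_node _ hvK.injOn hn
  have hmap : g.map K.subtype = f := by
    apply Polynomial.eq_of_degrees_lt_of_eval_index_eq s (v := t) ht.injOn
    · exact (degree_map_le).trans_lt hgdeg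
    · rw [degree_eq_natDegree hfmon.ne_zero, hfdeg]
      have hcard : s.card = Fintype.card ι + 1 := Finset.card_range _
      rw [hcard]
      exact_mod_cast Nat.lt_succ_self _
    · intro n hn
      have h1 : (g.map K.subtype).eval (t n) = K.subtype (g.eval (vK n)) := by
        rw [← Polynomial.eval₂_at_apply, Polynomial.eval_map]
        rfl
      rw [h1, hgeval n hn, hf, eval_prod]
      simp [rK]
  refine ⟨g, monic_of_injective K.subtype_injective (hmap ▸ hfmon), ?_, hmap⟩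
  rw [← natDegree_map_eq_of_injective K.subtype_injective, hmap, hfdeg]

/-- Consequence: every `y i` is integral over `K`. -/
theorem na96_isIntegral {M : Type*} [Field M] (K : Subfield M) {ι : Type*} [Fintype ι]
    (y : ι → M) (t : ℕ → M) (ht : Function.Injective t) (htK : ∀ n, t n ∈ K)
    (h : ∀ n, ∏ i, (t n - y i) ∈ K) (i : ι) : IsIntegral K (y i) := by
  obtain ⟨p, hp, -, hmap⟩ := na96_lagrange K y t ht htK h
  refine ⟨p, hp, ?_⟩
  have h1 : Polynomial.eval₂ (algebraMap K M) (y i) p = (p.map K.subtype).eval (y i) := by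
    rw [Polynomial.eval_map]
    rfl
  rw [h1, hmap, eval_prod]
  exact Finset.prod_eq_zero (Finset.mem_univ i) (by simp)

/-- Transfer of integrality along a field `K'` whose image contains the subfield `K`. -/
theorem na96_isAlgebraic_of_le {M : Type*} [Field M] (K : Subfield M) {K' : Type*} [Field K']
    [Algebra K' M] (hK : ∀ x ∈ K, ∃ c : K', algebraMap K' M c = x) {x : M}
    (hx : IsIntegral K x) : IsAlgebraic K' x := by
  obtain ⟨p, hp, hroot⟩ := hx
  have hlift : p.map K.subtype ∈ Polynomial.lifts (algebraMap K' M) := by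
    rw [Polynomial.lifts_iff_coeff_lifts]
    intro n
    rw [Polynomial.coeff_map]
    obtain ⟨c, hc⟩ := hK _ (p.coeff n).2
    exact ⟨c, hc⟩
  have hmon : (p.map K.subtype).Monic := hp.map _
  obtain ⟨P, hP, -, hPmon⟩ := Polynomial.lifts_and_natDegree_eq_and_monic hlift hmon
  refine ⟨P, hPmon.ne_zero, ?_⟩
  rw [Polynomial.aeval_def, ← Polynomial.eval_map, hP, Polynomial.eval_map]
  exact hroot


/-- Ratio lemma with a denominator depending only on `B` and vanishing exactly where `B` does. -/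
theorem na96_ratio_den (k : ℤ) (B : ModularForm 𝒮ℒ k) :
    ∃ Q : ℂ[X], (∀ z : ℍ, Q.eval (lr96_j z) = 0 ↔ B z = 0) ∧
      ∀ A : ModularForm 𝒮ℒ k, ∃ P : ℂ[X],
        ∀ z : ℍ, A z * Q.eval (lr96_j z) = B z * P.eval (lr96_j z) := by
  by_cases hk0 : 0 ≤ k
  · obtain ⟨m, rfl⟩ := Int.eq_ofNat_of_zero_le hk0
    let F₂ : ModularForm 𝒮ℒ (12 * (m : ℤ)) := ModularForm.mcast (by push_cast; ring) (B.pow 12)
    have hF₂ : ∀ z : ℍ, F₂ z = B z ^ 12 := fun z => by
      show (B.pow 12) z = _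
      rw [lr96_pow_apply]
    obtain ⟨Q, -, hQ⟩ := lr96_eq_delta_pow_mul m _ rfl F₂
    have hΔ : ∀ z : ℍ, ModularForm.discriminant z ^ m ≠ 0 := fun z =>
      pow_ne_zero _ (discriminant_ne_zero z)
    refine ⟨Q, fun z => ?_, fun A => ?_⟩
    · have h2 := hQ z
      rw [hF₂] at h2
      constructor
      · intro h
        rw [h, mul_zero] at h2
        exact pow_eq_zero_iff (by norm_num) |>.1 h2
      · intro h
        rw [h, zero_pow (by norm_num)] at h2
        exact (mul_eq_zero.1 h2.symm).resolve_left (hΔ z)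
    · let F₁ : ModularForm 𝒮ℒ (12 * (m : ℤ)) :=
        ModularForm.mcast (by push_cast; ring) (A.mul (B.pow 11))
      have hF₁ : ∀ z : ℍ, F₁ z = A z * B z ^ 11 := fun z => by
        show A z * (B.pow 11) z = _
        rw [lr96_pow_apply]
      obtain ⟨P, -, hP⟩ := lr96_eq_delta_pow_mul m _ rfl F₁
      refine ⟨P, fun z => ?_⟩
      have h1 := hP z
      have h2 := hQ z
      rw [hF₁] at h1
      rw [hF₂] at h2
      apply mul_left_cancel₀ (hΔ z)
      linear_combination (A z) * (-h2) + (B z) * h1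
  · have hzero : ∀ A : ModularForm 𝒮ℒ k, ∀ z : ℍ, A z = 0 := fun A z => by
      simpa using congrFun (ModularFormClass.levelOne_neg_weight_eq_zero (not_le.mp hk0) A) z
    exact ⟨0, fun z => by simp [hzero B z], fun A => ⟨0, fun z => by simp⟩⟩

/-- Restriction of a level-one form to a subgroup of `𝒮ℒ`. -/
def na96_restrict {𝒢 : Subgroup (GL (Fin 2) ℝ)} (h𝒢 : 𝒢 ≤ 𝒮ℒ) {k : ℤ} (g : ModularForm 𝒮ℒ k) :
    ModularForm 𝒢 k where
  toFun := g
  slash_action_eq' γ hγ := g.slash_action_eq' γ (h𝒢 hγ)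
  holo' := g.holo'
  bdd_at_cusps' hc := g.bdd_at_cusps' (hc.mono h𝒢)

theorem na96_restrict_apply {𝒢 : Subgroup (GL (Fin 2) ℝ)} (h𝒢 : 𝒢 ≤ 𝒮ℒ) {k : ℤ}
    (g : ModularForm 𝒮ℒ k) (z : ℍ) : na96_restrict h𝒢 g z = g z := rfl

theorem na96_coe_le (Γ : Subgroup SL(2, ℤ)) : (Γ : Subgroup (GL (Fin 2) ℝ)) ≤ 𝒮ℒ :=
  Subgroup.map_le_range _ _

section Norm

variable (Γ : Subgroup SL(2, ℤ)) {ι : Type*} (r : ι → SL(2, ℤ))

/-- The coset family transported to `𝒮ℒ ⧸ Γ.subgroupOf 𝒮ℒ`. -/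
def na96_phi (i : ι) : 𝒮ℒ ⧸ ((Γ : Subgroup (GL (Fin 2) ℝ)).subgroupOf 𝒮ℒ) :=
  ((⟨mapGL ℝ (r i), ⟨r i, rfl⟩⟩ : 𝒮ℒ) : 𝒮ℒ ⧸ ((Γ : Subgroup (GL (Fin 2) ℝ)).subgroupOf 𝒮ℒ))

theorem na96_phi_bijective (hr : Function.Bijective (fun i => (r i : SL(2, ℤ) ⧸ Γ))) :
    Function.Bijective (na96_phi Γ r) := by
  have hmem : ∀ a : SL(2, ℤ), mapGL ℝ a ∈ (Γ : Subgroup (GL (Fin 2) ℝ)) ↔ a ∈ Γ := fun a =>
    Subgroup.mem_map_iff_mem mapGL_injective
  constructor
  · intro a b hab
    apply hr.1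
    show (r a : SL(2, ℤ) ⧸ Γ) = (r b : SL(2, ℤ) ⧸ Γ)
    rw [QuotientGroup.eq]
    unfold na96_phi at hab
    rw [QuotientGroup.eq, Subgroup.mem_subgroupOf] at hab
    rw [← hmem]
    simpa using hab
  · intro q
    induction q using QuotientGroup.induction_on with
    | H h =>
      obtain ⟨h, s, rfl⟩ := h
      obtain ⟨i, hi⟩ := hr.2 (s : SL(2, ℤ) ⧸ Γ)
      refine ⟨i, ?_⟩
      have hi' : (r i)⁻¹ * s ∈ Γ := QuotientGroup.eq.1 hi
      unfold na96_phi
      rw [QuotientGroup.eq, Subgroup.mem_subgroupOf]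
      rw [← hmem] at hi'
      simpa using hi'

/-- **(B2)** Norm to level one: for a modular form `f` on `Γ` and a level-one form `g` of the same
weight, the products `∏ i, (t g - f∣(r i)⁻¹)` over a system of left coset representatives of `Γ`
are `g ^ μ` times rational functions of `j`, with a denominator independent of `t`. -/
theorem na96_norm_ratio [Γ.FiniteIndex] [Fintype ι]
    (hr : Function.Bijective (fun i => (r i : SL(2, ℤ) ⧸ Γ))) {k : ℤ}
    (f : ModularForm (Γ : Subgroup (GL (Fin 2) ℝ)) k) (g : ModularForm 𝒮ℒ k) :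
    ∃ Q : ℂ[X], (∀ z : ℍ, Q.eval (lr96_j z) = 0 ↔ g z = 0) ∧ ∀ t : ℂ, ∃ P : ℂ[X], ∀ z : ℍ,
      (∏ i, (t * g z - ((f : ℍ → ℂ) ∣[k] (r i)⁻¹) z)) * Q.eval (lr96_j z) =
        g z ^ Fintype.card ι * P.eval (lr96_j z) := by
  classical
  have hcard : Nat.card (𝒮ℒ ⧸ ((Γ : Subgroup (GL (Fin 2) ℝ)).subgroupOf 𝒮ℒ)) = Fintype.card ι := by
    rw [← Nat.card_eq_fintype_card]
    exact (Nat.card_eq_of_bijective _ (na96_phi_bijective Γ r hr)).symm
  let B : ModularForm 𝒮ℒ (k * Nat.card (𝒮ℒ ⧸ ((Γ : Subgroup (GL (Fin 2) ℝ)).subgroupOf 𝒮ℒ))) :=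
    ModularForm.mcast (by rw [hcard, mul_comm]) (g.pow (Fintype.card ι))
  have hB : ∀ z : ℍ, B z = g z ^ Fintype.card ι := fun z => by
    show (g.pow (Fintype.card ι)) z = _
    rw [lr96_pow_apply]
  obtain ⟨Q, hQ0, hQ⟩ := na96_ratio_den _ B
  refine ⟨Q, fun z => ?_, fun t => ?_⟩
  · rw [hQ0 z, hB z]
    have hne : Fintype.card ι ≠ 0 := by
      obtain ⟨i, -⟩ := hr.2 ((1 : SL(2, ℤ)) : SL(2, ℤ) ⧸ Γ)
      have : Nonempty ι := ⟨i⟩
      exact Fintype.card_ne_zero
    exact pow_eq_zero_iff hne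
  · let D : ModularForm (Γ : Subgroup (GL (Fin 2) ℝ)) k :=
      na96_restrict (na96_coe_le Γ) (t • g) - f
    obtain ⟨P, hP⟩ := hQ (ModularForm.norm 𝒮ℒ D)
    refine ⟨P, fun z => ?_⟩
    rw [← hB z, ← hP z]
    congr 1
    let _ : Fintype (𝒮ℒ ⧸ ((Γ : Subgroup (GL (Fin 2) ℝ)).subgroupOf 𝒮ℒ)) := Fintype.ofFinite _
    have h1 : (ModularForm.norm 𝒮ℒ D) z =
        ∏ i, SlashInvariantForm.quotientFunc D (na96_phi Γ r i) z := by
      rw [ModularForm.coe_norm, Finset.prod_apply]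
      exact ((na96_phi_bijective Γ r hr).prod_comp
        (fun q => SlashInvariantForm.quotientFunc D q z)).symm
    rw [h1]
    refine Finset.prod_congr rfl fun i _ => ?_
    have h2 : SlashInvariantForm.quotientFunc D (na96_phi Γ r i)
        = (⇑D) ∣[k] ((mapGL ℝ (r i) : GL (Fin 2) ℝ))⁻¹ := rfl
    have h3 : (⇑D : ℍ → ℂ) = ⇑(t • g) + -⇑f := by
      ext w
      show (t • g) w - f w = _
      simp [sub_eq_add_neg]
    have h4 : (⇑(t • g) : ℍ → ℂ) ∣[k] ((mapGL ℝ (r i) : GL (Fin 2) ℝ))⁻¹ = ⇑(t • g) :=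
      (t • g).slash_action_eq' _ (inv_mem ⟨r i, rfl⟩)
    have h5 : (⇑f : ℍ → ℂ) ∣[k] ((mapGL ℝ (r i) : GL (Fin 2) ℝ))⁻¹ = (⇑f : ℍ → ℂ) ∣[k] (r i)⁻¹ := by
      rw [← map_inv]
      rfl
    rw [h2, h3, SlashAction.add_slash, SlashAction.neg_slash, h4, h5]
    simp [sub_eq_add_neg]

end Norm

section Abs

variable {M : Type*} [Field M] (O : Subalgebra ℂ (ℍ → ℂ)) (φ : ↥O →+* M)

/-- The subfield of `M` generated by the constants and `φ J` ("`ℂ(j)` inside `M`"). -/
def na96_K (J : O) : Subfield M :=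
  Subfield.closure (Set.range (φ.comp (algebraMap ℂ O)) ∪ {φ J})

theorem na96_const_mem (J : O) (c : ℂ) : φ (algebraMap ℂ O c) ∈ na96_K O φ J :=
  Subfield.subset_closure (Or.inl ⟨c, rfl⟩)

theorem na96_J_mem (J : O) : φ J ∈ na96_K O φ J :=
  Subfield.subset_closure (Or.inr rfl)

theorem na96_aeval_apply (J : O) (P : ℂ[X]) (z : ℍ) :
    (Polynomial.aeval J P : O).1 z = P.eval (J.1 z) := by
  have h := Polynomial.aeval_algHom_apply ((Pi.evalAlgHom ℂ (fun _ : ℍ => ℂ) z).comp O.val) J P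
  simpa [Polynomial.coe_aeval_eq_eval] using h.symm

theorem na96_aeval_mem (J : O) (P : ℂ[X]) : φ (Polynomial.aeval J P) ∈ na96_K O φ J := by
  induction P using Polynomial.induction_on' with
  | add p q hp hq =>
    rw [map_add, map_add]
    exact add_mem hp hq
  | monomial n a =>
    rw [Polynomial.aeval_monomial, map_mul, map_pow]
    exact mul_mem (na96_const_mem O φ J a) (pow_mem (na96_J_mem O φ J) n)

end Abs

section Main

variable {M : Type*} [Field M] (O : Subalgebra ℂ (ℍ → ℂ)) (φ : ↥O →+* M)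
  (Γ : Subgroup SL(2, ℤ)) [Γ.FiniteIndex] {ι : Type*} [Fintype ι] (r : ι → SL(2, ℤ))

/-- **(B4, abstract form)**: for `f` modular on `Γ` and `g ≠ 0` of level one, of the same weight,
the coset polynomial `∏ i, (X - C (φ f_i / φ g))` of the translates `f_i = f∣(r i)⁻¹` has
coefficients in the subfield generated by constants and `j`. -/
theorem na96_coset_poly (hφ : Function.Injective φ)
    (hr : Function.Bijective (fun i => (r i : SL(2, ℤ) ⧸ Γ))) {k : ℤ}
    (f : ModularForm (Γ : Subgroup (GL (Fin 2) ℝ)) k) (g : ModularForm 𝒮ℒ k) (hg0 : g ≠ 0)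
    (J gO : O) (fO : ι → O) (hJ : ∀ z, J.1 z = lr96_j z) (hg : ∀ z, gO.1 z = g z)
    (hf : ∀ i z, (fO i).1 z = ((f : ℍ → ℂ) ∣[k] (r i)⁻¹) z) :
    ∃ p : (na96_K O φ J)[X], p.Monic ∧ p.natDegree = Fintype.card ι ∧
      p.map (na96_K O φ J).subtype = ∏ i, (X - C (φ (fO i) / φ gO)) := by
  obtain ⟨Q, hQ0, hQ⟩ := na96_norm_ratio Γ r hr f g
  obtain ⟨z₀, hz₀⟩ : ∃ z₀ : ℍ, g z₀ ≠ 0 := by
    by_contra hcon
    push Not at hcon
    exact hg0 (by ext z; simpa using hcon z)
  have hgO : φ gO ≠ 0 := by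
    rw [Ne, map_eq_zero_iff φ hφ]
    intro h
    apply hz₀
    rw [← hg z₀, h]
    rfl
  have hQO : φ (Polynomial.aeval J Q) ≠ 0 := by
    rw [Ne, map_eq_zero_iff φ hφ]
    intro h
    apply hz₀
    rw [← hQ0 z₀, ← hJ z₀, ← na96_aeval_apply, h]
    rfl
  refine na96_lagrange (na96_K O φ J) (fun i => φ (fO i) / φ gO)
    (fun n => φ (algebraMap ℂ O (n : ℂ))) ?_ (fun n => na96_const_mem O φ J _) ?_
  · intro a b hab
    have h1 : algebraMap ℂ O (a : ℂ) = algebraMap ℂ O (b : ℂ) := hφ hab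
    exact_mod_cast (algebraMap ℂ O).injective h1
  · intro n
    obtain ⟨P, hP⟩ := hQ (n : ℂ)
    have hO : (∏ i, (algebraMap ℂ O (n : ℂ) * gO - fO i)) * Polynomial.aeval J Q
        = gO ^ Fintype.card ι * Polynomial.aeval J P := by
      apply Subtype.ext
      funext z
      have := hP z
      simp only [Subalgebra.coe_mul, Subalgebra.coe_pow, Pi.mul_apply, Pi.pow_apply]
      rw [na96_aeval_apply, na96_aeval_apply, hJ, hg]
      rw [← this]
      congr 1
      have he : ∀ x : O, x.1 z = ((Pi.evalAlgHom ℂ (fun _ : ℍ => ℂ) z).comp O.val) x :=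
        fun x => rfl
      rw [he, map_prod]
      refine Finset.prod_congr rfl fun i _ => ?_
      rw [map_sub, map_mul, AlgHom.commutes, ← he, ← he, hg, hf]
      rfl
    have hM := congrArg φ hO
    simp only [map_mul, map_prod, map_sub, map_pow] at hM
    have key : ∏ i, (φ (algebraMap ℂ O (n : ℂ)) - φ (fO i) / φ gO)
        = φ (Polynomial.aeval J P) / φ (Polynomial.aeval J Q) := by
      rw [eq_div_iff hQO]
      have h1 : ∀ i, φ (algebraMap ℂ O (n : ℂ)) - φ (fO i) / φ gO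
          = (φ (algebraMap ℂ O (n : ℂ)) * φ gO - φ (fO i)) / φ gO := fun i => by
        field_simp
      rw [Finset.prod_congr rfl fun i _ => h1 i, Finset.prod_div_distrib, Finset.prod_const,
        Finset.card_univ, div_mul_eq_mul_div, div_eq_iff (pow_ne_zero _ hgO), hM]
      ring
    rw [key]
    exact div_mem (na96_aeval_mem O φ J P) (na96_aeval_mem O φ J Q)

/-- Every translate quotient `φ f_i / φ g` is integral over "`ℂ(j)`". -/
theorem na96_isIntegral_translate (hφ : Function.Injective φ)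
    (hr : Function.Bijective (fun i => (r i : SL(2, ℤ) ⧸ Γ))) {k : ℤ}
    (f : ModularForm (Γ : Subgroup (GL (Fin 2) ℝ)) k) (g : ModularForm 𝒮ℒ k) (hg0 : g ≠ 0)
    (J gO : O) (fO : ι → O) (hJ : ∀ z, J.1 z = lr96_j z) (hg : ∀ z, gO.1 z = g z)
    (hf : ∀ i z, (fO i).1 z = ((f : ℍ → ℂ) ∣[k] (r i)⁻¹) z) (i : ι) :
    IsIntegral (na96_K O φ J) (φ (fO i) / φ gO) := by
  obtain ⟨p, hp, -, hmap⟩ := na96_coset_poly O φ Γ r hφ hr f g hg0 J gO fO hJ hg hf
  refine ⟨p, hp, ?_⟩
  have h1 : Polynomial.eval₂ (algebraMap (na96_K O φ J) M) (φ (fO i) / φ gO) p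
      = (p.map (na96_K O φ J).subtype).eval (φ (fO i) / φ gO) := by
    rw [Polynomial.eval_map]
    rfl
  rw [h1, hmap, eval_prod]
  exact Finset.prod_eq_zero (Finset.mem_univ i) (by simp)

/-- **(B4, abstract form)**: the quotient `φ f / φ g` itself is integral over "`ℂ(j)`". -/
theorem na96_isIntegral_quot (hφ : Function.Injective φ)
    (hr : Function.Bijective (fun i => (r i : SL(2, ℤ) ⧸ Γ))) {k : ℤ}
    (f : ModularForm (Γ : Subgroup (GL (Fin 2) ℝ)) k) (g : ModularForm 𝒮ℒ k) (hg0 : g ≠ 0)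
    (J gO : O) (fO : ι → O) (hJ : ∀ z, J.1 z = lr96_j z) (hg : ∀ z, gO.1 z = g z)
    (hf : ∀ i z, (fO i).1 z = ((f : ℍ → ℂ) ∣[k] (r i)⁻¹) z)
    (f₀ : O) (hf₀ : ∀ z, f₀.1 z = f z) :
    IsIntegral (na96_K O φ J) (φ f₀ / φ gO) := by
  obtain ⟨i, hi⟩ := hr.2 ((1 : SL(2, ℤ)) : SL(2, ℤ) ⧸ Γ)
  have hmem : (r i)⁻¹ ∈ Γ := by
    have h1 : (r i)⁻¹ * 1 ∈ Γ := QuotientGroup.eq.1 hi
    simpa using h1
  have hsl : (f : ℍ → ℂ) ∣[k] (r i)⁻¹ = f :=
    f.slash_action_eq' _ (Subgroup.mem_map_of_mem _ hmem)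
  have hfi : fO i = f₀ := by
    apply Subtype.ext
    funext z
    rw [hf i z, hsl, hf₀ z]
  rw [← hfi]
  exact na96_isIntegral_translate O φ Γ r hφ hr f g hg0 J gO fO hJ hg hf i

/-- **(B4, abstract form, K2 input)**: `φ f / φ g` is algebraic over every field `K'` whose image
in `M` contains the constants and `φ J`. -/
theorem na96_isAlgebraic_quot (hφ : Function.Injective φ)
    (hr : Function.Bijective (fun i => (r i : SL(2, ℤ) ⧸ Γ))) {k : ℤ}
    (f : ModularForm (Γ : Subgroup (GL (Fin 2) ℝ)) k) (g : ModularForm 𝒮ℒ k) (hg0 : g ≠ 0)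
    (J gO : O) (fO : ι → O) (hJ : ∀ z, J.1 z = lr96_j z) (hg : ∀ z, gO.1 z = g z)
    (hf : ∀ i z, (fO i).1 z = ((f : ℍ → ℂ) ∣[k] (r i)⁻¹) z)
    (f₀ : O) (hf₀ : ∀ z, f₀.1 z = f z)
    {K' : Type*} [Field K'] [Algebra K' M]
    (hC : ∀ c : ℂ, ∃ a : K', algebraMap K' M a = φ (algebraMap ℂ O c))
    (hJ' : ∃ a : K', algebraMap K' M a = φ J) :
    IsAlgebraic K' (φ f₀ / φ gO) := by
  refine na96_isAlgebraic_of_le (na96_K O φ J) ?_
    (na96_isIntegral_quot O φ Γ r hφ hr f g hg0 J gO fO hJ hg hf f₀ hf₀)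
  have hle : na96_K O φ J ≤ (algebraMap K' M).fieldRange := by
    refine Subfield.closure_le.2 ?_
    rintro x (⟨c, rfl⟩ | rfl)
    · obtain ⟨a, ha⟩ := hC c
      exact ⟨a, ha⟩
    · obtain ⟨a, ha⟩ := hJ'
      exact ⟨a, ha⟩
  intro x hx
  exact hle hx

end Main

end

end Fermat.Agent.S42
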