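/-
S42 / M5b (helper96), concrete adapter: `G_χ = (E_χ / E_1) ^ p ∈ mer95_MER` is algebraic over
`ℂ(j) ⊆ mer95_MER`.
-/
import Mathlib
import Fermat.Agent.S42.NormAlg96
import Fermat.Agent.S42.EisChiMF77
import Fermat.Agent.S42.EisChiMer77

set_option autoImplicit false

open UpperHalfPlane ModularForm MatrixGroups
open Matrix.SpecialLinearGroup
open scoped Manifold

namespace Fermat.Agent.S42

noncomputable section

/-- Translates of a modular form by elements of `SL(2, ℤ)` are holomorphic. -/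
theorem ga96_slash_mdiff {𝒢 : Subgroup (GL (Fin 2) ℝ)} {k : ℤ} (f : ModularForm 𝒢 k)
    (s : SL(2, ℤ)) : MDifferentiable 𝓘(ℂ) 𝓘(ℂ) ((f : ℍ → ℂ) ∣[k] s) :=
  (ModularForm.translate f (mapGL ℝ s)).holo'

/-- **(B4)** `G_χ` is algebraic over `ℂ(J)`, `J` the `j`-function in `mer95_MER`. -/
theorem ga96_Gchi_isAlgebraic (k : ℤ) (Γ : Subgroup SL(2, ℤ)) [Γ.FiniteIndex] (χ : ↥Γ →* ℂˣ)
    (p : ℕ) (hk : 3 ≤ k) (hk2 : Even k) (hp : p ≠ 0) (hχp : ∀ γ : ↥Γ, χ γ ^ p = 1)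
    (hpar : ∀ γ : ↥Γ, ((γ : SL(2, ℤ)) : Matrix (Fin 2) (Fin 2) ℤ).trace ^ 2 = 4 → χ γ = 1)
    (jO : mer95_O) (hj : ∀ z : ℍ, jO.1 z = lr96_j z) :
    IsAlgebraic (IntermediateField.adjoin ℂ {algebraMap mer95_O mer95_MER jO})
      (ec77_Gchi k Γ χ p hk (ec77_unit_of_pow hp hχp)) := by
  classical
  have : Finite (SL(2, ℤ) ⧸ Γ) := Subgroup.finite_quotient_of_finiteIndex
  let _ : Fintype (SL(2, ℤ) ⧸ Γ) := Fintype.ofFinite _
  have hr : Function.Bijective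
      (fun q : SL(2, ℤ) ⧸ Γ => ((Quotient.out q : SL(2, ℤ)) : SL(2, ℤ) ⧸ Γ)) := by
    have h : (fun q : SL(2, ℤ) ⧸ Γ => ((Quotient.out q : SL(2, ℤ)) : SL(2, ℤ) ⧸ Γ)) = id := by
      funext q
      exact QuotientGroup.out_eq' q
    rw [h]
    exact Function.bijective_id
  let f := ec77_EchiPow k Γ χ p hk hp hχp hpar
  rw [ec77_Gchi_eq_div]
  refine na96_isAlgebraic_quot mer95_O (algebraMap mer95_O mer95_MER) Γ
    (fun q : SL(2, ℤ) ⧸ Γ => (Quotient.out q : SL(2, ℤ))) mer95_algebraMap_injective hr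
    f (ec77_EonePowSL k p hk) (ec77_EonePowSL_ne_zero k p hk hk2) jO (ec77_EoneO k hk ^ p)
    (fun q => mer95_mk ((f : ℍ → ℂ) ∣[k * (p : ℤ)] (Quotient.out q : SL(2, ℤ))⁻¹)
      (ga96_slash_mdiff f _)) hj (fun z => rfl) (fun q z => rfl)
    (ec77_EchiO k Γ χ hk (ec77_unit_of_pow hp hχp) ^ p) (fun z => rfl) ?_ ?_
  · intro c
    refine ⟨algebraMap ℂ _ c, ?_⟩
    rw [← IsScalarTower.algebraMap_apply, ← IsScalarTower.algebraMap_apply]
  · exact ⟨⟨_, IntermediateField.mem_adjoin_simple_self ℂ _⟩, rfl⟩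

end

end Fermat.Agent.S42
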