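/-
S42 / M5b (helper96), membership: `G_χ = (E_χ / E_1) ^ p` is `ev G` for some `G ∈ F_ℂ(N)`.
-/
import Fermat.Agent.S42.GchiAlg96
import Fermat.Agent.S42.GaloisFinal41

set_option autoImplicit false

open UpperHalfPlane ModularForm MatrixGroups CongruenceSubgroup
open scoped Manifold

namespace Fermat.Agent.S42

/-- **(B4), `l1j27` form**: `G_χ` is algebraic over `ℂ(l1j27_J)`. -/
theorem ga96_Gchi_isAlgebraic_J (k : ℤ) (Γ : Subgroup SL(2, ℤ)) [Γ.FiniteIndex] (χ : ↥Γ →* ℂˣ)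
    (p : ℕ) (hk : 3 ≤ k) (hk2 : Even k) (hp : p ≠ 0) (hχp : ∀ γ : ↥Γ, χ γ ^ p = 1)
    (hpar : ∀ γ : ↥Γ, ((γ : SL(2, ℤ)) : Matrix (Fin 2) (Fin 2) ℤ).trace ^ 2 = 4 → χ γ = 1) :
    IsAlgebraic (IntermediateField.adjoin ℂ {l1j27_J})
      (ec77_Gchi k Γ χ p hk (ec77_unit_of_pow hp hχp)) :=
  ga96_Gchi_isAlgebraic k Γ χ p hk hk2 hp hχp hpar l1j27_jO (fun _ => rfl)

/-- **(G-X), membership**: for a character `χ` of `Γ₀(N)` with `χ ^ p = 1`, trivial on the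
elements of trace `± 2`, the function `G_χ = (E_χ / E_1) ^ p` is in the image of
`ev = ff79_evMer N : F_ℂ(N) → mer95_MER`. -/
theorem ga96_Gchi_mem (N : ℕ) [NeZero N] (k : ℤ) (χ : ↥(Gamma0 N) →* ℂˣ)
    (p : ℕ) (hk : 3 ≤ k) (hk2 : Even k) (hp : p ≠ 0) (hχp : ∀ γ : ↥(Gamma0 N), χ γ ^ p = 1)
    (hpar : ∀ γ : ↥(Gamma0 N),
      ((γ : SL(2, ℤ)) : Matrix (Fin 2) (Fin 2) ℤ).trace ^ 2 = 4 → χ γ = 1) :
    ∃ G : gi41_FC N, ff79_evMer N G = ec77_Gchi k (Gamma0 N) χ p hk (ec77_unit_of_pow hp hχp) :=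
  gi41_final_K2 N (fun g hg => ec77_Gchi_smul hk hk2 hp hχp hpar ⟨g, hg⟩)
    (ga96_Gchi_isAlgebraic_J k (Gamma0 N) χ p hk hk2 hp hχp hpar)

/-- **(G-X), membership, `h ^ p` form**: `∃ u, ev u = F_χ ^ p` with `F_χ = E_χ / E_1 ≠ 0` and
`γ • F_χ = χ(γ) F_χ`. -/
theorem ga96_Fchi_pow_mem (N : ℕ) [NeZero N] (k : ℤ) (χ : ↥(Gamma0 N) →* ℂˣ)
    (p : ℕ) (hk : 3 ≤ k) (hk2 : Even k) (hp : p ≠ 0) (hχp : ∀ γ : ↥(Gamma0 N), χ γ ^ p = 1)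
    (hpar : ∀ γ : ↥(Gamma0 N),
      ((γ : SL(2, ℤ)) : Matrix (Fin 2) (Fin 2) ℤ).trace ^ 2 = 4 → χ γ = 1) :
    ∃ u : gi41_FC N, u ≠ 0 ∧
      ff79_evMer N u = ec77_Fchi k (Gamma0 N) χ hk (ec77_unit_of_pow hp hχp) ^ p := by
  obtain ⟨G, hG⟩ := ga96_Gchi_mem N k χ p hk hk2 hp hχp hpar
  refine ⟨G, ?_, hG⟩
  rintro rfl
  rw [map_zero] at hG
  exact ec77_Gchi_ne_zero hk hk2 (ec77_unit_of_pow hp hχp) hpar hG.symm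

end Fermat.Agent.S42
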