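import Fermat.Agent.S42.ThetaFinal70
import Fermat.Agent.S42.EisChiZeta77
import Fermat.Agent.S42.GchiMem96
import Fermat.Agent.S42.DivGFinal93
import Fermat.Agent.S42.CuspConc36

/-!
# S42, seam (G-X) (helper94, referee): the analytic existence statement (X), hypothesis-free

`th70_X N p` (ThetaFinal70, the binding shape of (X)) for every level `N ≠ 0` and every prime
`p ≥ 5`: for every `χ ∈ Par_N` (a parabolic homomorphism `Γ₀(N) → ℤ/p`) the Eisenstein quotient
`h = ec77_hZ N p χ = E_χ / E_1` (helper77) is nonzero, has character `χ`, its `p`-th power is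
`ev u` for a function `u ∈ F_ℂ(N)` (membership, helper96 + helper41) and `p ∣ ord_v u` at every
place `v` of `F_ℂ(N)`: at the places over a finite value of `j` by `dg93_X_div` (helper93), at the
places over `j = ∞` the order is `0` by `pc36_cusp_one` (helper36) applied to the limits
`ec77_hZ_pow_tendsto` (helper77) and the norm formula `gi41_mer_norm` (helper41).

* `gx94_mem`  : membership, `∃ u ≠ 0, ev u = h ^ p`.
* `gx94_cusp` : `ord_v u = 0` at the places over `j = ∞`.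
* `gx94_dvd`  : `p ∣ ord_v u` at every place (`p ≥ 5`).
* `gx94_X`    : `th70_X N p`.
* `gx94_hex`  : the hypothesis `hex` of `th70_I_Theta` at `ev0 := ff79_ev0 φ N`, hypothesis-free.

All names are prefixed `gx94_`.
-/

set_option autoImplicit false
set_option linter.unusedSectionVars false
set_option linter.unusedVariables false
set_option linter.style.longLine false
set_option linter.style.haveILetI false

open CongruenceSubgroup ModularCurve ModularCurve.Period AlgebraicCurve UpperHalfPlane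
open IntermediateField
open scoped MatrixGroups

namespace Fermat.Agent.S42

open Fermat.Agent.S24

section gx94

variable (N : ℕ) [NeZero N]

/-- **Membership**: `h_χ ^ p` is `ev u` for a nonzero `u ∈ F_ℂ(N)`. -/
theorem gx94_mem (p : ℕ) [NeZero p] {χ : Additive ↥(Gamma0 N) →+ ZMod p}
    (hχ : IsParabolicHom (Gamma0 N) χ) :
    ∃ u : gi41_FC N, u ≠ 0 ∧ ff79_evMer N u = ec77_hZ N p χ ^ p :=
  ga96_Fchi_pow_mem N 4 (ec77_charZ (ec77_zetaU p) (ec77_zetaU_pow p) χ) p (by norm_num)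
    ⟨2, by norm_num⟩ (NeZero.ne p) (ec77_charZ_pow (ec77_zetaU p) (ec77_zetaU_pow p) χ)
    (ec77_charZ_par (ec77_zetaU p) (ec77_zetaU_pow p) hχ)

/-- **The cusps**: a function `u ∈ F_ℂ(N)` with `ev u = h_χ ^ p` has order `0` at every place
over `j = ∞`. -/
theorem gx94_cusp (p : ℕ) [NeZero p] {χ : Additive ↥(Gamma0 N) →+ ZMod p}
    (hχ : IsParabolicHom (Gamma0 N) χ) (u : gi41_FC N)
    (hu : ff79_evMer N u = ec77_hZ N p χ ^ p)
    (v : Place ℂ (gi41_FC N)) (hv : v.ord (dg93_j0 N) < 0) : v.ord u = 0 := by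
  obtain ⟨hfd, -⟩ := gi41_K1C N (dg93_j0 N) (dg93_j0_coe N)
  haveI := hfd
  haveI : Finite (SL(2, ℤ) ⧸ Gamma0 N) := Subgroup.finite_quotient_of_finiteIndex
  letI : Fintype (Cosets N) := Fintype.ofFinite _
  have hu0 : u ≠ 0 := by
    rintro rfl
    rw [map_zero] at hu
    exact pow_ne_zero p (ec77_hZ_ne_zero hχ) hu.symm
  refine pc36_cusp_one (ff79_evMer N) (dg93_j0 N) (dg93_j0_transcendental N)
    (mer95_mk kleinJ wpA5_kleinJ_mdiff) (fun τ => rfl) (dg93_ev_j0 N)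
    (fun b : Cosets N => b.out) ?_ u hu0 (ec77_hZ_num N p χ) (ec77_hZ_den p)
    (ec77_hZ_den_ne_zero p) ?_ (ec77_hZ_pow_tendsto hχ) v hv
  · intro f
    exact gi41_mer_norm N (ff79_evMer N) (dg93_j0 N) dg93_jM (dg93_j0_coe N) dg93_jM_smul
      (dg93_ev_j0 N) (ff79_evMer_smul N) l1j27_L1_MER (gc6_out_bijective (Gamma0 N)) f
  · rw [hu, ec77_hZ_pow_eq_div]

/-- **Divisibility at every place**, `p ≥ 5`. -/
theorem gx94_dvd (p : ℕ) [Fact p.Prime] (hp5 : 5 ≤ p) {χ : Additive ↥(Gamma0 N) →+ ZMod p}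
    (hχ : IsParabolicHom (Gamma0 N) χ) (u : gi41_FC N)
    (hu : ff79_evMer N u = ec77_hZ N p χ ^ p) (v : Place ℂ (gi41_FC N)) :
    (p : ℤ) ∣ v.ord u :=
  dg93_X_div N p Fact.out hp5 (th70_zeta p) χ u (ec77_hZ N p χ) (ec77_hZ_ne_zero hχ)
    (ec77_hZ_isChar hχ) hu (fun v hv => gx94_cusp N p hχ u hu v hv) v

/-- **(X)**, one parabolic character at a time, `p ≥ 5`. -/
theorem gx94_X_one (p : ℕ) [Fact p.Prime] (hp5 : 5 ≤ p) {χ : Additive ↥(Gamma0 N) →+ ZMod p}
    (hχ : IsParabolicHom (Gamma0 N) χ) :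
    ∃ (h : mer95_MER) (u : ↥(laurentBaseChange ℂ (modularFunctionFieldFull N))),
      h ≠ 0 ∧ th70_IsChar p (th70_zeta p) χ h ∧ ff79_evMer N u = h ^ p ∧
        ∀ v : Place ℂ ↥(laurentBaseChange ℂ (modularFunctionFieldFull N)), (p : ℤ) ∣ v.ord u := by
  obtain ⟨u, -, hu⟩ := gx94_mem N p hχ
  exact ⟨ec77_hZ N p χ, u, ec77_hZ_ne_zero hχ, ec77_hZ_isChar hχ, hu,
    fun v => gx94_dvd N p hp5 hχ u hu v⟩

/-- **(G-X): the analytic existence statement (X) in its binding shape `th70_X`**, for every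
level `N ≠ 0` and every prime `p ≥ 5`.  No hypothesis left. -/
theorem gx94_X (p : ℕ) [Fact p.Prime] (hp5 : 5 ≤ p) : th70_X N p := by
  intro χ hχ
  have hχ' : IsParabolicHom (Gamma0 N) χ := mem_parabolicHoms_iff.mp hχ
  obtain ⟨u, -, hu⟩ := gx94_mem N p hχ'
  exact ⟨ec77_hZ N p χ, ec77_hZ_ne_zero hχ', ec77_hZ_isChar hχ', u, hu,
    fun v => gx94_dvd N p hp5 hχ' u hu v⟩

/-- **`hex` of `th70_I_Theta`, hypothesis-free** (`p ≥ 5`), at `ev0 := ff79_ev0 φ N`. -/
theorem gx94_hex (φ : AlgebraicClosure ℚ →+* ℂ) (p : ℕ) [Fact p.Prime] (hp5 : 5 ≤ p) :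
    ∀ χ ∈ w1a28_Par N p, ∃ (h : mer95_MER) (f : ↥(modularFunctionFieldBar N)),
      th70_Adm (AlgebraicClosure ℚ) (ff79_ev0 φ N) p (th70_zeta p) χ h f :=
  th70_final_hex φ N p (gx94_X N p hp5)

end gx94

end Fermat.Agent.S42
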