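import Fermat.Agent.S42.ThetaFinalTors46
import Fermat.Agent.S42.XRef94
import Fermat.Agent.S42.K2CInst5
import Fermat.Agent.S42.HeckeHK10

/-!
# S42 / S29 (helper46): (X) and (W1) for EVERY prime `p`, hypothesis-free

`Par'_N = pt46_Par N p` is the space of homomorphisms `Γ₀(N) → ℤ/p` killing every `γ` with
`(tr γ)^2 ≤ 4` (the parabolic and the finite-order elements).  On `Par'_N` the analytic existence
statement (X) holds for every prime `p` (for `p = 2, 3` it fails on the whole of `Par_N`):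

* `pt46_Xcusp_all` : the cusp form of (X) on `Par'_N` (`h = ec77_hZ N p χ`; membership `gx94_mem`,
  order `0` at the places over `j = ∞` by `gx94_cusp`; both hold for every `p ≠ 0`);
* `pt46_X_all`     : (X) on `Par'_N` (finite places: `pt46_X_of_cusp`, i.e. `dg93_div_FC`);
* `pt46_I_Theta_all` : (I-Theta) on `Par'_N`;
* `pt46_W1_all`    : (W1) for a normalized eigenform, every level `N ≥ 1`, every prime `p`.
-/

set_option autoImplicit false
set_option linter.unusedSectionVars false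
set_option linter.unusedVariables false
set_option linter.style.longLine false

open CongruenceSubgroup ModularCurve ModularCurve.Period AlgebraicCurve UpperHalfPlane
open scoped TensorProduct MatrixGroups

namespace Fermat.Agent.S42

open Fermat.Agent.S16

section pt46_chain

variable (N : ℕ) [NeZero N] (p : ℕ) [Fact p.Prime]

/-- **(X) on `Par'_N`, cusp form**, every prime `p`. -/
theorem pt46_Xcusp_all : pt46_Xcusp N p := by
  intro χ hχ
  have hχ' : IsParabolicHom (Gamma0 N) χ := mem_parabolicHoms_iff.mp (pt46_Par_le N p hχ)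
  have : NeZero p := ⟨(Fact.out : p.Prime).ne_zero⟩
  obtain ⟨u, -, hu⟩ := gx94_mem N p hχ'
  refine ⟨ec77_hZ N p χ, ec77_hZ_ne_zero hχ', ec77_hZ_isChar hχ', u, hu, fun v hv => ?_⟩
  rw [gx94_cusp N p hχ' u hu v hv]
  exact dvd_zero _

/-- **(X) on `Par'_N`**, every prime `p`, hypothesis-free. -/
theorem pt46_X_all : pt46_X N p :=
  pt46_X_of_cusp N p (pt46_Xcusp_all N p)

/-- **(I-Theta) on `Par'_N`**, every prime `p`, hypothesis-free. -/
theorem pt46_I_Theta_all (φ : AlgebraicClosure ℚ →+* ℂ) :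
    ∃ Θ : pt46_Par N p →+ JZero N, Function.Injective Θ ∧ (∀ χ, (p : ℤ) • Θ χ = 0) ∧
      ∀ ℓ : Nat.Primes, ¬ (ℓ : ℕ) ∣ N * p → ∀ χ : pt46_Par N p,
        ∃ hχ : heckeHom N ℓ (ZMod p) χ ∈ pt46_Par N p,
          heckeOperatorBar N ℓ (Θ χ) = Θ ⟨heckeHom N ℓ (ZMod p) χ, hχ⟩ :=
  pt46_final_I_Theta φ N p (pt46_X_all N p) (gk5_K2C N p) (pt46_HK_of φ N p (hk10_HK φ N p))

/-- **(W1) for every prime `p`, hypothesis-free**: for `N ≥ 1`, a prime `p`, a normalized
eigenform `f` of level `N` and a ring homomorphism `ψ : Z̄ → k0` into a field of characteristic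
`p`, there is a nonzero vector of `k0 ⊗ J₀(N)(ℚ̄)[p]` which is an eigenvector of all `T_ℓ`,
`ℓ ∤ N p`, with eigenvalues `ψ (a_ℓ)`. -/
theorem pt46_W1_all (φ : AlgebraicClosure ℚ →+* ℂ) {k0 : Type*} [Field k0] [Algebra (ZMod p) k0]
    {f : CuspForm (Gamma0 N) 2} (hf : f.IsNormalizedEigenform)
    (ψ : integralClosure ℤ ℂ →+* k0) :
    ∃ y : k0 ⊗[ZMod p] w1a28_J N p, y ≠ 0 ∧
      ∀ ℓ : Nat.Primes, ¬ (ℓ : ℕ) ∣ N * p →
        ∃ a : integralClosure ℤ ℂ, (a : ℂ) = ModularFormClass.qCoeff (⇑f) ℓ ∧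
          (w1a28_TJ N p ℓ).baseChange k0 y = ψ a • y :=
  pt46_final_W1 φ N p (pt46_X_all N p) (gk5_K2C N p) (pt46_HK_of φ N p (hk10_HK φ N p)) hf ψ

end pt46_chain

end Fermat.Agent.S42
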