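/-
S42 / M11-G (helper92): the mod `p` cyclotomic character of `Gal(ℚ̄/ℚ)` (the Prelude's
`ExtCitation.cycloChar p`) at Frobenius and inertia elements.

* `cy92_frob`        : `cycloChar p τ = ℓ` for a Frobenius element `τ` at a prime `ℓ ≠ p`;
* `cy92_inertia`     : `cycloChar p σ = 1` for `σ` in an inertia group at a prime `ℓ ≠ p`;
* `cy92_finiteLevel` : `cycloChar p` factors through a finite level;
* `cy92_of_pow`      : if `g = τ ^ j` on the `p`-th roots of unity then
                       `cycloChar p g = cycloChar p τ ^ j`.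
-/
import Mathlib
import Fermat.Prelude.Def_ExtCitation_KummerBridge
import Fermat.Prelude.Def_GaloisRep_Residual
import Fermat.Prelude.Def_EllipticCurve_FrobeniusTrace
import Fermat.Agent.S14.BridgeKummer

set_option autoImplicit false
set_option linter.style.haveILetI false

namespace Fermat.Agent.S42

open Fermat.Agent.S14

local notation "Qb" => AlgebraicClosure ℚ
local notation "GQ" => AlgebraicClosure ℚ ≃ₐ[ℚ] AlgebraicClosure ℚ

section Generic

variable {L : Type*} [Field L]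

/-- Roots of unity of order prime to the residue characteristic are distinct modulo the maximal
ideal of a valuation subring: `ζ ^ a ≡ ζ ^ b` forces `a ≡ b mod m`. -/
theorem cy92_modEq_of_sub_mem (A : ValuationSubring L) {ℓ m : ℕ}
    (hℓ : (ℓ : L) ∈ A.nonunits) (hcop : Nat.Coprime ℓ m) (hm : 0 < m) {ζ : L}
    (hζ : IsPrimitiveRoot ζ m) {a b : ℕ} (h : ζ ^ a - ζ ^ b ∈ A.nonunits) : a ≡ b [MOD m] := by
  wlog hab : b ≤ a generalizing a b
  · have h' : ζ ^ b - ζ ^ a ∈ A.nonunits := by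
      rw [ValuationSubring.mem_nonunits_iff] at h ⊢
      rwa [← neg_sub, Valuation.map_neg]
    exact (this h' (le_of_not_ge hab)).symm
  by_contra hne
  have hvζ : A.valuation ζ = 1 := by
    have h1 : A.valuation ζ ^ m = 1 := by rw [← map_pow, hζ.pow_eq_one, map_one]
    exact (pow_eq_one_iff.mp h1).resolve_right hm.ne'
  obtain ⟨η, hη⟩ : ∃ η : L, η = ζ ^ (a - b) := ⟨_, rfl⟩
  have hηm : η ^ m = 1 := by rw [hη, ← pow_mul, mul_comm, pow_mul, hζ.pow_eq_one, one_pow]
  have hη1 : η ≠ 1 := by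
    intro h1
    have hdvd : m ∣ a - b := (hζ.pow_eq_one_iff_dvd _).mp (hη ▸ h1)
    exact hne ((Nat.modEq_iff_dvd' hab).mpr hdvd).symm
  have hvη : A.valuation η = 1 := by rw [hη, map_pow, hvζ, one_pow]
  have hηA : η ∈ A := (A.valuation_le_one_iff η).mp hvη.le
  have h1η : A.valuation (1 - η) < 1 := by
    have h2 : ζ ^ a - ζ ^ b = -(ζ ^ b * (1 - η)) := by
      rw [hη, mul_sub, mul_one, ← pow_add, Nat.add_sub_cancel' hab]
      ring
    have h3 : A.valuation (ζ ^ a - ζ ^ b) < 1 := (ValuationSubring.mem_nonunits_iff A).mp h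
    rwa [h2, Valuation.map_neg, map_mul, map_pow, hvζ, one_pow, one_mul] at h3
  have hgeom : ∑ i ∈ Finset.range m, η ^ i = 0 := by
    have h2 : (η - 1) * ∑ i ∈ Finset.range m, η ^ i = 0 := by
      rw [mul_geom_sum, hηm, sub_self]
    exact (mul_eq_zero.mp h2).resolve_left (sub_ne_zero.mpr hη1)
  have hmsum : (m : L) = ∑ i ∈ Finset.range m, (1 - η ^ i) := by
    rw [Finset.sum_sub_distrib, hgeom, sub_zero, Finset.sum_const, Finset.card_range,
      nsmul_eq_mul, mul_one]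
  have hvpow : ∀ i : ℕ, A.valuation (1 - η ^ i) < 1 := by
    intro i
    have h2 : (1 : L) - η ^ i = (1 - η) * ∑ j ∈ Finset.range i, η ^ j := by
      have := mul_geom_sum η i
      linear_combination this
    rw [h2, map_mul]
    have h3 : A.valuation (∑ j ∈ Finset.range i, η ^ j) ≤ 1 :=
      (A.valuation_le_one_iff _).mpr (sum_mem (fun j _ => pow_mem hηA j))
    exact lt_of_le_of_lt (mul_le_of_le_one_right' h3) h1η
  have hvm : A.valuation (m : L) < 1 := by
    rw [hmsum]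
    exact A.valuation.map_sum_lt one_ne_zero (fun i _ => hvpow i)
  have hvℓ : A.valuation (ℓ : L) < 1 := (ValuationSubring.mem_nonunits_iff A).mp hℓ
  have hbez : (ℓ : ℤ) * Nat.gcdA ℓ m + (m : ℤ) * Nat.gcdB ℓ m = 1 := by
    have := Nat.gcd_eq_gcd_ab ℓ m
    rw [hcop] at this
    exact_mod_cast this.symm
  have hbezL : (ℓ : L) * ((Nat.gcdA ℓ m : ℤ) : L) + (m : L) * ((Nat.gcdB ℓ m : ℤ) : L) = 1 := by
    exact_mod_cast congrArg (Int.cast : ℤ → L) hbez
  have hint : ∀ z : ℤ, A.valuation (z : L) ≤ 1 := fun z =>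
    (A.valuation_le_one_iff _).mpr (intCast_mem A z)
  have hlt : A.valuation
      ((ℓ : L) * ((Nat.gcdA ℓ m : ℤ) : L) + (m : L) * ((Nat.gcdB ℓ m : ℤ) : L)) < 1 := by
    refine lt_of_le_of_lt (A.valuation.map_add _ _) (max_lt ?_ ?_)
    · rw [map_mul]; exact lt_of_le_of_lt (mul_le_of_le_one_right' (hint _)) hvℓ
    · rw [map_mul]; exact lt_of_le_of_lt (mul_le_of_le_one_right' (hint _)) hvm
  rw [hbezL, map_one] at hlt
  exact lt_irrefl _ hlt

variable {K : Type*} [Field K] [Algebra K L]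

/-- A Frobenius element in the Prelude's sense satisfies the Frobenius congruence. -/
theorem cy92_congr_of_isFrobeniusAt (A : ValuationSubring L) (σ : L ≃ₐ[K] L) (q : ℕ)
    (h : A.IsFrobeniusAt σ q) (x : L) (hx : x ∈ A) : σ x - x ^ q ∈ A.nonunits := by
  have h1 := h.smul_residue_eq (IsLocalRing.residue A ⟨x, hx⟩)
  rw [← IsLocalRing.ResidueField.residue_smul, ← map_pow, ← sub_eq_zero, ← map_sub,
    IsLocalRing.residue_eq_zero_iff] at h1
  rw [ValuationSubring.mem_nonunits_iff_exists_mem_maximalIdeal]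
  exact ⟨_, h1⟩

/-- Elements of the inertia group act trivially on the residue field. -/
theorem cy92_congr_of_mem_inertia (A : ValuationSubring L) {σ : L ≃ₐ[K] L}
    (hσ : σ ∈ A.inertiaSubgroupIn K) (x : L) (hx : x ∈ A) : σ x - x ∈ A.nonunits := by
  obtain ⟨τ, hτ, rfl⟩ := Subgroup.mem_map.mp hσ
  have h1 : MulSemiringAction.toRingAut (A.decompositionSubgroup K)
      (IsLocalRing.ResidueField A) τ = 1 := MonoidHom.mem_ker.mp hτ
  have h2 : τ • (IsLocalRing.residue A ⟨x, hx⟩) = IsLocalRing.residue A ⟨x, hx⟩ := by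
    have := congrArg (fun f => f (IsLocalRing.residue A ⟨x, hx⟩)) h1
    simpa using this
  rw [← IsLocalRing.ResidueField.residue_smul] at h2
  have h3 : IsLocalRing.residue A (τ • (⟨x, hx⟩ : A) - ⟨x, hx⟩) = 0 := by
    rw [map_sub, h2, sub_self]
  rw [IsLocalRing.residue_eq_zero_iff] at h3
  exact ValuationSubring.coe_mem_nonunits_iff.mpr h3

end Generic

section Cyclo

variable (p : ℕ) [Fact p.Prime]

/-- A primitive `p`-th root of unity in `ℚ̄`. -/
theorem cy92_exists_primitiveRoot : ∃ ζ : Qb, IsPrimitiveRoot ζ p := by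
  haveI := h95_isAlgClosure_rat
  haveI : NeZero p := ⟨(Fact.out : p.Prime).ne_zero⟩
  haveI : NeZero ((p : ℕ) : Qb) := ⟨Nat.cast_ne_zero.mpr (Fact.out : p.Prime).ne_zero⟩
  exact HasEnoughRootsOfUnity.exists_primitiveRoot Qb p

/-- Roots of unity lie in every valuation subring. -/
theorem cy92_root_mem {L : Type*} [Field L] (A : ValuationSubring L) {m : ℕ} (hm : 0 < m)
    {ζ : L} (hζ : ζ ^ m = 1) : ζ ∈ A := by
  rw [← ValuationSubring.valuation_le_one_iff]
  have h1 : A.valuation ζ ^ m = 1 := by rw [← map_pow, hζ, map_one]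
  exact ((pow_eq_one_iff.mp h1).resolve_right hm.ne').le

/-- The cyclotomic character is determined by the exponent on one primitive root. -/
theorem cy92_eq_of_map_zeta {ζ : Qb} (hζ : IsPrimitiveRoot ζ p) (σ : GQ) (m : ℕ)
    (h : σ ζ = ζ ^ m) : ((ExtCitation.cycloChar p σ : (ZMod p)ˣ) : ZMod p) = (m : ZMod p) := by
  have h1 := (h95_map_zeta_eq_iff p hζ σ m).mp h
  rw [ExtCitation.coe_cycloChar]
  exact ((ZMod.natCast_eq_natCast_iff _ _ _).mpr h1).symm

/-- **Frobenius value.**  The mod `p` cyclotomic character takes the value `ℓ` on every Frobenius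
element at a prime `ℓ ≠ p`. -/
theorem cy92_frob {ℓ : ℕ} (hℓ : ℓ.Prime) (hℓp : ℓ ≠ p)
    (A : ValuationSubring (AlgebraicClosure ℚ)) (hA : A.LiesOverPrime ℓ)
    (τ : AlgebraicClosure ℚ ≃ₐ[ℚ] AlgebraicClosure ℚ) (hτ : A.IsFrobeniusAt τ ℓ) :
    ((ExtCitation.cycloChar p τ : (ZMod p)ˣ) : ZMod p) = (ℓ : ZMod p) := by
  have hp : p.Prime := Fact.out
  obtain ⟨ζ, hζ⟩ := cy92_exists_primitiveRoot p
  have hζA : ζ ∈ A := cy92_root_mem A hp.pos hζ.pow_eq_one
  have h1 := cy92_congr_of_isFrobeniusAt A τ ℓ hτ ζ hζA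
  rw [h95_map_zeta p hζ τ] at h1
  have hcop : Nat.Coprime ℓ p := (Nat.coprime_primes hℓ hp).mpr hℓp
  have h2 := cy92_modEq_of_sub_mem A hA hcop hp.pos hζ h1
  rw [ExtCitation.coe_cycloChar]
  exact (ZMod.natCast_eq_natCast_iff _ _ _).mpr h2

/-- **Inertia.**  The mod `p` cyclotomic character is trivial on the inertia groups at the
primes `ℓ ≠ p`. -/
theorem cy92_inertia {ℓ : ℕ} (hℓ : ℓ.Prime) (hℓp : ℓ ≠ p)
    (A : ValuationSubring (AlgebraicClosure ℚ)) (hA : A.LiesOverPrime ℓ)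
    (σ : AlgebraicClosure ℚ ≃ₐ[ℚ] AlgebraicClosure ℚ) (hσ : σ ∈ A.inertiaSubgroupIn ℚ) :
    ExtCitation.cycloChar p σ = 1 := by
  have hp : p.Prime := Fact.out
  obtain ⟨ζ, hζ⟩ := cy92_exists_primitiveRoot p
  have hζA : ζ ∈ A := cy92_root_mem A hp.pos hζ.pow_eq_one
  have h1 := cy92_congr_of_mem_inertia A hσ ζ hζA
  rw [h95_map_zeta p hζ σ] at h1
  have hcop : Nat.Coprime ℓ p := (Nat.coprime_primes hℓ hp).mpr hℓp
  have h1' : ζ ^ ExtCitation.cycloExp p σ - ζ ^ 1 ∈ A.nonunits := by rwa [pow_one]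
  have h2 := cy92_modEq_of_sub_mem A hA hcop hp.pos hζ h1'
  apply Units.ext
  rw [ExtCitation.coe_cycloChar, Units.val_one]
  have := (ZMod.natCast_eq_natCast_iff _ _ _).mpr h2
  simpa using this

/-- The cyclotomic character of an element fixing the `p`-th roots of unity is trivial. -/
theorem cy92_eq_one_of_fix (σ : AlgebraicClosure ℚ ≃ₐ[ℚ] AlgebraicClosure ℚ)
    (h : ∀ z : AlgebraicClosure ℚ, z ^ p = 1 → σ z = z) : ExtCitation.cycloChar p σ = 1 := by
  obtain ⟨ζ, hζ⟩ := cy92_exists_primitiveRoot p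
  have h1 : σ ζ = ζ ^ 1 := by rw [pow_one]; exact h ζ hζ.pow_eq_one
  apply Units.ext
  rw [cy92_eq_of_map_zeta p hζ σ 1 h1, Units.val_one, Nat.cast_one]

/-- **Finite level.**  The mod `p` cyclotomic character factors through `ℚ(ζ_p)`. -/
theorem cy92_finiteLevel : GaloisFactorsThroughFiniteLevel (ExtCitation.cycloChar p) := by
  haveI := h95_isAlgClosure_rat
  obtain ⟨ζ, hζ⟩ := cy92_exists_primitiveRoot p
  haveI : FiniteDimensional ℚ (IntermediateField.adjoin ℚ ({ζ} : Set Qb)) :=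
    IntermediateField.finiteDimensional_adjoin (fun x _ => Algebra.IsIntegral.isIntegral x)
  refine ⟨IntermediateField.adjoin ℚ ({ζ} : Set Qb), inferInstance, fun σ hσ => ?_⟩
  apply cy92_eq_one_of_fix
  intro z hz
  obtain ⟨i, -, rfl⟩ := hζ.eq_pow_of_pow_eq_one hz
  rw [map_pow, hσ ζ (IntermediateField.subset_adjoin ℚ _ (Set.mem_singleton ζ))]

/-- If `g` agrees with `τ ^ j` on the `p`-th roots of unity, then the cyclotomic characters
satisfy `χ(g) = χ(τ) ^ j`. -/
theorem cy92_of_pow (g τ : AlgebraicClosure ℚ ≃ₐ[ℚ] AlgebraicClosure ℚ) (j : ℕ)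
    (h : ∀ z : AlgebraicClosure ℚ, z ^ p = 1 → g z = (τ ^ j) z) :
    ExtCitation.cycloChar p g = ExtCitation.cycloChar p τ ^ j := by
  have h1 : ExtCitation.cycloChar p (g⁻¹ * τ ^ j) = 1 := by
    apply cy92_eq_one_of_fix
    intro z hz
    rw [AlgEquiv.mul_apply, ← h z hz]
    exact g.symm_apply_apply z
  rw [map_mul, map_inv, map_pow, inv_mul_eq_one] at h1
  exact h1

end Cyclo

end Fermat.Agent.S42
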