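/-
S42 / S29 (Project 4), referee file (helper76): the two frozen statements from ONE core.

* `fz76_Core N g p 𝔪` : a residual Galois representation over `ℤ̄ ⧸ 𝔪` attached to `g`
  (in the sense of the Prelude `ResidualGaloisRep.IsAttachedTo`, along the quotient map) and
  unramified outside `N p`.
* `fz76_S29_of_core` : the frozen statement S29 from the core at all positive levels.
* `fz76_S42_of_core` : the frozen statement S42 from the core at the prime of the Frey package.
-/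
import Mathlib
import Fermat.Prelude.Def_GaloisRep_Residual
import Fermat.Prelude.Def_FreyPackage_EigenformResidualAttachment
import Fermat.Agent.Lib.FreyModel
import Fermat.Agent.S41.TorsCardE82

set_option autoImplicit false
set_option linter.style.haveILetI false
set_option linter.unusedVariables false

namespace Fermat.Agent.S42

open Polynomial

local notation "Zb76" => integralClosure ℤ ℂ
local notation "GQ76" => AlgebraicClosure ℚ ≃ₐ[ℚ] AlgebraicClosure ℚ

attribute [local instance] Ideal.Quotient.field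

/-- **The core**: a residual Galois representation over `ℤ̄ ⧸ 𝔪` attached to `g` and unramified
outside `N p`. -/
def fz76_Core (N : ℕ) (g : CuspForm (CongruenceSubgroup.Gamma0 N) 2) (p : ℕ)
    (𝔪 : Ideal Zb76) [𝔪.IsMaximal] : Prop :=
  ∃ ρ : ResidualGaloisRep (Zb76 ⧸ 𝔪), ρ.IsAttachedTo g (Ideal.Quotient.mk 𝔪) ∧
    ∀ ℓ : ℕ, ℓ.Prime → ¬ ℓ ∣ N * p → ρ.IsUnramifiedAt ℓ

/-! ### S29 -/

/-- The trivial two-dimensional residual representation. -/
noncomputable def fz76_trivial (k : Type) [Field k] : ResidualGaloisRep k where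
  V := Fin 2 → k
  finrank_eq := by simp
  ρ := 1
  factorsThroughFiniteLevel := ⟨⊥, inferInstance, fun _ _ => rfl⟩

/-- The kernel of a ring homomorphism from the algebraic integers to a field of characteristic
`p` is a maximal ideal. -/
theorem fz76_ker_isMaximal {p : ℕ} (hp : p.Prime) {k : Type} [Field k] [CharP k p]
    (φ : Zb76 →+* k) : (RingHom.ker φ).IsMaximal := by
  haveI : (RingHom.ker φ).IsPrime := RingHom.ker_isPrime φ
  haveI : Algebra.IsIntegral ℤ Zb76 := inferInstance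
  apply Ideal.isMaximal_of_isIntegral_of_isMaximal_comap (R := ℤ) (RingHom.ker φ)
  have hmax : (Ideal.span {(p : ℤ)}).IsMaximal :=
    PrincipalIdealRing.isMaximal_of_irreducible (Nat.prime_iff_prime_int.mp hp).irreducible
  have hle : Ideal.span {(p : ℤ)} ≤ (RingHom.ker φ).comap (algebraMap ℤ Zb76) := by
    rw [Ideal.span_le, Set.singleton_subset_iff]
    show algebraMap ℤ Zb76 (p : ℤ) ∈ RingHom.ker φ
    rw [RingHom.mem_ker]
    simp
  have hne : (RingHom.ker φ).comap (algebraMap ℤ Zb76) ≠ ⊤ :=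
    (Ideal.IsPrime.comap (algebraMap ℤ Zb76) (K := RingHom.ker φ)).ne_top
  rw [← hmax.eq_of_le hne hle]
  exact hmax

/-- Base change of the core representation along an injection of fields: attachment. -/
theorem fz76_isAttachedTo_baseChangeAlong {N : ℕ} {g : CuspForm (CongruenceSubgroup.Gamma0 N) 2}
    {k0 k : Type} [Field k0] [Field k] (ι : k0 →+* k) (ρ : ResidualGaloisRep k0)
    (φ0 : Zb76 →+* k0) (hρ : ρ.IsAttachedTo g φ0) :
    (ρ.baseChangeAlong ι).IsAttachedTo g (ι.comp φ0) := by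
  intro ℓ hℓ hℓN hℓk A hA σ hσ
  have hℓ0 : ((ℓ : ℕ) : k0) ≠ 0 := by
    intro h
    apply hℓk
    rw [← map_natCast ι, h, map_zero]
  obtain ⟨a, ha, hchar⟩ := hρ ℓ hℓ hℓN hℓ0 A hA σ hσ
  refine ⟨a, ha, ?_⟩
  letI : Algebra k0 k := ι.toAlgebra
  show LinearMap.charpoly ((ρ.ρ σ).baseChange k) = _
  rw [LinearMap.charpoly_baseChange, hchar, Polynomial.map_add, Polynomial.map_sub,
    Polynomial.map_mul, Polynomial.map_pow, Polynomial.map_X, Polynomial.map_C, Polynomial.map_C,
    map_natCast]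
  rfl

/-- Base change of the core representation along an injection of fields: ramification. -/
theorem fz76_isUnramifiedAt_baseChangeAlong {k0 k : Type} [Field k0] [Field k] (ι : k0 →+* k)
    (ρ : ResidualGaloisRep k0) {ℓ : ℕ} (hρ : ρ.IsUnramifiedAt ℓ) :
    (ρ.baseChangeAlong ι).IsUnramifiedAt ℓ := by
  intro A hA σ hσ
  letI : Algebra k0 k := ι.toAlgebra
  show (ρ.ρ σ).baseChange k = 1
  rw [hρ A hA σ hσ]
  exact LinearMap.baseChange_one _ _

/-- **Frozen statement S29 from the core** (at all positive levels). -/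
theorem fz76_S29_of_core
    (hcore : ∀ (N : ℕ), 0 < N → ∀ g : CuspForm (CongruenceSubgroup.Gamma0 N) 2,
      g.IsNormalizedEigenform → ∀ p : ℕ, p.Prime → ∀ (𝔪 : Ideal Zb76) [𝔪.IsMaximal],
        (p : Zb76) ∈ 𝔪 → fz76_Core N g p 𝔪)
    {N : ℕ} {g : CuspForm (CongruenceSubgroup.Gamma0 N) 2} (hg : g.IsNormalizedEigenform)
    {p : ℕ} (hp : p.Prime) {k : Type} [Field k] [CharP k p]
    (φ : integralClosure ℤ ℂ →+* k) :
    ∃ ρ : ResidualGaloisRep k, ρ.IsAttachedTo g φ ∧
      ∀ ℓ : ℕ, ℓ.Prime → ¬ ℓ ∣ N * p → ρ.IsUnramifiedAt ℓ := by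
  rcases Nat.eq_zero_or_pos N with hN | hN
  · subst hN
    exact ⟨fz76_trivial k, fun ℓ _ hℓN => absurd (dvd_zero ℓ) hℓN,
      fun ℓ _ hℓN => absurd (by rw [zero_mul]; exact dvd_zero ℓ) hℓN⟩
  · haveI hmax : (RingHom.ker φ).IsMaximal := fz76_ker_isMaximal hp φ
    have hpm : (p : Zb76) ∈ RingHom.ker φ := by
      rw [RingHom.mem_ker]
      simp
    obtain ⟨ρ, hatt, hur⟩ := hcore N hN g hg p hp (RingHom.ker φ) hpm
    refine ⟨ρ.baseChangeAlong (RingHom.kerLift φ), ?_, fun ℓ hℓ hℓN =>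
      fz76_isUnramifiedAt_baseChangeAlong _ ρ (hur ℓ hℓ hℓN)⟩
    have h := fz76_isAttachedTo_baseChangeAlong (RingHom.kerLift φ) ρ _ hatt
    have hφ : (RingHom.kerLift φ).comp (Ideal.Quotient.mk (RingHom.ker φ)) = φ :=
      RingHom.ext fun a => RingHom.kerLift_mk φ a
    rwa [hφ] at h

/-! ### S42 -/

/-- `ℚ̄` is an algebraic closure of `ℚ` for the ambient `ℚ`-algebra structure. -/
theorem fz76_isAlgClosure_rat : IsAlgClosure ℚ (AlgebraicClosure ℚ) := by
  have h : (DivisionRing.toRatAlgebra : Algebra ℚ (AlgebraicClosure ℚ)) =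
      AlgebraicClosure.instAlgebra ℚ := Subsingleton.elim _ _
  rw [h]
  infer_instance

attribute [local instance] fz76_isAlgClosure_rat

/-- `ℚ̄` is algebraic over `ℚ` for the ambient `ℚ`-algebra structure. -/
theorem fz76_isAlgebraic_rat : Algebra.IsAlgebraic ℚ (AlgebraicClosure ℚ) :=
  IsAlgClosure.isAlgebraic

attribute [local instance] fz76_isAlgebraic_rat

/-- Trace and determinant of an endomorphism of a plane from its characteristic polynomial. -/
theorem fz76_trace_det {K V : Type} [Field K] [AddCommGroup V] [Module K V]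
    [Module.Finite K V] (hV : Module.finrank K V = 2) (f : V →ₗ[K] V) (t d : K)
    (h : LinearMap.charpoly f = X ^ 2 - C t * X + C d) :
    LinearMap.trace K V f = t ∧ LinearMap.det f = d := by
  constructor
  · let b : Module.Basis (Fin 2) K V := Module.finBasisOfFinrankEq K V hV
    rw [LinearMap.trace_eq_matrix_trace K b f, Matrix.trace_eq_neg_charpoly_coeff,
      LinearMap.charpoly_toMatrix, h]
    simp [Polynomial.coeff_C]
  · rw [LinearMap.det_eq_sign_charpoly_coeff, hV, h]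
    simp [Polynomial.coeff_X, Polynomial.coeff_C]

open WeierstrassCurve WeierstrassCurve.Affine WeierstrassCurve.Affine.Point in
/-- The Galois action on a finite torsion subgroup of a Weierstrass curve over `ℚ` factors
through a finite level. -/
theorem fz76_finiteLevel [DecidableEq (AlgebraicClosure ℚ)] (W : WeierstrassCurve.Affine ℚ)
    (n : ℕ) (hfin : Finite (Submodule.torsionBy ℤ (W⁄(AlgebraicClosure ℚ)).Point n)) :
    ∃ L : IntermediateField ℚ (AlgebraicClosure ℚ), FiniteDimensional ℚ L ∧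
      ∀ σ : GQ76, (∀ x ∈ L, σ x = x) →
        galoisRepModuleEnd (S := ℚ) (K := AlgebraicClosure ℚ) W n σ = 1 := by
  let c : (W⁄(AlgebraicClosure ℚ)).Point → Set (AlgebraicClosure ℚ) := fun P =>
    match P with
    | .zero => ∅
    | .some x y _ => {x, y}
  let S : Set (AlgebraicClosure ℚ) :=
    ⋃ P : Submodule.torsionBy ℤ (W⁄(AlgebraicClosure ℚ)).Point n, c P.1
  have hc : ∀ P, (c P).Finite := by
    rintro (_ | ⟨x, y, h⟩)
    · exact Set.finite_empty
    · exact Set.toFinite _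
  have hSfin : S.Finite := Set.finite_iUnion fun P => hc P.1
  refine ⟨IntermediateField.adjoin ℚ S, ?_, ?_⟩
  · haveI : Finite S := hSfin.to_subtype
    exact IntermediateField.finiteDimensional_adjoin
      (fun x _ => (Algebra.IsAlgebraic.isAlgebraic x).isIntegral)
  · intro σ hσ
    refine LinearMap.ext fun P => ?_
    rw [galoisRepModuleEnd_apply]
    apply Subtype.ext
    show σ • (P : (W⁄(AlgebraicClosure ℚ)).Point) = (P : (W⁄(AlgebraicClosure ℚ)).Point)
    have hP : c P.1 ⊆ S := Set.subset_iUnion (fun P : Submodule.torsionBy ℤ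
      (W⁄(AlgebraicClosure ℚ)).Point n => c P.1) P
    rw [algEquiv_smul_def]
    rcases hPe : (P : (W⁄(AlgebraicClosure ℚ)).Point) with _ | ⟨x, y, h⟩
    · rfl
    · rw [hPe] at hP
      have hx : σ x = x := hσ x (IntermediateField.subset_adjoin ℚ S (hP (by simp [c])))
      have hy : σ y = y := hσ y (IntermediateField.subset_adjoin ℚ S (hP (by simp [c])))
      rw [Point.map_some]
      simp only [Point.some.injEq]
      exact ⟨hx, hy⟩

open WeierstrassCurve WeierstrassCurve.Affine WeierstrassCurve.Affine.Point in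
/-- **Frozen statement S42 from the core** (at the prime of the Frey package). -/
theorem fz76_S42_of_core (P : FreyPackage)
    (hcore : ∀ M : ℕ, 0 < M → ∀ g : CuspForm (CongruenceSubgroup.Gamma0 M) 2,
      g.IsNormalizedEigenform → ∀ (𝔪 : Ideal Zb76) [𝔪.IsMaximal],
        (P.p : Zb76) ∈ 𝔪 → fz76_Core M g P.p 𝔪) :
    ∀ M : ℕ, 0 < M → P.EigenformResidualAttachmentAt M := by
  intro M hM g hg 𝔪 hmax hp𝔪
  haveI := hmax
  obtain ⟨ρ, hatt, -⟩ := hcore M hM g hg 𝔪 hp𝔪
  have hp0 : ((P.p : ℕ) : Zb76 ⧸ 𝔪) = 0 := by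
    rw [← map_natCast (Ideal.Quotient.mk 𝔪)]
    exact Ideal.Quotient.eq_zero_iff_mem.mpr hp𝔪
  haveI hchar : CharP (Zb76 ⧸ 𝔪) P.p := (CharP.charP_iff_prime_eq_zero P.pp).mpr hp0
  obtain ⟨L1, hL1, hρL⟩ := ρ.factorsThroughFiniteLevel
  have hp2 : P.p ≠ 2 := by have := P.hp5; omega
  obtain ⟨L2, hL2, hEL⟩ := @fz76_finiteLevel FreyPackage.instDecEqQbarCongruenceRecovery
    P.freyCurve P.p
    (by
      have h := (Fermat.Agent.S41.tc82_card_torsionBy_rat P.freyCurve
        (Fermat.Agent.Lib.freyCurve_Δ_ne_zero P) P.pp hp2).1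
      convert h)
  haveI : FiniteDimensional ℚ (L1 ⊔ L2 : IntermediateField ℚ (AlgebraicClosure ℚ)) :=
    IntermediateField.finiteDimensional_sup L1 L2
  let L : IntermediateField ℚ (AlgebraicClosure ℚ) :=
    IntermediateField.normalClosure ℚ (L1 ⊔ L2 : IntermediateField ℚ (AlgebraicClosure ℚ))
      (AlgebraicClosure ℚ)
  haveI hLfd : FiniteDimensional ℚ L := normalClosure.is_finiteDimensional ..
  haveI hLn : Normal ℚ L := normalClosure.normal ..
  have hnf : NumberField L := by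
    refine { to_charZero := inferInstance, to_finiteDimensional := ?_ }
    convert hLfd
  have hgal : IsGalois ℚ L := by
    haveI : Algebra.IsSeparable ℚ L := inferInstance
    exact { }
  have hℓK : ∀ ℓ : ℕ, ℓ.Prime → ℓ ≠ P.p → ((ℓ : ℕ) : Zb76 ⧸ 𝔪) ≠ 0 := by
    intro ℓ hℓ hℓp h
    rw [CharP.cast_eq_zero_iff (Zb76 ⧸ 𝔪) P.p ℓ] at h
    exact hℓp ((Nat.prime_dvd_prime_iff_eq P.pp hℓ).mp h).symm
  refine ⟨Zb76 ⧸ 𝔪, Ideal.Quotient.field 𝔪, ZMod.algebra _ P.p, ρ.V, inferInstance, inferInstance,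
    ρ.ρ, Ideal.Quotient.mk 𝔪, L, inferInstance, hnf, hgal, inferInstance, inferInstance, ?_,
    ρ.finrank_eq, ?_, ?_, ?_⟩
  · intro x hx
    exact Ideal.Quotient.eq_zero_iff_mem.mpr hx
  · intro σ hσ
    rw [MonoidHom.mem_ker] at hσ
    have hfix : ∀ x ∈ L, σ x = x := by
      intro x hx
      have h1 := AlgEquiv.restrictNormal_commutes σ L ⟨x, hx⟩
      have h2 : σ.restrictNormal L = 1 := hσ
      rw [h2] at h1
      exact h1.symm
    have hle : (L1 ⊔ L2 : IntermediateField ℚ (AlgebraicClosure ℚ)) ≤ L :=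
      IntermediateField.le_normalClosure _
    rw [Subgroup.mem_inf, MonoidHom.mem_ker, MonoidHom.mem_ker]
    exact ⟨hEL σ fun x hx => hfix x (hle (le_sup_right (a := L1) hx)),
      hρL σ fun x hx => hfix x (hle (le_sup_left (b := L2) hx))⟩
  · intro ℓ hℓ hℓM hℓp A hA τ hτ
    obtain ⟨a, ha, hch⟩ := hatt ℓ hℓ hℓM (hℓK ℓ hℓ hℓp) A hA τ hτ
    exact ⟨a, ha, (fz76_trace_det ρ.finrank_eq (ρ.ρ τ) _ _ hch).1⟩
  · intro ℓ hℓ hℓM hℓp A hA τ hτ
    obtain ⟨a, ha, hch⟩ := hatt ℓ hℓ hℓM (hℓK ℓ hℓ hℓp) A hA τ hτ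
    exact (fz76_trace_det ρ.finrank_eq (ρ.ρ τ) _ _ hch).2

end Fermat.Agent.S42
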