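import Fermat.Agent.S37.LevelUp1
import Fermat.Agent.S37.HeckeExports63
import Fermat.Prelude.Thm_ModularCurve_coeffMap_qExpand

/-!
# S42, row M10 (iii) (helper25): the Galois action commutes with the Hecke operators

For every level `N`, every prime `ℓ` (also `ℓ ∣ N`) and every `σ ∈ Gal(ℚ̄/ℚ)`:

  `σ • T_ℓ x = T_ℓ (σ • x)`   on `JZero N = Pic⁰(ℚ̄ · F_N)`,

with `T_ℓ = heckeOperatorBar N ℓ` and the arithmetic (coefficientwise) Galois action of the
Prelude.  No commutativity hypothesis on the Hecke operators is used.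

* `hg25_pushforward_smul`, `hg25_pullbackAlong_smul`, `hg25_pushforwardAlong_smul`,
  `hg25_correspondence_smul` : push-forward, pull-back and correspondences of divisors commute
  with semilinear automorphisms that are intertwined by the two maps;
* `hg25_intertwines_alpha`, `hg25_intertwines_beta` : the two degeneracy maps `α` (inclusion)
  and `β` (`q ↦ q^ℓ`) intertwine the coefficientwise Galois actions at levels `N` and `N ℓ`;
* `hg25_heckeDivBar_smul` : `T_ℓ (σ D) = σ (T_ℓ D)` on divisors;
* `hg25_hecke_galois` : the statement on `JZero N`.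
-/

set_option autoImplicit false
set_option linter.style.haveILetI false
set_option linter.unusedSectionVars false

open ModularCurve AlgebraicCurve

namespace Fermat.Agent.S42

open Fermat.Agent.S37

section hg25_generic

variable {K F F' : Type*} [Field K] [Field F] [Field F']
  [Algebra K F] [Algebra K F']

section hg25_tower

variable [Algebra F F'] [IsScalarTower K F F'] [Algebra.IsIntegral F F']

/-- Push-forward of divisors commutes with intertwined semilinear automorphisms (all inertia
degrees being `1`). -/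
theorem hg25_pushforward_smul {g : SemilinearAut K F} {g' : SemilinearAut K F'}
    (h : SemilinearAut.IntertwinesAlong (algebraMap F F') g g')
    (hdeg : ∀ w : Place K F', w.inertiaDeg F = 1) (D : Divisor K F') :
    Divisor.pushforward F (g' • D) = g • Divisor.pushforward F D := by
  induction D using Finsupp.induction with
  | zero => simp
  | single_add w n D _ _ ih =>
    rw [smul_add, map_add, map_add, smul_add, ih]
    congr 1
    rw [SemilinearAut.smul_single, Divisor.pushforward_single, Divisor.pushforward_single,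
      SemilinearAut.smul_single, lu1_restrict_smul h, hdeg, hdeg]

end hg25_tower

/-- Pull-back along `φ` commutes with semilinear automorphisms intertwined by `φ`. -/
theorem hg25_pullbackAlong_smul [HasPrincipalDivisors K F'] (φ : F →ₐ[K] F')
    (hφ : φ.toRingHom.IsIntegral) {g : SemilinearAut K F} {g' : SemilinearAut K F'}
    (h : SemilinearAut.IntertwinesAlong φ.toRingHom g g') (D : Divisor K F) :
    Divisor.pullbackAlong φ hφ (g • D) = g' • Divisor.pullbackAlong φ hφ D := by
  letI := algebraAlong φ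
  haveI := isScalarTower_along φ
  haveI := isIntegral_along φ hφ
  exact lu1_pullback_smul (F' := F') h D

/-- Push-forward along `φ` commutes with semilinear automorphisms intertwined by `φ`. -/
theorem hg25_pushforwardAlong_smul (φ : F →ₐ[K] F')
    (hφ : φ.toRingHom.IsIntegral) {g : SemilinearAut K F} {g' : SemilinearAut K F'}
    (h : SemilinearAut.IntertwinesAlong φ.toRingHom g g')
    (hdeg : ∀ w : Place K F', w.inertiaDegAlong φ hφ = 1) (D : Divisor K F') :
    Divisor.pushforwardAlong φ hφ (g' • D) = g • Divisor.pushforwardAlong φ hφ D := by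
  letI := algebraAlong φ
  haveI := isScalarTower_along φ
  haveI := isIntegral_along φ hφ
  exact hg25_pushforward_smul (F := F) (F' := F') h hdeg D

/-- The correspondence `ψ_* φ^*` commutes with semilinear automorphisms intertwined by both
maps. -/
theorem hg25_correspondence_smul [HasPrincipalDivisors K F'] (φ ψ : F →ₐ[K] F')
    (hφ : φ.toRingHom.IsIntegral) (hψ : ψ.toRingHom.IsIntegral)
    {g : SemilinearAut K F} {g' : SemilinearAut K F'}
    (h₁ : SemilinearAut.IntertwinesAlong φ.toRingHom g g')
    (h₂ : SemilinearAut.IntertwinesAlong ψ.toRingHom g g')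
    (hdeg : ∀ w : Place K F', w.inertiaDegAlong ψ hψ = 1) (D : Divisor K F) :
    Divisor.correspondence φ ψ hφ hψ (g • D) = g • Divisor.correspondence φ ψ hφ hψ D := by
  rw [Divisor.correspondence_apply, Divisor.correspondence_apply,
    hg25_pullbackAlong_smul φ hφ h₁, hg25_pushforwardAlong_smul ψ hψ h₂ hdeg]

end hg25_generic

section hg25_modular

variable {L : Type*} [Field L] [Algebra ℚ L]

/-- The inclusion `α : L · F_N → L · F_{N ℓ}` intertwines the coefficientwise Galois actions. -/
theorem hg25_intertwines_alpha (N ℓ : ℕ) [NeZero N] [NeZero ℓ] (σ : L ≃ₐ[ℚ] L) :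
    SemilinearAut.IntertwinesAlong (heckeAlphaBar L N ℓ).toRingHom
      (arithmeticGalois (modularFunctionFieldFull N) σ)
      (arithmeticGalois (modularFunctionFieldFull (N * ℓ)) σ) := by
  intro x
  apply Subtype.ext
  show coeffMap (σ : L →+* L) ((heckeAlphaBar L N ℓ x : _) : LaurentSeries L) =
    ((heckeAlphaBar L N ℓ (arithmeticGalois (modularFunctionFieldFull N) σ • x) : _) :
      LaurentSeries L)
  rw [coe_heckeAlphaBar, coe_heckeAlphaBar, coe_arithmeticGalois_smul]

/-- The map `β : L · F_N → L · F_{N ℓ}`, `q ↦ q^ℓ`, intertwines the coefficientwise Galois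
actions. -/
theorem hg25_intertwines_beta (N ℓ : ℕ) [NeZero N] [NeZero ℓ] (σ : L ≃ₐ[ℚ] L) :
    SemilinearAut.IntertwinesAlong (heckeBetaBar L N ℓ).toRingHom
      (arithmeticGalois (modularFunctionFieldFull N) σ)
      (arithmeticGalois (modularFunctionFieldFull (N * ℓ)) σ) := by
  intro x
  apply Subtype.ext
  show coeffMap (σ : L →+* L) ((heckeBetaBar L N ℓ x : _) : LaurentSeries L) =
    ((heckeBetaBar L N ℓ (arithmeticGalois (modularFunctionFieldFull N) σ • x) : _) :
      LaurentSeries L)
  rw [coe_heckeBetaBar, coe_heckeBetaBar, coe_arithmeticGalois_smul, coeffMap_qExpand]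

end hg25_modular

section hg25_main

/-- `T_ℓ` commutes with the Galois action on divisors of `ℚ̄ · F_N`. -/
theorem hg25_heckeDivBar_smul (N ℓ : ℕ) [NeZero N] [NeZero ℓ]
    (hα : HeckeAlphaBarIntegral (AlgebraicClosure ℚ) N ℓ)
    (hβ : HeckeBetaBarIntegral (AlgebraicClosure ℚ) N ℓ)
    [HasPrincipalDivisors (AlgebraicClosure ℚ) ↥(modularFunctionFieldBar (N * ℓ))]
    (σ : AlgebraicClosure ℚ ≃ₐ[ℚ] AlgebraicClosure ℚ)
    (D : Divisor (AlgebraicClosure ℚ) ↥(modularFunctionFieldBar N)) :
    heckeDivBar hα hβ (arithmeticGalois (modularFunctionFieldFull N) σ • D) =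
      arithmeticGalois (modularFunctionFieldFull N) σ • heckeDivBar hα hβ D := by
  haveI : NeZero (N * ℓ) := ⟨mul_ne_zero (NeZero.ne N) (NeZero.ne ℓ)⟩
  exact hg25_correspondence_smul (heckeBetaBar (AlgebraicClosure ℚ) N ℓ)
    (heckeAlphaBar (AlgebraicClosure ℚ) N ℓ) hβ hα
    (hg25_intertwines_beta N ℓ σ) (hg25_intertwines_alpha N ℓ σ)
    (fun w => hx63_inertiaDegAlong_gen hα w) D

/-- **The Galois action commutes with the Hecke operators on `J₀(N)(ℚ̄)`** (every prime `ℓ`,
every `σ`, every class `x`; no commutativity hypothesis). -/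
theorem hg25_hecke_galois (N : ℕ) [NeZero N] (ℓ : Nat.Primes)
    (σ : AlgebraicClosure ℚ ≃ₐ[ℚ] AlgebraicClosure ℚ) (x : JZero N) :
    σ • heckeOperatorBar N ℓ x = heckeOperatorBar N ℓ (σ • x) := by
  obtain ⟨ℓ, hℓ⟩ := ℓ
  haveI : NeZero ℓ := ⟨hℓ.ne_zero⟩
  haveI : NeZero (N * ℓ) := ⟨mul_ne_zero (NeZero.ne N) (NeZero.ne ℓ)⟩
  haveI := hi63_hasPrincipalDivisors_bar (N * ℓ)
  have hα := hx63_heckeAlphaBarIntegral N ℓ
  have hβ := hx63_heckeBetaBarIntegral N ℓ
  obtain ⟨D, rfl⟩ := Pic0.mk_surjective x
  rw [galois_smul_pic0_def, galois_smul_pic0_def, SemilinearAut.pic0_smul_mk]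
  obtain ⟨hD1, h1⟩ := hx63_heckeOperatorBar_mk hℓ hα hβ D
  obtain ⟨hD2, h2⟩ := hx63_heckeOperatorBar_mk hℓ hα hβ
    (SemilinearAut.degZeroSMulHom (arithmeticGalois (modularFunctionFieldFull N) σ) D)
  rw [h1, h2, SemilinearAut.pic0_smul_mk]
  congr 1
  apply Subtype.ext
  rw [SemilinearAut.coe_degZeroSMulHom]
  exact (hg25_heckeDivBar_smul N ℓ hα hβ σ (D : Divisor (AlgebraicClosure ℚ)
    ↥(modularFunctionFieldBar N))).symm

end hg25_main

end Fermat.Agent.S42
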