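import Fermat.Prelude.Def_ModularCurve_ArithmeticGalois
import Mathlib

/-!
# S42 (Project 4), row M10 (iv), torsion form (helper69)

Open stabilisers of the TORSION classes of `JZero N`, by a route that needs no analysis of places:

* `fi69_exists_fn` : a torsion class `x` (`m • x = 0`, `m ≠ 0`) of `Pic0 K F` is fixed by every
  semilinear automorphism fixing ONE function `f` (with `m • D = div f`, `x = [D]`), because
  divisors are torsion-free.
* `fi69_fn_fixed` : every element of `laurentBaseChange Qb F₀` is fixed by the coefficientwise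
  action of the fixing group of a number field.
* `fi69_open_stab_tors`, `fi69_open_stab_torsion`, `fi69_open_stab_rep` : the resulting open
  stabiliser statements on `JZero N`.
-/

set_option autoImplicit false

namespace Fermat.Agent.S42

open ModularCurve AlgebraicCurve

local notation "Qb" => AlgebraicClosure ℚ
local notation "GQ" => AlgebraicClosure ℚ ≃ₐ[ℚ] AlgebraicClosure ℚ

/-- A torsion class of `Pic0 K F` is fixed by every semilinear automorphism fixing one suitable
function. -/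
theorem fi69_exists_fn {K F : Type*} [Field K] [Field F] [Algebra K F] (x : Pic0 K F) (m : ℕ)
    (hm : m ≠ 0) (hx : m • x = 0) :
    ∃ f : F, f ≠ 0 ∧ ∀ g : SemilinearAut K F, g • f = f → g • x = x := by
  obtain ⟨D, rfl⟩ := Pic0.mk_surjective x
  have h1 : Pic0.mk (m • D) = 0 := hx
  have h2 : ((m • D : Divisor.degZero (K := K) (F := F)) : Divisor K F)
      ∈ Divisor.principal (K := K) (F := F) := by
    have := (QuotientAddGroup.eq_zero_iff (m • D)).mp h1
    exact AddSubgroup.mem_addSubgroupOf.mp this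
  obtain ⟨f, hf, hD⟩ := h2
  refine ⟨f, hf, fun g hg => ?_⟩
  rw [SemilinearAut.pic0_smul_mk]
  refine congrArg Pic0.mk (Subtype.ext ?_)
  rw [SemilinearAut.coe_degZeroSMulHom]
  ext w
  have e1 : (g • ((m • D : Divisor.degZero (K := K) (F := F)) : Divisor K F)) w
      = ((m • D : Divisor.degZero (K := K) (F := F)) : Divisor K F) w := by
    rw [SemilinearAut.divisor_smul_apply, hD (g⁻¹ • w), hD w]
    have h := SemilinearAut.ord_smul g (g⁻¹ • w) f
    rw [smul_inv_smul, hg] at h
    exact h.symm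
  have e2 : ((m • D : Divisor.degZero (K := K) (F := F)) : Divisor K F)
      = m • (D : Divisor K F) := rfl
  rw [e2, smul_comm g m (D : Divisor K F)] at e1
  rw [Finsupp.smul_apply, Finsupp.smul_apply, nsmul_eq_mul, nsmul_eq_mul] at e1
  exact mul_left_cancel₀ (Nat.cast_ne_zero.mpr hm) e1

/-- Every element of `laurentBaseChange Qb F₀` is fixed by the coefficientwise action of the
fixing group of a number field. -/
theorem fi69_series_fixed (F₀ : IntermediateField ℚ (LaurentSeries ℚ)) (x : LaurentSeries Qb)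
    (hx : x ∈ laurentBaseChange Qb F₀) :
    ∃ E : IntermediateField ℚ Qb, FiniteDimensional ℚ E ∧
      ∀ σ : GQ, (∀ a ∈ E, σ a = a) → coeffMap (σ : Qb →+* Qb) x = x := by
  induction hx using IntermediateField.adjoin_induction with
  | mem y hy =>
      obtain ⟨z, -, rfl⟩ := hy
      exact ⟨⊥, inferInstance, fun σ _ => coeffMap_coeffEmb σ z⟩
  | algebraMap a =>
      have hQ : Algebra.IsAlgebraic ℚ Qb := AlgebraicClosure.isAlgebraic ℚ
      refine ⟨IntermediateField.adjoin ℚ {a},
        IntermediateField.adjoin.finiteDimensional (hQ.isAlgebraic a).isIntegral,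
        fun σ hσ => ?_⟩
      rw [coeffMap_algebraMap]
      exact congrArg _ (hσ a (IntermediateField.mem_adjoin_simple_self ℚ a))
  | add y z _ _ hy hz =>
      obtain ⟨E₁, h₁, hE₁⟩ := hy
      obtain ⟨E₂, h₂, hE₂⟩ := hz
      refine ⟨E₁ ⊔ E₂, IntermediateField.finiteDimensional_sup E₁ E₂, fun σ hσ => ?_⟩
      rw [map_add, hE₁ σ (fun a ha => hσ a ((le_sup_left : E₁ ≤ E₁ ⊔ E₂) ha)),
        hE₂ σ (fun a ha => hσ a ((le_sup_right : E₂ ≤ E₁ ⊔ E₂) ha))]
  | inv y _ hy =>
      obtain ⟨E₁, h₁, hE₁⟩ := hy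
      refine ⟨E₁, h₁, fun σ hσ => ?_⟩
      rw [map_inv₀, hE₁ σ hσ]
  | mul y z _ _ hy hz =>
      obtain ⟨E₁, h₁, hE₁⟩ := hy
      obtain ⟨E₂, h₂, hE₂⟩ := hz
      refine ⟨E₁ ⊔ E₂, IntermediateField.finiteDimensional_sup E₁ E₂, fun σ hσ => ?_⟩
      rw [map_mul, hE₁ σ (fun a ha => hσ a ((le_sup_left : E₁ ≤ E₁ ⊔ E₂) ha)),
        hE₂ σ (fun a ha => hσ a ((le_sup_right : E₂ ≤ E₁ ⊔ E₂) ha))]

/-- Function form of `fi69_series_fixed`. -/
theorem fi69_fn_fixed (F₀ : IntermediateField ℚ (LaurentSeries ℚ))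
    (f : laurentBaseChange Qb F₀) :
    ∃ E : IntermediateField ℚ Qb, FiniteDimensional ℚ E ∧
      ∀ σ : GQ, (∀ a ∈ E, σ a = a) → arithmeticGalois F₀ σ • f = f := by
  obtain ⟨E, hE, h⟩ := fi69_series_fixed F₀ (f : LaurentSeries Qb) f.2
  exact ⟨E, hE, fun σ hσ => Subtype.ext ((coe_arithmeticGalois_smul F₀ σ f).trans (h σ hσ))⟩

/-- **Open stabilisers of torsion classes** (general `F₀`). -/
theorem fi69_open_stab_gen (F₀ : IntermediateField ℚ (LaurentSeries ℚ))
    (x : Pic0 Qb (laurentBaseChange Qb F₀)) (m : ℕ) (hm : m ≠ 0) (hx : m • x = 0) :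
    ∃ E : IntermediateField ℚ Qb, FiniteDimensional ℚ E ∧
      ∀ σ : GQ, (∀ a ∈ E, σ a = a) → σ • x = x := by
  obtain ⟨f, -, hf⟩ := fi69_exists_fn x m hm hx
  obtain ⟨E, hE, h⟩ := fi69_fn_fixed F₀ f
  exact ⟨E, hE, fun σ hσ => (galois_smul_pic0_def F₀ σ x).trans (hf _ (h σ hσ))⟩

/-- **M10 (iv), torsion form: every torsion class of `J₀(N)` has an open stabiliser** (it is
fixed by the fixing group of a number field). -/
theorem fi69_open_stab_tors (N : ℕ) (x : JZero N) (m : ℕ) (hm : m ≠ 0) (hx : m • x = 0) :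
    ∃ E : IntermediateField ℚ Qb, FiniteDimensional ℚ E ∧
      ∀ σ : GQ, (∀ a ∈ E, σ a = a) → σ • x = x :=
  fi69_open_stab_gen (modularFunctionFieldFull N) x m hm hx

/-- The same on the Prelude torsion subgroup, for the Prelude representation
`JZero.torsionGaloisRep`. -/
theorem fi69_open_stab_rep (N p : ℕ) (hp : p ≠ 0)
    (x : Pic0.torsion Qb (modularFunctionFieldBar N) p) :
    ∃ E : IntermediateField ℚ Qb, FiniteDimensional ℚ E ∧
      ∀ σ : GQ, (∀ a ∈ E, σ a = a) → JZero.torsionGaloisRep N p σ x = x := by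
  have hx : p • (x : JZero N) = 0 := by
    have := Pic0.mem_torsion.mp x.2
    rwa [Nat.cast_smul_eq_nsmul ℤ p (x : JZero N)] at this
  obtain ⟨E, hE, h⟩ := fi69_open_stab_tors N (x : JZero N) p hp hx
  exact ⟨E, hE, fun σ hσ => Subtype.ext ((JZero.coe_torsionGaloisRep_apply N σ x).trans (h σ hσ))⟩

end Fermat.Agent.S42
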