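/-
S42 / M11 (helper75): the Hecke operator `heckeOperatorBar N ℓ` restricted to the `p`-torsion
`Pic0.torsion ℚ̄ (modularFunctionFieldBar N) p` of `JZero N`, as a `ZMod p`-linear endomorphism.
This is the shared constant in which the target (W1) of Project 4 is stated.
-/
import Fermat.Prelude.Def_ModularCurve_HeckeModule

set_option autoImplicit false

namespace Fermat.Agent.S42

open ModularCurve AlgebraicCurve

/-- `heckeOperatorBar N ℓ` restricted to the `p`-torsion, as an additive map. -/
noncomputable def th75_heckeTorsAdd (N p : ℕ) [NeZero N] (ℓ : Nat.Primes) :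
    Pic0.torsion (AlgebraicClosure ℚ) (modularFunctionFieldBar N) p →+
      Pic0.torsion (AlgebraicClosure ℚ) (modularFunctionFieldBar N) p where
  toFun c := ⟨heckeOperatorBar N ℓ (c : JZero N), by
    have hc := Pic0.mem_torsion.mp c.2
    rw [Pic0.mem_torsion, ← map_zsmul, hc, map_zero]⟩
  map_zero' := Subtype.ext (by simp)
  map_add' x y := Subtype.ext (by simp)

/-- `heckeOperatorBar N ℓ` restricted to the `p`-torsion, as a `ZMod p`-linear endomorphism. -/
noncomputable def th75_heckeTors (N p : ℕ) [NeZero N] (ℓ : Nat.Primes) :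
    Module.End (ZMod p) (Pic0.torsion (AlgebraicClosure ℚ) (modularFunctionFieldBar N) p) :=
  (th75_heckeTorsAdd N p ℓ).toZModLinearMap p

theorem th75_heckeTors_coe (N p : ℕ) [NeZero N] (ℓ : Nat.Primes)
    (c : Pic0.torsion (AlgebraicClosure ℚ) (modularFunctionFieldBar N) p) :
    ((th75_heckeTors N p ℓ c : Pic0.torsion (AlgebraicClosure ℚ) (modularFunctionFieldBar N) p) :
      JZero N) = heckeOperatorBar N ℓ (c : JZero N) := rfl

/-- The Galois representation on the `p`-torsion, coordinatewise. -/
theorem th75_torsionGaloisRep_coe (N p : ℕ) (σ : AlgebraicClosure ℚ ≃ₐ[ℚ] AlgebraicClosure ℚ)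
    (c : Pic0.torsion (AlgebraicClosure ℚ) (modularFunctionFieldBar N) p) :
    ((JZero.torsionGaloisRep N p σ c :
        Pic0.torsion (AlgebraicClosure ℚ) (modularFunctionFieldBar N) p) : JZero N) =
      σ • (c : JZero N) := rfl

end Fermat.Agent.S42
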