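import Fermat.Agent.S42.FrobInertia69
import Fermat.Agent.S42.HeckeGalois25
import Fermat.Agent.S42.OpenStabTors69
import Fermat.Agent.S42.TorsHecke75

/-!
# S42 (Project 4): the M10 package in the vocabulary of the M11 skeleton (helper69)

`ρ₀ := JZero.torsionGaloisRep N p` (Prelude) and `T₀ ℓ := th75_heckeTors N p ℓ` (helper75), both
in `Module.End (ZMod p) (Pic0.torsion ℚ̄ (modularFunctionFieldBar N) p)`:

* `fi69_ad_comm`  : `ρ₀ σ * T₀ ℓ = T₀ ℓ * ρ₀ σ` (all primes `ℓ`);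
* `fi69_ad_frob`  : `ρ₀ τ * ρ₀ τ - T₀ ℓ * ρ₀ τ + (ℓ : ZMod p) • 1 = 0` for a Frobenius element `τ`
  at `ℓ ∤ N p`;
* `fi69_ad_inert` : `ρ₀ s = 1` for `s` in the inertia group at `ℓ ∤ N p`;
* `fi69_ad_open`  : every `x` is fixed by `ρ₀ s` for all `s` fixing a number field.
-/

set_option autoImplicit false

namespace Fermat.Agent.S42

open ModularCurve AlgebraicCurve

local notation "Qb" => AlgebraicClosure ℚ
local notation "GQ" => AlgebraicClosure ℚ ≃ₐ[ℚ] AlgebraicClosure ℚ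

/-- (comm): Galois commutes with the Hecke operators on the `p`-torsion. -/
theorem fi69_ad_comm (N p : ℕ) [NeZero N] (ℓ : Nat.Primes) (σ : GQ) :
    JZero.torsionGaloisRep N p σ * th75_heckeTors N p ℓ
      = th75_heckeTors N p ℓ * JZero.torsionGaloisRep N p σ := by
  refine LinearMap.ext fun x => Subtype.ext ?_
  show σ • heckeOperatorBar N ℓ (x : JZero N) = heckeOperatorBar N ℓ (σ • (x : JZero N))
  exact hg25_hecke_galois N ℓ σ (x : JZero N)

/-- The `p`-torsion is killed by `p ^ 1`. -/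
theorem fi69_ad_pow (N p : ℕ) (x : Pic0.torsion Qb (modularFunctionFieldBar N) p) :
    p ^ 1 • (x : JZero N) = 0 := by
  have := Pic0.mem_torsion.mp x.2
  rw [Nat.cast_smul_eq_nsmul ℤ p (x : JZero N)] at this
  rw [pow_one]
  exact this

/-- (frob): the Eichler-Shimura relation for Frobenius elements at `ℓ ∤ N p` on the
`p`-torsion. -/
theorem fi69_ad_frob (N p : ℕ) [NeZero N] (ℓ : ℕ) (hℓ : ℓ.Prime) (hN : ¬ ℓ ∣ N) (hp : ¬ ℓ ∣ p)
    (A : ValuationSubring Qb) (hA : A.LiesOverPrime ℓ) (τ : GQ) (hτ : A.IsFrobeniusAt τ ℓ) :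
    JZero.torsionGaloisRep N p τ * JZero.torsionGaloisRep N p τ
      - th75_heckeTors N p ⟨ℓ, hℓ⟩ * JZero.torsionGaloisRep N p τ
      + (ℓ : ZMod p) • (1 : Module.End (ZMod p) (Pic0.torsion Qb (modularFunctionFieldBar N) p))
      = 0 := by
  refine LinearMap.ext fun x => Subtype.ext ?_
  have h := fi69_frob N p ℓ hℓ hN hp A hA τ hτ (x : JZero N) 1 (fi69_ad_pow N p x)
  have e : ((ℓ : ZMod p) • x : Pic0.torsion Qb (modularFunctionFieldBar N) p) = ℓ • x :=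
    Nat.cast_smul_eq_nsmul (ZMod p) ℓ x
  rw [LinearMap.add_apply, LinearMap.sub_apply, LinearMap.smul_apply, Module.End.one_apply, e]
  exact h

/-- (frob), `Nat.Primes` form with the hypothesis `¬ ℓ ∣ N * p`. -/
theorem fi69_ad_frob' (N p : ℕ) [NeZero N] (ℓ : Nat.Primes) (hℓ : ¬ (ℓ : ℕ) ∣ N * p)
    (A : ValuationSubring Qb) (hA : A.LiesOverPrime ℓ) (τ : GQ) (hτ : A.IsFrobeniusAt τ ℓ) :
    JZero.torsionGaloisRep N p τ * JZero.torsionGaloisRep N p τ
      - th75_heckeTors N p ℓ * JZero.torsionGaloisRep N p τ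
      + ((ℓ : ℕ) : ZMod p) •
        (1 : Module.End (ZMod p) (Pic0.torsion Qb (modularFunctionFieldBar N) p))
      = 0 :=
  fi69_ad_frob N p ℓ ℓ.2 (fun h => hℓ (h.mul_right p)) (fun h => hℓ (h.mul_left N)) A hA τ hτ

/-- (inert): inertia at `ℓ ∤ N p` acts trivially on the `p`-torsion. -/
theorem fi69_ad_inert (N p : ℕ) [NeZero N] (ℓ : ℕ) (hℓ : ℓ.Prime) (hN : ¬ ℓ ∣ N) (hp : ¬ ℓ ∣ p)
    (A : ValuationSubring Qb) (hA : A.LiesOverPrime ℓ) (s : GQ)
    (hs : s ∈ A.inertiaSubgroupIn ℚ) : JZero.torsionGaloisRep N p s = 1 := by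
  refine LinearMap.ext fun x => Subtype.ext ?_
  exact fi69_inertia N p ℓ hℓ hN hp A hA s hs (x : JZero N) 1 (fi69_ad_pow N p x)

/-- (inert), with the hypothesis `¬ ℓ ∣ N * p`. -/
theorem fi69_ad_inert' (N p : ℕ) [NeZero N] (ℓ : ℕ) (hℓ : ℓ.Prime) (hNp : ¬ ℓ ∣ N * p)
    (A : ValuationSubring Qb) (hA : A.LiesOverPrime ℓ) (s : GQ)
    (hs : s ∈ A.inertiaSubgroupIn ℚ) : JZero.torsionGaloisRep N p s = 1 :=
  fi69_ad_inert N p ℓ hℓ (fun h => hNp (h.mul_right p)) (fun h => hNp (h.mul_left N)) A hA s hs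

/-- (open): every class of the `p`-torsion (`p ≠ 0`) is fixed by the fixing group of a number
field. -/
theorem fi69_ad_open (N p : ℕ) (hp : p ≠ 0)
    (x : Pic0.torsion Qb (modularFunctionFieldBar N) p) :
    ∃ E : IntermediateField ℚ Qb, FiniteDimensional ℚ E ∧
      ∀ σ : GQ, (∀ a ∈ E, σ a = a) → JZero.torsionGaloisRep N p σ x = x :=
  fi69_open_stab_rep N p hp x

end Fermat.Agent.S42
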