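import Mathlib
import Fermat.Prelude.Def_GaloisRep_Residual

/-!
# S29 plumbing (helper47): from an algebraically closed residue field to an arbitrary one

The frozen statement S29 quantifies over an ARBITRARY field `k` of characteristic `p` together
with a ring homomorphism `φ : integralClosure ℤ ℂ →+* k`.  The construction of the residual
representation (Project 4) works over an algebraically closed field of characteristic `p`.
This file provides the bridge:

* `s29p47_isMaximal_ker` : `RingHom.ker φ` is a maximal ideal of `ℤ̄`;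
* `s29p47_isAlgClosed`   : `ℤ̄ ⧸ 𝔪` is algebraically closed for every maximal ideal `𝔪`;
* `s29p47_isUnramifiedAt_baseChangeAlong`, `s29p47_isAttachedTo_baseChangeAlong` : the two
  clauses of S29 are stable under `ResidualGaloisRep.baseChangeAlong`;
* `s29p47_trivial` : the level `N = 0` is vacuous;
* `s29p47_S29_of_algClosed` : the frozen conclusion of S29 for every `(k, φ)` from the same
  statement for algebraically closed fields of characteristic `p` and positive level.
-/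

set_option autoImplicit false
set_option linter.style.haveILetI false

open Polynomial

namespace Fermat.Agent.S42

local notation "Zb" => integralClosure ℤ ℂ

/-- The kernel of a ring homomorphism from `ℤ̄` to a field of characteristic `p` is maximal. -/
theorem s29p47_isMaximal_ker {p : ℕ} (hp : p.Prime) {k : Type*} [Field k] [CharP k p]
    (φ : Zb →+* k) : (RingHom.ker φ).IsMaximal := by
  have : (RingHom.ker φ).IsPrime := RingHom.ker_isPrime φ
  refine Ideal.isMaximal_of_isIntegral_of_isMaximal_comap (R := ℤ) (RingHom.ker φ) ?_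
  have hcomap : (RingHom.ker φ).comap (algebraMap ℤ Zb) = Ideal.span {(p : ℤ)} := by
    ext n
    rw [Ideal.mem_comap, RingHom.mem_ker, Ideal.mem_span_singleton, eq_intCast, map_intCast]
    exact CharP.intCast_eq_zero_iff k p n
  rw [hcomap]
  exact PrincipalIdealRing.isMaximal_of_irreducible
    (Nat.prime_iff_prime_int.mp hp).irreducible

/-- `p` lies in the kernel of a ring homomorphism from `ℤ̄` to a field of characteristic `p`. -/
theorem s29p47_natCast_mem_ker {p : ℕ} {k : Type*} [Field k] [CharP k p]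
    (φ : Zb →+* k) : ((p : ℕ) : Zb) ∈ RingHom.ker φ := by
  rw [RingHom.mem_ker, map_natCast]
  exact CharP.cast_eq_zero k p

/-- Every monic polynomial of positive degree over `ℤ̄` has a root in `ℤ̄`. -/
theorem s29p47_exists_root {Q : Zb[X]} (hQ : Q.Monic) (hdeg : Q.natDegree ≠ 0) :
    ∃ z : Zb, Q.eval z = 0 := by
  have hmap : (Q.map (algebraMap Zb ℂ)).degree ≠ 0 := by
    rw [hQ.degree_map]
    intro h
    exact hdeg (natDegree_eq_zero_iff_degree_le_zero.mpr h.le)
  obtain ⟨z, hz⟩ := IsAlgClosed.exists_root (Q.map (algebraMap Zb ℂ)) hmap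
  have hz' : Polynomial.eval₂ (algebraMap Zb ℂ) z Q = 0 := by
    rwa [Polynomial.IsRoot.def, Polynomial.eval_map] at hz
  have hint : IsIntegral Zb z := ⟨Q, hQ, hz'⟩
  have hintZ : IsIntegral ℤ z := isIntegral_trans z hint
  refine ⟨⟨z, hintZ⟩, ?_⟩
  apply Subtype.val_injective
  have h2 : ((Q.eval (⟨z, hintZ⟩ : Zb) : Zb) : ℂ)
      = Polynomial.eval₂ (algebraMap Zb ℂ) z Q := by
    have := Polynomial.hom_eval₂ Q (RingHom.id Zb) (algebraMap Zb ℂ) (⟨z, hintZ⟩ : Zb)
    simpa [Polynomial.eval₂_id] using this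
  rw [h2, hz']
  rfl

/-- The residue field of `ℤ̄` at a maximal ideal is algebraically closed. -/
theorem s29p47_isAlgClosed (𝔪 : Ideal Zb) [h𝔪 : 𝔪.IsMaximal] :
    letI := Ideal.Quotient.field 𝔪
    IsAlgClosed (Zb ⧸ 𝔪) := by
  let _ := Ideal.Quotient.field 𝔪
  refine IsAlgClosed.of_exists_root (Zb ⧸ 𝔪) ?_
  intro q hq hirr
  have hlift : q ∈ Polynomial.lifts (Ideal.Quotient.mk 𝔪) := by
    rw [Polynomial.mem_lifts]
    exact Polynomial.map_surjective _ Ideal.Quotient.mk_surjective q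
  obtain ⟨Q, hQmap, hQdeg, hQmonic⟩ :=
    Polynomial.lifts_and_natDegree_eq_and_monic hlift hq
  have hdeg : Q.natDegree ≠ 0 := by
    rw [hQdeg]
    exact (Polynomial.natDegree_pos_iff_degree_pos.mpr
      (Polynomial.degree_pos_of_irreducible hirr)).ne'
  obtain ⟨z, hz⟩ := s29p47_exists_root hQmonic hdeg
  refine ⟨Ideal.Quotient.mk 𝔪 z, ?_⟩
  rw [← hQmap, Polynomial.eval_map, Polynomial.eval₂_at_apply, hz, map_zero]


/-! ### Stability of the two clauses of S29 under base change -/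

section BaseChange

variable {k₀ k : Type} [Field k₀] [Field k]

/-- Unramifiedness is stable under base change. -/
theorem s29p47_isUnramifiedAt_baseChangeAlong (ι : k₀ →+* k) (ρ : ResidualGaloisRep k₀)
    {q : ℕ} (h : ρ.IsUnramifiedAt q) : (ρ.baseChangeAlong ι).IsUnramifiedAt q := by
  intro A hA σ hσ
  letI : Algebra k₀ k := ι.toAlgebra
  have h1 : (ρ.baseChangeAlong ι).ρ σ = (ρ.ρ σ).baseChange k := rfl
  rw [h1, h A hA σ hσ]
  exact LinearMap.baseChange_one _ _

/-- The characteristic polynomial after base change. -/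
theorem s29p47_charpoly_baseChangeAlong (ι : k₀ →+* k) (ρ : ResidualGaloisRep k₀)
    (σ : AlgebraicClosure ℚ ≃ₐ[ℚ] AlgebraicClosure ℚ) :
    LinearMap.charpoly ((ρ.baseChangeAlong ι).ρ σ) = (LinearMap.charpoly (ρ.ρ σ)).map ι := by
  letI : Algebra k₀ k := ι.toAlgebra
  exact LinearMap.charpoly_baseChange (A := k) (ρ.ρ σ)

/-- Being attached to a cusp form is stable under base change. -/
theorem s29p47_isAttachedTo_baseChangeAlong (ι : k₀ →+* k) (ρ : ResidualGaloisRep k₀)
    {N : ℕ} (f : CuspForm (CongruenceSubgroup.Gamma0 N) 2) (φ₀ : Zb →+* k₀)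
    (h : ρ.IsAttachedTo f φ₀) : (ρ.baseChangeAlong ι).IsAttachedTo f (ι.comp φ₀) := by
  intro ℓ hℓ hℓN hℓk A hA σ hσ
  have hℓk₀ : (ℓ : k₀) ≠ 0 := by
    intro h0
    apply hℓk
    rw [← map_natCast ι, h0, map_zero]
  obtain ⟨a, ha, hcp⟩ := h ℓ hℓ hℓN hℓk₀ A hA σ hσ
  refine ⟨a, ha, ?_⟩
  rw [s29p47_charpoly_baseChangeAlong, hcp]
  simp [Polynomial.map_sub, Polynomial.map_mul, Polynomial.map_pow]

end BaseChange

/-! ### The degenerate level `N = 0` and the final bridge -/

/-- A two-dimensional representation with trivial action. -/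
theorem s29p47_trivial (k : Type) [Field k] :
    ∃ ρ : ResidualGaloisRep k, ∀ σ, ρ.ρ σ = 1 :=
  ⟨{ V := Fin 2 → k
     finrank_eq := by simp
     ρ := 1
     factorsThroughFiniteLevel := ⟨⊥, inferInstance, fun _ _ => rfl⟩ }, fun _ => rfl⟩

/-- Every `φ : ℤ̄ →+* k` into a field of characteristic `p` factors through an algebraically
closed field of characteristic `p` (namely `ℤ̄ ⧸ ker φ`). -/
theorem s29p47_exists_factor {p : ℕ} (hp : p.Prime) {k : Type} [Field k] [CharP k p]
    (φ : Zb →+* k) :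
    ∃ (k₀ : Type) (_ : Field k₀) (_ : IsAlgClosed k₀) (_ : CharP k₀ p) (φ₀ : Zb →+* k₀)
      (ι : k₀ →+* k), Function.Surjective φ₀ ∧ ι.comp φ₀ = φ := by
  haveI h𝔪 : (RingHom.ker φ).IsMaximal := s29p47_isMaximal_ker hp φ
  refine ⟨Zb ⧸ RingHom.ker φ, Ideal.Quotient.field (RingHom.ker φ),
    s29p47_isAlgClosed (RingHom.ker φ),
    (RingHom.kerLift φ).charP (RingHom.kerLift_injective φ) p,
    Ideal.Quotient.mk (RingHom.ker φ), RingHom.kerLift φ, Ideal.Quotient.mk_surjective, ?_⟩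
  ext x
  exact RingHom.kerLift_mk φ x

/-- For a maximal ideal `𝔪 ∋ p` of `ℤ̄`: an algebraically closed field `K : Type` of
characteristic `p` with a surjection `ψ : ℤ̄ →+* K` of kernel exactly `𝔪` (for the S42 shape
`K := ℤ̄ ⧸ 𝔪`, `𝔪 ≤ ker ψ`). -/
theorem s29p47_exists_residue {p : ℕ} (hp : p.Prime) (𝔪 : Ideal Zb) (h𝔪 : 𝔪.IsMaximal)
    (hp𝔪 : ((p : ℕ) : Zb) ∈ 𝔪) :
    ∃ (K : Type) (_ : Field K) (_ : IsAlgClosed K) (_ : CharP K p) (ψ : Zb →+* K),
      Function.Surjective ψ ∧ RingHom.ker ψ = 𝔪 := by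
  letI : Field (Zb ⧸ 𝔪) := Ideal.Quotient.field 𝔪
  have hchar : CharP (Zb ⧸ 𝔪) p := by
    rw [CharP.charP_iff_prime_eq_zero hp]
    have h0 : Ideal.Quotient.mk 𝔪 ((p : ℕ) : Zb) = 0 := Ideal.Quotient.eq_zero_iff_mem.mpr hp𝔪
    rwa [map_natCast] at h0
  exact ⟨Zb ⧸ 𝔪, Ideal.Quotient.field 𝔪, s29p47_isAlgClosed 𝔪, hchar, Ideal.Quotient.mk 𝔪,
    Ideal.Quotient.mk_surjective, Ideal.mk_ker⟩

/-- **S29 for an arbitrary field from S29 for algebraically closed fields (positive level).**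
`core` is the statement for algebraically closed fields `k₀` of characteristic `p` (only used
for `k₀ = ℤ̄ ⧸ ker φ`, with `φ₀` surjective); the conclusion is the frozen conclusion of S29. -/
theorem s29p47_S29_of_algClosed
    {N : ℕ} {g : CuspForm (CongruenceSubgroup.Gamma0 N) 2}
    {p : ℕ} (hp : p.Prime)
    (core : 0 < N → ∀ (k₀ : Type) [Field k₀] [IsAlgClosed k₀] [CharP k₀ p] (φ₀ : Zb →+* k₀),
      Function.Surjective φ₀ →
      ∃ ρ : ResidualGaloisRep k₀, ρ.IsAttachedTo g φ₀ ∧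
        ∀ ℓ : ℕ, ℓ.Prime → ¬ ℓ ∣ N * p → ρ.IsUnramifiedAt ℓ)
    {k : Type} [Field k] [CharP k p] (φ : Zb →+* k) :
    ∃ ρ : ResidualGaloisRep k, ρ.IsAttachedTo g φ ∧
      ∀ ℓ : ℕ, ℓ.Prime → ¬ ℓ ∣ N * p → ρ.IsUnramifiedAt ℓ := by
  rcases Nat.eq_zero_or_pos N with hN | hN
  · subst hN
    obtain ⟨ρ, -⟩ := s29p47_trivial k
    refine ⟨ρ, ?_, ?_⟩
    · intro ℓ _ hℓN
      exact absurd (dvd_zero ℓ) hℓN
    · intro ℓ _ hℓN
      exact absurd (by rw [zero_mul]; exact dvd_zero ℓ) hℓN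
  · obtain ⟨k₀, _, _, _, φ₀, ι, hsurj, hcomp⟩ := s29p47_exists_factor hp φ
    obtain ⟨ρ, hatt, hunr⟩ := core hN k₀ φ₀ hsurj
    refine ⟨ρ.baseChangeAlong ι, ?_, ?_⟩
    · have := s29p47_isAttachedTo_baseChangeAlong ι ρ g φ₀ hatt
      rwa [hcomp] at this
    · intro ℓ hℓ hℓN
      exact s29p47_isUnramifiedAt_baseChangeAlong ι ρ (hunr ℓ hℓ hℓN)

end Fermat.Agent.S42
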