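/-
S42 / M11-G (helper92): TRUE-Frobenius "Chebotarev-lite" for `Gal(ℚ̄/ℚ)`.

`fg92_exists_frob`: for a finite extension `K₀ ⊆ ℚ̄` of `ℚ`, every `g ∈ Gal(ℚ̄/ℚ)` and every finite
set `S` of primes there are a prime `ℓ ∉ S`, a valuation subring `A` of `ℚ̄` over `ℓ` and a
Frobenius element `τ` at `A` in the Prelude's sense (`A.IsFrobeniusAt τ ℓ`, on the whole residue
field of `A`) such that `g` agrees with a power of `τ` on `K₀`.

`fg92_rep_frob`: the same for a homomorphism `ρ` out of `Gal(ℚ̄/ℚ)` that factors through a finite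
level: `ρ g = ρ τ ^ j`, and `g = τ ^ j` on the `m`-th roots of unity.
-/
import Fermat.Agent.S41.FrobExist8
import Fermat.Agent.S41.FrobBridge24
import Fermat.Agent.S41.FrobAt24
import Fermat.Agent.S37.FrobEvery14
import Fermat.Prelude.Def_GaloisRep_Residual

set_option autoImplicit false
set_option linter.style.haveILetI false

open NumberField IsDedekindDomain

namespace Fermat.Agent.S42

open Fermat.Agent.S14 Fermat.Agent.S41 Fermat.Agent.S37

local notation "Qb" => AlgebraicClosure ℚ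
local notation "GQ" => AlgebraicClosure ℚ ≃ₐ[ℚ] AlgebraicClosure ℚ

/-- The rational prime under a prime of `𝓞 K` containing the prime number `ℓ` is `ℓ`. -/
theorem fg92_rp_eq {K : Type*} [Field K] [NumberField K] (v : HeightOneSpectrum (𝓞 K))
    {ℓ : ℕ} (hℓ : ℓ.Prime) (h : (ℓ : 𝓞 K) ∈ v.asIdeal) : h25_rp v = ℓ := by
  have hp := h25_rp_prime v
  have h1 : ((h25_rp v : ℕ) : ℤ) ∈ Ideal.under ℤ v.asIdeal :=
    Ideal.absNorm_mem (Ideal.under ℤ v.asIdeal)
  have h2 : ((ℓ : ℕ) : ℤ) ∈ Ideal.under ℤ v.asIdeal := by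
    rw [Ideal.under, Ideal.mem_comap]
    simpa using h
  by_contra hne
  have hcop : Nat.Coprime (h25_rp v) ℓ := (Nat.coprime_primes hp hℓ).mpr hne
  have hbez := Nat.gcd_eq_gcd_ab (h25_rp v) ℓ
  rw [hcop] at hbez
  have h3 : (1 : ℤ) ∈ Ideal.under ℤ v.asIdeal := by
    have e : (1 : ℤ) = (h25_rp v : ℤ) * Nat.gcdA (h25_rp v) ℓ + (ℓ : ℤ) * Nat.gcdB (h25_rp v) ℓ := by
      exact_mod_cast hbez
    rw [e]
    exact Ideal.add_mem _ (Ideal.mul_mem_right _ _ h1) (Ideal.mul_mem_right _ _ h2)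
  have h4 : (1 : 𝓞 K) ∈ v.asIdeal := by
    have := (Ideal.mem_comap (f := algebraMap ℤ (𝓞 K))).mp h3
    simpa using this
  exact v.isPrime.ne_top ((Ideal.eq_top_iff_one _).mpr h4)

/-- **True-Frobenius Chebotarev-lite.**  Every element of `Gal(ℚ̄/ℚ)` agrees, on a given finite
extension `K₀` of `ℚ`, with a power of a Frobenius element (in the Prelude's sense) at a prime
`ℓ` outside a given finite set. -/
theorem fg92_exists_frob (K₀ : IntermediateField ℚ (AlgebraicClosure ℚ)) [FiniteDimensional ℚ K₀]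
    (g : AlgebraicClosure ℚ ≃ₐ[ℚ] AlgebraicClosure ℚ) (S : Finset ℕ) :
    ∃ (ℓ : ℕ) (A : ValuationSubring (AlgebraicClosure ℚ))
      (τ : AlgebraicClosure ℚ ≃ₐ[ℚ] AlgebraicClosure ℚ) (j : ℕ),
      ℓ.Prime ∧ ℓ ∉ S ∧ A.LiesOverPrime ℓ ∧ A.IsFrobeniusAt τ ℓ ∧ ∀ x ∈ K₀, g x = (τ ^ j) x := by
  classical
  haveI := fb24_isAlgClosure
  haveI : Normal ℚ Qb := IsAlgClosure.normal ℚ Qb
  let K : IntermediateField ℚ Qb := IntermediateField.normalClosure ℚ K₀ Qb
  haveI : FiniteDimensional ℚ K := normalClosure.is_finiteDimensional ℚ _ Qb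
  haveI : Normal ℚ K := normalClosure.normal ℚ _ Qb
  haveI : NumberField K := { to_charZero := inferInstance, to_finiteDimensional := inferInstance }
  haveI : IsGalois ℚ K := { }
  have hK₀ : ∀ x ∈ K₀, x ∈ K := fun x hx => IntermediateField.le_normalClosure _ hx
  obtain ⟨d, hd, hdisc⟩ := fe8_exists_disc K
  set S' : Finset ℕ := S ∪ ((h25_finite_mem d hd).toFinset.image h25_rp) with hS'
  obtain ⟨ℓ, P, τ₀, hℓ, hℓS, hP, hℓP, hzp, hfrob⟩ :=
    fe8_exists_frob K (AlgEquiv.restrictNormalHom K g) S'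
  haveI := hP
  have hPbot : P ≠ ⊥ := by
    intro hbot
    rw [hbot, Ideal.mem_bot] at hℓP
    exact hℓ.ne_zero (by exact_mod_cast hℓP)
  let v : HeightOneSpectrum (𝓞 K) := ⟨P, hP, hPbot⟩
  have hrp : h25_rp v = ℓ := fg92_rp_eq v hℓ hℓP
  have hdP : d ∉ v.asIdeal := by
    intro hdv
    apply hℓS
    rw [hS', Finset.mem_union]
    right
    rw [← hrp]
    exact Finset.mem_image_of_mem _ ((Set.Finite.mem_toFinset _).mpr hdv)
  have hin : Ideal.inertia (K ≃ₐ[ℚ] K) v.asIdeal = ⊥ := hdisc v hdP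
  obtain ⟨A, hmem, hnon, hunit, hloc⟩ := fb24_exists_valuationSubring (K := K) (L := Qb) P hPbot
  have hLies : A.LiesOverPrime ℓ := by
    have := hnon (ℓ : 𝓞 K) hℓP
    simpa [ValuationSubring.LiesOverPrime] using this
  obtain ⟨τ, hτ⟩ := h14_exists_isFrobeniusAt ℓ hℓ A hLies
  have hres : ∀ (ρ : GQ) (x : K), ((AlgEquiv.restrictNormalHom K ρ) x : Qb) = ρ (x : Qb) :=
    fun ρ x => AlgEquiv.restrictNormal_commutes ρ K x
  have hτcongr : ∀ x : 𝓞 K,
      (AlgEquiv.restrictNormalHom K τ) • x - x ^ (h25_rp v) ∈ v.asIdeal := by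
    intro x
    rw [hrp]
    by_contra hnot
    have h1 := hunit _ hnot
    have h2 : algebraMap K Qb ((((AlgEquiv.restrictNormalHom K τ) • x - x ^ ℓ : 𝓞 K)) : K) =
        τ (algebraMap K Qb (x : K)) - (algebraMap K Qb (x : K)) ^ ℓ := by
      have e : ((((AlgEquiv.restrictNormalHom K τ) • x - x ^ ℓ : 𝓞 K)) : K) =
          (AlgEquiv.restrictNormalHom K τ) (x : K) - (x : K) ^ ℓ := by
        push_cast
        rfl
      rw [e, map_sub, map_pow]
      congr 1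
      exact hres τ (x : K)
    have h3 := fb24_frob_of_isFrobeniusAt A τ ℓ hτ _ (hmem x)
    rw [← h2] at h3
    have h4 := (ValuationSubring.mem_nonunits_iff A).mp h3
    rw [h1] at h4
    exact lt_irrefl _ h4
  have hτ₀congr : ∀ x : 𝓞 K, τ₀ • x - x ^ (h25_rp v) ∈ v.asIdeal := by
    rw [hrp]
    exact hfrob
  have e1 := fe8_frob_unique v hin _ hτcongr
  have e2 := fe8_frob_unique v hin τ₀ hτ₀congr
  have heq : AlgEquiv.restrictNormalHom K τ = τ₀ := e1.trans e2.symm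
  have hfin : Finite (K ≃ₐ[ℚ] K) := inferInstance
  have hσpow : (AlgEquiv.restrictNormalHom K g) ∈ Submonoid.powers τ₀ := by
    rw [mem_powers_iff_mem_zpowers, hzp]
    exact Subgroup.mem_zpowers _
  obtain ⟨j, hj'⟩ := hσpow
  have hj : τ₀ ^ j = AlgEquiv.restrictNormalHom K g := hj'
  refine ⟨ℓ, A, τ, j, hℓ, fun h => hℓS (Finset.mem_union_left _ h), hLies, hτ, ?_⟩
  intro x hx
  have hxK := hK₀ x hx
  have h1 : ((AlgEquiv.restrictNormalHom K g) ⟨x, hxK⟩ : Qb) = g x := hres g ⟨x, hxK⟩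
  rw [← h1, ← hj, ← heq, ← map_pow, hres]

/-- **Chebotarev-lite for finite-level homomorphisms.**  If `ρ` factors through a finite level,
then every `ρ g` is a power of `ρ τ` for a true Frobenius element `τ` at a prime `ℓ ∉ S`, the
same power describing the action of `g` on the `m`-th roots of unity. -/
theorem fg92_rep_frob {M : Type} [Monoid M]
    (ρ : (AlgebraicClosure ℚ ≃ₐ[ℚ] AlgebraicClosure ℚ) →* M)
    (h : GaloisFactorsThroughFiniteLevel ρ) (m : ℕ) (hm : 0 < m)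
    (g : AlgebraicClosure ℚ ≃ₐ[ℚ] AlgebraicClosure ℚ) (S : Finset ℕ) :
    ∃ (ℓ : ℕ) (A : ValuationSubring (AlgebraicClosure ℚ))
      (τ : AlgebraicClosure ℚ ≃ₐ[ℚ] AlgebraicClosure ℚ) (j : ℕ),
      ℓ.Prime ∧ ℓ ∉ S ∧ A.LiesOverPrime ℓ ∧ A.IsFrobeniusAt τ ℓ ∧ ρ g = ρ τ ^ j ∧
        ∀ z : AlgebraicClosure ℚ, z ^ m = 1 → g z = (τ ^ j) z := by
  classical
  obtain ⟨L, hL, h1⟩ := h
  haveI := hL
  haveI := fb24_isAlgClosure
  haveI : NeZero m := ⟨hm.ne'⟩
  haveI : NeZero ((m : ℕ) : Qb) := ⟨Nat.cast_ne_zero.mpr hm.ne'⟩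
  obtain ⟨ζ, hζ⟩ : ∃ ζ : Qb, IsPrimitiveRoot ζ m := HasEnoughRootsOfUnity.exists_primitiveRoot Qb m
  haveI : FiniteDimensional ℚ (IntermediateField.adjoin ℚ ({ζ} : Set Qb)) :=
    IntermediateField.finiteDimensional_adjoin (fun x _ => Algebra.IsIntegral.isIntegral x)
  let K₀ : IntermediateField ℚ Qb := L ⊔ IntermediateField.adjoin ℚ ({ζ} : Set Qb)
  haveI : FiniteDimensional ℚ K₀ := IntermediateField.finiteDimensional_sup _ _
  obtain ⟨ℓ, A, τ, j, hℓ, hℓS, hLies, hτ, hg⟩ := fg92_exists_frob K₀ g S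
  have hζK : ζ ∈ K₀ :=
    (le_sup_right : IntermediateField.adjoin ℚ ({ζ} : Set Qb) ≤ K₀)
      (IntermediateField.subset_adjoin ℚ _ (Set.mem_singleton ζ))
  refine ⟨ℓ, A, τ, j, hℓ, hℓS, hLies, hτ, ?_, ?_⟩
  · have h2 : ρ (g⁻¹ * τ ^ j) = 1 := by
      apply h1
      intro x hx
      have hxK : x ∈ K₀ := (le_sup_left : L ≤ K₀) hx
      rw [AlgEquiv.mul_apply, ← hg x hxK]
      exact g.symm_apply_apply x
    have h3 : ρ g * ρ (g⁻¹ * τ ^ j) = ρ τ ^ j := by
      rw [← map_mul, mul_inv_cancel_left, map_pow]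
    rw [h2, mul_one] at h3
    exact h3
  · intro z hz
    obtain ⟨i, -, rfl⟩ := hζ.eq_pow_of_pow_eq_one hz
    rw [map_pow, map_pow, hg ζ hζK]

end Fermat.Agent.S42
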