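/-
S42 / Project 4, row M11b (helper65, second seat of M11): the SKELETON between (W1) and the
frozen-statement wrappers.

* `sk65_pow`  : the power trick (`x² - a x + e = 0 ⟹ (x^j)² - t x^j + e^j = 0` for some `t`);
* `sk65_abs`  : abstract skeleton.  From a nonzero `y ∈ k0 ⊗ J` which is an eigenvector of the
  base-changed operators `T0 ℓ` (`ℓ ∉ S`), a Galois action `ρ0` on `J` with open stabilisers,
  commuting with the `T0 ℓ`, satisfying the Eichler-Shimura relation at every true Frobenius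
  element at `ℓ ∉ S` and trivial on inertia at `ℓ ∉ S`, a mod-`p` cyclotomic character `ε`
  (three facts as hypotheses) and the statement of BLR-lite (hypothesis `hBLR`, the literal
  shape of `blr75_main` / `blr6_main` for `W : Type`): a two-dimensional representation `ρ'` of
  finite level with `charpoly (ρ' τ) = X² - a_ℓ X + ℓ` at every true Frobenius `τ` at `ℓ ∉ S`
  and trivial on inertia at `ℓ ∉ S`.
-/
import Mathlib
import Fermat.Prelude.Def_GaloisRep_Residual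
import Fermat.Agent.S42.FrobGlue92

set_option autoImplicit false
set_option linter.style.haveILetI false
set_option linter.unusedVariables false

open scoped TensorProduct
open Polynomial

namespace Fermat.Agent.S42


/-- polynomial form of the power trick -/
theorem sk65_pow_poly {k : Type*} [Field k] (a e : k) (j : ℕ) :
    ∃ t : k, (X ^ 2 - C a * X + C e : k[X]) ∣ X ^ j * X ^ j - C t * X ^ j + C (e ^ j) := by
  set P : k[X] := X ^ 2 - C a * X + C e with hP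
  set U : k[X] := C a - X with hU
  have key : ∀ n : ℕ, ∃ s s' : k, P ∣ X ^ n + U ^ n - C s ∧ P ∣ X ^ (n + 1) + U ^ (n + 1) - C s' := by
    intro n
    induction n with
    | zero =>
      refine ⟨2, a, ⟨0, ?_⟩, ⟨0, ?_⟩⟩
      · rw [mul_zero, pow_zero, pow_zero]
        rw [show (2 : k) = 1 + 1 by norm_num, C_add, C_1, sub_self]
      · rw [mul_zero, hU]; ring
    | succ n ih =>
      obtain ⟨s, s', ⟨q1, h1⟩, ⟨q2, h2⟩⟩ := ih
      refine ⟨s', a * s' - e * s, ⟨q2, h2⟩, ⟨C a * q2 - C e * q1 + (X ^ n + U ^ n), ?_⟩⟩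
      rw [C_sub, C_mul, C_mul]
      have hXU : X * U = C e - P := by rw [hP, hU]; ring
      have hXaU : X + U = C a := by rw [hU]; ring
      have e1 : X ^ (n + 1 + 1) + U ^ (n + 1 + 1)
          = (X + U) * (X ^ (n + 1) + U ^ (n + 1)) - X * U * (X ^ n + U ^ n) := by ring
      rw [e1, hXU, hXaU]
      linear_combination (C a) * h2 - (C e) * h1
  obtain ⟨s, -, ⟨q1, h1⟩, -⟩ := key j
  refine ⟨s, ?_⟩
  have hXU : X * U = C e - P := by rw [hP, hU]; ring
  have h2 : P ∣ (C e - P) ^ j - (C e) ^ j := by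
    have := sub_dvd_pow_sub_pow (C e - P) (C e) j
    have h3 : C e - P - C e = -P := by ring
    rw [h3] at this
    exact (neg_dvd.mp this)
  obtain ⟨q2, h2⟩ := h2
  refine ⟨X ^ j * q1 - q2, ?_⟩
  have e1 : X ^ j * X ^ j - C s * X ^ j + C (e ^ j)
      = X ^ j * (X ^ j + U ^ j - C s) - ((X * U) ^ j - (C e) ^ j) := by
    rw [C_pow, mul_pow]; ring
  rw [e1, hXU, h1, h2]; ring

/-- **Power trick.** If `x` satisfies `x² - a x + e = 0` then `x ^ j` satisfies a quadratic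
relation with constant term `e ^ j`. -/
theorem sk65_pow {k : Type*} [Field k] {V : Type*} [AddCommGroup V] [Module k V]
    (x : Module.End k V) (a e : k) (h : x * x - a • x + e • 1 = 0) (j : ℕ) :
    ∃ t : k, x ^ j * x ^ j - t • x ^ j + e ^ j • 1 = 0 := by
  obtain ⟨t, q, hq⟩ := sk65_pow_poly a e j
  refine ⟨t, ?_⟩
  have h1 := congrArg (aeval x) hq
  have hP : aeval x (X ^ 2 - C a * X + C e : k[X]) = 0 := by
    simp only [map_add, map_sub, map_mul, map_pow, aeval_X, aeval_C]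
    rw [pow_two, Algebra.algebraMap_eq_smul_one, Algebra.algebraMap_eq_smul_one, smul_mul_assoc,
      one_mul]
    exact h
  rw [map_mul, hP, zero_mul] at h1
  simp only [map_add, map_sub, map_mul, map_pow, aeval_X, aeval_C] at h1
  rw [Algebra.algebraMap_eq_smul_one, Algebra.algebraMap_eq_smul_one, smul_mul_assoc,
      one_mul, _root_.smul_pow, one_pow] at h1
  exact h1


local notation "Qb" => AlgebraicClosure ℚ
local notation "GQ" => AlgebraicClosure ℚ ≃ₐ[ℚ] AlgebraicClosure ℚ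

section Abs

variable {p : ℕ} {k0 : Type} [Field k0] [Algebra (ZMod p) k0]
  {J : Type} [AddCommGroup J] [Module (ZMod p) J]

/-- The base change to `k0` of a representation on a `ZMod p`-module. -/
noncomputable def sk65_R (k0 : Type) [Field k0] [Algebra (ZMod p) k0]
    (ρ0 : GQ →* Module.End (ZMod p) J) : GQ →* Module.End k0 (k0 ⊗[ZMod p] J) where
  toFun σ := (ρ0 σ).baseChange k0
  map_one' := by rw [map_one, LinearMap.baseChange_one]
  map_mul' σ τ := by rw [map_mul, LinearMap.baseChange_mul]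

theorem sk65_R_apply (ρ0 : GQ →* Module.End (ZMod p) J) (σ : GQ) :
    sk65_R k0 ρ0 σ = (ρ0 σ).baseChange k0 := rfl

/-- Open stabilisers pass to the base change. -/
theorem sk65_open (ρ0 : GQ →* Module.End (ZMod p) J)
    (hopen : ∀ x : J, ∃ E : IntermediateField ℚ Qb, FiniteDimensional ℚ E ∧
      ∀ σ : GQ, (∀ z ∈ E, σ z = z) → ρ0 σ x = x) (y : k0 ⊗[ZMod p] J) :
    ∃ E : IntermediateField ℚ Qb, FiniteDimensional ℚ E ∧
      ∀ σ : GQ, (∀ z ∈ E, σ z = z) → sk65_R k0 ρ0 σ y = y := by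
  induction y using TensorProduct.induction_on with
  | zero => exact ⟨⊥, inferInstance, fun σ _ => map_zero _⟩
  | tmul c x =>
    obtain ⟨E, hE, h⟩ := hopen x
    refine ⟨E, hE, fun σ hσ => ?_⟩
    rw [sk65_R_apply, LinearMap.baseChange_tmul, h σ hσ]
  | add y1 y2 ih1 ih2 =>
    obtain ⟨E1, hE1, h1⟩ := ih1
    obtain ⟨E2, hE2, h2⟩ := ih2
    haveI := hE1
    haveI := hE2
    refine ⟨E1 ⊔ E2, IntermediateField.finiteDimensional_sup E1 E2, fun σ hσ => ?_⟩
    rw [map_add, h1 σ (fun z hz => hσ z ((le_sup_left : E1 ≤ E1 ⊔ E2) hz)),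
      h2 σ (fun z hz => hσ z ((le_sup_right : E2 ≤ E1 ⊔ E2) hz))]

/-- A finite-dimensional intermediate field lies in a Galois-stable finite-dimensional one. -/
theorem sk65_normal (E : IntermediateField ℚ Qb) [FiniteDimensional ℚ E] :
    ∃ L : IntermediateField ℚ Qb, FiniteDimensional ℚ L ∧ E ≤ L ∧
      ∀ (τ : GQ) (x : Qb), x ∈ L → τ x ∈ L := by
  haveI := Fermat.Agent.S41.fb24_isAlgClosure
  haveI : Normal ℚ Qb := IsAlgClosure.normal ℚ Qb
  refine ⟨IntermediateField.normalClosure ℚ E Qb, inferInstance,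
    IntermediateField.le_normalClosure E, fun τ x hx => ?_⟩
  have hn : Normal ℚ (IntermediateField.normalClosure ℚ E Qb) := normalClosure.normal ..
  have := (IntermediateField.normal_iff_forall_map_le'.mp hn) τ
  exact this ⟨x, hx, rfl⟩

/-- Restriction of a representation to a stable submodule. -/
def sk65_res {G k V : Type*} [Group G] [Field k] [AddCommGroup V] [Module k V]
    (R : G →* Module.End k V) (W : Submodule k V)
    (h : ∀ (g : G) (w : V), w ∈ W → R g w ∈ W) : G →* Module.End k W where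
  toFun g := (R g).restrict (h g)
  map_one' := by
    ext w
    show R 1 (w : V) = w
    rw [map_one]; rfl
  map_mul' g g' := by
    ext w
    show R (g * g') (w : V) = R g (R g' w)
    rw [map_mul]; rfl

/-- **The generic skeleton of M11** (representation on an arbitrary `k`-vector space `V`). -/
theorem sk65_gen {k : Type} [Field k] [IsAlgClosed k] {V : Type} [AddCommGroup V] [Module k V]
    (hBLR : ∀ (W : Type) [AddCommGroup W] [Module k W] [FiniteDimensional k W] [Nontrivial W]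
      (rho : GQ →* Module.End k W) (chi : GQ →* kˣ),
      (∀ g, ∃ t : k, rho g * rho g - t • rho g + (chi g : k) • 1 = 0) →
      ∃ rho' : GQ →* Module.End k (Fin 2 → k),
        (∀ g (t : k), rho g * rho g - t • rho g + (chi g : k) • 1 = 0 →
          LinearMap.charpoly (rho' g) = X ^ 2 - C t * X + C (chi g : k)) ∧
        (∀ g, rho g = 1 → chi g = 1 → rho' g = 1))
    (ε : GQ →* kˣ) (S : Finset ℕ)
    (hεfrob : ∀ ℓ : ℕ, ℓ.Prime → ℓ ∉ S → ∀ A : ValuationSubring Qb, A.LiesOverPrime ℓ →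
      ∀ τ : GQ, A.IsFrobeniusAt τ ℓ → ((ε τ : kˣ) : k) = ((ℓ : ℕ) : k))
    (hεinert : ∀ ℓ : ℕ, ℓ.Prime → ℓ ∉ S → ∀ A : ValuationSubring Qb, A.LiesOverPrime ℓ →
      ∀ s : GQ, s ∈ A.inertiaSubgroupIn ℚ → ε s = 1)
    (hεfin : GaloisFactorsThroughFiniteLevel ε)
    (R : GQ →* Module.End k V) (T : Nat.Primes → Module.End k V) (a : Nat.Primes → k)
    (y : V) (hy : y ≠ 0)
    (heig : ∀ ℓ : Nat.Primes, (ℓ : ℕ) ∉ S → T ℓ y = a ℓ • y)
    (hopen : ∃ E : IntermediateField ℚ Qb, FiniteDimensional ℚ E ∧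
      ∀ σ : GQ, (∀ z ∈ E, σ z = z) → R σ y = y)
    (hcomm : ∀ (ℓ : Nat.Primes) (σ : GQ), R σ * T ℓ = T ℓ * R σ)
    (hfrob : ∀ ℓ : Nat.Primes, (ℓ : ℕ) ∉ S → ∀ A : ValuationSubring Qb, A.LiesOverPrime ℓ →
      ∀ τ : GQ, A.IsFrobeniusAt τ ℓ →
        R τ * R τ - T ℓ * R τ + (((ℓ : ℕ) : k)) • (1 : Module.End k V) = 0)
    (hinert : ∀ ℓ : ℕ, ℓ.Prime → ℓ ∉ S → ∀ A : ValuationSubring Qb, A.LiesOverPrime ℓ →
      ∀ s : GQ, s ∈ A.inertiaSubgroupIn ℚ → R s = 1) :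
    ∃ ρ' : GQ →* Module.End k (Fin 2 → k), GaloisFactorsThroughFiniteLevel ρ' ∧
      (∀ ℓ : Nat.Primes, (ℓ : ℕ) ∉ S → ∀ A : ValuationSubring Qb, A.LiesOverPrime ℓ →
        ∀ τ : GQ, A.IsFrobeniusAt τ ℓ →
          LinearMap.charpoly (ρ' τ) = X ^ 2 - C (a ℓ) * X + C (((ℓ : ℕ) : k))) ∧
      (∀ ℓ : ℕ, ℓ.Prime → ℓ ∉ S → ∀ A : ValuationSubring Qb, A.LiesOverPrime ℓ →
        ∀ s : GQ, s ∈ A.inertiaSubgroupIn ℚ → ρ' s = 1) := by
  classical
  obtain ⟨E, hE, hEy⟩ := hopen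
  haveI := hE
  obtain ⟨L, hL, hEL, hLst⟩ := sk65_normal E
  haveI := hL
  -- the orbit of `y` is finite
  have hOfin : (Set.range fun σ : GQ => R σ y).Finite := by
    let r : GQ → (E →ₐ[ℚ] Qb) := fun σ => (σ : Qb →ₐ[ℚ] Qb).comp E.val
    have hr : ∀ σ σ' : GQ, r σ = r σ' → R σ y = R σ' y := by
      intro σ σ' h
      have h1 : R (σ'⁻¹ * σ) y = y := by
        apply hEy
        intro z hz
        have h2 : σ z = σ' z := DFunLike.congr_fun h ⟨z, hz⟩
        rw [AlgEquiv.mul_apply, h2]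
        exact σ'.symm_apply_apply z
      calc R σ y = R (σ' * (σ'⁻¹ * σ)) y := by rw [mul_inv_cancel_left]
        _ = R σ' (R (σ'⁻¹ * σ) y) := by rw [map_mul]; rfl
        _ = R σ' y := by rw [h1]
    have hsub : (Set.range fun σ : GQ => R σ y)
        ⊆ Set.range (fun q : Set.range r => R q.2.choose y) := by
      rintro _ ⟨σ, rfl⟩
      exact ⟨⟨r σ, σ, rfl⟩, hr _ _ (Exists.choose_spec (⟨σ, rfl⟩ : ∃ σ', r σ' = r σ))⟩
    exact (Set.finite_range _).subset hsub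
  -- the span of the orbit
  set W : Submodule k V := Submodule.span k (Set.range fun σ : GQ => R σ y) with hWdef
  haveI hWfin : FiniteDimensional k W := FiniteDimensional.span_of_finite k hOfin
  have hyW : y ∈ W := Submodule.subset_span ⟨1, by show R 1 y = y; rw [map_one]; rfl⟩
  haveI : Nontrivial W := ⟨⟨⟨y, hyW⟩, 0, fun h => hy (congrArg Subtype.val h)⟩⟩
  have hstab : ∀ (τ : GQ) (w : V), w ∈ W → R τ w ∈ W := by
    intro τ w hw
    induction hw using Submodule.span_induction with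
    | mem w hw =>
      obtain ⟨σ, rfl⟩ := hw
      exact Submodule.subset_span
        ⟨τ * σ, by show R (τ * σ) y = R τ (R σ y); rw [map_mul]; rfl⟩
    | zero => rw [map_zero]; exact W.zero_mem
    | add u v _ _ hu hv => rw [map_add]; exact W.add_mem hu hv
    | smul c u _ hu => rw [map_smul]; exact W.smul_mem c hu
  set ρW : GQ →* Module.End k W := sk65_res R W hstab with hρWdef
  have hρW : ∀ (σ : GQ) (w : W), ((ρW σ w : W) : V) = R σ w := fun σ w => rfl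
  -- `σ` fixing `L` acts trivially on `W`
  have hLW : ∀ σ : GQ, (∀ z ∈ L, σ z = z) → ρW σ = 1 := by
    intro σ hσ
    ext ⟨w, hw⟩
    show R σ w = w
    induction hw using Submodule.span_induction with
    | mem w hw =>
      obtain ⟨τ, rfl⟩ := hw
      have h1 : R (τ⁻¹ * σ * τ) y = y := by
        apply hEy
        intro z hz
        rw [AlgEquiv.mul_apply, AlgEquiv.mul_apply, hσ (τ z) (hLst τ z (hEL hz))]
        exact τ.symm_apply_apply z
      calc R σ (R τ y) = R (τ * (τ⁻¹ * σ * τ)) y := by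
            rw [mul_assoc, mul_inv_cancel_left, map_mul]; rfl
        _ = R τ (R (τ⁻¹ * σ * τ) y) := by rw [map_mul]; rfl
        _ = R τ y := by rw [h1]
    | zero => rw [map_zero]
    | add u v _ _ hu hv => rw [map_add, hu, hv]
    | smul c u _ hu => rw [map_smul, hu]
  -- the Hecke operators act as scalars on `W`
  have hT : ∀ ℓ : Nat.Primes, (ℓ : ℕ) ∉ S → ∀ w ∈ W, T ℓ w = a ℓ • w := by
    intro ℓ hℓ w hw
    induction hw using Submodule.span_induction with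
    | mem w hw =>
      obtain ⟨σ, rfl⟩ := hw
      have h1 : T ℓ (R σ y) = R σ (T ℓ y) := (LinearMap.congr_fun (hcomm ℓ σ) y).symm
      rw [h1, heig ℓ hℓ, map_smul]
    | zero => rw [map_zero, smul_zero]
    | add u v _ _ hu hv => rw [map_add, hu, hv, smul_add]
    | smul c u _ hu => rw [map_smul, hu, smul_comm]
  -- the Eichler-Shimura relation on `W`
  have hFW : ∀ ℓ : Nat.Primes, (ℓ : ℕ) ∉ S → ∀ A : ValuationSubring Qb, A.LiesOverPrime ℓ →
      ∀ τ : GQ, A.IsFrobeniusAt τ ℓ →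
        ρW τ * ρW τ - a ℓ • ρW τ + (((ℓ : ℕ) : k)) • (1 : Module.End k W) = 0 := by
    intro ℓ hℓ A hA τ hτ
    have h1 := hfrob ℓ hℓ A hA τ hτ
    ext w
    have h2 := LinearMap.congr_fun h1 (w : V)
    simp only [LinearMap.add_apply, LinearMap.sub_apply, Module.End.mul_apply,
      LinearMap.smul_apply, Module.End.one_apply, LinearMap.zero_apply] at h2
    rw [hT ℓ hℓ _ (hstab τ w w.2)] at h2
    simp only [LinearMap.add_apply, LinearMap.sub_apply, Module.End.mul_apply,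
      LinearMap.smul_apply, Module.End.one_apply, LinearMap.zero_apply, Submodule.coe_add,
      Submodule.coe_sub, Submodule.coe_smul, ZeroMemClass.coe_zero, hρW]
    exact h2
  -- finite level of the pair
  obtain ⟨Lε, hLε, hεL⟩ := hεfin
  haveI := hLε
  have hPfin : GaloisFactorsThroughFiniteLevel (ρW.prod ε) :=
    ⟨L ⊔ Lε, IntermediateField.finiteDimensional_sup L Lε, fun σ hσ => Prod.ext
      (hLW σ fun z hz => hσ z ((le_sup_left : L ≤ L ⊔ Lε) hz))
      (hεL σ fun z hz => hσ z ((le_sup_right : Lε ≤ L ⊔ Lε) hz))⟩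
  -- every element satisfies a quadratic relation
  have hq : ∀ g : GQ, ∃ t : k, ρW g * ρW g - t • ρW g + ((ε g : kˣ) : k) • 1 = 0 := by
    intro g
    obtain ⟨ℓ, A, τ, j, hℓ, hℓS, hA, hτ, hgj, -⟩ := fg92_rep_frob (ρW.prod ε) hPfin 1 one_pos g S
    have h1 : ρW g = ρW τ ^ j := by
      have := congrArg Prod.fst hgj
      simpa using this
    have h2 : ε g = ε τ ^ j := by
      have := congrArg Prod.snd hgj
      simpa using this
    obtain ⟨t, ht⟩ := sk65_pow (ρW τ) (a ⟨ℓ, hℓ⟩) (((ℓ : ℕ) : k)) (hFW ⟨ℓ, hℓ⟩ hℓS A hA τ hτ) j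
    refine ⟨t, ?_⟩
    have h3 : ((ε g : kˣ) : k) = ((ℓ : ℕ) : k) ^ j := by
      rw [← hεfrob ℓ hℓ hℓS A hA τ hτ, h2, Units.val_pow_eq_pow_val]
    rw [h1, h3]
    exact ht
  obtain ⟨ρ', hρ'1, hρ'2⟩ := hBLR W ρW ε hq
  refine ⟨ρ', ⟨L ⊔ Lε, IntermediateField.finiteDimensional_sup L Lε, fun σ hσ => ?_⟩, ?_, ?_⟩
  · exact hρ'2 σ (hLW σ fun z hz => hσ z ((le_sup_left : L ≤ L ⊔ Lε) hz))
      (hεL σ fun z hz => hσ z ((le_sup_right : Lε ≤ L ⊔ Lε) hz))
  · intro ℓ hℓ A hA τ hτ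
    have h1 := hρ'1 τ (a ℓ)
      (by rw [hεfrob ℓ ℓ.2 hℓ A hA τ hτ]; exact hFW ℓ hℓ A hA τ hτ)
    rw [h1, hεfrob ℓ ℓ.2 hℓ A hA τ hτ]
  · intro ℓ hℓ hℓS A hA s hs
    refine hρ'2 s ?_ (hεinert ℓ hℓ hℓS A hA s hs)
    ext w
    show R s (w : V) = w
    rw [hinert ℓ hℓ hℓS A hA s hs]
    rfl

/-- **The abstract skeleton of M11**, in the vocabulary of M10 / (W1): a `ZMod p`-module `J`
with Galois action `ρ0` and operators `T0 ℓ`, an eigenvector `y` in `k0 ⊗ J`. -/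
theorem sk65_abs {p : ℕ} [Fact p.Prime] {k0 : Type} [Field k0] [IsAlgClosed k0]
    [Algebra (ZMod p) k0] {J : Type} [AddCommGroup J] [Module (ZMod p) J]
    (hBLR : ∀ (W : Type) [AddCommGroup W] [Module k0 W] [FiniteDimensional k0 W] [Nontrivial W]
      (rho : GQ →* Module.End k0 W) (chi : GQ →* k0ˣ),
      (∀ g, ∃ t : k0, rho g * rho g - t • rho g + (chi g : k0) • 1 = 0) →
      ∃ rho' : GQ →* Module.End k0 (Fin 2 → k0),
        (∀ g (t : k0), rho g * rho g - t • rho g + (chi g : k0) • 1 = 0 →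
          LinearMap.charpoly (rho' g) = X ^ 2 - C t * X + C (chi g : k0)) ∧
        (∀ g, rho g = 1 → chi g = 1 → rho' g = 1))
    (ε : GQ →* (ZMod p)ˣ)
    (hεfrob : ∀ ℓ : ℕ, ℓ.Prime → ℓ ≠ p → ∀ A : ValuationSubring Qb, A.LiesOverPrime ℓ →
      ∀ τ : GQ, A.IsFrobeniusAt τ ℓ → ((ε τ : (ZMod p)ˣ) : ZMod p) = (ℓ : ZMod p))
    (hεinert : ∀ ℓ : ℕ, ℓ.Prime → ℓ ≠ p → ∀ A : ValuationSubring Qb, A.LiesOverPrime ℓ →
      ∀ s : GQ, s ∈ A.inertiaSubgroupIn ℚ → ε s = 1)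
    (hεfin : GaloisFactorsThroughFiniteLevel ε)
    (ρ0 : GQ →* Module.End (ZMod p) J) (T0 : Nat.Primes → Module.End (ZMod p) J)
    (S : Finset ℕ) (hpS : p ∈ S) (a : Nat.Primes → k0)
    (y : k0 ⊗[ZMod p] J) (hy : y ≠ 0)
    (heig : ∀ ℓ : Nat.Primes, (ℓ : ℕ) ∉ S → (T0 ℓ).baseChange k0 y = a ℓ • y)
    (hopen : ∀ x : J, ∃ E : IntermediateField ℚ Qb, FiniteDimensional ℚ E ∧
      ∀ σ : GQ, (∀ z ∈ E, σ z = z) → ρ0 σ x = x)
    (hcomm : ∀ (ℓ : Nat.Primes) (σ : GQ), ρ0 σ * T0 ℓ = T0 ℓ * ρ0 σ)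
    (hfrob : ∀ ℓ : Nat.Primes, (ℓ : ℕ) ∉ S → ∀ A : ValuationSubring Qb, A.LiesOverPrime ℓ →
      ∀ τ : GQ, A.IsFrobeniusAt τ ℓ →
        ρ0 τ * ρ0 τ - T0 ℓ * ρ0 τ + ((ℓ : ℕ) : ZMod p) • (1 : Module.End (ZMod p) J) = 0)
    (hinert : ∀ ℓ : ℕ, ℓ.Prime → ℓ ∉ S → ∀ A : ValuationSubring Qb, A.LiesOverPrime ℓ →
      ∀ s : GQ, s ∈ A.inertiaSubgroupIn ℚ → ρ0 s = 1) :
    ∃ ρ' : GQ →* Module.End k0 (Fin 2 → k0), GaloisFactorsThroughFiniteLevel ρ' ∧
      (∀ ℓ : Nat.Primes, (ℓ : ℕ) ∉ S → ∀ A : ValuationSubring Qb, A.LiesOverPrime ℓ →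
        ∀ τ : GQ, A.IsFrobeniusAt τ ℓ →
          LinearMap.charpoly (ρ' τ) = X ^ 2 - C (a ℓ) * X + C (((ℓ : ℕ) : k0))) ∧
      (∀ ℓ : ℕ, ℓ.Prime → ℓ ∉ S → ∀ A : ValuationSubring Qb, A.LiesOverPrime ℓ →
        ∀ s : GQ, s ∈ A.inertiaSubgroupIn ℚ → ρ' s = 1) := by
  have hne : ∀ ℓ : ℕ, ℓ ∉ S → ℓ ≠ p := fun ℓ hℓ h => hℓ (h ▸ hpS)
  let ε' : GQ →* k0ˣ := (Units.map (algebraMap (ZMod p) k0 : ZMod p →* k0)).comp ε
  have hε' : ∀ g : GQ, ((ε' g : k0ˣ) : k0) = algebraMap (ZMod p) k0 ((ε g : (ZMod p)ˣ) : ZMod p) :=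
    fun g => rfl
  refine sk65_gen hBLR ε' S ?_ ?_ ?_ (sk65_R k0 ρ0) (fun ℓ => (T0 ℓ).baseChange k0) a y hy heig
    (sk65_open ρ0 hopen y) ?_ ?_ ?_
  · intro ℓ hℓ hℓS A hA τ hτ
    rw [hε', hεfrob ℓ hℓ (hne ℓ hℓS) A hA τ hτ, map_natCast]
  · intro ℓ hℓ hℓS A hA s hs
    apply Units.ext
    rw [hε', hεinert ℓ hℓ (hne ℓ hℓS) A hA s hs]
    simp
  · obtain ⟨Lε, hLε, hεL⟩ := hεfin
    refine ⟨Lε, hLε, fun σ hσ => ?_⟩
    apply Units.ext
    rw [hε', hεL σ hσ]
    simp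
  · intro ℓ σ
    rw [sk65_R_apply, ← LinearMap.baseChange_mul, hcomm ℓ σ, LinearMap.baseChange_mul]
  · intro ℓ hℓ A hA τ hτ
    have h1 := congrArg (fun f : Module.End (ZMod p) J => f.baseChange k0) (hfrob ℓ hℓ A hA τ hτ)
    simp only [LinearMap.baseChange_add, LinearMap.baseChange_sub, LinearMap.baseChange_mul,
      LinearMap.baseChange_zero, LinearMap.baseChange_smul, LinearMap.baseChange_one] at h1
    rw [Nat.cast_smul_eq_nsmul (ZMod p), ← Nat.cast_smul_eq_nsmul k0] at h1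
    exact h1
  · intro ℓ hℓ hℓS A hA s hs
    rw [sk65_R_apply, hinert ℓ hℓ hℓS A hA s hs, LinearMap.baseChange_one]

end Abs

end Fermat.Agent.S42
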