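/-
S42 / Project 4, row `W1-Assembly` (helper28).  Pure algebra: the four binding interfaces of
S42 RULING 1 (R2) give the eigenclass (W1) in `k0 ⊗ J₀(N)(ℚ̄)[p]`.

Fixed objects (`N ≥ 1`, `p` prime, `k0` a field which is a `ZMod p`-algebra):

* `w1a28_X N p   := Additive (Gamma0 N) →+ ZMod p`                          (`X_N`);
* `w1a28_Par N p := parabolicHoms (ZMod p) (Gamma0 N) (ZMod p)`              (`Par_N ≤ X_N`);
* `w1a28_J N p   := Pic0.torsion ℚ̄ (modularFunctionFieldBar N) p`            (`J_p`, an additive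
  subgroup of `JZero N`, a `ZMod p`-module by the Prelude instance);
* `w1a28_TX N p ℓ` : `heckeHom N ℓ (ZMod p)` as a `ZMod p`-linear endomorphism of `X_N`;
* `w1a28_TJ N p ℓ` : the restriction of `heckeOperatorBar N ℓ` to `J_p`, `ZMod p`-linear.

Interfaces (hypotheses of `w1a28_main`):

* (I-Ψ)   `Ψ : J_p →+ X_N`, `Function.Injective Ψ`;
* (I-SUR) `∀ χ ∈ Par_N, ∃ c : J_p, Ψ c = χ`;
* (I-HEC) `∀ ℓ : Nat.Primes, ¬ ℓ ∣ N * p → ∀ c : J_p, Ψ (T_ℓ c) = heckeHom N ℓ (ZMod p) (Ψ c)`;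
* (I-EIG) a nonzero `x : k0 ⊗[ZMod p] Par_N` whose image in `k0 ⊗[ZMod p] X_N` is an eigenvector
  of every `1 ⊗ T'_ℓ` (`ℓ ∤ N p`) with eigenvalue `lam ℓ`.

Conclusion (W1): a nonzero `y : k0 ⊗[ZMod p] J_p` with `(1 ⊗ T_ℓ) y = lam ℓ • y` (`ℓ ∤ N p`).
-/
import Mathlib
import Fermat.Prelude.Def_ModularCurve_HeckeModule
import Fermat.Prelude.Def_ModularCurve_PeriodMap
import Fermat.Prelude.Def_FLTPrelim_Modularity
import Fermat.Agent.S16.HeckeGamma0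

set_option autoImplicit false

open CongruenceSubgroup ModularCurve ModularCurve.Period AlgebraicCurve
open scoped TensorProduct MatrixGroups

namespace Fermat.Agent.S42

open Fermat.Agent.S16

/-! ### The abstract transfer lemma -/

section Abstract

variable {F : Type*} [Field F] {k0 : Type*} [Field k0] [Algebra F k0]
variable {J X P : Type*} [AddCommGroup J] [Module F J] [AddCommGroup X] [Module F X]
  [AddCommGroup P] [Module F P]

/-- Abstract form of (W1): `Ψ : J → X` injective, `ι : P → X` injective, `s : P → J` a section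
(`Ψ ∘ s = ι`), a nonzero `x ∈ k0 ⊗ P`; then `y := (1 ⊗ s) x` is nonzero, and for operators
`TJ`, `TX` with `Ψ ∘ TJ = TX ∘ Ψ` every eigen-equation of `(1 ⊗ ι) x` under `1 ⊗ TX` is an
eigen-equation of `y` under `1 ⊗ TJ`. -/
theorem w1a28_abs (Ψ : J →ₗ[F] X) (hΨ : Function.Injective Ψ) (ι : P →ₗ[F] X)
    (hι : Function.Injective ι) (s : P →ₗ[F] J) (hs : Ψ.comp s = ι)
    (x : k0 ⊗[F] P) (hx0 : x ≠ 0) :
    s.baseChange k0 x ≠ 0 ∧
      ∀ (TJ : J →ₗ[F] J) (TX : X →ₗ[F] X), Ψ.comp TJ = TX.comp Ψ → ∀ c : k0,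
        TX.baseChange k0 (ι.baseChange k0 x) = c • ι.baseChange k0 x →
        TJ.baseChange k0 (s.baseChange k0 x) = c • s.baseChange k0 x := by
  have hΨinj : Function.Injective (Ψ.baseChange k0) := by
    rw [LinearMap.baseChange_eq_ltensor]
    exact Module.Flat.lTensor_preserves_injective_linearMap Ψ hΨ
  have hιinj : Function.Injective (ι.baseChange k0) := by
    rw [LinearMap.baseChange_eq_ltensor]
    exact Module.Flat.lTensor_preserves_injective_linearMap ι hι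
  have hy : Ψ.baseChange k0 (s.baseChange k0 x) = ι.baseChange k0 x := by
    rw [← LinearMap.comp_apply, ← LinearMap.baseChange_comp, hs]
  refine ⟨fun h0 => hx0 (hιinj ?_), fun TJ TX hcomm c hc => hΨinj ?_⟩
  · rw [← hy, h0, map_zero, map_zero]
  · rw [← LinearMap.comp_apply, ← LinearMap.baseChange_comp, hcomm, LinearMap.baseChange_comp,
      LinearMap.comp_apply, hy, hc, map_smul, hy]

end Abstract

section Defs

variable (N : ℕ) (p : ℕ)

/-- `Par_N ≤ X_N = Hom(Γ₀(N), ℤ/p)`: the parabolic homomorphisms (Prelude clause). -/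
abbrev w1a28_Par : Submodule (ZMod p) (Additive (Gamma0 N) →+ ZMod p) :=
  parabolicHoms (ZMod p) (Gamma0 N) (ZMod p)

/-- `J_p = J₀(N)(ℚ̄)[p]`. -/
noncomputable abbrev w1a28_J : AddSubgroup (JZero N) :=
  Pic0.torsion (AlgebraicClosure ℚ) (modularFunctionFieldBar N) p

/-- `T'_ℓ = heckeHom N ℓ (ZMod p)` as a `ZMod p`-linear endomorphism of `X_N`. -/
noncomputable def w1a28_TX (ℓ : ℕ) :
    (Additive (Gamma0 N) →+ ZMod p) →ₗ[ZMod p] (Additive (Gamma0 N) →+ ZMod p) :=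
  (heckeHom N ℓ (ZMod p)).toZModLinearMap p

theorem w1a28_TX_apply (ℓ : ℕ) (χ : Additive (Gamma0 N) →+ ZMod p) :
    w1a28_TX N p ℓ χ = heckeHom N ℓ (ZMod p) χ := rfl

variable [NeZero N]

/-- `heckeOperatorBar N ℓ` preserves the `p`-torsion. -/
theorem w1a28_hecke_mem (ℓ : Nat.Primes) {c : JZero N} (hc : c ∈ w1a28_J N p) :
    heckeOperatorBar N ℓ c ∈ w1a28_J N p := by
  rw [Pic0.mem_torsion] at hc ⊢
  rw [← map_zsmul, hc, map_zero]

/-- the restriction of `heckeOperatorBar N ℓ` to `J_p`, as an additive map. -/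
noncomputable def w1a28_TJadd (ℓ : Nat.Primes) : w1a28_J N p →+ w1a28_J N p where
  toFun c := ⟨heckeOperatorBar N ℓ (c : JZero N), w1a28_hecke_mem N p ℓ c.2⟩
  map_zero' := Subtype.ext (by simp)
  map_add' c d := Subtype.ext (by simp)

/-- `T_ℓ` on `J_p`, `ZMod p`-linear. -/
noncomputable def w1a28_TJ (ℓ : Nat.Primes) : w1a28_J N p →ₗ[ZMod p] w1a28_J N p :=
  (w1a28_TJadd N p ℓ).toZModLinearMap p

theorem w1a28_TJ_coe (ℓ : Nat.Primes) (c : w1a28_J N p) :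
    ((w1a28_TJ N p ℓ c : w1a28_J N p) : JZero N) = heckeOperatorBar N ℓ (c : JZero N) := rfl

end Defs

section Main

variable {N : ℕ} {p : ℕ}

/-- the section of `Ψ` over `Par_N` given by (I-SUR), as a function. -/
noncomputable def w1a28_secFun (Ψ : w1a28_J N p →+ (Additive (Gamma0 N) →+ ZMod p))
    (hsur : ∀ χ ∈ w1a28_Par N p, ∃ c : w1a28_J N p, Ψ c = χ) (χ : w1a28_Par N p) :
    w1a28_J N p :=
  (hsur χ.1 χ.2).choose

theorem w1a28_secFun_spec (Ψ : w1a28_J N p →+ (Additive (Gamma0 N) →+ ZMod p))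
    (hsur : ∀ χ ∈ w1a28_Par N p, ∃ c : w1a28_J N p, Ψ c = χ) (χ : w1a28_Par N p) :
    Ψ (w1a28_secFun Ψ hsur χ) = (χ : Additive (Gamma0 N) →+ ZMod p) :=
  (hsur χ.1 χ.2).choose_spec

/-- the section of `Ψ` over `Par_N` given by (I-Ψ) + (I-SUR), as an additive map. -/
noncomputable def w1a28_secAdd (Ψ : w1a28_J N p →+ (Additive (Gamma0 N) →+ ZMod p))
    (hΨ : Function.Injective Ψ)
    (hsur : ∀ χ ∈ w1a28_Par N p, ∃ c : w1a28_J N p, Ψ c = χ) :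
    w1a28_Par N p →+ w1a28_J N p where
  toFun := w1a28_secFun Ψ hsur
  map_zero' := hΨ (by rw [w1a28_secFun_spec, map_zero]; rfl)
  map_add' χ χ' := hΨ (by
    rw [map_add, w1a28_secFun_spec, w1a28_secFun_spec, w1a28_secFun_spec]; rfl)

variable [NeZero N] [Fact p.Prime] {k0 : Type*} [Field k0] [Algebra (ZMod p) k0]

/-- **(W1) from the four interfaces**, abstract eigenvalues `lam`. -/
theorem w1a28_main
    (Ψ : w1a28_J N p →+ (Additive (Gamma0 N) →+ ZMod p)) (hΨ : Function.Injective Ψ)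
    (hsur : ∀ χ ∈ w1a28_Par N p, ∃ c : w1a28_J N p, Ψ c = χ)
    (hhec : ∀ ℓ : Nat.Primes, ¬ (ℓ : ℕ) ∣ N * p → ∀ c : w1a28_J N p,
      Ψ (w1a28_TJ N p ℓ c) = heckeHom N ℓ (ZMod p) (Ψ c))
    (lam : Nat.Primes → k0)
    (heig : ∃ x : k0 ⊗[ZMod p] w1a28_Par N p, x ≠ 0 ∧
      ∀ ℓ : Nat.Primes, ¬ (ℓ : ℕ) ∣ N * p →
        (w1a28_TX N p ℓ).baseChange k0 ((w1a28_Par N p).subtype.baseChange k0 x)
          = lam ℓ • (w1a28_Par N p).subtype.baseChange k0 x) :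
    ∃ y : k0 ⊗[ZMod p] w1a28_J N p, y ≠ 0 ∧
      ∀ ℓ : Nat.Primes, ¬ (ℓ : ℕ) ∣ N * p →
        (w1a28_TJ N p ℓ).baseChange k0 y = lam ℓ • y := by
  obtain ⟨x, hx0, hx⟩ := heig
  have hs : (Ψ.toZModLinearMap p).comp ((w1a28_secAdd Ψ hΨ hsur).toZModLinearMap p)
      = (w1a28_Par N p).subtype :=
    LinearMap.ext fun χ => w1a28_secFun_spec Ψ hsur χ
  have key := w1a28_abs (k0 := k0) (Ψ.toZModLinearMap p) hΨ (w1a28_Par N p).subtype
    (Submodule.subtype_injective _) ((w1a28_secAdd Ψ hΨ hsur).toZModLinearMap p) hs x hx0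
  refine ⟨_, key.1, fun ℓ hℓ => key.2 (w1a28_TJ N p ℓ) (w1a28_TX N p ℓ) ?_ (lam ℓ) (hx ℓ hℓ)⟩
  exact LinearMap.ext fun c => hhec ℓ hℓ c

/-- (I-HEC) in a form free of `w1a28_TJ`: it is enough to know `Ψ` on the `heckeOperatorBar`
image of each torsion class. -/
theorem w1a28_hhec_of_coe (Ψ : w1a28_J N p →+ (Additive (Gamma0 N) →+ ZMod p))
    (h : ∀ ℓ : Nat.Primes, ¬ (ℓ : ℕ) ∣ N * p → ∀ c c' : w1a28_J N p,
      (c' : JZero N) = heckeOperatorBar N ℓ (c : JZero N) →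
        Ψ c' = heckeHom N ℓ (ZMod p) (Ψ c)) :
    ∀ ℓ : Nat.Primes, ¬ (ℓ : ℕ) ∣ N * p → ∀ c : w1a28_J N p,
      Ψ (w1a28_TJ N p ℓ c) = heckeHom N ℓ (ZMod p) (Ψ c) :=
  fun ℓ hℓ c => h ℓ hℓ c _ (w1a28_TJ_coe N p ℓ c)

/-- **(W1) for an eigenform**: the literal statement of S42 RULING 1 (R2), eigenvalues
`φ (a_ℓ)`, `a_ℓ ∈ integralClosure ℤ ℂ` the `ℓ`-th `q`-coefficient of `f`. -/
theorem w1a28_main_eigenform
    (Ψ : w1a28_J N p →+ (Additive (Gamma0 N) →+ ZMod p)) (hΨ : Function.Injective Ψ)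
    (hsur : ∀ χ ∈ w1a28_Par N p, ∃ c : w1a28_J N p, Ψ c = χ)
    (hhec : ∀ ℓ : Nat.Primes, ¬ (ℓ : ℕ) ∣ N * p → ∀ c : w1a28_J N p,
      Ψ (w1a28_TJ N p ℓ c) = heckeHom N ℓ (ZMod p) (Ψ c))
    (f : CuspForm (Gamma0 N) 2) (φ : integralClosure ℤ ℂ →+* k0)
    (heig : ∃ x : k0 ⊗[ZMod p] w1a28_Par N p, x ≠ 0 ∧
      ∀ ℓ : Nat.Primes, ¬ (ℓ : ℕ) ∣ N * p →
        ∃ a : integralClosure ℤ ℂ, (a : ℂ) = ModularFormClass.qCoeff (⇑f) ℓ ∧
          (w1a28_TX N p ℓ).baseChange k0 ((w1a28_Par N p).subtype.baseChange k0 x)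
            = φ a • (w1a28_Par N p).subtype.baseChange k0 x) :
    ∃ y : k0 ⊗[ZMod p] w1a28_J N p, y ≠ 0 ∧
      ∀ ℓ : Nat.Primes, ¬ (ℓ : ℕ) ∣ N * p →
        ∃ a : integralClosure ℤ ℂ, (a : ℂ) = ModularFormClass.qCoeff (⇑f) ℓ ∧
          (w1a28_TJ N p ℓ).baseChange k0 y = φ a • y := by
  obtain ⟨x, hx0, hx⟩ := heig
  have hs : (Ψ.toZModLinearMap p).comp ((w1a28_secAdd Ψ hΨ hsur).toZModLinearMap p)
      = (w1a28_Par N p).subtype :=
    LinearMap.ext fun χ => w1a28_secFun_spec Ψ hsur χ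
  have key := w1a28_abs (k0 := k0) (Ψ.toZModLinearMap p) hΨ (w1a28_Par N p).subtype
    (Submodule.subtype_injective _) ((w1a28_secAdd Ψ hΨ hsur).toZModLinearMap p) hs x hx0
  refine ⟨_, key.1, fun ℓ hℓ => ?_⟩
  obtain ⟨a, ha, hax⟩ := hx ℓ hℓ
  refine ⟨a, ha, key.2 (w1a28_TJ N p ℓ) (w1a28_TX N p ℓ) ?_ (φ a) hax⟩
  exact LinearMap.ext fun c => hhec ℓ hℓ c

end Main

end Fermat.Agent.S42
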