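/-
S42 / Project 4, row M11b (helper65): the concrete skeleton.  From (W1) (the conclusion of
`w1t28_main` / `w1a28_main_eigenform`), the M10 package on main (`M10Adapter69`), the abstract
skeleton `sk65_abs`, the statement of BLR-lite (`hBLR`) and the three facts about a mod-`p`
cyclotomic character `ε` (hypotheses): the residual Galois representation attached to a
weight-2 eigenform, over any algebraically closed `k0` (`sk65_core_gen`) and in the shape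
`fz76_Core` consumed by `fz76_S42_of_core` / `fz76_S29_of_core` (`sk65_core`).
-/
import Mathlib
import Fermat.Agent.S42.Skeleton65
import Fermat.Agent.S42.M10Adapter69
import Fermat.Agent.S42.W1Asm28
import Fermat.Agent.S42.Frozen76
import Fermat.Agent.S42.S29Plumb47

set_option autoImplicit false
set_option linter.style.haveILetI false
set_option linter.unusedVariables false

open scoped TensorProduct
open Polynomial ModularCurve AlgebraicCurve CongruenceSubgroup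

namespace Fermat.Agent.S42

local notation "Qb" => AlgebraicClosure ℚ
local notation "GQ" => AlgebraicClosure ℚ ≃ₐ[ℚ] AlgebraicClosure ℚ
local notation "Zb" => integralClosure ℤ ℂ

/-- The two restricted Hecke operators on the `p`-torsion agree. -/
theorem sk65_TJ_eq (N p : ℕ) [NeZero N] (ℓ : Nat.Primes) :
    th75_heckeTors N p ℓ = w1a28_TJ N p ℓ := rfl

/-- The statement of BLR-lite over a fixed algebraically closed field `k` (the literal shape of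
`blr75_main` / `blr6_main` for `G = G_ℚ` and `W : Type`). -/
def sk65_BLR (k : Type) [Field k] : Prop :=
  ∀ (W : Type) [AddCommGroup W] [Module k W] [FiniteDimensional k W] [Nontrivial W]
    (rho : GQ →* Module.End k W) (chi : GQ →* kˣ),
    (∀ g, ∃ t : k, rho g * rho g - t • rho g + (chi g : k) • 1 = 0) →
    ∃ rho' : GQ →* Module.End k (Fin 2 → k),
      (∀ g (t : k), rho g * rho g - t • rho g + (chi g : k) • 1 = 0 →
        LinearMap.charpoly (rho' g) = X ^ 2 - C t * X + C (chi g : k)) ∧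
      (∀ g, rho g = 1 → chi g = 1 → rho' g = 1)

/-- The three facts about a mod-`p` cyclotomic character (shapes of `cy92_chi_frob`,
`cy92_chi_inertia`, `cy92_chi_finiteLevel`). -/
def sk65_IsCyclo (p : ℕ) (ε : GQ →* (ZMod p)ˣ) : Prop :=
  (∀ ℓ : ℕ, ℓ.Prime → ℓ ≠ p → ∀ A : ValuationSubring Qb, A.LiesOverPrime ℓ →
      ∀ τ : GQ, A.IsFrobeniusAt τ ℓ → ((ε τ : (ZMod p)ˣ) : ZMod p) = (ℓ : ZMod p)) ∧
  (∀ ℓ : ℕ, ℓ.Prime → ℓ ≠ p → ∀ A : ValuationSubring Qb, A.LiesOverPrime ℓ →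
      ∀ s : GQ, s ∈ A.inertiaSubgroupIn ℚ → ε s = 1) ∧
  GaloisFactorsThroughFiniteLevel ε

set_option maxHeartbeats 400000 in
/-- **The residual representation from (W1)**, over any algebraically closed field `k0` of
characteristic `p` receiving `ℤ̄`. -/
theorem sk65_core_gen {p : ℕ} [Fact p.Prime] {k0 : Type} [Field k0] [IsAlgClosed k0]
    [Algebra (ZMod p) k0] (hBLR : sk65_BLR k0)
    (ε : GQ →* (ZMod p)ˣ) (hε : sk65_IsCyclo p ε)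
    {N : ℕ} [NeZero N] (g : CuspForm (Gamma0 N) 2) (φ : Zb →+* k0)
    (hW1 : ∃ y : k0 ⊗[ZMod p] w1a28_J N p, y ≠ 0 ∧
      ∀ ℓ : Nat.Primes, ¬ (ℓ : ℕ) ∣ N * p →
        ∃ a : Zb, (a : ℂ) = ModularFormClass.qCoeff (⇑g) ℓ ∧
          (w1a28_TJ N p ℓ).baseChange k0 y = φ a • y) :
    ∃ ρ : ResidualGaloisRep k0, ρ.IsAttachedTo g φ ∧
      ∀ ℓ : ℕ, ℓ.Prime → ¬ ℓ ∣ N * p → ρ.IsUnramifiedAt ℓ := by
  classical
  have hp : p.Prime := Fact.out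
  obtain ⟨y, hy, hyT⟩ := hW1
  obtain ⟨hεfrob, hεinert, hεfin⟩ := hε
  have hNp : N * p ≠ 0 := Nat.mul_ne_zero (NeZero.ne N) hp.ne_zero
  let S : Finset ℕ := (N * p).primeFactors
  have hS : ∀ ℓ : ℕ, ℓ.Prime → (ℓ ∉ S ↔ ¬ ℓ ∣ N * p) := by
    intro ℓ hℓ
    simp only [S, Nat.mem_primeFactors, not_and, not_not]
    exact ⟨fun h hd => hNp (h hℓ hd), fun h _ hd => absurd hd h⟩
  have hpS : p ∈ S := Nat.mem_primeFactors.mpr ⟨hp, Dvd.intro_left N rfl, hNp⟩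
  let a : Nat.Primes → k0 := fun ℓ =>
    if h : ¬ (ℓ : ℕ) ∣ N * p then φ (hyT ℓ h).choose else 0
  have ha : ∀ (ℓ : Nat.Primes) (h : ¬ (ℓ : ℕ) ∣ N * p), a ℓ = φ (hyT ℓ h).choose :=
    fun ℓ h => dif_pos h
  obtain ⟨ρ', hfin, hchar, hun⟩ := sk65_abs (k0 := k0) hBLR ε hεfrob hεinert hεfin
    (JZero.torsionGaloisRep N p) (fun ℓ => th75_heckeTors N p ℓ) S hpS a y hy
    (fun ℓ hℓ => by
      have h := (hS ℓ ℓ.2).mp hℓ
      rw [ha ℓ h, sk65_TJ_eq]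
      exact (hyT ℓ h).choose_spec.2)
    (fun x => fi69_ad_open N p hp.ne_zero x)
    (fun ℓ σ => fi69_ad_comm N p ℓ σ)
    (fun ℓ hℓ A hA τ hτ => fi69_ad_frob' N p ℓ ((hS ℓ ℓ.2).mp hℓ) A hA τ hτ)
    (fun ℓ hℓ hℓS A hA s hs => fi69_ad_inert' N p ℓ hℓ ((hS ℓ hℓ).mp hℓS) A hA s hs)
  refine ⟨{ V := Fin 2 → k0, finrank_eq := by simp, ρ := ρ', factorsThroughFiniteLevel := hfin },
    ?_, ?_⟩
  · intro ℓ hℓ hℓN hℓk A hA σ hσ
    have hℓp : ℓ ≠ p := by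
      rintro rfl
      apply hℓk
      have h0 : ((ℓ : ℕ) : k0) = algebraMap (ZMod ℓ) k0 ((ℓ : ℕ) : ZMod ℓ) := (map_natCast _ ℓ).symm
      rw [h0, ZMod.natCast_self, map_zero]
    have hℓNp : ¬ ℓ ∣ N * p := by
      intro h
      rcases (Nat.Prime.dvd_mul hℓ).mp h with h | h
      · exact hℓN h
      · exact hℓp ((Nat.prime_dvd_prime_iff_eq hℓ hp).mp h)
    refine ⟨(hyT ⟨ℓ, hℓ⟩ hℓNp).choose, (hyT ⟨ℓ, hℓ⟩ hℓNp).choose_spec.1, ?_⟩
    have h1 := hchar ⟨ℓ, hℓ⟩ ((hS ℓ hℓ).mpr hℓNp) A hA σ hσ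
    rw [ha ⟨ℓ, hℓ⟩ hℓNp] at h1
    exact h1
  · intro ℓ hℓ hℓNp A hA σ hσ
    exact hun ℓ hℓ ((hS ℓ hℓ).mpr hℓNp) A hA σ hσ

attribute [local instance] Ideal.Quotient.field

/-- **The core `fz76_Core` from (W1)** at `k0 = ℤ̄ ⧸ 𝔪`, `φ = mk`: exactly the hypothesis of
`fz76_S42_of_core` / `fz76_S29_of_core`. -/
theorem sk65_core {p : ℕ} [Fact p.Prime] {N : ℕ} [NeZero N] (g : CuspForm (Gamma0 N) 2)
    (𝔪 : Ideal Zb) [𝔪.IsMaximal] [Algebra (ZMod p) (Zb ⧸ 𝔪)]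
    (hBLR : sk65_BLR (Zb ⧸ 𝔪)) (ε : GQ →* (ZMod p)ˣ) (hε : sk65_IsCyclo p ε)
    (hW1 : ∃ y : (Zb ⧸ 𝔪) ⊗[ZMod p] w1a28_J N p, y ≠ 0 ∧
      ∀ ℓ : Nat.Primes, ¬ (ℓ : ℕ) ∣ N * p →
        ∃ a : Zb, (a : ℂ) = ModularFormClass.qCoeff (⇑g) ℓ ∧
          (w1a28_TJ N p ℓ).baseChange (Zb ⧸ 𝔪) y = Ideal.Quotient.mk 𝔪 a • y) :
    fz76_Core N g p 𝔪 := by
  haveI : IsAlgClosed (Zb ⧸ 𝔪) := s29p47_isAlgClosed 𝔪
  exact sk65_core_gen hBLR ε hε g (Ideal.Quotient.mk 𝔪) hW1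

/-- **(W1)** at the prime `p`, for all positive levels, all normalised eigenforms and all
residue maps to algebraically closed `ZMod p`-algebras: the conclusion of
`w1t28_main` / `w1t70_main_eigenform` / `w1a28_main_eigenform`. -/
def sk65_W1 (p : ℕ) : Prop :=
  ∀ (N : ℕ) [NeZero N] (g : CuspForm (Gamma0 N) 2), g.IsNormalizedEigenform →
    ∀ (k0 : Type) [Field k0] [IsAlgClosed k0] [Algebra (ZMod p) k0] (φ : Zb →+* k0),
      ∃ y : k0 ⊗[ZMod p] w1a28_J N p, y ≠ 0 ∧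
        ∀ ℓ : Nat.Primes, ¬ (ℓ : ℕ) ∣ N * p →
          ∃ a : Zb, (a : ℂ) = ModularFormClass.qCoeff (⇑g) ℓ ∧
            (w1a28_TJ N p ℓ).baseChange k0 y = φ a • y

/-- `fz76_Core` for every eigenform and every maximal ideal over `p`, from (W1) at `p`,
BLR-lite and a mod-`p` cyclotomic character. -/
theorem sk65_core_all {p : ℕ} (hp : p.Prime)
    (hBLR : ∀ (k : Type) [Field k] [IsAlgClosed k], sk65_BLR k)
    (ε : GQ →* (ZMod p)ˣ) (hε : sk65_IsCyclo p ε) (hW1 : sk65_W1 p)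
    (N : ℕ) (hN : 0 < N) (g : CuspForm (Gamma0 N) 2) (hg : g.IsNormalizedEigenform)
    (𝔪 : Ideal Zb) [𝔪.IsMaximal] (hp𝔪 : (p : Zb) ∈ 𝔪) : fz76_Core N g p 𝔪 := by
  haveI : Fact p.Prime := ⟨hp⟩
  haveI : NeZero N := ⟨hN.ne'⟩
  have hp0 : ((p : ℕ) : Zb ⧸ 𝔪) = 0 := by
    rw [← map_natCast (Ideal.Quotient.mk 𝔪)]
    exact Ideal.Quotient.eq_zero_iff_mem.mpr hp𝔪
  haveI hchar : CharP (Zb ⧸ 𝔪) p := (CharP.charP_iff_prime_eq_zero hp).mpr hp0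
  letI : Algebra (ZMod p) (Zb ⧸ 𝔪) := ZMod.algebra _ p
  haveI : IsAlgClosed (Zb ⧸ 𝔪) := s29p47_isAlgClosed 𝔪
  exact sk65_core g 𝔪 (hBLR _) ε hε (hW1 N g hg (Zb ⧸ 𝔪) (Ideal.Quotient.mk 𝔪))

/-- **Frozen S42** from (W1) at the prime of the Frey package, BLR-lite and a cyclotomic
character. -/
theorem sk65_S42 (P : FreyPackage)
    (hBLR : ∀ (k : Type) [Field k] [IsAlgClosed k], sk65_BLR k)
    (ε : GQ →* (ZMod P.p)ˣ) (hε : sk65_IsCyclo P.p ε) (hW1 : sk65_W1 P.p) :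
    ∀ M : ℕ, 0 < M → P.EigenformResidualAttachmentAt M :=
  fz76_S42_of_core P fun M hM g hg 𝔪 _ hp𝔪 =>
    sk65_core_all P.pp hBLR ε hε hW1 M hM g hg 𝔪 hp𝔪

/-- **Frozen S29** from (W1) at every prime, BLR-lite and cyclotomic characters. -/
theorem sk65_S29
    (hBLR : ∀ (k : Type) [Field k] [IsAlgClosed k], sk65_BLR k)
    (hcyc : ∀ p : ℕ, p.Prime → ∃ ε : GQ →* (ZMod p)ˣ, sk65_IsCyclo p ε)
    (hW1 : ∀ p : ℕ, p.Prime → sk65_W1 p)
    {N : ℕ} {g : CuspForm (Gamma0 N) 2} (hg : g.IsNormalizedEigenform)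
    {p : ℕ} (hp : p.Prime) {k : Type} [Field k] [CharP k p] (φ : Zb →+* k) :
    ∃ ρ : ResidualGaloisRep k, ρ.IsAttachedTo g φ ∧
      ∀ ℓ : ℕ, ℓ.Prime → ¬ ℓ ∣ N * p → ρ.IsUnramifiedAt ℓ :=
  fz76_S29_of_core (fun N hN g hg p hp 𝔪 _ hp𝔪 => by
    obtain ⟨ε, hε⟩ := hcyc p hp
    exact sk65_core_all hp hBLR ε hε (hW1 p hp) N hN g hg 𝔪 hp𝔪) hg hp φ

end Fermat.Agent.S42
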