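/-
S42 / M11-G, rider-ready form (helper92): roots of unity of ARBITRARY order `n` prime to the
residue characteristic, at Frobenius and inertia elements (any field `L`, any valuation subring).

* `cy92_root_congr`   : `σ ζ ≡ ζ ^ e` modulo the maximal ideal forces `σ ζ = ζ ^ e`;
* `cy92_frob_root`    : a Frobenius element at `ℓ` maps every `n`-th root of unity `ζ` (`ℓ ∤ n`)
                        to `ζ ^ ℓ`;
* `cy92_inertia_root` : an element of the inertia group at `q` fixes every `n`-th root of unity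
                        (`q ∤ n`);
* `cy92_pow_root`     : if `g = τ ^ j` on the `n`-th roots of unity and `τ` is a Frobenius element
                        at `ℓ ∤ n`, then `g ζ = ζ ^ (ℓ ^ j)`.
-/
import Fermat.Agent.S42.CycloChar92

set_option autoImplicit false
set_option linter.style.haveILetI false

namespace Fermat.Agent.S42

section Roots

variable {K L : Type*} [Field K] [Field L] [Algebra K L]

/-- If `σ ζ ≡ ζ ^ e` modulo the maximal ideal of a valuation subring `A` over a prime `ℓ`, and `ζ`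
is an `n`-th root of unity with `ℓ ∤ n`, then `σ ζ = ζ ^ e`. -/
theorem cy92_root_congr (A : ValuationSubring L) {ℓ : ℕ} (hℓ : ℓ.Prime)
    (hA : A.LiesOverPrime ℓ) (σ : L ≃ₐ[K] L) (n : ℕ) (hn : ¬ ℓ ∣ n) (ζ : L) (hζ : ζ ^ n = 1)
    (e : ℕ) (h : σ ζ - ζ ^ e ∈ A.nonunits) : σ ζ = ζ ^ e := by
  have hn0 : n ≠ 0 := fun h0 => hn (h0 ▸ dvd_zero ℓ)
  have hmn : orderOf ζ ∣ n := orderOf_dvd_of_pow_eq_one hζ
  have hm0 : 0 < orderOf ζ :=
    Nat.pos_of_ne_zero (fun h0 => hn0 (by rw [h0] at hmn; exact zero_dvd_iff.mp hmn))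
  have hprim : IsPrimitiveRoot ζ (orderOf ζ) := IsPrimitiveRoot.orderOf ζ
  have hcop : Nat.Coprime ℓ (orderOf ζ) :=
    (Nat.Prime.coprime_iff_not_dvd hℓ).mpr (fun hd => hn (hd.trans hmn))
  have hσm : (σ ζ) ^ orderOf ζ = 1 := by rw [← map_pow, hprim.pow_eq_one, map_one]
  haveI : NeZero (orderOf ζ) := ⟨hm0.ne'⟩
  obtain ⟨i, -, hi⟩ := hprim.eq_pow_of_pow_eq_one hσm
  rw [← hi] at h ⊢
  have h2 : i % orderOf ζ = e % orderOf ζ := cy92_modEq_of_sub_mem A hA hcop hm0 hprim h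
  rw [← pow_mod_orderOf ζ i, ← pow_mod_orderOf ζ e, h2]

/-- **Frobenius on roots of unity.**  A Frobenius element at `ℓ` raises every `n`-th root of unity
with `ℓ ∤ n` to the `ℓ`-th power. -/
theorem cy92_frob_root (A : ValuationSubring L) {ℓ : ℕ} (hℓ : ℓ.Prime)
    (hA : A.LiesOverPrime ℓ) {τ : L ≃ₐ[K] L} (hτ : A.IsFrobeniusAt τ ℓ) (n : ℕ) (hn : ¬ ℓ ∣ n)
    (ζ : L) (hζ : ζ ^ n = 1) : τ ζ = ζ ^ ℓ := by
  have hn0 : 0 < n := Nat.pos_of_ne_zero (fun h0 => hn (h0 ▸ dvd_zero ℓ))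
  exact cy92_root_congr A hℓ hA τ n hn ζ hζ ℓ
    (cy92_congr_of_isFrobeniusAt A τ ℓ hτ ζ (cy92_root_mem A hn0 hζ))

/-- **Inertia on roots of unity.**  The inertia group at `q` fixes every `n`-th root of unity
with `q ∤ n`. -/
theorem cy92_inertia_root (A : ValuationSubring L) {q : ℕ} (hq : q.Prime)
    (hA : A.LiesOverPrime q) {σ : L ≃ₐ[K] L} (hσ : σ ∈ A.inertiaSubgroupIn K) (n : ℕ)
    (hn : ¬ q ∣ n) (ζ : L) (hζ : ζ ^ n = 1) : σ ζ = ζ := by
  have hn0 : 0 < n := Nat.pos_of_ne_zero (fun h0 => hn (h0 ▸ dvd_zero q))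
  have h1 : σ ζ - ζ ^ 1 ∈ A.nonunits := by
    rw [pow_one]
    exact cy92_congr_of_mem_inertia A hσ ζ (cy92_root_mem A hn0 hζ)
  have h2 := cy92_root_congr A hq hA σ n hn ζ hζ 1 h1
  rwa [pow_one] at h2

/-- Powers of a Frobenius element on roots of unity. -/
theorem cy92_frob_pow_root (A : ValuationSubring L) {ℓ : ℕ} (hℓ : ℓ.Prime)
    (hA : A.LiesOverPrime ℓ) {τ : L ≃ₐ[K] L} (hτ : A.IsFrobeniusAt τ ℓ) (n : ℕ) (hn : ¬ ℓ ∣ n)
    (j : ℕ) (ζ : L) (hζ : ζ ^ n = 1) : (τ ^ j) ζ = ζ ^ (ℓ ^ j) := by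
  induction j generalizing ζ with
  | zero => simp
  | succ j ih =>
    have h1 : (τ ζ) ^ n = 1 := by rw [← map_pow, hζ, map_one]
    rw [pow_succ, AlgEquiv.mul_apply, ih (τ ζ) h1, cy92_frob_root A hℓ hA hτ n hn ζ hζ,
      ← pow_mul, pow_succ, mul_comm]

/-- If `g` agrees with `τ ^ j` on the `n`-th roots of unity, `τ` a Frobenius element at `ℓ ∤ n`,
then `g` raises them to the power `ℓ ^ j`. -/
theorem cy92_pow_root (A : ValuationSubring L) {ℓ : ℕ} (hℓ : ℓ.Prime)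
    (hA : A.LiesOverPrime ℓ) {τ : L ≃ₐ[K] L} (hτ : A.IsFrobeniusAt τ ℓ) (n : ℕ) (hn : ¬ ℓ ∣ n)
    (g : L ≃ₐ[K] L) (j : ℕ) (h : ∀ z : L, z ^ n = 1 → g z = (τ ^ j) z) (ζ : L) (hζ : ζ ^ n = 1) :
    g ζ = ζ ^ (ℓ ^ j) := by
  rw [h ζ hζ, cy92_frob_pow_root A hℓ hA hτ n hn j ζ hζ]

end Roots

end Fermat.Agent.S42
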