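/-
S42 / M9 (helper54), part A: REDUCTION OF A SYSTEM OF HECKE EIGENVALUES MODULO `p`
(matrix form, Mathlib + `el2_common_kernel` only).

`A a` (`a : ι`, any index type) pairwise commuting integer matrices with a common LEFT
eigenvector `w ≠ 0` over `ℂ`, eigenvalues `c a`:  `∑ i, w i * A a i j = c a * w j`.  Then

* `m9r54_isIntegral` : every `c a` is an algebraic integer;
* `m9r54_left`       : for every ring homomorphism `φ : integralClosure ℤ ℂ →+* k0` into a field of
  characteristic `p` the reduced matrices have a common LEFT eigenvector `v ≠ 0` over `k0` with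
  eigenvalues `φ (c a)`:  `∑ i, v i * A a i j = φ (c a) * v j`.

No finiteness or freeness hypothesis on anything, no Nakayama: the only input is a determinant
(`X ≡ 1 mod J` and `w X = 0` with `w ≠ 0` is impossible).
-/
import Mathlib
import Fermat.Agent.S41.EigenLift2

set_option autoImplicit false

namespace Fermat.Agent.S42

open Matrix Fermat.Agent.S41

section Integral

variable {m : Type*} [Fintype m] [DecidableEq m]

/-- An eigenvalue (left eigenvector) of an integer matrix is an algebraic integer. -/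
theorem m9r54_isIntegral (A : Matrix m m ℤ) (w : m → ℂ) (hw : w ≠ 0) (c : ℂ)
    (hc : ∀ j, ∑ i, w i * (A i j : ℂ) = c * w j) : IsIntegral ℤ c := by
  set M : Matrix m m ℂ := (Int.castRingHom ℂ).mapMatrix A with hM
  have h1 : w ᵥ* (Matrix.scalar m c - M) = 0 := by
    funext j
    rw [Matrix.vecMul_sub, Pi.sub_apply, Pi.zero_apply, sub_eq_zero]
    have h2 : (w ᵥ* M) j = c * w j := by
      rw [← hc j]
      simp [Matrix.vecMul, dotProduct, hM]
    rw [h2]
    simp [Matrix.vecMul, dotProduct, Matrix.scalar_apply, Matrix.diagonal_apply, mul_comm]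
  have hdet : (Matrix.scalar m c - M).det = 0 :=
    Matrix.exists_vecMul_eq_zero_iff.mp ⟨w, hw, h1⟩
  refine ⟨A.charpoly, Matrix.charpoly_monic A, ?_⟩
  rw [Polynomial.eval₂_eq_eval_map, ← Matrix.charpoly_map, Matrix.eval_charpoly]
  exact hdet

end Integral

section Reduce

variable {ι : Type*} {m : Type*} [Fintype m] [DecidableEq m]

/-- The kernel of a ring homomorphism from the ring of algebraic integers to a field of positive
characteristic is a maximal ideal. -/
theorem m9r54_ker_isMaximal (p : ℕ) [Fact p.Prime] {k0 : Type*} [Field k0] [CharP k0 p]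
    (φ : integralClosure ℤ ℂ →+* k0) : (RingHom.ker φ).IsMaximal := by
  have hprime : (RingHom.ker φ).IsPrime := RingHom.ker_isPrime φ
  apply Ideal.isMaximal_of_isIntegral_of_isMaximal_comap (R := ℤ) (RingHom.ker φ)
  have h1 : (RingHom.ker φ).comap (algebraMap ℤ (integralClosure ℤ ℂ)) =
      Ideal.span {(p : ℤ)} := by
    rw [RingHom.comap_ker, ← CharP.ker_intAlgebraMap_eq_span (R := k0) p]
    congr 1
    exact RingHom.ext_int _ _
  rw [h1]
  exact Int.ideal_span_isMaximal_of_prime p

/-- Core of the reduction: `R →+* κ` a surjection onto a field, `κ →+* k0` a further ring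
homomorphism. -/
theorem m9r54_left_core (A : ι → Matrix m m ℤ) (hA : ∀ a b, A a * A b = A b * A a)
    (w : m → ℂ) (hw : w ≠ 0) (c : ι → integralClosure ℤ ℂ)
    (hc : ∀ a j, ∑ i, w i * (A a i j : ℂ) = (c a : ℂ) * w j)
    {κ : Type*} [Field κ] (mk : integralClosure ℤ ℂ →+* κ) (hmk : Function.Surjective mk)
    {k0 : Type*} [Field k0] (ιk : κ →+* k0) :
    ∃ v : m → k0, v ≠ 0 ∧ ∀ a j, ∑ i, v i * (A a i j : k0) = ιk (mk (c a)) * v j := by
  classical
  -- the matrices `A a - c a` over the algebraic integers and over the residue field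
  let NR : ι → Matrix m m (integralClosure ℤ ℂ) := fun a =>
    (Int.castRingHom (integralClosure ℤ ℂ)).mapMatrix (A a) - Matrix.scalar m (c a)
  let Nk : ι → Matrix m m κ := fun a => mk.mapMatrix (NR a)
  have hNR : ∀ a i j, NR a i j =
      ((A a i j : ℤ) : integralClosure ℤ ℂ) - if i = j then c a else 0 := by
    intro a i j
    simp [NR, Matrix.scalar_apply, Matrix.diagonal_apply]
  have hcomm : ∀ a b, NR a * NR b = NR b * NR a := by
    intro a b
    have h1 : (Int.castRingHom (integralClosure ℤ ℂ)).mapMatrix (A a) *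
        (Int.castRingHom (integralClosure ℤ ℂ)).mapMatrix (A b) =
        (Int.castRingHom (integralClosure ℤ ℂ)).mapMatrix (A b) *
        (Int.castRingHom (integralClosure ℤ ℂ)).mapMatrix (A a) := by
      rw [← map_mul, ← map_mul, hA a b]
    have h2 : ∀ (X : Matrix m m (integralClosure ℤ ℂ)) (t : integralClosure ℤ ℂ),
        Matrix.scalar m t * X = X * Matrix.scalar m t := fun X t =>
      ((Matrix.scalar_commute t (fun r => mul_comm _ _) X).eq)
    show ((Int.castRingHom (integralClosure ℤ ℂ)).mapMatrix (A a) - Matrix.scalar m (c a)) *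
        ((Int.castRingHom (integralClosure ℤ ℂ)).mapMatrix (A b) - Matrix.scalar m (c b)) =
      ((Int.castRingHom (integralClosure ℤ ℂ)).mapMatrix (A b) - Matrix.scalar m (c b)) *
        ((Int.castRingHom (integralClosure ℤ ℂ)).mapMatrix (A a) - Matrix.scalar m (c a))
    rw [sub_mul, mul_sub, mul_sub, sub_mul, mul_sub, mul_sub, h1, h2 _ (c a), ← h2 _ (c b),
      h2 (Matrix.scalar m (c b)) (c a)]
    abel
  have hcommk : ∀ a b, Nk a * Nk b = Nk b * Nk a := by
    intro a b
    show mk.mapMatrix (NR a) * mk.mapMatrix (NR b) = mk.mapMatrix (NR b) * mk.mapMatrix (NR a)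
    rw [← map_mul, ← map_mul, hcomm a b]
  -- `w` is a left kernel vector of every `NR a`
  have hwN : ∀ a j, ∑ i, w i * ((NR a i j : integralClosure ℤ ℂ) : ℂ) = 0 := by
    intro a j
    have h1 : ∀ i, w i * ((NR a i j : integralClosure ℤ ℂ) : ℂ) =
        w i * (A a i j : ℂ) - if i = j then w i * (c a : ℂ) else 0 := by
      intro i
      rw [hNR]
      by_cases hij : i = j
      · simp [hij, mul_sub]
      · simp [hij]
    rw [Finset.sum_congr rfl (fun i _ => h1 i), Finset.sum_sub_distrib, hc a j,
      Finset.sum_ite_eq' Finset.univ j]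
    simp [mul_comm]
  -- the ranges of the `Nk a` do not span
  have hrange : (⨆ a, LinearMap.range (Matrix.mulVecLin (Nk a))) ≠ ⊤ := by
    intro htop
    have hP : ∀ x ∈ (⨆ a, LinearMap.range (Matrix.mulVecLin (Nk a))),
        ∃ y : m → integralClosure ℤ ℂ, (∀ i, mk (y i) = x i) ∧ ∑ i, w i * (y i : ℂ) = 0 := by
      intro x hx
      refine Submodule.iSup_induction (fun a => LinearMap.range (Matrix.mulVecLin (Nk a)))
        (motive := fun x => ∃ y : m → integralClosure ℤ ℂ,
          (∀ i, mk (y i) = x i) ∧ ∑ i, w i * (y i : ℂ) = 0) hx ?_ ?_ ?_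
      · rintro a x ⟨z, rfl⟩
        have hz : ∀ i, ∃ t : integralClosure ℤ ℂ, mk t = z i := fun i => hmk (z i)
        choose t ht using hz
        refine ⟨NR a *ᵥ t, fun i => ?_, ?_⟩
        · show mk ((NR a *ᵥ t) i) = (Nk a *ᵥ z) i
          simp only [Matrix.mulVec, dotProduct, map_sum, map_mul, ht]
          rfl
        · have h1 : ∀ i, w i * (((NR a *ᵥ t) i : integralClosure ℤ ℂ) : ℂ) =
              ∑ j, (w i * ((NR a i j : integralClosure ℤ ℂ) : ℂ)) * (t j : ℂ) := by
            intro i
            simp only [Matrix.mulVec, dotProduct, AddSubmonoidClass.coe_finsetSum,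
              MulMemClass.coe_mul, Finset.mul_sum, mul_assoc]
          rw [Finset.sum_congr rfl (fun i _ => h1 i), Finset.sum_comm]
          refine Finset.sum_eq_zero (fun j _ => ?_)
          rw [← Finset.sum_mul, hwN a j, zero_mul]
      · exact ⟨0, fun i => by simp, by simp⟩
      · rintro x y ⟨x', hx1, hx2⟩ ⟨y', hy1, hy2⟩
        refine ⟨x' + y', fun i => by simp [hx1, hy1], ?_⟩
        simp only [Pi.add_apply, AddMemClass.coe_add, mul_add, Finset.sum_add_distrib, hx2, hy2,
          add_zero]
    have hall : ∀ j : m, ∃ y : m → integralClosure ℤ ℂ,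
        (∀ i, mk (y i) = (Pi.single j 1 : m → κ) i) ∧
          ∑ i, w i * (y i : ℂ) = 0 := fun j => hP _ (by rw [htop]; trivial)
    choose Y hY1 hY2 using hall
    let X : Matrix m m (integralClosure ℤ ℂ) := Matrix.of (fun i j => Y j i)
    have hX1 : mk.mapMatrix X = 1 := by
      ext i j
      show mk (Y j i) = (1 : Matrix m m _) i j
      rw [hY1 j i, Matrix.one_apply, Pi.single_apply]
    have hX2 : w ᵥ* (algebraMap (integralClosure ℤ ℂ) ℂ).mapMatrix X = 0 := by
      funext j
      show ∑ i, w i * algebraMap (integralClosure ℤ ℂ) ℂ (Y j i) = 0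
      exact hY2 j
    have hdetC : ((algebraMap (integralClosure ℤ ℂ) ℂ).mapMatrix X).det = 0 :=
      Matrix.exists_vecMul_eq_zero_iff.mp ⟨w, hw, hX2⟩
    have hdet : X.det = 0 := by
      have h1 : algebraMap (integralClosure ℤ ℂ) ℂ X.det = 0 := by
        rw [RingHom.map_det]
        exact hdetC
      exact Subtype.ext h1
    have h2 : mk X.det = 1 := by
      rw [RingHom.map_det, hX1, Matrix.det_one]
    rw [hdet, map_zero] at h2
    exact zero_ne_one h2
  -- a common right kernel vector over the residue field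
  obtain ⟨vr, hvr0, hvr⟩ := el2_common_kernel (fun a => Matrix.mulVecLin (Nk a))
    (fun a b => by
      show Matrix.mulVecLin (Nk a) * Matrix.mulVecLin (Nk b) =
        Matrix.mulVecLin (Nk b) * Matrix.mulVecLin (Nk a)
      rw [Module.End.mul_eq_comp, Module.End.mul_eq_comp, ← Matrix.mulVecLin_mul,
        ← Matrix.mulVecLin_mul, hcommk a b]) hrange
  have hvr' : ∀ a, Nk a *ᵥ vr = 0 := hvr
  -- flip to a common left kernel vector
  have hrange' : (⨆ a, LinearMap.range (Matrix.vecMulLinear (Nk a))) ≠ ⊤ := by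
    intro htop
    obtain ⟨i, hi⟩ : ∃ i, vr i ≠ 0 := by
      by_contra hcon
      apply hvr0
      funext i
      by_contra h
      exact hcon ⟨i, h⟩
    have hQ : ∀ x ∈ (⨆ a, LinearMap.range (Matrix.vecMulLinear (Nk a))), x ⬝ᵥ vr = 0 := by
      intro x hx
      refine Submodule.iSup_induction (fun a => LinearMap.range (Matrix.vecMulLinear (Nk a)))
        (motive := fun x => x ⬝ᵥ vr = 0) hx ?_ ?_ ?_
      · rintro a x ⟨u, rfl⟩
        show (u ᵥ* Nk a) ⬝ᵥ vr = 0
        rw [← Matrix.dotProduct_mulVec, hvr' a, dotProduct_zero]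
      · exact zero_dotProduct _
      · intro x y hx hy
        rw [add_dotProduct, hx, hy, add_zero]
    have h4 := hQ (Pi.single i 1) (by rw [htop]; trivial)
    rw [single_one_dotProduct] at h4
    exact hi h4
  obtain ⟨vl, hvl0, hvl⟩ := el2_common_kernel (fun a => Matrix.vecMulLinear (Nk a))
    (fun a b => by
      apply LinearMap.ext
      intro u
      show (u ᵥ* Nk b) ᵥ* Nk a = (u ᵥ* Nk a) ᵥ* Nk b
      rw [Matrix.vecMul_vecMul, Matrix.vecMul_vecMul, hcommk a b]) hrange'
  have hvl' : ∀ a, vl ᵥ* Nk a = 0 := hvl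
  -- push to `k0`
  refine ⟨fun i => ιk (vl i), ?_, fun a j => ?_⟩
  · intro h0
    apply hvl0
    funext i
    have h1 : ιk (vl i) = 0 := congrFun h0 i
    exact (map_eq_zero ιk).mp h1
  · have h1 : (vl ᵥ* Nk a) j = 0 := by rw [hvl' a]; rfl
    have h2 : ∀ i, vl i * Nk a i j =
        vl i * ((A a i j : ℤ) : κ) - if i = j then vl i * mk (c a) else 0 := by
      intro i
      show vl i * mk (NR a i j) = _
      rw [hNR]
      by_cases hij : i = j
      · simp [hij, mul_sub]
      · simp [hij]
    have h3 : ∑ i, vl i * ((A a i j : ℤ) : κ) = mk (c a) * vl j := by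
      have h4 : ∑ i, vl i * Nk a i j = 0 := h1
      rw [Finset.sum_congr rfl (fun i _ => h2 i), Finset.sum_sub_distrib,
        Finset.sum_ite_eq' Finset.univ j] at h4
      simp only [Finset.mem_univ, if_true] at h4
      rw [mul_comm (mk (c a))]
      exact sub_eq_zero.mp h4
    have h5 := congrArg ιk h3
    rw [map_sum, map_mul] at h5
    rw [← h5]
    refine Finset.sum_congr rfl (fun i _ => ?_)
    rw [map_mul, map_intCast]

/-- **Reduction of an eigen-system modulo `p`.**  Pairwise commuting integer matrices `A a` with a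
common left eigenvector `w ≠ 0` over `ℂ` with (integral) eigenvalues `c a` have, for every ring
homomorphism `φ` from the algebraic integers to a field `k0` of characteristic `p`, a common left
eigenvector `v ≠ 0` over `k0` with eigenvalues `φ (c a)`. -/
theorem m9r54_left (A : ι → Matrix m m ℤ) (hA : ∀ a b, A a * A b = A b * A a)
    (w : m → ℂ) (hw : w ≠ 0) (c : ι → integralClosure ℤ ℂ)
    (hc : ∀ a j, ∑ i, w i * (A a i j : ℂ) = (c a : ℂ) * w j)
    (p : ℕ) [Fact p.Prime] {k0 : Type*} [Field k0] [CharP k0 p]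
    (φ : integralClosure ℤ ℂ →+* k0) :
    ∃ v : m → k0, v ≠ 0 ∧ ∀ a j, ∑ i, v i * (A a i j : k0) = φ (c a) * v j := by
  have hJ : (RingHom.ker φ).IsMaximal := m9r54_ker_isMaximal p φ
  obtain ⟨v, hv0, hv⟩ := @m9r54_left_core ι m _ _ A hA w hw c hc
    (integralClosure ℤ ℂ ⧸ RingHom.ker φ) (Ideal.Quotient.field (RingHom.ker φ))
    (Ideal.Quotient.mk (RingHom.ker φ)) Ideal.Quotient.mk_surjective k0 _
    (Ideal.Quotient.lift (RingHom.ker φ) φ (fun x hx => RingHom.mem_ker.mp hx))
  refine ⟨v, hv0, fun a j => ?_⟩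
  rw [hv a j]
  rfl

end Reduce

end Fermat.Agent.S42
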