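/-
S42 / M9 (helper54), part B: THE EIGENCLASS MODULO `p`.

For a normalised eigenform `f` of level `N` and a ring homomorphism `φ : integralClosure ℤ ℂ →+* k0`
into a field of characteristic `p`, the system of eigenvalues `φ (a_ℓ(f))` (`ℓ ∤ N` prime) occurs
in `Hom_par(Γ₀(N), ℤ) ⊗ k0`.  Tensor-free ("matrix") form, `m9e54_eigenclass`:

there are a `ℤ`-basis `ψ 1, …, ψ n` of the lattice `Hom_par(Γ₀(N), ℤ)` of integral parabolic
homomorphisms, integer matrices `A ℓ` with `T_ℓ (ψ i) = ∑ j, A ℓ i j • ψ j` (`T_ℓ = heckeHom N ℓ ℤ`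
of S16), and a vector `c ≠ 0` in `k0 ^ n` with `∑ i, c i * A ℓ i j = φ (a_ℓ(f)) * c j` for every
prime `ℓ ∤ N`; moreover the reductions `ψ i mod p : Γ₀(N) → ZMod p` are linearly independent
over `ZMod p`.

So for ANY additive, `T_ℓ`-equivariant, injective map `Θ` from `Hom_par(Γ₀(N), ZMod p)` to a
`ZMod p`-vector space `V` the element `∑ i, c i ⊗ Θ (ψ i mod p)` of `k0 ⊗ V` is a nonzero
eigenvector with eigenvalues `φ (a_ℓ(f))`.

Inputs (all on main): `eb67_periodMap_eigen` (S21 period map of an eigenform), `el2_exists_symbol`,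
`slp10_decomp`, `slq10_symb_int_fg` (integral structure of the modular symbols), `el2_eigen_lift`,
and part A (`m9r54_left`).
-/
import Mathlib
import Fermat.Agent.S42.EigenRed54
import Fermat.Agent.S41.EigenSymb2

set_option autoImplicit false

open CongruenceSubgroup ModularCurve ModularCurve.Period ModularFormClass OnePoint
open scoped MatrixGroups Matrix

namespace Fermat.Agent.S42

open Fermat.Agent.S16 Fermat.Agent.S41

section Lattice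

variable (N : ℕ)

/-- The period map `ν` on (curried) integer valued modular symbols of level `N`. -/
noncomputable def m9e54_nu :
    sl10_symb ℤ ℤ psl96_rho (Gamma0 N) →ₗ[ℤ] (Additive (Gamma0 N) →+ ℤ) where
  toFun φ := sc71_nu N (Function.uncurry (φ : OnePoint ℚ → OnePoint ℚ → ℤ))
    (slp10_isSymb_uncurry N φ.2.1 φ.2.2).1 (slp10_isSymb_uncurry N φ.2.1 φ.2.2).2
  map_add' _ _ := AddMonoidHom.ext fun _ => rfl
  map_smul' _ _ := AddMonoidHom.ext fun _ => rfl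

theorem m9e54_range_nu : LinearMap.range (m9e54_nu N) = parabolicHoms ℤ (Gamma0 N) ℤ := by
  apply le_antisymm
  · rintro _ ⟨φ, rfl⟩
    exact sc71_nu_parabolic (slp10_isSymb_uncurry N φ.2.1 φ.2.2).1
      (slp10_isSymb_uncurry N φ.2.1 φ.2.2).2
  · intro χ hχ
    obtain ⟨Φ, hΦ, hinv, hν⟩ := el2_exists_symbol N χ hχ
    have h := (slp10_isSymb_iff_curry N Φ).mp ⟨hΦ, hinv⟩
    refine ⟨⟨Function.curry Φ, h⟩, ?_⟩
    rw [← hν]
    exact AddMonoidHom.ext fun _ => rfl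

/-- The lattice `Hom_par(Γ₀(N), ℤ)` is finitely generated. -/
theorem m9e54_fg [NeZero N] : (parabolicHoms ℤ (Gamma0 N) ℤ).FG := by
  have h1 : Module.Finite ℤ (sl10_symb ℤ ℤ psl96_rho (Gamma0 N)) :=
    Module.Finite.iff_fg.mpr (slq10_symb_int_fg (Gamma0 N))
  have h2 := Module.Finite.iff_fg.mp (Module.Finite.range (m9e54_nu N))
  rwa [m9e54_range_nu] at h2

theorem m9e54_torsionFree (G : Type*) [AddZeroClass G] : Module.IsTorsionFree ℤ (G →+ ℤ) :=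
  Function.Injective.moduleIsTorsionFree (fun f : G →+ ℤ => (f : G → ℤ)) DFunLike.coe_injective
    (fun _ _ => rfl)

theorem m9e54_nu_congr {A : Type*} [AddCommGroup A] {Φ Ψ : sc71_X → A} (h : Φ = Ψ)
    (hΦ : sc71_IsSymb Φ) (hinv : tr43_Inv N Φ) (hΨ : sc71_IsSymb Ψ) (hinv' : tr43_Inv N Ψ) :
    sc71_nu N Φ hΦ hinv = sc71_nu N Ψ hΨ hinv' := by
  subst h
  rfl

/-- `T_ℓ` (`ℓ ∤ N`) preserves parabolic homomorphisms (any coefficients). -/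
theorem m9e54_hecke_parabolic {A : Type*} [AddCommGroup A] {ℓ : ℕ} (hℓ : ℓ.Prime)
    (hℓN : ¬ ℓ ∣ N) {χ : Additive (Gamma0 N) →+ A} (hχ : IsParabolicHom (Gamma0 N) χ) :
    IsParabolicHom (Gamma0 N) (heckeHom N ℓ A χ) := by
  obtain ⟨Φ, hΦ, hinv, rfl⟩ := el2_exists_symbol N χ hχ
  rw [← sc71_nu_T hℓ hℓN hΦ hinv]
  exact sc71_nu_parabolic _ _

/-- The `T_ℓ` (`ℓ ∤ N`) commute on parabolic homomorphisms (any coefficients). -/
theorem m9e54_hecke_comm {A : Type*} [AddCommGroup A] {ℓ ℓ' : ℕ} (hℓ : ℓ.Prime)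
    (hℓN : ¬ ℓ ∣ N) (hℓ' : ℓ'.Prime) (hℓ'N : ¬ ℓ' ∣ N) {χ : Additive (Gamma0 N) →+ A}
    (hχ : IsParabolicHom (Gamma0 N) χ) :
    heckeHom N ℓ A (heckeHom N ℓ' A χ) = heckeHom N ℓ' A (heckeHom N ℓ A χ) := by
  by_cases h : ℓ = ℓ'
  · subst h
    rfl
  obtain ⟨Φ, hΦ, hinv, rfl⟩ := el2_exists_symbol N χ hχ
  rw [← sc71_nu_T hℓ' hℓ'N hΦ hinv, ← sc71_nu_T hℓ hℓN hΦ hinv,
    ← sc71_nu_T hℓ hℓN (hΦ.T ℓ') (tr43_T_Inv hℓ' hℓ'N hinv),
    ← sc71_nu_T hℓ' hℓ'N (hΦ.T ℓ) (tr43_T_Inv hℓ hℓN hinv)]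
  exact m9e54_nu_congr N (tr43_T_T hℓ hℓN hℓ' hℓ'N h hinv) _ _ _ _

/-- `heckeHom` commutes with scalars. -/
theorem m9e54_hecke_smul {K : Type*} [Field K] (ℓ : ℕ) (z : K) (χ : Additive (Gamma0 N) →+ K) :
    heckeHom N ℓ K (z • χ) = z • heckeHom N ℓ K χ := by
  have h1 : ∀ χ' : Additive (Gamma0 N) →+ K, z • χ' = (AddMonoidHom.mulLeft z).comp χ' :=
    fun χ' => AddMonoidHom.ext fun _ => rfl
  rw [h1, h1, heckeHom_comp]

end Lattice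

section Char0

variable (N : ℕ) [NeZero N]

/-- `T_ℓ` (`ℓ ∤ N` prime) on the lattice `Hom_par(Γ₀(N), ℤ)`. -/
noncomputable def m9e54_TL (ℓ : {ℓ : ℕ // ℓ.Prime ∧ ¬ ℓ ∣ N}) :
    parabolicHoms ℤ (Gamma0 N) ℤ →ₗ[ℤ] parabolicHoms ℤ (Gamma0 N) ℤ where
  toFun χ := ⟨heckeHom N (ℓ : ℕ) ℤ χ.1, m9e54_hecke_parabolic N ℓ.2.1 ℓ.2.2 χ.2⟩
  map_add' x y := Subtype.ext (map_add (heckeHom N (ℓ : ℕ) ℤ) x.1 y.1)
  map_smul' r x := Subtype.ext (map_zsmul (heckeHom N (ℓ : ℕ) ℤ) r x.1)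

omit [NeZero N] in
theorem m9e54_TL_comm (a b : {ℓ : ℕ // ℓ.Prime ∧ ¬ ℓ ∣ N}) :
    m9e54_TL N a ∘ₗ m9e54_TL N b = m9e54_TL N b ∘ₗ m9e54_TL N a := by
  apply LinearMap.ext
  intro χ
  apply Subtype.ext
  exact m9e54_hecke_comm N a.2.1 a.2.2 b.2.1 b.2.2 χ.2

/-- **Characteristic zero.** A `ℤ`-basis `ψ` of `Hom_par(Γ₀(N), ℤ)`, the (commuting) integer
matrices `A ℓ` of the Hecke operators `T_ℓ` (`ℓ ∤ N`) in this basis, and a common left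
eigenvector `z ≠ 0` over `ℂ` with eigenvalues `a_ℓ(f)`. -/
theorem m9e54_char0 {f : CuspForm (Gamma0 N) 2} (hf : f.IsNormalizedEigenform) :
    ∃ (n : ℕ) (ψ : Fin n → Additive (Gamma0 N) →+ ℤ)
      (A : {ℓ : ℕ // ℓ.Prime ∧ ¬ ℓ ∣ N} → Matrix (Fin n) (Fin n) ℤ) (z : Fin n → ℂ),
      (∀ i, IsParabolicHom (Gamma0 N) (ψ i)) ∧
      (∀ χ : Additive (Gamma0 N) →+ ℤ, IsParabolicHom (Gamma0 N) χ →
        ∃! r : Fin n → ℤ, χ = ∑ i, r i • ψ i) ∧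
      (∀ (ℓ : {ℓ : ℕ // ℓ.Prime ∧ ¬ ℓ ∣ N}) i,
        heckeHom N (ℓ : ℕ) ℤ (ψ i) = ∑ j, A ℓ i j • ψ j) ∧
      (∀ a b, A a * A b = A b * A a) ∧
      z ≠ 0 ∧ ∀ (ℓ : {ℓ : ℕ // ℓ.Prime ∧ ¬ ℓ ∣ N}) j,
        ∑ i, z i * (A ℓ i j : ℂ) = qCoeff (⇑f) (ℓ : ℕ) * z j := by
  classical
  obtain ⟨hpar, hne, heig⟩ := eb67_periodMap_eigen N hf
  have : Module.Finite ℤ (parabolicHoms ℤ (Gamma0 N) ℤ) :=
    Module.Finite.iff_fg.mpr (m9e54_fg N)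
  have : Module.IsTorsionFree ℤ (Additive (Gamma0 N) →+ ℤ) := m9e54_torsionFree _
  set n := Module.finrank ℤ (parabolicHoms ℤ (Gamma0 N) ℤ) with hn
  let b : Module.Basis (Fin n) ℤ (parabolicHoms ℤ (Gamma0 N) ℤ) :=
    Module.finBasis ℤ (parabolicHoms ℤ (Gamma0 N) ℤ)
  let ψ : Fin n → Additive (Gamma0 N) →+ ℤ := fun i => (b i : Additive (Gamma0 N) →+ ℤ)
  -- coordinates
  have hcoe : ∀ (r : Fin n → ℤ),
      ((∑ i, r i • b i : parabolicHoms ℤ (Gamma0 N) ℤ) : Additive (Gamma0 N) →+ ℤ) =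
        ∑ i, r i • ψ i := by
    intro r
    rw [Submodule.coe_sum]
    rfl
  have hrepr : ∀ x : parabolicHoms ℤ (Gamma0 N) ℤ,
      (x : Additive (Gamma0 N) →+ ℤ) = ∑ i, b.repr x i • ψ i := by
    intro x
    rw [← hcoe, b.sum_repr]
  have hspan : ∀ χ : Additive (Gamma0 N) →+ ℤ, IsParabolicHom (Gamma0 N) χ →
      ∃! r : Fin n → ℤ, χ = ∑ i, r i • ψ i := by
    intro χ hχ
    refine ⟨fun i => b.repr ⟨χ, hχ⟩ i, hrepr ⟨χ, hχ⟩, fun r hr => ?_⟩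
    have h1 : (⟨χ, hχ⟩ : parabolicHoms ℤ (Gamma0 N) ℤ) = ∑ i, r i • b i :=
      Subtype.ext (by rw [hcoe]; exact hr)
    rw [h1, b.repr_sum_self]
  -- the matrices
  let A : {ℓ : ℕ // ℓ.Prime ∧ ¬ ℓ ∣ N} → Matrix (Fin n) (Fin n) ℤ := fun ℓ =>
    (LinearMap.toMatrix b b (m9e54_TL N ℓ)).transpose
  have hAapp : ∀ ℓ i j, A ℓ i j = b.repr (m9e54_TL N ℓ (b i)) j := by
    intro ℓ i j
    show (LinearMap.toMatrix b b (m9e54_TL N ℓ)) j i = _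
    rw [LinearMap.toMatrix_apply]
  have hA : ∀ (ℓ : {ℓ : ℕ // ℓ.Prime ∧ ¬ ℓ ∣ N}) i,
      heckeHom N (ℓ : ℕ) ℤ (ψ i) = ∑ j, A ℓ i j • ψ j := by
    intro ℓ i
    have h1 := hrepr (m9e54_TL N ℓ (b i))
    rw [show ((m9e54_TL N ℓ (b i) : parabolicHoms ℤ (Gamma0 N) ℤ) : Additive (Gamma0 N) →+ ℤ) =
      heckeHom N (ℓ : ℕ) ℤ (ψ i) from rfl] at h1
    rw [h1]
    exact Finset.sum_congr rfl (fun j _ => by rw [hAapp])
  have hAcomm : ∀ a b', A a * A b' = A b' * A a := by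
    intro a b'
    show (LinearMap.toMatrix b b (m9e54_TL N a)).transpose *
        (LinearMap.toMatrix b b (m9e54_TL N b')).transpose =
      (LinearMap.toMatrix b b (m9e54_TL N b')).transpose *
        (LinearMap.toMatrix b b (m9e54_TL N a)).transpose
    rw [← Matrix.transpose_mul, ← Matrix.transpose_mul, ← LinearMap.toMatrix_comp,
      ← LinearMap.toMatrix_comp, m9e54_TL_comm]
  -- the complexified basis and the comparison map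
  let ψC : Fin n → Additive (Gamma0 N) →+ ℂ := fun i => (Int.castAddHom ℂ).comp (ψ i)
  have hTψC : ∀ (ℓ : {ℓ : ℕ // ℓ.Prime ∧ ¬ ℓ ∣ N}) i,
      heckeHom N (ℓ : ℕ) ℂ (ψC i) = ∑ j, (A ℓ i j : ℂ) • ψC j := by
    intro ℓ i
    show heckeHom N (ℓ : ℕ) ℂ ((Int.castAddHom ℂ).comp (ψ i)) = _
    rw [heckeHom_comp, hA]
    refine AddMonoidHom.ext fun γ => ?_
    simp only [AddMonoidHom.comp_apply, AddMonoidHom.finsetSum_apply, AddMonoidHom.smul_apply,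
      map_sum, ψC]
    refine Finset.sum_congr rfl (fun j _ => ?_)
    simp
  let π : (Fin n → ℂ) →ₗ[ℂ] (Additive (Gamma0 N) →+ ℂ) := Fintype.linearCombination ℂ ψC
  have hπ : ∀ y : Fin n → ℂ, π y = ∑ i, y i • ψC i := fun y =>
    Fintype.linearCombination_apply ℂ ψC y
  let AC : {ℓ : ℕ // ℓ.Prime ∧ ¬ ℓ ∣ N} → Matrix (Fin n) (Fin n) ℂ := fun ℓ =>
    (Int.castRingHom ℂ).mapMatrix (A ℓ)
  have hπT : ∀ (ℓ : {ℓ : ℕ // ℓ.Prime ∧ ¬ ℓ ∣ N}) (y : Fin n → ℂ),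
      π (Matrix.vecMulLinear (AC ℓ) y) = heckeHom N (ℓ : ℕ) ℂ (π y) := by
    intro ℓ y
    rw [hπ, hπ, map_sum]
    have h1 : ∀ i, heckeHom N (ℓ : ℕ) ℂ (y i • ψC i) = ∑ j, (y i * (A ℓ i j : ℂ)) • ψC j := by
      intro i
      rw [m9e54_hecke_smul, hTψC, Finset.smul_sum]
      exact Finset.sum_congr rfl (fun j _ => by rw [smul_smul])
    rw [Finset.sum_congr rfl (fun i _ => h1 i), Finset.sum_comm]
    refine Finset.sum_congr rfl (fun j _ => ?_)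
    rw [← Finset.sum_smul]
    congr 1
  -- the period homomorphism of `f` is in the range of `π`
  obtain ⟨x, hx⟩ : ∃ x : Fin n → ℂ, π x = periodMap N f := by
    obtain ⟨Φ, hΦ, hinv, hν⟩ := el2_exists_symbol N (periodMap N f) hpar
    obtain ⟨n', m, ψ', hψ', hdec⟩ := slp10_decomp (M := N) (Φ := Φ) ⟨hΦ, hinv⟩
    let χ' : Fin n' → parabolicHoms ℤ (Gamma0 N) ℤ := fun k =>
      ⟨sc71_nu N (ψ' k) (hψ' k).1 (hψ' k).2, sc71_nu_parabolic (hψ' k).1 (hψ' k).2⟩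
    refine ⟨fun i => ∑ k, m k * (b.repr (χ' k) i : ℂ), ?_⟩
    rw [hπ, ← hν]
    refine AddMonoidHom.ext fun γ => ?_
    obtain ⟨γ, rfl⟩ := Additive.ofMul.surjective γ
    have h1 : sc71_nu N Φ hΦ hinv (Additive.ofMul γ) =
        ∑ k, ((χ' k : Additive (Gamma0 N) →+ ℤ) (Additive.ofMul γ) : ℂ) * m k := by
      show Φ _ = _
      rw [hdec]
      refine Finset.sum_congr rfl (fun k _ => ?_)
      rw [zsmul_eq_mul]
      rfl
    have h2 : ∀ k, ((χ' k : Additive (Gamma0 N) →+ ℤ) (Additive.ofMul γ) : ℂ) =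
        ∑ i, (b.repr (χ' k) i : ℂ) * (ψ i (Additive.ofMul γ) : ℂ) := by
      intro k
      rw [hrepr (χ' k)]
      simp only [AddMonoidHom.finsetSum_apply, AddMonoidHom.smul_apply, smul_eq_mul]
      push_cast
      rfl
    rw [h1]
    simp only [AddMonoidHom.finsetSum_apply, AddMonoidHom.smul_apply, smul_eq_mul]
    have h3 : ∀ i, (∑ k, m k * (b.repr (χ' k) i : ℂ)) * (ψC i (Additive.ofMul γ)) =
        ∑ k, m k * ((b.repr (χ' k) i : ℂ) * ((ψ i (Additive.ofMul γ) : ℤ) : ℂ)) := by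
      intro i
      rw [Finset.sum_mul]
      exact Finset.sum_congr rfl (fun k _ => by rw [mul_assoc]; rfl)
    rw [Finset.sum_congr rfl (fun i _ => h3 i), Finset.sum_comm]
    refine Finset.sum_congr rfl (fun k _ => ?_)
    rw [h2 k, ← Finset.mul_sum, mul_comm]
  -- lift the eigenvector
  obtain ⟨z, hz0, hz⟩ := el2_eigen_lift
    (fun ℓ : {ℓ : ℕ // ℓ.Prime ∧ ¬ ℓ ∣ N} => Matrix.vecMulLinear (AC ℓ))
    (fun ℓ : {ℓ : ℕ // ℓ.Prime ∧ ¬ ℓ ∣ N} => heckeHom N (ℓ : ℕ) ℂ)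
    (fun a b' => by
      apply LinearMap.ext
      intro u
      show (u ᵥ* AC b') ᵥ* AC a = (u ᵥ* AC a) ᵥ* AC b'
      rw [Matrix.vecMul_vecMul, Matrix.vecMul_vecMul]
      congr 1
      show (Int.castRingHom ℂ).mapMatrix (A b') * (Int.castRingHom ℂ).mapMatrix (A a) =
        (Int.castRingHom ℂ).mapMatrix (A a) * (Int.castRingHom ℂ).mapMatrix (A b')
      rw [← map_mul, ← map_mul, hAcomm])
    π hπT x (by rw [hx]; exact hne) (fun ℓ => qCoeff (⇑f) (ℓ : ℕ))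
    (fun ℓ => by rw [hx]; exact heig ℓ ℓ.2.1)
  refine ⟨n, ψ, A, z, fun i => (b i).2, hspan, hA, hAcomm, hz0, fun ℓ j => ?_⟩
  have h1 := congrFun (hz ℓ) j
  rw [Pi.smul_apply, smul_eq_mul] at h1
  rw [← h1]
  show _ = (z ᵥ* AC ℓ) j
  simp [Matrix.vecMul, dotProduct, AC]

end Char0

section Main

variable (N : ℕ)

/-- Saturation: an integral homomorphism all of whose values are divisible by `p` is `p` times
an integral homomorphism, parabolic if the given one is. -/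
theorem m9e54_div (p : ℕ) (χ : Additive (Gamma0 N) →+ ℤ) (h : ∀ γ, (p : ℤ) ∣ χ γ) :
    ∃ χ' : Additive (Gamma0 N) →+ ℤ, χ = (p : ℤ) • χ' ∧
      (IsParabolicHom (Gamma0 N) χ → IsParabolicHom (Gamma0 N) χ') := by
  refine ⟨{ toFun := fun γ => χ γ / (p : ℤ)
            map_zero' := by simp
            map_add' := fun a b => by rw [map_add, Int.add_ediv_of_dvd_left (h a)] }, ?_, ?_⟩
  · refine AddMonoidHom.ext fun γ => ?_
    show χ γ = (p : ℤ) • (χ γ / (p : ℤ))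
    rw [smul_eq_mul, Int.mul_ediv_cancel' (h γ)]
  · intro hχ γ hγ
    show χ (Additive.ofMul γ) / (p : ℤ) = 0
    rw [hχ γ hγ, Int.zero_ediv]

variable [NeZero N]

/-- **M9, the eigenclass modulo `p` (matrix form).**  See the header of this file. -/
theorem m9e54_eigenclass {f : CuspForm (Gamma0 N) 2} (hf : f.IsNormalizedEigenform)
    (p : ℕ) [Fact p.Prime] {k0 : Type*} [Field k0] [CharP k0 p]
    (φ : integralClosure ℤ ℂ →+* k0) :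
    ∃ (n : ℕ) (ψ : Fin n → Additive (Gamma0 N) →+ ℤ)
      (A : ℕ → Matrix (Fin n) (Fin n) ℤ) (c : Fin n → k0),
      (∀ i, IsParabolicHom (Gamma0 N) (ψ i)) ∧
      (∀ χ : Additive (Gamma0 N) →+ ℤ, IsParabolicHom (Gamma0 N) χ →
        ∃! r : Fin n → ℤ, χ = ∑ i, r i • ψ i) ∧
      LinearIndependent (ZMod p) (fun i => (Int.castAddHom (ZMod p)).comp (ψ i)) ∧
      (∀ ℓ : ℕ, ℓ.Prime → ¬ ℓ ∣ N → ∀ i, heckeHom N ℓ ℤ (ψ i) = ∑ j, A ℓ i j • ψ j) ∧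
      c ≠ 0 ∧
      ∀ ℓ : ℕ, ℓ.Prime → ¬ ℓ ∣ N → ∃ a : integralClosure ℤ ℂ, (a : ℂ) = qCoeff (⇑f) ℓ ∧
        ∀ j, ∑ i, c i * (A ℓ i j : k0) = φ a * c j := by
  classical
  obtain ⟨n, ψ, A0, z, hψ, hspan, hA0, hcomm, hz0, hz⟩ := m9e54_char0 N hf
  have hint : ∀ ℓ : {ℓ : ℕ // ℓ.Prime ∧ ¬ ℓ ∣ N}, IsIntegral ℤ (qCoeff (⇑f) (ℓ : ℕ)) :=
    fun ℓ => m9r54_isIntegral (A0 ℓ) z hz0 _ (hz ℓ)
  let ct : {ℓ : ℕ // ℓ.Prime ∧ ¬ ℓ ∣ N} → integralClosure ℤ ℂ :=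
    fun ℓ => ⟨qCoeff (⇑f) (ℓ : ℕ), hint ℓ⟩
  obtain ⟨c, hc0, hc⟩ := m9r54_left A0 hcomm z hz0 ct (fun ℓ j => hz ℓ j) p φ
  let Aall : ℕ → Matrix (Fin n) (Fin n) ℤ :=
    fun ℓ => if h : ℓ.Prime ∧ ¬ ℓ ∣ N then A0 ⟨ℓ, h⟩ else 0
  have hAall : ∀ (ℓ : ℕ) (h : ℓ.Prime ∧ ¬ ℓ ∣ N), Aall ℓ = A0 ⟨ℓ, h⟩ := fun ℓ h => dif_pos h
  refine ⟨n, ψ, Aall, c, hψ, hspan, ?_, ?_, hc0, ?_⟩
  · -- independence modulo `p`
    rw [Fintype.linearIndependent_iff]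
    intro g hg i
    let m : Fin n → ℤ := fun i => ((g i).val : ℤ)
    have hm : ∀ i, ((m i : ℤ) : ZMod p) = g i := fun i => by
      show (((g i).val : ℤ) : ZMod p) = g i
      rw [Int.cast_natCast, ZMod.natCast_zmod_val]
    have hdvd : ∀ γ, (p : ℤ) ∣ (∑ i, m i • ψ i) γ := by
      intro γ
      rw [← ZMod.intCast_zmod_eq_zero_iff_dvd]
      have h1 := congrArg (fun χ : Additive (Gamma0 N) →+ ZMod p => χ γ) hg
      simp only [AddMonoidHom.finsetSum_apply, AddMonoidHom.smul_apply, smul_eq_mul,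
        AddMonoidHom.comp_apply, AddMonoidHom.zero_apply, Int.coe_castAddHom] at h1
      rw [← h1]
      simp only [AddMonoidHom.finsetSum_apply, AddMonoidHom.smul_apply, smul_eq_mul]
      push_cast
      exact Finset.sum_congr rfl (fun i _ => by rw [hm])
    have hpar : IsParabolicHom (Gamma0 N) (∑ i, m i • ψ i) :=
      (parabolicHoms ℤ (Gamma0 N) ℤ).sum_mem
        (fun i _ => (parabolicHoms ℤ (Gamma0 N) ℤ).smul_mem (m i) (hψ i))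
    obtain ⟨χ', hχ', hχ'par⟩ := m9e54_div N p (∑ i, m i • ψ i) hdvd
    obtain ⟨r, hr, -⟩ := hspan χ' (hχ'par hpar)
    have h2 : (∑ i, m i • ψ i) = ∑ i, ((p : ℤ) * r i) • ψ i := by
      rw [hχ', hr, Finset.smul_sum]
      exact Finset.sum_congr rfl (fun i _ => by rw [smul_smul])
    have h3 : m = fun i => (p : ℤ) * r i :=
      (hspan _ hpar).unique rfl h2
    have h4 : m i = (p : ℤ) * r i := congrFun h3 i
    rw [← hm i, h4]
    simp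
  · intro ℓ hℓ hℓN i
    rw [hAall ℓ ⟨hℓ, hℓN⟩]
    exact hA0 ⟨ℓ, hℓ, hℓN⟩ i
  · intro ℓ hℓ hℓN
    refine ⟨ct ⟨ℓ, hℓ, hℓN⟩, rfl, fun j => ?_⟩
    rw [hAall ℓ ⟨hℓ, hℓN⟩]
    exact hc ⟨ℓ, hℓ, hℓN⟩ j

end Main

end Fermat.Agent.S42
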