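/-
S42 / Project 4, S29 add-on (helper46): **the algebraic layer for all primes `p`** (in particular
`p = 2, 3`).

For `p = 2, 3` the Kummer map `Θ` only exists on the homomorphisms `Γ₀(N) → ℤ/p` which kill the
parabolic AND the elliptic elements (and `-1`), i.e. every `γ` with `(tr γ) ^ 2 ≤ 4`.  This file
provides that subgroup and everything of the `Θ`-side assembly which does not involve analysis:

* `pt46_IsTorsHom φ`  : `φ` kills every `γ` with `(tr γ) ^ 2 ≤ 4`;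
* `pt46_trace_pow`    : the class `{(tr γ) ^ 2 ≤ 4}` is closed under powers;
* `pt46_trace_of_isOfFinOrder` : elements of finite order of `SL(2, ℤ)` lie in that class
  (hence `pt46_kills_finOrder`: the hypothesis `hUfin` of the divisibility step);
* `pt46_exists_nsmul` : a parabolic hom `φ` satisfies `m • φ γ = 0` with `m ∈ {1, 2, 3}` on the
  class; hence `pt46_isTorsHom_of_torsionFree` (integral parabolic homs), `pt46_isTorsHom_comp`
  (their reductions) and `pt46_Par_eq` (`p ≥ 5`: nothing changes);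
* `pt46_coh_isTorsHom`, `pt46_heckeHom_isTorsHom` : the Hecke operators preserve the class
  (cycle argument of `HeckePar88`);
* `pt46_Par N p` : the submodule of `Hom(Γ₀(N), ℤ/p)`;
* `pt46_main_of`, `pt46_main_eigenform_of` : (W1) from a `Θ` on ANY Hecke-stable submodule `P`
  and an eigenvector in `k0 ⊗ P`;  `pt46_main`, `pt46_main_eigenform` : the case `P = pt46_Par`;
  `pt46_main_sub`, `pt46_main_eigenform_sub` : `Θ` on a larger Hecke-stable `𝒜 ≥ P`.

The conclusion is literally the (W1) of `w1t28_main` / `w1a28_main_eigenform`.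
-/
import Mathlib
import Fermat.Agent.S42.HeckePar88
import Fermat.Agent.S42.W1Theta70

set_option autoImplicit false
set_option linter.unusedSectionVars false
set_option linter.unusedVariables false
set_option linter.style.longLine false
set_option linter.style.haveILetI false

open CongruenceSubgroup ModularCurve ModularCurve.Period AlgebraicCurve
open scoped MatrixGroups TensorProduct

namespace Fermat.Agent.S42

open Fermat.Agent.S16

/-! ### traces of powers -/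

/-- conserved quantity of the trace recurrence: for `det M = 1`, `t = tr M`, consecutive traces
`a = tr (M ^ m)`, `b = tr (M ^ (m + 1))` satisfy `a² - t a b + b² = 4 - t²`. -/
theorem pt46_trace_inv (M : Matrix (Fin 2) (Fin 2) ℤ) (hdet : M.det = 1) (m : ℕ) :
    (M ^ m).trace ^ 2 - M.trace * (M ^ m).trace * (M ^ (m + 1)).trace + (M ^ (m + 1)).trace ^ 2
      = 4 - M.trace ^ 2 := by
  induction m with
  | zero =>
    simp only [pow_zero, zero_add, pow_one, Matrix.trace_one, Fintype.card_fin]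
    push_cast
    ring
  | succ m ih =>
    have e : M ^ (m + 1 + 1) = M.trace • M ^ (m + 1) - M ^ m := by
      calc M ^ (m + 1 + 1) = M ^ m * (M * M) := by rw [pow_succ, pow_succ, Matrix.mul_assoc]
        _ = M ^ m * (M.trace • M - 1) := by rw [hpg88_sq M hdet]
        _ = M.trace • M ^ (m + 1) - M ^ m := by
          rw [Matrix.mul_sub, Matrix.mul_smul, Matrix.mul_one, ← pow_succ]
    rw [e, Matrix.trace_sub, Matrix.trace_smul, smul_eq_mul]
    linear_combination ih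

/-- the next trace. -/
theorem pt46_trace_succ (M : Matrix (Fin 2) (Fin 2) ℤ) (hdet : M.det = 1) (m : ℕ) :
    (M ^ (m + 2)).trace = M.trace * (M ^ (m + 1)).trace - (M ^ m).trace := by
  have e : M ^ (m + 1 + 1) = M.trace • M ^ (m + 1) - M ^ m := by
    calc M ^ (m + 1 + 1) = M ^ m * (M * M) := by rw [pow_succ, pow_succ, Matrix.mul_assoc]
      _ = M ^ m * (M.trace • M - 1) := by rw [hpg88_sq M hdet]
      _ = M.trace • M ^ (m + 1) - M ^ m := by
        rw [Matrix.mul_sub, Matrix.mul_smul, Matrix.mul_one, ← pow_succ]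
  rw [e, Matrix.trace_sub, Matrix.trace_smul, smul_eq_mul]

/-- the class `{(tr γ) ^ 2 ≤ 4}` is closed under powers (matrix form). -/
theorem pt46_trace_pow_mat (M : Matrix (Fin 2) (Fin 2) ℤ) (hdet : M.det = 1)
    (h : M.trace ^ 2 ≤ 4) (m : ℕ) : (M ^ m).trace ^ 2 ≤ 4 := by
  rcases h.lt_or_eq with hlt | heq
  · have hinv := pt46_trace_inv M hdet m
    set t := M.trace
    set a := (M ^ m).trace
    set b := (M ^ (m + 1)).trace
    have h1 : (4 - t ^ 2) * a ^ 2 ≤ 4 * (4 - t ^ 2) := by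
      nlinarith [sq_nonneg (2 * b - t * a)]
    have h2 : 0 < 4 - t ^ 2 := by linarith
    by_contra hcon
    rw [not_le] at hcon
    nlinarith
  · have ht : M.trace = 2 ∨ M.trace = -2 := by
      have h' : (M.trace - 2) * (M.trace + 2) = 0 := by linear_combination heq
      rcases mul_eq_zero.mp h' with h1 | h1
      · left; linarith
      · right; linarith
    rcases ht with ht | ht
    · have := (hpg88_trace_pow_aux M hdet 1 (by norm_num) (by rw [ht]; norm_num) m).1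
      rw [this]
      simp
    · have := (hpg88_trace_pow_aux M hdet (-1) (by norm_num) (by rw [ht]; norm_num) m).1
      rw [this, mul_pow, ← pow_mul, mul_comm m 2, pow_mul]
      norm_num

/-- the class `{(tr γ) ^ 2 ≤ 4}` is closed under powers. -/
theorem pt46_trace_pow (g : SL(2, ℤ))
    (h : (g : Matrix (Fin 2) (Fin 2) ℤ).trace ^ 2 ≤ 4) (m : ℕ) :
    ((g ^ m : SL(2, ℤ)) : Matrix (Fin 2) (Fin 2) ℤ).trace ^ 2 ≤ 4 := by
  rw [Matrix.SpecialLinearGroup.coe_pow]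
  exact pt46_trace_pow_mat _ g.2 h m

/-- for trace `≥ 3` the traces of the powers increase strictly. -/
theorem pt46_trace_strictMono (M : Matrix (Fin 2) (Fin 2) ℤ) (hdet : M.det = 1)
    (h : 3 ≤ M.trace) (m : ℕ) :
    0 < (M ^ m).trace ∧ (M ^ m).trace < (M ^ (m + 1)).trace := by
  induction m with
  | zero =>
    simp only [pow_zero, zero_add, pow_one, Matrix.trace_one, Fintype.card_fin]
    push_cast
    exact ⟨trivial, by linarith⟩
  | succ m ih =>
    refine ⟨by linarith [ih.1, ih.2], ?_⟩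
    rw [pt46_trace_succ M hdet m]
    nlinarith [ih.1, ih.2]

/-- a matrix of determinant `1` and trace `≥ 3` has no nontrivial power equal to `1`. -/
theorem pt46_pow_ne_one_of_trace (M : Matrix (Fin 2) (Fin 2) ℤ) (hdet : M.det = 1)
    (h : 3 ≤ M.trace) (n : ℕ) (hn : 0 < n) : M ^ n ≠ 1 := by
  intro h1
  have hmono : ∀ k : ℕ, 2 < (M ^ (k + 1)).trace := by
    intro k
    induction k with
    | zero =>
      simp only [zero_add, pow_one]
      linarith
    | succ k ih => linarith [(pt46_trace_strictMono M hdet h (k + 1)).2]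
  obtain ⟨k, rfl⟩ : ∃ k, n = k + 1 := ⟨n - 1, by omega⟩
  have := hmono k
  rw [h1] at this
  simp at this

/-- **elements of finite order of `SL(2, ℤ)` have `(tr) ^ 2 ≤ 4`.** -/
theorem pt46_trace_of_isOfFinOrder (g : SL(2, ℤ)) (hg : IsOfFinOrder g) :
    (g : Matrix (Fin 2) (Fin 2) ℤ).trace ^ 2 ≤ 4 := by
  obtain ⟨n, hn, hgn⟩ := isOfFinOrder_iff_pow_eq_one.mp hg
  by_contra hcon
  rw [not_le] at hcon
  set M : Matrix (Fin 2) (Fin 2) ℤ := (g : Matrix (Fin 2) (Fin 2) ℤ) with hM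
  have hdet : M.det = 1 := g.2
  have hMn : M ^ n = 1 := by
    have := congrArg (fun x : SL(2, ℤ) => (x : Matrix (Fin 2) (Fin 2) ℤ)) hgn
    simpa [Matrix.SpecialLinearGroup.coe_pow] using this
  -- the square has trace `t² - 2 ≥ 3`
  have hdet2 : (M * M).det = 1 := by rw [Matrix.det_mul, hdet, one_mul]
  have htr2 : (M * M).trace = M.trace ^ 2 - 2 := by
    rw [hpg88_sq M hdet, Matrix.trace_sub, Matrix.trace_smul, smul_eq_mul, Matrix.trace_one,
      Fintype.card_fin]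
    push_cast
    ring
  have h3 : 3 ≤ (M * M).trace := by
    rw [htr2]
    linarith
  refine pt46_pow_ne_one_of_trace (M * M) hdet2 h3 n hn ?_
  rw [← pow_two, ← pow_mul, mul_comm, pow_mul, hMn, one_pow]

/-! ### homomorphisms killing the class -/

/-- `φ` kills every element whose trace has square at most `4` (parabolic and elliptic elements
and `± 1`). -/
def pt46_IsTorsHom {Γ : Subgroup SL(2, ℤ)} {A : Type*} [AddCommGroup A]
    (φ : Additive Γ →+ A) : Prop :=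
  ∀ γ : Γ, ((γ : SL(2, ℤ)) : Matrix (Fin 2) (Fin 2) ℤ).trace ^ 2 ≤ 4 →
    φ (Additive.ofMul γ) = 0

section Hom

variable {Γ : Subgroup SL(2, ℤ)} {A : Type*} [AddCommGroup A]

theorem pt46_isParabolicHom (φ : Additive Γ →+ A) (h : pt46_IsTorsHom φ) :
    IsParabolicHom Γ φ := fun γ hγ => h γ hγ.le

/-- such a `φ` kills the elements of finite order. -/
theorem pt46_kills_finOrder (φ : Additive Γ →+ A) (h : pt46_IsTorsHom φ) (γ : Γ)
    (hγ : IsOfFinOrder γ) : φ (Additive.ofMul γ) = 0 := by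
  apply h
  apply pt46_trace_of_isOfFinOrder
  obtain ⟨n, hn, hgn⟩ := isOfFinOrder_iff_pow_eq_one.mp hγ
  refine isOfFinOrder_iff_pow_eq_one.mpr ⟨n, hn, ?_⟩
  have := congrArg (fun x : Γ => (x : SL(2, ℤ))) hgn
  simpa using this

theorem pt46_map_pow (φ : Additive Γ →+ A) (γ : Γ) (m : ℕ) :
    φ (Additive.ofMul (γ ^ m)) = m • φ (Additive.ofMul γ) := by
  rw [ofMul_pow, map_nsmul]

/-- **a parabolic hom is killed by `1`, `2` or `3` on the class `{(tr) ^ 2 ≤ 4}`.** -/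
theorem pt46_exists_nsmul (φ : Additive Γ →+ A) (hφ : IsParabolicHom Γ φ) (γ : Γ)
    (hγ : ((γ : SL(2, ℤ)) : Matrix (Fin 2) (Fin 2) ℤ).trace ^ 2 ≤ 4) :
    φ (Additive.ofMul γ) = 0 ∨ (2 : ℕ) • φ (Additive.ofMul γ) = 0 ∨
      (3 : ℕ) • φ (Additive.ofMul γ) = 0 := by
  set M : Matrix (Fin 2) (Fin 2) ℤ := ((γ : SL(2, ℤ)) : Matrix (Fin 2) (Fin 2) ℤ) with hM
  have hdet : M.det = 1 := (γ : SL(2, ℤ)).2
  have htr2 : (M ^ 2).trace = M.trace ^ 2 - 2 := by
    have := pt46_trace_succ M hdet 0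
    simp only [zero_add, pow_one, pow_zero, Matrix.trace_one, Fintype.card_fin] at this
    rw [this]
    push_cast
    ring
  have htr3 : (M ^ 3).trace = M.trace ^ 3 - 3 * M.trace := by
    have := pt46_trace_succ M hdet 1
    simp only [pow_one] at this
    have e : (1 : ℕ) + 2 = 3 := rfl
    have e' : (1 : ℕ) + 1 = 2 := rfl
    rw [e, e', htr2] at this
    rw [this]
    ring
  have hcoe : ∀ m : ℕ, (((γ ^ m : Γ) : SL(2, ℤ)) : Matrix (Fin 2) (Fin 2) ℤ) = M ^ m := by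
    intro m
    rw [Subgroup.coe_pow, Matrix.SpecialLinearGroup.coe_pow]
  -- the trace is one of `-2, -1, 0, 1, 2`
  have hle : -2 ≤ M.trace ∧ M.trace ≤ 2 := by
    constructor <;> nlinarith
  obtain ⟨h1, h2⟩ := hle
  have hcases : M.trace = -2 ∨ M.trace = -1 ∨ M.trace = 0 ∨ M.trace = 1 ∨ M.trace = 2 := by
    omega
  rcases hcases with ht | ht | ht | ht | ht
  · left
    exact hφ γ (by rw [← hM, ht]; norm_num)
  · right; right
    rw [← pt46_map_pow]
    apply hφ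
    rw [hcoe, htr3, ht]
    norm_num
  · right; left
    rw [← pt46_map_pow]
    apply hφ
    rw [hcoe, htr2, ht]
    norm_num
  · right; right
    rw [← pt46_map_pow]
    apply hφ
    rw [hcoe, htr3, ht]
    norm_num
  · left
    exact hφ γ (by rw [← hM, ht]; norm_num)

/-- a parabolic hom with values in a group without `2`- and `3`-torsion kills the whole class. -/
theorem pt46_isTorsHom_of_noTorsion (φ : Additive Γ →+ A) (hφ : IsParabolicHom Γ φ)
    (h2 : ∀ a : A, (2 : ℕ) • a = 0 → a = 0) (h3 : ∀ a : A, (3 : ℕ) • a = 0 → a = 0) :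
    pt46_IsTorsHom φ := by
  intro γ hγ
  rcases pt46_exists_nsmul φ hφ γ hγ with h | h | h
  · exact h
  · exact h2 _ h
  · exact h3 _ h

/-- **integral parabolic homs kill the elliptic elements.** -/
theorem pt46_isTorsHom_int (φ : Additive Γ →+ ℤ) (hφ : IsParabolicHom Γ φ) :
    pt46_IsTorsHom φ :=
  pt46_isTorsHom_of_noTorsion φ hφ (fun a h => by simpa using h) (fun a h => by simpa using h)

/-- post-composition preserves the property. -/
theorem pt46_isTorsHom_comp {B : Type*} [AddCommGroup B] (g : A →+ B) (φ : Additive Γ →+ A)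
    (hφ : pt46_IsTorsHom φ) : pt46_IsTorsHom (g.comp φ) := by
  intro γ hγ
  show g (φ (Additive.ofMul γ)) = 0
  rw [hφ γ hγ, map_zero]

/-- **the reduction of an integral parabolic hom kills parabolic and elliptic elements.** -/
theorem pt46_isTorsHom_red {B : Type*} [AddCommGroup B] (g : ℤ →+ B) (φ : Additive Γ →+ ℤ)
    (hφ : IsParabolicHom Γ φ) : pt46_IsTorsHom (g.comp φ) :=
  pt46_isTorsHom_comp g φ (pt46_isTorsHom_int φ hφ)

/-- for a prime `p ≥ 5` every parabolic hom to `ZMod p` kills the whole class. -/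
theorem pt46_isTorsHom_zmod {p : ℕ} (hp : p.Prime) (h5 : 5 ≤ p) (φ : Additive Γ →+ ZMod p)
    (hφ : IsParabolicHom Γ φ) : pt46_IsTorsHom φ := by
  haveI : Fact p.Prime := ⟨hp⟩
  have key : ∀ (m : ℕ), 0 < m → m < p → ∀ a : ZMod p, m • a = 0 → a = 0 := by
    intro m hm0 hmp a ha
    rw [nsmul_eq_mul] at ha
    rcases mul_eq_zero.mp ha with h | h
    · exfalso
      rw [ZMod.natCast_eq_zero_iff] at h
      exact absurd (Nat.le_of_dvd hm0 h) (by omega)
    · exact h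
  exact pt46_isTorsHom_of_noTorsion φ hφ (key 2 (by norm_num) (by omega))
    (key 3 (by norm_num) (by omega))

end Hom

/-! ### the Hecke operators preserve the class -/

section Lb

variable {Γ : Subgroup SL(2, ℤ)} (S : LbSys Γ)

/-- **The operator of a Hecke coset system preserves the homs killing `{(tr) ^ 2 ≤ 4}`.** -/
theorem pt46_coh_isTorsHom {A : Type*} [AddCommGroup A] (φ : Additive Γ →+ A)
    (hφ : pt46_IsTorsHom φ) : pt46_IsTorsHom (S.coh A φ) := by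
  classical
  intro γ hγ
  rw [LbSys.coh_apply]
  have hinj : Function.Injective (S.perm γ) := (S.permEquiv γ).injective
  have hper : ∀ i, 0 < Function.minimalPeriod (S.perm γ) i := by
    intro i
    have hn : 0 < orderOf (S.permEquiv γ) := orderOf_pos _
    refine Function.IsPeriodicPt.minimalPeriod_pos hn ?_
    have h1 : ((S.permEquiv γ) ^ orderOf (S.permEquiv γ)) i = i := by
      rw [pow_orderOf_eq_one]
      rfl
    have h2 : ∀ (n : ℕ) (j : S.ι), ((S.permEquiv γ) ^ n) j = (S.perm γ)^[n] j := by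
      intro n
      induction n with
      | zero => intro j; rfl
      | succ n ihn =>
        intro j
        rw [pow_succ, Equiv.Perm.mul_apply, ihn, Function.iterate_succ_apply]
        rfl
    rw [h2] at h1
    exact h1
  refine hpg88_sum_stable (S.perm γ) hinj hper (fun i => φ (Additive.ofMul (S.kap γ i))) ?_ _
    Finset.univ rfl (fun i _ => Finset.mem_univ _)
  intro i
  rw [← hpg88_kap_pow S φ γ (Function.minimalPeriod (S.perm γ) i) i]
  apply hφ
  have hfix : S.perm (γ ^ Function.minimalPeriod (S.perm γ) i) i = i := by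
    rw [hpg88_perm_pow]
    exact Function.iterate_minimalPeriod
  have hmm := S.mat_mul (γ ^ Function.minimalPeriod (S.perm γ) i) i
  rw [hfix] at hmm
  rw [hpg88_trace_eq_of_mul_eq (S.det_pos i).ne' hmm, Subgroup.coe_pow]
  exact pt46_trace_pow _ hγ _

end Lb

section HeckeHom

variable {N ℓ : ℕ} {A : Type*} [AddCommGroup A]

/-- **`heckeHom N ℓ A` preserves the homs killing parabolic and elliptic elements**, for every
prime `ℓ` and every coefficient group. -/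
theorem pt46_heckeHom_isTorsHom (hℓ : ℓ.Prime) (χ : Additive (Gamma0 N) →+ A)
    (hχ : pt46_IsTorsHom χ) : pt46_IsTorsHom (heckeHom N ℓ A χ) := by
  by_cases hℓN : ℓ ∣ N
  · rw [← hh_lbSysU_coh hℓ hℓN A]
    exact pt46_coh_isTorsHom _ χ hχ
  · rw [← hh_lbSysT_coh hℓ hℓN A]
    exact pt46_coh_isTorsHom _ χ hχ

end HeckeHom

/-! ### the submodule `Par'_N` -/

section Par

variable (N p : ℕ)

/-- `Par'_N ≤ Hom(Γ₀(N), ℤ/p)`: the homs killing every `γ` with `(tr γ) ^ 2 ≤ 4`. -/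
def pt46_Par : Submodule (ZMod p) (Additive (Gamma0 N) →+ ZMod p) where
  carrier := {φ | pt46_IsTorsHom φ}
  zero_mem' := fun _ _ => rfl
  add_mem' := by
    intro φ ψ hφ hψ γ hγ
    show φ (Additive.ofMul γ) + ψ (Additive.ofMul γ) = 0
    rw [hφ γ hγ, hψ γ hγ, add_zero]
  smul_mem' := by
    intro c φ hφ γ hγ
    show c • φ (Additive.ofMul γ) = 0
    rw [hφ γ hγ, smul_zero]

variable {N p}

theorem pt46_mem_Par {φ : Additive (Gamma0 N) →+ ZMod p} :
    φ ∈ pt46_Par N p ↔ pt46_IsTorsHom φ := Iff.rfl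

variable (N p)

theorem pt46_Par_le : pt46_Par N p ≤ w1a28_Par N p :=
  fun φ hφ => pt46_isParabolicHom φ hφ

/-- for `p ≥ 5` nothing changes. -/
theorem pt46_Par_eq (hp : p.Prime) (h5 : 5 ≤ p) : pt46_Par N p = w1a28_Par N p :=
  le_antisymm (pt46_Par_le N p) (fun φ hφ => pt46_isTorsHom_zmod hp h5 φ hφ)

variable {N p}

/-- the Hecke operators preserve `Par'_N`. -/
theorem pt46_heckeHom_mem {ℓ : ℕ} (hℓ : ℓ.Prime) {χ : Additive (Gamma0 N) →+ ZMod p}
    (hχ : χ ∈ pt46_Par N p) : heckeHom N ℓ (ZMod p) χ ∈ pt46_Par N p :=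
  pt46_heckeHom_isTorsHom hℓ χ hχ

/-- the reduction mod `p` of an integral parabolic hom lies in `Par'_N`. -/
theorem pt46_red_mem (φ : Additive (Gamma0 N) →+ ℤ) (hφ : IsParabolicHom (Gamma0 N) φ) :
    (Int.castAddHom (ZMod p)).comp φ ∈ pt46_Par N p :=
  pt46_isTorsHom_red _ φ hφ

/-- elements of `Par'_N` kill the elements of finite order of `Γ₀(N)` (`hUfin`). -/
theorem pt46_Par_kills_finOrder {χ : Additive (Gamma0 N) →+ ZMod p} (hχ : χ ∈ pt46_Par N p)
    (δ : Gamma0 N) (hδ : IsOfFinOrder δ) : χ (Additive.ofMul δ) = 0 :=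
  pt46_kills_finOrder χ hχ δ hδ

end Par

/-! ### (W1) from `Θ` on a Hecke-stable submodule -/

section Main

variable {N : ℕ} [NeZero N] {p : ℕ}

/-- `Θ` corestricted to the `p`-torsion. -/
noncomputable def pt46_ThetaJ (P : Submodule (ZMod p) (Additive (Gamma0 N) →+ ZMod p))
    (Θ : P →+ JZero N) (htors : ∀ χ : P, (p : ℤ) • Θ χ = 0) : P →+ w1a28_J N p where
  toFun χ := ⟨Θ χ, Pic0.mem_torsion.mpr (htors χ)⟩
  map_zero' := Subtype.ext (map_zero Θ)
  map_add' χ χ' := Subtype.ext (map_add Θ χ χ')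

/-- `T'_ℓ` restricted to a stable submodule. -/
noncomputable def pt46_TP (P : Submodule (ZMod p) (Additive (Gamma0 N) →+ ZMod p)) (ℓ : ℕ)
    (h : ∀ χ : P, heckeHom N ℓ (ZMod p) χ ∈ P) : P →ₗ[ZMod p] P :=
  ((w1a28_TX N p ℓ).comp P.subtype).codRestrict P h

variable [Fact p.Prime] {k0 : Type*} [Field k0] [Algebra (ZMod p) k0]

/-- **(W1) from a `Θ` on any submodule `P`** (Hecke clause in the `∃`-membership form),
abstract eigenvalues. -/
theorem pt46_main_of (P : Submodule (ZMod p) (Additive (Gamma0 N) →+ ZMod p))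
    (Θ : P →+ JZero N) (hΘ : Function.Injective Θ)
    (htors : ∀ χ : P, (p : ℤ) • Θ χ = 0)
    (hhec : ∀ ℓ : Nat.Primes, ¬ (ℓ : ℕ) ∣ N * p → ∀ χ : P,
      ∃ hχ : heckeHom N ℓ (ZMod p) χ ∈ P,
        heckeOperatorBar N ℓ (Θ χ) = Θ ⟨heckeHom N ℓ (ZMod p) χ, hχ⟩)
    (lam : Nat.Primes → k0)
    (heig : ∃ x : k0 ⊗[ZMod p] P, x ≠ 0 ∧
      ∀ ℓ : Nat.Primes, ¬ (ℓ : ℕ) ∣ N * p →
        (w1a28_TX N p ℓ).baseChange k0 (P.subtype.baseChange k0 x)
          = lam ℓ • P.subtype.baseChange k0 x) :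
    ∃ y : k0 ⊗[ZMod p] w1a28_J N p, y ≠ 0 ∧
      ∀ ℓ : Nat.Primes, ¬ (ℓ : ℕ) ∣ N * p →
        (w1a28_TJ N p ℓ).baseChange k0 y = lam ℓ • y := by
  obtain ⟨x, hx0, hx⟩ := heig
  have hinj : Function.Injective ((pt46_ThetaJ P Θ htors).toZModLinearMap p) :=
    fun χ χ' h => hΘ (congrArg (fun c : w1a28_J N p => (c : JZero N)) h)
  have key := w1t70_abs (k0 := k0) ((pt46_ThetaJ P Θ htors).toZModLinearMap p) hinj
    P.subtype (Submodule.subtype_injective _) x hx0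
  refine ⟨_, key.1, fun ℓ hℓ => ?_⟩
  have hpar : ∀ χ : P, heckeHom N ℓ (ZMod p) χ ∈ P := fun χ => (hhec ℓ hℓ χ).1
  refine key.2 (w1a28_TJ N p ℓ) (w1a28_TX N p ℓ) (pt46_TP P ℓ hpar) ?_ ?_ (lam ℓ) (hx ℓ hℓ)
  · exact LinearMap.ext fun χ => rfl
  · refine LinearMap.ext fun χ => Subtype.ext ?_
    exact (hhec ℓ hℓ χ).2

/-- **(W1) for an eigenform from a `Θ` on any submodule `P`.** -/
theorem pt46_main_eigenform_of (P : Submodule (ZMod p) (Additive (Gamma0 N) →+ ZMod p))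
    (Θ : P →+ JZero N) (hΘ : Function.Injective Θ)
    (htors : ∀ χ : P, (p : ℤ) • Θ χ = 0)
    (hhec : ∀ ℓ : Nat.Primes, ¬ (ℓ : ℕ) ∣ N * p → ∀ χ : P,
      ∃ hχ : heckeHom N ℓ (ZMod p) χ ∈ P,
        heckeOperatorBar N ℓ (Θ χ) = Θ ⟨heckeHom N ℓ (ZMod p) χ, hχ⟩)
    (f : CuspForm (Gamma0 N) 2) (φ : integralClosure ℤ ℂ →+* k0)
    (heig : ∃ x : k0 ⊗[ZMod p] P, x ≠ 0 ∧
      ∀ ℓ : Nat.Primes, ¬ (ℓ : ℕ) ∣ N * p →
        ∃ a : integralClosure ℤ ℂ, (a : ℂ) = ModularFormClass.qCoeff (⇑f) ℓ ∧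
          (w1a28_TX N p ℓ).baseChange k0 (P.subtype.baseChange k0 x)
            = φ a • P.subtype.baseChange k0 x) :
    ∃ y : k0 ⊗[ZMod p] w1a28_J N p, y ≠ 0 ∧
      ∀ ℓ : Nat.Primes, ¬ (ℓ : ℕ) ∣ N * p →
        ∃ a : integralClosure ℤ ℂ, (a : ℂ) = ModularFormClass.qCoeff (⇑f) ℓ ∧
          (w1a28_TJ N p ℓ).baseChange k0 y = φ a • y := by
  obtain ⟨x, hx0, hx⟩ := heig
  have hinj : Function.Injective ((pt46_ThetaJ P Θ htors).toZModLinearMap p) :=
    fun χ χ' h => hΘ (congrArg (fun c : w1a28_J N p => (c : JZero N)) h)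
  have key := w1t70_abs (k0 := k0) ((pt46_ThetaJ P Θ htors).toZModLinearMap p) hinj
    P.subtype (Submodule.subtype_injective _) x hx0
  refine ⟨_, key.1, fun ℓ hℓ => ?_⟩
  obtain ⟨a, ha, hax⟩ := hx ℓ hℓ
  have hpar : ∀ χ : P, heckeHom N ℓ (ZMod p) χ ∈ P := fun χ => (hhec ℓ hℓ χ).1
  refine ⟨a, ha, key.2 (w1a28_TJ N p ℓ) (w1a28_TX N p ℓ) (pt46_TP P ℓ hpar) ?_ ?_ (φ a) hax⟩
  · exact LinearMap.ext fun χ => rfl
  · refine LinearMap.ext fun χ => Subtype.ext ?_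
    exact (hhec ℓ hℓ χ).2

/-- **(W1) from `Θ` on `Par'_N`** (Hecke clause in the literal `w1t28_main` shape; the
stability of `Par'_N` is `pt46_heckeHom_mem`). -/
theorem pt46_main
    (Θ : pt46_Par N p →+ JZero N) (hΘ : Function.Injective Θ)
    (htors : ∀ χ : pt46_Par N p, (p : ℤ) • Θ χ = 0)
    (hhec : ∀ ℓ : Nat.Primes, ¬ (ℓ : ℕ) ∣ N * p → ∀ χ χ' : pt46_Par N p,
      (χ' : Additive (Gamma0 N) →+ ZMod p) = heckeHom N ℓ (ZMod p) χ →
        heckeOperatorBar N ℓ (Θ χ) = Θ χ')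
    (lam : Nat.Primes → k0)
    (heig : ∃ x : k0 ⊗[ZMod p] pt46_Par N p, x ≠ 0 ∧
      ∀ ℓ : Nat.Primes, ¬ (ℓ : ℕ) ∣ N * p →
        (w1a28_TX N p ℓ).baseChange k0 ((pt46_Par N p).subtype.baseChange k0 x)
          = lam ℓ • (pt46_Par N p).subtype.baseChange k0 x) :
    ∃ y : k0 ⊗[ZMod p] w1a28_J N p, y ≠ 0 ∧
      ∀ ℓ : Nat.Primes, ¬ (ℓ : ℕ) ∣ N * p →
        (w1a28_TJ N p ℓ).baseChange k0 y = lam ℓ • y :=
  pt46_main_of (pt46_Par N p) Θ hΘ htors
    (fun ℓ hℓ χ => ⟨pt46_heckeHom_mem ℓ.2 χ.2, hhec ℓ hℓ χ _ rfl⟩) lam heig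

/-- **(W1) for an eigenform from `Θ` on `Par'_N`.** -/
theorem pt46_main_eigenform
    (Θ : pt46_Par N p →+ JZero N) (hΘ : Function.Injective Θ)
    (htors : ∀ χ : pt46_Par N p, (p : ℤ) • Θ χ = 0)
    (hhec : ∀ ℓ : Nat.Primes, ¬ (ℓ : ℕ) ∣ N * p → ∀ χ χ' : pt46_Par N p,
      (χ' : Additive (Gamma0 N) →+ ZMod p) = heckeHom N ℓ (ZMod p) χ →
        heckeOperatorBar N ℓ (Θ χ) = Θ χ')
    (f : CuspForm (Gamma0 N) 2) (φ : integralClosure ℤ ℂ →+* k0)
    (heig : ∃ x : k0 ⊗[ZMod p] pt46_Par N p, x ≠ 0 ∧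
      ∀ ℓ : Nat.Primes, ¬ (ℓ : ℕ) ∣ N * p →
        ∃ a : integralClosure ℤ ℂ, (a : ℂ) = ModularFormClass.qCoeff (⇑f) ℓ ∧
          (w1a28_TX N p ℓ).baseChange k0 ((pt46_Par N p).subtype.baseChange k0 x)
            = φ a • (pt46_Par N p).subtype.baseChange k0 x) :
    ∃ y : k0 ⊗[ZMod p] w1a28_J N p, y ≠ 0 ∧
      ∀ ℓ : Nat.Primes, ¬ (ℓ : ℕ) ∣ N * p →
        ∃ a : integralClosure ℤ ℂ, (a : ℂ) = ModularFormClass.qCoeff (⇑f) ℓ ∧
          (w1a28_TJ N p ℓ).baseChange k0 y = φ a • y :=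
  pt46_main_eigenform_of (pt46_Par N p) Θ hΘ htors
    (fun ℓ hℓ χ => ⟨pt46_heckeHom_mem ℓ.2 χ.2, hhec ℓ hℓ χ _ rfl⟩) f φ heig

/-- transport of an eigenvector along an inclusion `P ≤ 𝒜` of submodules. -/
theorem pt46_eig_mono {P 𝒜 : Submodule (ZMod p) (Additive (Gamma0 N) →+ ZMod p)} (h : P ≤ 𝒜)
    (x : k0 ⊗[ZMod p] P) (hx0 : x ≠ 0) :
    (Submodule.inclusion h).baseChange k0 x ≠ 0 ∧
      𝒜.subtype.baseChange k0 ((Submodule.inclusion h).baseChange k0 x)
        = P.subtype.baseChange k0 x := by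
  have hinj : Function.Injective ((Submodule.inclusion h).baseChange k0) := by
    rw [LinearMap.baseChange_eq_ltensor]
    exact Module.Flat.lTensor_preserves_injective_linearMap _ (Submodule.inclusion_injective h)
  refine ⟨fun h0 => hx0 (hinj (by rw [h0, map_zero])), ?_⟩
  rw [← LinearMap.comp_apply, ← LinearMap.baseChange_comp]
  rfl

/-- **(W1) from `Θ` on a larger submodule `𝒜 ≥ P`** and an eigenvector in `k0 ⊗ P`. -/
theorem pt46_main_sub (P 𝒜 : Submodule (ZMod p) (Additive (Gamma0 N) →+ ZMod p)) (hP : P ≤ 𝒜)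
    (Θ : 𝒜 →+ JZero N) (hΘ : Function.Injective Θ)
    (htors : ∀ χ : 𝒜, (p : ℤ) • Θ χ = 0)
    (hhec : ∀ ℓ : Nat.Primes, ¬ (ℓ : ℕ) ∣ N * p → ∀ χ : 𝒜,
      ∃ hχ : heckeHom N ℓ (ZMod p) χ ∈ 𝒜,
        heckeOperatorBar N ℓ (Θ χ) = Θ ⟨heckeHom N ℓ (ZMod p) χ, hχ⟩)
    (lam : Nat.Primes → k0)
    (heig : ∃ x : k0 ⊗[ZMod p] P, x ≠ 0 ∧
      ∀ ℓ : Nat.Primes, ¬ (ℓ : ℕ) ∣ N * p →
        (w1a28_TX N p ℓ).baseChange k0 (P.subtype.baseChange k0 x)
          = lam ℓ • P.subtype.baseChange k0 x) :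
    ∃ y : k0 ⊗[ZMod p] w1a28_J N p, y ≠ 0 ∧
      ∀ ℓ : Nat.Primes, ¬ (ℓ : ℕ) ∣ N * p →
        (w1a28_TJ N p ℓ).baseChange k0 y = lam ℓ • y := by
  obtain ⟨x, hx0, hx⟩ := heig
  obtain ⟨h1, h2⟩ := pt46_eig_mono hP x hx0
  refine pt46_main_of 𝒜 Θ hΘ htors hhec lam ⟨_, h1, fun ℓ hℓ => ?_⟩
  rw [h2]
  exact hx ℓ hℓ

/-- **(W1) for an eigenform from `Θ` on a larger submodule `𝒜 ≥ P`.** -/
theorem pt46_main_eigenform_sub (P 𝒜 : Submodule (ZMod p) (Additive (Gamma0 N) →+ ZMod p))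
    (hP : P ≤ 𝒜) (Θ : 𝒜 →+ JZero N) (hΘ : Function.Injective Θ)
    (htors : ∀ χ : 𝒜, (p : ℤ) • Θ χ = 0)
    (hhec : ∀ ℓ : Nat.Primes, ¬ (ℓ : ℕ) ∣ N * p → ∀ χ : 𝒜,
      ∃ hχ : heckeHom N ℓ (ZMod p) χ ∈ 𝒜,
        heckeOperatorBar N ℓ (Θ χ) = Θ ⟨heckeHom N ℓ (ZMod p) χ, hχ⟩)
    (f : CuspForm (Gamma0 N) 2) (φ : integralClosure ℤ ℂ →+* k0)
    (heig : ∃ x : k0 ⊗[ZMod p] P, x ≠ 0 ∧
      ∀ ℓ : Nat.Primes, ¬ (ℓ : ℕ) ∣ N * p →
        ∃ a : integralClosure ℤ ℂ, (a : ℂ) = ModularFormClass.qCoeff (⇑f) ℓ ∧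
          (w1a28_TX N p ℓ).baseChange k0 (P.subtype.baseChange k0 x)
            = φ a • P.subtype.baseChange k0 x) :
    ∃ y : k0 ⊗[ZMod p] w1a28_J N p, y ≠ 0 ∧
      ∀ ℓ : Nat.Primes, ¬ (ℓ : ℕ) ∣ N * p →
        ∃ a : integralClosure ℤ ℂ, (a : ℂ) = ModularFormClass.qCoeff (⇑f) ℓ ∧
          (w1a28_TJ N p ℓ).baseChange k0 y = φ a • y := by
  obtain ⟨x, hx0, hx⟩ := heig
  obtain ⟨h1, h2⟩ := pt46_eig_mono hP x hx0
  refine pt46_main_eigenform_of 𝒜 Θ hΘ htors hhec f φ ⟨_, h1, fun ℓ hℓ => ?_⟩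
  rw [h2]
  exact hx ℓ hℓ

end Main

end Fermat.Agent.S42
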