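import Fermat.Agent.S42.XChar44
import Fermat.Agent.S42.GchiMem96
import Fermat.Agent.S42.DivGFinal93
import Fermat.Agent.S42.CuspConc36
import Fermat.Agent.S42.ThetaFinal70
import Fermat.Agent.S42.ParTors46

/-!
# S42 / S29 / riders, seam (G-X) in MODULUS-GENERAL, FINITE-ORDER form (helper87)

`(X)` of ARCH-1 for an ARBITRARY modulus `m ≥ 1` (not necessarily prime) and a character
`χ : Γ₀(N) → ZMod m` which is parabolic and kills the elements of finite order of `Γ₀(N)`:

* `xm87_cusp` : the cusp clause, `v.ord u = 0` at every place over `j = ∞`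
  (`pc36_cusp_one` of helper36 at `ev = ff79_evMer N`, `x = j`, `K3` = `gi41_mer_norm`,
  limits = `xc44_tendsto` of helper44 / helper77);
* `xm87_X` : `∃ h u, h ≠ 0 ∧ th70_IsChar m (th70_zeta m) χ h ∧ ff79_evMer N u = h ^ m ∧
  ∀ v, (m : ℤ) ∣ v.ord u`, with `h = xc44_h N m χ = E_χ / E_1` (weight `4`), `u` from
  `ga96_Fchi_pow_mem` (helper96) and the divisibility from `dg93_div_FC` (helper93);
* `xm87_X_tors` : the same for `χ ∈ pt46_Par N m` (helper46's `Par'`: homs killing every `γ`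
  with `tr² ≤ 4`), any `m ≥ 1` -- the (X) of S29 at ALL primes `p`;
* `xm87_X_int` : the same for the reduction mod `m` of an INTEGRAL parabolic hom -- the (X) of
  the riders (modulus `pⁿ`);
* `xm87_th70_X` : `th70_X N p` (the named Prop of `ThetaFinal70`) for a prime `p ≥ 5`.

All names are prefixed `xm87_`.
-/

set_option autoImplicit false
set_option linter.unusedSectionVars false
set_option linter.unusedVariables false
set_option linter.style.longLine false
set_option linter.style.haveILetI false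

open Matrix UpperHalfPlane Filter Topology CongruenceSubgroup ModularCurve ModularCurve.Period
  AlgebraicCurve IntermediateField
open scoped MatrixGroups Manifold

namespace Fermat.Agent.S42

open Fermat.Agent.S24

section xm87

variable (N : ℕ) [NeZero N] (m : ℕ) [NeZero m] (χ : Additive ↥(Gamma0 N) →+ ZMod m)

/-- **The cusp clause of (X)**, any modulus: a function `u ∈ F_ℂ(N)` with
`ev u = (E_χ / E_1) ^ m` has order `0` at every place over `j = ∞`. -/
theorem xm87_cusp (hpar : IsParabolicHom (Gamma0 N) χ) (u : gi41_FC N) (hu0 : u ≠ 0)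
    (hu : ff79_evMer N u = xc44_h N m χ ^ m) (v : Place ℂ (gi41_FC N))
    (hv : v.ord (dg93_j0 N) < 0) : v.ord u = 0 := by
  obtain ⟨hfd, -⟩ := gi41_K1C N (dg93_j0 N) (dg93_j0_coe N)
  haveI := hfd
  haveI : Finite (SL(2, ℤ) ⧸ Gamma0 N) := Subgroup.finite_quotient_of_finiteIndex
  letI : Fintype (Cosets N) := Fintype.ofFinite _
  refine pc36_cusp_one (ff79_evMer N) (dg93_j0 N) (dg93_j0_transcendental N) dg93_jO
    (fun τ => rfl) (dg93_ev_j0 N) (fun b : Cosets N => (b.out : SL(2, ℤ))) ?_ u hu0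
    (xc44_A N m χ ^ m) (xc44_B ^ m) (pow_ne_zero _ xc44_B_ne_zero) ?_
    (xc44_tendsto hpar) v hv
  · intro f
    exact gi41_mer_norm N (ff79_evMer N) (dg93_j0 N) dg93_jM (dg93_j0_coe N) dg93_jM_smul
      (dg93_ev_j0 N) (ff79_evMer_smul N) l1j27_L1_MER (gc6_out_bijective (Gamma0 N)) f
  · rw [hu, xc44_h_pow_eq_div]

/-- **(X), modulus-general, finite-order form.** -/
theorem xm87_X (hpar : IsParabolicHom (Gamma0 N) χ)
    (hfin : ∀ δ : ↥(Gamma0 N), IsOfFinOrder δ → χ (Additive.ofMul δ) = 0) :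
    ∃ h : mer95_MER, h ≠ 0 ∧ th70_IsChar m (th70_zeta m) χ h ∧
      ∃ u : ↥(laurentBaseChange ℂ (modularFunctionFieldFull N)), ff79_evMer N u = h ^ m ∧
        ∀ v : Place ℂ ↥(laurentBaseChange ℂ (modularFunctionFieldFull N)),
          (m : ℤ) ∣ v.ord u := by
  obtain ⟨u, hu0, hu⟩ := ga96_Fchi_pow_mem N 4 (xc44_char m χ) m (by norm_num) (by decide)
    (NeZero.ne m) (xc44_char_pow m χ) (xc44_char_par hpar)
  have hu' : ff79_evMer N u = xc44_h N m χ ^ m := hu
  refine ⟨xc44_h N m χ, xc44_h_ne_zero hpar, xc44_h_isChar hpar, u, hu', fun v => ?_⟩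
  refine dg93_div_FC N m u (xc44_h N m χ) (xc44_h_ne_zero hpar) hu' ?_ ?_ v
  · intro δ hδ hδfin
    exact xc44_h_smul_finOrder hpar hfin ⟨δ, hδ⟩ (Submonoid.isOfFinOrder_coe.mp hδfin)
  · intro v hv
    rw [xm87_cusp N m χ hpar u hu0 hu' v hv]
    exact dvd_zero _

/-- **(X) on `Par'`** (`pt46_Par`: homs killing every `γ` with `tr² ≤ 4`), any modulus. -/
theorem xm87_X_tors (hχ : χ ∈ pt46_Par N m) :
    ∃ h : mer95_MER, h ≠ 0 ∧ th70_IsChar m (th70_zeta m) χ h ∧
      ∃ u : ↥(laurentBaseChange ℂ (modularFunctionFieldFull N)), ff79_evMer N u = h ^ m ∧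
        ∀ v : Place ℂ ↥(laurentBaseChange ℂ (modularFunctionFieldFull N)),
          (m : ℤ) ∣ v.ord u :=
  xm87_X N m χ (pt46_Par_le N m hχ) (fun δ hδ => pt46_Par_kills_finOrder hχ δ hδ)

/-- **(X) for integral classes**: the reduction mod `m` of an integral parabolic hom. -/
theorem xm87_X_int (φ : Additive ↥(Gamma0 N) →+ ℤ) (hφ : IsParabolicHom (Gamma0 N) φ) :
    ∃ h : mer95_MER, h ≠ 0 ∧
      th70_IsChar m (th70_zeta m) ((Int.castAddHom (ZMod m)).comp φ) h ∧
      ∃ u : ↥(laurentBaseChange ℂ (modularFunctionFieldFull N)), ff79_evMer N u = h ^ m ∧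
        ∀ v : Place ℂ ↥(laurentBaseChange ℂ (modularFunctionFieldFull N)),
          (m : ℤ) ∣ v.ord u :=
  xm87_X_tors N m _ (pt46_red_mem φ hφ)

end xm87

/-- **`th70_X N p` for a prime `p ≥ 5`** (the named Prop of `ThetaFinal70`). -/
theorem xm87_th70_X (N : ℕ) [NeZero N] (p : ℕ) [Fact p.Prime] (h5 : 5 ≤ p) : th70_X N p := by
  haveI : NeZero p := ⟨(Fact.out : p.Prime).ne_zero⟩
  intro χ hχ
  have hχ' : χ ∈ pt46_Par N p := by
    rw [pt46_Par_eq N p Fact.out h5]
    exact hχ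
  exact xm87_X_tors N p χ hχ'

end Fermat.Agent.S42
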