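import Fermat.Agent.S42.ThetaFinalZ31
import Fermat.Agent.S42.XMod87

/-!
# Riders S30 / S31, row THETA-Z (helper31): THETA-Z closed, hypothesis-free

`ThetaFinalZ31` reduces (I-Theta-Z) at an arbitrary modulus `m ≠ 0` to the single analytic
statement `thz31_X N m`.  helper87's `xm87_X_int` (`XMod87`: `(X)` in modulus-general,
finite-order form, applied to the reduction of an integral parabolic hom) is exactly that
statement in the `ZMod m` vocabulary; `thz31_isChar_red` translates.  Hence, with NO hypothesis,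
for every level `N ≥ 1`:

* `thz31_X_holds N m` : `thz31_X N m` for every modulus `m ≠ 0`;
* `thz31_closed_I_Theta_Z N m` : **(I-Theta-Z)** = shape (A) of the S31 rider, every `m ≠ 0`;
* `thz31_closed_family N p` : **THETA-Z (a)–(d)** of Directive 12 — the compatible family
  `Θ_n : Hom_par(Γ₀(N), ℤ) → J₀(N)(ℚ̄)` at the moduli `p ^ n`, every `p ≠ 0` (in particular every
  prime, `2`, `3` and `p ∣ N` included).
-/

set_option autoImplicit false
set_option linter.unusedSectionVars false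
set_option linter.unusedVariables false
set_option linter.style.longLine false
set_option linter.style.haveILetI false

open CongruenceSubgroup ModularCurve ModularCurve.Period AlgebraicCurve UpperHalfPlane
open scoped TensorProduct MatrixGroups

namespace Fermat.Agent.S42

open Fermat.Agent.S16 Fermat.Agent.S24

/-- **(X) at every modulus, integral characters** (from helper87's `xm87_X_int`). -/
theorem thz31_X_holds (N : ℕ) [NeZero N] (m : ℕ) [NeZero m] : thz31_X N m := by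
  intro χ hχ
  obtain ⟨h, h0, hchar, u, hu, hdvd⟩ := xm87_X_int N m χ hχ
  have hζ : th70_zeta m ^ m = 1 := (th70_zeta_isPrimitiveRoot m (NeZero.ne m)).pow_eq_one
  exact ⟨h, h0, (thz31_isChar_red hζ χ h).mp hchar, u, hu, hdvd⟩

/-- **(I-Theta-Z), hypothesis-free**: for every level `N ≥ 1` and every modulus `m ≠ 0` there is
`Θ : Hom_par(Γ₀(N), ℤ) →+ J₀(N)(ℚ̄)` killed by `m`, with kernel inside `m • Hom_par`, commuting
with the Hecke operators at the primes `ℓ ∤ N m`. -/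
theorem thz31_closed_I_Theta_Z (N : ℕ) [NeZero N] (m : ℕ) [NeZero m] :
    ∃ Θ : ↥(parabolicHoms ℤ (Gamma0 N) ℤ) →+ JZero N,
      (∀ χ, (m : ℤ) • Θ χ = 0) ∧
      (∀ χ, Θ χ = 0 → ∃ χ' : ↥(parabolicHoms ℤ (Gamma0 N) ℤ), χ = m • χ') ∧
      ∀ ℓ : Nat.Primes, ¬ (ℓ : ℕ) ∣ N * m → ∀ χ : ↥(parabolicHoms ℤ (Gamma0 N) ℤ),
        ∃ hχ : heckeHom N ℓ ℤ χ ∈ parabolicHoms ℤ (Gamma0 N) ℤ,
          heckeOperatorBar N ℓ (Θ χ) = Θ ⟨heckeHom N ℓ ℤ χ, hχ⟩ :=
  thz31_final_I_Theta_Z phi N m (thz31_X_holds N m)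

/-- **THETA-Z (a)–(d), hypothesis-free**: the compatible family at the moduli `p ^ n`. -/
theorem thz31_closed_family (N : ℕ) [NeZero N] (p : ℕ) (hp : p ≠ 0) :
    ∃ Θ : ℕ → (↥(parabolicHoms ℤ (Gamma0 N) ℤ) →+ JZero N),
      (∀ n χ, ((p ^ n : ℕ) : ℤ) • Θ n χ = 0) ∧
      (∀ n χ, Θ n χ = 0 → ∃ χ' : ↥(parabolicHoms ℤ (Gamma0 N) ℤ), χ = (p ^ n) • χ') ∧
      (∀ (n : ℕ) (ℓ : Nat.Primes), ¬ (ℓ : ℕ) ∣ N * p ^ n →
        ∀ χ : ↥(parabolicHoms ℤ (Gamma0 N) ℤ),
          ∃ hχ : heckeHom N ℓ ℤ χ ∈ parabolicHoms ℤ (Gamma0 N) ℤ,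
            heckeOperatorBar N ℓ (Θ n χ) = Θ n ⟨heckeHom N ℓ ℤ χ, hχ⟩) ∧
      ∀ n χ, (p : ℤ) • Θ (n + 1) χ = Θ n χ :=
  thz31_final_family phi N p hp
    (fun n => @thz31_X_holds N _ (p ^ n) ⟨pow_ne_zero n hp⟩)

end Fermat.Agent.S42
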