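import Fermat.Agent.S37.RCClose64

/-!
# S42 (Project 4), row M10 (helper69): Frobenius and inertia at OPERATOR level

Everything here is about `JZero N = Pic⁰(ℚ̄ · F(N))` with the Prelude Galois action and the
Prelude operator `heckeOperatorBar N ℓ`.  No commutation hypothesis on the Hecke operators and
no `SMulCommClass` hypothesis is used.

* `fi69_key` : for `ℓ ∤ N`, `ℓ ∤ p`, `A` over `ℓ`: the divisor-level package of the S37 chain
  (a homomorphism `c` on divisors, `Fr`, `V`, inertia invariance, Frobenius equivariance,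
  Eichler-Shimura on divisors of degree zero, injectivity on `p`-power torsion), with all
  inputs (S18, Hecke inputs, weak Riemann, reduction data) discharged from main.
* `fi69_redPack` : the resulting reduction map on `JZero N`.
* `fi69_inertia` : inertia at `ℓ` acts trivially on the classes killed by a power of `p`.
* `fi69_frob` : `σ • σ • x - T_ℓ (σ • x) + ℓ • x = 0` for every Frobenius element `σ` at `ℓ` and
  every class `x` killed by a power of `p`.
-/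

set_option autoImplicit false
set_option linter.style.haveILetI false
set_option synthInstance.maxHeartbeats 400000
set_option maxHeartbeats 1600000

namespace Fermat.Agent.S42

open ModularCurve AlgebraicCurve Fermat.Agent.S37

local notation "Qb" => AlgebraicClosure ℚ
local notation "GQ" => AlgebraicClosure ℚ ≃ₐ[ℚ] AlgebraicClosure ℚ

/-- The reduction package at `(ℓ, A, φ)`: the four properties used by `h14_S37_of_red`. -/
def fi69_RedPack (N p ℓ : ℕ) [NeZero N] (hℓ : ℓ.Prime) (A : ValuationSubring Qb) (φ : GQ) :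
    Prop :=
  ∃ (P : Type) (_ : AddCommGroup P) (red : JZero N →+ P) (Fr : P →+ P),
    (∀ σ ∈ A.inertiaSubgroupIn ℚ, ∀ x : JZero N, red (σ • x) = red x) ∧
    (∀ σ : GQ, A.IsFrobeniusAt σ ℓ → ∀ x : JZero N, red (σ • x) = Fr (red x)) ∧
    (∀ x : JZero N, red (φ • φ • x - heckeOperatorBar N ⟨ℓ, hℓ⟩ (φ • x) + ℓ • x) = 0) ∧
    (∀ x : JZero N, red x = 0 → (∃ n : ℕ, p ^ n • x = 0) → x = 0)

/-- The divisor-level package of the S37 chain (degree-zero form). -/
def fi69_DivPack (N p ℓ : ℕ) [NeZero N] [NeZero ℓ] (A : ValuationSubring Qb) : Prop :=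
  ∃ (hα : HeckeAlphaBarIntegral Qb N ℓ) (hβ : HeckeBetaBarIntegral Qb N ℓ)
    (_ : HasPrincipalDivisors Qb (modularFunctionFieldBar (N * ℓ)))
    (hfin : FiniteAlong Qb (heckeAlphaBar Qb N ℓ))
    (_ : FundamentalIdentityAlong Qb (heckeBetaBar Qb N ℓ) hβ)
    (_ : NormFormulaAlong Qb (heckeAlphaBar Qb N ℓ) hfin)
    (G : Type) (_ : AddCommGroup G)
    (c : Divisor Qb (modularFunctionFieldBar N) →+ G) (Fr V : G →+ G),
    (∀ x : G, V (Fr x) = x) ∧
    (∀ τ ∈ A.inertiaSubgroupIn ℚ, ∀ D : Divisor Qb (modularFunctionFieldBar N),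
      c (arithmeticGalois (modularFunctionFieldFull N) τ • D) = c D) ∧
    (∀ σ : GQ, A.IsFrobeniusAt σ ℓ → ∀ D : Divisor Qb (modularFunctionFieldBar N),
      c (arithmeticGalois (modularFunctionFieldFull N) σ • D) = Fr (c D)) ∧
    (∀ D : Divisor Qb (modularFunctionFieldBar N), Divisor.degree D = 0 →
      c (heckeDivBar hα hβ D) = Fr (c D) + ℓ • V (c D)) ∧
    (∀ D : Divisor Qb (modularFunctionFieldBar N), Divisor.degree D = 0 →
      c D = 0 →
      (∃ n : ℕ, p ^ n • D ∈ Divisor.principal (K := Qb) (F := modularFunctionFieldBar N)) →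
      D ∈ Divisor.principal (K := Qb) (F := modularFunctionFieldBar N))

/-- **The divisor-level package, hypothesis-free** (body of `h64_final0`, inputs discharged as in
`h64_S37_of_WR_RC` / `h64_S37`). -/
theorem fi69_key (N p : ℕ) [NeZero N] (ℓ : ℕ) (hℓ : ℓ.Prime) [NeZero ℓ] (hN : ¬ ℓ ∣ N)
    (hp : ¬ ℓ ∣ p) (A : ValuationSubring Qb) (hA : A.LiesOverPrime ℓ) :
    fi69_DivPack N p ℓ A := by
  have hS18 : ∀ (M : ℕ) [NeZero M] (ℓ : ℕ), ℓ.Prime → ¬ ℓ ∣ M → ∀ A : ValuationSubring Qb,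
      A.LiesOverPrime ℓ → top13_S18At M A ℓ := by
    intro M _ ℓ hℓ hM A hA h m hm z hmz hz
    haveI : Fact ℓ.Prime := ⟨hℓ⟩
    exact Fermat.Agent.S18.result M hM A hA h m hm z hmz hz
  have hWR := dz66_WR_modular N
  obtain ⟨hα, hβ, hP, hfin, hFI, hNF⟩ := hi63_heckeInputsAlong N ℓ
  haveI := hP
  have key : ∀ p₀ : ℕ, p₀.Prime → (p₀ = 2 ∨ p₀ = 3) → ℓ ≠ p₀ →
      h64_Pack0 N p ℓ A hα hβ (dedekindPsi (Nat.lcm N p₀) / dedekindPsi N) := by
    intro p₀ hp₀ h23 hne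
    haveI : NeZero (Nat.lcm N p₀) := ⟨Nat.lcm_ne_zero (NeZero.ne N) hp₀.ne_zero⟩
    have hℓN' : ¬ ℓ ∣ Nat.lcm N p₀ := by
      intro hdvd
      have h1 : ℓ ∣ N * p₀ := hdvd.trans (Nat.lcm_dvd_mul N p₀)
      rcases (Nat.Prime.dvd_mul hℓ).mp h1 with h2 | h2
      · exact hN h2
      · exact hne ((Nat.prime_dvd_prime_iff_eq hℓ hp₀).mp h2)
    have h23' : 2 ∣ Nat.lcm N p₀ ∨ 3 ∣ Nat.lcm N p₀ := by
      rcases h23 with rfl | rfl
      · exact Or.inl (Nat.dvd_lcm_right N 2)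
      · exact Or.inr (Nat.dvd_lcm_right N 3)
    exact h64_pack_of_rc (Nat.dvd_lcm_left N p₀) hℓ hN p hp hA
      (hS18 (Nat.lcm N p₀) ℓ hℓ hℓN' A hA) hα hβ hFI hWR
      (h64_rc (Nat.lcm N p₀) ℓ hℓ hℓN' h23' A hA)
  have hpack : ∃ n : ℕ, Nat.Coprime n p ∧ h64_Pack0 N p ℓ A hα hβ n := by
    by_cases h2 : ℓ = 2
    · refine ⟨_, ?_, key 3 Nat.prime_three (Or.inr rfl) (by omega)⟩
      rcases Fermat.Agent.S18.nd38_psi_lcm N 3 Nat.prime_three with h | h
      · rw [h]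
        exact Nat.coprime_one_left _
      · rw [h, show 3 + 1 = 2 ^ 2 from rfl]
        refine Nat.Coprime.pow_left 2 ?_
        rw [Nat.Prime.coprime_iff_not_dvd Nat.prime_two]
        rw [h2] at hp
        exact hp
    by_cases h3 : ℓ = 3
    · refine ⟨_, ?_, key 2 Nat.prime_two (Or.inl rfl) (by omega)⟩
      rcases Fermat.Agent.S18.nd38_psi_lcm N 2 Nat.prime_two with h | h
      · rw [h]
        exact Nat.coprime_one_left _
      · rw [h, show 2 + 1 = 3 from rfl, Nat.Prime.coprime_iff_not_dvd Nat.prime_three]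
        rw [h3] at hp
        exact hp
    · refine ⟨_, ?_, h64_pack_prod0 (key 2 Nat.prime_two (Or.inl rfl) h2)
        (key 3 Nat.prime_three (Or.inr rfl) h3)⟩
      have hg : Nat.gcd (dedekindPsi (Nat.lcm N 2) / dedekindPsi N)
          (dedekindPsi (Nat.lcm N 3) / dedekindPsi N) = 1 := by
        rcases Fermat.Agent.S18.nd38_psi_lcm N 2 Nat.prime_two with h | h <;>
          rcases Fermat.Agent.S18.nd38_psi_lcm N 3 Nat.prime_three with h' | h' <;>
          rw [h, h'] <;> decide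
      rw [hg]
      exact Nat.coprime_one_left _
  obtain ⟨n, hn, G, instG, c, Fr, V, h1, h2, h3, h4, h5⟩ := hpack
  refine ⟨hα, hβ, hP, hfin, hFI, hNF, G, instG, c, Fr, V, h1, h2, h3, h4, ?_⟩
  rintro D hD hcD ⟨k, hk⟩
  have hnD := h5 D hD hcD ⟨k, hk⟩
  have hcop : Nat.Coprime n (p ^ k) := Nat.Coprime.pow_right k hn
  have hbez : (1 : ℤ) = (n : ℤ) * Nat.gcdA n (p ^ k) + ((p ^ k : ℕ) : ℤ) * Nat.gcdB n (p ^ k) := by
    have := Nat.gcd_eq_gcd_ab n (p ^ k)
    rw [hcop] at this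
    exact_mod_cast this
  have h6 : D = Nat.gcdA n (p ^ k) • (n • D) + Nat.gcdB n (p ^ k) • ((p ^ k) • D) := by
    conv_lhs => rw [← one_zsmul D, hbez, add_smul, mul_comm (n : ℤ),
      mul_comm ((p ^ k : ℕ) : ℤ), mul_smul, mul_smul, natCast_zsmul, natCast_zsmul]
  rw [h6]
  exact AddSubgroup.add_mem _ (AddSubgroup.zsmul_mem _ hnD _) (AddSubgroup.zsmul_mem _ hk _)

/-- **The reduction package from the divisor-level package** (body of `h64_S37_of_divHom0`). -/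
theorem fi69_redPack_of_divPack (N p : ℕ) [NeZero N] (ℓ : ℕ) (hℓ : ℓ.Prime) [NeZero ℓ]
    (A : ValuationSubring Qb) (φ : GQ) (hφ : A.IsFrobeniusAt φ ℓ)
    (key : fi69_DivPack N p ℓ A) : fi69_RedPack N p ℓ hℓ A φ := by
  obtain ⟨hα, hβ, hP, hfin, hFI, hNF, G, instG, c, Fr, V, hVF, hin, hfr, hES, hinj⟩ := key
  set g := arithmeticGalois (L := Qb) (modularFunctionFieldFull N) φ with hg
  have hgc : ∀ D : Divisor Qb (modularFunctionFieldBar N), c (g • D) = Fr (c D) := hfr φ hφ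
  refine ⟨G ⧸ tv1_cprin c, inferInstance, tv1_red c, tv1_frob c Fr g hgc, ?_, ?_, ?_, ?_⟩
  · intro τ hτ x
    rw [galois_smul_pic0_def]
    exact tv1_red_smul_of_fix c _ (hin τ hτ) x
  · intro σ hσ x
    rw [galois_smul_pic0_def]
    exact tv1_red_smul_of_frob c Fr g hgc _ (hfr σ hσ) x
  · intro x
    obtain ⟨D, rfl⟩ := Pic0.mk_surjective x
    have e1 : φ • Pic0.mk D = Pic0.mk (SemilinearAut.degZeroSMulHom g D) := by
      rw [galois_smul_pic0_def]
      rfl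
    have e2 : φ • Pic0.mk (SemilinearAut.degZeroSMulHom g D)
        = Pic0.mk (SemilinearAut.degZeroSMulHom g (SemilinearAut.degZeroSMulHom g D)) := by
      rw [galois_smul_pic0_def]
      rfl
    have e3 : heckeOperatorBar N ⟨ℓ, hℓ⟩ (Pic0.mk (SemilinearAut.degZeroSMulHom g D))
        = Pic0.mk (Pic0.degZeroCorrespondence (heckeBetaBar Qb N ℓ) (heckeAlphaBar Qb N ℓ) hβ hα
            hFI (SemilinearAut.degZeroSMulHom g D)) := by
      refine (heckeOperatorBar_apply N ⟨ℓ, hℓ⟩ _).trans ?_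
      rw [heckeOperatorAlong_eq hα hβ hFI hfin hNF]
      rfl
    rw [map_add, map_sub, map_nsmul, e1, e2, e3]
    rw [tv1_red_mk, tv1_red_mk, tv1_red_mk]
    rw [← map_nsmul, ← map_sub, ← map_add]
    have hz : c ((SemilinearAut.degZeroSMulHom g (SemilinearAut.degZeroSMulHom g D) :
          Divisor.degZero (K := Qb) (F := modularFunctionFieldBar N)) : Divisor Qb _)
        - c ((Pic0.degZeroCorrespondence (heckeBetaBar Qb N ℓ) (heckeAlphaBar Qb N ℓ)
            hβ hα hFI (SemilinearAut.degZeroSMulHom g D) :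
              Divisor.degZero (K := Qb) (F := modularFunctionFieldBar N)) : Divisor Qb _)
        + ℓ • c (D : Divisor Qb _) = 0 := by
      have h1 : c ((SemilinearAut.degZeroSMulHom g (SemilinearAut.degZeroSMulHom g D) :
          Divisor.degZero (K := Qb) (F := modularFunctionFieldBar N)) : Divisor Qb _)
          = Fr (Fr (c (D : Divisor Qb _))) := by
        rw [SemilinearAut.coe_degZeroSMulHom, SemilinearAut.coe_degZeroSMulHom, hgc, hgc]
      have h2 := h64_hecke_degZero c Fr V ℓ (heckeDivBar hα hβ) hES g D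
      have h3 : c ((Pic0.degZeroCorrespondence (heckeBetaBar Qb N ℓ)
          (heckeAlphaBar Qb N ℓ) hβ hα hFI (SemilinearAut.degZeroSMulHom g D) :
            Divisor.degZero (K := Qb) (F := modularFunctionFieldBar N)) : Divisor Qb _)
          = c (heckeDivBar hα hβ (g • (D : Divisor Qb _))) := rfl
      rw [h1, h3, h2, hgc, hVF]
      abel
    rw [hz, map_zero]
  · intro x hx htors
    obtain ⟨n, hn⟩ := htors
    exact tv1_red_inj c (p ^ n) (fun D hD hc hm => hinj D hD hc ⟨n, hm⟩) x hx hn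

/-- **The reduction package, hypothesis-free.** -/
theorem fi69_redPack (N p : ℕ) [NeZero N] (ℓ : ℕ) (hℓ : ℓ.Prime) (hN : ¬ ℓ ∣ N)
    (hp : ¬ ℓ ∣ p) (A : ValuationSubring Qb) (hA : A.LiesOverPrime ℓ) (φ : GQ)
    (hφ : A.IsFrobeniusAt φ ℓ) : fi69_RedPack N p ℓ hℓ A φ := by
  haveI : NeZero ℓ := ⟨hℓ.ne_zero⟩
  exact fi69_redPack_of_divPack N p ℓ hℓ A φ hφ (fi69_key N p ℓ hℓ hN hp A hA)

/-- Torsion bookkeeping for `fi69_inertia`. -/
theorem fi69_tors_sub {J : Type*} [AddCommGroup J] (s : J →+ J) (m : ℕ) (x : J)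
    (hx : m • x = 0) : m • (s x - x) = 0 := by
  rw [smul_sub, ← map_nsmul, hx, map_zero, sub_zero]

/-- **M10 (i): inertia at `ℓ` acts trivially on `p`-power torsion of `J₀(N)`**
(`ℓ ∤ N`, `ℓ ∤ p`). -/
theorem fi69_inertia (N p : ℕ) [NeZero N] (ℓ : ℕ) (hℓ : ℓ.Prime) (hN : ¬ ℓ ∣ N)
    (hp : ¬ ℓ ∣ p) (A : ValuationSubring Qb) (hA : A.LiesOverPrime ℓ)
    (τ : GQ) (hτ : τ ∈ A.inertiaSubgroupIn ℚ) (x : JZero N) (n : ℕ) (hx : p ^ n • x = 0) :
    τ • x = x := by
  obtain ⟨φ, hφD, hφx⟩ := h14_exists_isFrobeniusAt ℓ hℓ A hA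
  obtain ⟨P, _, red, Fr, h1, -, -, h4⟩ := fi69_redPack N p ℓ hℓ hN hp A hA φ ⟨hφD, hφx⟩
  have h0 : τ • x - x = 0 := by
    refine h4 (τ • x - x) ?_ ⟨n, fi69_tors_sub (DistribSMul.toAddMonoidHom (JZero N) τ) (p ^ n) x hx⟩
    rw [map_sub, h1 τ hτ x, sub_self]
  exact sub_eq_zero.mp h0

/-- Torsion bookkeeping for `fi69_frob`. -/
theorem fi69_tors_aux {J : Type*} [AddCommGroup J] (s T : J →+ J) (ℓ m : ℕ) (x : J)
    (hx : m • x = 0) : m • (s (s x) - T (s x) + ℓ • x) = 0 := by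
  rw [smul_add, smul_sub, ← map_nsmul, ← map_nsmul, ← map_nsmul, ← map_nsmul, hx, smul_comm, hx]
  simp

/-- **M10 (ii): the Eichler-Shimura relation on `p`-power torsion of `J₀(N)`, operator level**:
`σ² x - T_ℓ (σ x) + ℓ x = 0` for every Frobenius element `σ` at a place over `ℓ`
(`ℓ ∤ N`, `ℓ ∤ p`). -/
theorem fi69_frob (N p : ℕ) [NeZero N] (ℓ : ℕ) (hℓ : ℓ.Prime) (hN : ¬ ℓ ∣ N)
    (hp : ¬ ℓ ∣ p) (A : ValuationSubring Qb) (hA : A.LiesOverPrime ℓ)
    (σ : GQ) (hσ : A.IsFrobeniusAt σ ℓ) (x : JZero N) (n : ℕ) (hx : p ^ n • x = 0) :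
    σ • σ • x - heckeOperatorBar N ⟨ℓ, hℓ⟩ (σ • x) + ℓ • x = 0 := by
  obtain ⟨P, _, red, Fr, -, -, h3, h4⟩ := fi69_redPack N p ℓ hℓ hN hp A hA σ hσ
  exact h4 _ (h3 x) ⟨n, fi69_tors_aux (DistribSMul.toAddMonoidHom (JZero N) σ)
    (heckeOperatorBar N ⟨ℓ, hℓ⟩).toAddMonoidHom ℓ (p ^ n) x hx⟩

end Fermat.Agent.S42
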