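/-
S42 / M11 input (helper37): every element of `Gal(ℚ̄/ℚ)` acts on a finite set of algebraic
numbers (equivalently on a number field inside `ℚ̄`) as a power of a GENUINE Frobenius element,
i.e. an element `τ` with the Prelude property `A.IsFrobeniusAt τ ℓ` for a valuation subring `A`
of `ℚ̄` over a prime `ℓ` outside a prescribed finite set.

`fb24_frob_exists` (S41) gives `τ₀` with `τ₀ x ≡ x ^ ℓ` only on `A ∩ K₀` for a subfield `K₀`, and
`h14_exists_isFrobeniusAt` (S37) gives a genuine Frobenius `τ` at the same `A`.  The two agree on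
a Galois-stable finite set `s'` as soon as `ℓ` does not divide a certain integer `n ≠ 0`
(all elements of `s'` and all differences of distinct elements of `s'` are units of `A`):
`τ₀ x ≡ x ^ ℓ ≡ τ x` and `τ₀ x, τ x ∈ s'` force `τ₀ x = τ x`.

* `fp37_frob_pow`       : the statement on `IntermediateField.adjoin ℚ s`, `s` a finite set;
* `fp37_frob_pow_field` : the statement on a finite-dimensional intermediate field.
-/
import Mathlib
import Fermat.Agent.S41.FrobBridgeMain24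
import Fermat.Agent.S41.FrobAt24
import Fermat.Agent.S37.FrobEvery14

set_option autoImplicit false

open Polynomial

namespace Fermat.Agent.S42

local notation "Qb" => AlgebraicClosure ℚ
local notation "GQ" => AlgebraicClosure ℚ ≃ₐ[ℚ] AlgebraicClosure ℚ

/-- Integral elements (for the canonical `ℤ`-algebra structure of `ℚ̄`) lie in every valuation
subring. -/
theorem fp37_mem_of_isIntegral (A : ValuationSubring Qb) {x : Qb}
    (hx : @IsIntegral ℤ Qb _ _ (Ring.toIntAlgebra Qb) x) : x ∈ A :=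
  Fermat.Agent.S37.h14_mem_valuationSubring_of_isIntegral A hx

/-- Every element of `ℚ̄` is algebraic over `ℤ` (canonical `ℤ`-algebra structure). -/
theorem fp37_isAlgebraic_int (x : Qb) : @IsAlgebraic ℤ Qb _ _ (Ring.toIntAlgebra Qb) x := by
  let _ : Algebra ℤ Qb := Ring.toIntAlgebra Qb
  have h : IsAlgebraic ℚ x := (AlgebraicClosure.isAlgebraic ℚ).isAlgebraic x
  exact (IsFractionRing.isAlgebraic_iff ℤ ℚ Qb).mpr h

/-- A nonzero integer prime to `ℓ` is a unit in every valuation subring over `ℓ`. -/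
theorem fp37_int_unit (A : ValuationSubring Qb) (ℓ : ℕ) (hℓ : ℓ.Prime) (hA : A.LiesOverPrime ℓ)
    (d : ℤ) (hd : ¬ (ℓ : ℤ) ∣ d) : A.valuation (d : Qb) = 1 := by
  have hle : ∀ k : ℤ, A.valuation (k : Qb) ≤ 1 := fun k =>
    (ValuationSubring.valuation_le_one_iff A _).mpr
      (fp37_mem_of_isIntegral A
        (by
          have h := @isIntegral_algebraMap ℤ Qb _ _ (Ring.toIntAlgebra Qb) k
          rwa [eq_intCast] at h))
  refine le_antisymm (hle d) (not_lt.mp fun hlt => ?_)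
  have hcop : IsCoprime (ℓ : ℤ) d :=
    (Prime.coprime_iff_not_dvd (Nat.prime_iff_prime_int.mp hℓ)).mpr hd
  obtain ⟨a, b, hab⟩ := hcop
  have hℓlt : A.valuation ((ℓ : ℤ) : Qb) < 1 := by
    have : ((ℓ : ℤ) : Qb) = (ℓ : Qb) := by push_cast; rfl
    rw [this]
    exact (ValuationSubring.mem_nonunits_iff A).mp hA
  have h1 : A.valuation ((a : Qb) * ((ℓ : ℤ) : Qb)) < 1 := by
    rw [map_mul]
    calc A.valuation (a : Qb) * A.valuation ((ℓ : ℤ) : Qb)
        ≤ 1 * A.valuation ((ℓ : ℤ) : Qb) := by gcongr; exact hle a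
      _ < 1 := by rw [one_mul]; exact hℓlt
  have h2 : A.valuation ((b : Qb) * (d : Qb)) < 1 := by
    rw [map_mul]
    calc A.valuation (b : Qb) * A.valuation (d : Qb)
        ≤ 1 * A.valuation (d : Qb) := by gcongr; exact hle b
      _ < 1 := by rw [one_mul]; exact hlt
  have h3 : A.valuation ((a : Qb) * ((ℓ : ℤ) : Qb) + (b : Qb) * (d : Qb)) < 1 :=
    Valuation.map_add_lt _ h1 h2
  have h4 : (a : Qb) * ((ℓ : ℤ) : Qb) + (b : Qb) * (d : Qb) = 1 := by
    have := congrArg (fun z : ℤ => (z : Qb)) hab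
    simpa using this
  rw [h4, map_one] at h3
  exact lt_irrefl _ h3

/-- A nonzero algebraic number is a unit at all valuation subrings over all primes outside a
finite set (the prime divisors of a nonzero integer). -/
theorem fp37_unit_away (w : Qb) (hw : w ≠ 0) :
    ∃ m : ℕ, m ≠ 0 ∧ ∀ (ℓ : ℕ) (A : ValuationSubring Qb), ℓ.Prime → A.LiesOverPrime ℓ →
      ¬ ℓ ∣ m → A.valuation w = 1 := by
  let _ : Algebra ℤ Qb := Ring.toIntAlgebra Qb
  obtain ⟨d₁, hd₁, hi₁⟩ := (fp37_isAlgebraic_int w).exists_integral_multiple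
  obtain ⟨d₂, hd₂, hi₂⟩ := (fp37_isAlgebraic_int w⁻¹).exists_integral_multiple
  refine ⟨d₁.natAbs * d₂.natAbs, Nat.mul_ne_zero (Int.natAbs_ne_zero.mpr hd₁)
    (Int.natAbs_ne_zero.mpr hd₂), fun ℓ A hℓ hA hndvd => ?_⟩
  have hnd₁ : ¬ (ℓ : ℤ) ∣ d₁ := fun h =>
    hndvd (Dvd.dvd.mul_right (Int.natCast_dvd.mp h) _)
  have hnd₂ : ¬ (ℓ : ℤ) ∣ d₂ := fun h =>
    hndvd (Dvd.dvd.mul_left (Int.natCast_dvd.mp h) _)
  have hv₁ := fp37_int_unit A ℓ hℓ hA d₁ hnd₁
  have hv₂ := fp37_int_unit A ℓ hℓ hA d₂ hnd₂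
  have hm₁ : A.valuation (d₁ • w) ≤ 1 :=
    (ValuationSubring.valuation_le_one_iff A _).mpr (fp37_mem_of_isIntegral A hi₁)
  have hm₂ : A.valuation (d₂ • w⁻¹) ≤ 1 :=
    (ValuationSubring.valuation_le_one_iff A _).mpr (fp37_mem_of_isIntegral A hi₂)
  rw [zsmul_eq_mul, map_mul, hv₁, one_mul] at hm₁
  rw [zsmul_eq_mul, map_mul, hv₂, one_mul, map_inv₀] at hm₂
  refine le_antisymm hm₁ ?_
  have hne : A.valuation w ≠ 0 := (Valuation.ne_zero_iff _).mpr hw
  by_contra hlt
  rw [not_le] at hlt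
  have h5 : 1 < (A.valuation w)⁻¹ := (one_lt_inv₀ (zero_lt_iff.mpr hne)).mpr hlt
  exact absurd hm₂ (not_le.mpr h5)

open Classical in
/-- The (finite, Galois-stable) set of conjugates of an algebraic number. -/
noncomputable def fp37_conj (a : Qb) : Finset Qb := ((minpoly ℚ a).aroots Qb).toFinset

theorem fp37_self_mem_conj (a : Qb) : a ∈ fp37_conj a := by
  classical
  rw [fp37_conj, Multiset.mem_toFinset, mem_aroots]
  exact ⟨minpoly.ne_zero ((AlgebraicClosure.isAlgebraic ℚ).isAlgebraic a).isIntegral,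
    minpoly.aeval ℚ a⟩

theorem fp37_conj_stable (a : Qb) (σ : GQ) {x : Qb} (hx : x ∈ fp37_conj a) :
    σ x ∈ fp37_conj a := by
  classical
  rw [fp37_conj, Multiset.mem_toFinset, mem_aroots] at hx ⊢
  refine ⟨hx.1, ?_⟩
  rw [aeval_algHom_apply, hx.2, map_zero]

open Classical in
/-- The bad-prime bound attached to an algebraic number (`1` for `0`). -/
noncomputable def fp37_bound (w : Qb) : ℕ :=
  if hw : w = 0 then 1 else (fp37_unit_away w hw).choose

theorem fp37_bound_ne_zero (w : Qb) : fp37_bound w ≠ 0 := by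
  unfold fp37_bound
  split_ifs with hw
  · exact one_ne_zero
  · exact (fp37_unit_away w hw).choose_spec.1

theorem fp37_bound_spec (w : Qb) (hw : w ≠ 0) (ℓ : ℕ) (A : ValuationSubring Qb) (hℓ : ℓ.Prime)
    (hA : A.LiesOverPrime ℓ) (hnd : ¬ ℓ ∣ fp37_bound w) : A.valuation w = 1 := by
  unfold fp37_bound at hnd
  rw [dif_neg hw] at hnd
  exact (fp37_unit_away w hw).choose_spec.2 ℓ A hℓ hA hnd

/-- **Every Galois element is a power of a genuine Frobenius on a finite set.**  For a finite set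
`s ⊆ ℚ̄`, `g ∈ Gal(ℚ̄/ℚ)` and a finite set `S` of primes there are a prime `ℓ ∉ S`, a valuation
subring `A` of `ℚ̄` over `ℓ`, `τ` with `A.IsFrobeniusAt τ ℓ` and `j` with `g = τ ^ j` on the field
generated by `s`. -/
theorem fp37_frob_pow (s : Finset Qb) (g : GQ) (S : Finset ℕ) :
    ∃ (ℓ : ℕ) (A : ValuationSubring Qb) (τ : GQ) (j : ℕ),
      ℓ.Prime ∧ ℓ ∉ S ∧ A.LiesOverPrime ℓ ∧ A.IsFrobeniusAt τ ℓ ∧
      ∀ x ∈ IntermediateField.adjoin ℚ (s : Set Qb), g x = (τ ^ j) x := by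
  classical
  -- the Galois-stable set of conjugates
  set s' : Finset Qb := s.biUnion fp37_conj with hs'
  have hss' : ∀ x ∈ s, x ∈ s' := fun x hx =>
    Finset.mem_biUnion.mpr ⟨x, hx, fp37_self_mem_conj x⟩
  have hstab : ∀ (σ : GQ) (x : Qb), x ∈ s' → σ x ∈ s' := by
    intro σ x hx
    obtain ⟨a, ha, hxa⟩ := Finset.mem_biUnion.mp hx
    exact Finset.mem_biUnion.mpr ⟨a, ha, fp37_conj_stable a σ hxa⟩
  -- the bad primes
  set T : Finset Qb := s' ∪ (s' ×ˢ s').image (fun q : Qb × Qb => q.1 - q.2) with hT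
  set n : ℕ := ∏ w ∈ T, fp37_bound w with hn
  have hn0 : n ≠ 0 := Finset.prod_ne_zero_iff.mpr fun w _ => fp37_bound_ne_zero w
  obtain ⟨ℓ, A, τ₀, K₀, hℓ, hℓS, -, hA, hsK, hfrob₀, j, hj⟩ :=
    Fermat.Agent.S41.fb24_frob_exists s' 1 one_pos g
      (fun ζ hζ => by rw [pow_one] at hζ; rw [hζ, map_one]) (S ∪ n.primeFactors)
  have hℓS' : ℓ ∉ S := fun h => hℓS (Finset.mem_union_left _ h)
  have hℓn : ¬ ℓ ∣ n := fun h =>
    hℓS (Finset.mem_union_right _ (Nat.mem_primeFactors.mpr ⟨hℓ, h, hn0⟩))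
  have hunit : ∀ w ∈ T, w ≠ 0 → A.valuation w = 1 := fun w hw hw0 =>
    fp37_bound_spec w hw0 ℓ A hℓ hA fun h => hℓn (h.trans (Finset.dvd_prod_of_mem _ hw))
  have hmemA : ∀ x ∈ s', x ∈ A := by
    intro x hx
    by_cases hx0 : x = 0
    · rw [hx0]; exact A.zero_mem
    · exact (ValuationSubring.valuation_le_one_iff A x).mp
        (hunit x (Finset.mem_union_left _ hx) hx0).le
  have hsep : ∀ x ∈ s', ∀ y ∈ s', x - y ∈ A.nonunits → x = y := by
    intro x hx y hy hxy
    by_contra hne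
    have h1 := hunit (x - y) (Finset.mem_union_right _
      (Finset.mem_image.mpr ⟨(x, y), Finset.mem_product.mpr ⟨hx, hy⟩, rfl⟩)) (sub_ne_zero.mpr hne)
    have h2 : A.valuation (x - y) < 1 := (ValuationSubring.mem_nonunits_iff A).mp hxy
    rw [h1] at h2
    exact lt_irrefl _ h2
  -- a genuine Frobenius at `A`
  obtain ⟨τ, hτ⟩ := Fermat.Agent.S37.h14_exists_isFrobeniusAt ℓ hℓ A hA
  have hfrob := Fermat.Agent.S41.fb24_frob_of_isFrobeniusAt A τ ℓ hτ
  -- the two Frobenius elements agree on `s'`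
  have hagree : ∀ x ∈ s', τ₀ x = τ x := by
    intro x hx
    apply hsep _ (hstab τ₀ x hx) _ (hstab τ x hx)
    have h1 : A.valuation (τ₀ x - x ^ ℓ) < 1 :=
      (ValuationSubring.mem_nonunits_iff A).mp (hfrob₀ x (hsK x hx) (hmemA x hx))
    have h2 : A.valuation (τ x - x ^ ℓ) < 1 :=
      (ValuationSubring.mem_nonunits_iff A).mp (hfrob x (hmemA x hx))
    rw [ValuationSubring.mem_nonunits_iff]
    have h3 : τ₀ x - τ x = (τ₀ x - x ^ ℓ) - (τ x - x ^ ℓ) := by ring
    rw [h3]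
    exact Valuation.map_sub_lt _ h1 h2
  have hpow : ∀ (k : ℕ), ∀ x ∈ s', (τ₀ ^ k) x = (τ ^ k) x := by
    intro k
    induction k with
    | zero => intro x _; rfl
    | succ k ih =>
      intro x hx
      rw [pow_succ', pow_succ', AlgEquiv.mul_apply, AlgEquiv.mul_apply, ih x hx]
      have hmem : (τ ^ k) x ∈ s' := hstab (τ ^ k) x hx
      exact hagree _ hmem
  refine ⟨ℓ, A, τ, j, hℓ, hℓS', hA, hτ, ?_⟩
  -- from `s` to the field generated by `s`
  have hs_eq : ∀ x ∈ s, g x = (τ ^ j) x := fun x hx => by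
    rw [hj x (hsK x (hss' x hx)), hpow j x (hss' x hx)]
  have hle : IntermediateField.adjoin ℚ (s : Set Qb) ≤
      IntermediateField.fixedField (Subgroup.zpowers ((τ ^ j)⁻¹ * g)) := by
    rw [IntermediateField.adjoin_le_iff]
    intro x hx
    rw [SetLike.mem_coe, IntermediateField.mem_fixedField_iff]
    have hfix : ((τ ^ j)⁻¹ * g) x = x := by
      rw [AlgEquiv.mul_apply, hs_eq x hx]
      exact (τ ^ j).symm_apply_apply x
    intro f hf
    obtain ⟨k, rfl⟩ := Subgroup.mem_zpowers_iff.mp hf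
    have hstabz : (τ ^ j)⁻¹ * g ∈ MulAction.stabilizer GQ x :=
      MulAction.mem_stabilizer_iff.mpr hfix
    exact MulAction.mem_stabilizer_iff.mp (Subgroup.zpow_mem _ hstabz k)
  intro x hx
  have h1 := (IntermediateField.mem_fixedField_iff _ x).mp (hle hx) _
    (Subgroup.mem_zpowers ((τ ^ j)⁻¹ * g))
  rw [AlgEquiv.mul_apply] at h1
  have h2 := congrArg (τ ^ j) h1
  rw [← h2]
  exact ((τ ^ j).apply_symm_apply (g x)).symm

/-- `fp37_frob_pow` on a finite-dimensional intermediate field. -/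
theorem fp37_frob_pow_field (F : IntermediateField ℚ Qb) [FiniteDimensional ℚ F] (g : GQ)
    (S : Finset ℕ) :
    ∃ (ℓ : ℕ) (A : ValuationSubring Qb) (τ : GQ) (j : ℕ),
      ℓ.Prime ∧ ℓ ∉ S ∧ A.LiesOverPrime ℓ ∧ A.IsFrobeniusAt τ ℓ ∧
      ∀ x ∈ F, g x = (τ ^ j) x := by
  classical
  set b := Module.finBasis ℚ F with hb
  set s : Finset Qb := Finset.univ.image (fun i => ((b i : F) : Qb)) with hs
  obtain ⟨ℓ, A, τ, j, h1, h2, h3, h4, h5⟩ := fp37_frob_pow s g S
  refine ⟨ℓ, A, τ, j, h1, h2, h3, h4, fun x hx => h5 x ?_⟩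
  set c := b.repr ⟨x, hx⟩ with hc
  have hx' : ∑ i, c i • b i = ⟨x, hx⟩ := b.sum_repr ⟨x, hx⟩
  have hx'' : x = ∑ i, c i • ((b i : F) : Qb) := by
    have h6 := congrArg (fun y : F => (y : Qb)) hx'
    simp only [IntermediateField.coe_sum, IntermediateField.coe_smul] at h6
    exact h6.symm
  rw [hx'']
  refine sum_mem fun i _ => ?_
  refine IntermediateField.smul_mem _ ?_
  exact IntermediateField.subset_adjoin ℚ _
    (Finset.mem_coe.mpr (Finset.mem_image.mpr ⟨i, Finset.mem_univ i, rfl⟩))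

end Fermat.Agent.S42
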