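import Fermat.Agent.S37.HeckeInputs63
import Fermat.Agent.S24.PlacesBasicCore

/-!
# S42, row M10 (iv) (helper25): stabilisers in `Gal(ℚ̄/ℚ)` are open

Every function, place, divisor and divisor class of `ℚ̄ · F₀` (in particular every class in
`JZero N = Pic⁰(ℚ̄ · F_N)`) is fixed by every `σ ∈ Gal(ℚ̄/ℚ)` that fixes a suitable FINITE set
of algebraic numbers, i.e. by the fixing subgroup of a NUMBER FIELD `E ⊆ ℚ̄`, for the arithmetic
(coefficientwise) Galois action of the Prelude.

* `os25_Open p` : the property `p σ` holds for every `σ` fixing some finite subset of `ℚ̄`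
  pointwise; `os25_Open.mono`, `os25_Open.and`, `os25_Open.of_forall`, `os25_Open.finset`,
  `os25_Open.exists_field`, `os25_Open.exists_galois` (number field / finite Galois extension
  forms);
* `os25_open_const`, `os25_open_series`, `os25_open_fun`, `os25_open_place`,
  `os25_open_divisor`, `os25_open_pic0` : constants, Laurent series in `ℚ̄ · F₀`, functions,
  places, divisors, classes;
* `os25_open_stab_set`, `os25_open_stab_finset_set` : one class / finitely many classes of
  `JZero N` are fixed by every `σ` fixing a finite subset of `ℚ̄`;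
* `os25_open_stab`, `os25_open_stab_finset`, `os25_open_stab_galois` : the same with a number
  field (one class; finitely many classes; a finite GALOIS extension of `ℚ`);
* `os25_finite_orbit` : Galois orbits in `JZero N` are finite.
-/

set_option autoImplicit false
set_option linter.style.haveILetI false
set_option linter.unusedSectionVars false

open ModularCurve AlgebraicCurve IntermediateField

namespace Fermat.Agent.S42

open Fermat.Agent.S24 Fermat.Agent.S37

/-- The property `p` of `σ ∈ Gal(ℚ̄/ℚ)` holds on an open subgroup: for every `σ` that fixes a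
suitable finite set of algebraic numbers pointwise. -/
def os25_Open (p : (AlgebraicClosure ℚ ≃ₐ[ℚ] AlgebraicClosure ℚ) → Prop) : Prop :=
  ∃ s : Finset (AlgebraicClosure ℚ),
    ∀ σ : AlgebraicClosure ℚ ≃ₐ[ℚ] AlgebraicClosure ℚ, (∀ a ∈ s, σ a = a) → p σ

section os25_basic

variable {p q : (AlgebraicClosure ℚ ≃ₐ[ℚ] AlgebraicClosure ℚ) → Prop}

theorem os25_Open.mono (hp : os25_Open p) (h : ∀ σ, p σ → q σ) : os25_Open q := by
  obtain ⟨s, hp⟩ := hp
  exact ⟨s, fun σ hσ => h σ (hp σ hσ)⟩

theorem os25_Open.and (hp : os25_Open p) (hq : os25_Open q) :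
    os25_Open (fun σ => p σ ∧ q σ) := by
  classical
  obtain ⟨s₁, h₁⟩ := hp
  obtain ⟨s₂, h₂⟩ := hq
  refine ⟨s₁ ∪ s₂, fun σ hσ => ⟨?_, ?_⟩⟩
  · exact h₁ σ fun a ha => hσ a (Finset.mem_union_left _ ha)
  · exact h₂ σ fun a ha => hσ a (Finset.mem_union_right _ ha)

theorem os25_Open.of_forall (h : ∀ σ, p σ) : os25_Open p :=
  ⟨∅, fun σ _ => h σ⟩

theorem os25_Open.finset {ι : Type*} (s : Finset ι)
    {P : ι → (AlgebraicClosure ℚ ≃ₐ[ℚ] AlgebraicClosure ℚ) → Prop}
    (h : ∀ i ∈ s, os25_Open (P i)) : os25_Open (fun σ => ∀ i ∈ s, P i σ) := by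
  classical
  induction s using Finset.induction_on with
  | empty => exact os25_Open.of_forall (by simp)
  | insert a s ha ih =>
    refine ((h a (Finset.mem_insert_self a s)).and
      (ih fun i hi => h i (Finset.mem_insert_of_mem hi))).mono ?_
    rintro σ ⟨h1, h2⟩ i hi
    rcases Finset.mem_insert.mp hi with rfl | hi
    · exact h1
    · exact h2 i hi

/-- Number field form of `os25_Open`. -/
theorem os25_Open.exists_field (hp : os25_Open p) :
    ∃ E : IntermediateField ℚ (AlgebraicClosure ℚ), FiniteDimensional ℚ E ∧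
      ∀ σ : AlgebraicClosure ℚ ≃ₐ[ℚ] AlgebraicClosure ℚ, (∀ a ∈ E, σ a = a) → p σ := by
  obtain ⟨s, hs⟩ := hp
  have halg : Algebra.IsAlgebraic ℚ (AlgebraicClosure ℚ) := AlgebraicClosure.isAlgebraic ℚ
  refine ⟨IntermediateField.adjoin ℚ (s : Set (AlgebraicClosure ℚ)),
    IntermediateField.finiteDimensional_adjoin fun x _ => (halg.isAlgebraic x).isIntegral,
    fun σ hσ => hs σ fun a ha => hσ a (IntermediateField.subset_adjoin ℚ _ ha)⟩

/-- Finite Galois extension form of `os25_Open`. -/
theorem os25_Open.exists_galois (hp : os25_Open p) :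
    ∃ E : IntermediateField ℚ (AlgebraicClosure ℚ), FiniteDimensional ℚ E ∧ IsGalois ℚ E ∧
      ∀ σ : AlgebraicClosure ℚ ≃ₐ[ℚ] AlgebraicClosure ℚ, (∀ a ∈ E, σ a = a) → p σ := by
  obtain ⟨E, hE, h⟩ := hp.exists_field
  haveI := hE
  have halg : Algebra.IsAlgebraic ℚ (AlgebraicClosure ℚ) := AlgebraicClosure.isAlgebraic ℚ
  haveI : IsAlgClosure ℚ (AlgebraicClosure ℚ) := ⟨inferInstance, halg⟩
  haveI : Normal ℚ (AlgebraicClosure ℚ) := IsAlgClosure.normal ℚ (AlgebraicClosure ℚ)
  have hfd : FiniteDimensional ℚ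
      ↥(IntermediateField.normalClosure ℚ E (AlgebraicClosure ℚ)) :=
    normalClosure.is_finiteDimensional ℚ E (AlgebraicClosure ℚ)
  have hnorm : Normal ℚ ↥(IntermediateField.normalClosure ℚ E (AlgebraicClosure ℚ)) :=
    normalClosure.normal ℚ E (AlgebraicClosure ℚ)
  have hsep : Algebra.IsSeparable ℚ
      ↥(IntermediateField.normalClosure ℚ E (AlgebraicClosure ℚ)) :=
    ⟨fun x => (minpoly.irreducible (hnorm.isIntegral x)).separable⟩
  exact ⟨IntermediateField.normalClosure ℚ E (AlgebraicClosure ℚ), hfd,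
    ⟨⟩, fun σ hσ => h σ fun a ha => hσ a (E.le_normalClosure ha)⟩

/-- Every algebraic number is fixed by an open subgroup. -/
theorem os25_open_const (a : AlgebraicClosure ℚ) : os25_Open (fun σ => σ a = a) :=
  ⟨{a}, fun _ hσ => hσ a (Finset.mem_singleton_self a)⟩

end os25_basic

section os25_field

variable (F₀ : IntermediateField ℚ (LaurentSeries ℚ))

/-- Every Laurent series in `ℚ̄ · F₀` is fixed (coefficientwise) by an open subgroup. -/
theorem os25_open_series {x : LaurentSeries (AlgebraicClosure ℚ)}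
    (hx : x ∈ laurentBaseChange (AlgebraicClosure ℚ) F₀) :
    os25_Open (fun σ => coeffMap (σ : AlgebraicClosure ℚ →+* AlgebraicClosure ℚ) x = x) := by
  rw [mem_laurentBaseChange_iff] at hx
  induction hx using Subfield.closure_induction with
  | mem y hy =>
      rcases hy with ⟨a, rfl⟩ | ⟨z, hz, rfl⟩
      · refine (os25_open_const a).mono fun σ hσ => ?_
        rw [coeffMap_algebraMap]
        exact congrArg _ hσ
      · exact os25_Open.of_forall fun σ => coeffMap_coeffEmb σ z
  | one => exact os25_Open.of_forall fun σ => map_one _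
  | add x y _ _ hx hy => exact (hx.and hy).mono fun σ h => by rw [map_add, h.1, h.2]
  | neg x _ hx => exact hx.mono fun σ h => by rw [map_neg, h]
  | inv x _ hx => exact hx.mono fun σ h => by rw [map_inv₀, h]
  | mul x y _ _ hx hy => exact (hx.and hy).mono fun σ h => by rw [map_mul, h.1, h.2]

/-- Every function of `ℚ̄ · F₀` is fixed by an open subgroup. -/
theorem os25_open_fun (f : ↥(laurentBaseChange (AlgebraicClosure ℚ) F₀)) :
    os25_Open (fun σ => arithmeticGalois F₀ σ • f = f) :=
  (os25_open_series F₀ f.2).mono fun σ h => Subtype.ext (by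
    rw [coe_arithmeticGalois_smul]
    exact h)

variable [HasPrincipalDivisors (AlgebraicClosure ℚ)
  ↥(laurentBaseChange (AlgebraicClosure ℚ) F₀)]

/-- Every place of `ℚ̄ · F₀` is fixed by an open subgroup. -/
theorem os25_open_place
    (P : Place (AlgebraicClosure ℚ) ↥(laurentBaseChange (AlgebraicClosure ℚ) F₀)) :
    os25_Open (fun σ => arithmeticGalois F₀ σ • P = P) := by
  classical
  obtain ⟨f, hf⟩ : ∃ f : ↥(laurentBaseChange (AlgebraicClosure ℚ) F₀), P.ord f ≠ 0 := by
    by_contra hcon
    push Not at hcon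
    apply P.ne_top'
    refine SetLike.ext fun x => ⟨fun _ => ValuationSubring.mem_top x, fun _ => ?_⟩
    rw [wp1_mem_iff_ord_nonneg, hcon x]
  have hf0 : f ≠ 0 := by
    rintro rfl
    exact hf (by simp)
  obtain ⟨D, hD, -⟩ := HasPrincipalDivisors.exists_divisor (K := AlgebraicClosure ℚ) f hf0
  have hsep : ∀ Q : Place (AlgebraicClosure ℚ) ↥(laurentBaseChange (AlgebraicClosure ℚ) F₀),
      Q ≠ P → ∃ z : ↥(laurentBaseChange (AlgebraicClosure ℚ) F₀), Q.ord z ≠ P.ord z := by
    intro Q hQ
    by_contra hcon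
    push Not at hcon
    apply hQ
    apply Place.ext
    ext x
    rw [wp1_mem_iff_ord_nonneg, wp1_mem_iff_ord_nonneg, hcon x]
  choose! z hz using hsep
  have h1 : os25_Open (fun σ => arithmeticGalois F₀ σ • f = f) := os25_open_fun F₀ f
  have h2 : os25_Open (fun σ => ∀ Q ∈ D.support, arithmeticGalois F₀ σ • z Q = z Q) :=
    os25_Open.finset D.support fun Q _ => os25_open_fun F₀ (z Q)
  refine (h1.and h2).mono ?_
  rintro σ ⟨hσf, hσz⟩
  have hmem : arithmeticGalois F₀ σ • P ∈ D.support := by
    rw [Finsupp.mem_support_iff, hD]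
    have h := SemilinearAut.ord_smul (arithmeticGalois F₀ σ) P f
    rw [hσf] at h
    rw [h]
    exact hf
  by_contra hne
  apply hz (arithmeticGalois F₀ σ • P) hne
  have h := SemilinearAut.ord_smul (arithmeticGalois F₀ σ) P (z (arithmeticGalois F₀ σ • P))
  rw [hσz _ hmem] at h
  exact h

/-- Every divisor of `ℚ̄ · F₀` is fixed by an open subgroup. -/
theorem os25_open_divisor
    (D : Divisor (AlgebraicClosure ℚ) ↥(laurentBaseChange (AlgebraicClosure ℚ) F₀)) :
    os25_Open (fun σ => arithmeticGalois F₀ σ • D = D) := by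
  induction D using Finsupp.induction with
  | zero => exact os25_Open.of_forall fun σ => smul_zero _
  | single_add v n D _ _ ih =>
    refine ((os25_open_place F₀ v).and ih).mono fun σ h => ?_
    rw [smul_add, SemilinearAut.smul_single, h.1, h.2]

/-- Every class in `Pic⁰(ℚ̄ · F₀)` is fixed by an open subgroup. -/
theorem os25_open_pic0
    (x : Pic0 (AlgebraicClosure ℚ) ↥(laurentBaseChange (AlgebraicClosure ℚ) F₀)) :
    os25_Open (fun σ => σ • x = x) := by
  obtain ⟨D, rfl⟩ := Pic0.mk_surjective x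
  refine (os25_open_divisor F₀ (D : Divisor (AlgebraicClosure ℚ)
    ↥(laurentBaseChange (AlgebraicClosure ℚ) F₀))).mono fun σ h => ?_
  rw [galois_smul_pic0_def, SemilinearAut.pic0_smul_mk]
  exact congrArg Pic0.mk (Subtype.ext (by
    rw [SemilinearAut.coe_degZeroSMulHom]
    exact h))

end os25_field

section os25_modular

variable (N : ℕ) [NeZero N]

/-- **Open stabilisers on `J₀(N)(ℚ̄)`, finite-set form**: every class is fixed by every `σ`
that fixes a suitable finite set of algebraic numbers. -/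
theorem os25_open_stab_set (x : JZero N) :
    ∃ s : Finset (AlgebraicClosure ℚ),
      ∀ σ : AlgebraicClosure ℚ ≃ₐ[ℚ] AlgebraicClosure ℚ, (∀ a ∈ s, σ a = a) → σ • x = x := by
  haveI := hi63_hasPrincipalDivisors_bar N
  exact os25_open_pic0 (modularFunctionFieldFull N) x

/-- Finitely many classes are fixed by every `σ` that fixes a suitable finite set of algebraic
numbers. -/
theorem os25_open_stab_finset_set (t : Finset (JZero N)) :
    ∃ s : Finset (AlgebraicClosure ℚ),
      ∀ σ : AlgebraicClosure ℚ ≃ₐ[ℚ] AlgebraicClosure ℚ, (∀ a ∈ s, σ a = a) →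
        ∀ x ∈ t, σ • x = x :=
  os25_Open.finset t fun x _ => os25_open_stab_set N x

/-- **Open stabilisers on `J₀(N)(ℚ̄)`**: every class is fixed by the fixing subgroup of a number
field. -/
theorem os25_open_stab (x : JZero N) :
    ∃ F : IntermediateField ℚ (AlgebraicClosure ℚ), FiniteDimensional ℚ F ∧
      ∀ σ : AlgebraicClosure ℚ ≃ₐ[ℚ] AlgebraicClosure ℚ, (∀ a ∈ F, σ a = a) → σ • x = x :=
  os25_Open.exists_field (os25_open_stab_set N x)

/-- Finitely many classes are fixed by the fixing subgroup of one number field. -/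
theorem os25_open_stab_finset (t : Finset (JZero N)) :
    ∃ F : IntermediateField ℚ (AlgebraicClosure ℚ), FiniteDimensional ℚ F ∧
      ∀ σ : AlgebraicClosure ℚ ≃ₐ[ℚ] AlgebraicClosure ℚ, (∀ a ∈ F, σ a = a) →
        ∀ x ∈ t, σ • x = x :=
  os25_Open.exists_field (os25_open_stab_finset_set N t)

/-- Finitely many classes are fixed by the fixing subgroup of one finite GALOIS extension of
`ℚ` inside `ℚ̄`. -/
theorem os25_open_stab_galois (t : Finset (JZero N)) :
    ∃ F : IntermediateField ℚ (AlgebraicClosure ℚ), FiniteDimensional ℚ F ∧ IsGalois ℚ F ∧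
      ∀ σ : AlgebraicClosure ℚ ≃ₐ[ℚ] AlgebraicClosure ℚ, (∀ a ∈ F, σ a = a) →
        ∀ x ∈ t, σ • x = x :=
  os25_Open.exists_galois (os25_open_stab_finset_set N t)

/-- Galois orbits in `J₀(N)(ℚ̄)` are finite. -/
theorem os25_finite_orbit (x : JZero N) :
    (Set.range fun σ : AlgebraicClosure ℚ ≃ₐ[ℚ] AlgebraicClosure ℚ => σ • x).Finite := by
  classical
  obtain ⟨E, hE, h⟩ := os25_open_stab N x
  haveI := hE
  let r : (AlgebraicClosure ℚ ≃ₐ[ℚ] AlgebraicClosure ℚ) → (E →ₐ[ℚ] AlgebraicClosure ℚ) :=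
    fun σ => (σ : AlgebraicClosure ℚ →ₐ[ℚ] AlgebraicClosure ℚ).comp E.val
  let φ : (E →ₐ[ℚ] AlgebraicClosure ℚ) → JZero N := fun e =>
    if he : ∃ σ, r σ = e then he.choose • x else x
  refine (Set.finite_range φ).subset ?_
  rintro _ ⟨σ, rfl⟩
  refine ⟨r σ, ?_⟩
  have he : ∃ τ, r τ = r σ := ⟨σ, rfl⟩
  show (if he : ∃ τ, r τ = r σ then he.choose • x else x) = σ • x
  rw [dif_pos he]
  have hτ : r he.choose = r σ := he.choose_spec
  have hfix : ∀ a ∈ E, (σ⁻¹ * he.choose) a = a := by
    intro a ha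
    have h1 : he.choose a = σ a := congrArg (fun e : E →ₐ[ℚ] AlgebraicClosure ℚ => e ⟨a, ha⟩) hτ
    show σ⁻¹ (he.choose a) = a
    rw [h1]
    exact σ.symm_apply_apply a
  have h2 := h _ hfix
  rw [mul_smul] at h2
  calc he.choose • x = σ • (σ⁻¹ • (he.choose • x)) := (smul_inv_smul σ _).symm
    _ = σ • x := by rw [h2]

end os25_modular

end Fermat.Agent.S42
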