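import Mathlib
import Fermat.Agent.S42.ThetaAbs70

/-!
# S42, seam (G-Eex) (helper17): `(X)` + `(DESC)` ⟹ `(E-ex)`

`(E-ex)` is the hypothesis `hex` of `th70_exists_theta` / `th70_hecke_of` (file `ThetaAbs70`):

  `∀ χ ∈ Par, ∃ (h : M) (f : F0), th70_Adm k0 ev0 p ζ χ h f`

for the small function field `F0 / k0` (`= F_ℚ̄(N)`), with `ev0 = ev ∘ bc`, `bc : F0 →+* F` the
constant extension (`F = F_ℂ(N)`) and `ev : F →+* M` the evaluation in the field `M` of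
meromorphic functions.  It follows from

* `(X)`   : for `χ ∈ Par` there are `h : M`, `u : F` with `h ≠ 0`, `th70_IsChar p ζ χ h`,
            `ev u = h ^ p` and `p ∣ v.ord u` at every place `v` of `F / K`;
* `(DESC)`: for `u : F`, `u ≠ 0`, with `p ∣ v.ord u` at every place of `F / K`, there are
            `g : F0`, `w : F`, `c : K`, all nonzero, with `bc g = c * (w ^ p * u)` and
            `p ∣ v0.ord g` at every place `v0` of `F0 / k0`   (literal shape of `dr86_desc`);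
* `Gam`-invariance of `ev F` (`hfix`) and `p`-th roots in `K` (`hroot`).

The admissible pair is `(ev (b * w) * h, g)` with `b ^ p = c`.

All names are prefixed `eex17_`.  Nothing here depends on the concrete fields.
-/

set_option autoImplicit false
set_option linter.unusedSectionVars false
set_option linter.unusedVariables false
set_option linter.style.longLine false

open AlgebraicCurve

namespace Fermat.Agent.S42

section eex17_abs

variable {k0 K F0 F M : Type*} [Field k0] [Field K] [Field F0] [Field F]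
  [Algebra k0 F0] [Algebra K F] [Field M]
variable {Gam : Type*} [Group Gam] [MulSemiringAction Gam M]

/-- The data `(X)` produces for one character `χ`: a nonzero `h : M` with character `ζ ^ χ`
whose `p`-th power is `ev u`, `u : F` with all orders divisible by `p`. -/
def eex17_X (K : Type*) {F M Gam : Type*} [Field K] [Field F] [Algebra K F] [Field M]
    [Group Gam] [MulSemiringAction Gam M] (ev : F →+* M) (p : ℕ) (ζ : M)
    (χ : Additive Gam →+ ZMod p) : Prop :=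
  ∃ (h : M) (u : F), h ≠ 0 ∧ th70_IsChar p ζ χ h ∧ ev u = h ^ p ∧
    ∀ v : Place K F, (p : ℤ) ∣ v.ord u

/-- The statement `(DESC)` (literal conclusion of `dr86_desc`, for every `u`). -/
def eex17_DESC (k0 K : Type*) {F0 F : Type*} [Field k0] [Field K] [Field F0] [Field F]
    [Algebra k0 F0] [Algebra K F] (bc : F0 →+* F) (p : ℕ) : Prop :=
  ∀ u : F, u ≠ 0 → (∀ v : Place K F, (p : ℤ) ∣ v.ord u) →
    ∃ (g : F0) (w : F) (c : K), g ≠ 0 ∧ w ≠ 0 ∧ c ≠ 0 ∧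
      bc g = algebraMap K F c * (w ^ p * u) ∧ ∀ v0 : Place k0 F0, (p : ℤ) ∣ v0.ord g

theorem eex17_X_iff (ev : F →+* M) (p : ℕ) (ζ : M) (χ : Additive Gam →+ ZMod p) :
    eex17_X K ev p ζ χ ↔ ∃ (h : M) (u : F), h ≠ 0 ∧ th70_IsChar p ζ χ h ∧ ev u = h ^ p ∧
      ∀ v : Place K F, (p : ℤ) ∣ v.ord u :=
  Iff.rfl

theorem eex17_DESC_iff (bc : F0 →+* F) (p : ℕ) :
    eex17_DESC k0 K bc p ↔ ∀ u : F, u ≠ 0 → (∀ v : Place K F, (p : ℤ) ∣ v.ord u) →
      ∃ (g : F0) (w : F) (c : K), g ≠ 0 ∧ w ≠ 0 ∧ c ≠ 0 ∧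
        bc g = algebraMap K F c * (w ^ p * u) ∧ ∀ v0 : Place k0 F0, (p : ℤ) ∣ v0.ord g :=
  Iff.rfl

/-- Multiplying a `χ`-automorphic `h` by an invariant element keeps the character. -/
theorem eex17_isChar_mul {p : ℕ} {ζ : M} {χ : Additive Gam →+ ZMod p} {a h : M}
    (ha : ∀ γ : Gam, γ • a = a) (hh : th70_IsChar p ζ χ h) : th70_IsChar p ζ χ (a * h) := by
  intro γ
  rw [smul_mul', ha γ, hh γ, mul_left_comm]

/-- **(G-Eex), core.**  One descended function gives one admissible pair: from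
`ev u = h ^ p`, `bc g = c * (w ^ p * u)`, `b ^ p = c`, the pair `(ev (b * w) * h, g)` is
admissible for `χ`.  (`w ≠ 0`, `c ≠ 0`, `u ≠ 0` are not needed: they follow from `g ≠ 0`.) -/
theorem eex17_adm_core (bc : F0 →+* F) (ev : F →+* M) (ev0 : F0 →+* M)
    (hev0 : ∀ f : F0, ev0 f = ev (bc f))
    (hfix : ∀ (γ : Gam) (f : F), γ • ev f = ev f)
    {p : ℕ} (hp : p ≠ 0) {ζ : M} {χ : Additive Gam →+ ZMod p}
    {h : M} {u : F} (hh : h ≠ 0) (hchar : th70_IsChar p ζ χ h) (hu : ev u = h ^ p)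
    {g : F0} {w : F} {c b : K} (hg : g ≠ 0) (hb : b ^ p = c)
    (hdesc : bc g = algebraMap K F c * (w ^ p * u))
    (hdvd : ∀ v0 : Place k0 F0, (p : ℤ) ∣ v0.ord g) :
    th70_Adm k0 ev0 p ζ χ (ev (algebraMap K F b * w) * h) g := by
  have hbcg : bc g ≠ 0 := by simpa using hg
  have hbw : algebraMap K F b * w ≠ 0 := by
    intro h0
    apply hbcg
    have h1 : (algebraMap K F b * w) ^ p = 0 := by rw [h0, zero_pow hp]
    rw [mul_pow, ← map_pow, hb] at h1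
    rw [hdesc, ← mul_assoc, h1, zero_mul]
  have hev : ev (algebraMap K F b * w) ≠ 0 := by simpa using hbw
  refine ⟨mul_ne_zero hev hh, hg, eex17_isChar_mul (fun γ => hfix γ _) hchar, ?_, hdvd⟩
  rw [mul_pow, ← hu, ← map_pow, ← map_mul, hev0, hdesc, mul_pow, ← map_pow, hb, mul_assoc]

/-- **(G-Eex), pointwise.**  `(X)` for `χ` and `(DESC)` give an admissible pair for `χ`. -/
theorem eex17_adm_exists (bc : F0 →+* F) (ev : F →+* M) (ev0 : F0 →+* M)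
    (hev0 : ∀ f : F0, ev0 f = ev (bc f))
    (hfix : ∀ (γ : Gam) (f : F), γ • ev f = ev f)
    {p : ℕ} (hp : p ≠ 0) (hroot : ∀ c : K, ∃ b : K, b ^ p = c)
    {ζ : M} {χ : Additive Gam →+ ZMod p}
    (hX : eex17_X K ev p ζ χ) (hDESC : eex17_DESC k0 K bc p) :
    ∃ (h : M) (f : F0), th70_Adm k0 ev0 p ζ χ h f := by
  obtain ⟨h, u, hh, hchar, hu, hdiv⟩ := hX
  have hu0 : u ≠ 0 := by
    rintro rfl
    rw [map_zero] at hu
    exact hh (pow_eq_zero_iff hp |>.mp hu.symm)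
  obtain ⟨g, w, c, hg, -, -, hdesc, hdvd⟩ := hDESC u hu0 hdiv
  obtain ⟨b, hb⟩ := hroot c
  exact ⟨_, g, eex17_adm_core bc ev ev0 hev0 hfix hp hh hchar hu hg hb hdesc hdvd⟩

/-- **(G-Eex)** = the hypothesis `hex` of `th70_exists_theta` / `th70_hecke_of`, from `(X)`
and `(DESC)` written out in full. -/
theorem eex17_hex (bc : F0 →+* F) (ev : F →+* M) (ev0 : F0 →+* M)
    (hev0 : ∀ f : F0, ev0 f = ev (bc f))
    (hfix : ∀ (γ : Gam) (f : F), γ • ev f = ev f)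
    {p : ℕ} (hp : p ≠ 0) (hroot : ∀ c : K, ∃ b : K, b ^ p = c) (ζ : M)
    (Par : AddSubgroup (Additive Gam →+ ZMod p))
    (hX : ∀ χ ∈ Par, ∃ (h : M) (u : F), h ≠ 0 ∧ th70_IsChar p ζ χ h ∧ ev u = h ^ p ∧
      ∀ v : Place K F, (p : ℤ) ∣ v.ord u)
    (hDESC : ∀ u : F, u ≠ 0 → (∀ v : Place K F, (p : ℤ) ∣ v.ord u) →
      ∃ (g : F0) (w : F) (c : K), g ≠ 0 ∧ w ≠ 0 ∧ c ≠ 0 ∧
        bc g = algebraMap K F c * (w ^ p * u) ∧ ∀ v0 : Place k0 F0, (p : ℤ) ∣ v0.ord g) :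
    ∀ χ ∈ Par, ∃ (h : M) (f : F0), th70_Adm k0 ev0 p ζ χ h f :=
  fun χ hχ => eex17_adm_exists bc ev ev0 hev0 hfix hp hroot (hX χ hχ) hDESC

/-- `(G-Eex)` for `ev0 := ev.comp bc` literally. -/
theorem eex17_hex_comp (bc : F0 →+* F) (ev : F →+* M)
    (hfix : ∀ (γ : Gam) (f : F), γ • ev f = ev f)
    {p : ℕ} (hp : p ≠ 0) (hroot : ∀ c : K, ∃ b : K, b ^ p = c) (ζ : M)
    (Par : AddSubgroup (Additive Gam →+ ZMod p))
    (hX : ∀ χ ∈ Par, eex17_X K ev p ζ χ) (hDESC : eex17_DESC k0 K bc p) :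
    ∀ χ ∈ Par, ∃ (h : M) (f : F0), th70_Adm k0 (ev.comp bc) p ζ χ h f :=
  eex17_hex bc ev (ev.comp bc) (fun _ => rfl) hfix hp hroot ζ Par hX hDESC

/-! ### Variants of the producers' shapes -/

/-- `(DESC)` stated with a scalar multiplication `c • (w ^ p * u)`. -/
theorem eex17_DESC_of_smul (bc : F0 →+* F) (p : ℕ)
    (H : ∀ u : F, u ≠ 0 → (∀ v : Place K F, (p : ℤ) ∣ v.ord u) →
      ∃ (g : F0) (w : F) (c : K), g ≠ 0 ∧ w ≠ 0 ∧ c ≠ 0 ∧
        bc g = c • (w ^ p * u) ∧ ∀ v0 : Place k0 F0, (p : ℤ) ∣ v0.ord g) :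
    eex17_DESC k0 K bc p := by
  intro u hu hdiv
  obtain ⟨g, w, c, hg, hw, hc, hdesc, hdvd⟩ := H u hu hdiv
  exact ⟨g, w, c, hg, hw, hc, by rw [hdesc, Algebra.smul_def], hdvd⟩

/-- `(DESC)` from the `T1` shape `u = c * bc g * w ^ p` (conclusion of `ds3_kummer_of` /
`ld29_kummer`) together with the integrality of `g`. -/
theorem eex17_DESC_of_kummer (bc : F0 →+* F) (p : ℕ)
    (H : ∀ u : F, u ≠ 0 → (∀ v : Place K F, (p : ℤ) ∣ v.ord u) →
      ∃ (c : K) (w : F) (g : F0), c ≠ 0 ∧ w ≠ 0 ∧ g ≠ 0 ∧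
        u = algebraMap K F c * bc g * w ^ p ∧ ∀ v0 : Place k0 F0, (p : ℤ) ∣ v0.ord g) :
    eex17_DESC k0 K bc p := by
  intro u hu hdiv
  obtain ⟨c, w, g, hc, hw, hg, hG, hdvd⟩ := H u hu hdiv
  have hc' : algebraMap K F c ≠ 0 := by simpa using hc
  refine ⟨g, w⁻¹, c⁻¹, hg, inv_ne_zero hw, inv_ne_zero hc, ?_, hdvd⟩
  rw [hG, map_inv₀, inv_pow]
  field_simp

/-- `(X)` stated as `h ^ p = ev u`. -/
theorem eex17_X_of_symm (ev : F →+* M) (p : ℕ) (ζ : M) (χ : Additive Gam →+ ZMod p)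
    (H : ∃ (h : M) (u : F), h ≠ 0 ∧ th70_IsChar p ζ χ h ∧ h ^ p = ev u ∧
      ∀ v : Place K F, (p : ℤ) ∣ v.ord u) : eex17_X K ev p ζ χ := by
  obtain ⟨h, u, hh, hchar, hu, hdiv⟩ := H
  exact ⟨h, u, hh, hchar, hu.symm, hdiv⟩

/-- The inverse of a `χ`-automorphic function is `(-χ)`-automorphic. -/
theorem eex17_isChar_inv {p : ℕ} [NeZero p] {ζ : M} (hζ : ζ ^ p = 1)
    {χ : Additive Gam →+ ZMod p} {h : M} (hh : th70_IsChar p ζ χ h) :
    th70_IsChar p ζ (-χ) h⁻¹ := by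
  intro γ
  have h1 : ζ ^ ((-χ) (Additive.ofMul γ)).val * ζ ^ (χ (Additive.ofMul γ)).val = 1 := by
    rw [← th70_zeta_pow_add hζ, AddMonoidHom.neg_apply, neg_add_cancel, ZMod.val_zero, pow_zero]
  rw [smul_inv'', hh γ, mul_inv, eq_inv_of_mul_eq_one_left h1]

/-- Sign convention: `(X)` for `χ` gives `(X)` for `-χ` (pass to `(h⁻¹, u⁻¹)`). -/
theorem eex17_X_neg (ev : F →+* M) {p : ℕ} [NeZero p] {ζ : M} (hζ : ζ ^ p = 1)
    {χ : Additive Gam →+ ZMod p} (H : eex17_X K ev p ζ χ) : eex17_X K ev p ζ (-χ) := by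
  obtain ⟨h, u, hh, hchar, hu, hdiv⟩ := H
  refine ⟨h⁻¹, u⁻¹, inv_ne_zero hh, eex17_isChar_inv hζ hchar, ?_, fun v => ?_⟩
  · rw [map_inv₀, hu, inv_pow]
  · rw [v.ord_inv]
    exact (dvd_neg).mpr (hdiv v)

/-- `(G-Eex)` when the producer of `(X)` states the character of `h` for `-χ`
(Ruling 2, R2 "SIGN/CONVENTION"). -/
theorem eex17_hex_neg (bc : F0 →+* F) (ev : F →+* M) (ev0 : F0 →+* M)
    (hev0 : ∀ f : F0, ev0 f = ev (bc f))
    (hfix : ∀ (γ : Gam) (f : F), γ • ev f = ev f)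
    {p : ℕ} [NeZero p] (hroot : ∀ c : K, ∃ b : K, b ^ p = c) {ζ : M} (hζ : ζ ^ p = 1)
    (Par : AddSubgroup (Additive Gam →+ ZMod p))
    (hX : ∀ χ ∈ Par, ∃ (h : M) (u : F), h ≠ 0 ∧ th70_IsChar p ζ (-χ) h ∧ ev u = h ^ p ∧
      ∀ v : Place K F, (p : ℤ) ∣ v.ord u)
    (hDESC : eex17_DESC k0 K bc p) :
    ∀ χ ∈ Par, ∃ (h : M) (f : F0), th70_Adm k0 ev0 p ζ χ h f := by
  intro χ hχ
  have h1 : eex17_X K ev p ζ (-(-χ)) := eex17_X_neg ev hζ (hX χ hχ)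
  rw [neg_neg] at h1
  exact eex17_adm_exists bc ev ev0 hev0 hfix (NeZero.ne p) hroot h1 hDESC

end eex17_abs

end Fermat.Agent.S42
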