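/-
S42 / M9 (helper54), part C: (I-EIG) IN THE LITERAL SHAPE OF `w1t28_main` / `w1a28_main_eigenform`.

`m9t54_heig` : for a normalised eigenform `f` of level `N`, a prime `p`, a field `k0` which is a
`ZMod p`-algebra and `φ : integralClosure ℤ ℂ →+* k0` there is `x ≠ 0` in
`k0 ⊗[ZMod p] Par_N` (`Par_N = w1a28_Par N p`, the parabolic homomorphisms `Γ₀(N) → ZMod p`) whose
image in `k0 ⊗[ZMod p] Hom(Γ₀(N), ZMod p)` is an eigenvector of every `1 ⊗ T'_ℓ`
(`T'_ℓ = w1a28_TX N p ℓ = heckeHom N ℓ (ZMod p)`, `ℓ ∤ N` prime, `ℓ = p` allowed) with eigenvalue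
`φ (a_ℓ(f))`.  `m9t54_heig'` is the same for `ℓ ∤ N * p` (= the hypothesis `heig` verbatim).

No hypothesis: any `p` (2 and 3 included), any `k0` (not necessarily algebraically closed).
-/
import Mathlib
import Fermat.Agent.S42.EigenClass54
import Fermat.Agent.S42.W1Asm28

set_option autoImplicit false

open CongruenceSubgroup ModularCurve ModularCurve.Period AlgebraicCurve
open scoped TensorProduct MatrixGroups

namespace Fermat.Agent.S42

open Fermat.Agent.S16

variable (N : ℕ) [NeZero N] (p : ℕ) [Fact p.Prime] {k0 : Type*} [Field k0] [Algebra (ZMod p) k0]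

/-- **(I-EIG)**, all primes `ℓ ∤ N`. -/
theorem m9t54_heig {f : CuspForm (Gamma0 N) 2} (hf : f.IsNormalizedEigenform)
    (φ : integralClosure ℤ ℂ →+* k0) :
    ∃ x : k0 ⊗[ZMod p] w1a28_Par N p, x ≠ 0 ∧
      ∀ ℓ : Nat.Primes, ¬ (ℓ : ℕ) ∣ N →
        ∃ a : integralClosure ℤ ℂ, (a : ℂ) = ModularFormClass.qCoeff (⇑f) ℓ ∧
          (w1a28_TX N p ℓ).baseChange k0 ((w1a28_Par N p).subtype.baseChange k0 x)
            = φ a • (w1a28_Par N p).subtype.baseChange k0 x := by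
  classical
  have : CharP k0 p := charP_of_injective_algebraMap (algebraMap (ZMod p) k0).injective p
  obtain ⟨n, ψ, A, c, hψ, -, hli, hA, hc0, hc⟩ := m9e54_eigenclass N hf p φ
  -- the reductions, as elements of `Par_N`
  let χ : Fin n → Additive (Gamma0 N) →+ ZMod p := fun i => (Int.castAddHom (ZMod p)).comp (ψ i)
  have hχpar : ∀ i, χ i ∈ w1a28_Par N p := fun i γ hγ => by
    show ((ψ i (Additive.ofMul γ) : ℤ) : ZMod p) = 0
    rw [hψ i γ hγ, Int.cast_zero]
  let y : Fin n → w1a28_Par N p := fun i => ⟨χ i, hχpar i⟩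
  have hyli : LinearIndependent (ZMod p) y :=
    LinearIndependent.of_comp (w1a28_Par N p).subtype hli
  have hyk : LinearIndependent k0 (fun i => (1 : k0) ⊗ₜ[ZMod p] y i) :=
    Module.Flat.linearIndependent_one_tmul hyli
  refine ⟨∑ i, c i ⊗ₜ[ZMod p] y i, ?_, fun ℓ hℓ => ?_⟩
  · intro h0
    have h1 : ∑ i, c i • ((1 : k0) ⊗ₜ[ZMod p] y i) = 0 := by
      rw [← h0]
      exact Finset.sum_congr rfl
        (fun i _ => by rw [TensorProduct.smul_tmul', smul_eq_mul, mul_one])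
    exact hc0 (funext (Fintype.linearIndependent_iff.mp hyk c h1))
  · obtain ⟨a, ha, hac⟩ := hc ℓ ℓ.2 hℓ
    refine ⟨a, ha, ?_⟩
    have hT : ∀ i, heckeHom N ℓ (ZMod p) (χ i) = ∑ j, ((A ℓ i j : ℤ) : ZMod p) • χ j := by
      intro i
      show heckeHom N ℓ (ZMod p) ((Int.castAddHom (ZMod p)).comp (ψ i)) = _
      rw [heckeHom_comp, hA ℓ ℓ.2 hℓ i]
      refine AddMonoidHom.ext fun γ => ?_
      simp only [AddMonoidHom.comp_apply, AddMonoidHom.finsetSum_apply, AddMonoidHom.smul_apply,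
        map_sum, χ]
      refine Finset.sum_congr rfl (fun j _ => ?_)
      simp
    have hsub : (w1a28_Par N p).subtype.baseChange k0 (∑ i, c i ⊗ₜ[ZMod p] y i) =
        ∑ i, c i ⊗ₜ[ZMod p] χ i := by
      rw [map_sum]
      exact Finset.sum_congr rfl (fun i _ => LinearMap.baseChange_tmul _ _ _)
    rw [hsub, map_sum]
    have h1 : ∀ i, (w1a28_TX N p ℓ).baseChange k0 (c i ⊗ₜ[ZMod p] χ i) =
        ∑ j, (c i * ((A ℓ i j : ℤ) : k0)) ⊗ₜ[ZMod p] χ j := by
      intro i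
      rw [LinearMap.baseChange_tmul, w1a28_TX_apply, hT i, TensorProduct.tmul_sum]
      refine Finset.sum_congr rfl (fun j _ => ?_)
      rw [TensorProduct.tmul_smul, TensorProduct.smul_tmul', Algebra.smul_def, map_intCast,
        mul_comm]
    rw [Finset.sum_congr rfl (fun i _ => h1 i), Finset.sum_comm, Finset.smul_sum]
    refine Finset.sum_congr rfl (fun j _ => ?_)
    rw [← TensorProduct.sum_tmul, hac j, TensorProduct.smul_tmul', smul_eq_mul]

/-- **(I-EIG)**, verbatim the hypothesis `heig` of `w1t28_main_eigenform` /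
`w1a28_main_eigenform` / `w1ta28_main_eigenform` (primes `ℓ ∤ N * p`). -/
theorem m9t54_heig' {f : CuspForm (Gamma0 N) 2} (hf : f.IsNormalizedEigenform)
    (φ : integralClosure ℤ ℂ →+* k0) :
    ∃ x : k0 ⊗[ZMod p] w1a28_Par N p, x ≠ 0 ∧
      ∀ ℓ : Nat.Primes, ¬ (ℓ : ℕ) ∣ N * p →
        ∃ a : integralClosure ℤ ℂ, (a : ℂ) = ModularFormClass.qCoeff (⇑f) ℓ ∧
          (w1a28_TX N p ℓ).baseChange k0 ((w1a28_Par N p).subtype.baseChange k0 x)
            = φ a • (w1a28_Par N p).subtype.baseChange k0 x := by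
  obtain ⟨x, hx0, hx⟩ := m9t54_heig N p hf φ
  exact ⟨x, hx0, fun ℓ hℓ => hx ℓ (fun h => hℓ (Dvd.dvd.mul_right h p))⟩

end Fermat.Agent.S42
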