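/-
S42 / Project 4, row `W1-Assembly` after ARCH-1 (helper28).  (W1) from the two interfaces
(I-Theta) + (I-EIG):

* `w1t28_heckeHom_parabolic` : for EVERY prime `ℓ` and every coefficient group `A`, the Hecke
  operator `heckeHom N ℓ A` (S16) preserves parabolic homomorphisms (a parabolic hom is `ν` of
  the symbol of its cusp potential, `ca76_exists_potential_onePoint`; `ν` intertwines the Hecke
  operators, `nh53_nu_T` / `nh53_nu_U`; `ν` of a symbol is parabolic).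
* `w1t28_TP N p ℓ` : the restriction of `heckeHom N ℓ (ZMod p)` to `Par_N` (`ℓ` prime), with
  `w1t28_TP_coe` (`rfl`).
* `w1t28_main` : (I-Theta) `Θ : Par_N →+ JZero N` injective, `p`-torsion valued, Hecke
  equivariant + (I-EIG) (same shape as in `w1a28_main`) ⟹ (W1) (same conclusion as
  `w1a28_main`): `y := (1 ⊗ Θ) x`.
-/
import Mathlib
import Fermat.Agent.S42.W1Asm28
import Fermat.Agent.S41.NuHecke53
import Fermat.Agent.S41.CuspAdapted76

set_option autoImplicit false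

open CongruenceSubgroup ModularCurve ModularCurve.Period AlgebraicCurve
open scoped TensorProduct MatrixGroups

namespace Fermat.Agent.S42

open Fermat.Agent.S16 Fermat.Agent.S41

/-! ### Hecke operators preserve parabolic homomorphisms -/

section Parabolic

variable {N : ℕ} {A : Type*} [AddCommGroup A]

/-- the symbol of a potential. -/
theorem w1t28_symb_of_potential (χ : Additive (Gamma0 N) →+ A) (a : OnePoint ℚ → A)
    (ha : ∀ (γ : Gamma0 N) (c : OnePoint ℚ),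
      a ((Matrix.SpecialLinearGroup.mapGL ℚ (γ : SL(2, ℤ))) • c) = a c + χ (Additive.ofMul γ)) :
    nh53_Symb N (fun x y : OnePoint ℚ => a y - a x) :=
  ⟨fun x y z => by
    show a y - a x + (a z - a y) = a z - a x
    abel, fun γ x y => by
    show a _ - a _ = a y - a x
    rw [ha, ha]; abel⟩

/-- a parabolic hom is `ν` of a modular symbol on `ℙ¹(ℚ)`. -/
theorem w1t28_exists_symb (χ : Additive (Gamma0 N) →+ A) (hχ : IsParabolicHom (Gamma0 N) χ) :
    ∃ (Φ : OnePoint ℚ → OnePoint ℚ → A) (hΦ : nh53_Symb N Φ),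
      nh53_nu hΦ (OnePoint.infty : OnePoint ℚ) = χ := by
  obtain ⟨a, ha⟩ := ca76_exists_potential_onePoint χ hχ
  refine ⟨_, w1t28_symb_of_potential χ a ha, ?_⟩
  refine AddMonoidHom.ext fun γ => ?_
  obtain ⟨γ, rfl⟩ := Additive.ofMul.surjective γ
  rw [nh53_nu_apply]
  show a _ - a _ = _
  rw [ha]; abel

/-- **Hecke operators preserve parabolic homomorphisms** (every prime `ℓ`, every `A`). -/
theorem w1t28_heckeHom_parabolic {ℓ : ℕ} (hℓ : ℓ.Prime) (χ : Additive (Gamma0 N) →+ A)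
    (hχ : IsParabolicHom (Gamma0 N) χ) : IsParabolicHom (Gamma0 N) (heckeHom N ℓ A χ) := by
  obtain ⟨Φ, hΦ, rfl⟩ := w1t28_exists_symb χ hχ
  by_cases hℓN : ℓ ∣ N
  · rw [← nh53_nu_U hℓ hℓN hΦ]
    exact nh53_nu_parabolic_onePoint _ _
  · rw [← nh53_nu_T hℓ hℓN hΦ]
    exact nh53_nu_parabolic_onePoint _ _

end Parabolic

/-! ### The restricted operator on `Par_N` -/

section Restrict

variable (N p : ℕ)

/-- `T'_ℓ` restricted to `Par_N`, as an additive map (`ℓ` prime). -/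
noncomputable def w1t28_TPadd (ℓ : Nat.Primes) : w1a28_Par N p →+ w1a28_Par N p where
  toFun χ := ⟨heckeHom N ℓ (ZMod p) χ, w1t28_heckeHom_parabolic ℓ.2 _ χ.2⟩
  map_zero' := Subtype.ext (by simp)
  map_add' χ χ' := Subtype.ext (by simp)

/-- `T'_ℓ` restricted to `Par_N`, `ZMod p`-linear. -/
noncomputable def w1t28_TP (ℓ : Nat.Primes) : w1a28_Par N p →ₗ[ZMod p] w1a28_Par N p :=
  (w1t28_TPadd N p ℓ).toZModLinearMap p

theorem w1t28_TP_coe (ℓ : Nat.Primes) (χ : w1a28_Par N p) :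
    ((w1t28_TP N p ℓ χ : w1a28_Par N p) : Additive (Gamma0 N) →+ ZMod p)
      = heckeHom N ℓ (ZMod p) χ := rfl

end Restrict

/-! ### (W1) from (I-Theta) + (I-EIG) -/

section Abstract

variable {F : Type*} [Field F] {k0 : Type*} [Field k0] [Algebra F k0]
variable {J X P : Type*} [AddCommGroup J] [Module F J] [AddCommGroup X] [Module F X]
  [AddCommGroup P] [Module F P]

/-- Abstract form: `Θ : P → J` injective, `ι : P → X` injective, `x ∈ k0 ⊗ P` nonzero; then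
`y := (1 ⊗ Θ) x` is nonzero, and for operators `TP`, `TJ`, `TX` with `Θ ∘ TP = TJ ∘ Θ`,
`ι ∘ TP = TX ∘ ι`, every eigen-equation of `(1 ⊗ ι) x` under `1 ⊗ TX` is an eigen-equation of
`y` under `1 ⊗ TJ`. -/
theorem w1t28_abs (Θ : P →ₗ[F] J) (hΘ : Function.Injective Θ) (ι : P →ₗ[F] X)
    (hι : Function.Injective ι) (x : k0 ⊗[F] P) (hx0 : x ≠ 0) :
    Θ.baseChange k0 x ≠ 0 ∧
      ∀ (TP : P →ₗ[F] P) (TJ : J →ₗ[F] J) (TX : X →ₗ[F] X), Θ.comp TP = TJ.comp Θ →
        ι.comp TP = TX.comp ι → ∀ c : k0,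
        TX.baseChange k0 (ι.baseChange k0 x) = c • ι.baseChange k0 x →
        TJ.baseChange k0 (Θ.baseChange k0 x) = c • Θ.baseChange k0 x := by
  have hΘinj : Function.Injective (Θ.baseChange k0) := by
    rw [LinearMap.baseChange_eq_ltensor]
    exact Module.Flat.lTensor_preserves_injective_linearMap Θ hΘ
  have hιinj : Function.Injective (ι.baseChange k0) := by
    rw [LinearMap.baseChange_eq_ltensor]
    exact Module.Flat.lTensor_preserves_injective_linearMap ι hι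
  refine ⟨fun h0 => hx0 (hΘinj (by rw [h0, map_zero])), fun TP TJ TX hΘT hιT c hc => ?_⟩
  have h1 : TP.baseChange k0 x = c • x := by
    apply hιinj
    rw [← LinearMap.comp_apply, ← LinearMap.baseChange_comp, hιT, LinearMap.baseChange_comp,
      LinearMap.comp_apply, hc, map_smul]
  rw [← LinearMap.comp_apply, ← LinearMap.baseChange_comp, ← hΘT, LinearMap.baseChange_comp,
    LinearMap.comp_apply, h1, map_smul]

end Abstract

section Main

variable {N : ℕ} [NeZero N] {p : ℕ}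

/-- `Θ` corestricted to the `p`-torsion, as an additive map. -/
noncomputable def w1t28_ThetaAdd (Θ : w1a28_Par N p →+ JZero N)
    (htors : ∀ χ : w1a28_Par N p, (p : ℤ) • Θ χ = 0) : w1a28_Par N p →+ w1a28_J N p where
  toFun χ := ⟨Θ χ, Pic0.mem_torsion.mpr (htors χ)⟩
  map_zero' := Subtype.ext (by simp)
  map_add' χ χ' := Subtype.ext (by simp)

omit [NeZero N] in
theorem w1t28_ThetaAdd_coe (Θ : w1a28_Par N p →+ JZero N)
    (htors : ∀ χ : w1a28_Par N p, (p : ℤ) • Θ χ = 0) (χ : w1a28_Par N p) :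
    ((w1t28_ThetaAdd Θ htors χ : w1a28_J N p) : JZero N) = Θ χ := rfl

variable [Fact p.Prime] {k0 : Type*} [Field k0] [Algebra (ZMod p) k0]

/-- **(W1) from (I-Theta) + (I-EIG)**, abstract eigenvalues `lam`.  The class is
`y = (1 ⊗ Θ) x`. -/
theorem w1t28_main
    (Θ : w1a28_Par N p →+ JZero N) (hΘ : Function.Injective Θ)
    (htors : ∀ χ : w1a28_Par N p, (p : ℤ) • Θ χ = 0)
    (hhec : ∀ ℓ : Nat.Primes, ¬ (ℓ : ℕ) ∣ N * p → ∀ χ χ' : w1a28_Par N p,
      (χ' : Additive (Gamma0 N) →+ ZMod p) = heckeHom N ℓ (ZMod p) χ →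
        heckeOperatorBar N ℓ (Θ χ) = Θ χ')
    (lam : Nat.Primes → k0)
    (heig : ∃ x : k0 ⊗[ZMod p] w1a28_Par N p, x ≠ 0 ∧
      ∀ ℓ : Nat.Primes, ¬ (ℓ : ℕ) ∣ N * p →
        (w1a28_TX N p ℓ).baseChange k0 ((w1a28_Par N p).subtype.baseChange k0 x)
          = lam ℓ • (w1a28_Par N p).subtype.baseChange k0 x) :
    ∃ y : k0 ⊗[ZMod p] w1a28_J N p, y ≠ 0 ∧
      ∀ ℓ : Nat.Primes, ¬ (ℓ : ℕ) ∣ N * p →
        (w1a28_TJ N p ℓ).baseChange k0 y = lam ℓ • y := by
  obtain ⟨x, hx0, hx⟩ := heig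
  have hΘinj : Function.Injective ((w1t28_ThetaAdd Θ htors).toZModLinearMap p) :=
    fun χ χ' h => hΘ (congrArg (fun c : w1a28_J N p => (c : JZero N)) h)
  have key := w1t28_abs (k0 := k0) ((w1t28_ThetaAdd Θ htors).toZModLinearMap p) hΘinj
    (w1a28_Par N p).subtype (Submodule.subtype_injective _) x hx0
  refine ⟨_, key.1, fun ℓ hℓ => key.2 (w1t28_TP N p ℓ) (w1a28_TJ N p ℓ) (w1a28_TX N p ℓ) ?_ ?_
    (lam ℓ) (hx ℓ hℓ)⟩
  · refine LinearMap.ext fun χ => Subtype.ext ?_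
    exact (hhec ℓ hℓ χ (w1t28_TP N p ℓ χ) (w1t28_TP_coe N p ℓ χ)).symm
  · exact LinearMap.ext fun χ => rfl

/-- (I-Theta) Hecke clause in the literal ARCH-1 form (all primes `ℓ ∤ N`, `T'_ℓ χ` with its
membership proof) implies the form used by `w1t28_main`. -/
theorem w1t28_hhec_of_mk (Θ : w1a28_Par N p →+ JZero N)
    (h : ∀ ℓ : Nat.Primes, ¬ (ℓ : ℕ) ∣ N → ∀ (χ : w1a28_Par N p)
      (hm : heckeHom N ℓ (ZMod p) χ ∈ w1a28_Par N p),
        heckeOperatorBar N ℓ (Θ χ) = Θ ⟨heckeHom N ℓ (ZMod p) χ, hm⟩) :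
    ∀ ℓ : Nat.Primes, ¬ (ℓ : ℕ) ∣ N * p → ∀ χ χ' : w1a28_Par N p,
      (χ' : Additive (Gamma0 N) →+ ZMod p) = heckeHom N ℓ (ZMod p) χ →
        heckeOperatorBar N ℓ (Θ χ) = Θ χ' := by
  intro ℓ hℓ χ χ' hχ'
  have hm : heckeHom N ℓ (ZMod p) χ ∈ w1a28_Par N p := hχ' ▸ χ'.2
  rw [h ℓ (fun hd => hℓ (hd.mul_right p)) χ hm]
  exact congrArg Θ (Subtype.ext hχ'.symm)

end Main

end Fermat.Agent.S42
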