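import Fermat.Agent.S42.ThetaInst70
import Fermat.Agent.S42.Eex17
import Fermat.Agent.S42.FunFieldBar79
import Fermat.Agent.S42.GaloisFinal41
import Fermat.Agent.S42.DescInst3
import Fermat.Agent.S42.W1Theta28
import Fermat.Agent.S42.EigenTensor54

/-!
# S42, row I-Theta-Inst, twin (helper30): the concrete `Θ`, final instantiation

`th70_I_Theta` (helper70, `ThetaInst70`) instantiated at the evaluation
`ev0 := ff79_ev0 φ N : F_ℚ̄(N) →+* mer95_MER` (helper79), for an ARBITRARY `φ : ℚ̄ →+* ℂ`, with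
every hypothesis that is on main discharged here:

* `hfix`  : `ff79_ev0_fix` (helper79);
* `hK2`   : `tf30_hK2`  = (K2) over `ℂ` (`gi41_final_K2_pow`, helper41) + `ev` injective +
            the power descent T3 (`di3_pow_descend_hom`, helper3);
* `hex`   : `tf30_hex`  ⟸ the analytic existence statement (X) over `ℂ`, through (DESC)
            (`di3_desc_hom`, helper3) and the glue `eex17_hex` (helper17);
* `hpar`  : `w1t28_heckeHom_parabolic` (helper28).

What remains are exactly the two statements whose producers are still at work, in their binding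
shapes:

* (X)   : `tf30_X φ N p`  (rows M5a / M5b / M4c);
* `hHK` : `tf30_HK φ N p` (Hecke seam (H1) + (H2), row G-HEC).

Conclusions: `tf30_I_Theta` = (I-Theta) in the LITERAL shape of the hypotheses of `w1t28_main`
(Ruling 2a), and `tf30_W1` = (W1) for a normalised eigenform (shape of `w1a28_main_eigenform`),
with (I-EIG) discharged by `m9t54_heig'` (helper54).

All names are prefixed `tf30_`.
-/

set_option autoImplicit false
set_option linter.unusedSectionVars false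
set_option linter.unusedVariables false
set_option linter.style.longLine false

open CongruenceSubgroup ModularCurve ModularCurve.Period AlgebraicCurve UpperHalfPlane
open IntermediateField
open scoped TensorProduct MatrixGroups

namespace Fermat.Agent.S42

open Fermat.Agent.S16

section tf30

variable (φ : AlgebraicClosure ℚ →+* ℂ) (N : ℕ) [NeZero N] (p : ℕ)

/-- **(X)**, the analytic existence statement over `ℂ`, in the shape consumed by `eex17_hex`:
every parabolic `χ` has a nonzero meromorphic `h` with character `ζ ^ χ` whose `p`-th power is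
`ev u`, `u ∈ F_ℂ(N)` with all orders divisible by `p`. -/
def tf30_X : Prop :=
  ∀ χ ∈ w1a28_Par N p, ∃ (h : mer95_MER) (u : ↥(laurentBaseChange ℂ (modularFunctionFieldFull N))),
    h ≠ 0 ∧ th70_IsChar p (th70_zeta p) χ h ∧ ff79_evMer N u = h ^ p ∧
      ∀ v : Place ℂ ↥(laurentBaseChange ℂ (modularFunctionFieldFull N)), (p : ℤ) ∣ v.ord u

/-- **The Hecke seam** (H1) + (H2), literally the hypothesis `hHK` of `th70_I_Theta` at
`ev0 := ff79_ev0 φ N`. -/
def tf30_HK : Prop :=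
  ∀ (ℓ : ℕ) [NeZero ℓ], ℓ.Prime → ¬ ℓ ∣ N * p → ∀ χ ∈ w1a28_Par N p,
    ∀ (h : mer95_MER) (f : ↥(modularFunctionFieldBar N)), h ≠ 0 → f ≠ 0 →
      th70_IsChar p (th70_zeta p) χ h → h ^ p = ff79_ev0 φ N f →
        ∃ h' : mer95_MER, h' ≠ 0 ∧ th70_IsChar p (th70_zeta p) (heckeHom N ℓ (ZMod p) χ) h' ∧
          h' ^ p = ff79_ev0 φ N (hd63_heckeNorm N ℓ f)

/-- **(E-K2p), hypothesis-free**: a nonzero `Γ₀(N)`-invariant meromorphic `x` with
`x ^ p = ev0 f`, `f ∈ F_ℚ̄(N)`, forces `f = a • w ^ p` with `w ∈ F_ℚ̄(N)`, `a ∈ ℚ̄`. -/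
theorem tf30_hK2 (hp : 0 < p) :
    ∀ x : mer95_MER, x ≠ 0 → (∀ γ : ↥(Gamma0 N), γ • x = x) →
      ∀ f : ↥(modularFunctionFieldBar N), x ^ p = ff79_ev0 φ N f →
        ∃ (w : ↥(modularFunctionFieldBar N)) (a : AlgebraicClosure ℚ),
          f = algebraMap (AlgebraicClosure ℚ) ↥(modularFunctionFieldBar N) a * w ^ p := by
  intro x hx hinv f hxf
  obtain ⟨w', hw'⟩ := gi41_final_K2_pow N (x := x) (fun g hg => hinv ⟨g, hg⟩) hp
    (ff79_bc φ N f) hxf
  have h1 : w' ^ p = ff79_bc φ N f := by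
    apply ff79_evMer_injective N
    rw [map_pow, hw']
    exact hxf
  obtain ⟨c0, v0, h2⟩ := di3_pow_descend_hom φ N _ (di3_bar_eq N) _ (di3_baseChange_eq ℂ N)
    (ff79_bc φ N) (fun g => rfl) hp f w' h1
  exact ⟨v0, c0, h2⟩

/-- **(E-ex) from (X)**: admissible pairs over `ℚ̄` for every parabolic `χ`. -/
theorem tf30_hex (hp : 0 < p) (hX : tf30_X N p) :
    ∀ χ ∈ w1a28_Par N p, ∃ (h : mer95_MER) (f : ↥(modularFunctionFieldBar N)),
      th70_Adm (AlgebraicClosure ℚ) (ff79_ev0 φ N) p (th70_zeta p) χ h f := by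
  have key := eex17_hex (k0 := AlgebraicClosure ℚ) (K := ℂ) (ff79_bc φ N)
    (ff79_evMer N : ↥(laurentBaseChange ℂ (modularFunctionFieldFull N)) →+* mer95_MER)
    (ff79_ev0 φ N) (fun _ => rfl)
    (fun (γ : ↥(Gamma0 N)) f => ff79_evMer_smul N γ.1 γ.2 f) hp.ne'
    (fun c => IsAlgClosed.exists_pow_nat_eq c hp) (th70_zeta p)
    (w1a28_Par N p).toAddSubgroup hX
    (fun u hu hdiv => by
      obtain ⟨g, w, c, hg, hw, hc, -, h2, hP⟩ := di3_desc_hom φ N _ (di3_bar_eq N) _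
        (di3_baseChange_eq ℂ N) (ff79_bc φ N) (fun g => rfl) hp hu hdiv
      exact ⟨g, w, c, hg, hw, hc, h2, hP⟩)
  exact key

variable [Fact p.Prime]

/-- **(I-Theta)**, in the literal shape of the hypotheses `Θ, hΘ, htors, hhec` of `w1t28_main`
(Ruling 2a), from (X) and the Hecke seam only. -/
theorem tf30_I_Theta (hX : tf30_X N p) (hHK : tf30_HK φ N p) :
    ∃ Θ : w1a28_Par N p →+ JZero N, Function.Injective Θ ∧ (∀ χ, (p : ℤ) • Θ χ = 0) ∧
      ∀ ℓ : Nat.Primes, ¬ (ℓ : ℕ) ∣ N * p → ∀ χ χ' : w1a28_Par N p,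
        (χ' : Additive (Gamma0 N) →+ ZMod p) = heckeHom N ℓ (ZMod p) χ →
          heckeOperatorBar N ℓ (Θ χ) = Θ χ' := by
  have hp : 0 < p := (Fact.out : p.Prime).pos
  obtain ⟨Θ, hΘ, htors, hhec⟩ := th70_I_Theta N p (ff79_ev0 φ N) (ff79_ev0_fix φ N)
    (tf30_hK2 φ N p hp) (tf30_hex φ N p hp hX)
    (fun ℓ _ χ hχ => w1t28_heckeHom_parabolic ℓ.2 χ hχ) hHK
  refine ⟨Θ, hΘ, htors, fun ℓ hℓ χ χ' hχ' => ?_⟩
  obtain ⟨hm, e⟩ := hhec ℓ hℓ χ
  rw [e]
  exact congrArg Θ (Subtype.ext hχ'.symm)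

/-- **(I-Theta)** in the ARCH-1 shape (membership proof packaged), from (X) and the Hecke seam. -/
theorem tf30_I_Theta' (hX : tf30_X N p) (hHK : tf30_HK φ N p) :
    ∃ Θ : w1a28_Par N p →+ JZero N, Function.Injective Θ ∧ (∀ χ, (p : ℤ) • Θ χ = 0) ∧
      ∀ ℓ : Nat.Primes, ¬ (ℓ : ℕ) ∣ N * p → ∀ χ : w1a28_Par N p,
        ∃ hχ : heckeHom N ℓ (ZMod p) χ ∈ w1a28_Par N p,
          heckeOperatorBar N ℓ (Θ χ) = Θ ⟨heckeHom N ℓ (ZMod p) χ, hχ⟩ :=
  th70_I_Theta N p (ff79_ev0 φ N) (ff79_ev0_fix φ N)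
    (tf30_hK2 φ N p (Fact.out : p.Prime).pos) (tf30_hex φ N p (Fact.out : p.Prime).pos hX)
    (fun ℓ _ χ hχ => w1t28_heckeHom_parabolic ℓ.2 χ hχ) hHK

/-- **(W1)** for a normalised eigenform `f` of level `N`: a nonzero class in
`k0 ⊗ J₀(N)(ℚ̄)[p]` on which every `T_ℓ`, `ℓ ∤ N p`, acts by `φ (a_ℓ(f))`.  From (X) and the
Hecke seam only ((I-EIG) is `m9t54_heig'`). -/
theorem tf30_W1 {k0 : Type*} [Field k0] [Algebra (ZMod p) k0]
    (hX : tf30_X N p) (hHK : tf30_HK φ N p)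
    {f : CuspForm (Gamma0 N) 2} (hf : f.IsNormalizedEigenform)
    (ψ : integralClosure ℤ ℂ →+* k0) :
    ∃ y : k0 ⊗[ZMod p] w1a28_J N p, y ≠ 0 ∧
      ∀ ℓ : Nat.Primes, ¬ (ℓ : ℕ) ∣ N * p →
        ∃ a : integralClosure ℤ ℂ, (a : ℂ) = ModularFormClass.qCoeff (⇑f) ℓ ∧
          (w1a28_TJ N p ℓ).baseChange k0 y = ψ a • y := by
  obtain ⟨Θ, hΘ, htors, hhec⟩ := tf30_I_Theta' φ N p hX hHK
  exact w1t70_main_eigenform Θ hΘ htors hhec f ψ (m9t54_heig' N p hf ψ)

end tf30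

end Fermat.Agent.S42
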