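import Fermat.Agent.S37.HeckeInputs63
import Fermat.Agent.S42.PlacesAbs36
import Fermat.Agent.S18.RElimJ29
import Fermat.Agent.S18.CoeffGlue36

/-!
# S42, seam (G-const) of Ruling 2 (second seat: helper21)

The three "constant-field" hypotheses of `th70_exists_theta` (ThetaAbs70), in their literal
shapes, for the modular function fields:

* `HasPrincipalDivisors K F`,
* `hconst` : a nonzero function without zeros and poles is a constant,
* `hroot`  : the constant field has `p`-th roots,

for `K = ℚ̄`, `F = modularFunctionFieldBar N` (`tc21_hasPD`, `tc21_hconst`, `tc21_hroot`), and for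
an arbitrary algebraically closed field `k` of characteristic `0` (e.g. `ℂ`) with
`F = modularFunctionFieldFullC k N` (`tc21_hasPD_fullC`, `tc21_hconst_fullC`, `tc21_hroot_of`) or
`F = laurentBaseChange k (modularFunctionFieldFull N)` (`tc21_hasPD_bc`, `tc21_hconst_bc`).

Everything is glue on top of `hi63_*` (S37), `pa36_const_of_ord_eq_zero` (S42/M4),
`relimc_*` (S18) and `cg36_baseChange_eq_fullC` (S18).  All names are prefixed `tc21_`.
-/

set_option autoImplicit false
set_option linter.style.haveILetI false
set_option linter.unusedSectionVars false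

open ModularCurve AlgebraicCurve IntermediateField

namespace Fermat.Agent.S42

open Fermat.Agent.S24 Fermat.Agent.S37 Fermat.Agent.S18

section tc21_bar

/-- `ℚ̄ · F_N` has principal divisors (`[HasPrincipalDivisors K F]` of `th70_exists_theta`). -/
theorem tc21_hasPD (N : ℕ) [NeZero N] :
    HasPrincipalDivisors (AlgebraicClosure ℚ) ↥(modularFunctionFieldBar N) :=
  hi63_hasPrincipalDivisors_bar N

/-- `hconst` of `th70_exists_theta` for `ℚ̄ · F_N`: a nonzero function without zeros and poles is
constant. -/
theorem tc21_hconst (N : ℕ) [NeZero N] :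
    ∀ f : ↥(modularFunctionFieldBar N), f ≠ 0 →
      (∀ v : Place (AlgebraicClosure ℚ) ↥(modularFunctionFieldBar N), v.ord f = 0) →
      ∃ a : AlgebraicClosure ℚ,
        f = algebraMap (AlgebraicClosure ℚ) ↥(modularFunctionFieldBar N) a := by
  intro f _ h
  haveI := hi63_finite_x N
  exact pa36_const_of_ord_eq_zero (hi63_x N) (hi63_x_transcendental N) f h

/-- `hroot` of `th70_exists_theta` for `ℚ̄`. -/
theorem tc21_hroot (p : ℕ) (hp : 0 < p) :
    ∀ a : AlgebraicClosure ℚ, ∃ b : AlgebraicClosure ℚ, b ^ p = a :=
  fun a => IsAlgClosed.exists_pow_nat_eq a hp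

end tc21_bar

section tc21_fullC

variable (k : Type) [Field k] [IsAlgClosed k] [CharZero k]

/-- `hroot` for any algebraically closed field. -/
theorem tc21_hroot_of (p : ℕ) (hp : 0 < p) : ∀ a : k, ∃ b : k, b ^ p = a :=
  fun a => IsAlgClosed.exists_pow_nat_eq a hp

/-- `F_k(N) = modularFunctionFieldFullC k N` has principal divisors (`k` algebraically closed of
characteristic `0`, e.g. `k = ℂ`). -/
theorem tc21_hasPD_fullC (N : ℕ) [NeZero N] :
    HasPrincipalDivisors k ↥(modularFunctionFieldFullC k N) := by
  haveI := relimc_finite k N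
  exact hi63_hasPrincipalDivisors (relimc_J k N) (relimc_J_transcendental k N)

/-- `hconst` for `F_k(N) = modularFunctionFieldFullC k N`. -/
theorem tc21_hconst_fullC (N : ℕ) [NeZero N] :
    ∀ f : ↥(modularFunctionFieldFullC k N), f ≠ 0 →
      (∀ v : Place k ↥(modularFunctionFieldFullC k N), v.ord f = 0) →
      ∃ a : k, f = algebraMap k ↥(modularFunctionFieldFullC k N) a := by
  intro f _ h
  haveI := relimc_finite k N
  exact pa36_const_of_ord_eq_zero (relimc_J k N) (relimc_J_transcendental k N) f h

/-- `j` is transcendental and `F_k(N)` is finite over `k(j)`, packaged for consumers who need a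
transcendence generator of `modularFunctionFieldFullC k N`. -/
theorem tc21_exists_gen_fullC (N : ℕ) [NeZero N] :
    ∃ x : ↥(modularFunctionFieldFullC k N), Transcendental k x ∧
      FiniteDimensional k⟮x⟯ ↥(modularFunctionFieldFullC k N) ∧
      (x : LaurentSeries k) = jqModC k :=
  ⟨relimc_J k N, relimc_J_transcendental k N, relimc_finite k N, rfl⟩

end tc21_fullC

section tc21_bc

variable (L : Type) [Field L] [Algebra ℚ L] [IsAlgClosed L] [CharZero L]

/-- `laurentBaseChange L (modularFunctionFieldFull N)` has principal divisors (`L` algebraically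
closed of characteristic `0`; `L = ℂ` is the field `F_ℂ(N)` of M2). -/
theorem tc21_hasPD_bc (N : ℕ) [NeZero N] :
    HasPrincipalDivisors L ↥(laurentBaseChange L (modularFunctionFieldFull N)) := by
  rw [cg36_baseChange_eq_fullC L N]
  exact tc21_hasPD_fullC L N

/-- `hconst` for `laurentBaseChange L (modularFunctionFieldFull N)`. -/
theorem tc21_hconst_bc (N : ℕ) [NeZero N] :
    ∀ f : ↥(laurentBaseChange L (modularFunctionFieldFull N)), f ≠ 0 →
      (∀ v : Place L ↥(laurentBaseChange L (modularFunctionFieldFull N)), v.ord f = 0) →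
      ∃ a : L, f = algebraMap L ↥(laurentBaseChange L (modularFunctionFieldFull N)) a := by
  rw [cg36_baseChange_eq_fullC L N]
  exact tc21_hconst_fullC L N

/-- A transcendence generator of `laurentBaseChange L (modularFunctionFieldFull N)`. -/
theorem tc21_exists_gen_bc (N : ℕ) [NeZero N] :
    ∃ x : ↥(laurentBaseChange L (modularFunctionFieldFull N)), Transcendental L x ∧
      FiniteDimensional L⟮x⟯ ↥(laurentBaseChange L (modularFunctionFieldFull N)) ∧
      (x : LaurentSeries L) = jqModC L := by
  rw [cg36_baseChange_eq_fullC L N]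
  exact tc21_exists_gen_fullC L N

end tc21_bc

end Fermat.Agent.S42
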