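/-
# S42, M8 seam (helper45): the character of the Hecke root, concretely

`N ≥ 1`, `ℓ ∤ N` prime, `h ∈ mer95_MER` with `γ • h = e (χ γ) * h` for `γ ∈ Γ₀(N)`
(`χ : Additive (Gamma0 N) →+ A`, `e : Multiplicative A →* ℂ`).  The product

  `H := ∏ q : Γ₀(N) ⧸ Γ₀(N ℓ), (q.out * diag(ℓ, 1)⁻¹) • h`

(the root of the norm along `heckeAlphaBar` of `heckeBetaBar u` produced by K3-relative with the
representatives `Quotient.out`) satisfies `γ • H = e (heckeHom N ℓ A χ γ) * H`: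
the character of the Hecke root is the S16 Hecke operator on the nose (no adjoint, no inverse).
-/
import Mathlib
import Fermat.Agent.S42.Mer95
import Fermat.Agent.S42.HeckeTheta45
import Fermat.Agent.S41.HeckeId43

set_option autoImplicit false

open CongruenceSubgroup UpperHalfPlane
open scoped MatrixGroups

namespace Fermat.Agent.S42

open Fermat.Agent.S16 Fermat.Agent.S41

noncomputable section

/-! ### Integer matrices in `GL(2, ℝ)⁺` -/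

theorem hc45_gl_congr {A B : Matrix (Fin 2) (Fin 2) ℤ} (h : A = B) (hA : 0 < A.det)
    (hB : 0 < B.det) : mer95_gl A hA = mer95_gl B hB := by
  subst h; rfl

theorem hc45_gl_mul (A B : Matrix (Fin 2) (Fin 2) ℤ) (hA : 0 < A.det) (hB : 0 < B.det)
    (hAB : 0 < (A * B).det) : mer95_gl A hA * mer95_gl B hB = mer95_gl (A * B) hAB := by
  apply Subtype.ext
  apply Matrix.GeneralLinearGroup.ext
  intro i j
  have h1 : (((mer95_gl A hA * mer95_gl B hB : GL(2, ℝ)⁺) : GL (Fin 2) ℝ) :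
      Matrix (Fin 2) (Fin 2) ℝ) = A.map (Int.cast : ℤ → ℝ) * B.map (Int.cast : ℤ → ℝ) := rfl
  have h2 : ((mer95_gl (A * B) hAB : GL (Fin 2) ℝ) : Matrix (Fin 2) (Fin 2) ℝ)
      = (A * B).map (Int.cast : ℤ → ℝ) := rfl
  rw [h1, h2]
  have h3 : (A * B).map (Int.castRingHom ℝ) = A.map (Int.castRingHom ℝ) * B.map (Int.castRingHom ℝ) :=
    Matrix.map_mul
  exact congrFun (congrFun h3.symm i) j

theorem hc45_slToGL_eq (g : SL(2, ℤ)) :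
    mer95_slToGL g = mer95_gl (g : Matrix (Fin 2) (Fin 2) ℤ)
      (by rw [Matrix.SpecialLinearGroup.det_coe]; exact one_pos) := by
  apply Subtype.ext
  apply Matrix.GeneralLinearGroup.ext
  intro i j
  rfl

/-- An integer matrix identity `A * B = C * D` gives the same identity in `GL(2, ℝ)⁺`. -/
theorem hc45_gl_mul_eq {A B C D : Matrix (Fin 2) (Fin 2) ℤ} (h : A * B = C * D)
    (hA : 0 < A.det) (hB : 0 < B.det) (hC : 0 < C.det) (hD : 0 < D.det) :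
    mer95_gl A hA * mer95_gl B hB = mer95_gl C hC * mer95_gl D hD := by
  have hAB : 0 < (A * B).det := by rw [Matrix.det_mul]; exact mul_pos hA hB
  have hCD : 0 < (C * D).det := by rw [Matrix.det_mul]; exact mul_pos hC hD
  rw [hc45_gl_mul A B hA hB hAB, hc45_gl_mul C D hC hD hCD]
  exact hc45_gl_congr h _ _

/-! ### The family form of the multiplier lemma -/

/-- Family form of `ht45_char`. -/
theorem hc45_char_fam {MM : Type*} [Field MM] {GG : Type*} [Group GG] [MulSemiringAction GG MM]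
    {ι : Type*} [Fintype ι] (b : ι → GG) (h : MM) (cj : ι → MM) (γ : GG) (π : Equiv.Perm ι)
    (γ' : ι → GG) (hπ : ∀ j, γ * b j = b (π j) * γ' j)
    (hc : ∀ j, γ' j • h = cj j * h) (hcfix : ∀ (g : GG) (j : ι), g • cj j = cj j) :
    γ • (∏ j, b j • h) = (∏ j, cj j) * ∏ j, b j • h := by
  rw [Finset.smul_prod']
  have h1 : ∀ j, γ • b j • h = cj j * b (π j) • h := fun j => by
    rw [← mul_smul, hπ j, mul_smul, hc j, smul_mul', hcfix]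
  rw [Finset.prod_congr rfl fun j _ => h1 j, Finset.prod_mul_distrib]
  congr 1
  exact Equiv.prod_comp π fun j => b j • h

/-! ### Conjugation by `diag(ℓ, 1)` -/

section Conj

variable {N ℓ : ℕ}

/-- The lower left entry of `x ∈ Γ₀(N ℓ)` divided by `ℓ`. -/
def hc45_c (x : Gamma0 (N * ℓ)) : ℤ := (N : ℤ) * (lb_Gamma0_dvd x).choose

theorem hc45_c_spec (x : Gamma0 (N * ℓ)) :
    ((x : SL(2, ℤ)) : Matrix (Fin 2) (Fin 2) ℤ) 1 0 = (ℓ : ℤ) * hc45_c x := by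
  have h := (lb_Gamma0_dvd x).choose_spec
  rw [hc45_c]
  conv_lhs => rw [h]
  push_cast
  ring

theorem hc45_det (x : Gamma0 (N * ℓ)) :
    ((x : SL(2, ℤ)) : Matrix (Fin 2) (Fin 2) ℤ) 0 0 * ((x : SL(2, ℤ)) : Matrix (Fin 2) (Fin 2) ℤ) 1 1
      - (ℓ : ℤ) * ((x : SL(2, ℤ)) : Matrix (Fin 2) (Fin 2) ℤ) 0 1 * hc45_c x = 1 := by
  have h1 := (x : SL(2, ℤ)).det_coe
  rw [Matrix.det_fin_two, hc45_c_spec x] at h1
  linear_combination h1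

/-- Conjugation by `diag(ℓ, 1)`: `x = [[a, b], [c, d]] ∈ Γ₀(N ℓ) ↦ [[a, ℓ b], [c / ℓ, d]] ∈ Γ₀(N)`. -/
def hc45_cd (x : Gamma0 (N * ℓ)) : Gamma0 N :=
  lbMk N (((x : SL(2, ℤ)) : Matrix (Fin 2) (Fin 2) ℤ) 0 0)
    ((ℓ : ℤ) * ((x : SL(2, ℤ)) : Matrix (Fin 2) (Fin 2) ℤ) 0 1) (hc45_c x)
    (((x : SL(2, ℤ)) : Matrix (Fin 2) (Fin 2) ℤ) 1 1) (hc45_det x) (dvd_mul_right _ _)

theorem hc45_cd_coe (x : Gamma0 (N * ℓ)) :
    ((hc45_cd x : SL(2, ℤ)) : Matrix (Fin 2) (Fin 2) ℤ)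
      = !![((x : SL(2, ℤ)) : Matrix (Fin 2) (Fin 2) ℤ) 0 0,
          (ℓ : ℤ) * ((x : SL(2, ℤ)) : Matrix (Fin 2) (Fin 2) ℤ) 0 1;
          hc45_c x, ((x : SL(2, ℤ)) : Matrix (Fin 2) (Fin 2) ℤ) 1 1] := rfl

/-- `diag(ℓ, 1) * x = c_d(x) * diag(ℓ, 1)`. -/
theorem hc45_cd_spec (x : Gamma0 (N * ℓ)) :
    (!![(ℓ : ℤ), 0; 0, 1] : Matrix (Fin 2) (Fin 2) ℤ) * ((x : SL(2, ℤ)) : Matrix (Fin 2) (Fin 2) ℤ)
      = ((hc45_cd x : SL(2, ℤ)) : Matrix (Fin 2) (Fin 2) ℤ) * !![(ℓ : ℤ), 0; 0, 1] := by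
  have hx : ((x : SL(2, ℤ)) : Matrix (Fin 2) (Fin 2) ℤ) = !![_, _; _, _] := Matrix.eta_fin_two _
  have h10 := hc45_c_spec x
  rw [hc45_cd_coe, tr43_mul_of]
  generalize hc45_c x = c at h10 ⊢
  generalize ((x : SL(2, ℤ)) : Matrix (Fin 2) (Fin 2) ℤ) = X at hx h10 ⊢
  rw [hx, tr43_mul_of]
  simp only [Matrix.of_apply, Matrix.cons_val_zero, Matrix.cons_val_one, Matrix.cons_val',
    Matrix.cons_val_fin_one] at h10 ⊢
  exact lb_mk_eq (by ring) (by ring) (by rw [h10]; ring) (by ring)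

/-- The same identity in `GL(2, ℝ)⁺`. -/
theorem hc45_cd_gl (x : Gamma0 (N * ℓ))
    (hpos : 0 < (!![(ℓ : ℤ), 0; 0, 1] : Matrix (Fin 2) (Fin 2) ℤ).det) :
    mer95_gl !![(ℓ : ℤ), 0; 0, 1] hpos * mer95_slToGL (x : SL(2, ℤ))
      = mer95_slToGL (hc45_cd x : SL(2, ℤ)) * mer95_gl !![(ℓ : ℤ), 0; 0, 1] hpos := by
  rw [hc45_slToGL_eq, hc45_slToGL_eq]
  exact hc45_gl_mul_eq (hc45_cd_spec x) _ _ _ _

end Conj

/-! ### The character of the Hecke root -/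

section Main

variable {N ℓ : ℕ}

/-- `heckeHom N ℓ` as the transfer along `Γ₀(N ℓ) ≤ Γ₀(N)` of `χ ∘ c_d`, `c_d` = conjugation by
`diag(ℓ, 1)`. -/
theorem hc45_heckeHom_cd (hℓ : ℓ.Prime) (hℓN : ¬ ℓ ∣ N) {A : Type*} [AddCommGroup A]
    (χ : Additive (Gamma0 N) →+ A)
    [Fintype (Gamma0 N ⧸ (Gamma0 (N * ℓ)).subgroupOf (Gamma0 N))] (g : Gamma0 N) :
    heckeHom N ℓ A χ (Additive.ofMul g)
      = ∑ q : Gamma0 N ⧸ (Gamma0 (N * ℓ)).subgroupOf (Gamma0 N),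
          χ (Additive.ofMul (hc45_cd (⟨((ct77_h ((Gamma0 (N * ℓ)).subgroupOf (Gamma0 N)) g q
              : Gamma0 N) : SL(2, ℤ)),
            Subgroup.mem_subgroupOf.mp
              (ct77_h_mem ((Gamma0 (N * ℓ)).subgroupOf (Gamma0 N)) g q)⟩ : Gamma0 (N * ℓ)))) := by
  classical
  obtain ⟨D⟩ := tr43_Data_exists (N := N) (q := ℓ) ((Nat.Prime.coprime_iff_not_dvd hℓ).mpr hℓN)
  have hcw : ∀ y : Gamma0 (N * ℓ), D.w * ((y : SL(2, ℤ)) : Matrix (Fin 2) (Fin 2) ℤ)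
      = (((D.gam' * hc45_cd y * D.gam'⁻¹ : Gamma0 N) : SL(2, ℤ)) : Matrix (Fin 2) (Fin 2) ℤ)
        * D.w := by
    intro y
    have h1 : (((D.gam'⁻¹ : Gamma0 N) : SL(2, ℤ)) : Matrix (Fin 2) (Fin 2) ℤ)
        * ((D.gam' : SL(2, ℤ)) : Matrix (Fin 2) (Fin 2) ℤ) = 1 := by
      rw [← Matrix.SpecialLinearGroup.coe_mul, ← Subgroup.coe_mul, inv_mul_cancel,
        Subgroup.coe_one, Matrix.SpecialLinearGroup.coe_one]
    have h2 := hc45_cd_spec y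
    rw [D.w_eq, Subgroup.coe_mul, Subgroup.coe_mul, Matrix.SpecialLinearGroup.coe_mul,
      Matrix.SpecialLinearGroup.coe_mul]
    rw [show lbMat ℓ none = !![(ℓ : ℤ), 0; 0, 1] from rfl]
    calc ((D.gam' : SL(2, ℤ)) : Matrix (Fin 2) (Fin 2) ℤ) * !![(ℓ : ℤ), 0; 0, 1]
          * ((y : SL(2, ℤ)) : Matrix (Fin 2) (Fin 2) ℤ)
        = ((D.gam' : SL(2, ℤ)) : Matrix (Fin 2) (Fin 2) ℤ)
          * (((hc45_cd y : SL(2, ℤ)) : Matrix (Fin 2) (Fin 2) ℤ) * !![(ℓ : ℤ), 0; 0, 1]) := by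
          rw [mul_assoc, h2]
      _ = ((D.gam' : SL(2, ℤ)) : Matrix (Fin 2) (Fin 2) ℤ)
          * ((hc45_cd y : SL(2, ℤ)) : Matrix (Fin 2) (Fin 2) ℤ)
          * ((((D.gam'⁻¹ : Gamma0 N) : SL(2, ℤ)) : Matrix (Fin 2) (Fin 2) ℤ)
            * ((D.gam' : SL(2, ℤ)) : Matrix (Fin 2) (Fin 2) ℤ)) * !![(ℓ : ℤ), 0; 0, 1] := by
          rw [h1, mul_one, mul_assoc]
      _ = _ := by simp only [mul_assoc]
  have hH := hid43_heckeHom_cores hℓ hℓN D (fun y => D.gam' * hc45_cd y * D.gam'⁻¹) hcw χ g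
  rw [hH, finsum_eq_sum_of_fintype]
  refine Finset.sum_congr rfl fun q _ => ?_
  rw [ofMul_mul, ofMul_mul, map_add, map_add, ofMul_inv, map_neg]
  abel

/-- **The character of the Hecke root.**  If `γ • h = e (χ γ) * h` for `γ ∈ Γ₀(N)`, then
`H := ∏ q : Γ₀(N) ⧸ Γ₀(N ℓ), (q.out * diag(ℓ, 1)⁻¹) • h` satisfies
`γ • H = e (heckeHom N ℓ A χ γ) * H`. -/
theorem hc45_char (hℓ : ℓ.Prime) (hℓN : ¬ ℓ ∣ N) {A : Type*} [AddCommGroup A]
    (χ : Additive (Gamma0 N) →+ A) (e : Multiplicative A →* ℂ) (h : mer95_MER)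
    (hh : ∀ γ : Gamma0 N, (γ : SL(2, ℤ)) • h
      = algebraMap ℂ mer95_MER (e (Multiplicative.ofAdd (χ (Additive.ofMul γ)))) * h)
    (hpos : 0 < (!![(ℓ : ℤ), 0; 0, 1] : Matrix (Fin 2) (Fin 2) ℤ).det)
    [Fintype (Gamma0 N ⧸ (Gamma0 (N * ℓ)).subgroupOf (Gamma0 N))] (γ : Gamma0 N) :
    (γ : SL(2, ℤ)) • (∏ q : Gamma0 N ⧸ (Gamma0 (N * ℓ)).subgroupOf (Gamma0 N),
        (mer95_slToGL ((q.out : Gamma0 N) : SL(2, ℤ))
          * (mer95_gl !![(ℓ : ℤ), 0; 0, 1] hpos)⁻¹) • h)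
      = algebraMap ℂ mer95_MER
          (e (Multiplicative.ofAdd (heckeHom N ℓ A χ (Additive.ofMul γ))))
        * ∏ q : Gamma0 N ⧸ (Gamma0 (N * ℓ)).subgroupOf (Gamma0 N),
            (mer95_slToGL ((q.out : Gamma0 N) : SL(2, ℤ))
              * (mer95_gl !![(ℓ : ℤ), 0; 0, 1] hpos)⁻¹) • h := by
  let H' : Subgroup (Gamma0 N) := (Gamma0 (N * ℓ)).subgroupOf (Gamma0 N)
  let a : GL(2, ℝ)⁺ := (mer95_gl !![(ℓ : ℤ), 0; 0, 1] hpos)⁻¹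
  have ha : a = (mer95_gl !![(ℓ : ℤ), 0; 0, 1] hpos)⁻¹ := rfl
  let x : (Gamma0 N ⧸ H') → Gamma0 (N * ℓ) := fun q =>
    ⟨((ct77_h H' γ q : Gamma0 N) : SL(2, ℤ)),
      Subgroup.mem_subgroupOf.mp (ct77_h_mem H' γ q)⟩
  have hπ : ∀ q : Gamma0 N ⧸ H',
      mer95_slToGL (γ : SL(2, ℤ)) * (mer95_slToGL ((q.out : Gamma0 N) : SL(2, ℤ)) * a)
        = (mer95_slToGL (((MulAction.toPerm γ q : Gamma0 N ⧸ H').out : Gamma0 N) : SL(2, ℤ)) * a)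
          * mer95_slToGL (hc45_cd (x q) : SL(2, ℤ)) := by
    intro q
    have h1 : (γ : SL(2, ℤ)) * ((q.out : Gamma0 N) : SL(2, ℤ))
        = (((γ • q : Gamma0 N ⧸ H').out : Gamma0 N) : SL(2, ℤ)) * ((x q : Gamma0 (N * ℓ)) : SL(2, ℤ)) := by
      show (γ : SL(2, ℤ)) * ((q.out : Gamma0 N) : SL(2, ℤ))
        = (((γ • q : Gamma0 N ⧸ H').out : Gamma0 N) : SL(2, ℤ))
          * ((ct77_h H' γ q : Gamma0 N) : SL(2, ℤ))
      rw [← Subgroup.coe_mul, ← Subgroup.coe_mul]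
      congr 1
      simp [ct77_h, mul_assoc]
    have h2 : mer95_slToGL ((x q : Gamma0 (N * ℓ)) : SL(2, ℤ)) * a
        = a * mer95_slToGL (hc45_cd (x q) : SL(2, ℤ)) := by
      have h3 := hc45_cd_gl (x q) hpos
      rw [ha, mul_inv_eq_iff_eq_mul, mul_assoc, ← h3, ← mul_assoc, inv_mul_cancel, one_mul]
    rw [MulAction.toPerm_apply, ← mul_assoc, ← map_mul, h1, map_mul, mul_assoc, h2, mul_assoc]
  have key := hc45_char_fam (fun q : Gamma0 N ⧸ H' =>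
      mer95_slToGL ((q.out : Gamma0 N) : SL(2, ℤ)) * a) h
    (fun q => algebraMap ℂ mer95_MER
      (e (Multiplicative.ofAdd (χ (Additive.ofMul (hc45_cd (x q)))))))
    (mer95_slToGL (γ : SL(2, ℤ))) (MulAction.toPerm γ)
    (fun q => mer95_slToGL (hc45_cd (x q) : SL(2, ℤ))) hπ
    (fun q => hh (hc45_cd (x q))) (fun g q => mer95_smul_C g _)
  refine (mer95_SL_smul_eq _ _).trans (key.trans ?_)
  congr 1
  rw [← map_prod, ← map_prod, ← ofAdd_sum, hc45_heckeHom_cd hℓ hℓN χ γ]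

end Main

/-! ### The Hecke pair: root of the norm and its character in one statement -/

section Pair

variable {N ℓ : ℕ}
variable {K F F' : Type*} [Field K] [Field F] [Field F'] [Algebra K F] [Algebra K F']

/-- **(H1) + (H2)**.  `φ` = pull-back map (`heckeBetaBar`), `ψ` = push-forward map
(`heckeAlphaBar`); `ev`, `ev'` the analytic embeddings of levels `N`, `N ℓ`.  Hypotheses:
`ev' (φ x) = diag(ℓ,1)⁻¹ • ev x` (i.e. `τ ↦ (ev x)(ℓ τ)`), and K3-relative for `ψ` with the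
representatives `Quotient.out` of `Γ₀(N) ⧸ Γ₀(N ℓ)`.  If `h ^ p = ev u` and `h` has character
`e ∘ χ` on `Γ₀(N)`, then `H := ∏ q, (q.out * diag(ℓ,1)⁻¹) • h` satisfies
`H ^ p = ev (Norm_ψ (φ u))` and has character `e ∘ heckeHom N ℓ A χ`. -/
theorem hc45_hecke_pair (hℓ : ℓ.Prime) (hℓN : ¬ ℓ ∣ N)
    (φ ψ : F →ₐ[K] F') (ev : F →+* mer95_MER) (ev' : F' →+* mer95_MER)
    (hpos : 0 < (!![(ℓ : ℤ), 0; 0, 1] : Matrix (Fin 2) (Fin 2) ℤ).det)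
    (hφev : ∀ x : F, ev' (φ x) = (mer95_gl !![(ℓ : ℤ), 0; 0, 1] hpos)⁻¹ • ev x)
    [Fintype (Gamma0 N ⧸ (Gamma0 (N * ℓ)).subgroupOf (Gamma0 N))]
    (hnorm : ∀ w : F', ev (ht45_normAlong ψ w)
      = ∏ q : Gamma0 N ⧸ (Gamma0 (N * ℓ)).subgroupOf (Gamma0 N),
          ((q.out : Gamma0 N) : SL(2, ℤ)) • ev' w)
    {A : Type*} [AddCommGroup A] (χ : Additive (Gamma0 N) →+ A) (e : Multiplicative A →* ℂ)
    (h : mer95_MER)
    (hh : ∀ γ : Gamma0 N, (γ : SL(2, ℤ)) • h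
      = algebraMap ℂ mer95_MER (e (Multiplicative.ofAdd (χ (Additive.ofMul γ)))) * h)
    (p : ℕ) {u : F} (hu : h ^ p = ev u) :
    (∏ q : Gamma0 N ⧸ (Gamma0 (N * ℓ)).subgroupOf (Gamma0 N),
        (mer95_slToGL ((q.out : Gamma0 N) : SL(2, ℤ))
          * (mer95_gl !![(ℓ : ℤ), 0; 0, 1] hpos)⁻¹) • h) ^ p = ev (ht45_normAlong ψ (φ u)) ∧
    (∀ γ : Gamma0 N,
      (γ : SL(2, ℤ)) • (∏ q : Gamma0 N ⧸ (Gamma0 (N * ℓ)).subgroupOf (Gamma0 N),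
        (mer95_slToGL ((q.out : Gamma0 N) : SL(2, ℤ))
          * (mer95_gl !![(ℓ : ℤ), 0; 0, 1] hpos)⁻¹) • h)
      = algebraMap ℂ mer95_MER
          (e (Multiplicative.ofAdd (heckeHom N ℓ A χ (Additive.ofMul γ))))
        * ∏ q : Gamma0 N ⧸ (Gamma0 (N * ℓ)).subgroupOf (Gamma0 N),
            (mer95_slToGL ((q.out : Gamma0 N) : SL(2, ℤ))
              * (mer95_gl !![(ℓ : ℤ), 0; 0, 1] hpos)⁻¹) • h) ∧
    (h ≠ 0 → (∏ q : Gamma0 N ⧸ (Gamma0 (N * ℓ)).subgroupOf (Gamma0 N),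
        (mer95_slToGL ((q.out : Gamma0 N) : SL(2, ℤ))
          * (mer95_gl !![(ℓ : ℤ), 0; 0, 1] hpos)⁻¹) • h) ≠ 0) := by
  refine ⟨?_, hc45_char hℓ hℓN χ e h hh hpos, fun h0 => ht45_prod_ne_zero _ h0⟩
  exact ht45_root φ ψ ev ev' ((mer95_gl !![(ℓ : ℤ), 0; 0, 1] hpos)⁻¹) hφev
    (fun q : Gamma0 N ⧸ (Gamma0 (N * ℓ)).subgroupOf (Gamma0 N) =>
      mer95_slToGL ((q.out : Gamma0 N) : SL(2, ℤ))) hnorm p hu

end Pair

end

end Fermat.Agent.S42
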