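import Fermat.Agent.S42.ThetaFinal70
import Fermat.Agent.S42.XRef94
import Fermat.Agent.S42.K2CInst5
import Fermat.Agent.S42.HeckeHK10
import Fermat.Agent.S42.EigenTensor54

/-!
# S42 lead referee file (helper51): the closed form of (W1)

`(W1)`: for `N ≥ 1`, a prime `p ≥ 5`, a normalized eigenform `f` of level `N` and a ring
homomorphism `ψ : Z̄ → k0` into a field of characteristic `p`, there is a nonzero vector of
`k0 ⊗ J₀(N)(ℚ̄)[p]` which is an eigenvector of all `T_ℓ`, `ℓ ∤ N p`, with eigenvalues `ψ (a_ℓ)`.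
-/

set_option autoImplicit false

open CongruenceSubgroup ModularCurve ModularCurve.Period AlgebraicCurve
open scoped TensorProduct MatrixGroups

namespace Fermat.Agent.S42

theorem ch51_W1 (φ : AlgebraicClosure ℚ →+* ℂ) (N : ℕ) [NeZero N] (p : ℕ) [Fact p.Prime]
    (hp5 : 5 ≤ p) {k0 : Type*} [Field k0] [Algebra (ZMod p) k0]
    {f : CuspForm (Gamma0 N) 2} (hf : f.IsNormalizedEigenform)
    (ψ : integralClosure ℤ ℂ →+* k0) :
    ∃ y : k0 ⊗[ZMod p] w1a28_J N p, y ≠ 0 ∧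
      ∀ ℓ : Nat.Primes, ¬ (ℓ : ℕ) ∣ N * p →
        ∃ a : integralClosure ℤ ℂ, (a : ℂ) = ModularFormClass.qCoeff (⇑f) ℓ ∧
          (w1a28_TJ N p ℓ).baseChange k0 y = ψ a • y :=
  th70_final_W1 φ N p (gx94_X N p hp5) (gk5_K2C N p) (hk10_HK φ N p) f ψ
    (m9t54_heig' N p hf ψ)

end Fermat.Agent.S42
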