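import Mathlib

/-
BLR-lite (twin of `BLR75`), helper6.  Mathlib only.

Main result `blr6_main`: let `k` be an algebraically closed field, `rho : G →* End k W` a
representation on a nonzero finite-dimensional space and `chi : G →* kˣ` a character such that
every `rho g` satisfies a quadratic relation `rho g ^ 2 - t • rho g + chi g = 0`.  Then there is a
two-dimensional representation `rho'` whose characteristic polynomials are
`X ^ 2 - t X + chi g`, and which is trivial wherever `rho` and `chi` are.

Proof (elementary, all characteristics): pass to a minimal nonzero stable subspace `V`.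
If some `x = rho g0` is not scalar on `V` and `v` is an eigenvector (eigenvalue `lam`), the
identity `tz - x y = (ty - y) (tx - x)` (`blr6_star`) shows `(x - (tx - lam)) V ⊆ k v`
(`blr6_key`), so the eigenspaces of `x` are lines (`blr6_eigen_line`) and rank-nullity gives
`dim V ≤ 2` (`blr6_finrank_le_two`).  In dimension two the relation is the characteristic
polynomial (`blr6_charpoly_two`); in the scalar case take `diag (c, chi / c)`.
-/

namespace Fermat.Agent.S42

open Polynomial

/-- The `★` identity: if `x`, `y`, `x * y` satisfy quadratic relations with constant terms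
`ex`, `ey`, `ex * ey` and `x * y` has a left inverse, then
`tz - x y = (ty - y) (tx - x)`. -/
theorem blr6_star {k : Type*} [Field k] {R : Type*} [Ring R] [Algebra k R]
    (x y u : R) (tx ty tz ex ey : k)
    (hx : x * x - tx • x + ex • 1 = 0) (hy : y * y - ty • y + ey • 1 = 0)
    (hz : (x * y) * (x * y) - tz • (x * y) + (ex * ey) • 1 = 0)
    (hu : u * (x * y) = 1) :
    tz • (1 : R) - x * y = (ty • 1 - y) * (tx • 1 - x) := by
  have h1 : x * (tx • 1 - x) = ex • 1 := by
    have e : x * (tx • 1 - x) = ex • 1 - (x * x - tx • x + ex • 1) := by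
      rw [mul_sub, mul_smul_comm, mul_one]; abel
    rw [e, hx, sub_zero]
  have h2 : y * (ty • 1 - y) = ey • 1 := by
    have e : y * (ty • 1 - y) = ey • 1 - (y * y - ty • y + ey • 1) := by
      rw [mul_sub, mul_smul_comm, mul_one]; abel
    rw [e, hy, sub_zero]
  have h3 : (x * y) * (tz • 1 - x * y) = (ex * ey) • 1 := by
    have e : (x * y) * (tz • 1 - x * y)
        = (ex * ey) • 1 - ((x * y) * (x * y) - tz • (x * y) + (ex * ey) • 1) := by
      rw [mul_sub, mul_smul_comm, mul_one]; abel
    rw [e, hz, sub_zero]
  have h4 : (x * y) * ((ty • 1 - y) * (tx • 1 - x)) = (ex * ey) • 1 := by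
    calc (x * y) * ((ty • 1 - y) * (tx • 1 - x))
        = x * (y * (ty • 1 - y)) * (tx • 1 - x) := by simp only [mul_assoc]
      _ = ey • (x * (tx • 1 - x)) := by
          rw [h2, mul_smul_comm, mul_one, smul_mul_assoc]
      _ = (ex * ey) • 1 := by rw [h1, smul_smul, mul_comm]
  calc tz • (1 : R) - x * y = (u * (x * y)) * (tz • 1 - x * y) := by rw [hu, one_mul]
    _ = u * ((x * y) * (tz • 1 - x * y)) := mul_assoc _ _ _
    _ = u * ((x * y) * ((ty • 1 - y) * (tx • 1 - x))) := by rw [h3, h4]
    _ = (u * (x * y)) * ((ty • 1 - y) * (tx • 1 - x)) := (mul_assoc _ _ _).symm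
    _ = (ty • 1 - y) * (tx • 1 - x) := by rw [hu, one_mul]

section irr

variable {k : Type*} [Field k] {G : Type*} [Group G] {V : Type*} [AddCommGroup V] [Module k V]
  (rho : G →* Module.End k V) (chi : G →* kˣ)

/-- Key claim: if `v` is an eigenvector of `rho g0` (eigenvalue `lam`) whose orbit spans `V`,
then `rho g0 - (tx - lam)` maps `V` into the line `k v`. -/
theorem blr6_key
    (hq : ∀ g, ∃ t : k, rho g * rho g - t • rho g + (chi g : k) • 1 = 0)
    (g0 : G) (tx : k) (hx : rho g0 * rho g0 - tx • rho g0 + (chi g0 : k) • 1 = 0)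
    (v : V) (lam : k) (hv : rho g0 v = lam • v)
    (hspan : Submodule.span k (Set.range fun h => rho h v) = ⊤) (w : V) :
    ∃ c : k, rho g0 w - (tx - lam) • w = c • v := by
  have hw : w ∈ Submodule.span k (Set.range fun h => rho h v) := by rw [hspan]; trivial
  induction hw using Submodule.span_induction with
  | mem w hw =>
    obtain ⟨h, rfl⟩ := hw
    obtain ⟨ty, hy⟩ := hq h
    obtain ⟨tz, hz⟩ := hq (g0 * h)
    have hz' : (rho g0 * rho h) * (rho g0 * rho h) - tz • (rho g0 * rho h)
        + ((chi g0 : k) * (chi h : k)) • 1 = 0 := by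
      rw [map_mul, map_mul, Units.val_mul] at hz
      exact hz
    have hu : rho (g0 * h)⁻¹ * (rho g0 * rho h) = 1 := by
      rw [← map_mul, ← map_mul, inv_mul_cancel, map_one]
    have hstar := blr6_star (rho g0) (rho h) (rho (g0 * h)⁻¹) tx ty tz _ _ hx hy hz' hu
    have h5 := congrArg (fun f : Module.End k V => f v) hstar
    simp only [LinearMap.sub_apply, LinearMap.smul_apply, Module.End.mul_apply,
      Module.End.one_apply, hv, map_sub, map_smul] at h5
    refine ⟨tz - (tx - lam) * ty, ?_⟩
    linear_combination (norm := module) -h5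
  | zero => exact ⟨0, by simp⟩
  | add a b _ _ ha hb =>
    obtain ⟨c1, h1⟩ := ha
    obtain ⟨c2, h2⟩ := hb
    exact ⟨c1 + c2, by rw [map_add, smul_add, add_smul, ← h1, ← h2]; abel⟩
  | smul a b _ hb =>
    obtain ⟨c, hc⟩ := hb
    exact ⟨a * c, by rw [map_smul, smul_comm, ← smul_sub, hc, smul_smul]⟩

/-- If `rho g0` is not a scalar, each of its eigenspaces is at most a line. -/
theorem blr6_eigen_line
    (hq : ∀ g, ∃ t : k, rho g * rho g - t • rho g + (chi g : k) • 1 = 0)
    (hspan : ∀ v : V, v ≠ 0 → Submodule.span k (Set.range fun h => rho h v) = ⊤)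
    (g0 : G) (hns : ∀ c : k, rho g0 ≠ c • 1) (tx : k)
    (hx : rho g0 * rho g0 - tx • rho g0 + (chi g0 : k) • 1 = 0)
    (lam : k) (v : V) (hv0 : v ≠ 0) (hv : rho g0 v = lam • v) (w : V)
    (hw : rho g0 w = lam • w) :
    ∃ a : k, w = a • v := by
  by_cases hw0 : w = 0
  · exact ⟨0, by simp [hw0]⟩
  have h1 := blr6_key rho chi hq g0 tx hx v lam hv (hspan v hv0)
  have h2 := blr6_key rho chi hq g0 tx hx w lam hw (hspan w hw0)
  obtain ⟨u0, hu0⟩ : ∃ u0, rho g0 u0 - (tx - lam) • u0 ≠ 0 := by
    by_contra hcon
    push Not at hcon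
    exact hns (tx - lam) (LinearMap.ext fun u => by
      have := hcon u
      rw [sub_eq_zero] at this
      simpa using this)
  obtain ⟨c0, hc0⟩ := h1 u0
  obtain ⟨c1, hc1⟩ := h2 u0
  have hc0' : c0 ≠ 0 := by rintro rfl; exact hu0 (by rw [hc0, zero_smul])
  have hc1' : c1 ≠ 0 := by rintro rfl; exact hu0 (by rw [hc1, zero_smul])
  refine ⟨c1⁻¹ * c0, ?_⟩
  rw [mul_smul, ← hc0, hc1, smul_smul, inv_mul_cancel₀ hc1', one_smul]

/-- If some `rho g0` is not a scalar, then `V` has dimension at most two. -/
theorem blr6_finrank_le_two [IsAlgClosed k] [FiniteDimensional k V] [Nontrivial V]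
    (hq : ∀ g, ∃ t : k, rho g * rho g - t • rho g + (chi g : k) • 1 = 0)
    (hspan : ∀ v : V, v ≠ 0 → Submodule.span k (Set.range fun h => rho h v) = ⊤)
    (g0 : G) (hns : ∀ c : k, rho g0 ≠ c • 1) : Module.finrank k V ≤ 2 := by
  obtain ⟨tx, hx⟩ := hq g0
  obtain ⟨lam, hlam⟩ := Module.End.exists_eigenvalue (rho g0)
  obtain ⟨v, hv⟩ := hlam.exists_hasEigenvector
  have hv0 : v ≠ 0 := hv.2
  have hv1 : rho g0 v = lam • v := hv.apply_eq_smul
  have hfa : ∀ w, (rho g0 - (tx - lam) • (1 : Module.End k V)) w
      = rho g0 w - (tx - lam) • w := fun w => by simp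
  have hrange : LinearMap.range (rho g0 - (tx - lam) • (1 : Module.End k V))
      ≤ Submodule.span k {v} := by
    rintro _ ⟨w, rfl⟩
    obtain ⟨c, hc⟩ := blr6_key rho chi hq g0 tx hx v lam hv1 (hspan v hv0) w
    rw [Submodule.mem_span_singleton]
    exact ⟨c, by rw [hfa, hc]⟩
  have h1 : Module.finrank k (LinearMap.range (rho g0 - (tx - lam) • (1 : Module.End k V)))
      ≤ 1 := by
    calc _ ≤ Module.finrank k (Submodule.span k {v}) := Submodule.finrank_mono hrange
      _ = 1 := finrank_span_singleton hv0
  have h2 : Module.finrank k (LinearMap.ker (rho g0 - (tx - lam) • (1 : Module.End k V)))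
      ≤ 1 := by
    by_cases hker : LinearMap.ker (rho g0 - (tx - lam) • (1 : Module.End k V)) = ⊥
    · rw [hker]; simp
    · obtain ⟨u, hu, hu0⟩ := (Submodule.ne_bot_iff _).mp hker
      have hu1 : rho g0 u = (tx - lam) • u := by
        have := LinearMap.mem_ker.mp hu
        rw [hfa, sub_eq_zero] at this
        exact this
      have hle : LinearMap.ker (rho g0 - (tx - lam) • (1 : Module.End k V))
          ≤ Submodule.span k {u} := by
        intro w hw
        have hw1 : rho g0 w = (tx - lam) • w := by
          have := LinearMap.mem_ker.mp hw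
          rw [hfa, sub_eq_zero] at this
          exact this
        obtain ⟨a, ha⟩ :=
          blr6_eigen_line rho chi hq hspan g0 hns tx hx (tx - lam) u hu0 hu1 w hw1
        rw [Submodule.mem_span_singleton]
        exact ⟨a, ha.symm⟩
      calc _ ≤ Module.finrank k (Submodule.span k {u}) := Submodule.finrank_mono hle
        _ = 1 := finrank_span_singleton hu0
  have := LinearMap.finrank_range_add_finrank_ker (rho g0 - (tx - lam) • (1 : Module.End k V))
  omega

end irr

/-- Powers of an element with a quadratic relation `X² - t X + e` satisfy a quadratic relation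
with constant term `e ^ j`. -/
theorem blr6_pow {k : Type*} [Field k] {R : Type*} [Ring R] [Algebra k R]
    (x : R) (t e : k) (hx : x * x - t • x + e • 1 = 0) (j : ℕ) :
    ∃ t' : k, x ^ j * x ^ j - t' • x ^ j + e ^ j • 1 = 0 := by
  have h1 : x * (t • 1 - x) = e • 1 := by
    have e1 : x * (t • 1 - x) = e • 1 - (x * x - t • x + e • 1) := by
      rw [mul_sub, mul_smul_comm, mul_one]; abel
    rw [e1, hx, sub_zero]
  have h2 : (t • 1 - x) * x = e • 1 := by
    have e1 : (t • 1 - x) * x = e • 1 - (x * x - t • x + e • 1) := by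
      rw [sub_mul, smul_mul_assoc, one_mul]; abel
    rw [e1, hx, sub_zero]
  have hcomm : Commute (t • 1 - x) x := by
    show (t • 1 - x) * x = x * (t • 1 - x)
    rw [h1, h2]
  have key : ∀ j : ℕ, (∃ a : k, x ^ j + (t • 1 - x) ^ j = a • 1) ∧
      (∃ b : k, x ^ (j + 1) + (t • 1 - x) ^ (j + 1) = b • 1) := by
    intro j
    induction j with
    | zero =>
      refine ⟨⟨2, ?_⟩, ⟨t, ?_⟩⟩
      · rw [pow_zero, pow_zero, two_smul]
      · rw [zero_add, pow_one, pow_one]; abel
    | succ j ih =>
      obtain ⟨⟨a, ha⟩, ⟨b, hb⟩⟩ := ih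
      refine ⟨⟨b, hb⟩, ⟨t * b - e * a, ?_⟩⟩
      have e1 : x ^ (j + 1 + 1) + (t • 1 - x) ^ (j + 1 + 1)
          = (x + (t • 1 - x)) * (x ^ (j + 1) + (t • 1 - x) ^ (j + 1))
            - (e • (1 : R)) * (x ^ j + (t • 1 - x) ^ j) := by
        have e2 : (x + (t • 1 - x)) * (x ^ (j + 1) + (t • 1 - x) ^ (j + 1))
            = x ^ (j + 1 + 1) + (x * (t • 1 - x)) * (t • 1 - x) ^ j
              + ((t • 1 - x) * x) * x ^ j + (t • 1 - x) ^ (j + 1 + 1) := by
          rw [pow_succ' x (j + 1), pow_succ' (t • 1 - x) (j + 1), pow_succ' x j,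
            pow_succ' (t • 1 - x) j]
          simp only [mul_add, add_mul, mul_assoc]
          abel
        rw [e2, h1, h2]
        simp only [mul_add]
        abel
      rw [e1, ha, hb]
      have e3 : x + (t • 1 - x) = t • (1 : R) := by abel
      rw [e3]
      simp only [smul_mul_assoc, one_mul, smul_smul, sub_smul]
  obtain ⟨⟨a, ha⟩, -⟩ := key j
  refine ⟨a, ?_⟩
  have h3 : (t • 1 - x) ^ j * x ^ j = e ^ j • 1 := by
    rw [← hcomm.mul_pow, h2, _root_.smul_pow, one_pow]
  have e4 : a • x ^ j = x ^ j * x ^ j + (t • 1 - x) ^ j * x ^ j := by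
    rw [← add_mul, ha, smul_mul_assoc, one_mul]
  rw [e4, h3]
  abel

theorem blr6_smul_one_eq_zero {k : Type*} [Field k] {a : k}
    (h : a • (1 : Matrix (Fin 2) (Fin 2) k) = 0) : a = 0 := by
  have := congrFun (congrFun h 0) 0
  simpa using this

/-- Two-dimensional matrix case: if some `rhoM g1` is not scalar, the quadratic relation of
each `rhoM g` is its characteristic polynomial. -/
theorem blr6_charpoly_two {k : Type*} [Field k] {G : Type*} [Group G]
    (rhoM : G →* Matrix (Fin 2) (Fin 2) k) (chi : G →* kˣ)
    (hq : ∀ g, ∃ t : k, rhoM g * rhoM g - t • rhoM g + (chi g : k) • 1 = 0)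
    (g1 : G) (hns : ∀ c : k, rhoM g1 ≠ c • 1)
    (g : G) (t : k) (ht : rhoM g * rhoM g - t • rhoM g + (chi g : k) • 1 = 0) :
    (rhoM g).charpoly = X ^ 2 - C t * X + C (chi g : k) := by
  rw [Matrix.charpoly_fin_two]
  have hCH : rhoM g * rhoM g - (rhoM g).trace • rhoM g + (rhoM g).det • 1 = 0 := by
    have := Matrix.aeval_self_charpoly (rhoM g)
    rw [Matrix.charpoly_fin_two] at this
    simpa [pow_two, Algebra.smul_def] using this
  by_cases hsc : ∃ c : k, rhoM g = c • 1
  · obtain ⟨c, hc⟩ := hsc
    obtain ⟨ty, hy⟩ := hq g1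
    obtain ⟨tz, hz⟩ := hq (g * g1)
    have hz' : (rhoM g * rhoM g1) * (rhoM g * rhoM g1) - tz • (rhoM g * rhoM g1)
        + ((chi g : k) * (chi g1 : k)) • 1 = 0 := by
      rw [map_mul, map_mul, Units.val_mul] at hz
      exact hz
    have hu : rhoM (g * g1)⁻¹ * (rhoM g * rhoM g1) = 1 := by
      rw [← map_mul, ← map_mul, inv_mul_cancel, map_one]
    have hstar := blr6_star (rhoM g) (rhoM g1) (rhoM (g * g1)⁻¹) t ty tz _ _ ht hy hz' hu
    have ht2 : t = c + c := by
      by_contra hne
      have hne' : t - c - c ≠ 0 := fun h => hne (by linear_combination h)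
      refine hns (((t - c) * ty - tz) / (t - c - c)) ?_
      have e : (t - c - c) • rhoM g1 = ((t - c) * ty - tz) • 1 := by
        rw [hc] at hstar
        have e2 : (t - c - c) • rhoM g1 - ((t - c) * ty - tz) • 1
            = (tz • (1 : Matrix (Fin 2) (Fin 2) k) - c • 1 * rhoM g1)
              - (ty • 1 - rhoM g1) * (t • 1 - c • 1) := by
          simp only [smul_mul_assoc, one_mul, mul_sub, mul_smul_comm, mul_one, sub_mul]
          module
        rw [← sub_eq_zero, e2, hstar, sub_self]
      rw [div_eq_inv_mul, mul_smul, ← e, smul_smul, inv_mul_cancel₀ hne', one_smul]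
    have hchi : (chi g : k) = c * c := by
      have e : ((chi g : k) - c * c) • (1 : Matrix (Fin 2) (Fin 2) k) = 0 := by
        rw [← ht, hc, ht2]
        simp only [mul_smul_comm, mul_one]
        module
      have := blr6_smul_one_eq_zero e
      linear_combination this
    have htr : (rhoM g).trace = t := by
      rw [hc, ht2, Matrix.trace_smul, Matrix.trace_one]; simp; ring
    have hdet : (rhoM g).det = (chi g : k) := by
      rw [hc, hchi, Matrix.det_smul, Matrix.det_one]; simp; ring
    rw [htr, hdet]
  · have hsub : (t - (rhoM g).trace) • rhoM g = ((chi g : k) - (rhoM g).det) • 1 := by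
      rw [← sub_eq_zero]
      have e : (t - (rhoM g).trace) • rhoM g - ((chi g : k) - (rhoM g).det) • 1
          = (rhoM g * rhoM g - (rhoM g).trace • rhoM g + (rhoM g).det • 1)
            - (rhoM g * rhoM g - t • rhoM g + (chi g : k) • 1) := by
        module
      rw [e, hCH, ht, sub_zero]
    by_cases htt : t = (rhoM g).trace
    · rw [htt, sub_self, zero_smul] at hsub
      have := blr6_smul_one_eq_zero hsub.symm
      rw [← htt, ← sub_eq_zero.mp this]
    · exfalso
      have hne' : t - (rhoM g).trace ≠ 0 := sub_ne_zero.mpr htt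
      refine hsc ⟨((chi g : k) - (rhoM g).det) / (t - (rhoM g).trace), ?_⟩
      rw [div_eq_inv_mul, mul_smul, ← hsub, smul_smul, inv_mul_cancel₀ hne', one_smul]

/-- A minimal nonzero stable subspace. -/
theorem blr6_exists_min {k : Type*} [Field k] {G : Type*} {W : Type*} [AddCommGroup W]
    [Module k W] [FiniteDimensional k W] [Nontrivial W] (rho : G → Module.End k W) :
    ∃ V : Submodule k W, V ≠ ⊥ ∧ (∀ g, ∀ v ∈ V, rho g v ∈ V) ∧
      ∀ U : Submodule k W, U ≤ V → U ≠ ⊥ → (∀ g, ∀ u ∈ U, rho g u ∈ U) → U = V := by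
  have hwf : WellFounded ((· < ·) : Submodule k W → Submodule k W → Prop) := wellFounded_lt
  obtain ⟨V, ⟨hV0, hVs⟩, hmin⟩ :=
    hwf.has_min {V : Submodule k W | V ≠ ⊥ ∧ ∀ g, ∀ v ∈ V, rho g v ∈ V}
      ⟨⊤, top_ne_bot, fun _ _ _ => trivial⟩
  refine ⟨V, hV0, hVs, fun U hUV hU0 hUs => ?_⟩
  by_contra hne
  exact hmin U ⟨hU0, hUs⟩ (lt_of_le_of_ne hUV hne)

/-- Restriction of a representation to a stable subspace. -/
noncomputable def blr6_res {k : Type*} [Field k] {G : Type*} [Group G] {W : Type*}
    [AddCommGroup W] [Module k W] (rho : G →* Module.End k W) (V : Submodule k W)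
    (hV : ∀ g, ∀ v ∈ V, rho g v ∈ V) : G →* Module.End k V where
  toFun g := (rho g).restrict (hV g)
  map_one' := by ext v; simp
  map_mul' g h := by ext v; simp

theorem blr6_res_apply {k : Type*} [Field k] {G : Type*} [Group G] {W : Type*}
    [AddCommGroup W] [Module k W] (rho : G →* Module.End k W) (V : Submodule k W)
    (hV : ∀ g, ∀ v ∈ V, rho g v ∈ V) (g : G) (v : V) :
    ((blr6_res rho V hV g v : V) : W) = rho g v := rfl

/-- **BLR-lite.** A finite-dimensional representation over an algebraically closed field all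
of whose operators satisfy a quadratic relation `X² - t X + chi g` has a two-dimensional
representation with these characteristic polynomials. -/
theorem blr6_main {k : Type*} [Field k] [IsAlgClosed k] {G : Type*} [Group G] {W : Type*}
    [AddCommGroup W] [Module k W] [FiniteDimensional k W] [Nontrivial W]
    (rho : G →* Module.End k W) (chi : G →* kˣ)
    (hq : ∀ g, ∃ t : k, rho g * rho g - t • rho g + (chi g : k) • 1 = 0) :
    ∃ rho' : G →* Module.End k (Fin 2 → k),
      (∀ g (t : k), rho g * rho g - t • rho g + (chi g : k) • 1 = 0 →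
        LinearMap.charpoly (rho' g) = X ^ 2 - C t * X + C (chi g : k)) ∧
      (∀ g, rho g = 1 → chi g = 1 → rho' g = 1) := by
  obtain ⟨V, hV0, hVs, hmin⟩ := blr6_exists_min (fun g => rho g)
  have hnt : Nontrivial V := (Submodule.nontrivial_iff_ne_bot).mpr hV0
  have hrel : ∀ g (t : k), rho g * rho g - t • rho g + (chi g : k) • 1 = 0 →
      blr6_res rho V hVs g * blr6_res rho V hVs g - t • blr6_res rho V hVs g
        + (chi g : k) • 1 = 0 := by
    intro g t h
    ext v
    have := congrArg (fun f : Module.End k W => f (v : W)) h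
    simpa [blr6_res_apply] using this
  have hqV : ∀ g, ∃ t : k, blr6_res rho V hVs g * blr6_res rho V hVs g
      - t • blr6_res rho V hVs g + (chi g : k) • 1 = 0 :=
    fun g => (hq g).imp fun t h => hrel g t h
  have hone : ∀ g, rho g = 1 → blr6_res rho V hVs g = 1 := by
    intro g h
    ext v
    simp [blr6_res_apply, h]
  have hspan : ∀ v : V, v ≠ 0 →
      Submodule.span k (Set.range fun h => blr6_res rho V hVs h v) = ⊤ := by
    intro v hv
    have hUs : ∀ g, ∀ u ∈ Submodule.span k (Set.range fun h => blr6_res rho V hVs h v),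
        blr6_res rho V hVs g u ∈ Submodule.span k (Set.range fun h => blr6_res rho V hVs h v) := by
      intro g u hu
      induction hu using Submodule.span_induction with
      | mem u hu =>
        obtain ⟨h, rfl⟩ := hu
        exact Submodule.subset_span ⟨g * h, by simp [map_mul]⟩
      | zero => simp
      | add a b _ _ ha hb => rw [map_add]; exact Submodule.add_mem _ ha hb
      | smul c a _ ha => rw [map_smul]; exact Submodule.smul_mem _ c ha
    have hvU : v ∈ Submodule.span k (Set.range fun h => blr6_res rho V hVs h v) :=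
      Submodule.subset_span ⟨1, by simp⟩
    have hUW := hmin ((Submodule.span k (Set.range fun h => blr6_res rho V hVs h v)).map V.subtype)
      (Submodule.map_subtype_le V _) ?_ ?_
    · rw [eq_top_iff]
      intro w _
      have hw : (w : W) ∈ (Submodule.span k
          (Set.range fun h => blr6_res rho V hVs h v)).map V.subtype := by
        rw [hUW]; exact w.2
      obtain ⟨u, hu, huw⟩ := hw
      have : u = w := Subtype.ext huw
      rw [← this]; exact hu
    · intro h0
      have hv' : (v : W) ∈ (Submodule.span k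
          (Set.range fun h => blr6_res rho V hVs h v)).map V.subtype := ⟨v, hvU, rfl⟩
      rw [h0] at hv'
      exact hv (Subtype.ext ((Submodule.mem_bot k).mp hv'))
    · rintro g _ ⟨u, hu, rfl⟩
      exact ⟨blr6_res rho V hVs g u, hUs g u hu, rfl⟩
  by_cases hall : ∀ g, ∃ c : k, blr6_res rho V hVs g = c • 1
  · -- all operators are scalars on `V`
    choose c hc using hall
    have hinj : ∀ a b : k, a • (1 : Module.End k V) = b • 1 → a = b := by
      intro a b h
      obtain ⟨v, hv⟩ := exists_ne (0 : V)
      have h' := congrArg (fun f : Module.End k V => f v) h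
      simp only [LinearMap.smul_apply, Module.End.one_apply] at h'
      exact smul_left_injective k hv h'
    have hc1 : c 1 = 1 := hinj _ _ (by rw [← hc, map_one, one_smul])
    have hcm : ∀ g h, c (g * h) = c g * c h := fun g h => hinj _ _ (by
      rw [← hc, map_mul, hc g, hc h, smul_mul_assoc, one_mul, smul_smul])
    have hrelc : ∀ g (t : k), rho g * rho g - t • rho g + (chi g : k) • 1 = 0 →
        c g * c g - t * c g + (chi g : k) = 0 := by
      intro g t h
      have h' := hrel g t h
      rw [hc g] at h'
      have e : (c g * c g - t * c g + (chi g : k)) • (1 : Module.End k V) = (0 : k) • 1 := by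
        rw [zero_smul, ← h']
        simp only [smul_mul_assoc, one_mul]
        module
      exact hinj _ _ e
    have hcne : ∀ g, c g ≠ 0 := by
      intro g h0
      obtain ⟨t, ht⟩ := hq g
      have := hrelc g t ht
      rw [h0] at this
      simp at this
    let rhoM : G →* Matrix (Fin 2) (Fin 2) k :=
      { toFun := fun g => Matrix.diagonal ![c g, (chi g : k) * (c g)⁻¹]
        map_one' := by
          rw [hc1, map_one, ← Matrix.diagonal_one]
          congr 1
          ext i
          fin_cases i <;> simp
        map_mul' := fun g h => by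
          rw [Matrix.diagonal_mul_diagonal]
          congr 1
          ext i
          fin_cases i
          · simp [hcm]
          · simp [hcm]; ring }
    let rho' : G →* Module.End k (Fin 2 → k) :=
      { toFun := fun g => Matrix.toLinAlgEquiv' (rhoM g)
        map_one' := by simp
        map_mul' := fun g h => by simp }
    refine ⟨rho', fun g t h => ?_, fun g h1 h2 => ?_⟩
    · have e1 : rho' g = Matrix.toLin' (Matrix.diagonal ![c g, (chi g : k) * (c g)⁻¹]) := rfl
      rw [e1, Matrix.charpoly_toLin', Matrix.charpoly_fin_two]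
      have hr := hrelc g t h
      have hcg := hcne g
      have htr : (Matrix.diagonal ![c g, (chi g : k) * (c g)⁻¹]).trace = t := by
        rw [Matrix.trace_diagonal, Fin.sum_univ_two]
        simp only [Matrix.cons_val_zero, Matrix.cons_val_one]
        field_simp
        linear_combination hr
      have hdet : (Matrix.diagonal ![c g, (chi g : k) * (c g)⁻¹]).det = (chi g : k) := by
        rw [Matrix.det_diagonal, Fin.prod_univ_two]
        simp only [Matrix.cons_val_zero, Matrix.cons_val_one]
        field_simp
      rw [htr, hdet]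
    · have e1 : rho' g = Matrix.toLin' (Matrix.diagonal ![c g, (chi g : k) * (c g)⁻¹]) := rfl
      have hcg : c g = 1 := hinj _ _ (by rw [← hc, hone g h1, one_smul])
      rw [e1, hcg, h2]
      have : Matrix.diagonal ![(1 : k), ((1 : kˣ) : k) * (1 : k)⁻¹] = 1 := by
        rw [← Matrix.diagonal_one]
        congr 1
        ext i
        fin_cases i <;> simp
      rw [this, Matrix.toLin'_one]
      rfl
  · -- some operator is not a scalar on `V`: then `V` is two-dimensional
    push Not at hall
    obtain ⟨g0, hg0⟩ := hall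
    have hle := blr6_finrank_le_two (blr6_res rho V hVs) chi hqV hspan g0 hg0
    have h2 : Module.finrank k V = 2 := by
      have hpos : 0 < Module.finrank k V := Module.finrank_pos
      by_contra hne
      have h1 : Module.finrank k V = 1 := by omega
      obtain ⟨v, hv⟩ := exists_ne (0 : V)
      have hall := (finrank_eq_one_iff_of_nonzero' v hv).mp h1
      obtain ⟨c, hc⟩ := hall (blr6_res rho V hVs g0 v)
      refine hg0 c (LinearMap.ext fun w => ?_)
      obtain ⟨a, rfl⟩ := hall w
      rw [map_smul, ← hc]
      simp only [LinearMap.smul_apply, Module.End.one_apply]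
      exact smul_comm a c v
    let b := Module.finBasisOfFinrankEq k V h2
    let rhoM : G →* Matrix (Fin 2) (Fin 2) k :=
      { toFun := fun g => LinearMap.toMatrixAlgEquiv b (blr6_res rho V hVs g)
        map_one' := by simp
        map_mul' := fun g h => by simp }
    have hrelM : ∀ g (t : k), rho g * rho g - t • rho g + (chi g : k) • 1 = 0 →
        rhoM g * rhoM g - t • rhoM g + (chi g : k) • 1 = 0 := by
      intro g t h
      have e := congrArg (LinearMap.toMatrixAlgEquiv b) (hrel g t h)
      simp only [map_sub, map_add, map_mul, map_smul, map_one, map_zero] at e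
      exact e
    have hqM : ∀ g, ∃ t : k, rhoM g * rhoM g - t • rhoM g + (chi g : k) • 1 = 0 :=
      fun g => (hq g).imp fun t h => hrelM g t h
    have hnsM : ∀ c : k, rhoM g0 ≠ c • 1 := by
      intro c hc
      apply hg0 c
      apply (LinearMap.toMatrixAlgEquiv b).injective
      rw [map_smul, map_one]
      exact hc
    let rho' : G →* Module.End k (Fin 2 → k) :=
      { toFun := fun g => Matrix.toLinAlgEquiv' (rhoM g)
        map_one' := by simp
        map_mul' := fun g h => by simp }
    refine ⟨rho', fun g t h => ?_, fun g h1 h2 => ?_⟩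
    · have e1 : rho' g = Matrix.toLin' (rhoM g) := rfl
      rw [e1, Matrix.charpoly_toLin']
      exact blr6_charpoly_two rhoM chi hqM g0 hnsM g t (hrelM g t h)
    · have e1 : rho' g = Matrix.toLinAlgEquiv' (LinearMap.toMatrixAlgEquiv b
          (blr6_res rho V hVs g)) := rfl
      rw [e1, hone g h1]
      simp

end Fermat.Agent.S42
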