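import Fermat.Agent.S42.DescKummer86
import Fermat.Agent.S42.ThetaAbs70
import Fermat.Agent.S37.HeckeInputs63

/-!
# S42, seam (G-const) of Ruling 2 (helper83): the three "trivial" hypotheses of
`th70_exists_theta` at `K = ℚ̄`, `F = modularFunctionFieldBar N`

* `cg83_const`      : a nonzero function without zeros and poles is constant (generic form:
                      `K` algebraically closed of characteristic `0`, `F` finite over `K(y)`).
* `cg83_root`       : `p`-th roots in an algebraically closed field.
* `cg83_hconst`     : `hconst` of `th70_exists_theta` for `modularFunctionFieldBar N`.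
* `cg83_hroot`      : `hroot` of `th70_exists_theta` for `ℚ̄`.
* `cg83_hasPrincipalDivisors` : the instance argument (`= hi63_hasPrincipalDivisors_bar`).
-/

set_option autoImplicit false

open AlgebraicCurve IntermediateField ModularCurve

namespace Fermat.Agent.S42

open Fermat.Agent.S24 Fermat.Agent.S37

section Generic

variable {K F : Type*} [Field K] [IsAlgClosed K] [CharZero K] [Field F] [Algebra K F]

/-- **(E-const), generic form.** In a function field `F` (finite over `K(y)`, `y` transcendental)
over an algebraically closed field of characteristic `0`, a nonzero function all of whose orders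
vanish is a constant. -/
theorem cg83_const (y : F) (hy : Transcendental K y) [FiniteDimensional K⟮y⟯ F]
    (f : F) (_hf : f ≠ 0) (h : ∀ v : Place K F, v.ord f = 0) :
    ∃ a : K, f = algebraMap K F a := by
  by_cases ht : Transcendental K f
  · obtain ⟨P, hP⟩ := dr86_exists_zero y hy f ht
    rw [h P] at hP
    exact absurd hP (lt_irrefl 0)
  · have halg : IsAlgebraic K f := by
      by_contra hcon
      exact ht hcon
    have hint : IsIntegral K f := halg.isIntegral
    have hdeg : (minpoly K f).degree = 1 :=
      IsAlgClosed.degree_eq_one_of_irreducible K (minpoly.irreducible hint)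
    obtain ⟨a, ha⟩ := minpoly.mem_range_of_degree_eq_one K f hdeg
    exact ⟨a, ha.symm⟩

end Generic

/-- `p`-th roots exist in an algebraically closed field. -/
theorem cg83_root {K : Type*} [Field K] [IsAlgClosed K] {p : ℕ} (hp : 0 < p) (a : K) :
    ∃ b : K, b ^ p = a :=
  IsAlgClosed.exists_pow_nat_eq a hp

section Modular

/-- **`hconst` of `th70_exists_theta`** for the modular function field over `ℚ̄`. -/
theorem cg83_hconst (N : ℕ) [NeZero N] :
    ∀ f : ↥(modularFunctionFieldBar N), f ≠ 0 →
      (∀ v : Place (AlgebraicClosure ℚ) ↥(modularFunctionFieldBar N), v.ord f = 0) →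
      ∃ a : AlgebraicClosure ℚ,
        f = algebraMap (AlgebraicClosure ℚ) ↥(modularFunctionFieldBar N) a := by
  intro f hf h
  have := hi63_finite_x N
  exact cg83_const (hi63_x N) (hi63_x_transcendental N) f hf h

/-- **`hroot` of `th70_exists_theta`** for `ℚ̄`. -/
theorem cg83_hroot (p : ℕ) [Fact p.Prime] :
    ∀ a : AlgebraicClosure ℚ, ∃ b : AlgebraicClosure ℚ, b ^ p = a :=
  fun a => cg83_root (Fact.out : p.Prime).pos a

/-- The instance argument of `th70_exists_theta` for the modular function field over `ℚ̄`. -/
theorem cg83_hasPrincipalDivisors (N : ℕ) [NeZero N] :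
    HasPrincipalDivisors (AlgebraicClosure ℚ) ↥(modularFunctionFieldBar N) :=
  hi63_hasPrincipalDivisors_bar N

/-- **`th70_exists_theta` with the seam (G-const) discharged**: the abstract Kummer map for
`K = ℚ̄`, `F = modularFunctionFieldBar N`; remaining hypotheses are exactly `hζfix`, `hfix`
(seam G-inv), `hK2` (seam G-K2p) and `hex` (seam G-Eex). -/
theorem cg83_exists_theta (N : ℕ) [NeZero N] {M Gam : Type*} [Field M] [Group Gam]
    [MulSemiringAction Gam M] (ev : ↥(modularFunctionFieldBar N) →+* M) (p : ℕ) [Fact p.Prime]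
    (ζ : M) (hζ : IsPrimitiveRoot ζ p) (hζfix : ∀ g : Gam, g • ζ = ζ)
    (hfix : ∀ (g : Gam) (f : ↥(modularFunctionFieldBar N)), g • ev f = ev f)
    (hK2 : ∀ x : M, x ≠ 0 → (∀ g : Gam, g • x = x) → ∀ f : ↥(modularFunctionFieldBar N),
      x ^ p = ev f → ∃ (w : ↥(modularFunctionFieldBar N)) (a : AlgebraicClosure ℚ),
        f = algebraMap (AlgebraicClosure ℚ) ↥(modularFunctionFieldBar N) a * w ^ p)
    (Par : AddSubgroup (Additive Gam →+ ZMod p))
    (hex : ∀ χ ∈ Par, ∃ (h : M) (f : ↥(modularFunctionFieldBar N)),
      th70_Adm (AlgebraicClosure ℚ) ev p ζ χ h f) :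
    ∃ Θ : Par →+ Pic0 (AlgebraicClosure ℚ) ↥(modularFunctionFieldBar N),
      Function.Injective Θ ∧ (∀ χ, (p : ℤ) • Θ χ = 0) ∧
      ∀ (χ : Par) (h : M) (f : ↥(modularFunctionFieldBar N)),
        th70_Adm (AlgebraicClosure ℚ) ev p ζ (χ : Additive Gam →+ ZMod p) h f →
        ∀ D : Divisor.degZero (K := AlgebraicClosure ℚ) (F := ↥(modularFunctionFieldBar N)),
          th70_IsDivOf p f (D : Divisor (AlgebraicClosure ℚ) ↥(modularFunctionFieldBar N)) →
          Θ χ = Pic0.mk D := by
  have := cg83_hasPrincipalDivisors N
  exact th70_exists_theta ev p ζ hζ hζfix hfix hK2 (cg83_hconst N) (cg83_hroot p) Par hex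

end Modular

end Fermat.Agent.S42
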