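/-
S42 / M11 (helper75): the Galois module spanned by the orbit of a vector.

General part: `R : G →* End_{k0} M` a representation, `y ∈ M`.  `gm75_W R y` is the `k0`-span of
the orbit of `y` and `gm75_rho R y` the representation on it.

* `gm75_rho_one`  : where `R σ = 1`, also `gm75_rho R y σ = 1`;
* `gm75_rho_quad` : if `y` is an eigenvector (eigenvalue `a`) of an operator `T` commuting with
  `R`, and `R τ ^ 2 - T * R τ + c = 0`, then `gm75_rho R y τ ^ 2 - a • gm75_rho R y τ + c = 0`;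
* for `G = Gal(ℚ̄/ℚ)`, if every vector of `M` has an open stabiliser, then `gm75_W R y` is
  finite-dimensional (`gm75_finiteDimensional`) and `gm75_rho R y` factors through a finite level
  (`gm75_rho_level`).

Base change part: `ρ₀ : G →* End_F J`, `k0` an `F`-algebra; `gm75_bc ρ₀ : G →* End_{k0} (k0 ⊗[F] J)`
with the transfer lemmas `gm75_bc_one`, `gm75_bc_comm`, `gm75_bc_quad`, `gm75_bc_open`.
-/
import Fermat.Agent.S42.BLR75
import Fermat.Prelude.Def_GaloisRep_Residual

set_option autoImplicit false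

namespace Fermat.Agent.S42

open scoped TensorProduct

local notation "Qb75" => AlgebraicClosure ℚ
local notation "GQ75" => AlgebraicClosure ℚ ≃ₐ[ℚ] AlgebraicClosure ℚ

section General

variable {k0 : Type} [Field k0] {M : Type} [AddCommGroup M] [Module k0 M] {G : Type} [Group G]

/-- The `k0`-span of the orbit of `y`. -/
def gm75_W (R : G →* Module.End k0 M) (y : M) : Submodule k0 M :=
  Submodule.span k0 (Set.range fun σ : G => R σ y)

theorem gm75_mem (R : G →* Module.End k0 M) (y : M) : y ∈ gm75_W R y :=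
  Submodule.subset_span ⟨1, by simp [map_one]⟩

theorem gm75_inv (R : G →* Module.End k0 M) (y : M) (σ : G) (w : M)
    (hw : w ∈ gm75_W R y) : R σ w ∈ gm75_W R y := by
  induction hw using Submodule.span_induction with
  | mem x hx =>
    obtain ⟨τ, rfl⟩ := hx
    refine Submodule.subset_span ⟨σ * τ, ?_⟩
    simp only [map_mul, Module.End.mul_apply]
  | zero => rw [map_zero]; exact Submodule.zero_mem _
  | add x y _ _ hx hy => rw [map_add]; exact Submodule.add_mem _ hx hy
  | smul c x _ hx => rw [map_smul]; exact Submodule.smul_mem _ c hx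

/-- Eigen-equations of `y` for operators commuting with `R` hold on the whole module. -/
theorem gm75_eigen (R : G →* Module.End k0 M) (y : M) (T : Module.End k0 M)
    (hcomm : ∀ σ : G, R σ * T = T * R σ) (a : k0)
    (hy : T y = a • y) (w : M) (hw : w ∈ gm75_W R y) : T w = a • w := by
  induction hw using Submodule.span_induction with
  | mem x hx =>
    obtain ⟨τ, rfl⟩ := hx
    show T (R τ y) = a • R τ y
    have h2 := LinearMap.congr_fun (hcomm τ) y
    rw [Module.End.mul_apply, Module.End.mul_apply] at h2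
    rw [← h2, hy, map_smul]
  | zero => rw [map_zero, smul_zero]
  | add x y _ _ hx hy => rw [map_add, hx, hy, smul_add]
  | smul c x _ hx => rw [map_smul, hx, smul_comm]

/-- The representation on the span of the orbit. -/
noncomputable def gm75_rho (R : G →* Module.End k0 M) (y : M) :
    G →* Module.End k0 (gm75_W R y) :=
  blr75_restrict R (gm75_W R y) (gm75_inv R y)

theorem gm75_rho_apply (R : G →* Module.End k0 M) (y : M) (σ : G) (w : gm75_W R y) :
    ((gm75_rho R y σ w : gm75_W R y) : M) = R σ (w : M) := rfl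

theorem gm75_nontrivial (R : G →* Module.End k0 M) (y : M) (hy : y ≠ 0) :
    Nontrivial (gm75_W R y) :=
  ⟨⟨⟨y, gm75_mem R y⟩, 0, fun h => hy (congrArg Subtype.val h)⟩⟩

theorem gm75_rho_one (R : G →* Module.End k0 M) (y : M) (σ : G) (h : R σ = 1) :
    gm75_rho R y σ = 1 := by
  refine LinearMap.ext fun w => Subtype.ext ?_
  rw [gm75_rho_apply, h]
  rfl

/-- The quadratic relation on the span of the orbit. -/
theorem gm75_rho_quad (R : G →* Module.End k0 M) (y : M) (τ : G)
    (T : Module.End k0 M) (c a : k0) (hcomm : ∀ σ : G, R σ * T = T * R σ)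
    (hy : T y = a • y)
    (hrel : R τ * R τ - T * R τ + c • (1 : Module.End k0 M) = 0) :
    gm75_rho R y τ * gm75_rho R y τ - a • gm75_rho R y τ
      + c • (1 : Module.End k0 (gm75_W R y)) = 0 := by
  refine LinearMap.ext fun w => Subtype.ext ?_
  have h2 := LinearMap.congr_fun hrel (w : M)
  simp only [LinearMap.add_apply, LinearMap.sub_apply, LinearMap.smul_apply,
    Module.End.mul_apply, Module.End.one_apply, LinearMap.zero_apply] at h2
  have hmem : R τ (w : M) ∈ gm75_W R y := gm75_inv R y τ _ w.2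
  rw [gm75_eigen R y T hcomm a hy _ hmem] at h2
  simp only [LinearMap.add_apply, LinearMap.sub_apply, LinearMap.smul_apply,
    Module.End.mul_apply, Module.End.one_apply, LinearMap.zero_apply, Submodule.coe_add,
    Submodule.coe_sub, Submodule.coe_smul, Submodule.coe_zero, gm75_rho_apply]
  exact h2

end General

section Galois

variable {k0 : Type} [Field k0] {M : Type} [AddCommGroup M] [Module k0 M]

/-- Finitely many vectors have a common open stabiliser. -/
theorem gm75_open_finset (R : GQ75 →* Module.End k0 M)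
    (hopen : ∀ z : M, ∃ E : IntermediateField ℚ Qb75, FiniteDimensional ℚ E ∧
      ∀ σ : GQ75, (∀ a ∈ E, σ a = a) → R σ z = z) (s : Finset M) :
    ∃ E : IntermediateField ℚ Qb75, FiniteDimensional ℚ E ∧
      ∀ σ : GQ75, (∀ a ∈ E, σ a = a) → ∀ z ∈ s, R σ z = z := by
  classical
  induction s using Finset.induction_on with
  | empty => exact ⟨⊥, inferInstance, fun σ _ z hz => absurd hz (Finset.notMem_empty z)⟩
  | insert z s _ ih =>
    obtain ⟨E₁, hE₁, h₁⟩ := hopen z
    obtain ⟨E₂, hE₂, h₂⟩ := ih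
    refine ⟨E₁ ⊔ E₂, IntermediateField.finiteDimensional_sup E₁ E₂, fun σ hσ w hw => ?_⟩
    rcases Finset.mem_insert.mp hw with rfl | hw
    · exact h₁ σ fun a ha => hσ a ((le_sup_left : E₁ ≤ E₁ ⊔ E₂) ha)
    · exact h₂ σ (fun a ha => hσ a ((le_sup_right : E₂ ≤ E₁ ⊔ E₂) ha)) w hw

/-- The orbit of a vector with open stabiliser is finite. -/
theorem gm75_orbit_finite (R : GQ75 →* Module.End k0 M)
    (hopen : ∀ z : M, ∃ E : IntermediateField ℚ Qb75, FiniteDimensional ℚ E ∧
      ∀ σ : GQ75, (∀ a ∈ E, σ a = a) → R σ z = z) (y : M) :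
    (Set.range fun σ : GQ75 => R σ y).Finite := by
  obtain ⟨E, hE, h⟩ := hopen y
  have := hE
  let r : GQ75 → (E →ₐ[ℚ] Qb75) := fun σ => (σ : Qb75 →ₐ[ℚ] Qb75).comp E.val
  have hfac : Function.FactorsThrough (fun σ : GQ75 => R σ y) r := by
    intro σ τ hστ
    have hfix : ∀ a ∈ E, (τ⁻¹ * σ) a = a := by
      intro a ha
      have h1 : σ a = τ a := AlgHom.congr_fun hστ ⟨a, ha⟩
      rw [AlgEquiv.mul_apply, h1, ← AlgEquiv.mul_apply, inv_mul_cancel, AlgEquiv.one_apply]
    have h1 := h _ hfix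
    have h2 : σ = τ * (τ⁻¹ * σ) := by rw [mul_inv_cancel_left]
    show R σ y = R τ y
    rw [h2, map_mul, Module.End.mul_apply, h1]
  have hfin : Finite (E →ₐ[ℚ] Qb75) := inferInstance
  refine (Set.finite_range (Function.extend r (fun σ : GQ75 => R σ y) 0)).subset ?_
  rintro _ ⟨σ, rfl⟩
  exact ⟨r σ, hfac.extend_apply _ σ⟩

theorem gm75_finiteDimensional (R : GQ75 →* Module.End k0 M)
    (hopen : ∀ z : M, ∃ E : IntermediateField ℚ Qb75, FiniteDimensional ℚ E ∧
      ∀ σ : GQ75, (∀ a ∈ E, σ a = a) → R σ z = z) (y : M) :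
    FiniteDimensional k0 (gm75_W R y) :=
  FiniteDimensional.span_of_finite k0 (gm75_orbit_finite R hopen y)

/-- The representation on the span of the orbit factors through a finite level. -/
theorem gm75_rho_level (R : GQ75 →* Module.End k0 M)
    (hopen : ∀ z : M, ∃ E : IntermediateField ℚ Qb75, FiniteDimensional ℚ E ∧
      ∀ σ : GQ75, (∀ a ∈ E, σ a = a) → R σ z = z) (y : M) :
    GaloisFactorsThroughFiniteLevel (gm75_rho R y) := by
  obtain ⟨E, hE, h⟩ := gm75_open_finset R hopen (gm75_orbit_finite R hopen y).toFinset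
  refine ⟨E, hE, fun σ hσ => LinearMap.ext fun w => Subtype.ext ?_⟩
  have key : ∀ z ∈ gm75_W R y, R σ z = z := by
    intro z hz
    induction hz using Submodule.span_induction with
    | mem x hx => exact h σ hσ x ((Set.Finite.mem_toFinset _).mpr hx)
    | zero => exact map_zero _
    | add x y _ _ hx hy => rw [map_add, hx, hy]
    | smul c x _ hx => rw [map_smul, hx]
  exact key _ w.2

end Galois

section BaseChange

variable {F : Type} [Field F] {k0 : Type} [Field k0] [Algebra F k0]
  {J : Type} [AddCommGroup J] [Module F J] {G : Type} [Group G]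

/-- Base change of a representation to `k0`. -/
noncomputable def gm75_bc (ρ₀ : G →* Module.End F J) : G →* Module.End k0 (k0 ⊗[F] J) where
  toFun σ := (ρ₀ σ).baseChange k0
  map_one' := by rw [map_one, LinearMap.baseChange_one]
  map_mul' σ τ := by rw [map_mul, LinearMap.baseChange_mul]

theorem gm75_bc_apply (ρ₀ : G →* Module.End F J) (σ : G) (z : k0 ⊗[F] J) :
    gm75_bc (k0 := k0) ρ₀ σ z = (ρ₀ σ).baseChange k0 z := rfl

theorem gm75_bc_one (ρ₀ : G →* Module.End F J) (σ : G) (h : ρ₀ σ = 1) :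
    gm75_bc (k0 := k0) ρ₀ σ = 1 := by
  show (ρ₀ σ).baseChange k0 = 1
  rw [h, LinearMap.baseChange_one]

theorem gm75_bc_comm (ρ₀ : G →* Module.End F J) (T₀ : Module.End F J)
    (hcomm : ∀ σ : G, ρ₀ σ * T₀ = T₀ * ρ₀ σ) (σ : G) :
    gm75_bc (k0 := k0) ρ₀ σ * T₀.baseChange k0 = T₀.baseChange k0 * gm75_bc (k0 := k0) ρ₀ σ := by
  show (ρ₀ σ).baseChange k0 * T₀.baseChange k0 = T₀.baseChange k0 * (ρ₀ σ).baseChange k0
  rw [← LinearMap.baseChange_mul, ← LinearMap.baseChange_mul, hcomm σ]

theorem gm75_bc_quad (ρ₀ : G →* Module.End F J) (T₀ : Module.End F J) (c : F) (τ : G)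
    (hrel : ρ₀ τ * ρ₀ τ - T₀ * ρ₀ τ + c • (1 : Module.End F J) = 0) :
    gm75_bc (k0 := k0) ρ₀ τ * gm75_bc (k0 := k0) ρ₀ τ - T₀.baseChange k0 * gm75_bc (k0 := k0) ρ₀ τ
      + algebraMap F k0 c • (1 : Module.End k0 (k0 ⊗[F] J)) = 0 := by
  have h1 : (ρ₀ τ * ρ₀ τ - T₀ * ρ₀ τ + c • (1 : Module.End F J)).baseChange k0 = 0 := by
    rw [hrel, LinearMap.baseChange_zero]
  rw [LinearMap.baseChange_add, LinearMap.baseChange_sub, LinearMap.baseChange_mul,
    LinearMap.baseChange_mul, LinearMap.baseChange_smul, LinearMap.baseChange_one] at h1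
  rw [algebraMap_smul]
  exact h1

/-- Open stabilisers pass to the base change. -/
theorem gm75_bc_open (ρ₀ : GQ75 →* Module.End F J)
    (hopen : ∀ x : J, ∃ E : IntermediateField ℚ Qb75, FiniteDimensional ℚ E ∧
      ∀ σ : GQ75, (∀ a ∈ E, σ a = a) → ρ₀ σ x = x) (z : k0 ⊗[F] J) :
    ∃ E : IntermediateField ℚ Qb75, FiniteDimensional ℚ E ∧
      ∀ σ : GQ75, (∀ a ∈ E, σ a = a) → gm75_bc (k0 := k0) ρ₀ σ z = z := by
  induction z using TensorProduct.induction_on with
  | zero => exact ⟨⊥, inferInstance, fun σ _ => map_zero _⟩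
  | tmul c x =>
    obtain ⟨E, hE, h⟩ := hopen x
    refine ⟨E, hE, fun σ hσ => ?_⟩
    rw [gm75_bc_apply, LinearMap.baseChange_tmul, h σ hσ]
  | add z₁ z₂ h₁ h₂ =>
    obtain ⟨E₁, hE₁, h₁⟩ := h₁
    obtain ⟨E₂, hE₂, h₂⟩ := h₂
    refine ⟨E₁ ⊔ E₂, IntermediateField.finiteDimensional_sup E₁ E₂, fun σ hσ => ?_⟩
    rw [map_add, h₁ σ fun a ha => hσ a ((le_sup_left : E₁ ≤ E₁ ⊔ E₂) ha),
      h₂ σ fun a ha => hσ a ((le_sup_right : E₂ ≤ E₁ ⊔ E₂) ha)]

end BaseChange

end Fermat.Agent.S42
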