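import Fermat.Agent.S42.M10Adapter69
import Fermat.Agent.S42.W1Asm28

/-!
# S42 (Project 4): the M10 package in the vocabulary of the (W1) conclusion (helper69)

Same statements as `M10Adapter69`, with the Hecke operator on the `p`-torsion written as
`w1a28_TJ N p ℓ` (helper28, the operator of the conclusion (W1)) instead of `th75_heckeTors`:
the two are equal by `rfl` (`fi69_w_TJ_eq`).
-/

set_option autoImplicit false

namespace Fermat.Agent.S42

open ModularCurve AlgebraicCurve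

local notation "Qb" => AlgebraicClosure ℚ
local notation "GQ" => AlgebraicClosure ℚ ≃ₐ[ℚ] AlgebraicClosure ℚ

/-- The two restricted Hecke operators on main agree. -/
theorem fi69_w_TJ_eq (N p : ℕ) [NeZero N] (ℓ : Nat.Primes) :
    w1a28_TJ N p ℓ = th75_heckeTors N p ℓ := rfl

/-- (comm) for `w1a28_TJ`. -/
theorem fi69_w_comm (N p : ℕ) [NeZero N] (ℓ : Nat.Primes) (σ : GQ) :
    JZero.torsionGaloisRep N p σ * w1a28_TJ N p ℓ
      = w1a28_TJ N p ℓ * JZero.torsionGaloisRep N p σ :=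
  fi69_ad_comm N p ℓ σ

/-- (comm) for `w1a28_TJ`, pointwise. -/
theorem fi69_w_comm_apply (N p : ℕ) [NeZero N] (ℓ : Nat.Primes) (σ : GQ) (x : w1a28_J N p) :
    JZero.torsionGaloisRep N p σ (w1a28_TJ N p ℓ x)
      = w1a28_TJ N p ℓ (JZero.torsionGaloisRep N p σ x) :=
  LinearMap.congr_fun (fi69_ad_comm N p ℓ σ) x

/-- (frob) for `w1a28_TJ`. -/
theorem fi69_w_frob (N p : ℕ) [NeZero N] (ℓ : Nat.Primes) (hℓ : ¬ (ℓ : ℕ) ∣ N * p)
    (A : ValuationSubring Qb) (hA : A.LiesOverPrime ℓ) (τ : GQ) (hτ : A.IsFrobeniusAt τ ℓ) :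
    JZero.torsionGaloisRep N p τ * JZero.torsionGaloisRep N p τ
      - w1a28_TJ N p ℓ * JZero.torsionGaloisRep N p τ
      + ((ℓ : ℕ) : ZMod p) • (1 : Module.End (ZMod p) (w1a28_J N p))
      = 0 :=
  fi69_ad_frob' N p ℓ hℓ A hA τ hτ

/-- (frob) for `w1a28_TJ`, pointwise. -/
theorem fi69_w_frob_apply (N p : ℕ) [NeZero N] (ℓ : Nat.Primes) (hℓ : ¬ (ℓ : ℕ) ∣ N * p)
    (A : ValuationSubring Qb) (hA : A.LiesOverPrime ℓ) (τ : GQ) (hτ : A.IsFrobeniusAt τ ℓ)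
    (x : w1a28_J N p) :
    JZero.torsionGaloisRep N p τ (JZero.torsionGaloisRep N p τ x)
      - w1a28_TJ N p ℓ (JZero.torsionGaloisRep N p τ x)
      + ((ℓ : ℕ) : ZMod p) • x = 0 :=
  LinearMap.congr_fun (fi69_ad_frob' N p ℓ hℓ A hA τ hτ) x

/-- (inert), pointwise. -/
theorem fi69_w_inert_apply (N p : ℕ) [NeZero N] (ℓ : ℕ) (hℓ : ℓ.Prime) (hNp : ¬ ℓ ∣ N * p)
    (A : ValuationSubring Qb) (hA : A.LiesOverPrime ℓ) (s : GQ)
    (hs : s ∈ A.inertiaSubgroupIn ℚ) (x : w1a28_J N p) :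
    JZero.torsionGaloisRep N p s x = x := by
  rw [fi69_ad_inert' N p ℓ hℓ hNp A hA s hs]
  rfl

end Fermat.Agent.S42
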