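/-
S42 / M11 (helper75): the top of the M11 chain.

* `sk75_quad_all` : if a representation `ρ` of `Gal(ℚ̄/ℚ)` factors through a finite level and every
  true Frobenius element `τ` at a prime `ℓ ∉ S` satisfies a quadratic relation
  `ρ τ ^ 2 - t • ρ τ + ℓ = 0`, then EVERY `g` satisfies `ρ g ^ 2 - t • ρ g + χ g = 0`, `χ` a
  character of finite level with `χ τ = ℓ` at Frobenius elements (Chebotarev-lite `fp37` +
  the power trick `blr75_pow`).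
* `sk75_rep`, `sk75_residual` : BLR-lite then gives a two-dimensional residual representation
  with the expected characteristic polynomials at all Frobenius elements outside `S`.
* `sk75_core_of` : the core statement (S29 for an algebraically closed coefficient field) from a
  Galois module `W` with the Eichler-Shimura relations, and a mod `p` cyclotomic character.
-/
import Fermat.Agent.S42.BLR75
import Fermat.Agent.S42.FrobPow37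
import Fermat.Prelude.Def_GaloisRep_Residual

set_option autoImplicit false

namespace Fermat.Agent.S42

open Polynomial

local notation "Qb75" => AlgebraicClosure ℚ
local notation "GQ75" => AlgebraicClosure ℚ ≃ₐ[ℚ] AlgebraicClosure ℚ

/-- Two homomorphisms factoring through finite levels factor through a common finite level. -/
theorem sk75_common_level {M₁ M₂ : Type} [MulOneClass M₁] [MulOneClass M₂]
    (ρ₁ : GQ75 →* M₁) (ρ₂ : GQ75 →* M₂) (h₁ : GaloisFactorsThroughFiniteLevel ρ₁)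
    (h₂ : GaloisFactorsThroughFiniteLevel ρ₂) :
    ∃ L : IntermediateField ℚ Qb75, FiniteDimensional ℚ L ∧
      ∀ σ : GQ75, (∀ x ∈ L, σ x = x) → ρ₁ σ = 1 ∧ ρ₂ σ = 1 := by
  obtain ⟨L₁, hL₁, h₁⟩ := h₁
  obtain ⟨L₂, hL₂, h₂⟩ := h₂
  refine ⟨L₁ ⊔ L₂, IntermediateField.finiteDimensional_sup L₁ L₂, fun σ hσ => ⟨?_, ?_⟩⟩
  · exact h₁ σ fun x hx => hσ x ((le_sup_left : L₁ ≤ L₁ ⊔ L₂) hx)
  · exact h₂ σ fun x hx => hσ x ((le_sup_right : L₂ ≤ L₁ ⊔ L₂) hx)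

section

variable {k0 : Type} [Field k0] {W : Type} [AddCommGroup W] [Module k0 W]

/-- **Every `g` satisfies a quadratic.** -/
theorem sk75_quad_all (ρ : GQ75 →* Module.End k0 W) (hρ : GaloisFactorsThroughFiniteLevel ρ)
    (χ : GQ75 →* k0ˣ) (hχ : GaloisFactorsThroughFiniteLevel χ) (S : Finset ℕ)
    (hfrob : ∀ ℓ : ℕ, ℓ.Prime → ℓ ∉ S → ∀ A : ValuationSubring Qb75, A.LiesOverPrime ℓ →
      ∀ τ : GQ75, A.IsFrobeniusAt τ ℓ →
        ∃ t : k0, ρ τ * ρ τ - t • ρ τ + (ℓ : k0) • (1 : Module.End k0 W) = 0)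
    (hχfrob : ∀ ℓ : ℕ, ℓ.Prime → ℓ ∉ S → ∀ A : ValuationSubring Qb75, A.LiesOverPrime ℓ →
      ∀ τ : GQ75, A.IsFrobeniusAt τ ℓ → ((χ τ : k0ˣ) : k0) = ℓ) (g : GQ75) :
    ∃ t : k0, ρ g * ρ g - t • ρ g + ((χ g : k0ˣ) : k0) • (1 : Module.End k0 W) = 0 := by
  obtain ⟨L, hL, hLσ⟩ := sk75_common_level ρ χ hρ hχ
  have := hL
  obtain ⟨ℓ, A, τ, j, hℓ, hℓS, hA, hτ, hg⟩ := fp37_frob_pow_field L g S
  have hfix : ∀ x ∈ L, ((τ ^ j)⁻¹ * g) x = x := by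
    intro x hx
    rw [AlgEquiv.mul_apply, hg x hx, ← AlgEquiv.mul_apply, inv_mul_cancel, AlgEquiv.one_apply]
  obtain ⟨h1, h2⟩ := hLσ _ hfix
  have hgdec : g = τ ^ j * ((τ ^ j)⁻¹ * g) := by rw [mul_inv_cancel_left]
  have hρg : ρ g = ρ τ ^ j := by
    conv_lhs => rw [hgdec]
    rw [map_mul, h1, mul_one, map_pow]
  have hχg : χ g = χ τ ^ j := by
    conv_lhs => rw [hgdec]
    rw [map_mul, h2, mul_one, map_pow]
  obtain ⟨t, ht⟩ := hfrob ℓ hℓ hℓS A hA τ hτ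
  obtain ⟨t', ht'⟩ := blr75_pow (ρ τ) t (ℓ : k0) ht j
  refine ⟨t', ?_⟩
  rw [hρg, hχg, Units.val_pow_eq_pow_val, hχfrob ℓ hℓ hℓS A hA τ hτ]
  exact ht'

variable [IsAlgClosed k0] [FiniteDimensional k0 W] [Nontrivial W]

/-- **The two-dimensional representation.** -/
theorem sk75_rep (ρ : GQ75 →* Module.End k0 W) (hρ : GaloisFactorsThroughFiniteLevel ρ)
    (χ : GQ75 →* k0ˣ) (hχ : GaloisFactorsThroughFiniteLevel χ) (S : Finset ℕ)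
    (hfrob : ∀ ℓ : ℕ, ℓ.Prime → ℓ ∉ S → ∀ A : ValuationSubring Qb75, A.LiesOverPrime ℓ →
      ∀ τ : GQ75, A.IsFrobeniusAt τ ℓ →
        ∃ t : k0, ρ τ * ρ τ - t • ρ τ + (ℓ : k0) • (1 : Module.End k0 W) = 0)
    (hχfrob : ∀ ℓ : ℕ, ℓ.Prime → ℓ ∉ S → ∀ A : ValuationSubring Qb75, A.LiesOverPrime ℓ →
      ∀ τ : GQ75, A.IsFrobeniusAt τ ℓ → ((χ τ : k0ˣ) : k0) = ℓ) :
    ∃ ρ' : GQ75 →* Module.End k0 (Fin 2 → k0), GaloisFactorsThroughFiniteLevel ρ' ∧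
      (∀ ℓ : ℕ, ℓ.Prime → ℓ ∉ S → ∀ A : ValuationSubring Qb75, A.LiesOverPrime ℓ →
        ∀ τ : GQ75, A.IsFrobeniusAt τ ℓ → ∀ t : k0,
          ρ τ * ρ τ - t • ρ τ + (ℓ : k0) • (1 : Module.End k0 W) = 0 →
          LinearMap.charpoly (ρ' τ) = X ^ 2 - C t * X + C (ℓ : k0)) ∧
      (∀ σ : GQ75, ρ σ = 1 → χ σ = 1 → ρ' σ = 1) := by
  obtain ⟨ρ', h1, h2⟩ := blr75_main ρ χ (sk75_quad_all ρ hρ χ hχ S hfrob hχfrob)
  refine ⟨ρ', ?_, ?_, h2⟩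
  · obtain ⟨L, hL, hLσ⟩ := sk75_common_level ρ χ hρ hχ
    exact ⟨L, hL, fun σ hσ => h2 σ (hLσ σ hσ).1 (hLσ σ hσ).2⟩
  · intro ℓ hℓ hℓS A hA τ hτ t ht
    have hχτ := hχfrob ℓ hℓ hℓS A hA τ hτ
    have := h1 τ t (by rw [hχτ]; exact ht)
    rw [this, hχτ]

/-- The same, packaged as a Prelude `ResidualGaloisRep`. -/
theorem sk75_residual (ρ : GQ75 →* Module.End k0 W) (hρ : GaloisFactorsThroughFiniteLevel ρ)
    (χ : GQ75 →* k0ˣ) (hχ : GaloisFactorsThroughFiniteLevel χ) (S : Finset ℕ)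
    (hfrob : ∀ ℓ : ℕ, ℓ.Prime → ℓ ∉ S → ∀ A : ValuationSubring Qb75, A.LiesOverPrime ℓ →
      ∀ τ : GQ75, A.IsFrobeniusAt τ ℓ →
        ∃ t : k0, ρ τ * ρ τ - t • ρ τ + (ℓ : k0) • (1 : Module.End k0 W) = 0)
    (hχfrob : ∀ ℓ : ℕ, ℓ.Prime → ℓ ∉ S → ∀ A : ValuationSubring Qb75, A.LiesOverPrime ℓ →
      ∀ τ : GQ75, A.IsFrobeniusAt τ ℓ → ((χ τ : k0ˣ) : k0) = ℓ) :
    ∃ r : ResidualGaloisRep k0,
      (∀ ℓ : ℕ, ℓ.Prime → ℓ ∉ S → ∀ A : ValuationSubring Qb75, A.LiesOverPrime ℓ →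
        ∀ τ : GQ75, A.IsFrobeniusAt τ ℓ → ∀ t : k0,
          ρ τ * ρ τ - t • ρ τ + (ℓ : k0) • (1 : Module.End k0 W) = 0 →
          LinearMap.charpoly (r.ρ τ) = X ^ 2 - C t * X + C (ℓ : k0)) ∧
      (∀ σ : GQ75, ρ σ = 1 → χ σ = 1 → r.ρ σ = 1) := by
  obtain ⟨ρ', h0, h1, h2⟩ := sk75_rep ρ hρ χ hχ S hfrob hχfrob
  exact ⟨{ V := Fin 2 → k0
           finrank_eq := by simp
           ρ := ρ'
           factorsThroughFiniteLevel := h0 }, h1, h2⟩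

end

/-- **The core statement from a Galois module.**  `W` is a nonzero finite-dimensional
representation of `Gal(ℚ̄/ℚ)` over an algebraically closed field `k0` of characteristic `p`,
of finite level, unramified outside `N p`, on which the Frobenius elements at `ℓ ∤ N p` satisfy
`X² - φ(a_ℓ) X + ℓ`; `ε` is a mod `p` cyclotomic character.  Then there is a residual Galois
representation attached to `g` along `φ`, unramified outside `N p`. -/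
theorem sk75_core_of {N : ℕ} (g : CuspForm (CongruenceSubgroup.Gamma0 N) 2) {p : ℕ}
    {k0 : Type} [Field k0] [IsAlgClosed k0] [CharP k0 p]
    (φ : integralClosure ℤ ℂ →+* k0) (hNp : N * p ≠ 0)
    (ε : GQ75 →* (ZMod p)ˣ) (hε : GaloisFactorsThroughFiniteLevel ε)
    (hεfrob : ∀ ℓ : ℕ, ℓ.Prime → ℓ ≠ p → ∀ A : ValuationSubring Qb75, A.LiesOverPrime ℓ →
      ∀ τ : GQ75, A.IsFrobeniusAt τ ℓ → ((ε τ : (ZMod p)ˣ) : ZMod p) = ℓ)
    (hεinert : ∀ ℓ : ℕ, ℓ.Prime → ℓ ≠ p → ∀ A : ValuationSubring Qb75, A.LiesOverPrime ℓ →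
      ∀ σ ∈ A.inertiaSubgroupIn ℚ, ε σ = 1)
    {W : Type} [AddCommGroup W] [Module k0 W] [FiniteDimensional k0 W] [Nontrivial W]
    (ρ : GQ75 →* Module.End k0 W) (hρ : GaloisFactorsThroughFiniteLevel ρ)
    (hfrob : ∀ ℓ : ℕ, ℓ.Prime → ¬ ℓ ∣ N * p → ∀ A : ValuationSubring Qb75, A.LiesOverPrime ℓ →
      ∀ τ : GQ75, A.IsFrobeniusAt τ ℓ →
        ∃ a : integralClosure ℤ ℂ, (a : ℂ) = ModularFormClass.qCoeff g ℓ ∧
          ρ τ * ρ τ - φ a • ρ τ + (ℓ : k0) • (1 : Module.End k0 W) = 0)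
    (hinert : ∀ ℓ : ℕ, ℓ.Prime → ¬ ℓ ∣ N * p → ∀ A : ValuationSubring Qb75,
      A.LiesOverPrime ℓ → ∀ σ ∈ A.inertiaSubgroupIn ℚ, ρ σ = 1) :
    ∃ r : ResidualGaloisRep k0, r.IsAttachedTo g φ ∧
      ∀ ℓ : ℕ, ℓ.Prime → ¬ ℓ ∣ N * p → r.IsUnramifiedAt ℓ := by
  set S : Finset ℕ := (N * p).primeFactors with hS
  have hS' : ∀ ℓ : ℕ, ℓ.Prime → (ℓ ∉ S ↔ ¬ ℓ ∣ N * p) := by
    intro ℓ hℓ
    rw [hS, Nat.mem_primeFactors]
    constructor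
    · intro h hdvd
      exact h ⟨hℓ, hdvd, hNp⟩
    · rintro h ⟨-, hdvd, -⟩
      exact h hdvd
  have hne : ∀ ℓ : ℕ, ¬ ℓ ∣ N * p → ℓ ≠ p := by
    rintro ℓ h rfl
    exact h (dvd_mul_left _ _)
  -- the character with values in `k0`
  let c : ZMod p →+* k0 := ZMod.castHom (dvd_refl p) k0
  let χ : GQ75 →* k0ˣ := (Units.map (c : ZMod p →* k0)).comp ε
  have hχval : ∀ σ : GQ75, ((χ σ : k0ˣ) : k0) = c ((ε σ : (ZMod p)ˣ) : ZMod p) := fun σ => rfl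
  have hχone : ∀ σ : GQ75, ε σ = 1 → χ σ = 1 := by
    intro σ h
    show Units.map (c : ZMod p →* k0) (ε σ) = 1
    rw [h, map_one]
  have hχ : GaloisFactorsThroughFiniteLevel χ := by
    obtain ⟨L, hL, h⟩ := hε
    exact ⟨L, hL, fun σ hσ => hχone σ (h σ hσ)⟩
  have hχfrob : ∀ ℓ : ℕ, ℓ.Prime → ℓ ∉ S → ∀ A : ValuationSubring Qb75, A.LiesOverPrime ℓ →
      ∀ τ : GQ75, A.IsFrobeniusAt τ ℓ → ((χ τ : k0ˣ) : k0) = ℓ := by
    intro ℓ hℓ hℓS A hA τ hτ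
    rw [hχval, hεfrob ℓ hℓ (hne ℓ ((hS' ℓ hℓ).mp hℓS)) A hA τ hτ, map_natCast]
  have hfrob' : ∀ ℓ : ℕ, ℓ.Prime → ℓ ∉ S → ∀ A : ValuationSubring Qb75, A.LiesOverPrime ℓ →
      ∀ τ : GQ75, A.IsFrobeniusAt τ ℓ →
        ∃ t : k0, ρ τ * ρ τ - t • ρ τ + (ℓ : k0) • (1 : Module.End k0 W) = 0 := by
    intro ℓ hℓ hℓS A hA τ hτ
    obtain ⟨a, -, ha⟩ := hfrob ℓ hℓ ((hS' ℓ hℓ).mp hℓS) A hA τ hτ
    exact ⟨φ a, ha⟩
  obtain ⟨r, hr1, hr2⟩ := sk75_residual ρ hρ χ hχ S hfrob' hχfrob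
  refine ⟨r, ?_, ?_⟩
  · intro ℓ hℓ hℓN hℓk A hA σ hσ
    have hℓp : ℓ ≠ p := by
      rintro rfl
      exact hℓk (CharP.cast_eq_zero k0 ℓ)
    have hℓNp : ¬ ℓ ∣ N * p := by
      intro h
      rcases (Nat.Prime.dvd_mul hℓ).mp h with h | h
      · exact hℓN h
      · have hp : p.Prime := by
          rcases Nat.eq_zero_or_pos p with h0 | h0
          · subst h0; simp at hNp
          · by_contra hnp
            have := (CharP.char_is_prime_or_zero k0 p).resolve_left hnp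
            omega
        exact hℓp ((Nat.prime_dvd_prime_iff_eq hℓ hp).mp h)
    obtain ⟨a, ha, hrel⟩ := hfrob ℓ hℓ hℓNp A hA σ hσ
    exact ⟨a, ha, hr1 ℓ hℓ ((hS' ℓ hℓ).mpr hℓNp) A hA σ hσ (φ a) hrel⟩
  · intro ℓ hℓ hℓNp A hA σ hσ
    exact hr2 σ (hinert ℓ hℓ hℓNp A hA σ hσ)
      (hχone σ (hεinert ℓ hℓ (hne ℓ hℓNp) A hA σ hσ))

end Fermat.Agent.S42
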