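/-
S42 / S29 project (helper38): frozen-statement wrappers, part 1.

* `wr38_isAlgClosed_quot` : the residue field `Zbar ⧸ 𝔪` of a maximal ideal of the ring of
  algebraic integers is algebraically closed.
* `wr38_CoreAlgAt p` : the statement of S29 restricted to positive level and to algebraically
  closed coefficient fields of characteristic `p`.
* `wr38_S29` : the frozen statement S29 (all levels, all coefficient fields) from
  `wr38_CoreAlgAt p` for all primes `p`.
-/
import Mathlib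
import Fermat.Prelude.Def_GaloisRep_Residual

set_option autoImplicit false

open Polynomial

namespace Fermat.Agent.S42

local notation "Zb" => integralClosure ℤ ℂ
local notation "GQ" => (AlgebraicClosure ℚ ≃ₐ[ℚ] AlgebraicClosure ℚ)

/-! ### The residue fields of `Zbar` are algebraically closed -/

/-- a monic polynomial over `Zbar` of positive degree has a root in `Zbar` -/
theorem wr38_exists_root (P : Zb[X]) (hP : P.Monic) (hdeg : P.natDegree ≠ 0) :
    ∃ z : Zb, P.eval z = 0 := by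
  have hdeg' : (P.map (algebraMap Zb ℂ)).degree ≠ 0 := by
    rw [degree_map_eq_of_injective (FaithfulSMul.algebraMap_injective Zb ℂ),
      degree_eq_natDegree hP.ne_zero]
    exact_mod_cast hdeg
  obtain ⟨z, hz⟩ := IsAlgClosed.exists_root (P.map (algebraMap Zb ℂ)) hdeg'
  have hz' : Polynomial.eval₂ (algebraMap Zb ℂ) z P = 0 := by
    rwa [IsRoot.def, eval_map] at hz
  have hzint : IsIntegral Zb z := ⟨P, hP, hz'⟩
  have hzZ : IsIntegral ℤ z := isIntegral_trans z hzint
  refine ⟨⟨z, hzZ⟩, ?_⟩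
  apply FaithfulSMul.algebraMap_injective Zb ℂ
  rw [map_zero, ← hz']
  exact (Polynomial.eval₂_at_apply (algebraMap Zb ℂ) (⟨z, hzZ⟩ : Zb)).symm

/-- the residue field of a maximal ideal of `Zbar` is algebraically closed -/
theorem wr38_isAlgClosed_quot (𝔪 : Ideal Zb) [h𝔪 : 𝔪.IsMaximal] :
    @IsAlgClosed (Zb ⧸ 𝔪) (Ideal.Quotient.field 𝔪) := by
  let _ : Field (Zb ⧸ 𝔪) := Ideal.Quotient.field 𝔪
  refine IsAlgClosed.of_exists_root _ fun p hp hirr => ?_
  have hmem : p ∈ Polynomial.lifts (Ideal.Quotient.mk 𝔪) :=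
    (Polynomial.mem_lifts p).mpr (Polynomial.map_surjective _ Ideal.Quotient.mk_surjective p)
  obtain ⟨P, hPp, hPdeg, hPmon⟩ := Polynomial.lifts_and_natDegree_eq_and_monic hmem hp
  have hdeg : P.natDegree ≠ 0 := by
    rw [hPdeg]
    exact (Polynomial.natDegree_pos_iff_degree_pos.mpr
      (Polynomial.degree_pos_of_irreducible hirr)).ne'
  obtain ⟨z, hz⟩ := wr38_exists_root P hPmon hdeg
  refine ⟨Ideal.Quotient.mk 𝔪 z, ?_⟩
  rw [← hPp, Polynomial.eval_map, Polynomial.eval₂_at_apply, hz, map_zero]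

/-! ### The core statement and the S29 wrapper -/

/-- **Core statement at `p`**: S29 for positive level and algebraically closed coefficient
fields of characteristic `p`. -/
def wr38_CoreAlgAt (p : ℕ) : Prop :=
  ∀ (N : ℕ), 0 < N → ∀ g : CuspForm (CongruenceSubgroup.Gamma0 N) 2, g.IsNormalizedEigenform →
    ∀ (k : Type) [Field k] [IsAlgClosed k] [CharP k p] (φ : Zb →+* k),
      ∃ ρ : ResidualGaloisRep k, ρ.IsAttachedTo g φ ∧
        ∀ ℓ : ℕ, ℓ.Prime → ¬ ℓ ∣ N * p → ρ.IsUnramifiedAt ℓ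

/-- the trivial two-dimensional residual representation -/
noncomputable def wr38_trivRep (k : Type) [Field k] : ResidualGaloisRep k where
  V := Fin 2 → k
  finrank_eq := by simp
  ρ := 1
  factorsThroughFiniteLevel := ⟨⊥, inferInstance, fun _ _ => rfl⟩

/-- the kernel of a ring homomorphism from `Zbar` to a field of characteristic `p` is maximal -/
theorem wr38_ker_isMaximal {p : ℕ} (hp : p.Prime) {k : Type} [Field k] [CharP k p]
    (φ : Zb →+* k) : (RingHom.ker φ).IsMaximal := by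
  have : Algebra.IsIntegral ℤ Zb := inferInstance
  have : (RingHom.ker φ).IsPrime := RingHom.ker_isPrime φ
  apply Ideal.isMaximal_of_isIntegral_of_isMaximal_comap (R := ℤ) (RingHom.ker φ)
  have hcomap : Ideal.comap (algebraMap ℤ Zb) (RingHom.ker φ) = Ideal.span {(p : ℤ)} := by
    ext n
    rw [Ideal.mem_comap, RingHom.mem_ker, Ideal.mem_span_singleton, eq_intCast, map_intCast]
    exact CharP.intCast_eq_zero_iff k p n
  rw [hcomap]
  exact PrincipalIdealRing.isMaximal_of_irreducible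
    (Nat.prime_iff_prime_int.mp hp).irreducible

/-- base change along a field embedding preserves attachment -/
theorem wr38_isAttachedTo_baseChangeAlong {k₀ k : Type} [Field k₀] [Field k] (ι : k₀ →+* k)
    (ρ : ResidualGaloisRep k₀) {N : ℕ} (g : CuspForm (CongruenceSubgroup.Gamma0 N) 2)
    (ψ : Zb →+* k₀) (h : ρ.IsAttachedTo g ψ) :
    (ρ.baseChangeAlong ι).IsAttachedTo g (ι.comp ψ) := by
  intro ℓ hℓ hℓN hℓk A hA σ hσ
  have hℓk₀ : ((ℓ : ℕ) : k₀) ≠ 0 := by
    intro h0
    apply hℓk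
    rw [← map_natCast ι, h0, map_zero]
  obtain ⟨a, ha, hchar⟩ := h ℓ hℓ hℓN hℓk₀ A hA σ hσ
  refine ⟨a, ha, ?_⟩
  let : Algebra k₀ k := ι.toAlgebra
  refine (LinearMap.charpoly_baseChange (ρ.ρ σ) k).trans ?_
  rw [hchar]
  have h2 : algebraMap k₀ k = ι := rfl
  rw [h2]
  simp [Polynomial.map_sub, Polynomial.map_mul, Polynomial.map_pow]

/-- base change along a field embedding preserves unramifiedness -/
theorem wr38_isUnramifiedAt_baseChangeAlong {k₀ k : Type} [Field k₀] [Field k] (ι : k₀ →+* k)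
    (ρ : ResidualGaloisRep k₀) {q : ℕ} (h : ρ.IsUnramifiedAt q) :
    (ρ.baseChangeAlong ι).IsUnramifiedAt q := by
  intro A hA σ hσ
  let : Algebra k₀ k := ι.toAlgebra
  have h1 : (ρ.baseChangeAlong ι).ρ σ = (ρ.ρ σ).baseChange k := rfl
  rw [h1, h A hA σ hσ]
  exact LinearMap.baseChange_one k₀ ρ.V

/-- **S29 from the core statement** (frozen statement of S29, verbatim conclusion). -/
theorem wr38_S29 (hcore : ∀ p : ℕ, p.Prime → wr38_CoreAlgAt p)
    {N : ℕ} {g : CuspForm (CongruenceSubgroup.Gamma0 N) 2} (hg : g.IsNormalizedEigenform)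
    {p : ℕ} (hp : p.Prime) {k : Type} [Field k] [CharP k p]
    (φ : integralClosure ℤ ℂ →+* k) :
    ∃ ρ : ResidualGaloisRep k, ρ.IsAttachedTo g φ ∧
      ∀ ℓ : ℕ, ℓ.Prime → ¬ ℓ ∣ N * p → ρ.IsUnramifiedAt ℓ := by
  rcases Nat.eq_zero_or_pos N with hN | hN
  · subst hN
    refine ⟨wr38_trivRep k, ?_, ?_⟩
    · intro ℓ _ hℓN
      exact absurd (dvd_zero ℓ) hℓN
    · intro ℓ _ hℓN
      exact absurd (by simp) hℓN
  · have h𝔪 : (RingHom.ker φ).IsMaximal := wr38_ker_isMaximal hp φ
    let : Field (Zb ⧸ RingHom.ker φ) := Ideal.Quotient.field (RingHom.ker φ)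
    have : IsAlgClosed (Zb ⧸ RingHom.ker φ) := wr38_isAlgClosed_quot (RingHom.ker φ)
    have hinj : Function.Injective (RingHom.kerLift φ) := RingHom.kerLift_injective φ
    have : CharP (Zb ⧸ RingHom.ker φ) p := RingHom.charP (RingHom.kerLift φ) hinj p
    obtain ⟨ρ, hatt, hur⟩ := hcore p hp N hN g hg (Zb ⧸ RingHom.ker φ)
      (Ideal.Quotient.mk (RingHom.ker φ))
    refine ⟨ρ.baseChangeAlong (RingHom.kerLift φ), ?_, fun ℓ hℓ hℓN => ?_⟩
    · have h := wr38_isAttachedTo_baseChangeAlong (RingHom.kerLift φ) ρ g _ hatt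
      have hcomp : (RingHom.kerLift φ).comp (Ideal.Quotient.mk (RingHom.ker φ)) = φ := by
        ext x
        rfl
      rwa [hcomp] at h
    · exact wr38_isUnramifiedAt_baseChangeAlong _ ρ (hur ℓ hℓ hℓN)

end Fermat.Agent.S42
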