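/-
S42 / M11 (helper75): the core statement `wr38_CoreAlgAt p` from (W1).

(W1) at level `N`, prime `p`, eigenform `f`, reduction `φ : Zbar →+* k0`:
  there is `0 ≠ y ∈ k0 ⊗ J₀(N)[p]` with `T_ℓ y = φ(a_ℓ) y` for all primes `ℓ ∤ N p`.

* `core75_abs`      : abstract form - a Galois module `M` over an algebraically closed field of
  characteristic `p` with open stabilisers, commuting operators `T ℓ`, the Eichler-Shimura
  relation at Frobenius elements, trivial inertia outside `N p`, and a nonzero simultaneous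
  eigenvector with eigenvalues `φ (a_ℓ)` gives a residual representation attached to `g`;
* `core75_of_W1_at` : the same for `M = k ⊗ J₀(N)[p]` (M10 of helper69 supplies the hypotheses);
* `core75_of_W1`    : (W1) for all `N > 0` and all normalized eigenforms ⇒ `wr38_CoreAlgAt p`
  (the statement of S29 for algebraically closed coefficient fields of characteristic `p` and
  positive level).

Twin route of `SkeletonCore65` (helper65); ingredients: `GalMod75` (orbit-span module),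
`Skeleton75` (BLR-lite + Chebotarev-lite), `CycloChar92` (helper92), `M10AdapterW69` (helper69).
-/
import Fermat.Agent.S42.Skeleton75
import Fermat.Agent.S42.GalMod75
import Fermat.Agent.S42.CycloChar92
import Fermat.Agent.S42.M10AdapterW69
import Fermat.Agent.S42.Wrap38

set_option autoImplicit false
set_option linter.style.haveILetI false

namespace Fermat.Agent.S42

open scoped TensorProduct
open CongruenceSubgroup ModularCurve AlgebraicCurve

local notation "Qb75" => AlgebraicClosure ℚ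
local notation "GQ75" => AlgebraicClosure ℚ ≃ₐ[ℚ] AlgebraicClosure ℚ

/-- **Abstract core.** -/
theorem core75_abs {N : ℕ} (g : CuspForm (Gamma0 N) 2) {p : ℕ} [Fact p.Prime]
    {k : Type} [Field k] [IsAlgClosed k] [CharP k p] (φ : integralClosure ℤ ℂ →+* k)
    (hN : N ≠ 0) {M : Type} [AddCommGroup M] [Module k M]
    (R : GQ75 →* Module.End k M)
    (hopen : ∀ z : M, ∃ E : IntermediateField ℚ Qb75, FiniteDimensional ℚ E ∧
      ∀ σ : GQ75, (∀ a ∈ E, σ a = a) → R σ z = z)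
    (T : Nat.Primes → Module.End k M)
    (hcomm : ∀ (ℓ : Nat.Primes) (σ : GQ75), R σ * T ℓ = T ℓ * R σ)
    (hfrob : ∀ ℓ : Nat.Primes, ¬ (ℓ : ℕ) ∣ N * p → ∀ A : ValuationSubring Qb75,
      A.LiesOverPrime ℓ → ∀ τ : GQ75, A.IsFrobeniusAt τ ℓ →
        R τ * R τ - T ℓ * R τ + (((ℓ : ℕ) : k)) • (1 : Module.End k M) = 0)
    (hinert : ∀ ℓ : ℕ, ℓ.Prime → ¬ ℓ ∣ N * p → ∀ A : ValuationSubring Qb75,
      A.LiesOverPrime ℓ → ∀ σ ∈ A.inertiaSubgroupIn ℚ, R σ = 1)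
    (y : M) (hy0 : y ≠ 0)
    (hy : ∀ ℓ : Nat.Primes, ¬ (ℓ : ℕ) ∣ N * p →
      ∃ a : integralClosure ℤ ℂ, (a : ℂ) = ModularFormClass.qCoeff (⇑g) ℓ ∧ T ℓ y = φ a • y) :
    ∃ ρ : ResidualGaloisRep k, ρ.IsAttachedTo g φ ∧
      ∀ ℓ : ℕ, ℓ.Prime → ¬ ℓ ∣ N * p → ρ.IsUnramifiedAt ℓ := by
  have hp : p.Prime := Fact.out
  have hNp : N * p ≠ 0 := Nat.mul_ne_zero hN hp.ne_zero
  haveI : FiniteDimensional k (gm75_W R y) := gm75_finiteDimensional R hopen y
  haveI : Nontrivial (gm75_W R y) := gm75_nontrivial R y hy0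
  refine sk75_core_of g φ hNp (ExtCitation.cycloChar p) (cy92_finiteLevel p)
    (fun ℓ hℓ hℓp A hA τ hτ => cy92_frob p hℓ hℓp A hA τ hτ)
    (fun ℓ hℓ hℓp A hA σ hσ => cy92_inertia p hℓ hℓp A hA σ hσ)
    (gm75_rho R y) (gm75_rho_level R hopen y) ?_ ?_
  · intro ℓ hℓ hℓNp A hA τ hτ
    obtain ⟨a, ha, hay⟩ := hy ⟨ℓ, hℓ⟩ hℓNp
    exact ⟨a, ha, gm75_rho_quad R y τ (T ⟨ℓ, hℓ⟩) ((ℓ : ℕ) : k) (φ a) (hcomm ⟨ℓ, hℓ⟩) hay
      (hfrob ⟨ℓ, hℓ⟩ hℓNp A hA τ hτ)⟩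
  · intro ℓ hℓ hℓNp A hA σ hσ
    exact gm75_rho_one R y σ (hinert ℓ hℓ hℓNp A hA σ hσ)

/-- `gm75_bc_quad` with a natural number as constant term. -/
theorem core75_bc_quad_nat {F : Type} [Field F] {k0 : Type} [Field k0] [Algebra F k0]
    {J : Type} [AddCommGroup J] [Module F J] {G : Type} [Group G]
    (ρ₀ : G →* Module.End F J) (T₀ : Module.End F J) (n : ℕ) (τ : G)
    (hrel : ρ₀ τ * ρ₀ τ - T₀ * ρ₀ τ + (n : F) • (1 : Module.End F J) = 0) :
    gm75_bc (k0 := k0) ρ₀ τ * gm75_bc (k0 := k0) ρ₀ τ - T₀.baseChange k0 * gm75_bc (k0 := k0) ρ₀ τ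
      + (n : k0) • (1 : Module.End k0 (k0 ⊗[F] J)) = 0 := by
  have h := gm75_bc_quad (k0 := k0) ρ₀ T₀ (n : F) τ hrel
  rwa [map_natCast] at h

/-- The conclusion (W1) at `N`, `p`, `f`, `φ`. -/
def core75_W1 (N p : ℕ) [NeZero N] (f : CuspForm (Gamma0 N) 2)
    (k0 : Type) [Field k0] [Algebra (ZMod p) k0] (φ : integralClosure ℤ ℂ →+* k0) : Prop :=
  ∃ y : k0 ⊗[ZMod p] w1a28_J N p, y ≠ 0 ∧
    ∀ ℓ : Nat.Primes, ¬ (ℓ : ℕ) ∣ N * p →
      ∃ a : integralClosure ℤ ℂ, (a : ℂ) = ModularFormClass.qCoeff (⇑f) ℓ ∧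
        (w1a28_TJ N p ℓ).baseChange k0 y = φ a • y

/-- **(W1) ⇒ the residual representation**, one form at a time. -/
theorem core75_of_W1_at (N p : ℕ) [NeZero N] [Fact p.Prime]
    (g : CuspForm (Gamma0 N) 2)
    (k : Type) [Field k] [IsAlgClosed k] [CharP k p] [Algebra (ZMod p) k]
    (φ : integralClosure ℤ ℂ →+* k) (hW1 : core75_W1 N p g k φ) :
    ∃ ρ : ResidualGaloisRep k, ρ.IsAttachedTo g φ ∧
      ∀ ℓ : ℕ, ℓ.Prime → ¬ ℓ ∣ N * p → ρ.IsUnramifiedAt ℓ := by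
  have hp : p.Prime := Fact.out
  obtain ⟨y, hy0, hy⟩ := hW1
  refine core75_abs (M := k ⊗[ZMod p] w1a28_J N p) g φ (NeZero.ne N)
    (gm75_bc (k0 := k) (JZero.torsionGaloisRep N p)) ?_
    (fun ℓ => (w1a28_TJ N p ℓ).baseChange k) ?_ ?_ ?_ y hy0 hy
  · exact gm75_bc_open (k0 := k) (JZero.torsionGaloisRep N p) (fi69_ad_open N p hp.ne_zero)
  · intro ℓ σ
    exact gm75_bc_comm (k0 := k) (JZero.torsionGaloisRep N p) (w1a28_TJ N p ℓ)
      (fi69_w_comm N p ℓ) σ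
  · intro ℓ hℓNp A hA τ hτ
    exact core75_bc_quad_nat (k0 := k) (JZero.torsionGaloisRep N p) (w1a28_TJ N p ℓ)
      (ℓ : ℕ) τ (fi69_w_frob N p ℓ hℓNp A hA τ hτ)
  · intro ℓ hℓ hℓNp A hA σ hσ
    exact gm75_bc_one (k0 := k) (JZero.torsionGaloisRep N p) σ
      (fi69_ad_inert' N p ℓ hℓ hℓNp A hA σ hσ)

/-- **The core statement from (W1).** -/
theorem core75_of_W1 (p : ℕ) [Fact p.Prime]
    (hW1 : ∀ (N : ℕ) [NeZero N] (f : CuspForm (Gamma0 N) 2), f.IsNormalizedEigenform →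
      ∀ (k0 : Type) [Field k0] [IsAlgClosed k0] [CharP k0 p] [Algebra (ZMod p) k0]
        (φ : integralClosure ℤ ℂ →+* k0), core75_W1 N p f k0 φ) :
    wr38_CoreAlgAt p := by
  intro N hN g hg k _ _ _ φ
  haveI : NeZero N := ⟨hN.ne'⟩
  letI : Algebra (ZMod p) k := ZMod.algebra k p
  exact core75_of_W1_at N p g k φ (hW1 N g hg k φ)

end Fermat.Agent.S42
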