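import Fermat.Agent.S42.DivGFinal93
import Fermat.Agent.S42.CuspConc36
import Fermat.Agent.S42.EisChiMer77

/-!
# S42, seam (G-X), the cusp hypothesis discharged (helper36)

Glue of `CuspConc36` (`pc36_cusp_one`, norm route on `pa36_P3`) with helper93's concrete
`DivGFinal93` (`F = gi41_FC N = F_ℂ(N)`, `ev = ff79_evMer N`, `j₀ = dg93_j0 N`, `K1`/`K3`/`L1`
already discharged there) and helper77's Eisenstein quotient (`EisChiMer77`).

* `pc36_hcusp_FC` : `ev u = a / b` with `(a / b)(s • z) → 1` at `i∞` for every `s ∈ SL(2,ℤ)`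
  ⟹ `v.ord u = 0` at every place of `F_ℂ(N)` over `j = ∞` (= `hcusp` of `dg93_X_div`).
* `pc36_cusp_Gchi` : the instance `ev u = G_χ = (E_χ / E_1) ^ p`.
* `pc36_X_div` : the divisibility clause of (X) without cusp hypothesis, from cusp limits.
* `pc36_X_div_Gchi` : the divisibility clause of (X) for `h = F_χ = E_χ / E_1`.
-/

set_option autoImplicit false
set_option linter.style.haveILetI false
set_option synthInstance.maxHeartbeats 400000

open AlgebraicCurve IntermediateField MatrixGroups UpperHalfPlane ModularCurve CongruenceSubgroup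
open Filter Topology

namespace Fermat.Agent.S42

open Fermat.Agent.S24

/-- **The cusp hypothesis of `dg93_X_div`, from limits at the cusps.** -/
theorem pc36_hcusp_FC (N : ℕ) [NeZero N] (u : gi41_FC N) (hu0 : u ≠ 0) (a b : mer95_O)
    (hb : b ≠ 0)
    (hab : ff79_evMer N u = algebraMap mer95_O mer95_MER a / algebraMap mer95_O mer95_MER b)
    (hlim : ∀ s : SL(2, ℤ),
      Tendsto (fun z : ℍ => a.1 (s • z) / b.1 (s • z)) atImInfty (𝓝 1))
    (v : Place ℂ (gi41_FC N)) (hv : v.ord (dg93_j0 N) < 0) : v.ord u = 0 := by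
  obtain ⟨hfd, -⟩ := gi41_K1C N (dg93_j0 N) (dg93_j0_coe N)
  haveI := hfd
  haveI : Finite (SL(2, ℤ) ⧸ Gamma0 N) := Subgroup.finite_quotient_of_finiteIndex
  letI : Fintype (Cosets N) := Fintype.ofFinite _
  exact pc36_cusp_one (ff79_evMer N) (dg93_j0 N) (dg93_j0_transcendental N) dg93_jO
    (fun _ => rfl) (dg93_ev_j0 N) (fun b : Cosets N => b.out)
    (fun f => gi41_mer_norm N (ff79_evMer N) (dg93_j0 N) dg93_jM (dg93_j0_coe N) dg93_jM_smul
      (dg93_ev_j0 N) (ff79_evMer_smul N) l1j27_L1_MER (gc6_out_bijective (Gamma0 N)) f)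
    u hu0 a b hb hab hlim v hv

/-- **The divisibility clause of (X), from cusp limits**, `p ≥ 5`: `h ≠ 0` with a character
`ζ ^ χ` of `Γ₀(N)`, `ev u = h ^ p = a / b` with `(a / b)(s • z) → 1` at `i∞` for every
`s ∈ SL(2,ℤ)` give `p ∣ v.ord u` at every place of `F_ℂ(N)`. -/
theorem pc36_X_div (N : ℕ) [NeZero N] (p : ℕ) (hp : p.Prime) (hp5 : 5 ≤ p) (ζ : mer95_MER)
    (χ : Additive (Gamma0 N) →+ ZMod p) (u : gi41_FC N) (h : mer95_MER) (hh : h ≠ 0)
    (hchar : th70_IsChar p ζ χ h) (hu : ff79_evMer N u = h ^ p)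
    (a b : mer95_O) (hb : b ≠ 0)
    (hab : h ^ p = algebraMap mer95_O mer95_MER a / algebraMap mer95_O mer95_MER b)
    (hlim : ∀ s : SL(2, ℤ),
      Tendsto (fun z : ℍ => a.1 (s • z) / b.1 (s • z)) atImInfty (𝓝 1))
    (v : Place ℂ (gi41_FC N)) : (p : ℤ) ∣ v.ord u := by
  have hu0 : u ≠ 0 := by
    rintro rfl
    rw [map_zero] at hu
    exact pow_ne_zero p hh hu.symm
  exact dg93_X_div N p hp hp5 ζ χ u h hh hchar hu
    (fun v hv => pc36_hcusp_FC N u hu0 a b hb (hu.trans hab) hlim v hv) v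

section Gchi

variable {k : ℤ}

/-- **Order zero of `G_χ` at the cusps**: if `ev u = G_χ = (E_χ / E_1) ^ p` then `v.ord u = 0`
at every place of `F_ℂ(N)` over `j = ∞`. -/
theorem pc36_cusp_Gchi (N : ℕ) [NeZero N] (hk : 3 ≤ k) (hk2 : Even k) {p : ℕ} (hp : p ≠ 0)
    (χ : ↥(Gamma0 N) →* ℂˣ) (hχp : ∀ γ : ↥(Gamma0 N), χ γ ^ p = 1)
    (hpar : ∀ γ : ↥(Gamma0 N),
      ((γ : SL(2, ℤ)) : Matrix (Fin 2) (Fin 2) ℤ).trace ^ 2 = 4 → χ γ = 1)
    (u : gi41_FC N)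
    (hu : ff79_evMer N u = ec77_Gchi k (Gamma0 N) χ p hk (ec77_unit_of_pow hp hχp))
    (v : Place ℂ (gi41_FC N)) (hv : v.ord (dg93_j0 N) < 0) : v.ord u = 0 := by
  have hu0 : u ≠ 0 := by
    rintro rfl
    rw [map_zero] at hu
    exact ec77_Gchi_ne_zero hk hk2 (ec77_unit_of_pow hp hχp) hpar hu.symm
  exact pc36_hcusp_FC N u hu0 _ _ (pow_ne_zero p (ec77_EoneO_ne_zero k hk hk2))
    (hu.trans (ec77_Gchi_eq_div hk p (ec77_unit_of_pow hp hχp)))
    (ec77_Gchi_tendsto hk hk2 hp hχp hpar) v hv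

/-- **The divisibility clause of (X) for `h = F_χ = E_χ / E_1`**, `p ≥ 5`: if `F_χ` has the
character `ζ ^ χa` (in the `th70_IsChar` convention) and `ev u = F_χ ^ p`, then `p ∣ v.ord u`
at every place of `F_ℂ(N)`. -/
theorem pc36_X_div_Gchi (N : ℕ) [NeZero N] (hk : 3 ≤ k) (hk2 : Even k) (p : ℕ) (hp : p.Prime)
    (hp5 : 5 ≤ p) (χ : ↥(Gamma0 N) →* ℂˣ) (hχp : ∀ γ : ↥(Gamma0 N), χ γ ^ p = 1)
    (hpar : ∀ γ : ↥(Gamma0 N),
      ((γ : SL(2, ℤ)) : Matrix (Fin 2) (Fin 2) ℤ).trace ^ 2 = 4 → χ γ = 1)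
    (ζ : mer95_MER) (χa : Additive (Gamma0 N) →+ ZMod p)
    (hchar : th70_IsChar p ζ χa
      (ec77_Fchi k (Gamma0 N) χ hk (ec77_unit_of_pow hp.ne_zero hχp)))
    (u : gi41_FC N)
    (hu : ff79_evMer N u =
      ec77_Fchi k (Gamma0 N) χ hk (ec77_unit_of_pow hp.ne_zero hχp) ^ p)
    (v : Place ℂ (gi41_FC N)) : (p : ℤ) ∣ v.ord u :=
  dg93_X_div N p hp hp5 ζ χa u _
    (ec77_Fchi_ne_zero hk hk2 (ec77_unit_of_pow hp.ne_zero hχp) hpar) hchar hu
    (fun v hv => pc36_cusp_Gchi N hk hk2 hp.ne_zero χ hχp hpar u hu v hv) v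

end Gchi

end Fermat.Agent.S42
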