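import Mathlib
import Fermat.Prelude.Def_AlgebraicCurve_DivisorClassGroup
import Fermat.Agent.S24.PlacesBasicCore
import Fermat.Agent.S42.Mer95

/-!
# S42 / Project 4, row M4c (helper57): the cusp side of the places dictionary (concrete P3)

Limits at `i∞` of elements of `mer95_MER` (representation-based, no value map needed), and
the consequence for the places over `j = ∞` of a function field embedded in `mer95_MER`:
a function all of whose conjugates have finite limits at `i∞` is regular at every place `v`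
with `v.ord x < 0` (`x ↦ j`), and a function all of whose conjugates tend to `1` has order `0`
there.

* `cl57_degree_le` : a rational function of `z` with a finite limit along `‖z‖ → ∞` has
  numerator degree at most denominator degree.
* `cl57_ord_aeval`, `cl57_ord_div_nonneg` : orders of polynomials in `x` at a pole of `x`.
* `cl57_Lim x L`, `cl57_HasLim x` : `x` tends to `L` at `i∞`; calculus.
* `cl57_ord_nonneg_of_poly` : integrality at the places over `∞` from the conjugates.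
* `cl57_P3` : conjugates tending to `1` ⟹ order `0` at every place over `∞`.
-/

set_option autoImplicit false
set_option linter.style.haveILetI false

open Filter Topology Polynomial UpperHalfPlane AlgebraicCurve
open scoped MatrixGroups

namespace Fermat.Agent.S42

open Fermat.Agent.S24

/-! ### Rational functions along `‖z‖ → ∞` -/

section RatFunc

variable {α : Type*} {l : Filter α}

theorem cl57_eventually_ne_zero {z : α → ℂ} (hz : Tendsto (fun t => ‖z t‖) l atTop) :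
    ∀ᶠ t in l, z t ≠ 0 := by
  filter_upwards [hz.eventually (eventually_gt_atTop 0)] with t ht
  exact norm_pos_iff.mp ht

/-- `P(z) / z ^ deg P` tends to the leading coefficient as `‖z‖ → ∞`. -/
theorem cl57_tendsto_div_pow {z : α → ℂ} (hz : Tendsto (fun t => ‖z t‖) l atTop) (P : ℂ[X]) :
    Tendsto (fun t => P.eval (z t) / z t ^ P.natDegree) l (𝓝 P.leadingCoeff) := by
  have hinv : Tendsto (fun t => (z t)⁻¹) l (𝓝 0) := by
    rw [tendsto_zero_iff_norm_tendsto_zero]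
    have h1 : Tendsto (fun t => ‖z t‖⁻¹) l (𝓝 0) := tendsto_inv_atTop_zero.comp hz
    refine h1.congr fun t => ?_
    rw [norm_inv]
  have hc : Tendsto (fun t => P.reverse.eval ((z t)⁻¹)) l (𝓝 (P.reverse.eval 0)) :=
    (P.reverse.continuous.tendsto 0).comp hinv
  have h0 : P.reverse.eval 0 = P.leadingCoeff := by
    rw [← coeff_zero_eq_eval_zero, coeff_zero_reverse]
  rw [h0] at hc
  refine hc.congr' ?_
  filter_upwards [cl57_eventually_ne_zero hz] with t ht
  letI : Invertible (z t) := invertibleOfNonzero ht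
  have h1 := eval₂_reverse_mul_pow (RingHom.id ℂ) (z t) P
  rw [invOf_eq_inv, eval₂_id, eval₂_id] at h1
  rw [eq_div_iff (pow_ne_zero _ ht)]
  exact h1

/-- A nonzero polynomial does not vanish eventually along `‖z‖ → ∞`. -/
theorem cl57_eventually_eval_ne_zero {z : α → ℂ} (hz : Tendsto (fun t => ‖z t‖) l atTop)
    {Q : ℂ[X]} (hQ : Q ≠ 0) : ∀ᶠ t in l, Q.eval (z t) ≠ 0 := by
  have h1 := cl57_tendsto_div_pow hz Q
  have h2 : ∀ᶠ t in l, Q.eval (z t) / z t ^ Q.natDegree ≠ 0 :=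
    h1.eventually_ne (leadingCoeff_ne_zero.mpr hQ)
  filter_upwards [h2] with t ht h0
  exact ht (by rw [h0, zero_div])

/-- A rational function with a finite limit along `‖z‖ → ∞` has numerator degree at most the
denominator degree. -/
theorem cl57_degree_le [l.NeBot] {z : α → ℂ} (hz : Tendsto (fun t => ‖z t‖) l atTop)
    {P Q : ℂ[X]} (hP : P ≠ 0) (hQ : Q ≠ 0) {L : ℂ}
    (h : Tendsto (fun t => P.eval (z t) / Q.eval (z t)) l (𝓝 L)) :
    P.natDegree ≤ Q.natDegree := by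
  by_contra hlt
  rw [not_le] at hlt
  have hA := cl57_tendsto_div_pow hz P
  have hB := cl57_tendsto_div_pow hz Q
  have ha : P.leadingCoeff ≠ 0 := leadingCoeff_ne_zero.mpr hP
  have hb : Q.leadingCoeff ≠ 0 := leadingCoeff_ne_zero.mpr hQ
  -- `z ^ (m - n) = (P / Q) * ((Q / z ^ n) / (P / z ^ m))` eventually
  have h1 : Tendsto (fun t => (P.eval (z t) / Q.eval (z t)) *
      ((Q.eval (z t) / z t ^ Q.natDegree) / (P.eval (z t) / z t ^ P.natDegree))) l
      (𝓝 (L * (Q.leadingCoeff / P.leadingCoeff))) := h.mul (hB.div hA ha)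
  have h2 : Tendsto (fun t => z t ^ (P.natDegree - Q.natDegree)) l
      (𝓝 (L * (Q.leadingCoeff / P.leadingCoeff))) := by
    refine h1.congr' ?_
    have hPne : ∀ᶠ t in l, P.eval (z t) ≠ 0 := cl57_eventually_eval_ne_zero hz hP
    have hQne : ∀ᶠ t in l, Q.eval (z t) ≠ 0 := cl57_eventually_eval_ne_zero hz hQ
    filter_upwards [cl57_eventually_ne_zero hz, hPne, hQne] with t ht htP htQ
    have h3 : z t ^ P.natDegree = z t ^ (P.natDegree - Q.natDegree) * z t ^ Q.natDegree := by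
      rw [← pow_add, Nat.sub_add_cancel hlt.le]
    rw [h3]
    have h4 : z t ^ Q.natDegree ≠ 0 := pow_ne_zero _ ht
    have h5 : z t ^ (P.natDegree - Q.natDegree) ≠ 0 := pow_ne_zero _ ht
    field_simp
  have h3 : Tendsto (fun t => ‖z t ^ (P.natDegree - Q.natDegree)‖) l atTop := by
    have h4 : Tendsto (fun t => ‖z t‖ ^ (P.natDegree - Q.natDegree)) l atTop :=
      (tendsto_pow_atTop (Nat.sub_ne_zero_of_lt hlt)).comp hz
    refine h4.congr fun t => ?_
    rw [norm_pow]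
  exact not_tendsto_atTop_of_tendsto_nhds h2.norm h3

end RatFunc

/-! ### Orders of polynomials in `x` at a pole of `x` -/

section Pole

variable {K F : Type*} [Field K] [IsAlgClosed K] [Field F] [Algebra K F]

omit [IsAlgClosed K] in
theorem cl57_ord_sub_const (v : Place K F) {x : F} (hv : v.ord x < 0) (c : K) :
    x - algebraMap K F c ≠ 0 ∧ v.ord (x - algebraMap K F c) = v.ord x := by
  have hx0 : x ≠ 0 := by
    rintro rfl
    simp at hv
  have hne : x - algebraMap K F c ≠ 0 := by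
    intro h0
    rw [sub_eq_zero] at h0
    rw [h0, wp1_ord_algebraMap] at hv
    exact lt_irrefl 0 hv
  refine ⟨hne, ?_⟩
  rcases eq_or_ne c 0 with rfl | hc
  · simp
  have hcF : algebraMap K F c ≠ 0 := (_root_.map_ne_zero _).mpr hc
  have hnegc : -algebraMap K F c ≠ 0 := neg_ne_zero.mpr hcF
  have hordneg : v.ord (-algebraMap K F c) = 0 := by
    rw [← map_neg]
    exact wp1_ord_algebraMap v _
  apply le_antisymm
  · have h1 := wp1_ord_add v (x - algebraMap K F c) (algebraMap K F c)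
      (by rw [sub_add_cancel]; exact hx0) hne hcF
    rw [sub_add_cancel, wp1_ord_algebraMap] at h1
    by_contra h2
    rw [not_le] at h2
    have h3 : v.ord x < min (v.ord (x - algebraMap K F c)) 0 := lt_min h2 hv
    exact absurd h1 (not_le.mpr h3)
  · have h1 := wp1_ord_add v x (-algebraMap K F c)
      (by rw [← sub_eq_add_neg]; exact hne) hx0 hnegc
    rw [← sub_eq_add_neg, hordneg, min_eq_left hv.le] at h1
    exact h1

/-- At a pole of `x`, a nonzero polynomial `P(x)` has order `deg P * ord x`. -/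
theorem cl57_ord_aeval (v : Place K F) {x : F} (hv : v.ord x < 0) :
    ∀ (n : ℕ) (P : K[X]), P.natDegree = n → P ≠ 0 →
      aeval x P ≠ 0 ∧ v.ord (aeval x P) = (n : ℤ) * v.ord x := by
  intro n
  induction n with
  | zero =>
    intro P hP hP0
    rw [eq_C_of_natDegree_eq_zero hP] at hP0 ⊢
    have hc : P.coeff 0 ≠ 0 := fun h => hP0 (by rw [h, C_0])
    simp only [aeval_C]
    refine ⟨(_root_.map_ne_zero _).mpr hc, ?_⟩
    rw [wp1_ord_algebraMap]
    simp
  | succ n ih =>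
    intro P hP hP0
    have hdeg : P.degree ≠ 0 := by
      intro h0
      have := natDegree_eq_zero_iff_degree_le_zero.mpr h0.le
      omega
    obtain ⟨c, hc⟩ := IsAlgClosed.exists_root P hdeg
    obtain ⟨Q, rfl⟩ := dvd_iff_isRoot.mpr hc
    have hQ0 : Q ≠ 0 := fun h0 => hP0 (by rw [h0, mul_zero])
    have hQdeg : Q.natDegree = n := by
      have := natDegree_mul (X_sub_C_ne_zero c) hQ0
      rw [natDegree_X_sub_C] at this
      omega
    obtain ⟨hQne, hQord⟩ := ih Q hQdeg hQ0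
    obtain ⟨hne, hord⟩ := cl57_ord_sub_const v hv c
    have h1 : aeval x (X - C c) = x - algebraMap K F c := by simp
    rw [map_mul, h1]
    refine ⟨mul_ne_zero hne hQne, ?_⟩
    rw [v.ord_mul hne hQne, hord, hQord]
    push_cast
    ring

/-- At a pole of `x`, `P(x) / Q(x)` is regular when `deg P ≤ deg Q`. -/
theorem cl57_ord_div_nonneg (v : Place K F) {x : F} (hv : v.ord x < 0) {P Q : K[X]}
    (hP : P ≠ 0) (hQ : Q ≠ 0) (hdeg : P.natDegree ≤ Q.natDegree) :
    0 ≤ v.ord (aeval x P / aeval x Q) := by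
  obtain ⟨hPne, hPord⟩ := cl57_ord_aeval v hv P.natDegree P rfl hP
  obtain ⟨hQne, hQord⟩ := cl57_ord_aeval v hv Q.natDegree Q rfl hQ
  rw [div_eq_mul_inv, v.ord_mul hPne (inv_ne_zero hQne), v.ord_inv, hPord, hQord]
  have h1 : ((P.natDegree : ℤ) - Q.natDegree) * v.ord x ≥ 0 :=
    mul_nonneg_of_nonpos_of_nonpos (by omega) hv.le
  linarith

end Pole

/-! ### Limits at `i∞` on `mer95_MER` -/

section Lim

/-- `x` tends to `L` at `i∞`: some representation `x = a / b` by holomorphic functions with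
`b` eventually nonvanishing has `a τ / b τ → L` as `Im τ → ∞`. -/
def cl57_Lim (x : mer95_MER) (L : ℂ) : Prop :=
  ∃ a b : mer95_O, (∀ᶠ τ in atImInfty, b.1 τ ≠ 0) ∧
    x * algebraMap mer95_O mer95_MER b = algebraMap mer95_O mer95_MER a ∧
    Tendsto (fun τ : ℍ => a.1 τ / b.1 τ) atImInfty (𝓝 L)

/-- `x` has a finite limit at `i∞`. -/
def cl57_HasLim (x : mer95_MER) : Prop := ∃ L : ℂ, cl57_Lim x L

theorem cl57_ne_zero_of_eventually {b : mer95_O} (hb : ∀ᶠ τ in atImInfty, b.1 τ ≠ 0) :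
    b ≠ 0 := by
  obtain ⟨τ, hτ⟩ := hb.exists
  rintro rfl
  exact hτ rfl

/-- Any representation with eventually nonvanishing denominator computes the limit. -/
theorem cl57_Lim.tendsto {x : mer95_MER} {L : ℂ} (h : cl57_Lim x L) {a b : mer95_O}
    (hb : ∀ᶠ τ in atImInfty, b.1 τ ≠ 0)
    (hx : x * algebraMap mer95_O mer95_MER b = algebraMap mer95_O mer95_MER a) :
    Tendsto (fun τ : ℍ => a.1 τ / b.1 τ) atImInfty (𝓝 L) := by
  obtain ⟨a', b', hb', hx', hlim⟩ := h
  have heq : a * b' = a' * b := by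
    apply mer95_algebraMap_injective
    rw [map_mul, map_mul, ← hx, ← hx']
    ring
  refine hlim.congr' ?_
  filter_upwards [hb, hb'] with τ hτ hτ'
  have h1 : a.1 τ * b'.1 τ = a'.1 τ * b.1 τ := congrArg (fun f : mer95_O => f.1 τ) heq
  rw [div_eq_div_iff hτ' hτ]
  exact h1.symm

theorem cl57_lim_unique {x : mer95_MER} {L L' : ℂ} (h : cl57_Lim x L) (h' : cl57_Lim x L') :
    L = L' := by
  obtain ⟨a, b, hb, hx, hlim⟩ := h'
  exact tendsto_nhds_unique (h.tendsto hb hx) hlim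

theorem cl57_lim_of_tendsto {a b : mer95_O} {L : ℂ} (hb : ∀ᶠ τ in atImInfty, b.1 τ ≠ 0)
    (h : Tendsto (fun τ : ℍ => a.1 τ / b.1 τ) atImInfty (𝓝 L)) :
    cl57_Lim (algebraMap mer95_O mer95_MER a / algebraMap mer95_O mer95_MER b) L :=
  ⟨a, b, hb, div_mul_cancel₀ _ (mer95_algebraMap_ne_zero (cl57_ne_zero_of_eventually hb)), h⟩

theorem cl57_lim_C (c : ℂ) : cl57_Lim (algebraMap ℂ mer95_MER c) c := by
  refine ⟨algebraMap ℂ mer95_O c, 1, Eventually.of_forall (fun τ => one_ne_zero), ?_, ?_⟩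
  · rw [map_one, mul_one, ← IsScalarTower.algebraMap_apply]
  · have h1 : (fun τ : ℍ => (algebraMap ℂ mer95_O c).1 τ / (1 : mer95_O).1 τ) = fun _ => c := by
      funext τ
      show c / 1 = c
      rw [div_one]
    rw [h1]
    exact tendsto_const_nhds

theorem cl57_lim_zero : cl57_Lim 0 0 := by
  have h := cl57_lim_C 0
  rwa [map_zero] at h

theorem cl57_lim_one : cl57_Lim 1 1 := by
  have h := cl57_lim_C 1
  rwa [map_one] at h

theorem cl57_lim_mul {x y : mer95_MER} {L L' : ℂ} (hx : cl57_Lim x L) (hy : cl57_Lim y L') :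
    cl57_Lim (x * y) (L * L') := by
  obtain ⟨a, b, hb, hxe, hl⟩ := hx
  obtain ⟨c, d, hd, hye, hl'⟩ := hy
  refine ⟨a * c, b * d, ?_, ?_, ?_⟩
  · filter_upwards [hb, hd] with τ h1 h2
    exact mul_ne_zero h1 h2
  · rw [map_mul, map_mul, ← hxe, ← hye]
    ring
  · refine (hl.mul hl').congr fun τ => ?_
    show a.1 τ / b.1 τ * (c.1 τ / d.1 τ) = (a.1 τ * c.1 τ) / (b.1 τ * d.1 τ)
    rw [div_mul_div_comm]

theorem cl57_lim_add {x y : mer95_MER} {L L' : ℂ} (hx : cl57_Lim x L) (hy : cl57_Lim y L') :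
    cl57_Lim (x + y) (L + L') := by
  obtain ⟨a, b, hb, hxe, hl⟩ := hx
  obtain ⟨c, d, hd, hye, hl'⟩ := hy
  refine ⟨a * d + c * b, b * d, ?_, ?_, ?_⟩
  · filter_upwards [hb, hd] with τ h1 h2
    exact mul_ne_zero h1 h2
  · rw [map_add, map_mul, map_mul, map_mul, ← hxe, ← hye]
    ring
  · refine (hl.add hl').congr' ?_
    filter_upwards [hb, hd] with τ h1 h2
    show a.1 τ / b.1 τ + c.1 τ / d.1 τ = (a.1 τ * d.1 τ + c.1 τ * b.1 τ) / (b.1 τ * d.1 τ)
    field_simp

theorem cl57_lim_neg {x : mer95_MER} {L : ℂ} (hx : cl57_Lim x L) : cl57_Lim (-x) (-L) := by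
  obtain ⟨a, b, hb, hxe, hl⟩ := hx
  refine ⟨-a, b, hb, ?_, ?_⟩
  · rw [map_neg, ← hxe, neg_mul]
  · refine hl.neg.congr fun τ => ?_
    show -(a.1 τ / b.1 τ) = (-a.1 τ) / b.1 τ
    rw [neg_div]

theorem cl57_lim_sub {x y : mer95_MER} {L L' : ℂ} (hx : cl57_Lim x L) (hy : cl57_Lim y L') :
    cl57_Lim (x - y) (L - L') := by
  rw [sub_eq_add_neg, sub_eq_add_neg]
  exact cl57_lim_add hx (cl57_lim_neg hy)

theorem cl57_lim_inv {x : mer95_MER} {L : ℂ} (hx : cl57_Lim x L) (hL : L ≠ 0) :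
    cl57_Lim x⁻¹ L⁻¹ := by
  obtain ⟨a, b, hb, hxe, hl⟩ := hx
  have ha : ∀ᶠ τ in atImInfty, a.1 τ ≠ 0 := by
    filter_upwards [hl.eventually_ne hL] with τ hτ h0
    exact hτ (by rw [h0, zero_div])
  have ha0 := cl57_ne_zero_of_eventually ha
  have hx0 : x ≠ 0 := by
    rintro rfl
    rw [zero_mul] at hxe
    exact mer95_algebraMap_ne_zero ha0 hxe.symm
  refine ⟨b, a, ha, ?_, ?_⟩
  · rw [← hxe, ← mul_assoc, inv_mul_cancel₀ hx0, one_mul]
  · refine (hl.inv₀ hL).congr fun τ => ?_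
    rw [inv_div]

theorem cl57_lim_sum {ι : Type*} (s : Finset ι) (f : ι → mer95_MER) (L : ι → ℂ)
    (h : ∀ i ∈ s, cl57_Lim (f i) (L i)) : cl57_Lim (∑ i ∈ s, f i) (∑ i ∈ s, L i) := by
  classical
  induction s using Finset.induction_on with
  | empty =>
    rw [Finset.sum_empty, Finset.sum_empty]
    exact cl57_lim_zero
  | insert a s ha ih =>
    rw [Finset.sum_insert ha, Finset.sum_insert ha]
    exact cl57_lim_add (h a (Finset.mem_insert_self a s))
      (ih (fun i hi => h i (Finset.mem_insert_of_mem hi)))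

theorem cl57_lim_prod {ι : Type*} (s : Finset ι) (f : ι → mer95_MER) (L : ι → ℂ)
    (h : ∀ i ∈ s, cl57_Lim (f i) (L i)) : cl57_Lim (∏ i ∈ s, f i) (∏ i ∈ s, L i) := by
  classical
  induction s using Finset.induction_on with
  | empty =>
    rw [Finset.prod_empty, Finset.prod_empty]
    exact cl57_lim_one
  | insert a s ha ih =>
    rw [Finset.prod_insert ha, Finset.prod_insert ha]
    exact cl57_lim_mul (h a (Finset.mem_insert_self a s))
      (ih (fun i hi => h i (Finset.mem_insert_of_mem hi)))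

theorem cl57_hasLim_C (c : ℂ) : cl57_HasLim (algebraMap ℂ mer95_MER c) := ⟨c, cl57_lim_C c⟩

theorem cl57_hasLim_zero : cl57_HasLim 0 := ⟨0, cl57_lim_zero⟩

theorem cl57_hasLim_one : cl57_HasLim 1 := ⟨1, cl57_lim_one⟩

theorem cl57_HasLim.add {x y : mer95_MER} (hx : cl57_HasLim x) (hy : cl57_HasLim y) :
    cl57_HasLim (x + y) := by
  obtain ⟨L, hL⟩ := hx
  obtain ⟨L', hL'⟩ := hy
  exact ⟨_, cl57_lim_add hL hL'⟩

theorem cl57_HasLim.mul {x y : mer95_MER} (hx : cl57_HasLim x) (hy : cl57_HasLim y) :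
    cl57_HasLim (x * y) := by
  obtain ⟨L, hL⟩ := hx
  obtain ⟨L', hL'⟩ := hy
  exact ⟨_, cl57_lim_mul hL hL'⟩

theorem cl57_HasLim.neg {x : mer95_MER} (hx : cl57_HasLim x) : cl57_HasLim (-x) := by
  obtain ⟨L, hL⟩ := hx
  exact ⟨_, cl57_lim_neg hL⟩

theorem cl57_HasLim.sub {x y : mer95_MER} (hx : cl57_HasLim x) (hy : cl57_HasLim y) :
    cl57_HasLim (x - y) := by
  obtain ⟨L, hL⟩ := hx
  obtain ⟨L', hL'⟩ := hy
  exact ⟨_, cl57_lim_sub hL hL'⟩

theorem cl57_hasLim_sum {ι : Type*} (s : Finset ι) (f : ι → mer95_MER)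
    (h : ∀ i ∈ s, cl57_HasLim (f i)) : cl57_HasLim (∑ i ∈ s, f i) := by
  classical
  induction s using Finset.induction_on with
  | empty =>
    rw [Finset.sum_empty]
    exact cl57_hasLim_zero
  | insert a s ha ih =>
    rw [Finset.sum_insert ha]
    exact (h a (Finset.mem_insert_self a s)).add
      (ih (fun i hi => h i (Finset.mem_insert_of_mem hi)))

/-- **Adapter for quotients of functions**: if `(A (s • z) / B (s • z)) ^ p → L ≠ 0` as
`Im z → ∞`, then the element `s⁻¹ • (A / B) ^ p` of `mer95_MER` tends to `L` at `i∞`. -/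
theorem cl57_lim_smul_div_pow (A B : mer95_O) (s : SL(2, ℤ)) {p : ℕ} (hp : p ≠ 0) {L : ℂ}
    (hL : L ≠ 0)
    (h : Tendsto (fun z : ℍ => (A.1 (s • z) / B.1 (s • z)) ^ p) atImInfty (𝓝 L)) :
    cl57_Lim (s⁻¹ • (algebraMap mer95_O mer95_MER A / algebraMap mer95_O mer95_MER B) ^ p) L := by
  have hB : ∀ᶠ z in atImInfty, B.1 (s • z) ≠ 0 := by
    filter_upwards [h.eventually_ne hL] with z hz h0
    apply hz
    rw [h0, div_zero, zero_pow hp]
  have h1 : s⁻¹ • (algebraMap mer95_O mer95_MER A / algebraMap mer95_O mer95_MER B) ^ p =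
      algebraMap mer95_O mer95_MER ((s⁻¹ • A) ^ p) /
        algebraMap mer95_O mer95_MER ((s⁻¹ • B) ^ p) := by
    rw [smul_pow', smul_div₀', mer95_smul_algebraMap_SL, mer95_smul_algebraMap_SL, div_pow,
      map_pow, map_pow]
  have hval : ∀ (C : mer95_O) (z : ℍ), ((s⁻¹ • C) ^ p).1 z = (C.1 (s • z)) ^ p := by
    intro C z
    show ((s⁻¹ • C).1 z) ^ p = _
    rw [mer95_smul_apply_SL, inv_inv]
  rw [h1]
  refine cl57_lim_of_tendsto ?_ ?_
  · filter_upwards [hB] with z hz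
    rw [hval]
    exact pow_ne_zero _ hz
  · refine h.congr fun z => ?_
    rw [hval, hval, div_pow]

/-- **Adapter for quotients of functions**, without a power. -/
theorem cl57_lim_smul_div (A B : mer95_O) (s : SL(2, ℤ)) {L : ℂ}
    (hB : ∀ᶠ z in atImInfty, B.1 (s • z) ≠ 0)
    (h : Tendsto (fun z : ℍ => A.1 (s • z) / B.1 (s • z)) atImInfty (𝓝 L)) :
    cl57_Lim (s⁻¹ • (algebraMap mer95_O mer95_MER A / algebraMap mer95_O mer95_MER B)) L := by
  have h1 : s⁻¹ • (algebraMap mer95_O mer95_MER A / algebraMap mer95_O mer95_MER B) =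
      algebraMap mer95_O mer95_MER (s⁻¹ • A) / algebraMap mer95_O mer95_MER (s⁻¹ • B) := by
    rw [smul_div₀', mer95_smul_algebraMap_SL, mer95_smul_algebraMap_SL]
  have hval : ∀ (C : mer95_O) (z : ℍ), (s⁻¹ • C).1 z = C.1 (s • z) := by
    intro C z
    rw [mer95_smul_apply_SL, inv_inv]
  rw [h1]
  refine cl57_lim_of_tendsto ?_ ?_
  · filter_upwards [hB] with z hz
    rw [hval]
    exact hz
  · refine h.congr fun z => ?_
    rw [hval, hval]

/-- The same adapter with the translate on the other side: `A (s⁻¹ • z) / B (s⁻¹ • z) → L`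
gives the limit of `s • (A / B)`. -/
theorem cl57_lim_smul_div' (A B : mer95_O) (s : SL(2, ℤ)) {L : ℂ}
    (hB : ∀ᶠ z in atImInfty, B.1 (s⁻¹ • z) ≠ 0)
    (h : Tendsto (fun z : ℍ => A.1 (s⁻¹ • z) / B.1 (s⁻¹ • z)) atImInfty (𝓝 L)) :
    cl57_Lim (s • (algebraMap mer95_O mer95_MER A / algebraMap mer95_O mer95_MER B)) L := by
  have h1 := cl57_lim_smul_div A B s⁻¹ hB h
  rwa [inv_inv] at h1

end Lim

/-! ### Polynomials over `mer95_MER` whose coefficients have limits at `i∞` -/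

section PolyLim

/-- All coefficients have finite limits at `i∞`. -/
def cl57_PolyHasLim (R : mer95_MER[X]) : Prop := ∀ k : ℕ, cl57_HasLim (R.coeff k)

theorem cl57_polyHasLim_one : cl57_PolyHasLim 1 := by
  intro k
  rw [coeff_one]
  split_ifs
  · exact cl57_hasLim_one
  · exact cl57_hasLim_zero

theorem cl57_PolyHasLim.mul {R S : mer95_MER[X]} (hR : cl57_PolyHasLim R)
    (hS : cl57_PolyHasLim S) : cl57_PolyHasLim (R * S) := by
  intro k
  rw [coeff_mul]
  exact cl57_hasLim_sum _ _ (fun i _ => (hR _).mul (hS _))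

theorem cl57_polyHasLim_X_sub_C {y : mer95_MER} (hy : cl57_HasLim y) :
    cl57_PolyHasLim (X - C y) := by
  intro k
  rw [coeff_sub, coeff_X, coeff_C]
  refine cl57_HasLim.sub ?_ ?_
  · split_ifs
    · exact cl57_hasLim_one
    · exact cl57_hasLim_zero
  · split_ifs
    · exact hy
    · exact cl57_hasLim_zero

theorem cl57_polyHasLim_prod {ι : Type*} (s : Finset ι) (y : ι → mer95_MER)
    (hy : ∀ i ∈ s, cl57_HasLim (y i)) : cl57_PolyHasLim (∏ i ∈ s, (X - C (y i))) := by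
  classical
  induction s using Finset.induction_on with
  | empty =>
    rw [Finset.prod_empty]
    exact cl57_polyHasLim_one
  | insert a s ha ih =>
    rw [Finset.prod_insert ha]
    exact (cl57_polyHasLim_X_sub_C (hy a (Finset.mem_insert_self a s))).mul
      (ih (fun i hi => hy i (Finset.mem_insert_of_mem hi)))

end PolyLim

/-! ### The places over `x = ∞` of a function field embedded in `mer95_MER` -/

section Places

open IntermediateField

variable {F : Type*} [Field F] [Algebra ℂ F]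

theorem cl57_aeval_apply (jO : mer95_O) (P : ℂ[X]) (τ : ℍ) :
    (aeval jO P).1 τ = P.eval (jO.1 τ) := by
  have h1 : ((aeval jO P : mer95_O) : ℍ → ℂ) = aeval (jO : ℍ → ℂ) P :=
    aeval_subalgebra_coe P mer95_O jO
  have h2 : (aeval (jO : ℍ → ℂ) P) τ = aeval ((jO : ℍ → ℂ) τ) P := aeval_fn_apply P _ τ
  show ((aeval jO P : mer95_O) : ℍ → ℂ) τ = _
  rw [h1, h2, coe_aeval_eq_eval]

theorem cl57_ev_aeval (ev : F →ₐ[ℂ] mer95_MER) (x : F) (jO : mer95_O)
    (hevx : ev x = algebraMap mer95_O mer95_MER jO) (P : ℂ[X]) :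
    ev (aeval x P) = algebraMap mer95_O mer95_MER (aeval jO P) := by
  rw [← aeval_algHom_apply, hevx, aeval_algebraMap_apply]

/-- **Elements of `ℂ(x)` with a limit at `i∞` are regular at the poles of `x`.** Here
`ev x = j` with `‖j τ‖ → ∞` as `Im τ → ∞`. -/
theorem cl57_ord_nonneg_of_hasLim (ev : F →ₐ[ℂ] mer95_MER) (x : F) (jO : mer95_O)
    (hevx : ev x = algebraMap mer95_O mer95_MER jO)
    (hj : Tendsto (fun τ : ℍ => ‖jO.1 τ‖) atImInfty atTop)
    (c : ↥ℂ⟮x⟯) (hc : cl57_HasLim (ev (algebraMap ↥ℂ⟮x⟯ F c)))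
    (v : Place ℂ F) (hv : v.ord x < 0) : 0 ≤ v.ord (algebraMap ↥ℂ⟮x⟯ F c) := by
  obtain ⟨P, Q, hPQ⟩ := (IntermediateField.mem_adjoin_simple_iff ℂ (c : F)).mp c.2
  have hcF : algebraMap ↥ℂ⟮x⟯ F c = aeval x P / aeval x Q := hPQ
  rw [hcF] at hc ⊢
  by_cases hP : P = 0
  · rw [hP, map_zero, zero_div, v.ord_zero]
  by_cases hQ0 : aeval x Q = 0
  · rw [hQ0, div_zero, v.ord_zero]
  have hQ : Q ≠ 0 := by
    rintro rfl
    exact hQ0 (map_zero _)
  obtain ⟨L, hL⟩ := hc
  have hb : ∀ᶠ τ in atImInfty, (aeval jO Q).1 τ ≠ 0 := by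
    filter_upwards [cl57_eventually_eval_ne_zero hj hQ] with τ hτ
    rw [cl57_aeval_apply]
    exact hτ
  have hx : ev (aeval x P / aeval x Q) * algebraMap mer95_O mer95_MER (aeval jO Q) =
      algebraMap mer95_O mer95_MER (aeval jO P) := by
    rw [← cl57_ev_aeval ev x jO hevx Q, ← cl57_ev_aeval ev x jO hevx P, ← map_mul,
      div_mul_cancel₀ _ hQ0]
  have ht := hL.tendsto hb hx
  have hdeg : P.natDegree ≤ Q.natDegree := by
    refine cl57_degree_le hj hP hQ (L := L) (ht.congr fun τ => ?_)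
    rw [cl57_aeval_apply, cl57_aeval_apply]
  exact cl57_ord_div_nonneg v hv hP hQ hdeg

/-- An element of `ℂ(x)` with a nonzero limit at `i∞` has order `0` at the poles of `x`. -/
theorem cl57_ord_eq_zero_of_lim (ev : F →ₐ[ℂ] mer95_MER) (x : F) (jO : mer95_O)
    (hevx : ev x = algebraMap mer95_O mer95_MER jO)
    (hj : Tendsto (fun τ : ℍ => ‖jO.1 τ‖) atImInfty atTop)
    (c : ↥ℂ⟮x⟯) {L : ℂ} (hL : L ≠ 0) (hc : cl57_Lim (ev (algebraMap ↥ℂ⟮x⟯ F c)) L)
    (v : Place ℂ F) (hv : v.ord x < 0) : v.ord (algebraMap ↥ℂ⟮x⟯ F c) = 0 := by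
  have h1 := cl57_ord_nonneg_of_hasLim ev x jO hevx hj c ⟨L, hc⟩ v hv
  have h2 := cl57_ord_nonneg_of_hasLim ev x jO hevx hj c⁻¹
    ⟨L⁻¹, by rw [map_inv₀, map_inv₀]; exact cl57_lim_inv hc hL⟩ v hv
  rw [map_inv₀, v.ord_inv] at h2
  omega

/-- **Norm form** (the hypotheses `h1`/`h2` of the abstract (P3)): if `ev (N f) = ∏ i, r i • ev f`
(K3) and the translates `r i • ev f` have nonzero limits at `i∞`, then the norm of `f` has
order `0` at every place over `x = ∞`. -/
theorem cl57_norm_ord_zero (ev : F →ₐ[ℂ] mer95_MER) (x : F) (jO : mer95_O)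
    (hevx : ev x = algebraMap mer95_O mer95_MER jO)
    (hj : Tendsto (fun τ : ℍ => ‖jO.1 τ‖) atImInfty atTop)
    {ι : Type*} [Fintype ι] (r : ι → SL(2, ℤ)) (f : F)
    (hK3 : ev (algebraMap ↥ℂ⟮x⟯ F (Algebra.norm ↥ℂ⟮x⟯ f)) = ∏ i, r i • ev f)
    (L : ι → ℂ) (hL : ∀ i, L i ≠ 0) (hlim : ∀ i, cl57_Lim (r i • ev f) (L i))
    (v : Place ℂ F) (hv : v.ord x < 0) :
    v.ord (algebraMap ↥ℂ⟮x⟯ F (Algebra.norm ↥ℂ⟮x⟯ f)) = 0 := by
  refine cl57_ord_eq_zero_of_lim ev x jO hevx hj _ (L := ∏ i, L i)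
    (Finset.prod_ne_zero_iff.mpr fun i _ => hL i) ?_ v hv
  rw [hK3]
  exact cl57_lim_prod _ _ _ (fun i _ => hlim i)

/-- **Integrality at the places over `∞` from the coefficients.** A root `f` of a monic
polynomial over `ℂ(x)` whose coefficients have limits at `i∞` is regular at every pole of
`x`. -/
theorem cl57_ord_nonneg_of_polyHasLim (ev : F →ₐ[ℂ] mer95_MER) (x : F) (jO : mer95_O)
    (hevx : ev x = algebraMap mer95_O mer95_MER jO)
    (hj : Tendsto (fun τ : ℍ => ‖jO.1 τ‖) atImInfty atTop)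
    (P : (↥ℂ⟮x⟯)[X]) (hP : P.Monic)
    (hlim : cl57_PolyHasLim (P.map ((ev : F →+* mer95_MER).comp (algebraMap ↥ℂ⟮x⟯ F))))
    (f : F) (hroot : aeval f P = 0) (v : Place ℂ F) (hv : v.ord x < 0) : 0 ≤ v.ord f := by
  rw [← wp1_mem_iff_ord_nonneg]
  set V : ValuationSubring F := v.toValuationSubring with hV
  have hcoef : ∀ k : ℕ, algebraMap ↥ℂ⟮x⟯ F (P.coeff k) ∈ V := by
    intro k
    rw [hV, wp1_mem_iff_ord_nonneg]
    refine cl57_ord_nonneg_of_hasLim ev x jO hevx hj (P.coeff k) ?_ v hv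
    have h1 := hlim k
    rwa [coeff_map] at h1
  set R : F[X] := P.map (algebraMap ↥ℂ⟮x⟯ F) with hR
  have hsub : (↑R.coeffs : Set F) ⊆ V.toSubring := by
    intro z hz
    obtain ⟨k, -, rfl⟩ := mem_coeffs_iff.mp (Finset.mem_coe.mp hz)
    rw [hR, coeff_map]
    exact hcoef k
  have hint : IsIntegral V f := by
    refine ⟨R.toSubring V.toSubring hsub, (monic_toSubring R V.toSubring hsub).mpr (hP.map _), ?_⟩
    have h1 : (R.toSubring V.toSubring hsub).map (algebraMap V F) = R :=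
      map_toSubring R V.toSubring hsub
    rw [← eval_map, h1, hR, eval_map, ← aeval_def]
    exact hroot
  obtain ⟨a, ha⟩ := (IsIntegrallyClosed.isIntegral_iff (R := V) (K := F)).mp hint
  rw [← ha]
  exact a.2

/-- **Integrality at the places over `∞` from the conjugates** (root form). If `f` is a root
of a monic `P` over `ℂ(x)` whose image splits as `∏ i, (X - y i)` and all the `y i` have finite
limits at `i∞`, then `f` is regular at every pole of `x`. -/
theorem cl57_ord_nonneg_of_root (ev : F →ₐ[ℂ] mer95_MER) (x : F) (jO : mer95_O)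
    (hevx : ev x = algebraMap mer95_O mer95_MER jO)
    (hj : Tendsto (fun τ : ℍ => ‖jO.1 τ‖) atImInfty atTop)
    {ι : Type*} [Fintype ι] (y : ι → mer95_MER) (hy : ∀ i, cl57_HasLim (y i))
    (P : (↥ℂ⟮x⟯)[X]) (hP : P.Monic)
    (hmap : P.map ((ev : F →+* mer95_MER).comp (algebraMap ↥ℂ⟮x⟯ F)) = ∏ i, (X - C (y i)))
    (f : F) (hroot : aeval f P = 0) (v : Place ℂ F) (hv : v.ord x < 0) : 0 ≤ v.ord f := by
  refine cl57_ord_nonneg_of_polyHasLim ev x jO hevx hj P hP ?_ f hroot v hv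
  rw [hmap]
  exact cl57_polyHasLim_prod _ _ (fun i _ => hy i)

/-- If the image of `P` splits as `∏ i, (X - y i)` and `ev f` is one of the `y i`, then `f` is
a root of `P`. -/
theorem cl57_aeval_eq_zero (ev : F →ₐ[ℂ] mer95_MER) (x : F)
    {ι : Type*} [Fintype ι] (y : ι → mer95_MER) (P : (↥ℂ⟮x⟯)[X])
    (hmap : P.map ((ev : F →+* mer95_MER).comp (algebraMap ↥ℂ⟮x⟯ F)) = ∏ i, (X - C (y i)))
    (f : F) (hf : ∃ i, y i = ev f) : aeval f P = 0 := by
  apply (ev : F →+* mer95_MER).injective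
  rw [map_zero]
  have h1 : (ev : F →+* mer95_MER) (aeval f P) =
      eval (ev f) (P.map ((ev : F →+* mer95_MER).comp (algebraMap ↥ℂ⟮x⟯ F))) := by
    rw [eval_map, aeval_def, hom_eval₂]
    rfl
  rw [h1, hmap, eval_prod]
  obtain ⟨i, hi⟩ := hf
  exact Finset.prod_eq_zero (Finset.mem_univ i) (by rw [eval_sub, eval_X, eval_C, hi, sub_self])

/-- **Integrality at the places over `∞` from the conjugates** (conjugate form): `ev f` is one
of the `y i`. -/
theorem cl57_ord_nonneg_of_conj (ev : F →ₐ[ℂ] mer95_MER) (x : F) (jO : mer95_O)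
    (hevx : ev x = algebraMap mer95_O mer95_MER jO)
    (hj : Tendsto (fun τ : ℍ => ‖jO.1 τ‖) atImInfty atTop)
    {ι : Type*} [Fintype ι] (y : ι → mer95_MER) (hy : ∀ i, cl57_HasLim (y i))
    (P : (↥ℂ⟮x⟯)[X]) (hP : P.Monic)
    (hmap : P.map ((ev : F →+* mer95_MER).comp (algebraMap ↥ℂ⟮x⟯ F)) = ∏ i, (X - C (y i)))
    (f : F) (hf : ∃ i, y i = ev f) (v : Place ℂ F) (hv : v.ord x < 0) : 0 ≤ v.ord f :=
  cl57_ord_nonneg_of_root ev x jO hevx hj y hy P hP hmap f
    (cl57_aeval_eq_zero ev x y P hmap f hf) v hv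

/-- **(P3), explicit form.** `P`, `P'` are monic polynomials over `ℂ(x)` with roots `G`, `G⁻¹`
whose images split with roots `y i`, `(y i)⁻¹`; if all `y i` have nonzero limits at `i∞`, then
`G` has order `0` at every place over `x = ∞`. -/
theorem cl57_P3_conj (ev : F →ₐ[ℂ] mer95_MER) (x : F) (jO : mer95_O)
    (hevx : ev x = algebraMap mer95_O mer95_MER jO)
    (hj : Tendsto (fun τ : ℍ => ‖jO.1 τ‖) atImInfty atTop)
    {ι : Type*} [Fintype ι] (y : ι → mer95_MER) (L : ι → ℂ) (hL : ∀ i, L i ≠ 0)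
    (hy : ∀ i, cl57_Lim (y i) (L i)) (G : F)
    (P : (↥ℂ⟮x⟯)[X]) (hP : P.Monic)
    (hmap : P.map ((ev : F →+* mer95_MER).comp (algebraMap ↥ℂ⟮x⟯ F)) = ∏ i, (X - C (y i)))
    (hroot : aeval G P = 0)
    (P' : (↥ℂ⟮x⟯)[X]) (hP' : P'.Monic)
    (hmap' : P'.map ((ev : F →+* mer95_MER).comp (algebraMap ↥ℂ⟮x⟯ F)) =
      ∏ i, (X - C (y i)⁻¹))
    (hroot' : aeval G⁻¹ P' = 0)
    (v : Place ℂ F) (hv : v.ord x < 0) : v.ord G = 0 := by
  have h1 : 0 ≤ v.ord G :=
    cl57_ord_nonneg_of_root ev x jO hevx hj y (fun i => ⟨L i, hy i⟩) P hP hmap G hroot v hv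
  have h2 : 0 ≤ v.ord G⁻¹ :=
    cl57_ord_nonneg_of_root ev x jO hevx hj (fun i => (y i)⁻¹)
      (fun i => ⟨(L i)⁻¹, cl57_lim_inv (hy i) (hL i)⟩) P' hP' hmap' G⁻¹ hroot' v hv
  rw [v.ord_inv] at h2
  omega

/-- **(P3) with general nonzero limits.** `ev : F → mer95_MER` with `ev x = j`, `‖j τ‖ → ∞` at
`i∞`; `r` a family in `SL(2,ℤ)` such that every `f : F` is a root of a monic polynomial over
`ℂ(x)` whose image is the coset polynomial `∏ i, (X - r i • ev f)` (K3); if all the translates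
`r i • ev G` have nonzero limits at `i∞`, then `G` has order `0` at every place of `F` over
`x = ∞`. -/
theorem cl57_P3_lim (ev : F →ₐ[ℂ] mer95_MER) (x : F) (jO : mer95_O)
    (hevx : ev x = algebraMap mer95_O mer95_MER jO)
    (hj : Tendsto (fun τ : ℍ => ‖jO.1 τ‖) atImInfty atTop)
    {ι : Type*} [Fintype ι] (r : ι → SL(2, ℤ)) (G : F)
    (hpoly : ∀ f : F, ∃ P : (↥ℂ⟮x⟯)[X], P.Monic ∧
      P.map ((ev : F →+* mer95_MER).comp (algebraMap ↥ℂ⟮x⟯ F)) = ∏ i, (X - C (r i • ev f)) ∧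
      aeval f P = 0)
    (L : ι → ℂ) (hL : ∀ i, L i ≠ 0) (hlim : ∀ i, cl57_Lim (r i • ev G) (L i))
    (v : Place ℂ F) (hv : v.ord x < 0) : v.ord G = 0 := by
  obtain ⟨P, hP, hmap, hroot⟩ := hpoly G
  obtain ⟨P', hP', hmap', hroot'⟩ := hpoly G⁻¹
  refine cl57_P3_conj ev x jO hevx hj (fun i => r i • ev G) L hL hlim G P hP hmap hroot
    P' hP' ?_ hroot' v hv
  rw [hmap']
  refine Finset.prod_congr rfl fun i _ => ?_
  rw [map_inv₀, smul_inv'']

/-- **(P3), concrete form: all translates tend to `1`** (the Eisenstein quotient `G_χ`).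
`ev : F → mer95_MER` with `ev x = j`, `‖j τ‖ → ∞` at `i∞`; every `f : F` is a root of a monic
polynomial over `ℂ(x)` whose image is the coset polynomial `∏ i, (X - r i • ev f)` (K3). If
`r i • ev G → 1` at `i∞` for every `i`, then `G` has order `0` at every place of `F` over
`x = ∞`. -/
theorem cl57_P3 (ev : F →ₐ[ℂ] mer95_MER) (x : F) (jO : mer95_O)
    (hevx : ev x = algebraMap mer95_O mer95_MER jO)
    (hj : Tendsto (fun τ : ℍ => ‖jO.1 τ‖) atImInfty atTop)
    {ι : Type*} [Fintype ι] (r : ι → SL(2, ℤ)) (G : F) (hG : G ≠ 0)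
    (hpoly : ∀ f : F, ∃ P : (↥ℂ⟮x⟯)[X], P.Monic ∧
      P.map ((ev : F →+* mer95_MER).comp (algebraMap ↥ℂ⟮x⟯ F)) = ∏ i, (X - C (r i • ev f)) ∧
      aeval f P = 0)
    (hlim : ∀ i, cl57_Lim (r i • ev G) 1) (v : Place ℂ F) (hv : v.ord x < 0) : v.ord G = 0 := by
  have _ := hG
  exact cl57_P3_lim ev x jO hevx hj r G hpoly (fun _ => 1) (fun _ => one_ne_zero) hlim v hv

/-- **(P3), fixed-coset form**: the coset polynomials are given without the root statement
(the literal output of the Galois dictionary), and one of the `r i` fixes `ev f` for every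
`f` (the representative of the trivial coset). -/
theorem cl57_P3_fix (ev : F →ₐ[ℂ] mer95_MER) (x : F) (jO : mer95_O)
    (hevx : ev x = algebraMap mer95_O mer95_MER jO)
    (hj : Tendsto (fun τ : ℍ => ‖jO.1 τ‖) atImInfty atTop)
    {ι : Type*} [Fintype ι] (r : ι → SL(2, ℤ)) (G : F)
    (hpoly : ∀ f : F, ∃ P : (↥ℂ⟮x⟯)[X], P.Monic ∧
      P.map ((ev : F →+* mer95_MER).comp (algebraMap ↥ℂ⟮x⟯ F)) = ∏ i, (X - C (r i • ev f)))
    (hfix : ∃ i, ∀ f : F, r i • ev f = ev f)
    (L : ι → ℂ) (hL : ∀ i, L i ≠ 0) (hlim : ∀ i, cl57_Lim (r i • ev G) (L i))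
    (v : Place ℂ F) (hv : v.ord x < 0) : v.ord G = 0 := by
  refine cl57_P3_lim ev x jO hevx hj r G (fun f => ?_) L hL hlim v hv
  obtain ⟨P, hP, hmap⟩ := hpoly f
  obtain ⟨i, hi⟩ := hfix
  exact ⟨P, hP, hmap, cl57_aeval_eq_zero ev x (fun i => r i • ev f) P hmap f ⟨i, hi f⟩⟩

end Places

end Fermat.Agent.S42
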