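import Fermat.Agent.S24.KleinJ
import Fermat.Agent.S42.CuspLim57
import Fermat.Agent.S42.EisChiMer77

/-!
# S42 / Project 4, row M4c (helper57): instances for the cusp side of the places dictionary

* `cl57_kleinJ_norm_tendsto`, `cl57_hj` : `‖j τ‖ → ∞` as `Im τ → ∞` (the hypothesis `hj` of
  `cl57_P3`), for every element of `mer95_O` with the values of `kleinJ`.
* `cl57_Gchi_lim` : every `SL(2,ℤ)`-translate of the Eisenstein quotient `G_χ = (E_χ / E_1) ^ p`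
  tends to `1` at `i∞` (the hypothesis `hlim` of `cl57_P3`).
* `cl57_P3_Gchi` : an element `G` of a function field `F ⊆ mer95_MER` with `ev G = G_χ` has
  order `0` at every place of `F` over `j = ∞`.
-/

set_option autoImplicit false

open Filter Topology Polynomial UpperHalfPlane AlgebraicCurve
open scoped MatrixGroups

namespace Fermat.Agent.S42

open Fermat.Agent.S24

/-- `‖j τ‖ → ∞` as `Im τ → ∞`. -/
theorem cl57_kleinJ_norm_tendsto : Tendsto (fun τ : ℍ => ‖kleinJ τ‖) atImInfty atTop := by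
  have h1 := wpA1_kleinJ_tendsto
  have h2 : Tendsto (fun τ : ℍ => ‖kleinJ τ * Function.Periodic.qParam 1 τ‖) atImInfty (𝓝 1) := by
    have := h1.norm
    rwa [norm_one] at this
  have hq : Tendsto (fun τ : ℍ => Function.Periodic.qParam 1 (τ : ℂ)) atImInfty (𝓝 0) :=
    qParam_tendsto_atImInfty one_pos
  have hq' : Tendsto (fun τ : ℍ => ‖Function.Periodic.qParam 1 (τ : ℂ)‖) atImInfty (𝓝[>] 0) := by
    rw [tendsto_nhdsWithin_iff]
    constructor
    · have := hq.norm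
      rwa [norm_zero] at this
    · exact Eventually.of_forall fun τ => norm_pos_iff.mpr (Function.Periodic.qParam_ne_zero _)
  have h3 : Tendsto (fun τ : ℍ => ‖Function.Periodic.qParam 1 (τ : ℂ)‖⁻¹) atImInfty atTop :=
    tendsto_inv_nhdsGT_zero.comp hq'
  have h4 := Filter.Tendsto.pos_mul_atTop one_pos h2 h3
  refine h4.congr fun τ => ?_
  rw [norm_mul, mul_assoc,
    mul_inv_cancel₀ (norm_ne_zero_iff.mpr (Function.Periodic.qParam_ne_zero _)), mul_one]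

/-- The hypothesis `hj` of `cl57_P3` for every `jO : mer95_O` with the values of `kleinJ`. -/
theorem cl57_hj (jO : mer95_O) (h : ∀ τ : ℍ, jO.1 τ = kleinJ τ) :
    Tendsto (fun τ : ℍ => ‖jO.1 τ‖) atImInfty atTop := by
  refine cl57_kleinJ_norm_tendsto.congr fun τ => ?_
  rw [h]

section Eis

variable {k : ℤ} {Γ : Subgroup SL(2, ℤ)} {χ : ↥Γ →* ℂˣ}

/-- Every `SL(2,ℤ)`-translate of `G_χ` tends to `1` at `i∞`. -/
theorem cl57_Gchi_lim (hk : 3 ≤ k) (hk2 : Even k) {p : ℕ} (hp : p ≠ 0)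
    (hχp : ∀ γ : ↥Γ, χ γ ^ p = 1)
    (hpar : ∀ γ : ↥Γ, ((γ : SL(2, ℤ)) : Matrix (Fin 2) (Fin 2) ℤ).trace ^ 2 = 4 → χ γ = 1)
    (hunit : ∀ γ : ↥Γ, ‖((χ γ : ℂˣ) : ℂ)‖ = 1) (s : SL(2, ℤ)) :
    cl57_Lim (s • ec77_Gchi k Γ χ p hk hunit) 1 := by
  rw [ec77_Gchi_eq_div]
  exact cl57_lim_smul_div' _ _ s (ec77_EoneO_pow_eventually_ne_zero hk hk2 p s⁻¹)
    (ec77_Gchi_tendsto hk hk2 hp hχp hpar s⁻¹)

open IntermediateField in
/-- **(P3) for the Eisenstein quotient.** `ev : F → mer95_MER` with `ev x = j`; every `f : F`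
is a root of a monic polynomial over `ℂ(x)` whose image is the coset polynomial
`∏ i, (X - r i • ev f)` (K3). If `ev G = G_χ`, then `G` has order `0` at every place of `F`
over `x = ∞`. -/
theorem cl57_P3_Gchi {F : Type*} [Field F] [Algebra ℂ F] (ev : F →ₐ[ℂ] mer95_MER) (x : F)
    (jO : mer95_O) (hevx : ev x = algebraMap mer95_O mer95_MER jO)
    (hjO : ∀ τ : ℍ, jO.1 τ = kleinJ τ)
    {ι : Type*} [Fintype ι] (r : ι → SL(2, ℤ))
    (hpoly : ∀ f : F, ∃ P : (↥ℂ⟮x⟯)[X], P.Monic ∧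
      P.map ((ev : F →+* mer95_MER).comp (algebraMap ↥ℂ⟮x⟯ F)) = ∏ i, (X - C (r i • ev f)) ∧
      aeval f P = 0)
    (hk : 3 ≤ k) (hk2 : Even k) {p : ℕ} (hp : p ≠ 0)
    (hχp : ∀ γ : ↥Γ, χ γ ^ p = 1)
    (hpar : ∀ γ : ↥Γ, ((γ : SL(2, ℤ)) : Matrix (Fin 2) (Fin 2) ℤ).trace ^ 2 = 4 → χ γ = 1)
    (hunit : ∀ γ : ↥Γ, ‖((χ γ : ℂˣ) : ℂ)‖ = 1)
    (G : F) (hG : ev G = ec77_Gchi k Γ χ p hk hunit)
    (v : Place ℂ F) (hv : v.ord x < 0) : v.ord G = 0 := by
  refine cl57_P3_lim ev x jO hevx (cl57_hj jO hjO) r G hpoly (fun _ => 1)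
    (fun _ => one_ne_zero) (fun i => ?_) v hv
  rw [hG]
  exact cl57_Gchi_lim hk hk2 hp hχp hpar hunit (r i)

end Eis

end Fermat.Agent.S42
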