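import Fermat.Agent.S42.DivGFinal93
import Fermat.Agent.S42.CuspLimJ57

/-!
# S42, seam M4c / (G-X), cusp side, characteristic-polynomial route (helper24)

helper57's cusp theorem `cl57_P3` / `cl57_P3_Gchi` (CuspLim57, CuspLimJ57) takes the function
field input (K3) in characteristic-polynomial form with the root property (`hpoly`).  This file
discharges `hpoly` on the concrete objects and instantiates the theorem, giving the
characteristic-polynomial twin of helper36's norm-route `pc36_cusp_Gchi` (CuspGlue36).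

* `cs24_isAlgebraic` : every element of `ev F_ℂ(N)` is algebraic over `ℂ(J)`.
* `cs24_hpoly` : the hypothesis `hpoly` of `cl57_P3`, for any `ℂ`-embedding
  `ev : F_ℂ(N) → mer95_MER` with `Γ₀(N)`-invariant image and `ev j0 = J`, with the coset
  representatives `Quotient.out`.
* `cs24_cusp_Gchi` : if `ev u = G_χ = (E_χ / E_1) ^ p` then `v.ord u = 0` at every place of
  `F_ℂ(N)` over `j = ∞` (for `ev = ff79_evMer N`, `j0 = dg93_j0 N`; any `p ≠ 0`).
-/

set_option autoImplicit false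
set_option linter.style.haveILetI false
set_option linter.unusedSectionVars false
set_option synthInstance.maxHeartbeats 400000

open ModularCurve IntermediateField AlgebraicCurve MatrixGroups CongruenceSubgroup Polynomial
  UpperHalfPlane

namespace Fermat.Agent.S42

open Fermat.Agent.S24

section Generic

variable (N : ℕ) [NeZero N] (ev : gi41_FC N →ₐ[ℂ] mer95_MER) (j0 : gi41_FC N)

/-- `Quotient.out` of the trivial coset lies in the subgroup. -/
theorem cs24_out_one_mem {G : Type*} [Group G] (Γ : Subgroup G) :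
    (Quotient.out ((1 : G) : G ⧸ Γ) : G) ∈ Γ := by
  have h : ((Quotient.out ((1 : G) : G ⧸ Γ) : G) : G ⧸ Γ) = ((1 : G) : G ⧸ Γ) :=
    QuotientGroup.out_eq' _
  rw [QuotientGroup.eq, mul_one] at h
  exact (Subgroup.inv_mem_iff Γ).mp h

/-- Every element of `ev F_ℂ(N)` is algebraic over `ℂ(J)`. -/
theorem cs24_isAlgebraic (hj0 : (j0 : LaurentSeries ℂ) = jqModC ℂ) (hevj : ev j0 = l1j27_J)
    (f : gi41_FC N) : IsAlgebraic ℂ⟮l1j27_J⟯ (ev f) := by
  haveI : FiniteDimensional ℂ⟮j0⟯ (gi41_FC N) := (gi41_K1C N j0 hj0).1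
  refine gi41_isAlgebraic_J N ev j0 l1j27_J hevj ⟨minpoly ℂ⟮j0⟯ f, ?_, ?_⟩
  · exact minpoly.ne_zero (Algebra.IsIntegral.isIntegral f)
  · have h : Polynomial.eval₂ (algebraMap ℂ⟮j0⟯ (gi41_FC N)) f (minpoly ℂ⟮j0⟯ f) = 0 :=
      minpoly.aeval ℂ⟮j0⟯ f
    have h2 := Polynomial.hom_eval₂ (minpoly ℂ⟮j0⟯ f) (algebraMap ℂ⟮j0⟯ (gi41_FC N))
      (ev : gi41_FC N →+* mer95_MER) f
    rw [h, map_zero] at h2
    exact h2.symm

/-- **(K3), characteristic polynomial form with the root property** (the hypothesis `hpoly` of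
`cl57_P3`): every `f ∈ F_ℂ(N)` is a root of a monic polynomial over `ℂ(j0)` whose image under
`ev` is the coset polynomial `∏ q, (X - q.out • ev f)`. -/
theorem cs24_hpoly [Fintype (SL(2, ℤ) ⧸ Gamma0 N)]
    (hj0 : (j0 : LaurentSeries ℂ) = jqModC ℂ) (hevj : ev j0 = l1j27_J)
    (hinv : ∀ g ∈ Gamma0 N, ∀ f, g • ev f = ev f) (f : gi41_FC N) :
    ∃ P : (ℂ⟮j0⟯)[X], P.Monic ∧
      P.map ((ev : gi41_FC N →+* mer95_MER).comp (algebraMap ℂ⟮j0⟯ (gi41_FC N))) =
        ∏ q : SL(2, ℤ) ⧸ Gamma0 N, (X - C ((Quotient.out q : SL(2, ℤ)) • ev f)) ∧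
      Polynomial.aeval f P = 0 := by
  classical
  obtain ⟨P, hmon, -, hmap⟩ := gi41_mer_exists_poly N ev j0 l1j27_J l1j27_J_smul hevj
    l1j27_L1_MER (gc6_out_bijective (Gamma0 N)) (y := ev f) (fun g hg => hinv g hg f)
    (cs24_isAlgebraic N ev j0 hj0 hevj f)
  refine ⟨P, hmon, hmap, ?_⟩
  apply (ev : gi41_FC N →+* mer95_MER).injective
  rw [map_zero]
  have h2 := Polynomial.hom_eval₂ P (algebraMap ℂ⟮j0⟯ (gi41_FC N))
    (ev : gi41_FC N →+* mer95_MER) f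
  rw [Polynomial.aeval_def]
  refine h2.trans ?_
  rw [← Polynomial.eval_map, hmap, Polynomial.eval_prod]
  refine Finset.prod_eq_zero (Finset.mem_univ (((1 : SL(2, ℤ)) : SL(2, ℤ) ⧸ Gamma0 N))) ?_
  rw [Polynomial.eval_sub, Polynomial.eval_X, Polynomial.eval_C,
    hinv _ (cs24_out_one_mem (Gamma0 N)) f]
  exact sub_self _

end Generic

/-- **Order zero of `G_χ` at the cusps, characteristic-polynomial route**: if
`ev u = G_χ = (E_χ / E_1) ^ p` then `v.ord u = 0` at every place `v` of `F_ℂ(N)` over `j = ∞`.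
(Twin of `pc36_cusp_Gchi`; here `hunit` is arbitrary.) -/
theorem cs24_cusp_Gchi (N : ℕ) [NeZero N] {k : ℤ} (hk : 3 ≤ k) (hk2 : Even k) {p : ℕ}
    (hp : p ≠ 0) (χ : ↥(Gamma0 N) →* ℂˣ) (hχp : ∀ γ : ↥(Gamma0 N), χ γ ^ p = 1)
    (hpar : ∀ γ : ↥(Gamma0 N),
      ((γ : SL(2, ℤ)) : Matrix (Fin 2) (Fin 2) ℤ).trace ^ 2 = 4 → χ γ = 1)
    (hunit : ∀ γ : ↥(Gamma0 N), ‖((χ γ : ℂˣ) : ℂ)‖ = 1)
    (u : gi41_FC N) (hu : ff79_evMer N u = ec77_Gchi k (Gamma0 N) χ p hk hunit)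
    (v : Place ℂ (gi41_FC N)) (hv : v.ord (dg93_j0 N) < 0) : v.ord u = 0 := by
  haveI : Finite (SL(2, ℤ) ⧸ Gamma0 N) := Subgroup.finite_quotient_of_finiteIndex
  letI : Fintype (SL(2, ℤ) ⧸ Gamma0 N) := Fintype.ofFinite _
  exact cl57_P3_Gchi (ff79_evMer N) (dg93_j0 N) dg93_jO (dg93_ev_j0 N) (fun _ => rfl)
    (fun q : SL(2, ℤ) ⧸ Gamma0 N => (Quotient.out q : SL(2, ℤ)))
    (cs24_hpoly N (ff79_evMer N) (dg93_j0 N) (dg93_j0_coe N) (dg93_ev_j0 N)
      (ff79_evMer_smul N))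
    hk hk2 hp hχp hpar hunit u hu v hv

end Fermat.Agent.S42
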