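import Fermat.Agent.S42.DescData3

/-!
# S42, descent block (owner: helper3): the two binding D3 exports

`ds3_RatOK S` and `ds3_NonRatOK S x` are the local statements at rational / non-rational places
which the global argument (`ds3_kummer`, row D5) consumes.  Row D3 proves them from the
function-field hypotheses (`x : F0` transcendental over `k0`, `F0 / k0(x)` finite, `ι x`
transcendental over `K`, `F / K(ι x)` finite, `k0`, `K` algebraically closed of characteristic 0).
-/

set_option autoImplicit false

namespace Fermat.Agent.S42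

open AlgebraicCurve

variable {k0 K F0 F : Type*} [Field k0] [Field K] [Field F0] [Field F]
  [Algebra k0 F0] [Algebra K F]

/-- D3 export at the rational places (valuation non-trivial on `ι F0`): an admissible derivation
does not lower the order. -/
def ds3_RatOK (S : ds3_Data k0 K F0 F) : Prop :=
  ∀ P : Place K F, ¬ ds3_NonRat S P → ∀ D : Derivation ℤ F F, ds3_IsAdm (K := K) S.ι D →
    ∀ f : F, D f = 0 ∨ P.ord f ≤ P.ord (D f)

/-- D3 export at the non-rational places (valuation trivial on `ι F0`): the value `a` of `ι x` is
not in `φ k0`, `ι x - a` vanishes at `P`, an admissible derivation lowers the order by at most `1`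
(not at all on units), and by exactly `1` on non-units as soon as it moves `a`. -/
def ds3_NonRatOK (S : ds3_Data k0 K F0 F) (x : F0) : Prop :=
  ∀ P : Place K F, ds3_NonRat S P →
    ∃ a : K, a ∉ Set.range S.φ ∧ 0 < P.ord (S.ι x - algebraMap K F a) ∧
      (∀ D : Derivation ℤ F F, ds3_IsAdm (K := K) S.ι D → ∀ f : F,
        D f = 0 ∨ (P.ord f - 1 ≤ P.ord (D f) ∧ (P.ord f = 0 → 0 ≤ P.ord (D f)))) ∧
      (∀ D : Derivation ℤ F F, ds3_IsAdm (K := K) S.ι D → D (algebraMap K F a) ≠ 0 →
        ∀ f : F, f ≠ 0 → P.ord f ≠ 0 → D f ≠ 0 ∧ P.ord (D f) = P.ord f - 1)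

end Fermat.Agent.S42
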