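import Fermat.Agent.S42.LocalDerB29
import Fermat.Agent.S42.DescIface3

/-!
S42 / descent row D3 (helper29), part C: the two binding D3 exports `ds3_RatOK S` and
`ds3_NonRatOK S x` of the descent interface (`DescIface3`), proved from the function-field
hypotheses via the abstract local lemmas `ld29_rational_*` / `ld29_nonrational_*`.
-/

set_option autoImplicit false

open AlgebraicCurve IntermediateField

namespace Fermat.Agent.S42

open Fermat.Agent.S24

section Aux

variable {K F : Type*} [Field K] [Field F] [Algebra K F]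

/-- `u` regular (or zero), `w` of order `-1`: `u - w ≠ 0` has order `-1`. -/
theorem ld29_ord_sub_neg_one (P : Place K F) {u w : F} (hu : u ∈ P.toValuationSubring)
    (hw0 : w ≠ 0) (hw : P.ord w = -1) : u - w ≠ 0 ∧ P.ord (u - w) = -1 := by
  obtain ⟨π, hπ0, hπ⟩ := ld29_exists_ord_one P
  have hπw0 : -(π * w) ≠ 0 := neg_ne_zero.mpr (mul_ne_zero hπ0 hw0)
  have hπwo : P.ord (-(π * w)) = 0 := by
    rw [ld29_ord_neg, P.ord_mul hπ0 hw0, hπ, hw]; ring
  by_cases hu0 : u = 0
  · subst hu0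
    refine ⟨by simpa using hw0, ?_⟩
    rw [zero_sub, ld29_ord_neg]; exact hw
  have hπuo : 0 < P.ord (π * u) := by
    rw [P.ord_mul hπ0 hu0, hπ]
    have := ld29_ord_nonneg P hu
    omega
  obtain ⟨h1, h2⟩ := ld29_ord_add_eq_zero P hπw0 hπwo hπuo
  have e : -(π * w) + π * u = π * (u - w) := by ring
  rw [e] at h1 h2
  have hne : u - w ≠ 0 := fun h => h1 (by rw [h, mul_zero])
  refine ⟨hne, ?_⟩
  rw [P.ord_mul hπ0 hne, hπ] at h2
  omega

end Aux

section ResidueVS

variable {k0 F0 : Type*} [Field k0] [IsAlgClosed k0] [Field F0] [Algebra k0 F0]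

/-- if no `g - c` is a non-unit of the valuation subring `W`, all nonzero polynomials in `g`
are units of `W`. -/
theorem ld29_aeval_inv_mem (W : ValuationSubring F0) (hk : ∀ c : k0, algebraMap k0 F0 c ∈ W)
    (g : F0) (_hg : Transcendental k0 g)
    (h : ∀ c : k0, (g - algebraMap k0 F0 c)⁻¹ ∈ W) :
    ∀ (n : ℕ) (p : Polynomial k0), p.natDegree = n → p ≠ 0 →
      (Polynomial.aeval g p)⁻¹ ∈ W := by
  intro n
  induction n with
  | zero =>
    intro p hp hp0
    rw [Polynomial.eq_C_of_natDegree_eq_zero hp]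
    simp only [Polynomial.aeval_C]
    rw [← map_inv₀]
    exact hk _
  | succ n ih =>
    intro p hp hp0
    have hdeg : p.degree ≠ 0 := by
      intro h0
      have := Polynomial.natDegree_eq_zero_iff_degree_le_zero.mpr h0.le
      omega
    obtain ⟨c, hc⟩ := IsAlgClosed.exists_root p hdeg
    obtain ⟨q, rfl⟩ := Polynomial.dvd_iff_isRoot.mpr hc
    have hq0 : q ≠ 0 := fun h0 => hp0 (by rw [h0, mul_zero])
    have hqdeg : q.natDegree = n := by
      have := Polynomial.natDegree_mul (Polynomial.X_sub_C_ne_zero c) hq0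
      rw [Polynomial.natDegree_X_sub_C] at this
      omega
    rw [map_mul]
    have h1 : Polynomial.aeval g (Polynomial.X - Polynomial.C c) = g - algebraMap k0 F0 c := by
      simp
    rw [h1, mul_inv]
    exact W.mul_mem _ _ (h c) (ih q hqdeg hq0)

/-- residue field of a nontrivial valuation subring of a function field over an algebraically
closed field is the constant field. -/
theorem ld29_exists_const_vs (x : F0) (_hx : Transcendental k0 x) [FiniteDimensional k0⟮x⟯ F0]
    (W : ValuationSubring F0) (hk : ∀ c : k0, algebraMap k0 F0 c ∈ W) (hW : W ≠ ⊤)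
    (g : F0) (hg : g ∈ W) :
    ∃ c : k0, g = algebraMap k0 F0 c ∨ (g - algebraMap k0 F0 c)⁻¹ ∉ W := by
  by_cases halg : IsAlgebraic k0 g
  · obtain ⟨c, hc⟩ := wp1b_exists_eq_algebraMap_of_isAlgebraic halg
    exact ⟨c, Or.inl hc⟩
  by_contra hcon
  push Not at hcon
  have htr : Transcendental k0 g := halg
  have hinv := ld29_aeval_inv_mem W hk g htr (fun c => (hcon c).2)
  have hpol : ∀ p : Polynomial k0, Polynomial.aeval g p ∈ W := by
    intro p
    induction p using Polynomial.induction_on' with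
    | add p q hp hq => rw [map_add]; exact W.add_mem _ _ hp hq
    | monomial n a =>
      rw [← Polynomial.C_mul_X_pow_eq_monomial]
      simp only [map_mul, Polynomial.aeval_C, map_pow, Polynomial.aeval_X]
      exact W.mul_mem _ _ (hk a) (pow_mem hg n)
  -- `k0(g) ⊆ W`
  have hsub : ∀ y : F0, y ∈ k0⟮g⟯ → y ∈ W := by
    intro y hy
    obtain ⟨r, s, rfl⟩ := (IntermediateField.mem_adjoin_simple_iff k0 y).mp hy
    by_cases hs : s = 0
    · simp [hs, W.zero_mem]
    rw [div_eq_mul_inv]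
    exact W.mul_mem _ _ (hpol r) (hinv _ s rfl hs)
  have : FiniteDimensional k0⟮g⟯ F0 := wp1b_finite_of_transcendental x g htr
  apply hW
  refine SetLike.ext fun y => ⟨fun _ => ValuationSubring.mem_top y, fun _ => ?_⟩
  have hyint : IsIntegral k0⟮g⟯ y := IsIntegral.of_finite _ _
  obtain ⟨p, hpm, hpy⟩ := hyint
  let ψ : k0⟮g⟯ →+* W := (algebraMap k0⟮g⟯ F0).codRestrict W.toSubring (fun z => hsub _ z.2)
  have hψ : (algebraMap W F0).comp ψ = algebraMap k0⟮g⟯ F0 := rfl
  have hint' : IsIntegral W y := by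
    refine ⟨p.map ψ, hpm.map ψ, ?_⟩
    rw [Polynomial.eval₂_map, hψ]
    exact hpy
  obtain ⟨a, ha⟩ := (IsIntegrallyClosed.isIntegral_iff (R := W) (K := F0)).mp hint'
  rw [← ha]
  exact a.2

end ResidueVS

section Inst

variable {k0 K F0 F : Type*} [Field k0] [Field K] [Field F0] [Field F]
  [Algebra k0 F0] [Algebra K F]

/-- `F = Frac K[ι F0]`. -/
theorem ld29_hgen (S : ds3_Data k0 K F0 F) :
    ∀ f : F, ∃ r ∈ Algebra.adjoin K ((S.ι.fieldRange : Subfield F) : Set F),
      ∃ s ∈ Algebra.adjoin K ((S.ι.fieldRange : Subfield F) : Set F), s ≠ 0 ∧ f * s = r := by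
  intro f
  have hf : f ∈ IntermediateField.adjoin K (Set.range S.ι) := by rw [S.gen]; trivial
  rw [IntermediateField.mem_adjoin_iff_div] at hf
  obtain ⟨r, hr, s, hs, rfl⟩ := hf
  rw [RingHom.coe_fieldRange]
  by_cases hs0 : s = 0
  · exact ⟨0, zero_mem _, 1, one_mem _, one_ne_zero, by simp [hs0]⟩
  · exact ⟨r, hr, s, hs, hs0, by field_simp⟩

theorem ld29_adm_zero (S : ds3_Data k0 K F0 F) (D : Derivation ℤ F F)
    (hD : ds3_IsAdm (K := K) S.ι D) : ∀ g ∈ S.ι.fieldRange, D g = 0 := by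
  rintro g ⟨g₀, rfl⟩
  exact hD.1 g₀

/-- **D3 export, rational places.** -/
theorem ld29_ratOK [IsAlgClosed k0] (S : ds3_Data k0 K F0 F) (x : F0)
    (hx : Transcendental k0 x) [FiniteDimensional k0⟮x⟯ F0] : ds3_RatOK S := by
  intro P hP D hD f
  by_cases hf : f = 0
  · left; rw [hf, map_zero]
  by_cases hDf : D f = 0
  · exact Or.inl hDf
  right
  -- nontriviality
  have hnt' : ∃ g₁ : F0, g₁ ≠ 0 ∧ P.ord (S.ι g₁) ≠ 0 := by
    unfold ds3_NonRat at hP
    push Not at hP
    exact hP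
  obtain ⟨g₁, hg₁0, hg₁⟩ := hnt'
  have hnt : ∃ g ∈ S.ι.fieldRange, g ≠ 0 ∧ P.ord g ≠ 0 :=
    ⟨S.ι g₁, ⟨g₁, rfl⟩, (map_ne_zero S.ι).mpr hg₁0, hg₁⟩
  -- the restricted valuation subring
  let W : ValuationSubring F0 := P.toValuationSubring.comap S.ι
  have hk : ∀ c : k0, algebraMap k0 F0 c ∈ W := by
    intro c
    show S.ι (algebraMap k0 F0 c) ∈ P.toValuationSubring
    rw [S.ι_algebraMap]
    exact P.algebraMap_mem' _
  have hW : W ≠ ⊤ := by
    intro htop
    have h1 : g₁ ∈ W := by rw [htop]; trivial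
    have h2 : g₁⁻¹ ∈ W := by rw [htop]; trivial
    have h1' : 0 ≤ P.ord (S.ι g₁) := ld29_ord_nonneg P h1
    have h2' : 0 ≤ P.ord (S.ι g₁⁻¹) := ld29_ord_nonneg P h2
    rw [map_inv₀, P.ord_inv] at h2'
    omega
  have hres0 : ∀ g ∈ S.ι.fieldRange, g ∈ P.toValuationSubring →
      ∃ c : K, algebraMap K F c ∈ S.ι.fieldRange ∧
        (g = algebraMap K F c ∨ 0 < P.ord (g - algebraMap K F c)) := by
    rintro g ⟨g₀, rfl⟩ hg
    obtain ⟨c₀, hc₀⟩ := ld29_exists_const_vs x hx W hk hW g₀ hg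
    refine ⟨S.φ c₀, ⟨algebraMap k0 F0 c₀, S.ι_algebraMap c₀⟩, ?_⟩
    rcases hc₀ with hc₀ | hc₀
    · left; rw [hc₀, S.ι_algebraMap]
    · right
      have h1 : (S.ι (g₀ - algebraMap k0 F0 c₀))⁻¹ ∉ P.toValuationSubring := by
        rw [← map_inv₀]; exact hc₀
      rw [wp1_mem_iff_ord_nonneg, P.ord_inv, map_sub, S.ι_algebraMap] at h1
      omega
  exact ld29_rational_ord_le P S.ι.fieldRange (ld29_hgen S) hres0 hnt D
    (ld29_adm_zero S D hD) hD.2 f hf hDf

/-- separability hypothesis of the non-rational chart, from finiteness over `k0(x)` in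
characteristic zero. -/
theorem ld29_hsep [CharZero k0] (S : ds3_Data k0 K F0 F) (x : F0)
    [FiniteDimensional k0⟮x⟯ F0] :
    ∀ g ∈ S.ι.fieldRange, ∃ p : Polynomial (Subfield.closure (insert (S.ι x)
        (((S.ι.comp (algebraMap k0 F0)).fieldRange : Subfield F) : Set F))),
      p.eval₂ (Subfield.subtype _) g = 0 ∧ p.derivative.eval₂ (Subfield.subtype _) g ≠ 0 := by
  rintro g ⟨g₀, rfl⟩
  set E : Subfield F := Subfield.closure (insert (S.ι x)
        (((S.ι.comp (algebraMap k0 F0)).fieldRange : Subfield F) : Set F)) with hE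
  -- `ι (k0(x)) ⊆ E`
  let L : IntermediateField k0 F0 :=
    { E.comap S.ι with
      algebraMap_mem' := fun c => by
        show S.ι (algebraMap k0 F0 c) ∈ E
        exact Subfield.subset_closure (Or.inr ⟨c, rfl⟩) }
  have hxL : x ∈ L := by
    show S.ι x ∈ E
    exact Subfield.subset_closure (Or.inl rfl)
  have hle : k0⟮x⟯ ≤ L := IntermediateField.adjoin_simple_le_iff.mpr hxL
  have hmem : ∀ z : k0⟮x⟯, (S.ι.comp (algebraMap k0⟮x⟯ F0)) z ∈ E := fun z => hle z.2
  let ψ : k0⟮x⟯ →+* E := (S.ι.comp (algebraMap k0⟮x⟯ F0)).codRestrict E hmem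
  have hψ : E.subtype.comp ψ = S.ι.comp (algebraMap k0⟮x⟯ F0) := rfl
  have hint : IsIntegral k0⟮x⟯ g₀ := IsIntegral.of_finite _ _
  have hirr := minpoly.irreducible hint
  have hsep : (minpoly k0⟮x⟯ g₀).Separable := hirr.separable
  refine ⟨(minpoly k0⟮x⟯ g₀).map ψ, ?_, ?_⟩
  · rw [Polynomial.eval₂_map, hψ, ← Polynomial.hom_eval₂]
    have : Polynomial.eval₂ (algebraMap k0⟮x⟯ F0) g₀ (minpoly k0⟮x⟯ g₀) = 0 := minpoly.aeval _ _
    rw [this, map_zero]
  · rw [Polynomial.derivative_map, Polynomial.eval₂_map, hψ, ← Polynomial.hom_eval₂]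
    have h1 : Polynomial.eval₂ (algebraMap k0⟮x⟯ F0) g₀ (minpoly k0⟮x⟯ g₀).derivative ≠ 0 :=
      hsep.eval₂_derivative_ne_zero (algebraMap k0⟮x⟯ F0) (minpoly.aeval _ _)
    exact (map_ne_zero S.ι).mpr h1

/-- **D3 export, non-rational places.** -/
theorem ld29_nonRatOK [IsAlgClosed K] [CharZero k0] [CharZero K] (S : ds3_Data k0 K F0 F)
    (x : F0) (hx : Transcendental k0 x) [FiniteDimensional k0⟮x⟯ F0]
    (hy : Transcendental K (S.ι x)) [FiniteDimensional K⟮S.ι x⟯ F] : ds3_NonRatOK S x := by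
  intro P hP
  have hF : CharZero F := charZero_of_injective_algebraMap (algebraMap K F).injective
  have htriv : ∀ g ∈ S.ι.fieldRange, g ≠ 0 → P.ord g = 0 := by
    rintro g ⟨g₀, rfl⟩ hg
    exact hP g₀ (fun h => hg (by rw [h, map_zero]))
  have hresK : ∀ f ∈ P.toValuationSubring,
      ∃ c : K, f = algebraMap K F c ∨ 0 < P.ord (f - algebraMap K F c) :=
    fun f hf => wp1_exists_const (S.ι x) hy P f hf
  have hx0 : x ≠ 0 := by
    rintro rfl
    exact hx isAlgebraic_zero
  have hxO : S.ι x ∈ P.toValuationSubring :=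
    ld29_mem_of_ord_nonneg P (by rw [hP x hx0])
  obtain ⟨a, ha⟩ := hresK _ hxO
  have ha' : 0 < P.ord (S.ι x - algebraMap K F a) := by
    rcases ha with ha | ha
    · exfalso
      obtain ⟨c0, hc0⟩ := S.const x a ha
      apply hx
      rw [hc0]
      exact isAlgebraic_algebraMap c0
    · exact ha
  have hanr : a ∉ Set.range S.φ := by
    rintro ⟨c0, rfl⟩
    rw [← S.ι_algebraMap, ← map_sub] at ha'
    have hne : x - algebraMap k0 F0 c0 ≠ 0 := by
      intro h
      apply hx
      rw [sub_eq_zero.mp h]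
      exact isAlgebraic_algebraMap c0
    rw [hP _ hne] at ha'
    exact lt_irrefl _ ha'
  have hxF0 : S.ι x ∈ S.ι.fieldRange := ⟨x, rfl⟩
  have hk0 : (S.ι.comp (algebraMap k0 F0)).fieldRange ≤ S.ι.fieldRange := by
    rintro c ⟨c0, rfl⟩
    exact ⟨algebraMap k0 F0 c0, rfl⟩
  have hk0K : ∀ c ∈ (S.ι.comp (algebraMap k0 F0)).fieldRange, ∃ b : K, algebraMap K F b = c := by
    rintro c ⟨c0, rfl⟩
    exact ⟨S.φ c0, (S.ι_algebraMap c0).symm⟩
  have hsep := ld29_hsep S x
  have hone : P.ord (S.ι x - algebraMap K F a) = 1 :=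
    ld29_nonrational P S.ι.fieldRange (ld29_hgen S) htriv hresK (S.ι x) hxF0 a ha' _ hk0 hk0K hsep
  have ht0 : S.ι x - algebraMap K F a ≠ 0 := by
    intro h; rw [h] at hone; simp at hone
  have key : ∀ D : Derivation ℤ F F, ds3_IsAdm (K := K) S.ι D → ∀ f : F, f ≠ 0 →
      D f / f + (P.ord f) • (D (algebraMap K F a) / (S.ι x - algebraMap K F a))
        ∈ P.toValuationSubring := fun D hD f hf =>
    ld29_nonrational_deriv P S.ι.fieldRange (ld29_hgen S) htriv hresK (S.ι x) hxF0 a ha' _ hk0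
      hk0K hsep D (ld29_adm_zero S D hD) hD.2 f hf
  -- the order of the polar term
  have hterm : ∀ D : Derivation ℤ F F, ds3_IsAdm (K := K) S.ι D → ∀ m : ℤ,
      m • (D (algebraMap K F a) / (S.ι x - algebraMap K F a)) = 0 ∨
      (m ≠ 0 ∧ D (algebraMap K F a) ≠ 0 ∧
        P.ord (m • (D (algebraMap K F a) / (S.ι x - algebraMap K F a))) = -1) := by
    intro D hD m
    obtain ⟨b, hb⟩ := hD.2 a
    by_cases hm : m = 0
    · left; rw [hm, zero_smul]
    by_cases hb0 : D (algebraMap K F a) = 0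
    · left; rw [hb0, zero_div, smul_zero]
    right
    refine ⟨hm, hb0, ?_⟩
    have hm0 : (m : F) ≠ 0 := by exact_mod_cast hm
    rw [zsmul_eq_mul, P.ord_mul hm0 (div_ne_zero hb0 ht0), ld29_ord_div P hb0 ht0, hone, hb,
      wp1_ord_algebraMap]
    have : P.ord (m : F) = 0 := by
      have h := wp1_ord_algebraMap P (m : K)
      rwa [map_intCast] at h
    rw [this]; ring
  refine ⟨a, hanr, ha', ?_, ?_⟩
  · intro D hD f
    by_cases hf : f = 0
    · left; rw [hf, map_zero]
    by_cases hDf : D f = 0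
    · exact Or.inl hDf
    right
    have hX := key D hD f hf
    set X := D f / f + (P.ord f) • (D (algebraMap K F a) / (S.ι x - algebraMap K F a)) with hXdef
    set w := (P.ord f) • (D (algebraMap K F a) / (S.ι x - algebraMap K F a)) with hw
    have hDfeq : D f = f * (X - w) := by
      rw [hXdef]; field_simp; ring
    have hXw0 : X - w ≠ 0 := by
      intro h; rw [h, mul_zero] at hDfeq; exact hDf hDfeq
    rcases hterm D hD (P.ord f) with h0 | ⟨hm, -, hord⟩
    · rw [← hw] at h0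
      rw [h0, sub_zero] at hDfeq hXw0
      rw [hDfeq, P.ord_mul hf hXw0]
      have := ld29_ord_nonneg P hX
      constructor
      · omega
      · intro h; omega
    · rw [← hw] at hord
      have hw0 : w ≠ 0 := by
        intro h; rw [h] at hord; simp at hord
      obtain ⟨-, h2⟩ := ld29_ord_sub_neg_one P hX hw0 hord
      rw [hDfeq, P.ord_mul hf hXw0, h2]
      constructor
      · omega
      · intro h; exact absurd h hm
  · intro D hD hDa f hf hordf
    have hX := key D hD f hf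
    set X := D f / f + (P.ord f) • (D (algebraMap K F a) / (S.ι x - algebraMap K F a)) with hXdef
    set w := (P.ord f) • (D (algebraMap K F a) / (S.ι x - algebraMap K F a)) with hw
    have hDfeq : D f = f * (X - w) := by
      rw [hXdef]; field_simp; ring
    rcases hterm D hD (P.ord f) with h0 | ⟨-, -, hord⟩
    · exfalso
      rw [zsmul_eq_mul] at h0
      rcases mul_eq_zero.mp h0 with h1 | h1
      · exact hordf (by exact_mod_cast h1)
      · rcases div_eq_zero_iff.mp h1 with h2 | h2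
        · exact hDa h2
        · exact ht0 h2
    · rw [← hw] at hord
      have hw0 : w ≠ 0 := by
        intro h; rw [h] at hord; simp at hord
      obtain ⟨h1, h2⟩ := ld29_ord_sub_neg_one P hX hw0 hord
      refine ⟨?_, ?_⟩
      · rw [hDfeq]; exact mul_ne_zero hf h1
      · rw [hDfeq, P.ord_mul hf h1, h2]; ring

end Inst

end Fermat.Agent.S42
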