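import Fermat.Agent.S42.DescKummer86
import Fermat.Agent.S42.LocalDerC29

/-!
S42 / descent block: **T1 (Kummer descent) with no local hypothesis left** (helper29).

`dr86_kummer` (helper86: minimal representative + derivation argument, from the local
derivation estimates) composed with the D3 exports `ld29_ratOK` / `ld29_nonRatOK`
(local rings at rational / non-rational places).  This is the literal T1 of the descent
interface #1722: for the constant extension datum `S : ds3_Data k0 K F0 F`, a function
`G ∈ F` whose orders at all NON-rational places are divisible by `n` is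
`c · ι g · w ^ n` with `g ∈ F0`.
-/

set_option autoImplicit false

open AlgebraicCurve IntermediateField

namespace Fermat.Agent.S42

variable {k0 K F0 F : Type*} [Field k0] [Field K] [Field F0] [Field F]
  [Algebra k0 F0] [Algebra K F]

/-- **T1, Kummer descent along a constant field extension** (all local inputs discharged). -/
theorem ld29_kummer [IsAlgClosed k0] [IsAlgClosed K] [CharZero k0] [CharZero K]
    (S : ds3_Data k0 K F0 F) (x : F0) (hx : Transcendental k0 x) [FiniteDimensional k0⟮x⟯ F0]
    (hy : Transcendental K (S.ι x)) [FiniteDimensional K⟮S.ι x⟯ F]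
    {n : ℕ} (hn : 0 < n) {G : F} (hG : G ≠ 0)
    (hdiv : ∀ P : Place K F, ds3_NonRat S P → (n : ℤ) ∣ P.ord G) :
    ∃ (c : K) (w : F) (g : F0), c ≠ 0 ∧ w ≠ 0 ∧ g ≠ 0 ∧
      G = algebraMap K F c * S.ι g * w ^ n := by
  have hrat := ld29_ratOK S x hx
  have hnr := ld29_nonRatOK S x hx hy
  refine dr86_kummer S x hy ?_ ?_ ?_ hn hG hdiv
  · intro D hD P hP f _ hDf
    rcases hrat P hP D hD f with h | h
    · exact absurd h hDf
    · exact h
  · intro D hD P hP f _ hDf
    obtain ⟨a, -, -, h2, -⟩ := hnr P hP
    rcases h2 D hD f with h | h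
    · exact absurd h hDf
    · exact h
  · intro P hP
    obtain ⟨a, ha, -, -, h3⟩ := hnr P hP
    obtain ⟨D, hD, hDa⟩ := S.exists_adm a ha
    exact ⟨D, hD, fun f hf hordf => h3 D hD hDa f hf hordf⟩

end Fermat.Agent.S42
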