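import Fermat.Agent.S42.DescInst86
import Fermat.Agent.S42.DescClose29
import Fermat.Agent.S18.ConstExtModular25
import Fermat.Agent.S18.CoeffGlue36

/-!
S42, RULING 3, row DataLB parts (c), (d), (e) (helper29, twin seat): the descent block on the
"Bar / laurentBaseChange" types.

Everything is stated for a VARIABLE constant-extension datum
`S : ds3_Data ℚ̄ K ↥(modularFunctionFieldBar N) ↥(laurentBaseChange K (modularFunctionFieldFull N))`
whose base change is coefficientwise (`hι : ∀ g, ↑(S.ι g) = coeffMap S.φ ↑g`), so that the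
transported datum `dataLB φ N` (parts (a), (b)) plugs in by one `exact`.

* `lb29_jBar N`, `lb29_jLB K N` : the element `j` of the two fields, transcendental, the fields
  are finite over it; `S.ι (lb29_jBar N) = lb29_jLB K N`.
* `lb29_linDisj` : linear disjointness in the shape of `pb84_LinDisj` / of `pe99_place_ext`.
* `lb29_placeExt` (T2), `lb29_kummer` (T1), `lb29_desc` ((DESC)), `lb29_pow_descend` (T3):
  the descent theorems at `S`, no hypothesis left.
-/

set_option autoImplicit false

open AlgebraicCurve IntermediateField ModularCurve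

namespace Fermat.Agent.S42

open Fermat.Agent.S18

section Transport

/-- transcendence transported along an equality of intermediate fields. -/
theorem lb29_transc_transport {K L : Type*} [Field K] [Field L] [Algebra K L]
    {S T : IntermediateField K L} (h : S = T) (y : S) (z : T) (hyz : (y : L) = (z : L))
    (hz : Transcendental K z) : Transcendental K y := by
  subst h
  have hy : y = z := Subtype.ext hyz
  subst hy
  exact hz

end Transport

section J

variable (N : ℕ)

/-- `j` as an element of `modularFunctionFieldBar N`. -/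
noncomputable def lb29_jBar : ↥(modularFunctionFieldBar N) :=
  ⟨jqModC (AlgebraicClosure ℚ), by
    rw [cx_bar_eq_fullC]; exact jqModC_mem_full (AlgebraicClosure ℚ) N⟩

theorem lb29_jBar_coe :
    ((lb29_jBar N : ↥(modularFunctionFieldBar N)) : LaurentSeries (AlgebraicClosure ℚ))
      = jqModC (AlgebraicClosure ℚ) := rfl

theorem lb29_jBar_transcendental : Transcendental (AlgebraicClosure ℚ) (lb29_jBar N) :=
  lb29_transc_transport (cx_bar_eq_fullC N) _ (relimc_J (AlgebraicClosure ℚ) N) rfl
    (relimc_J_transcendental (AlgebraicClosure ℚ) N)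

theorem lb29_jBar_finite [NeZero N] :
    FiniteDimensional (AlgebraicClosure ℚ)⟮lb29_jBar N⟯ ↥(modularFunctionFieldBar N) :=
  haveI := relimc_finite (AlgebraicClosure ℚ) N
  cx_finiteDimensional_transport (cx_bar_eq_fullC N) _ (relimc_J (AlgebraicClosure ℚ) N) rfl

variable (K : Type) [Field K] [Algebra ℚ K]

/-- `j` as an element of `laurentBaseChange K (modularFunctionFieldFull N)`. -/
noncomputable def lb29_jLB : ↥(laurentBaseChange K (modularFunctionFieldFull N)) :=
  ⟨jqModC K, by rw [cg36_baseChange_eq_fullC]; exact jqModC_mem_full K N⟩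

theorem lb29_jLB_coe :
    ((lb29_jLB N K : ↥(laurentBaseChange K (modularFunctionFieldFull N))) : LaurentSeries K)
      = jqModC K := rfl

theorem lb29_jLB_transcendental : Transcendental K (lb29_jLB N K) :=
  lb29_transc_transport (cg36_baseChange_eq_fullC K N) _ (relimc_J K N) rfl
    (relimc_J_transcendental K N)

theorem lb29_jLB_finite [NeZero N] :
    FiniteDimensional K⟮lb29_jLB N K⟯ ↥(laurentBaseChange K (modularFunctionFieldFull N)) :=
  haveI := relimc_finite K N
  cx_finiteDimensional_transport (cg36_baseChange_eq_fullC K N) _ (relimc_J K N) rfl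

end J

section Datum

variable {K : Type} [Field K] [Algebra ℚ K] {N : ℕ}
  (S : ds3_Data (AlgebraicClosure ℚ) K ↥(modularFunctionFieldBar N)
    ↥(laurentBaseChange K (modularFunctionFieldFull N)))
  (hι : ∀ g : ↥(modularFunctionFieldBar N),
    ((S.ι g : ↥(laurentBaseChange K (modularFunctionFieldFull N))) : LaurentSeries K)
      = coeffMap S.φ (g : LaurentSeries (AlgebraicClosure ℚ)))

include hι

/-- the base change of `j` is `j`. -/
theorem lb29_iota_j : S.ι (lb29_jBar N) = lb29_jLB N K := by
  apply Subtype.ext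
  rw [hι, lb29_jBar_coe, lb29_jLB_coe]
  exact coeffMap_jqModC S.φ

/-- **(d)** linear disjointness of `K` and `ι F0` over `ℚ̄`, in the shape of `pb84_LinDisj`. -/
theorem lb29_linDisj : pb84_LinDisj S.φ S.ι :=
  pb84_linDisj_coeffMap S.φ _ _ S.ι hι

/-- **(d)** the same in the literal `hld` shape of `pe99_place_ext`. -/
theorem lb29_hld : ∀ (m : ℕ) (c : Fin m → K) (g : Fin m → ↥(modularFunctionFieldBar N)),
    (∀ a : Fin m → AlgebraicClosure ℚ, ∑ i, S.φ (a i) * c i = 0 → ∀ i, a i = 0) →
    ∑ i, algebraMap K ↥(laurentBaseChange K (modularFunctionFieldFull N)) (c i) * S.ι (g i) = 0 →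
    ∀ i, g i = 0 :=
  fun m c g hc hsum => lb29_linDisj S hι m c g hc hsum

theorem lb29_hy : Transcendental K (S.ι (lb29_jBar N)) := by
  rw [lb29_iota_j S hι]
  exact lb29_jLB_transcendental N K

theorem lb29_hfin [NeZero N] :
    FiniteDimensional K⟮S.ι (lb29_jBar N)⟯ ↥(laurentBaseChange K (modularFunctionFieldFull N)) := by
  rw [lb29_iota_j S hι]
  exact lb29_jLB_finite N K

variable [IsAlgClosed K] [CharZero K] [NeZero N]

/-- **T2 at the datum**: every place of the `ℚ̄`-field extends with the same orders. -/
theorem lb29_placeExt (P0 : Place (AlgebraicClosure ℚ) ↥(modularFunctionFieldBar N)) :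
    ∃ P : Place K ↥(laurentBaseChange K (modularFunctionFieldFull N)),
      ∀ g : ↥(modularFunctionFieldBar N), P.ord (S.ι g) = P0.ord g := by
  have := lb29_jBar_finite N
  have := lb29_hfin S hι
  exact pb84_extend_ds S (lb29_linDisj S hι) (lb29_jBar N) (lb29_jBar_transcendental N)
    (lb29_hy S hι) P0

omit hι [IsAlgClosed K] [CharZero K] in
/-- **D3 exports at the datum.** -/
theorem lb29_ratOK : ds3_RatOK S := by
  have := lb29_jBar_finite N
  exact ld29_ratOK S (lb29_jBar N) (lb29_jBar_transcendental N)

theorem lb29_nonRatOK : ds3_NonRatOK S (lb29_jBar N) := by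
  have := lb29_jBar_finite N
  have := lb29_hfin S hι
  exact ld29_nonRatOK S (lb29_jBar N) (lb29_jBar_transcendental N) (lb29_hy S hι)

/-- **T1 at the datum** (Kummer descent; divisibility only at the non-rational places). -/
theorem lb29_kummer {n : ℕ} (hn : 0 < n)
    {G : ↥(laurentBaseChange K (modularFunctionFieldFull N))} (hG : G ≠ 0)
    (hdiv : ∀ P : Place K ↥(laurentBaseChange K (modularFunctionFieldFull N)),
      ds3_NonRat S P → (n : ℤ) ∣ P.ord G) :
    ∃ (c : K) (w : ↥(laurentBaseChange K (modularFunctionFieldFull N)))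
      (g : ↥(modularFunctionFieldBar N)), c ≠ 0 ∧ w ≠ 0 ∧ g ≠ 0 ∧
      G = algebraMap K ↥(laurentBaseChange K (modularFunctionFieldFull N)) c * S.ι g * w ^ n := by
  have := lb29_jBar_finite N
  have := lb29_hfin S hι
  exact ld29_kummer S (lb29_jBar N) (lb29_jBar_transcendental N) (lb29_hy S hι) hn hG hdiv

/-- **(DESC) at the datum**: a function of `F_K` all of whose orders are divisible by `n` is,
up to a constant and an `n`-th power, the base change of a function of `F_ℚ̄` all of whose
orders are divisible by `n`. -/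
theorem lb29_desc {n : ℕ} (hn : 0 < n)
    {u : ↥(laurentBaseChange K (modularFunctionFieldFull N))} (hu : u ≠ 0)
    (hdiv : ∀ P : Place K ↥(laurentBaseChange K (modularFunctionFieldFull N)),
      (n : ℤ) ∣ P.ord u) :
    ∃ (g : ↥(modularFunctionFieldBar N))
      (w : ↥(laurentBaseChange K (modularFunctionFieldFull N))) (c : K),
      g ≠ 0 ∧ w ≠ 0 ∧ c ≠ 0 ∧
      S.ι g = algebraMap K ↥(laurentBaseChange K (modularFunctionFieldFull N)) c * (w ^ n * u) ∧
      ∀ P0 : Place (AlgebraicClosure ℚ) ↥(modularFunctionFieldBar N), (n : ℤ) ∣ P0.ord g := by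
  have := lb29_jBar_finite N
  have := lb29_hfin S hι
  exact dr86_desc S (lb29_jBar N) (lb29_hy S hι) (lb29_ratOK S) (lb29_nonRatOK S hι)
    (fun P0 => lb29_placeExt S hι P0) hn hu hdiv

end Datum

end Fermat.Agent.S42
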