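import Mathlib

/-!
# S42, descent block (helper56): the bridge from row D1 to the datum

Generic facts about `ℤ`-derivations of a field `K` of characteristic zero and an embedding
`φ : k0 →+* K` of an algebraically closed field `k0` which is algebraic over `ℚ`.
Names are prefixed `db56_`.

* `db56_deriv_algebraic` : every derivation of `K` kills the elements algebraic over `ℚ`.
* `db56_mem_range` : an element of `K` algebraic over `ℚ` lies in `φ k0`.
* `db56_hD1` : from `hex : ∀ a, Transcendental ℚ a → ∃ d, d a ≠ 0` (row D1), every `a ∉ φ k0` is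
  moved by a derivation of `K` which kills `φ k0`.
-/

set_option autoImplicit false
set_option linter.style.haveILetI false

namespace Fermat.Agent.S42

section db56

variable {k0 K : Type*} [Field k0] [Field K]

/-- The `ℚ`-derivation underlying a `ℤ`-derivation of a field of characteristic zero. -/
noncomputable def db56_toRat [CharZero K] (d : Derivation ℤ K K) : Derivation ℚ K K :=
  Derivation.mk' ((d : K →+ K).toRatLinearMap) (fun a b => d.leibniz a b)

theorem db56_toRat_apply [CharZero K] (d : Derivation ℤ K K) (a : K) :
    db56_toRat d a = d a := rfl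

/-- Every derivation of a field of characteristic zero kills the elements algebraic over `ℚ`. -/
theorem db56_deriv_algebraic [CharZero K] (d : Derivation ℤ K K) {a : K}
    (ha : IsAlgebraic ℚ a) : d a = 0 := by
  have hint : IsIntegral ℚ a := ha.isIntegral
  have hsep : (minpoly ℚ a).Separable := (minpoly.irreducible hint).separable
  have h1 : db56_toRat d (Polynomial.aeval a (minpoly ℚ a)) =
      Polynomial.aeval a (Polynomial.derivative (minpoly ℚ a)) • db56_toRat d a :=
    Derivation.map_aeval _ _ _
  rw [minpoly.aeval, map_zero, db56_toRat_apply, smul_eq_mul] at h1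
  have h2 : Polynomial.aeval a (Polynomial.derivative (minpoly ℚ a)) ≠ 0 :=
    hsep.aeval_derivative_ne_zero (minpoly.aeval ℚ a)
  rcases mul_eq_zero.mp h1.symm with h | h
  · exact absurd h h2
  · exact h

variable (φ : k0 →+* K)

/-- An element of `K` algebraic over `ℚ` lies in the image of an algebraically closed field. -/
theorem db56_mem_range [IsAlgClosed k0] [CharZero k0] [CharZero K] {a : K}
    (ha : IsAlgebraic ℚ a) : a ∈ Set.range φ := by
  letI : Algebra k0 K := φ.toAlgebra
  haveI : IsScalarTower ℚ k0 K := IsScalarTower.of_algebraMap_eq (fun q => by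
    have h := RingHom.ext_iff.mp
      (RingHom.ext_rat (algebraMap ℚ K) ((algebraMap k0 K).comp (algebraMap ℚ k0))) q
    exact h)
  have ha' : IsAlgebraic k0 a := ha.tower_top k0
  have hint : IsIntegral k0 a := ha'.isIntegral
  have hdeg : (minpoly k0 a).degree = 1 :=
    IsAlgClosed.degree_eq_one_of_irreducible k0 (minpoly.irreducible hint)
  obtain ⟨c, hc⟩ := minpoly.degree_eq_one_iff.mp hdeg
  exact ⟨c, hc⟩

/-- The image of an element algebraic over `ℚ` is algebraic over `ℚ`. -/
theorem db56_isAlgebraic_map [CharZero k0] [CharZero K] {c : k0} (hc : IsAlgebraic ℚ c) :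
    IsAlgebraic ℚ (φ c) := by
  letI : Algebra k0 K := φ.toAlgebra
  haveI : IsScalarTower ℚ k0 K := IsScalarTower.of_algebraMap_eq (fun q => by
    have h := RingHom.ext_iff.mp
      (RingHom.ext_rat (algebraMap ℚ K) ((algebraMap k0 K).comp (algebraMap ℚ k0))) q
    exact h)
  exact hc.algebraMap

/-- **Bridge from D1.**  If every transcendental element of `K` is moved by some derivation,
then every `a ∉ φ k0` is moved by a derivation of `K` which kills `φ k0`. -/
theorem db56_hD1 [IsAlgClosed k0] [CharZero k0] [CharZero K]
    (halg : ∀ c : k0, IsAlgebraic ℚ c)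
    (hex : ∀ a : K, Transcendental ℚ a → ∃ d : Derivation ℤ K K, d a ≠ 0) :
    ∀ a : K, a ∉ Set.range φ → ∃ d : Derivation ℤ K K, (∀ c : k0, d (φ c) = 0) ∧ d a ≠ 0 := by
  intro a ha
  have htr : Transcendental ℚ a := fun halg' => ha (db56_mem_range φ halg')
  obtain ⟨d, hd⟩ := hex a htr
  exact ⟨d, fun c => db56_deriv_algebraic d (db56_isAlgebraic_map φ (halg c)), hd⟩

/-- The range of `φ` is exactly the set of elements algebraic over `ℚ`. -/
theorem db56_mem_range_iff [IsAlgClosed k0] [CharZero k0] [CharZero K]
    (halg : ∀ c : k0, IsAlgebraic ℚ c) (a : K) : a ∈ Set.range φ ↔ IsAlgebraic ℚ a := by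
  constructor
  · rintro ⟨c, rfl⟩
    exact db56_isAlgebraic_map φ (halg c)
  · exact fun h => db56_mem_range φ h

end db56

end Fermat.Agent.S42
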