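/-
S42 project, descent block, row D1 (twin): derivations of a field of characteristic zero.

* `dv35_exists_field` : for a field `L` of characteristic zero and `a : L` transcendental
  over `ℚ`, there is a `ℤ`-derivation `d` of `L` with `d a = 1`.
* `dv35_alg_field`    : every `ℤ`-derivation of `L` kills every element algebraic over `ℚ`.
* `dv35_exists`, `dv35_alg` : the two statements for `L = ℂ`.

Route: formal smoothness of `L` over `ℚ[X]` (`X ↦ a`) and the dual numbers `L[ε]`.
-/
import Mathlib

namespace Fermat.Agent.S42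

open Polynomial TrivSqZeroExt

section exist

variable (L : Type*) [Field L]

attribute [local instance] FractionRing.liftAlgebra

set_option maxHeartbeats 800000 in
/-- The field `L`, seen as a `ℚ[X]`-algebra through an injective ring map, is formally smooth. -/
theorem dv35_smooth (inst : Algebra ℚ[X] L) (hinj : Function.Injective (algebraMap ℚ[X] L)) :
    Algebra.FormallySmooth ℚ[X] L := by
  classical
  have : FaithfulSMul ℚ[X] L := (faithfulSMul_iff_algebraMap_injective ℚ[X] L).mpr hinj
  have h1 : Algebra.FormallySmooth ℚ[X] (FractionRing ℚ[X]) :=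
    Algebra.FormallySmooth.of_isLocalization (nonZeroDivisors ℚ[X])
  have hK0 : CharZero (FractionRing ℚ[X]) :=
    charZero_of_injective_algebraMap (IsFractionRing.injective ℚ[X] (FractionRing ℚ[X]))
  obtain ⟨s, hs⟩ := exists_isTranscendenceBasis (FractionRing ℚ[X]) L
  have halg : Algebra.IsAlgebraic
      (IntermediateField.adjoin (FractionRing ℚ[X]) (Set.range ((↑) : s → L))) L :=
    hs.isAlgebraic_field
  have h2 : Algebra.FormallySmooth (FractionRing ℚ[X]) L :=
    Algebra.FormallySmooth.of_algebraicIndependent_of_isSeparable hs.1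
  exact Algebra.FormallySmooth.comp ℚ[X] (FractionRing ℚ[X]) L

/-- The kernel of the first projection of the dual numbers is of square zero. -/
theorem dv35_ker_sq (x y : TrivSqZeroExt L L) (hx : x.fst = 0) (hy : y.fst = 0) : x * y = 0 := by
  ext
  · simp [hx]
  · simp [hx, hy]

/-- Over a field of characteristic zero, an element transcendental over `ℚ` admits a
`ℤ`-derivation taking the value `1` on it. -/
theorem dv35_exists_field [CharZero L] (a : L) (ha : Transcendental ℚ a) :
    ∃ d : Derivation ℤ L L, d a = 1 := by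
  classical
  let algXL : Algebra ℚ[X] L := (Polynomial.aeval a).toRingHom.toAlgebra
  have hinj : Function.Injective (algebraMap ℚ[X] L) := transcendental_iff_injective.mp ha
  have hsm : Algebra.FormallySmooth ℚ[X] L := dv35_smooth L algXL hinj
  let algXB : Algebra ℚ[X] (TrivSqZeroExt L L) :=
    (Polynomial.aeval (inl a + inr 1 : TrivSqZeroExt L L)).toRingHom.toAlgebra
  let g : TrivSqZeroExt L L →ₐ[ℚ[X]] L :=
    { (fstHom ℚ L L).toRingHom with
      commutes' := fun p => by
        change fst (Polynomial.aeval (inl a + inr 1 : TrivSqZeroExt L L) p) = Polynomial.aeval a p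
        have := Polynomial.aeval_algHom_apply (fstHom ℚ L L) (inl a + inr 1 : TrivSqZeroExt L L) p
        simpa using this.symm }
  have hg : ∀ x : TrivSqZeroExt L L, g x = x.fst := fun _ => rfl
  have hsurj : Function.Surjective g := fun z => ⟨inl z, by simp [hg]⟩
  have hnil : IsNilpotent (RingHom.ker (g : TrivSqZeroExt L L →+* L)) := by
    refine ⟨2, ?_⟩
    rw [Ideal.zero_eq_bot, eq_bot_iff]
    have hsq : RingHom.ker (g : TrivSqZeroExt L L →+* L) ^ 2 =
        RingHom.ker (g : TrivSqZeroExt L L →+* L) * RingHom.ker (g : TrivSqZeroExt L L →+* L) :=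
      pow_two _
    rw [hsq, Ideal.mul_le]
    intro x hx y hy
    rw [RingHom.mem_ker] at hx hy
    rw [Ideal.mem_bot]
    exact dv35_ker_sq L x y hx hy
  let φ : L →ₐ[ℚ[X]] TrivSqZeroExt L L :=
    Algebra.FormallySmooth.liftOfSurjective (AlgHom.id ℚ[X] L) g hsurj hnil
  have hφ : ∀ z : L, (φ z).fst = z := fun z =>
    Algebra.FormallySmooth.liftOfSurjective_apply (AlgHom.id ℚ[X] L) g hsurj hnil z
  let d : Derivation ℤ L L :=
    { toLinearMap :=
        (AddMonoidHom.mk' (fun z : L => (φ z).snd) (fun x y => by simp)).toIntLinearMap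
      map_one_eq_zero' := by simp
      leibniz' := fun x y => by
        change (φ (x * y)).snd = x • (φ y).snd + y • (φ x).snd
        rw [map_mul, snd_mul, hφ x, hφ y, op_smul_eq_smul] }
  refine ⟨d, ?_⟩
  change (φ a).snd = 1
  have h1 : a = algebraMap ℚ[X] L X := by
    change a = Polynomial.aeval a X
    simp
  have h2 : φ a = inl a + inr 1 := by
    conv_lhs => rw [h1]
    rw [φ.commutes]
    change Polynomial.aeval (inl a + inr 1 : TrivSqZeroExt L L) X = _
    simp
  rw [h2]
  simp

end exist

section alg

variable {L : Type*} [Field L] [CharZero L]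

/-- A `ℤ`-derivation of a field of characteristic zero, seen as a `ℚ`-derivation. -/
noncomputable def dv35_toRat (d : Derivation ℤ L L) : Derivation ℚ L L :=
  { toLinearMap := d.toLinearMap.toAddMonoidHom.toRatLinearMap
    map_one_eq_zero' := d.map_one_eq_zero
    leibniz' := d.leibniz }

theorem dv35_toRat_apply (d : Derivation ℤ L L) (x : L) : dv35_toRat d x = d x := rfl

/-- Every `ℤ`-derivation of a field of characteristic zero kills the elements algebraic
over `ℚ`. -/
theorem dv35_alg_field (d : Derivation ℤ L L) (a : L) (ha : IsAlgebraic ℚ a) : d a = 0 := by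
  have hint : IsIntegral ℚ a := ha.isIntegral
  have h0 : Polynomial.aeval a (minpoly ℚ a) = 0 := minpoly.aeval ℚ a
  have h1 := congrArg (dv35_toRat d) h0
  rw [Derivation.map_aeval, map_zero] at h1
  have hsep : (minpoly ℚ a).Separable := (minpoly.irreducible hint).separable
  have hne : Polynomial.aeval a (derivative (minpoly ℚ a)) ≠ 0 :=
    hsep.aeval_derivative_ne_zero h0
  rw [smul_eq_mul] at h1
  rcases mul_eq_zero.mp h1 with h | h
  · exact absurd h hne
  · exact h

/-- A `ℤ`-derivation of a field of characteristic zero kills the rational numbers. -/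
theorem dv35_ratCast (d : Derivation ℤ L L) (q : ℚ) : d (q : L) = 0 :=
  dv35_alg_field d _ (by
    have := isAlgebraic_algebraMap (R := ℚ) (A := L) q
    simpa using this)

end alg

/-- **D1, existence.** A complex number transcendental over `ℚ` admits a `ℤ`-derivation of `ℂ`
not vanishing on it (in fact with value `1`). -/
theorem dv35_exists_one (a : ℂ) (ha : Transcendental ℚ a) :
    ∃ d : Derivation ℤ ℂ ℂ, d a = 1 :=
  dv35_exists_field ℂ a ha

/-- **D1, existence.** A complex number transcendental over `ℚ` admits a `ℤ`-derivation of `ℂ`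
not vanishing on it. -/
theorem dv35_exists (a : ℂ) (ha : Transcendental ℚ a) :
    ∃ d : Derivation ℤ ℂ ℂ, d a ≠ 0 := by
  obtain ⟨d, hd⟩ := dv35_exists_one a ha
  exact ⟨d, by rw [hd]; exact one_ne_zero⟩

/-- **D1, vanishing.** Every `ℤ`-derivation of `ℂ` kills the complex numbers algebraic
over `ℚ`. -/
theorem dv35_alg (d : Derivation ℤ ℂ ℂ) (a : ℂ) (ha : IsAlgebraic ℚ a) : d a = 0 :=
  dv35_alg_field d a ha

/-- The constants of all `ℤ`-derivations of `ℂ` are exactly the algebraic numbers. -/
theorem dv35_const_iff (a : ℂ) :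
    (∀ d : Derivation ℤ ℂ ℂ, d a = 0) ↔ IsAlgebraic ℚ a := by
  constructor
  · intro h
    by_contra hna
    obtain ⟨d, hd⟩ := dv35_exists a hna
    exact hd (h d)
  · intro ha d
    exact dv35_alg d a ha

/-- Glue for an embedding of an algebraically closed field of algebraic numbers: a complex number
outside the range of a ring embedding `φ : Kbar →+* ℂ`, with `Kbar` algebraically closed, is
transcendental over `ℚ`, hence moved by some derivation. -/
theorem dv35_exists_of_not_mem_range {Kbar : Type*} [Field Kbar] [IsAlgClosed Kbar]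
    (φ : Kbar →+* ℂ) (a : ℂ) (ha : a ∉ Set.range φ) :
    ∃ d : Derivation ℤ ℂ ℂ, d a ≠ 0 := by
  apply dv35_exists
  intro halg
  apply ha
  have : CharZero Kbar := (RingHom.charZero_iff φ.injective).mpr inferInstance
  -- the minimal polynomial of `a` over `ℚ` splits in `Kbar`
  have hint : IsIntegral ℚ a := halg.isIntegral
  have hsplit : ((minpoly ℚ a).map (algebraMap ℚ Kbar)).Splits := IsAlgClosed.splits _
  have hroot : (((minpoly ℚ a).map (algebraMap ℚ Kbar)).map φ).IsRoot a := by
    rw [Polynomial.map_map]
    have : φ.comp (algebraMap ℚ Kbar) = algebraMap ℚ ℂ := Subsingleton.elim _ _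
    rw [this, Polynomial.IsRoot, Polynomial.eval_map_algebraMap]
    exact minpoly.aeval ℚ a
  have hne : (minpoly ℚ a).map (algebraMap ℚ Kbar) ≠ 0 :=
    (Polynomial.map_ne_zero_iff (algebraMap ℚ Kbar).injective).mpr (minpoly.ne_zero hint)
  -- `a` is a root of a split polynomial mapped along `φ`
  have hmem : a ∈ (((minpoly ℚ a).map (algebraMap ℚ Kbar)).map φ).roots :=
    (Polynomial.mem_roots (Polynomial.map_ne_zero hne)).mpr hroot
  rw [hsplit.roots_map φ] at hmem
  obtain ⟨b, -, hb⟩ := Multiset.mem_map.mp hmem
  exact ⟨b, hb⟩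

end Fermat.Agent.S42
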