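import Mathlib
import Fermat.Prelude.Def_ModularCurve_X0
import Fermat.Prelude.Def_ModularCurve_LaurentCoeff

/-!
# S42 / descent block D2 (helper16): the coefficientwise derivation on Laurent series

For a field `K` over `ℚ` and a `ℚ`-derivation `d` of `K`, `dc16_coeff d` is the derivation of
`LaurentSeries K` acting coefficientwise.  It kills every series whose coefficients are
`d`-constants (in particular the image of `coeffEmb K`, and of `coeffMap φ` when `d ∘ φ = 0`),
commutes with `qExpand`, preserves `laurentBaseChange K F₀`, and does not lower the order.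
-/

set_option autoImplicit false

open ModularCurve HahnSeries

namespace Fermat.Agent.S42

variable {K : Type*} [Field K] [Algebra ℚ K]

/-- Coefficientwise application of a derivation, as an additive map. -/
noncomputable def dc16_coeffAdd (d : Derivation ℚ K K) :
    LaurentSeries K →+ LaurentSeries K where
  toFun x := x.map d
  map_zero' := by
    ext n
    simp
  map_add' x y := by
    ext n
    simp

theorem dc16_coeffAdd_coeff (d : Derivation ℚ K K) (x : LaurentSeries K) (n : ℤ) :
    (dc16_coeffAdd d x).coeff n = d (x.coeff n) := rfl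

theorem dc16_coeffAdd_support (d : Derivation ℚ K K) (x : LaurentSeries K) :
    (dc16_coeffAdd d x).support ⊆ x.support := by
  intro n hn
  rw [HahnSeries.mem_support, dc16_coeffAdd_coeff] at hn
  rw [HahnSeries.mem_support]
  intro h
  exact hn (by rw [h, map_zero])

/-- An additive endomorphism of `LaurentSeries K`, as a `ℚ`-linear map for the two module
structures used by `Derivation ℚ (LaurentSeries K) (LaurentSeries K)`. -/
noncomputable def dc16_linOfAdd (g : LaurentSeries K →+ LaurentSeries K) :
    @LinearMap ℚ ℚ _ _ (RingHom.id ℚ) (LaurentSeries K) (LaurentSeries K) _ _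
      Algebra.toModule HahnSeries.instModule :=
  @LinearMap.mk ℚ ℚ _ _ (RingHom.id ℚ) (LaurentSeries K) (LaurentSeries K) _ _
    Algebra.toModule HahnSeries.instModule
    ⟨g, map_add g⟩
    (fun c x => @map_rat_smul _ _ _ _ Algebra.toModule HahnSeries.instModule _ _ _ g c x)

theorem dc16_linOfAdd_apply (g : LaurentSeries K →+ LaurentSeries K) (x : LaurentSeries K) :
    dc16_linOfAdd g x = g x := rfl

/-- The coefficientwise derivation of `LaurentSeries K` attached to a derivation of `K`. -/
noncomputable def dc16_coeff (d : Derivation ℚ K K) :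
    Derivation ℚ (LaurentSeries K) (LaurentSeries K) :=
  Derivation.mk' (dc16_linOfAdd (dc16_coeffAdd d)) (by
    intro x y
    rw [dc16_linOfAdd_apply, dc16_linOfAdd_apply, dc16_linOfAdd_apply]
    ext n
    rw [HahnSeries.coeff_add, smul_eq_mul, smul_eq_mul, mul_comm y (dc16_coeffAdd d x),
      dc16_coeffAdd_coeff, HahnSeries.coeff_mul,
      HahnSeries.coeff_mul_right' y.isPWO_support (dc16_coeffAdd_support d y),
      HahnSeries.coeff_mul_left' x.isPWO_support (dc16_coeffAdd_support d x), map_sum,
      ← Finset.sum_add_distrib]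
    refine Finset.sum_congr rfl (fun ij _ => ?_)
    rw [Derivation.leibniz, dc16_coeffAdd_coeff, dc16_coeffAdd_coeff, smul_eq_mul, smul_eq_mul,
      mul_comm (y.coeff ij.2)])

theorem dc16_coeff_apply (d : Derivation ℚ K K) (f : LaurentSeries K) :
    dc16_coeff d f = dc16_coeffAdd d f := rfl

@[simp]
theorem dc16_coeff_coeff (d : Derivation ℚ K K) (f : LaurentSeries K) (n : ℤ) :
    (dc16_coeff d f).coeff n = d (f.coeff n) := rfl

theorem dc16_coeff_eq_zero_iff (d : Derivation ℚ K K) (f : LaurentSeries K) :
    dc16_coeff d f = 0 ↔ ∀ n : ℤ, d (f.coeff n) = 0 := by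
  constructor
  · intro h n
    rw [← dc16_coeff_coeff, h, HahnSeries.coeff_zero]
  · intro h
    ext n
    rw [dc16_coeff_coeff, h n, HahnSeries.coeff_zero]

theorem dc16_coeff_support (d : Derivation ℚ K K) (f : LaurentSeries K) :
    (dc16_coeff d f).support ⊆ f.support :=
  dc16_coeffAdd_support d f

theorem dc16_coeff_single (d : Derivation ℚ K K) (n : ℤ) (a : K) :
    dc16_coeff d (HahnSeries.single n a) = HahnSeries.single n (d a) := by
  ext m
  rw [dc16_coeff_coeff]
  rcases eq_or_ne m n with rfl | hm
  · rw [HahnSeries.coeff_single_same, HahnSeries.coeff_single_same]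
  · rw [HahnSeries.coeff_single_of_ne hm, HahnSeries.coeff_single_of_ne hm, map_zero]

theorem dc16_coeff_algebraMap (d : Derivation ℚ K K) (a : K) :
    dc16_coeff d (algebraMap K (LaurentSeries K) a) = algebraMap K (LaurentSeries K) (d a) := by
  rw [algebraMap_laurentSeries_eq_single, algebraMap_laurentSeries_eq_single, dc16_coeff_single]

/-- `dc16_coeff d` kills `coeffMap φ f` when `d` vanishes on the image of `φ`. -/
theorem dc16_coeff_coeffMap (d : Derivation ℚ K K) {k₀ : Type*} [CommRing k₀] (φ : k₀ →+* K)
    (hφ : ∀ a : k₀, d (φ a) = 0) (f : LaurentSeries k₀) :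
    dc16_coeff d (coeffMap φ f) = 0 := by
  rw [dc16_coeff_eq_zero_iff]
  intro n
  rw [coeffMap_coeff, hφ]

/-- `dc16_coeff d` kills the series with rational coefficients. -/
theorem dc16_coeff_coeffEmb (d : Derivation ℚ K K) (f : LaurentSeries ℚ) :
    dc16_coeff d (coeffEmb K f) = 0 :=
  dc16_coeff_coeffMap d (algebraMap ℚ K) (fun a => d.map_algebraMap a) f

/-- `dc16_coeff d` commutes with the substitution `q ↦ q ^ N`. -/
theorem dc16_coeff_qExpand (d : Derivation ℚ K K) (N : ℕ) [NeZero N] (f : LaurentSeries K) :
    dc16_coeff d (qExpand K N f) = qExpand K N (dc16_coeff d f) := by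
  ext k
  rw [dc16_coeff_coeff]
  by_cases hk : (N : ℤ) ∣ k
  · obtain ⟨m, rfl⟩ := hk
    rw [qExpand_coeff_mul, qExpand_coeff_mul, dc16_coeff_coeff]
  · rw [qExpand_coeff_of_not_dvd N f hk, qExpand_coeff_of_not_dvd N _ hk, map_zero]

/-- `laurentBaseChange K F₀` is stable under the coefficientwise derivation. -/
theorem dc16_coeff_mem (d : Derivation ℚ K K) (F₀ : IntermediateField ℚ (LaurentSeries ℚ))
    {x : LaurentSeries K} (hx : x ∈ laurentBaseChange K F₀) :
    dc16_coeff d x ∈ laurentBaseChange K F₀ := by
  rw [mem_laurentBaseChange_iff] at hx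
  induction hx using Subfield.closure_induction with
  | mem y hy =>
      rcases hy with ⟨a, rfl⟩ | ⟨z, hz, rfl⟩
      · rw [dc16_coeff_algebraMap]
        exact (laurentBaseChange K F₀).algebraMap_mem _
      · rw [dc16_coeff_coeffEmb]
        exact zero_mem _
  | one =>
      rw [Derivation.map_one_eq_zero]
      exact zero_mem _
  | add x y hx hy ihx ihy =>
      rw [map_add]
      exact add_mem ihx ihy
  | neg x hx ihx =>
      rw [map_neg]
      exact neg_mem ihx
  | inv x hx ihx =>
      rw [Derivation.leibniz_inv, smul_eq_mul]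
      have h1 : x ∈ laurentBaseChange K F₀ := mem_laurentBaseChange_iff.mpr hx
      exact mul_mem (neg_mem (pow_mem (inv_mem h1) 2)) ihx
  | mul x y hx hy ihx ihy =>
      rw [Derivation.leibniz, smul_eq_mul, smul_eq_mul]
      have h1 : x ∈ laurentBaseChange K F₀ := mem_laurentBaseChange_iff.mpr hx
      have h2 : y ∈ laurentBaseChange K F₀ := mem_laurentBaseChange_iff.mpr hy
      exact add_mem (mul_mem h1 ihy) (mul_mem h2 ihx)

/-- The coefficientwise derivation does not lower the order. -/
theorem dc16_coeff_order_le (d : Derivation ℚ K K) (f : LaurentSeries K)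
    (h : dc16_coeff d f ≠ 0) : f.order ≤ (dc16_coeff d f).order := by
  have hf : f ≠ 0 := by
    rintro rfl
    exact h (map_zero _)
  have hmem : (dc16_coeff d f).order ∈ f.support := by
    apply dc16_coeff_support d f
    rw [HahnSeries.mem_support]
    exact fun h0 => h (HahnSeries.coeff_order_eq_zero.mp h0)
  exact HahnSeries.order_le_of_coeff_ne_zero (by rwa [HahnSeries.mem_support] at hmem)

/-- If the leading coefficient of `f` is a `d`-constant, the coefficientwise derivative has no
term of order `f.order`. -/
theorem dc16_coeff_coeff_order (d : Derivation ℚ K K) (f : LaurentSeries K)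
    (h : d (f.coeff f.order) = 0) : (dc16_coeff d f).coeff f.order = 0 := by
  rw [dc16_coeff_coeff, h]

end Fermat.Agent.S42
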