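import Fermat.Agent.S42.DescInst86
import Fermat.Agent.S42.DescPow3
import Fermat.Agent.S42.FunFieldBar79
import Fermat.Agent.S42.GaloisK1_41

/-!
# S42, seam (G-DESC) (helper80): the descent statements in the Prelude vocabulary

The descent block lives on `modularFunctionFieldFullC L N`; the function field of `JZero N`
and the evaluation `ff79_ev0 = ff79_evMer ∘ ff79_bc` live on the Prelude's
`laurentBaseChange L (modularFunctionFieldFull N)` (equal subfields, `gi41_baseChange_eq`).
This file transports the three exports, with no hypothesis left, for an arbitrary ring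
homomorphism `φ : ℚ̄ →+* ℂ`:

* `ds80_desc_bc` : (DESC) = `dr86_desc_modular`;
* `ds80_kummer_bc` : T1 with divisibility at all places;
* `ds80_pow_descend_bc` : T3 = `ds3_pow_descend` at `ld80_dataBar`;
* `ds80_placeExt_bc` : T2 = `dr86_placeExt_modular`.

In all of them the base change of functions is `ff79_bc φ N`.
-/

set_option autoImplicit false

namespace Fermat.Agent.S42

open HahnSeries ModularCurve IntermediateField AlgebraicCurve Fermat.Agent.S18

local notation "Qb" => AlgebraicClosure ℚ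

section Transport

variable (φ : Qb →+* ℂ) (N : ℕ)

/-- **(DESC) in the Prelude vocabulary**: if `u ≠ 0` in `F_ℂ(N)` has `n ∣ ord_P u` at every
place, then `ff79_bc φ N g = c * (w ^ n * u)` with `g` in the function field of `JZero N` and
`n ∣ ord_{P0} g` at every place of that field. -/
theorem ds80_desc_bc [NeZero N] {n : ℕ} (hn : 0 < n)
    {u : ↥(laurentBaseChange ℂ (modularFunctionFieldFull N))} (hu : u ≠ 0)
    (hdiv : ∀ P : Place ℂ ↥(laurentBaseChange ℂ (modularFunctionFieldFull N)),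
      (n : ℤ) ∣ P.ord u) :
    ∃ (g : ↥(modularFunctionFieldBar N)) (w : ↥(laurentBaseChange ℂ (modularFunctionFieldFull N)))
      (c : ℂ), g ≠ 0 ∧ w ≠ 0 ∧ c ≠ 0 ∧
        ff79_bc φ N g =
          algebraMap ℂ ↥(laurentBaseChange ℂ (modularFunctionFieldFull N)) c * (w ^ n * u) ∧
        ∀ P0 : Place Qb ↥(modularFunctionFieldBar N), (n : ℤ) ∣ P0.ord g := by
  have key : ∀ u : ↥(modularFunctionFieldFullC ℂ N), u ≠ 0 →
      (∀ P : Place ℂ ↥(modularFunctionFieldFullC ℂ N), (n : ℤ) ∣ P.ord u) →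
      ∃ (g : ↥(modularFunctionFieldFullC Qb N)) (w : ↥(modularFunctionFieldFullC ℂ N)) (c : ℂ),
        g ≠ 0 ∧ w ≠ 0 ∧ c ≠ 0 ∧
          coeffMap φ (g : LaurentSeries Qb) =
            ((algebraMap ℂ ↥(modularFunctionFieldFullC ℂ N) c * (w ^ n * u) :
              ↥(modularFunctionFieldFullC ℂ N)) : LaurentSeries ℂ) ∧
          ∀ P0 : Place Qb ↥(modularFunctionFieldFullC Qb N), (n : ℤ) ∣ P0.ord g := by
    intro u hu hdiv
    obtain ⟨g, w, c, hg, hw, hc, hgw, hP⟩ := dr86_desc_modular φ N hn hu hdiv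
    exact ⟨g, w, c, hg, hw, hc, congrArg Subtype.val hgw, hP⟩
  have key' : ∀ u : ↥(laurentBaseChange ℂ (modularFunctionFieldFull N)), u ≠ 0 →
      (∀ P : Place ℂ ↥(laurentBaseChange ℂ (modularFunctionFieldFull N)), (n : ℤ) ∣ P.ord u) →
      ∃ (g : ↥(laurentBaseChange Qb (modularFunctionFieldFull N)))
        (w : ↥(laurentBaseChange ℂ (modularFunctionFieldFull N))) (c : ℂ),
        g ≠ 0 ∧ w ≠ 0 ∧ c ≠ 0 ∧
          coeffMap φ (g : LaurentSeries Qb) =
            ((algebraMap ℂ ↥(laurentBaseChange ℂ (modularFunctionFieldFull N)) c * (w ^ n * u) :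
              ↥(laurentBaseChange ℂ (modularFunctionFieldFull N))) : LaurentSeries ℂ) ∧
          ∀ P0 : Place Qb ↥(laurentBaseChange Qb (modularFunctionFieldFull N)),
            (n : ℤ) ∣ P0.ord g := by
    rw [gi41_baseChange_eq ℂ N, gi41_baseChange_eq Qb N]
    exact key
  obtain ⟨g, w, c, hg, hw, hc, hgw, hP⟩ := key' u hu hdiv
  exact ⟨g, w, c, hg, hw, hc, Subtype.ext hgw, hP⟩

/-- **T1 (Kummer descent) in the Prelude vocabulary**: divisibility is needed only at the
non-rational places, i.e. the places whose valuation is trivial on the base change of the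
function field of `JZero N`. -/
theorem ds80_kummer_bc [NeZero N] {n : ℕ} (hn : 0 < n)
    {G : ↥(laurentBaseChange ℂ (modularFunctionFieldFull N))} (hG : G ≠ 0)
    (hdiv : ∀ P : Place ℂ ↥(laurentBaseChange ℂ (modularFunctionFieldFull N)),
      (∀ g : ↥(modularFunctionFieldBar N), g ≠ 0 → P.ord (ff79_bc φ N g) = 0) →
        (n : ℤ) ∣ P.ord G) :
    ∃ (c : ℂ) (w : ↥(laurentBaseChange ℂ (modularFunctionFieldFull N)))
      (g : ↥(modularFunctionFieldBar N)), c ≠ 0 ∧ w ≠ 0 ∧ g ≠ 0 ∧
        G = algebraMap ℂ ↥(laurentBaseChange ℂ (modularFunctionFieldFull N)) c *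
          ff79_bc φ N g * w ^ n := by
  have key : ∀ G : ↥(modularFunctionFieldFullC ℂ N), G ≠ 0 →
      (∀ P : Place ℂ ↥(modularFunctionFieldFullC ℂ N),
        (∀ (g : ↥(modularFunctionFieldFullC Qb N)) (y : ↥(modularFunctionFieldFullC ℂ N)),
          g ≠ 0 → (y : LaurentSeries ℂ) = coeffMap φ (g : LaurentSeries Qb) → P.ord y = 0) →
          (n : ℤ) ∣ P.ord G) →
      ∃ (c : ℂ) (w : ↥(modularFunctionFieldFullC ℂ N)) (g : ↥(modularFunctionFieldFullC Qb N))
        (y : ↥(modularFunctionFieldFullC ℂ N)), c ≠ 0 ∧ w ≠ 0 ∧ g ≠ 0 ∧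
          (y : LaurentSeries ℂ) = coeffMap φ (g : LaurentSeries Qb) ∧
          G = algebraMap ℂ ↥(modularFunctionFieldFullC ℂ N) c * y * w ^ n := by
    intro G hG hdiv
    obtain ⟨c, w, g, hc, hw, hg, hGw⟩ := dr86_kummer_modular φ N hn hG (fun P hP =>
      hdiv P (fun g y hg hy => by
        have hyg : y = ld80_iota φ N g := Subtype.ext hy
        rw [hyg]
        exact hP g hg))
    exact ⟨c, w, g, ld80_iota φ N g, hc, hw, hg, rfl, hGw⟩
  have key' : ∀ G : ↥(laurentBaseChange ℂ (modularFunctionFieldFull N)), G ≠ 0 →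
      (∀ P : Place ℂ ↥(laurentBaseChange ℂ (modularFunctionFieldFull N)),
        (∀ (g : ↥(laurentBaseChange Qb (modularFunctionFieldFull N)))
          (y : ↥(laurentBaseChange ℂ (modularFunctionFieldFull N))),
          g ≠ 0 → (y : LaurentSeries ℂ) = coeffMap φ (g : LaurentSeries Qb) → P.ord y = 0) →
          (n : ℤ) ∣ P.ord G) →
      ∃ (c : ℂ) (w : ↥(laurentBaseChange ℂ (modularFunctionFieldFull N)))
        (g : ↥(laurentBaseChange Qb (modularFunctionFieldFull N)))
        (y : ↥(laurentBaseChange ℂ (modularFunctionFieldFull N))), c ≠ 0 ∧ w ≠ 0 ∧ g ≠ 0 ∧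
          (y : LaurentSeries ℂ) = coeffMap φ (g : LaurentSeries Qb) ∧
          G = algebraMap ℂ ↥(laurentBaseChange ℂ (modularFunctionFieldFull N)) c * y * w ^ n := by
    rw [gi41_baseChange_eq ℂ N, gi41_baseChange_eq Qb N]
    exact key
  obtain ⟨c, w, g, y, hc, hw, hg, hy, hGw⟩ := key' G hG (fun P hP =>
    hdiv P (fun g hg => hP g (ff79_bc φ N g) hg rfl))
  have hyg : y = ff79_bc φ N g := Subtype.ext hy
  exact ⟨c, w, g, hc, hw, hg, hyg ▸ hGw⟩

/-- **T3 (powers descend) in the Prelude vocabulary.** -/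
theorem ds80_pow_descend_bc {n : ℕ} (hn : 0 < n) {g : ↥(modularFunctionFieldBar N)}
    (hg : g ≠ 0) {c : ℂ} {v : ↥(laurentBaseChange ℂ (modularFunctionFieldFull N))}
    (h : ff79_bc φ N g =
      algebraMap ℂ ↥(laurentBaseChange ℂ (modularFunctionFieldFull N)) c * v ^ n) :
    ∃ (c0 : Qb) (v0 : ↥(modularFunctionFieldBar N)),
      g = algebraMap Qb ↥(modularFunctionFieldBar N) c0 * v0 ^ n := by
  have key : ∀ (g : ↥(modularFunctionFieldFullC Qb N)) (v : ↥(modularFunctionFieldFullC ℂ N)),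
      g ≠ 0 → coeffMap φ (g : LaurentSeries Qb) =
        ((algebraMap ℂ ↥(modularFunctionFieldFullC ℂ N) c * v ^ n :
          ↥(modularFunctionFieldFullC ℂ N)) : LaurentSeries ℂ) →
      ∃ (c0 : Qb) (v0 : ↥(modularFunctionFieldFullC Qb N)),
        g = algebraMap Qb ↥(modularFunctionFieldFullC Qb N) c0 * v0 ^ n :=
    fun g v hg h => ds3_pow_descend (ld80_dataBar φ N) hn hg (Subtype.ext h)
  have key' : ∀ (g : ↥(laurentBaseChange Qb (modularFunctionFieldFull N)))
      (v : ↥(laurentBaseChange ℂ (modularFunctionFieldFull N))),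
      g ≠ 0 → coeffMap φ (g : LaurentSeries Qb) =
        ((algebraMap ℂ ↥(laurentBaseChange ℂ (modularFunctionFieldFull N)) c * v ^ n :
          ↥(laurentBaseChange ℂ (modularFunctionFieldFull N))) : LaurentSeries ℂ) →
      ∃ (c0 : Qb) (v0 : ↥(laurentBaseChange Qb (modularFunctionFieldFull N))),
        g = algebraMap Qb ↥(laurentBaseChange Qb (modularFunctionFieldFull N)) c0 * v0 ^ n := by
    rw [gi41_baseChange_eq ℂ N, gi41_baseChange_eq Qb N]
    exact key
  exact key' g v hg (congrArg Subtype.val h)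

/-- **T2 (place extension) in the Prelude vocabulary.** -/
theorem ds80_placeExt_bc [NeZero N] (P0 : Place Qb ↥(modularFunctionFieldBar N)) :
    ∃ P : Place ℂ ↥(laurentBaseChange ℂ (modularFunctionFieldFull N)),
      ∀ g : ↥(modularFunctionFieldBar N), P.ord (ff79_bc φ N g) = P0.ord g := by
  have key : ∀ P0 : Place Qb ↥(modularFunctionFieldFullC Qb N),
      ∃ P : Place ℂ ↥(modularFunctionFieldFullC ℂ N),
        ∀ (g : ↥(modularFunctionFieldFullC Qb N)) (y : ↥(modularFunctionFieldFullC ℂ N)),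
          (y : LaurentSeries ℂ) = coeffMap φ (g : LaurentSeries Qb) → P.ord y = P0.ord g := by
    intro P0
    obtain ⟨P, hP⟩ := dr86_placeExt_modular φ N P0
    refine ⟨P, fun g y hy => ?_⟩
    have hyg : y = ld80_iota φ N g := Subtype.ext hy
    rw [hyg]
    exact hP g
  have key' : ∀ P0 : Place Qb ↥(laurentBaseChange Qb (modularFunctionFieldFull N)),
      ∃ P : Place ℂ ↥(laurentBaseChange ℂ (modularFunctionFieldFull N)),
        ∀ (g : ↥(laurentBaseChange Qb (modularFunctionFieldFull N)))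
          (y : ↥(laurentBaseChange ℂ (modularFunctionFieldFull N))),
          (y : LaurentSeries ℂ) = coeffMap φ (g : LaurentSeries Qb) → P.ord y = P0.ord g := by
    rw [gi41_baseChange_eq ℂ N, gi41_baseChange_eq Qb N]
    exact key
  obtain ⟨P, hP⟩ := key' P0
  exact ⟨P, fun g => hP g (ff79_bc φ N g) rfl⟩

end Transport

end Fermat.Agent.S42
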