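import Fermat.Agent.S42.DescIface3
import Fermat.Agent.S24.PlacesBasic
import Mathlib.Algebra.BigOperators.Finprod

/-!
# S42, descent block (owner: helper3), row D5: the global argument (Kummer descent)

`ds3_kummer_of`: in the setting of `ds3_Data`, given the two local exports `ds3_RatOK` and
`ds3_NonRatOK` (row D3), every `G ∈ Fˣ` all of whose orders at the NON-RATIONAL places are
divisible by `n` is of the form `c · ι g · wⁿ` with `c ∈ Kˣ`, `g ∈ F0ˣ`, `w ∈ Fˣ`.

Proof.  `dk3_mu H` = degree of the non-rational part of `div H`.  Choose `w` with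
`G wⁿ` effective at the non-rational places (`dk3_exists_eff`) and `dk3_mu (G wⁿ)` minimal.
Then every `h` which is regular at the rational places and has `n · div h + div_nr (G wⁿ) ≥ 0`
is constant (`dk3_const_of_min`: otherwise `h - h(R)`, `R` a rational place, lowers the degree).
For an admissible derivation `D`, `D (G wⁿ) / (G wⁿ)` is such an `h`; so it is constant, which
at a non-rational zero of `G wⁿ` contradicts the exact order `-1` given by a derivation moving
the value of `ι x`.  So `G wⁿ` is a unit at all non-rational places, all `D (G wⁿ) / (G wⁿ)` are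
constants and `ds3_Data.eigen` applies.
-/

set_option autoImplicit false
set_option linter.style.haveILetI false
set_option linter.unusedSectionVars false

namespace Fermat.Agent.S42

open AlgebraicCurve IntermediateField
open Fermat.Agent.S24

variable {k0 K F0 F : Type*} [Field k0] [Field K] [Field F0] [Field F]
  [Algebra k0 F0] [Algebra K F]

open Classical in
/-- The degree of the non-rational part of `div H`. -/
noncomputable def dk3_mu (S : ds3_Data k0 K F0 F) (H : F) : ℤ :=
  ∑ᶠ P : Place K F, if ds3_NonRat S P then P.ord H else 0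

theorem dk3_ord_pow (P : Place K F) (f : F) (n : ℕ) : P.ord (f ^ n) = n * P.ord f := by
  rw [← zpow_natCast, Place.ord_zpow]

theorem dk3_ord_div (P : Place K F) {f g : F} (hf : f ≠ 0) (hg : g ≠ 0) :
    P.ord (f / g) = P.ord f - P.ord g := by
  rw [div_eq_mul_inv, P.ord_mul hf (inv_ne_zero hg), P.ord_inv, sub_eq_add_neg]

section ff

variable [IsAlgClosed K] [CharZero K]
variable (S : ds3_Data k0 K F0 F) (y : F) (hy : Transcendental K y) [FiniteDimensional K⟮y⟯ F]

include hy in
open Classical in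
theorem dk3_support_finite {H : F} (hH : H ≠ 0) :
    (Function.support fun P : Place K F => if ds3_NonRat S P then P.ord H else 0).Finite := by
  refine (wp1_finite_ord_ne_zero y hy H hH).subset ?_
  intro P hP
  simp only [Function.mem_support, ne_eq, ite_eq_right_iff, Classical.not_imp] at hP
  exact hP.2

include hy in
theorem dk3_mu_mul {H1 H2 : F} (h1 : H1 ≠ 0) (h2 : H2 ≠ 0) :
    dk3_mu S (H1 * H2) = dk3_mu S H1 + dk3_mu S H2 := by
  classical
  unfold dk3_mu
  rw [← finsum_add_distrib (dk3_support_finite S y hy h1) (dk3_support_finite S y hy h2)]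
  refine finsum_congr fun P => ?_
  split_ifs
  · exact P.ord_mul h1 h2
  · simp

theorem dk3_mu_one : dk3_mu S (1 : F) = 0 := by
  classical
  unfold dk3_mu
  simp

include hy in
theorem dk3_mu_pow {H : F} (hH : H ≠ 0) (n : ℕ) : dk3_mu S (H ^ n) = n * dk3_mu S H := by
  induction n with
  | zero => simp [dk3_mu_one]
  | succ n ih =>
    rw [pow_succ, dk3_mu_mul S y hy (pow_ne_zero n hH) hH, ih]
    push_cast
    ring

theorem dk3_mu_nonneg {H : F} (hH : ∀ P : Place K F, ds3_NonRat S P → 0 ≤ P.ord H) :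
    0 ≤ dk3_mu S H := by
  classical
  unfold dk3_mu
  refine finsum_nonneg fun P => ?_
  split_ifs with h
  · exact hH P h
  · exact le_rfl

include hy in
/-- A function which is regular at the rational places and vanishes at one of them has negative
non-rational degree. -/
theorem dk3_mu_le_neg_one {h : F} (hh : h ≠ 0)
    (hrat : ∀ P : Place K F, ¬ ds3_NonRat S P → 0 ≤ P.ord h)
    (R : Place K F) (hR : ¬ ds3_NonRat S R) (hR1 : 1 ≤ R.ord h) : dk3_mu S h ≤ -1 := by
  classical
  have htot : ∑ᶠ P : Place K F, P.ord h = 0 := by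
    rw [finsum_eq_sum_of_support_subset (fun P : Place K F => P.ord h)
      (s := (wp1_finite_ord_ne_zero y hy h hh).toFinset)
      (by intro P hP; simpa using hP)]
    exact wp1_sum_ord_eq_zero y hy h hh
  have hfin2 : (Function.support fun P : Place K F =>
      if ds3_NonRat S P then 0 else P.ord h).Finite := by
    refine (wp1_finite_ord_ne_zero y hy h hh).subset ?_
    intro P hP
    simp only [Function.mem_support, ne_eq, ite_eq_left_iff, Classical.not_imp] at hP
    exact hP.2
  have hsplit : ∑ᶠ P : Place K F, P.ord h = dk3_mu S h +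
      ∑ᶠ P : Place K F, if ds3_NonRat S P then 0 else P.ord h := by
    unfold dk3_mu
    rw [← finsum_add_distrib (dk3_support_finite S y hy hh) hfin2]
    refine finsum_congr fun P => ?_
    split_ifs <;> simp
  have hge : (1 : ℤ) ≤ ∑ᶠ P : Place K F, if ds3_NonRat S P then 0 else P.ord h := by
    have h1 := single_le_finsum R hfin2 (fun P => by
      show 0 ≤ (if ds3_NonRat S P then 0 else P.ord h)
      split_ifs with hP
      · exact le_rfl
      · exact hrat P hP)
    have h2 : (if ds3_NonRat S R then 0 else R.ord h) = R.ord h := if_neg hR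
    rw [h2] at h1
    exact hR1.trans h1
  rw [htot] at hsplit
  omega

end ff

section main

variable [IsAlgClosed K] [CharZero K]
variable (S : ds3_Data k0 K F0 F) (x : F0)
  (hy : Transcendental K (S.ι x)) [FiniteDimensional K⟮S.ι x⟯ F]

include hy in
theorem dk3_x_ne_zero : x ≠ 0 := by
  rintro rfl
  apply hy
  rw [map_zero]
  exact isAlgebraic_zero

include hy in
/-- There is a rational place (a zero of `ι x`). -/
theorem dk3_exists_rat : ∃ R : Place K F, ¬ ds3_NonRat S R := by
  classical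
  have hsum := wp1_sum_ord_zeros (S.ι x) hy
  have hpos : 0 < Module.finrank K⟮S.ι x⟯ F := Module.finrank_pos
  have hne : (wp1_finite_zeros (S.ι x) hy).toFinset.Nonempty := by
    by_contra hemp
    rw [Finset.not_nonempty_iff_eq_empty] at hemp
    rw [hemp, Finset.sum_empty] at hsum
    have : (0 : ℤ) < (Module.finrank K⟮S.ι x⟯ F : ℤ) := by exact_mod_cast hpos
    omega
  obtain ⟨R, hR⟩ := hne
  rw [Set.Finite.mem_toFinset] at hR
  have hR' : 0 < R.ord (S.ι x) := hR
  refine ⟨R, fun hnr => ?_⟩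
  have := hnr x (dk3_x_ne_zero S x hy)
  omega

include hy in
/-- Auxiliary functions with large order at finitely many non-rational places and non-negative
order at all non-rational places. -/
theorem dk3_exists_large (hN : ds3_NonRatOK S x) (M : ℕ) (B : Finset (Place K F)) :
    ∃ w : F, w ≠ 0 ∧ (∀ Q : Place K F, ds3_NonRat S Q → 0 ≤ Q.ord w) ∧
      ∀ P ∈ B, ds3_NonRat S P → (M : ℤ) ≤ P.ord w := by
  classical
  induction B using Finset.induction_on with
  | empty => exact ⟨1, one_ne_zero, fun Q _ => by simp, fun P hP => by simp at hP⟩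
  | insert P B _ ih =>
    obtain ⟨w, hw0, hwQ, hwB⟩ := ih
    by_cases hP : ds3_NonRat S P
    · obtain ⟨a, -, hpos, -, -⟩ := hN P hP
      set t : F := S.ι x - algebraMap K F a with ht
      have ht0 : t ≠ 0 := by
        intro h0
        rw [h0, Place.ord_zero] at hpos
        exact lt_irrefl _ hpos
      have htQ : ∀ Q : Place K F, ds3_NonRat S Q → 0 ≤ Q.ord t := by
        intro Q hQ
        rw [← wp1_mem_iff_ord_nonneg]
        refine sub_mem ?_ (Q.algebraMap_mem' a)
        rw [wp1_mem_iff_ord_nonneg, hQ x (dk3_x_ne_zero S x hy)]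
      refine ⟨w * t ^ M, mul_ne_zero hw0 (pow_ne_zero _ ht0), ?_, ?_⟩
      · intro Q hQ
        rw [Q.ord_mul hw0 (pow_ne_zero _ ht0), dk3_ord_pow]
        have h1 := hwQ Q hQ
        have h2 := htQ Q hQ
        positivity
      · intro P' hP' hP'nr
        rw [P'.ord_mul hw0 (pow_ne_zero _ ht0), dk3_ord_pow]
        rcases Finset.mem_insert.mp hP' with rfl | hmem
        · have h1 := hwQ P' hP'nr
          have h2 : (M : ℤ) * 1 ≤ (M : ℤ) * P'.ord t :=
            mul_le_mul_of_nonneg_left hpos (by positivity)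
          omega
        · have h1 := hwB P' hmem hP'nr
          have h2 : 0 ≤ (M : ℤ) * P'.ord t := mul_nonneg (by positivity) (htQ P' hP'nr)
          omega
    · refine ⟨w, hw0, hwQ, ?_⟩
      intro P' hP' hP'nr
      rcases Finset.mem_insert.mp hP' with rfl | hmem
      · exact absurd hP'nr hP
      · exact hwB P' hmem hP'nr

include hy in
/-- Step 0: some `G wⁿ` is effective at the non-rational places. -/
theorem dk3_exists_eff (hN : ds3_NonRatOK S x) {n : ℕ} (hn : 0 < n) {G : F} (hG : G ≠ 0) :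
    ∃ w : F, w ≠ 0 ∧ ∀ P : Place K F, ds3_NonRat S P → 0 ≤ P.ord (G * w ^ n) := by
  classical
  set B := (wp1_finite_ord_ne_zero (S.ι x) hy G hG).toFinset with hB
  set M : ℕ := ∑ P ∈ B, (P.ord G).natAbs with hM
  obtain ⟨w, hw0, hwQ, hwB⟩ := dk3_exists_large S x hy hN M B
  refine ⟨w, hw0, fun P hP => ?_⟩
  rw [P.ord_mul hG (pow_ne_zero _ hw0), dk3_ord_pow]
  have h1 := hwQ P hP
  have hn1 : (1 : ℤ) ≤ (n : ℤ) := by exact_mod_cast hn
  have h2 : P.ord w ≤ (n : ℤ) * P.ord w := by nlinarith
  by_cases hmem : P ∈ B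
  · have h3 := hwB P hmem hP
    have h4 : (P.ord G).natAbs ≤ M := by
      rw [hM]
      exact Finset.single_le_sum (f := fun P : Place K F => (P.ord G).natAbs)
        (fun _ _ => Nat.zero_le _) hmem
    have h5 : ((P.ord G).natAbs : ℤ) ≤ (M : ℤ) := by exact_mod_cast h4
    omega
  · have h3 : P.ord G = 0 := by
      by_contra h0
      exact hmem (by rw [hB, Set.Finite.mem_toFinset]; exact h0)
    omega

include hy in
/-- Step A: if `Gw` is effective at the non-rational places with minimal non-rational degree in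
its class modulo `n`-th powers, then `L(E) = K`. -/
theorem dk3_const_of_min {n : ℕ} {Gw : F} (hGw : Gw ≠ 0)
    (hEff : ∀ P : Place K F, ds3_NonRat S P → 0 ≤ P.ord Gw)
    (hmin : ∀ h' : F, h' ≠ 0 → (∀ P : Place K F, ds3_NonRat S P → 0 ≤ P.ord (Gw * h' ^ n)) →
      dk3_mu S Gw ≤ dk3_mu S (Gw * h' ^ n))
    (hn : 0 < n) {h : F} (hh : h ≠ 0)
    (hrat : ∀ P : Place K F, ¬ ds3_NonRat S P → 0 ≤ P.ord h)
    (hnr : ∀ P : Place K F, ds3_NonRat S P → 0 ≤ (n : ℤ) * P.ord h + P.ord Gw) :
    ∃ c : K, h = algebraMap K F c := by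
  by_contra hcon
  push Not at hcon
  obtain ⟨R, hR⟩ := dk3_exists_rat S x hy
  have hmemR : h ∈ R.toValuationSubring := (wp1_mem_iff_ord_nonneg R h).mpr (hrat R hR)
  obtain ⟨c, hc⟩ := wp1_exists_const (S.ι x) hy R h hmemR
  rcases hc with hc | hc
  · exact hcon c hc
  set h' : F := h - algebraMap K F c with hh'
  have hh'0 : h' ≠ 0 := sub_ne_zero.mpr (hcon c)
  have hn0 : (0 : ℤ) ≤ (n : ℤ) := by positivity
  -- rational places
  have hrat' : ∀ P : Place K F, ¬ ds3_NonRat S P → 0 ≤ P.ord h' := by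
    intro P hP
    rw [← wp1_mem_iff_ord_nonneg]
    exact sub_mem ((wp1_mem_iff_ord_nonneg P h).mpr (hrat P hP)) (P.algebraMap_mem' c)
  -- all places: ord h' ≥ min (ord h) 0
  have hmin' : ∀ P : Place K F, min (P.ord h) 0 ≤ P.ord h' := by
    intro P
    by_cases hc0 : c = 0
    · rw [hh', hc0, map_zero, sub_zero]
      exact min_le_left _ _
    · have hc1 : algebraMap K F (-c) ≠ 0 := by
        rw [map_neg]
        exact neg_ne_zero.mpr ((map_ne_zero (algebraMap K F)).mpr hc0)
      have hsum : h + algebraMap K F (-c) ≠ 0 := by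
        rw [map_neg, ← sub_eq_add_neg]
        exact hh'0
      have h1 := wp1_ord_add P h (algebraMap K F (-c)) hsum hh hc1
      rw [wp1_ord_algebraMap, map_neg, ← sub_eq_add_neg] at h1
      exact h1
  have heff' : ∀ P : Place K F, ds3_NonRat S P → 0 ≤ P.ord (Gw * h' ^ n) := by
    intro P hP
    rw [P.ord_mul hGw (pow_ne_zero _ hh'0), dk3_ord_pow]
    have h1 := hmin' P
    have h2 := hnr P hP
    have h3 := hEff P hP
    rcases le_total (P.ord h) 0 with h4 | h4
    · rw [min_eq_left h4] at h1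
      have : (n : ℤ) * P.ord h ≤ (n : ℤ) * P.ord h' := mul_le_mul_of_nonneg_left h1 hn0
      omega
    · rw [min_eq_right h4] at h1
      have : 0 ≤ (n : ℤ) * P.ord h' := mul_nonneg hn0 h1
      omega
  have hle := hmin h' hh'0 heff'
  rw [dk3_mu_mul S (S.ι x) hy hGw (pow_ne_zero _ hh'0), dk3_mu_pow S (S.ι x) hy hh'0] at hle
  have hneg := dk3_mu_le_neg_one S (S.ι x) hy hh'0 hrat' R hR (by omega)
  have hn1 : (1 : ℤ) ≤ (n : ℤ) := by exact_mod_cast hn
  nlinarith

include hy in
/-- **T1 (Kummer descent), from the two local exports of row D3.** -/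
theorem ds3_kummer_of (hR : ds3_RatOK S) (hN : ds3_NonRatOK S x)
    {n : ℕ} (hn : 0 < n) {G : F} (hG : G ≠ 0)
    (hdiv : ∀ P : Place K F, ds3_NonRat S P → (n : ℤ) ∣ P.ord G) :
    ∃ (c : K) (w : F) (g : F0), c ≠ 0 ∧ w ≠ 0 ∧ g ≠ 0 ∧
      G = algebraMap K F c * S.ι g * w ^ n := by
  classical
  -- a minimal effective representative
  have hex : ∃ m : ℕ, ∃ w : F, w ≠ 0 ∧
      (∀ P : Place K F, ds3_NonRat S P → 0 ≤ P.ord (G * w ^ n)) ∧
      (dk3_mu S (G * w ^ n)).toNat = m := by
    obtain ⟨w, hw0, hw⟩ := dk3_exists_eff S x hy hN hn hG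
    exact ⟨_, w, hw0, hw, rfl⟩
  obtain ⟨w, hw0, hEff, hm⟩ := Nat.find_spec hex
  have hminN := fun m hm' => Nat.find_min' hex (m := m) hm'
  set Gw : F := G * w ^ n with hGwdef
  have hGw : Gw ≠ 0 := mul_ne_zero hG (pow_ne_zero _ hw0)
  have hmin : ∀ h' : F, h' ≠ 0 → (∀ P : Place K F, ds3_NonRat S P → 0 ≤ P.ord (Gw * h' ^ n)) →
      dk3_mu S Gw ≤ dk3_mu S (Gw * h' ^ n) := by
    intro h' hh' heff'
    have e : Gw * h' ^ n = G * (w * h') ^ n := by rw [hGwdef, mul_pow, mul_assoc]
    have h1 := hminN _ ⟨w * h', mul_ne_zero hw0 hh', by rw [← e]; exact heff', rfl⟩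
    rw [← hm, ← e] at h1
    have h2 := dk3_mu_nonneg S hEff
    have h3 := dk3_mu_nonneg S heff'
    omega
  have hdivw : ∀ P : Place K F, ds3_NonRat S P → (n : ℤ) ∣ P.ord Gw := by
    intro P hP
    rw [hGwdef, P.ord_mul hG (pow_ne_zero _ hw0), dk3_ord_pow]
    exact dvd_add (hdiv P hP) (dvd_mul_right _ _)
  have hA := fun (h : F) hh hrat hnr =>
    dk3_const_of_min S x hy hGw hEff hmin hn (h := h) hh hrat hnr
  have hn0 : (0 : ℤ) ≤ (n : ℤ) := by positivity
  have hn1 : (1 : ℤ) ≤ (n : ℤ) := by exact_mod_cast hn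
  -- for an admissible `D` with `D Gw ≠ 0`, `D Gw / Gw` is a constant
  have hconst : ∀ D : Derivation ℤ F F, ds3_IsAdm (K := K) S.ι D → D Gw ≠ 0 →
      ∃ c : K, D Gw / Gw = algebraMap K F c := by
    intro D hD hD0
    refine hA (D Gw / Gw) (div_ne_zero hD0 hGw) ?_ ?_
    · intro P hP
      rw [dk3_ord_div P hD0 hGw]
      rcases hR P hP D hD Gw with h0 | h0
      · exact absurd h0 hD0
      · omega
    · intro P hP
      rw [dk3_ord_div P hD0 hGw]
      obtain ⟨a, -, -, hge, -⟩ := hN P hP
      rcases hge D hD Gw with h0 | ⟨h1, h2⟩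
      · exact absurd h0 hD0
      · by_cases hz : P.ord Gw = 0
        · have h3 : 0 ≤ (n : ℤ) * P.ord (D Gw) := mul_nonneg hn0 (h2 hz)
          rw [hz, sub_zero, add_zero]
          exact h3
        · have hpos : 0 < P.ord Gw := lt_of_le_of_ne (hEff P hP) (Ne.symm hz)
          have hle : (n : ℤ) ≤ P.ord Gw := Int.le_of_dvd hpos (hdivw P hP)
          have : (n : ℤ) * (-1) ≤ (n : ℤ) * (P.ord (D Gw) - P.ord Gw) :=
            mul_le_mul_of_nonneg_left (by omega) hn0
          omega
  -- Step B: `Gw` is a unit at every non-rational place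
  have hzero : ∀ P : Place K F, ds3_NonRat S P → P.ord Gw = 0 := by
    intro P hP
    by_contra hne
    obtain ⟨a, ha, -, -, heq⟩ := hN P hP
    obtain ⟨D, hD, hDa⟩ := S.exists_adm a ha
    obtain ⟨hD0, hord⟩ := heq D hD hDa Gw hGw hne
    obtain ⟨c, hc⟩ := hconst D hD hD0
    have h1 : P.ord (D Gw / Gw) = 0 := by rw [hc, wp1_ord_algebraMap]
    rw [dk3_ord_div P hD0 hGw, hord] at h1
    omega
  -- Step C: `Gw` is a common eigenvector
  obtain ⟨c, g, hcg⟩ := S.eigen Gw hGw (by
    intro D hD
    by_cases hD0 : D Gw = 0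
    · exact ⟨0, by rw [hD0, map_zero, zero_mul]⟩
    · obtain ⟨c, hc⟩ := hconst D hD hD0
      exact ⟨c, by rw [← hc, div_mul_cancel₀ _ hGw]⟩)
  have hc0 : c ≠ 0 := by
    rintro rfl
    rw [map_zero, zero_mul] at hcg
    exact hGw hcg
  have hg0 : g ≠ 0 := by
    rintro rfl
    rw [map_zero, mul_zero] at hcg
    exact hGw hcg
  refine ⟨c, w⁻¹, g, hc0, inv_ne_zero hw0, hg0, ?_⟩
  rw [← hcg, hGwdef, inv_pow, mul_assoc, mul_inv_cancel₀ (pow_ne_zero _ hw0), mul_one]

end main

end Fermat.Agent.S42
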