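import Fermat.Agent.S42.LaurentEigen80
import Fermat.Agent.S42.DescFinal86
import Fermat.Agent.S42.DescKummer3
import Fermat.Agent.S42.DescPow3
import Fermat.Agent.S18.RElimJ29

/-!
# S42, seam (G-DESC) (helper80): the descent block instantiated at the modular function fields

For an arbitrary ring homomorphism `φ : ℚ̄ →+* ℂ` and the datum `ld80_dataBar φ N`
(`F0 = modularFunctionFieldFullC ℚ̄ N`, `F = modularFunctionFieldFullC ℂ N`, `ι = coeffMap φ`),
with `x = J`:

* `ds80_iota_J`, `ds80_transcendental`, `ds80_finite` : the function-field hypotheses of the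
  descent block (`relimc_J_transcendental`, `relimc_finite` of S18).
* `ds80_kummer` : T1 (`ds3_kummer_of`), modulo the local exports `ds3_RatOK`, `ds3_NonRatOK` of
  row D3.
* `ds80_desc` : (DESC) (`dr86_desc`), modulo D3 and the place extension T2.
* `ds80_pow_descend` : T3 (`ds3_pow_descend`), no hypothesis.
* `ds80_desc_bar`, `ds80_pow_descend_bar` : the same in the vocabulary of
  `modularFunctionFieldBar N`, the function field of `JZero N` (`cx_bar_eq_fullC`).
-/

set_option autoImplicit false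
set_option linter.style.haveILetI false

namespace Fermat.Agent.S42

open HahnSeries ModularCurve IntermediateField AlgebraicCurve Fermat.Agent.S18

local notation "Qb" => AlgebraicClosure ℚ

section Inst

variable (φ : Qb →+* ℂ) (N : ℕ)

/-- The base change of `J` is `J`. -/
theorem ds80_iota_J : ld80_iota φ N (relimc_J Qb N) = relimc_J ℂ N :=
  Subtype.ext (coeffMap_jqModC φ)

theorem ds80_data_iota_J : (ld80_dataBar φ N).ι (relimc_J Qb N) = relimc_J ℂ N :=
  ds80_iota_J φ N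

/-- `ι J` is transcendental over `ℂ`. -/
theorem ds80_transcendental : Transcendental ℂ ((ld80_dataBar φ N).ι (relimc_J Qb N)) := by
  rw [ds80_data_iota_J]
  exact relimc_J_transcendental ℂ N

/-- `F(N)_ℂ` is finite over `ℂ(ι J)`. -/
theorem ds80_finite [NeZero N] :
    FiniteDimensional ℂ⟮(ld80_dataBar φ N).ι (relimc_J Qb N)⟯
      ↥(modularFunctionFieldFullC ℂ N) := by
  rw [ds80_data_iota_J]
  exact relimc_finite ℂ N

variable [NeZero N]

/-- **T1 (Kummer descent) for the modular function fields `F(N)_ℚ̄ ⊆ F(N)_ℂ`**, modulo the two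
local exports of row D3 at the datum `ld80_dataBar φ N`. -/
theorem ds80_kummer
    (hR : ds3_RatOK (ld80_dataBar φ N))
    (hN : ds3_NonRatOK (ld80_dataBar φ N) (relimc_J Qb N))
    {n : ℕ} (hn : 0 < n) {G : ↥(modularFunctionFieldFullC ℂ N)} (hG : G ≠ 0)
    (hdiv : ∀ P : Place ℂ ↥(modularFunctionFieldFullC ℂ N),
      ds3_NonRat (ld80_dataBar φ N) P → (n : ℤ) ∣ P.ord G) :
    ∃ (c : ℂ) (w : ↥(modularFunctionFieldFullC ℂ N)) (g : ↥(modularFunctionFieldFullC Qb N)),
      c ≠ 0 ∧ w ≠ 0 ∧ g ≠ 0 ∧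
        G = algebraMap ℂ ↥(modularFunctionFieldFullC ℂ N) c * ld80_iota φ N g * w ^ n := by
  haveI := ds80_finite φ N
  exact ds3_kummer_of (ld80_dataBar φ N) (relimc_J Qb N) (ds80_transcendental φ N) hR hN hn hG hdiv

/-- **(DESC) for the modular function fields**, modulo D3 (`hR`, `hN`) and the place extension
`T2` (`hT2`). -/
theorem ds80_desc
    (hR : ds3_RatOK (ld80_dataBar φ N))
    (hN : ds3_NonRatOK (ld80_dataBar φ N) (relimc_J Qb N))
    (hT2 : ∀ P0 : Place Qb ↥(modularFunctionFieldFullC Qb N),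
      ∃ P : Place ℂ ↥(modularFunctionFieldFullC ℂ N),
        ∀ g : ↥(modularFunctionFieldFullC Qb N), P.ord (ld80_iota φ N g) = P0.ord g)
    {n : ℕ} (hn : 0 < n) {u : ↥(modularFunctionFieldFullC ℂ N)} (hu : u ≠ 0)
    (hdiv : ∀ P : Place ℂ ↥(modularFunctionFieldFullC ℂ N), (n : ℤ) ∣ P.ord u) :
    ∃ (g : ↥(modularFunctionFieldFullC Qb N)) (w : ↥(modularFunctionFieldFullC ℂ N)) (c : ℂ),
      g ≠ 0 ∧ w ≠ 0 ∧ c ≠ 0 ∧
        ld80_iota φ N g = algebraMap ℂ ↥(modularFunctionFieldFullC ℂ N) c * (w ^ n * u) ∧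
        ∀ P0 : Place Qb ↥(modularFunctionFieldFullC Qb N), (n : ℤ) ∣ P0.ord g := by
  haveI := ds80_finite φ N
  exact dr86_desc (ld80_dataBar φ N) (relimc_J Qb N) (ds80_transcendental φ N) hR hN hT2 hn hu hdiv

omit [NeZero N] in
/-- **T3 (powers descend) for the modular function fields.** -/
theorem ds80_pow_descend {n : ℕ} (hn : 0 < n) {g : ↥(modularFunctionFieldFullC Qb N)}
    (hg : g ≠ 0) {c : ℂ} {v : ↥(modularFunctionFieldFullC ℂ N)}
    (h : ld80_iota φ N g = algebraMap ℂ ↥(modularFunctionFieldFullC ℂ N) c * v ^ n) :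
    ∃ (c0 : Qb) (v0 : ↥(modularFunctionFieldFullC Qb N)),
      g = algebraMap Qb ↥(modularFunctionFieldFullC Qb N) c0 * v0 ^ n :=
  ds3_pow_descend (ld80_dataBar φ N) hn hg h

/-- **(DESC) in the vocabulary of `modularFunctionFieldBar N`** (the function field of `JZero N`):
the base change is expressed on underlying Laurent series, `coeffMap φ g`. -/
theorem ds80_desc_bar
    (hR : ds3_RatOK (ld80_dataBar φ N))
    (hN : ds3_NonRatOK (ld80_dataBar φ N) (relimc_J Qb N))
    (hT2 : ∀ P0 : Place Qb ↥(modularFunctionFieldFullC Qb N),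
      ∃ P : Place ℂ ↥(modularFunctionFieldFullC ℂ N),
        ∀ g : ↥(modularFunctionFieldFullC Qb N), P.ord (ld80_iota φ N g) = P0.ord g)
    {n : ℕ} (hn : 0 < n) {u : ↥(modularFunctionFieldFullC ℂ N)} (hu : u ≠ 0)
    (hdiv : ∀ P : Place ℂ ↥(modularFunctionFieldFullC ℂ N), (n : ℤ) ∣ P.ord u) :
    ∃ (g : ↥(modularFunctionFieldBar N)) (w : ↥(modularFunctionFieldFullC ℂ N)) (c : ℂ),
      g ≠ 0 ∧ w ≠ 0 ∧ c ≠ 0 ∧
        coeffMap φ (g : LaurentSeries Qb) =
          ((algebraMap ℂ ↥(modularFunctionFieldFullC ℂ N) c * (w ^ n * u) :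
            ↥(modularFunctionFieldFullC ℂ N)) : LaurentSeries ℂ) ∧
        ∀ P0 : Place Qb ↥(modularFunctionFieldBar N), (n : ℤ) ∣ P0.ord g := by
  obtain ⟨g, w, c, hg, hw, hc, hgw, hP⟩ := ds80_desc φ N hR hN hT2 hn hu hdiv
  have key : ∃ (g : ↥(modularFunctionFieldFullC Qb N)) (w : ↥(modularFunctionFieldFullC ℂ N))
      (c : ℂ), g ≠ 0 ∧ w ≠ 0 ∧ c ≠ 0 ∧
        coeffMap φ (g : LaurentSeries Qb) =
          ((algebraMap ℂ ↥(modularFunctionFieldFullC ℂ N) c * (w ^ n * u) :
            ↥(modularFunctionFieldFullC ℂ N)) : LaurentSeries ℂ) ∧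
        ∀ P0 : Place Qb ↥(modularFunctionFieldFullC Qb N), (n : ℤ) ∣ P0.ord g :=
    ⟨g, w, c, hg, hw, hc, congrArg Subtype.val hgw, hP⟩
  rw [cx_bar_eq_fullC]
  exact key

omit [NeZero N] in
/-- **T3 in the vocabulary of `modularFunctionFieldBar N`.** -/
theorem ds80_pow_descend_bar {n : ℕ} (hn : 0 < n) {g : ↥(modularFunctionFieldBar N)}
    (hg : g ≠ 0) {c : ℂ} {v : ↥(modularFunctionFieldFullC ℂ N)}
    (h : coeffMap φ (g : LaurentSeries Qb) =
      ((algebraMap ℂ ↥(modularFunctionFieldFullC ℂ N) c * v ^ n :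
        ↥(modularFunctionFieldFullC ℂ N)) : LaurentSeries ℂ)) :
    ∃ (c0 : Qb) (v0 : ↥(modularFunctionFieldBar N)),
      g = algebraMap Qb ↥(modularFunctionFieldBar N) c0 * v0 ^ n := by
  have key : ∀ g : ↥(modularFunctionFieldFullC Qb N), g ≠ 0 →
      coeffMap φ (g : LaurentSeries Qb) =
        ((algebraMap ℂ ↥(modularFunctionFieldFullC ℂ N) c * v ^ n :
          ↥(modularFunctionFieldFullC ℂ N)) : LaurentSeries ℂ) →
      ∃ (c0 : Qb) (v0 : ↥(modularFunctionFieldFullC Qb N)),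
        g = algebraMap Qb ↥(modularFunctionFieldFullC Qb N) c0 * v0 ^ n :=
    fun g hg h => ds80_pow_descend φ N hn hg (Subtype.ext h)
  revert g
  rw [cx_bar_eq_fullC]
  intro g hg h
  exact key g hg h

end Inst

end Fermat.Agent.S42
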