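import Fermat.Agent.S42.LaurentDeriv80
import Fermat.Agent.S42.LaurentInter56
import Fermat.Agent.S42.DerivC16

/-!
# S42, descent block (helper80): the field `eigen` of `ds3_Data` and the datum, modulo the
intersection lemma

* `ld80_exists_coeffMap` : a Laurent series over `K` all of whose coefficients lie in `φ k0` is
  `coeffMap φ x`.
* `ld80_eigen` : a common eigenvector in `F(N)_K` of all admissible derivations is `c · ι g`,
  given `hrange` (the elements of `K` killed by all derivations over `φ k0` lie in `φ k0`) and
  the intersection lemma `hinter` (`coeffMap φ x ∈ F(N)_K → x ∈ F(N)_{k0}`).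
* `ld80_data` : the datum `ds3_Data k0 K F(N)_{k0} F(N)_K`.
* `ld80_dataBar` : the same datum for `k0 = ℚ̄` and any field `K` of characteristic zero, with
  no hypothesis left.
-/

set_option autoImplicit false

namespace Fermat.Agent.S42

open HahnSeries ModularCurve IntermediateField AlgebraicCurve Fermat.Agent.S18

section Eigen

variable {k0 K : Type*} [Field k0] [Field K] (φ : k0 →+* K) (N : ℕ)

/-- A Laurent series all of whose coefficients lie in the image of `φ` is a `coeffMap φ`. -/
theorem ld80_exists_coeffMap (y : LaurentSeries K)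
    (hy : ∀ n, y.coeff n ∈ Set.range φ) : ∃ x : LaurentSeries k0, coeffMap φ x = y := by
  choose a ha using hy
  have hsupp : Function.support a ⊆ y.support := by
    intro n hn
    rw [HahnSeries.mem_support]
    intro h0
    apply hn
    have h1 : φ (a n) = 0 := by rw [ha, h0]
    exact (map_eq_zero φ).mp h1
  refine ⟨⟨a, y.isPWO_support.mono hsupp⟩, ?_⟩
  ext n
  rw [coeffMap_coeff]
  exact ha n

/-- **The field `eigen` of `ds3_Data`** for the modular function fields, modulo the
intersection lemma. -/
theorem ld80_eigen
    (hrange : ∀ a : K, (∀ d : Derivation ℤ K K, (∀ c, d (φ c) = 0) → d a = 0) →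
      a ∈ Set.range φ)
    (hinter : ∀ x : LaurentSeries k0, coeffMap φ x ∈ modularFunctionFieldFullC K N →
      x ∈ modularFunctionFieldFullC k0 N) :
    ∀ f : ↥(modularFunctionFieldFullC K N), f ≠ 0 →
      (∀ D : Derivation ℤ ↥(modularFunctionFieldFullC K N) ↥(modularFunctionFieldFullC K N),
        ds3_IsAdm (K := K) (ld80_iota φ N) D →
          ∃ lam : K, D f = algebraMap K ↥(modularFunctionFieldFullC K N) lam * f) →
      ∃ (c : K) (g : ↥(modularFunctionFieldFullC k0 N)),
        f = algebraMap K ↥(modularFunctionFieldFullC K N) c * ld80_iota φ N g := by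
  intro f hf heig
  have hf' : (f : LaurentSeries K) ≠ 0 := fun h => hf (Subtype.ext h)
  set n0 := (f : LaurentSeries K).order with hn0
  set c := (f : LaurentSeries K).coeff n0 with hc
  have hc0 : c ≠ 0 := fun h => hf' (HahnSeries.coeff_order_eq_zero.mp h)
  -- the coefficients of `c⁻¹ f` are killed by all derivations over `φ k0`
  have hkill : ∀ n, c⁻¹ * (f : LaurentSeries K).coeff n ∈ Set.range φ := by
    intro n
    apply hrange
    intro d hd
    obtain ⟨lam, hlam⟩ := heig (ld80_DF d N) (ld80_isAdm φ N d hd)
    have hcoef : ∀ m, d ((f : LaurentSeries K).coeff m) = lam * (f : LaurentSeries K).coeff m := by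
      intro m
      have h1 := congrArg (fun z : ↥(modularFunctionFieldFullC K N) =>
        (z : LaurentSeries K).coeff m) hlam
      simp only [ld80_DF_coe, ld80_D_coeff] at h1
      rw [h1]
      show ((algebraMap K (LaurentSeries K) lam) * (f : LaurentSeries K)).coeff m = _
      rw [algebraMap_laurentSeries_eq_single, HahnSeries.coeff_single_zero_mul]
    have hdc : d c = lam * c := hcoef n0
    rw [Derivation.leibniz, Derivation.leibniz_inv, hcoef n, hdc, smul_eq_mul, smul_eq_mul,
      smul_eq_mul]
    field_simp
    ring
  obtain ⟨x, hx⟩ := ld80_exists_coeffMap φ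
    (algebraMap K (LaurentSeries K) c⁻¹ * (f : LaurentSeries K)) (fun n => by
      rw [algebraMap_laurentSeries_eq_single, HahnSeries.coeff_single_zero_mul]
      exact hkill n)
  have hxF : x ∈ modularFunctionFieldFullC k0 N := by
    apply hinter
    rw [hx]
    exact mul_mem (IntermediateField.algebraMap_mem _ _) f.2
  refine ⟨c, ⟨x, hxF⟩, Subtype.ext ?_⟩
  show (f : LaurentSeries K) = algebraMap K (LaurentSeries K) c * coeffMap φ x
  rw [hx, ← mul_assoc, ← map_mul, mul_inv_cancel₀ hc0, map_one, one_mul]

/-- **The constant-extension datum of the descent block for the modular function fields.** -/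
noncomputable def ld80_data
    (hder : ∀ a : K, a ∉ Set.range φ →
      ∃ d : Derivation ℤ K K, (∀ c, d (φ c) = 0) ∧ d a ≠ 0)
    (hinter : ∀ x : LaurentSeries k0, coeffMap φ x ∈ modularFunctionFieldFullC K N →
      x ∈ modularFunctionFieldFullC k0 N) :
    ds3_Data k0 K ↥(modularFunctionFieldFullC k0 N) ↥(modularFunctionFieldFullC K N) where
  φ := φ
  ι := ld80_iota φ N
  ι_algebraMap := ld80_iota_algebraMap φ N
  gen := ld80_gen φ N
  exists_adm := ld80_exists_adm φ N hder
  eigen := ld80_eigen φ N (fun a ha => by
    by_contra hna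
    obtain ⟨d, hd, hda⟩ := hder a hna
    exact hda (ha d hd)) hinter
  const := ld80_const φ N

@[simp]
theorem ld80_data_φ (hder) (hinter) : (ld80_data φ N hder hinter).φ = φ := rfl

@[simp]
theorem ld80_data_ι (hder) (hinter) : (ld80_data φ N hder hinter).ι = ld80_iota φ N := rfl

end Eigen

section Bar

variable {K : Type*} [Field K] [CharZero K] (φ : AlgebraicClosure ℚ →+* K) (N : ℕ)

/-- **The constant-extension datum for `ℚ̄ ⊆ K`** (`K` any field of characteristic zero, e.g.
`ℂ`) and the modular function fields of level `N`, with no hypothesis left: derivations from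
`dc16_exists_adm_ne` (helper16), intersection lemma `li56_inter` (helper56). -/
noncomputable def ld80_dataBar :
    ds3_Data (AlgebraicClosure ℚ) K ↥(modularFunctionFieldFullC (AlgebraicClosure ℚ) N)
      ↥(modularFunctionFieldFullC K N) :=
  ld80_data φ N (dc16_exists_adm_ne φ) (li56_inter φ N)

@[simp]
theorem ld80_dataBar_φ : (ld80_dataBar φ N).φ = φ := rfl

@[simp]
theorem ld80_dataBar_ι : (ld80_dataBar φ N).ι = ld80_iota φ N := rfl

theorem ld80_dataBar_ι_coe (g : ↥(modularFunctionFieldFullC (AlgebraicClosure ℚ) N)) :
    (((ld80_dataBar φ N).ι g : ↥(modularFunctionFieldFullC K N)) : LaurentSeries K) =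
      coeffMap φ (g : LaurentSeries (AlgebraicClosure ℚ)) := rfl

end Bar

end Fermat.Agent.S42
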