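import Fermat.Agent.S42.DescFinal86
import Fermat.Agent.S42.LocalDerC29
import Fermat.Agent.S42.PlaceBC84
import Fermat.Agent.S42.LaurentEigen80
import Fermat.Agent.S18.RElimJ29

/-!
# (G-DESC): the descent statement (DESC) for the modular function fields, no hypothesis left

For every ring homomorphism `φ : ℚ̄ → K` into an algebraically closed field of characteristic
zero (`K = ℂ` is the use case) and every level `N ≠ 0`: if `u ≠ 0` in
`modularFunctionFieldFullC K N` has `n ∣ ord_P u` at every place `P`, then there are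
`g ∈ modularFunctionFieldFullC ℚ̄ N`, `w`, `c` with `ι g = c * (w ^ n * u)` and `n ∣ ord_{P0} g`
at every place `P0` of the `ℚ̄`-field (`ι` = coefficientwise `φ`).

Glue of: `dr86_desc` (generic (DESC)), `ld29_ratOK` / `ld29_nonRatOK` (row D3),
`pb84_extend_ds` + `pb84_linDisj_coeffMap` (T2), `ld80_dataBar` (the datum, rows D1/D2),
`relimc_J_transcendental` / `relimc_finite` (S18).
-/

open AlgebraicCurve IntermediateField ModularCurve

namespace Fermat.Agent.S42

open Fermat.Agent.S18

variable {K : Type} [Field K] [IsAlgClosed K] [CharZero K] (φ : AlgebraicClosure ℚ →+* K)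
  (N : ℕ)

omit [IsAlgClosed K] in
/-- The base change of `j` is `j`. -/
theorem dr86_iota_J :
    (ld80_dataBar φ N).ι (relimc_J (AlgebraicClosure ℚ) N) = relimc_J K N := by
  apply Subtype.ext
  rw [ld80_dataBar_ι_coe]
  exact coeffMap_jqModC φ

/-- **T1 for the modular function fields** (Kummer descent): divisibility is needed only at the
non-rational places. -/
theorem dr86_kummer_modular [NeZero N] {n : ℕ} (hn : 0 < n)
    {G : ↥(modularFunctionFieldFullC K N)} (hG : G ≠ 0)
    (hdiv : ∀ P : Place K ↥(modularFunctionFieldFullC K N),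
      ds3_NonRat (ld80_dataBar φ N) P → (n : ℤ) ∣ P.ord G) :
    ∃ (c : K) (w : ↥(modularFunctionFieldFullC K N))
      (g : ↥(modularFunctionFieldFullC (AlgebraicClosure ℚ) N)), c ≠ 0 ∧ w ≠ 0 ∧ g ≠ 0 ∧
      G = algebraMap K ↥(modularFunctionFieldFullC K N) c * ld80_iota φ N g * w ^ n := by
  have hx : Transcendental (AlgebraicClosure ℚ) (relimc_J (AlgebraicClosure ℚ) N) :=
    relimc_J_transcendental (AlgebraicClosure ℚ) N
  have : FiniteDimensional (AlgebraicClosure ℚ)⟮relimc_J (AlgebraicClosure ℚ) N⟯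
      ↥(modularFunctionFieldFullC (AlgebraicClosure ℚ) N) := relimc_finite (AlgebraicClosure ℚ) N
  have hy : Transcendental K ((ld80_dataBar φ N).ι (relimc_J (AlgebraicClosure ℚ) N)) := by
    rw [dr86_iota_J]
    exact relimc_J_transcendental K N
  have : FiniteDimensional K⟮(ld80_dataBar φ N).ι (relimc_J (AlgebraicClosure ℚ) N)⟯
      ↥(modularFunctionFieldFullC K N) := by
    rw [dr86_iota_J]
    exact relimc_finite K N
  exact dr86_kummer_OK (ld80_dataBar φ N) (relimc_J (AlgebraicClosure ℚ) N) hy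
    (ld29_ratOK _ _ hx) (ld29_nonRatOK _ _ hx hy) hn hG hdiv

/-- **T2 for the modular function fields**: every place of the `ℚ̄`-field extends with the
same orders. -/
theorem dr86_placeExt_modular [NeZero N]
    (P0 : Place (AlgebraicClosure ℚ) ↥(modularFunctionFieldFullC (AlgebraicClosure ℚ) N)) :
    ∃ P : Place K ↥(modularFunctionFieldFullC K N),
      ∀ g : ↥(modularFunctionFieldFullC (AlgebraicClosure ℚ) N),
        P.ord (ld80_iota φ N g) = P0.ord g := by
  have hx : Transcendental (AlgebraicClosure ℚ) (relimc_J (AlgebraicClosure ℚ) N) :=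
    relimc_J_transcendental (AlgebraicClosure ℚ) N
  have : FiniteDimensional (AlgebraicClosure ℚ)⟮relimc_J (AlgebraicClosure ℚ) N⟯
      ↥(modularFunctionFieldFullC (AlgebraicClosure ℚ) N) := relimc_finite (AlgebraicClosure ℚ) N
  have hy : Transcendental K ((ld80_dataBar φ N).ι (relimc_J (AlgebraicClosure ℚ) N)) := by
    rw [dr86_iota_J]
    exact relimc_J_transcendental K N
  have : FiniteDimensional K⟮(ld80_dataBar φ N).ι (relimc_J (AlgebraicClosure ℚ) N)⟯
      ↥(modularFunctionFieldFullC K N) := by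
    rw [dr86_iota_J]
    exact relimc_finite K N
  exact pb84_extend_ds (ld80_dataBar φ N)
    (pb84_linDisj_coeffMap φ _ _ _ (ld80_dataBar_ι_coe φ N))
    (relimc_J (AlgebraicClosure ℚ) N) hx hy P0

/-- **(G-DESC): the descent statement for the modular function fields.** -/
theorem dr86_desc_modular [NeZero N] {n : ℕ} (hn : 0 < n)
    {u : ↥(modularFunctionFieldFullC K N)} (hu : u ≠ 0)
    (hdiv : ∀ P : Place K ↥(modularFunctionFieldFullC K N), (n : ℤ) ∣ P.ord u) :
    ∃ (g : ↥(modularFunctionFieldFullC (AlgebraicClosure ℚ) N))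
      (w : ↥(modularFunctionFieldFullC K N)) (c : K), g ≠ 0 ∧ w ≠ 0 ∧ c ≠ 0 ∧
      ld80_iota φ N g = algebraMap K ↥(modularFunctionFieldFullC K N) c * (w ^ n * u) ∧
      ∀ P0 : Place (AlgebraicClosure ℚ) ↥(modularFunctionFieldFullC (AlgebraicClosure ℚ) N),
        (n : ℤ) ∣ P0.ord g := by
  have hx : Transcendental (AlgebraicClosure ℚ) (relimc_J (AlgebraicClosure ℚ) N) :=
    relimc_J_transcendental (AlgebraicClosure ℚ) N
  have : FiniteDimensional (AlgebraicClosure ℚ)⟮relimc_J (AlgebraicClosure ℚ) N⟯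
      ↥(modularFunctionFieldFullC (AlgebraicClosure ℚ) N) := relimc_finite (AlgebraicClosure ℚ) N
  have hy : Transcendental K ((ld80_dataBar φ N).ι (relimc_J (AlgebraicClosure ℚ) N)) := by
    rw [dr86_iota_J]
    exact relimc_J_transcendental K N
  have : FiniteDimensional K⟮(ld80_dataBar φ N).ι (relimc_J (AlgebraicClosure ℚ) N)⟯
      ↥(modularFunctionFieldFullC K N) := by
    rw [dr86_iota_J]
    exact relimc_finite K N
  exact dr86_desc (ld80_dataBar φ N) (relimc_J (AlgebraicClosure ℚ) N) hy
    (ld29_ratOK _ _ hx) (ld29_nonRatOK _ _ hx hy)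
    (fun P0 => dr86_placeExt_modular φ N P0) hn hu hdiv

end Fermat.Agent.S42
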