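import Fermat.Agent.S42.DescInst86

/-!
# (G-DESC) in the `modularFunctionFieldBar` form

`JZero N = Pic0 ℚ̄ (modularFunctionFieldBar N)`, while the descent block works with
`modularFunctionFieldFullC ℚ̄ N`; the two intermediate fields are equal (`cx_bar_eq_fullC`).
Here the statements of `DescInst86` are transported to `modularFunctionFieldBar N`, with the
base change expressed coefficientwise (`coeffMap φ`) so that no choice of a base-change
homomorphism is built into the statement.
-/

open AlgebraicCurve IntermediateField ModularCurve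

namespace Fermat.Agent.S42

open Fermat.Agent.S18

variable {K : Type} [Field K] [IsAlgClosed K] [CharZero K] (φ : AlgebraicClosure ℚ →+* K)
  (N : ℕ)

/-- **(G-DESC), `modularFunctionFieldBar` form.** If `u ≠ 0` in `modularFunctionFieldFullC K N`
has `n ∣ ord_P u` at every place, then there are `g ∈ modularFunctionFieldBar N`, `w`, `c` with
`coeffMap φ g = c * (w ^ n * u)` (as Laurent series) and `n ∣ ord_{P0} g` at every place `P0` of
`modularFunctionFieldBar N`. -/
theorem dr86_desc_bar [NeZero N] {n : ℕ} (hn : 0 < n)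
    {u : ↥(modularFunctionFieldFullC K N)} (hu : u ≠ 0)
    (hdiv : ∀ P : Place K ↥(modularFunctionFieldFullC K N), (n : ℤ) ∣ P.ord u) :
    ∃ (g : ↥(modularFunctionFieldBar N)) (w : ↥(modularFunctionFieldFullC K N)) (c : K),
      g ≠ 0 ∧ w ≠ 0 ∧ c ≠ 0 ∧
      coeffMap φ (g : LaurentSeries (AlgebraicClosure ℚ)) =
        ((algebraMap K ↥(modularFunctionFieldFullC K N) c * (w ^ n * u) :
          ↥(modularFunctionFieldFullC K N)) : LaurentSeries K) ∧
      ∀ P0 : Place (AlgebraicClosure ℚ) ↥(modularFunctionFieldBar N), (n : ℤ) ∣ P0.ord g := by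
  have key : ∀ F0 : IntermediateField (AlgebraicClosure ℚ) (LaurentSeries (AlgebraicClosure ℚ)),
      F0 = modularFunctionFieldFullC (AlgebraicClosure ℚ) N →
      ∃ (g : ↥F0) (w : ↥(modularFunctionFieldFullC K N)) (c : K),
        g ≠ 0 ∧ w ≠ 0 ∧ c ≠ 0 ∧
        coeffMap φ (g : LaurentSeries (AlgebraicClosure ℚ)) =
          ((algebraMap K ↥(modularFunctionFieldFullC K N) c * (w ^ n * u) :
            ↥(modularFunctionFieldFullC K N)) : LaurentSeries K) ∧
        ∀ P0 : Place (AlgebraicClosure ℚ) ↥F0, (n : ℤ) ∣ P0.ord g := by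
    rintro _ rfl
    obtain ⟨g, w, c, hg, hw, hc, hι, hP0⟩ := dr86_desc_modular φ N hn hu hdiv
    refine ⟨g, w, c, hg, hw, hc, ?_, hP0⟩
    rw [← hι]
    rfl
  exact key _ (cx_bar_eq_fullC N)

/-- **T1 (Kummer descent), `modularFunctionFieldBar` form**: divisibility is needed only at
the non-rational places. -/
theorem dr86_kummer_bar [NeZero N] {n : ℕ} (hn : 0 < n)
    {G : ↥(modularFunctionFieldFullC K N)} (hG : G ≠ 0)
    (hdiv : ∀ P : Place K ↥(modularFunctionFieldFullC K N),
      ds3_NonRat (ld80_dataBar φ N) P → (n : ℤ) ∣ P.ord G) :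
    ∃ (c : K) (w g' : ↥(modularFunctionFieldFullC K N)) (g : ↥(modularFunctionFieldBar N)),
      c ≠ 0 ∧ w ≠ 0 ∧ g ≠ 0 ∧
      (g' : LaurentSeries K) = coeffMap φ (g : LaurentSeries (AlgebraicClosure ℚ)) ∧
      G = algebraMap K ↥(modularFunctionFieldFullC K N) c * g' * w ^ n := by
  have key : ∀ F0 : IntermediateField (AlgebraicClosure ℚ) (LaurentSeries (AlgebraicClosure ℚ)),
      F0 = modularFunctionFieldFullC (AlgebraicClosure ℚ) N →
      ∃ (c : K) (w g' : ↥(modularFunctionFieldFullC K N)) (g : ↥F0),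
        c ≠ 0 ∧ w ≠ 0 ∧ g ≠ 0 ∧
        (g' : LaurentSeries K) = coeffMap φ (g : LaurentSeries (AlgebraicClosure ℚ)) ∧
        G = algebraMap K ↥(modularFunctionFieldFullC K N) c * g' * w ^ n := by
    rintro _ rfl
    obtain ⟨c, w, g, hc, hw, hg, hG'⟩ := dr86_kummer_modular φ N hn hG hdiv
    exact ⟨c, w, ld80_iota φ N g, g, hc, hw, hg, rfl, hG'⟩
  exact key _ (cx_bar_eq_fullC N)

/-- **T2 (place extension), `modularFunctionFieldBar` form.** -/
theorem dr86_placeExt_bar [NeZero N]
    (P0 : Place (AlgebraicClosure ℚ) ↥(modularFunctionFieldBar N)) :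
    ∃ P : Place K ↥(modularFunctionFieldFullC K N),
      ∀ (g : ↥(modularFunctionFieldBar N)) (g' : ↥(modularFunctionFieldFullC K N)),
        (g' : LaurentSeries K) = coeffMap φ (g : LaurentSeries (AlgebraicClosure ℚ)) →
        P.ord g' = P0.ord g := by
  have key : ∀ (F0 : IntermediateField (AlgebraicClosure ℚ) (LaurentSeries (AlgebraicClosure ℚ)))
      (_ : F0 = modularFunctionFieldFullC (AlgebraicClosure ℚ) N)
      (P0 : Place (AlgebraicClosure ℚ) ↥F0),
      ∃ P : Place K ↥(modularFunctionFieldFullC K N),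
        ∀ (g : ↥F0) (g' : ↥(modularFunctionFieldFullC K N)),
          (g' : LaurentSeries K) = coeffMap φ (g : LaurentSeries (AlgebraicClosure ℚ)) →
          P.ord g' = P0.ord g := by
    rintro _ rfl P0
    obtain ⟨P, hP⟩ := dr86_placeExt_modular φ N P0
    refine ⟨P, fun g g' hg' => ?_⟩
    rw [← hP g]
    congr 1
    exact Subtype.ext hg'
  exact key _ (cx_bar_eq_fullC N) P0

end Fermat.Agent.S42
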