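import Fermat.Agent.S42.DescInst3

/-!
# S42, descent block, row DataLB (Ruling 3) (helper3): the datum on ANY presentation

The descent datum `di3_data φ N` lives on the `modularFunctionFieldFullC` types.  The `Θ` / Hecke
side uses `↥(modularFunctionFieldBar N)` and the analytic side
`↥(laurentBaseChange K (modularFunctionFieldFull N))`: equal intermediate fields, different Lean
types.  Since everything is a statement about intermediate fields of the Laurent series fields,
the transport is a `subst`: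

* `di3_dataOf φ N E0 hE0 E hE : ds3_Data ℚ̄ K ↥E0 ↥E` for any `E0 = modularFunctionFieldFullC ℚ̄ N`,
  `E = modularFunctionFieldFullC K N`, with `.φ = φ` and `ι = coeffMap φ` on underlying series;
* `di3_JOf` (the element `j`), transcendence and finiteness over it, `ι j = j`;
* linear disjointness in the shapes of `pb84_LinDisj` and of `pe99_place_ext`;
* T1 `di3_dataOf_kummer`, T2 `di3_dataOf_place_ext`, (DESC) `di3_dataOf_desc` at this datum;
* `di3_dataLB φ N` : the datum on `↥(modularFunctionFieldBar N)` /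
  `↥(laurentBaseChange K (modularFunctionFieldFull N))`, and the same statements for it.

All names are prefixed `di3_`.
-/

set_option autoImplicit false
set_option linter.unusedSectionVars false

open AlgebraicCurve IntermediateField ModularCurve

namespace Fermat.Agent.S42

open Fermat.Agent.S18

section di3_J

variable {k : Type} [Field k] (N : ℕ)

/-- The element `j` of any presentation of the function field `F(N)_k`. -/
noncomputable def di3_JOf (E : IntermediateField k (LaurentSeries k)) (hE : E = modularFunctionFieldFullC k N) :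
    ↥E :=
  ⟨jqModC k, by rw [hE]; exact jqModC_mem_full k N⟩

@[simp] theorem di3_JOf_coe (E : IntermediateField k (LaurentSeries k))
    (hE : E = modularFunctionFieldFullC k N) :
    ((di3_JOf N E hE : ↥E) : LaurentSeries k) = jqModC k := rfl

theorem di3_JOf_transcendental (E : IntermediateField k (LaurentSeries k))
    (hE : E = modularFunctionFieldFullC k N) : Transcendental k (di3_JOf N E hE) := by
  subst hE
  exact relimc_J_transcendental k N

theorem di3_JOf_finite [NeZero N] (E : IntermediateField k (LaurentSeries k))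
    (hE : E = modularFunctionFieldFullC k N) : FiniteDimensional k⟮di3_JOf N E hE⟯ ↥E := by
  subst hE
  exact relimc_finite k N

end di3_J

section di3_dataOf

variable {K : Type} [Field K] [CharZero K] (φ : AlgebraicClosure ℚ →+* K) (N : ℕ)
  (E0 : IntermediateField (AlgebraicClosure ℚ) (LaurentSeries (AlgebraicClosure ℚ)))
  (hE0 : E0 = modularFunctionFieldFullC (AlgebraicClosure ℚ) N)
  (E : IntermediateField K (LaurentSeries K)) (hE : E = modularFunctionFieldFullC K N)

/-- The base change map `E0 → E`: `coeffMap φ` on underlying Laurent series. -/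
noncomputable def di3_iotaOf : ↥E0 →+* ↥E :=
  ((coeffMap φ).comp (algebraMap ↥E0 (LaurentSeries (AlgebraicClosure ℚ)))).codRestrict E
    (fun f => by
      subst hE0 hE
      exact cx_coeffMap_mem_fullC φ N f.2)

theorem di3_iotaOf_coe (g : ↥E0) :
    ((di3_iotaOf φ N E0 hE0 E hE g : ↥E) : LaurentSeries K) =
      coeffMap φ (g : LaurentSeries (AlgebraicClosure ℚ)) := rfl

/-- **The descent datum on arbitrary presentations** `E0`, `E` of the two function fields
(no cast in the data: `φ` and `ι = coeffMap φ` are given directly, the five properties are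
transported from `di3_data φ N`). -/
noncomputable def di3_dataOf : ds3_Data (AlgebraicClosure ℚ) K ↥E0 ↥E where
  φ := φ
  ι := di3_iotaOf φ N E0 hE0 E hE
  ι_algebraMap := by
    subst hE0 hE
    exact (di3_data φ N).ι_algebraMap
  gen := by
    subst hE0 hE
    exact (di3_data φ N).gen
  exists_adm := by
    subst hE0 hE
    exact (di3_data φ N).exists_adm
  eigen := by
    subst hE0 hE
    exact (di3_data φ N).eigen
  const := by
    subst hE0 hE
    exact (di3_data φ N).const

theorem di3_dataOf_phi : (di3_dataOf φ N E0 hE0 E hE).φ = φ := rfl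

theorem di3_dataOf_iota : (di3_dataOf φ N E0 hE0 E hE).ι = di3_iotaOf φ N E0 hE0 E hE := rfl

theorem di3_dataOf_iota_coe (g : ↥E0) :
    (((di3_dataOf φ N E0 hE0 E hE).ι g : ↥E) : LaurentSeries K) =
      coeffMap φ (g : LaurentSeries (AlgebraicClosure ℚ)) := rfl

/-- On the `modularFunctionFieldFullC` presentations the transported datum is `di3_data`. -/
theorem di3_dataOf_rfl :
    di3_dataOf φ N (modularFunctionFieldFullC (AlgebraicClosure ℚ) N) rfl
      (modularFunctionFieldFullC K N) rfl = di3_data φ N := rfl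

/-- The same with `S.φ` instead of `φ` (the shape of `tc21_iota_x`). -/
theorem di3_dataOf_iota_coe' (g : ↥E0) :
    (((di3_dataOf φ N E0 hE0 E hE).ι g : ↥E) : LaurentSeries K) =
      coeffMap (di3_dataOf φ N E0 hE0 E hE).φ (g : LaurentSeries (AlgebraicClosure ℚ)) := rfl

theorem di3_dataOf_iota_J :
    (di3_dataOf φ N E0 hE0 E hE).ι (di3_JOf N E0 hE0) = di3_JOf N E hE :=
  Subtype.ext (by rw [di3_dataOf_iota_coe]; exact coeffMap_jqModC φ)

theorem di3_dataOf_transcendental :
    Transcendental K ((di3_dataOf φ N E0 hE0 E hE).ι (di3_JOf N E0 hE0)) := by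
  rw [di3_dataOf_iota_J]
  exact di3_JOf_transcendental N E hE

theorem di3_dataOf_finite [NeZero N] :
    FiniteDimensional K⟮(di3_dataOf φ N E0 hE0 E hE).ι (di3_JOf N E0 hE0)⟯ ↥E := by
  have key : ∀ y : ↥E, y = di3_JOf N E hE → FiniteDimensional K⟮y⟯ ↥E := by
    rintro _ rfl
    exact di3_JOf_finite N E hE
  exact key _ (di3_dataOf_iota_J φ N E0 hE0 E hE)

/-- Linear disjointness, in the shape of `pb84_LinDisj`. -/
theorem di3_dataOf_linDisj :
    pb84_LinDisj (di3_dataOf φ N E0 hE0 E hE).φ (di3_dataOf φ N E0 hE0 E hE).ι :=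
  pb84_linDisj_coeffMap _ E0 E _ (di3_dataOf_iota_coe' φ N E0 hE0 E hE)

/-- Linear disjointness, in the literal shape of the hypothesis `hld` of `pe99_place_ext`. -/
theorem di3_dataOf_hld (m : ℕ) (c : Fin m → K) (g : Fin m → ↥E0)
    (hc : ∀ a : Fin m → AlgebraicClosure ℚ,
      ∑ i, (di3_dataOf φ N E0 hE0 E hE).φ (a i) * c i = 0 → ∀ i, a i = 0)
    (hsum : ∑ i, algebraMap K ↥E (c i) * (di3_dataOf φ N E0 hE0 E hE).ι (g i) = 0) :
    ∀ i, g i = 0 :=
  di3_dataOf_linDisj φ N E0 hE0 E hE m c g hc hsum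

variable [IsAlgClosed K] [NeZero N]

/-- **T1 at the transported datum.** -/
theorem di3_dataOf_kummer {n : ℕ} (hn : 0 < n) {G : ↥E} (hG : G ≠ 0)
    (hdiv : ∀ P : Place K ↥E, ds3_NonRat (di3_dataOf φ N E0 hE0 E hE) P → (n : ℤ) ∣ P.ord G) :
    ∃ (c : K) (w : ↥E) (g : ↥E0), c ≠ 0 ∧ w ≠ 0 ∧ g ≠ 0 ∧
      G = algebraMap K ↥E c * (di3_dataOf φ N E0 hE0 E hE).ι g * w ^ n := by
  subst hE0 hE
  exact di3_kummer φ N hn hG hdiv

/-- **T2 at the transported datum.** -/
theorem di3_dataOf_place_ext (P0 : Place (AlgebraicClosure ℚ) ↥E0) :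
    ∃ P : Place K ↥E, ∀ g : ↥E0, P.ord ((di3_dataOf φ N E0 hE0 E hE).ι g) = P0.ord g := by
  subst hE0 hE
  exact di3_place_ext φ N P0

/-- **(DESC) at the transported datum.** -/
theorem di3_dataOf_desc {n : ℕ} (hn : 0 < n) {u : ↥E} (hu : u ≠ 0)
    (hdiv : ∀ P : Place K ↥E, (n : ℤ) ∣ P.ord u) :
    ∃ (g : ↥E0) (w : ↥E) (c : K), g ≠ 0 ∧ w ≠ 0 ∧ c ≠ 0 ∧
      (di3_dataOf φ N E0 hE0 E hE).ι g = algebraMap K ↥E c * (w ^ n * u) ∧
      ∀ P0 : Place (AlgebraicClosure ℚ) ↥E0, (n : ℤ) ∣ P0.ord g := by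
  subst hE0 hE
  exact di3_desc_fullC φ N hn hu hdiv

end di3_dataOf

section di3_dataLB

variable {K : Type} [Field K] [CharZero K] [Algebra ℚ K] (φ : AlgebraicClosure ℚ →+* K) (N : ℕ)

/-- **The descent datum on the Prelude types** (Ruling 3, `dataLB`): `F0 = modularFunctionFieldBar N`
(so that `Pic0` of it is `JZero N`), `F = laurentBaseChange K (modularFunctionFieldFull N)`. -/
noncomputable def di3_dataLB :
    ds3_Data (AlgebraicClosure ℚ) K ↥(modularFunctionFieldBar N)
      ↥(laurentBaseChange K (modularFunctionFieldFull N)) :=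
  di3_dataOf φ N _ (di3_bar_eq N) _ (di3_baseChange_eq K N)

theorem di3_dataLB_phi : (di3_dataLB φ N).φ = φ :=
  di3_dataOf_phi φ N _ (di3_bar_eq N) _ (di3_baseChange_eq K N)

theorem di3_dataLB_iota_coe (g : ↥(modularFunctionFieldBar N)) :
    (((di3_dataLB φ N).ι g : ↥(laurentBaseChange K (modularFunctionFieldFull N))) :
      LaurentSeries K) = coeffMap φ (g : LaurentSeries (AlgebraicClosure ℚ)) :=
  di3_dataOf_iota_coe φ N _ (di3_bar_eq N) _ (di3_baseChange_eq K N) g

theorem di3_dataLB_iota_coe' (g : ↥(modularFunctionFieldBar N)) :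
    (((di3_dataLB φ N).ι g : ↥(laurentBaseChange K (modularFunctionFieldFull N))) :
      LaurentSeries K) = coeffMap (di3_dataLB φ N).φ (g : LaurentSeries (AlgebraicClosure ℚ)) :=
  di3_dataOf_iota_coe' φ N _ (di3_bar_eq N) _ (di3_baseChange_eq K N) g

/-- `j` as an element of `modularFunctionFieldBar N`. -/
noncomputable def di3_JBar : ↥(modularFunctionFieldBar N) := di3_JOf N _ (di3_bar_eq N)

/-- `j` as an element of `laurentBaseChange K (modularFunctionFieldFull N)`. -/
noncomputable def di3_JLB : ↥(laurentBaseChange K (modularFunctionFieldFull N)) :=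
  di3_JOf N _ (di3_baseChange_eq K N)

theorem di3_JBar_coe :
    ((di3_JBar N : ↥(modularFunctionFieldBar N)) : LaurentSeries (AlgebraicClosure ℚ)) =
      jqModC (AlgebraicClosure ℚ) := rfl

theorem di3_JLB_coe :
    ((di3_JLB (K := K) N : ↥(laurentBaseChange K (modularFunctionFieldFull N))) :
      LaurentSeries K) = jqModC K := rfl

theorem di3_JBar_transcendental : Transcendental (AlgebraicClosure ℚ) (di3_JBar N) :=
  di3_JOf_transcendental N _ (di3_bar_eq N)

theorem di3_JBar_finite [NeZero N] :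
    FiniteDimensional (AlgebraicClosure ℚ)⟮di3_JBar N⟯ ↥(modularFunctionFieldBar N) :=
  di3_JOf_finite N _ (di3_bar_eq N)

theorem di3_JLB_transcendental : Transcendental K (di3_JLB (K := K) N) :=
  di3_JOf_transcendental N _ (di3_baseChange_eq K N)

theorem di3_JLB_finite [NeZero N] :
    FiniteDimensional K⟮di3_JLB (K := K) N⟯ ↥(laurentBaseChange K (modularFunctionFieldFull N)) :=
  di3_JOf_finite N _ (di3_baseChange_eq K N)

theorem di3_dataLB_iota_J : (di3_dataLB φ N).ι (di3_JBar N) = di3_JLB N :=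
  di3_dataOf_iota_J φ N _ (di3_bar_eq N) _ (di3_baseChange_eq K N)

theorem di3_dataLB_transcendental : Transcendental K ((di3_dataLB φ N).ι (di3_JBar N)) :=
  di3_dataOf_transcendental φ N _ (di3_bar_eq N) _ (di3_baseChange_eq K N)

theorem di3_dataLB_finite [NeZero N] :
    FiniteDimensional K⟮(di3_dataLB φ N).ι (di3_JBar N)⟯
      ↥(laurentBaseChange K (modularFunctionFieldFull N)) :=
  di3_dataOf_finite φ N _ (di3_bar_eq N) _ (di3_baseChange_eq K N)

theorem di3_dataLB_linDisj : pb84_LinDisj (di3_dataLB φ N).φ (di3_dataLB φ N).ι :=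
  di3_dataOf_linDisj φ N _ (di3_bar_eq N) _ (di3_baseChange_eq K N)

theorem di3_dataLB_hld (m : ℕ) (c : Fin m → K) (g : Fin m → ↥(modularFunctionFieldBar N))
    (hc : ∀ a : Fin m → AlgebraicClosure ℚ,
      ∑ i, (di3_dataLB φ N).φ (a i) * c i = 0 → ∀ i, a i = 0)
    (hsum : ∑ i, algebraMap K ↥(laurentBaseChange K (modularFunctionFieldFull N)) (c i) *
      (di3_dataLB φ N).ι (g i) = 0) :
    ∀ i, g i = 0 :=
  di3_dataLB_linDisj φ N m c g hc hsum

variable [IsAlgClosed K] [NeZero N]

/-- **T1 at `dataLB`.** -/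
theorem di3_dataLB_kummer {n : ℕ} (hn : 0 < n)
    {G : ↥(laurentBaseChange K (modularFunctionFieldFull N))} (hG : G ≠ 0)
    (hdiv : ∀ P : Place K ↥(laurentBaseChange K (modularFunctionFieldFull N)),
      ds3_NonRat (di3_dataLB φ N) P → (n : ℤ) ∣ P.ord G) :
    ∃ (c : K) (w : ↥(laurentBaseChange K (modularFunctionFieldFull N)))
      (g : ↥(modularFunctionFieldBar N)), c ≠ 0 ∧ w ≠ 0 ∧ g ≠ 0 ∧
      G = algebraMap K ↥(laurentBaseChange K (modularFunctionFieldFull N)) c *
        (di3_dataLB φ N).ι g * w ^ n :=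
  di3_dataOf_kummer φ N _ (di3_bar_eq N) _ (di3_baseChange_eq K N) hn hG hdiv

/-- **T2 at `dataLB`**: every place of `modularFunctionFieldBar N` extends with the same orders. -/
theorem di3_dataLB_place_ext (P0 : Place (AlgebraicClosure ℚ) ↥(modularFunctionFieldBar N)) :
    ∃ P : Place K ↥(laurentBaseChange K (modularFunctionFieldFull N)),
      ∀ g : ↥(modularFunctionFieldBar N), P.ord ((di3_dataLB φ N).ι g) = P0.ord g :=
  di3_dataOf_place_ext φ N _ (di3_bar_eq N) _ (di3_baseChange_eq K N) P0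

/-- **(DESC) at `dataLB`** (ARCH-1 B, Ruling 3 (e)). -/
theorem di3_dataLB_desc {n : ℕ} (hn : 0 < n)
    {u : ↥(laurentBaseChange K (modularFunctionFieldFull N))} (hu : u ≠ 0)
    (hdiv : ∀ P : Place K ↥(laurentBaseChange K (modularFunctionFieldFull N)),
      (n : ℤ) ∣ P.ord u) :
    ∃ (g : ↥(modularFunctionFieldBar N)) (w : ↥(laurentBaseChange K (modularFunctionFieldFull N)))
      (c : K), g ≠ 0 ∧ w ≠ 0 ∧ c ≠ 0 ∧
      (di3_dataLB φ N).ι g =
        algebraMap K ↥(laurentBaseChange K (modularFunctionFieldFull N)) c * (w ^ n * u) ∧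
      ∀ P0 : Place (AlgebraicClosure ℚ) ↥(modularFunctionFieldBar N), (n : ℤ) ∣ P0.ord g :=
  di3_dataOf_desc φ N _ (di3_bar_eq N) _ (di3_baseChange_eq K N) hn hu hdiv

/-- **T3 at `dataLB`** (no `g ≠ 0` needed): `ι f = c · v ^ n` forces `f = c0 · v0 ^ n`. -/
theorem di3_dataLB_pow_descend {n : ℕ} (hn : 0 < n) (f : ↥(modularFunctionFieldBar N)) (c : K)
    (v : ↥(laurentBaseChange K (modularFunctionFieldFull N)))
    (h : (di3_dataLB φ N).ι f =
      algebraMap K ↥(laurentBaseChange K (modularFunctionFieldFull N)) c * v ^ n) :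
    ∃ (c0 : AlgebraicClosure ℚ) (v0 : ↥(modularFunctionFieldBar N)),
      f = algebraMap (AlgebraicClosure ℚ) ↥(modularFunctionFieldBar N) c0 * v0 ^ n := by
  rcases eq_or_ne f 0 with rfl | hf
  · exact ⟨0, 0, by rw [map_zero, zero_mul]⟩
  · exact ds3_pow_descend (di3_dataLB φ N) hn hf h

end di3_dataLB

end Fermat.Agent.S42
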