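import Fermat.Agent.S42.DescRep86
import Fermat.Agent.S42.DescData3

/-!
# D5 of the derivation descent, second part: the Kummer descent `T1` from the local estimates

* `dr86_quotB`, `dr86_core`: the global core with divisibility required only at the
  non-rational places.
* `dr86_exists_zero`: a transcendental function has a zero.
* `dr86_hinf`, `dr86_hpole`: for a constant-extension datum `ds3_Data`, there are infinitely
  many rational places, and every non-rational place is a zero of a function whose poles are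
  rational.
* `dr86_kummer`: the statement `T1` of the descent interface, with the three local derivation
  estimates (`h1` at rational places, `h2`, `h3` at non-rational places) as hypotheses.
-/

open AlgebraicCurve IntermediateField

namespace Fermat.Agent.S42

open Fermat.Agent.S24 Fermat.Agent.S37

section dr86B

variable {K F : Type*} [Field K] [IsAlgClosed K] [CharZero K] [Field F] [Algebra K F]

omit [IsAlgClosed K] [CharZero K] in
/-- Step (4a), with the divisor condition only at the non-rational places. -/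
theorem dr86_quotB (Rat : Set (Place K F)) (E : Divisor K F)
    (hE : ∀ Q, 0 ≤ E Q)
    (hL : ∀ h : F, h ≠ 0 → (∀ Q : Place K F, 0 ≤ Q.ord h + E Q) →
      h ∈ Set.range (algebraMap K F))
    (n : ℤ) (f : F) (hf : f ≠ 0) (hdiv : ∀ Q : Place K F, Q ∉ Rat → Q.ord f = n * E Q)
    (Df : F)
    (h1 : Df ≠ 0 → ∀ P : Place K F, P ∈ Rat → P.ord f ≤ P.ord Df)
    (h2 : Df ≠ 0 → ∀ P : Place K F, P ∉ Rat →
      P.ord f - 1 ≤ P.ord Df ∧ (P.ord f = 0 → 0 ≤ P.ord Df)) :
    ∃ c : K, Df = algebraMap K F c * f := by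
  by_cases hDf : Df = 0
  · exact ⟨0, by simp [hDf]⟩
  have hu : Df * f⁻¹ ≠ 0 := mul_ne_zero hDf (inv_ne_zero hf)
  have hordu : ∀ Q : Place K F, Q.ord (Df * f⁻¹) = Q.ord Df - Q.ord f := by
    intro Q
    rw [Q.ord_mul hDf (inv_ne_zero hf), Q.ord_inv]
    ring
  obtain ⟨c, hc⟩ := hL (Df * f⁻¹) hu (fun Q => by
    rw [hordu]
    by_cases hQ : Q ∈ Rat
    · have := h1 hDf Q hQ
      have := hE Q
      omega
    · obtain ⟨ha, hb⟩ := h2 hDf Q hQ
      have hfQ : Q.ord f = n * E Q := hdiv Q hQ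
      rcases (hE Q).eq_or_lt with h0 | h0
      · have hf0 : Q.ord f = 0 := by rw [hfQ, ← h0, mul_zero]
        have := hb hf0
        omega
      · omega)
  refine ⟨c, ?_⟩
  rw [hc]
  field_simp

/-- **Global core of the Kummer descent.** If `n ∣ ord_Q G` at all non-rational places, then
`f = G * w ^ n` has trivial order at all non-rational places and is a common eigenvector of
all the "derivations" `Dv i`. -/
theorem dr86_core (y : F) (hy : Transcendental K y) [FiniteDimensional K⟮y⟯ F]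
    (Rat : Set (Place K F))
    (hpole : ∀ P : Place K F, P ∉ Rat →
      ∃ g : F, g ≠ 0 ∧ 0 < P.ord g ∧ ∀ Q : Place K F, Q.ord g < 0 → Q ∈ Rat)
    (hinf : ∀ S : Finset (Place K F), ∃ R ∈ Rat, R ∉ S)
    {ι : Type*} (Dv : ι → F → F)
    (h1 : ∀ i, ∀ P : Place K F, P ∈ Rat → ∀ f : F, f ≠ 0 → Dv i f ≠ 0 →
      P.ord f ≤ P.ord (Dv i f))
    (h2 : ∀ i, ∀ P : Place K F, P ∉ Rat → ∀ f : F, f ≠ 0 → Dv i f ≠ 0 →
      P.ord f - 1 ≤ P.ord (Dv i f) ∧ (P.ord f = 0 → 0 ≤ P.ord (Dv i f)))
    (h3 : ∀ P : Place K F, P ∉ Rat → ∃ i, ∀ f : F, f ≠ 0 → P.ord f ≠ 0 →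
      Dv i f ≠ 0 ∧ P.ord (Dv i f) = P.ord f - 1)
    (n : ℤ) (G : F) (hG : G ≠ 0)
    (hdiv : ∀ Q : Place K F, Q ∉ Rat → n ∣ Q.ord G) :
    ∃ (w f : F), w ≠ 0 ∧ f ≠ 0 ∧ f = G * w ^ n ∧ (∀ Q : Place K F, Q ∉ Rat → Q.ord f = 0) ∧
      ∀ i, ∃ c : K, Dv i f = algebraMap K F c * f := by
  classical
  obtain ⟨H, hH, -⟩ := dr86_exists_div y hy G hG
  -- the divisor `(1/n) div G` restricted to the non-rational places
  let D : Divisor K F := Finsupp.onFinset H.support
    (fun Q => if Q ∈ Rat then 0 else H Q / n) (fun Q hQ => by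
      rw [Finsupp.mem_support_iff]
      intro h0
      apply hQ
      simp [h0])
  have hDval : ∀ Q : Place K F, Q ∉ Rat → n * D Q = Q.ord G := by
    intro Q hQ
    show n * (if Q ∈ Rat then 0 else H Q / n) = Q.ord G
    rw [if_neg hQ, hH]
    exact Int.mul_ediv_cancel' (hdiv Q hQ)
  obtain ⟨E, B, g, hg, hE, hB, hDg, hL⟩ := dr86_min y hy Rat hpole hinf D
  have hf : G * g ^ n ≠ 0 := mul_ne_zero hG (zpow_ne_zero _ hg)
  have hfdiv : ∀ Q : Place K F, Q ∉ Rat → Q.ord (G * g ^ n) = n * E Q := by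
    intro Q hQ
    have hBQ : B Q = 0 := by
      by_contra hcon
      exact hQ (hB Q hcon)
    rw [Q.ord_mul hG (zpow_ne_zero _ hg), Q.ord_zpow, ← hDval Q hQ]
    have := hDg Q
    rw [hBQ, sub_zero] at this
    rw [← this]
    ring
  have hquot : ∀ i, ∃ c : K, Dv i (G * g ^ n) = algebraMap K F c * (G * g ^ n) := fun i =>
    dr86_quotB Rat E hE hL n (G * g ^ n) hf hfdiv (Dv i (G * g ^ n))
      (fun hne P hP => h1 i P hP _ hf hne) (fun hne P hP => h2 i P hP _ hf hne)
  refine ⟨g, G * g ^ n, hg, hf, rfl, fun Q hQ => ?_, hquot⟩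
  obtain ⟨i, hi⟩ := h3 Q hQ
  exact dr86_supp Q (G * g ^ n) hf (Dv i (G * g ^ n)) (hquot i) (hi _ hf)

/-- A transcendental function has a zero. -/
theorem dr86_exists_zero (y : F) (hy : Transcendental K y) [FiniteDimensional K⟮y⟯ F]
    (t : F) (ht : Transcendental K t) : ∃ P : Place K F, 0 < P.ord t := by
  classical
  have : FiniteDimensional K⟮t⟯ F := wp1_finite_of_transcendental y hy t ht
  have hsum := wp1_sum_ord_zeros t ht
  have hpos : (0 : ℤ) < (Module.finrank K⟮t⟯ F : ℤ) := by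
    exact_mod_cast Module.finrank_pos
  by_contra hcon
  push Not at hcon
  have hempty : (wp1_finite_zeros t ht).toFinset = ∅ := by
    ext v
    simp only [Set.Finite.mem_toFinset, Set.mem_ofPred_eq, Finset.notMem_empty, iff_false,
      not_lt]
    exact hcon v
  rw [hempty, Finset.sum_empty] at hsum
  omega

omit [CharZero K] in
/-- Subtracting a constant from a transcendental function gives a transcendental function. -/
theorem dr86_transcendental_sub (y : F) (hy : Transcendental K y) (a : K) :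
    Transcendental K (y - algebraMap K F a) := by
  intro halg
  obtain ⟨c, hc⟩ := wp1b_exists_eq_algebraMap_of_isAlgebraic halg
  apply hy
  have : y = algebraMap K F (c + a) := by
    rw [map_add, ← hc]
    ring
  rw [this]
  exact isAlgebraic_algebraMap _

end dr86B

section dr86C

variable {k0 K F0 F : Type*} [Field k0] [Field K] [IsAlgClosed K] [CharZero K] [Field F0]
  [Field F] [Algebra k0 F0] [Algebra K F]

/-- There are infinitely many rational places: the zeros of `ι x - φ c`, `c ∈ k0`. -/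
theorem dr86_hinf [Infinite k0] (S : ds3_Data k0 K F0 F) (x : F0)
    (hy : Transcendental K (S.ι x)) [FiniteDimensional K⟮S.ι x⟯ F]
    (T : Finset (Place K F)) : ∃ R : Place K F, ¬ ds3_NonRat S R ∧ R ∉ T := by
  classical
  -- a zero of `ι x - φ c` for every `c`
  have hzero : ∀ c : k0, ∃ P : Place K F, 0 < P.ord (S.ι x - algebraMap K F (S.φ c)) :=
    fun c => dr86_exists_zero (S.ι x) hy _ (dr86_transcendental_sub (S.ι x) hy (S.φ c))
  choose Pc hPc using hzero
  have hinj : Function.Injective Pc := by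
    intro c c' hcc
    by_contra hne
    have h1 := hPc c
    have h2 := hPc c'
    rw [← hcc] at h2
    -- both differences lie in the ball of radius 1, hence so does the nonzero constant
    have hb1 : S.ι x - algebraMap K F (S.φ c) ∈ wr86_ball (Pc c) 1 := by
      rw [wr86_mem_ball]; right; omega
    have hb2 : S.ι x - algebraMap K F (S.φ c') ∈ wr86_ball (Pc c) 1 := by
      rw [wr86_mem_ball]; right; omega
    have hb3 := Submodule.sub_mem _ hb2 hb1
    have heq : S.ι x - algebraMap K F (S.φ c') - (S.ι x - algebraMap K F (S.φ c)) =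
        algebraMap K F (S.φ c - S.φ c') := by
      rw [map_sub]; ring
    rw [heq, wr86_mem_ball, wp1_ord_algebraMap] at hb3
    rcases hb3 with hb3 | hb3
    · rw [map_eq_zero, sub_eq_zero] at hb3
      exact hne (S.φ.injective hb3)
    · omega
  obtain ⟨c, hc⟩ := Infinite.exists_notMem_finset (T.preimage Pc hinj.injOn)
  refine ⟨Pc c, fun hnr => ?_, fun hmem => hc (by simpa using hmem)⟩
  have hne : x - algebraMap k0 F0 c ≠ 0 := by
    intro h0
    have h := hPc c
    rw [← S.ι_algebraMap, ← map_sub, h0, map_zero, Place.ord_zero] at h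
    omega
  have h := hnr _ hne
  have h' := hPc c
  rw [map_sub, S.ι_algebraMap] at h
  omega

omit [CharZero K] in
/-- Every non-rational place is a zero of `ι x - a` for a constant `a ∉ φ k0`, and the poles
of `ι x - a` are rational. -/
theorem dr86_hpole (S : ds3_Data k0 K F0 F) (x : F0) (hx0 : x ≠ 0)
    (hy : Transcendental K (S.ι x)) [FiniteDimensional K⟮S.ι x⟯ F]
    (P : Place K F) (hP : ds3_NonRat S P) :
    ∃ a : K, a ∉ Set.range S.φ ∧ 0 < P.ord (S.ι x - algebraMap K F a) ∧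
      ∀ Q : Place K F, Q.ord (S.ι x - algebraMap K F a) < 0 → ¬ ds3_NonRat S Q := by
  have hmem : S.ι x ∈ P.toValuationSubring := by
    rw [wp1_mem_iff_ord_nonneg, hP x hx0]
  obtain ⟨a, ha | ha⟩ := wp1_exists_const (S.ι x) hy P (S.ι x) hmem
  · exact absurd (ha ▸ isAlgebraic_algebraMap a) hy
  refine ⟨a, ?_, ha, fun Q hQ hnr => ?_⟩
  · rintro ⟨c, rfl⟩
    have hne : x - algebraMap k0 F0 c ≠ 0 := by
      intro h0
      rw [← S.ι_algebraMap, ← map_sub, h0, map_zero, Place.ord_zero] at ha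
      omega
    have h := hP _ hne
    rw [map_sub, S.ι_algebraMap] at h
    omega
  · have h0 := hnr x hx0
    have hb1 : S.ι x ∈ wr86_ball Q 0 := by
      rw [wr86_mem_ball]; right; omega
    have hb2 : algebraMap K F a ∈ wr86_ball Q 0 := by
      rw [wr86_mem_ball]; right; rw [wp1_ord_algebraMap]
    have hb3 := Submodule.sub_mem _ hb1 hb2
    rw [wr86_mem_ball] at hb3
    rcases hb3 with hb3 | hb3
    · rw [hb3, Place.ord_zero] at hQ
      omega
    · omega

/-- **T1 (Kummer descent) from the local derivation estimates.** -/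
theorem dr86_kummer [Infinite k0] (S : ds3_Data k0 K F0 F) (x : F0)
    (hy : Transcendental K (S.ι x)) [FiniteDimensional K⟮S.ι x⟯ F]
    (h1 : ∀ D : Derivation ℤ F F, ds3_IsAdm (K := K) S.ι D → ∀ P : Place K F,
      ¬ ds3_NonRat S P → ∀ f : F, f ≠ 0 → D f ≠ 0 → P.ord f ≤ P.ord (D f))
    (h2 : ∀ D : Derivation ℤ F F, ds3_IsAdm (K := K) S.ι D → ∀ P : Place K F,
      ds3_NonRat S P → ∀ f : F, f ≠ 0 → D f ≠ 0 →
        P.ord f - 1 ≤ P.ord (D f) ∧ (P.ord f = 0 → 0 ≤ P.ord (D f)))
    (h3 : ∀ P : Place K F, ds3_NonRat S P → ∃ D : Derivation ℤ F F,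
      ds3_IsAdm (K := K) S.ι D ∧ ∀ f : F, f ≠ 0 → P.ord f ≠ 0 →
        D f ≠ 0 ∧ P.ord (D f) = P.ord f - 1)
    {n : ℕ} (_hn : 0 < n) {G : F} (hG : G ≠ 0)
    (hdiv : ∀ P : Place K F, ds3_NonRat S P → (n : ℤ) ∣ P.ord G) :
    ∃ (c : K) (w : F) (g : F0), c ≠ 0 ∧ w ≠ 0 ∧ g ≠ 0 ∧
      G = algebraMap K F c * S.ι g * w ^ n := by
  classical
  have hx0 : x ≠ 0 := by
    rintro rfl
    apply hy
    rw [map_zero]
    exact isAlgebraic_zero
  obtain ⟨w, f, hw, hf, hfG, -, heig⟩ := dr86_core (S.ι x) hy {P | ¬ ds3_NonRat S P}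
    (fun P hP => by
      have hP' : ds3_NonRat S P := by
        by_contra hcon
        exact hP hcon
      obtain ⟨a, -, ha, hQ⟩ := dr86_hpole S x hx0 hy P hP'
      refine ⟨S.ι x - algebraMap K F a, ?_, ha, hQ⟩
      intro h0
      rw [h0, Place.ord_zero] at ha
      omega)
    (fun T => dr86_hinf S x hy T)
    (fun (i : {D : Derivation ℤ F F // ds3_IsAdm (K := K) S.ι D}) (f : F) => i.1 f)
    (fun i P hP f hf hDf => h1 i.1 i.2 P hP f hf hDf)
    (fun i P hP f hf hDf => h2 i.1 i.2 P (by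
      by_contra hcon
      exact hP hcon) f hf hDf)
    (fun P hP => by
      obtain ⟨D, hD, hDf⟩ := h3 P (by
        by_contra hcon
        exact hP hcon)
      exact ⟨⟨D, hD⟩, hDf⟩)
    (n : ℤ) G hG
    (fun Q hQ => hdiv Q (by
      by_contra hcon
      exact hQ hcon))
  obtain ⟨c, g, hcg⟩ := S.eigen f hf (fun D hD => heig ⟨D, hD⟩)
  have hc : c ≠ 0 := by
    rintro rfl
    apply hf
    rw [hcg, map_zero, zero_mul]
  have hg : g ≠ 0 := by
    rintro rfl
    apply hf
    rw [hcg, map_zero, mul_zero]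
  refine ⟨c, w⁻¹, g, hc, inv_ne_zero hw, hg, ?_⟩
  rw [← hcg, hfG, zpow_natCast, inv_pow, mul_assoc, mul_inv_cancel₀ (pow_ne_zero _ hw), mul_one]

end dr86C

end Fermat.Agent.S42
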