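import Fermat.Agent.S42.DescKummer86
import Fermat.Agent.S42.DescIface3

/-!
# T1 (Kummer descent) from the two binding D3 exports `ds3_RatOK`, `ds3_NonRatOK`
-/

open AlgebraicCurve IntermediateField

namespace Fermat.Agent.S42

variable {k0 K F0 F : Type*} [Field k0] [Field K] [IsAlgClosed K] [CharZero K] [Field F0]
  [Field F] [Algebra k0 F0] [Algebra K F]

/-- **T1 (Kummer descent)** of the descent interface, from the two D3 exports. -/
theorem dr86_kummer_OK [Infinite k0] (S : ds3_Data k0 K F0 F) (x : F0)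
    (hy : Transcendental K (S.ι x)) [FiniteDimensional K⟮S.ι x⟯ F]
    (hR : ds3_RatOK S) (hN : ds3_NonRatOK S x)
    {n : ℕ} (hn : 0 < n) {G : F} (hG : G ≠ 0)
    (hdiv : ∀ P : Place K F, ds3_NonRat S P → (n : ℤ) ∣ P.ord G) :
    ∃ (c : K) (w : F) (g : F0), c ≠ 0 ∧ w ≠ 0 ∧ g ≠ 0 ∧
      G = algebraMap K F c * S.ι g * w ^ n := by
  refine dr86_kummer S x hy (fun D hD P hP f _ hDf => ?_) (fun D hD P hP f _ hDf => ?_)
    (fun P hP => ?_) hn hG hdiv
  · exact (hR P hP D hD f).resolve_left hDf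
  · obtain ⟨a, -, -, h2, -⟩ := hN P hP
    exact (h2 D hD f).resolve_left hDf
  · obtain ⟨a, ha, -, -, h3⟩ := hN P hP
    obtain ⟨D, hD, hDa⟩ := S.exists_adm a ha
    exact ⟨D, hD, h3 D hD hDa⟩

end Fermat.Agent.S42
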