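import Mathlib
import Fermat.Agent.S24.PlacesBasicCore
import Fermat.Agent.S42.DescData3

/-!
# S42, descent block, row D4 (twin, helper99): place extension `k0 → K` with index one

Setting of `ds3_Data`: `k0 ⊆ K` fields of constants, `F0 / k0`, `F / K` function fields,
`ι : F0 → F`, `F = K(ι F0)`, and `K`, `F0` linearly disjoint over `k0` (`hld`).
Then every place `P0` of `F0 / k0` with residue field `k0` extends to a place `P` of `F / K`
with `P.ord (ι g) = P0.ord g` (`pe99_place_ext`).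

Construction: `R0 := K[ι O_P0]`, `π := ι π0`; every nonzero element of `R0` is
`π ^ m * (u + π r)` with `u ∈ Kˣ`; `1 ∉ π R0`; the localisation of `R0` at `Kˣ + π R0` is a
valuation subring of `F` in which every nonzero `x ∈ F` is `π ^ n * unit`.
All names are prefixed `pe99_`.
-/

set_option autoImplicit false

noncomputable section

namespace Fermat.Agent.S42

open AlgebraicCurve Fermat.Agent.S24

section pe99core

variable {k0 K F0 F : Type*} [Field k0] [Field K] [Field F0] [Field F]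
  [Algebra k0 F0] [Algebra K F]
variable {I : Type*}

/-- `E f = Σ_i b_i · ι (f i)`. -/
def pe99_E (ι : F0 →+* F) (b : I → K) : (I →₀ F0) →+ F :=
  Finsupp.liftAddHom
    (fun i => (AddMonoidHom.mulLeft (algebraMap K F (b i))).comp ι.toAddMonoidHom)

theorem pe99_E_apply (ι : F0 →+* F) (b : I → K) (f : I →₀ F0) :
    pe99_E ι b f = f.sum (fun i g => algebraMap K F (b i) * ι g) := by
  rfl

theorem pe99_E_mapRange_mul (ι : F0 →+* F) (b : I → K) (c : F0) (f : I →₀ F0) :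
    pe99_E ι b (f.mapRange (fun g => c * g) (mul_zero c)) = ι c * pe99_E ι b f := by
  rw [pe99_E_apply, Finsupp.sum_mapRange_index (by intro i; simp), pe99_E_apply, Finsupp.mul_sum]
  refine Finsupp.sum_congr (fun i _ => ?_)
  rw [map_mul]; ring

theorem pe99_E_mapRange_const {φ : k0 →+* K} {ι : F0 →+* F}
    (hι : ∀ c : k0, ι (algebraMap k0 F0 c) = algebraMap K F (φ c)) (b : I → K)
    (l : I →₀ k0) (g : F0) :
    pe99_E ι b (l.mapRange (fun a => algebraMap k0 F0 a * g) (by simp)) =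
      algebraMap K F (l.sum (fun i a => φ a * b i)) * ι g := by
  rw [pe99_E_apply, Finsupp.sum_mapRange_index (by intro i; simp), map_finsuppSum,
    Finsupp.sum_mul]
  refine Finsupp.sum_congr (fun i _ => ?_)
  rw [map_mul, hι, map_mul]; ring

/-- finitely supported families with values in the valuation ring of `P0` -/
def pe99_O (P0 : Place k0 F0) (I : Type*) : AddSubgroup (I →₀ F0) where
  carrier := {f | ∀ i, f i ∈ P0.toValuationSubring}
  zero_mem' := fun i => by simp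
  add_mem' := fun {f g} hf hg i => by
    rw [Finsupp.add_apply]; exact add_mem (hf i) (hg i)
  neg_mem' := fun {f} hf i => by
    rw [Finsupp.neg_apply]; exact neg_mem (hf i)

/-- `R0 = K[ι O_P0]`, as an additive subgroup of `F`. -/
def pe99_R0 (ι : F0 →+* F) (b : I → K) (P0 : Place k0 F0) : AddSubgroup F :=
  AddSubgroup.map (pe99_E ι b) (pe99_O P0 I)

theorem pe99_mem_R0 {ι : F0 →+* F} {b : I → K} {P0 : Place k0 F0} {a : F} :
    a ∈ pe99_R0 ι b P0 ↔
      ∃ f : I →₀ F0, (∀ i, f i ∈ P0.toValuationSubring) ∧ pe99_E ι b f = a :=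
  Iff.rfl

/-- The hypotheses of the construction. -/
structure pe99_Ctx (φ : k0 →+* K) (ι : F0 →+* F) (b : I → K) (P0 : Place k0 F0) (π0 : F0) :
    Prop where
  hι : ∀ c : k0, ι (algebraMap k0 F0 c) = algebraMap K F (φ c)
  hspan : ∀ c : K, ∃ l : I →₀ k0, l.sum (fun i a => φ a * b i) = c
  hind : ∀ l : I →₀ k0, l.sum (fun i a => φ a * b i) = 0 → l = 0
  hld : ∀ f : I →₀ F0, pe99_E ι b f = 0 → f = 0
  hres : ∀ g : F0, g ∈ P0.toValuationSubring →
    ∃ c : k0, g = algebraMap k0 F0 c ∨ 0 < P0.ord (g - algebraMap k0 F0 c)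
  hπ0 : P0.ord π0 = 1
  hgen : IntermediateField.adjoin K (Set.range ι) = ⊤

variable {φ : k0 →+* K} {ι : F0 →+* F} {b : I → K} {P0 : Place k0 F0} {π0 : F0}

theorem pe99_pi_ne_zero (C : pe99_Ctx φ ι b P0 π0) : π0 ≠ 0 := by
  rintro rfl
  have := C.hπ0
  simp at this

theorem pe99_pi_mem (C : pe99_Ctx φ ι b P0 π0) : π0 ∈ P0.toValuationSubring := by
  rw [wp1_mem_iff_ord_nonneg, C.hπ0]; norm_num

theorem pe99_R0_smul_mem (C : pe99_Ctx φ ι b P0 π0) (c : K) {g : F0}
    (hg : g ∈ P0.toValuationSubring) : algebraMap K F c * ι g ∈ pe99_R0 ι b P0 := by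
  obtain ⟨l, hl⟩ := C.hspan c
  refine ⟨l.mapRange (fun a => algebraMap k0 F0 a * g) (by simp), fun i => ?_, ?_⟩
  · rw [Finsupp.mapRange_apply]
    exact mul_mem (P0.algebraMap_mem' _) hg
  · rw [pe99_E_mapRange_const C.hι, hl]

theorem pe99_R0_algebraMap_mem (C : pe99_Ctx φ ι b P0 π0) (c : K) :
    algebraMap K F c ∈ pe99_R0 ι b P0 := by
  have := pe99_R0_smul_mem C c (one_mem P0.toValuationSubring)
  rwa [map_one, mul_one] at this

theorem pe99_R0_iota_mem (C : pe99_Ctx φ ι b P0 π0) {g : F0}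
    (hg : g ∈ P0.toValuationSubring) : ι g ∈ pe99_R0 ι b P0 := by
  have := pe99_R0_smul_mem C 1 hg
  rwa [map_one, one_mul] at this

theorem pe99_R0_mul_mem (C : pe99_Ctx φ ι b P0 π0) {a a' : F}
    (ha : a ∈ pe99_R0 ι b P0) (ha' : a' ∈ pe99_R0 ι b P0) : a * a' ∈ pe99_R0 ι b P0 := by
  obtain ⟨f, hf, rfl⟩ := ha
  obtain ⟨f', hf', rfl⟩ := ha'
  rw [pe99_E_apply, pe99_E_apply, Finsupp.sum, Finsupp.sum, Finset.sum_mul_sum]
  refine AddSubgroup.sum_mem _ (fun i _ => AddSubgroup.sum_mem _ (fun j _ => ?_))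
  have := pe99_R0_smul_mem C (b i * b j) (mul_mem (hf i) (hf' j))
  rw [map_mul, map_mul] at this
  convert this using 1
  ring

theorem pe99_R0_one_mem (C : pe99_Ctx φ ι b P0 π0) : (1 : F) ∈ pe99_R0 ι b P0 := by
  have := pe99_R0_algebraMap_mem C 1
  rwa [map_one] at this

theorem pe99_R0_pow_mem (C : pe99_Ctx φ ι b P0 π0) {a : F}
    (ha : a ∈ pe99_R0 ι b P0) (n : ℕ) : a ^ n ∈ pe99_R0 ι b P0 := by
  induction n with
  | zero => rw [pow_zero]; exact pe99_R0_one_mem C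
  | succ n ih => rw [pow_succ]; exact pe99_R0_mul_mem C ih ha

theorem pe99_R0_pi_mem (C : pe99_Ctx φ ι b P0 π0) : ι π0 ∈ pe99_R0 ι b P0 :=
  pe99_R0_iota_mem C (pe99_pi_mem C)

/-- `1 ∉ π R0`: this is where linear disjointness enters. -/
theorem pe99_not_one (C : pe99_Ctx φ ι b P0 π0) {r : F} (hr : r ∈ pe99_R0 ι b P0) :
    ι π0 * r ≠ 1 := by
  obtain ⟨f, hfO, rfl⟩ := hr
  intro h
  obtain ⟨l, hl⟩ := C.hspan 1
  have h1 : pe99_E ι b (l.mapRange (fun a => algebraMap k0 F0 a * 1) (by simp)) = 1 := by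
    rw [pe99_E_mapRange_const C.hι, hl]; simp
  have h2 : pe99_E ι b (f.mapRange (fun g => π0 * g) (mul_zero π0)) = 1 := by
    rw [pe99_E_mapRange_mul]; exact h
  have h3 := C.hld (f.mapRange (fun g => π0 * g) (mul_zero π0) -
    l.mapRange (fun a => algebraMap k0 F0 a * 1) (by simp)) (by rw [map_sub, h2, h1, sub_self])
  have h4 : ∀ i, π0 * f i = algebraMap k0 F0 (l i) := fun i => by
    have := DFunLike.congr_fun h3 i
    simpa [sub_eq_zero, Finsupp.mapRange_apply] using this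
  have hl0 : l ≠ 0 := by
    rintro rfl
    simp at hl
  obtain ⟨i, hi⟩ : ∃ i, l i ≠ 0 := by
    by_contra hcon
    exact hl0 (Finsupp.ext fun i => by_contra fun h => hcon ⟨i, h⟩)
  have h5 := h4 i
  have hfi : f i ≠ 0 := by
    intro h0
    rw [h0, mul_zero] at h5
    exact hi ((map_eq_zero _).mp h5.symm)
  have h6 := congrArg P0.ord h5
  rw [P0.ord_mul (pe99_pi_ne_zero C) hfi, C.hπ0, wp1_ord_algebraMap] at h6
  have h7 := (wp1_mem_iff_ord_nonneg P0 _).mp (hfO i)
  omega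

/-- Every nonzero element of `R0` is `π ^ m * (u + π r)` with `u ∈ Kˣ`, `r ∈ R0`. -/
theorem pe99_factor (C : pe99_Ctx φ ι b P0 π0) {a : F} (ha : a ∈ pe99_R0 ι b P0)
    (ha0 : a ≠ 0) :
    ∃ (m : ℕ) (u : K) (r : F), u ≠ 0 ∧ r ∈ pe99_R0 ι b P0 ∧
      a = ι π0 ^ m * (algebraMap K F u + ι π0 * r) := by
  classical
  obtain ⟨f, hfO, rfl⟩ := ha
  have hπ00 := pe99_pi_ne_zero C
  have hf0 : f ≠ 0 := by
    rintro rfl
    exact ha0 (map_zero _)
  have hsupp : f.support.Nonempty := Finsupp.support_nonempty_iff.mpr hf0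
  obtain ⟨i0, hi0, hmin⟩ := Finset.exists_min_image f.support (fun i => P0.ord (f i)) hsupp
  have hfi0 : f i0 ≠ 0 := Finsupp.mem_support_iff.mp hi0
  have hn0 : 0 ≤ P0.ord (f i0) := (wp1_mem_iff_ord_nonneg P0 _).mp (hfO i0)
  obtain ⟨n, hn⟩ := Int.eq_ofNat_of_zero_le hn0
  have hord : ∀ g : F0, g ≠ 0 → P0.ord (g / π0 ^ n) = P0.ord g - n := by
    intro g hg
    rw [div_eq_mul_inv, P0.ord_mul hg (inv_ne_zero (pow_ne_zero _ hπ00)), P0.ord_inv,
      ← zpow_natCast, P0.ord_zpow, C.hπ0]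
    ring
  obtain ⟨f1, hf1a⟩ : ∃ f1 : I →₀ F0, ∀ i, f1 i = f i / π0 ^ n :=
    ⟨f.mapRange (fun g => g / π0 ^ n) (by simp), fun i => by rw [Finsupp.mapRange_apply]⟩
  have hf1O : ∀ i, f1 i ∈ P0.toValuationSubring := by
    intro i
    rw [hf1a]
    by_cases hi : f i = 0
    · simp [hi]
    · rw [wp1_mem_iff_ord_nonneg, hord _ hi]
      have := hmin i (Finsupp.mem_support_iff.mpr hi)
      omega
  have hEf : pe99_E ι b f = ι π0 ^ n * pe99_E ι b f1 := by
    have h : f = f1.mapRange (fun g => π0 ^ n * g) (mul_zero _) := by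
      ext i
      rw [Finsupp.mapRange_apply, hf1a]
      field_simp
    conv_lhs => rw [h]
    rw [pe99_E_mapRange_mul, map_pow]
  -- residues
  choose! c hc using C.hres
  obtain ⟨l, hla⟩ : ∃ l : I →₀ k0, ∀ i, l i = if f1 i = 0 then 0 else c (f1 i) :=
    ⟨f1.mapRange (fun g => if g = 0 then 0 else c g) (by simp), fun i => by
      rw [Finsupp.mapRange_apply]⟩
  obtain ⟨f2, hf2a⟩ : ∃ f2 : I →₀ F0,
      ∀ i, f2 i = if f1 i = 0 then 0 else (f1 i - algebraMap k0 F0 (c (f1 i))) / π0 :=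
    ⟨f1.mapRange (fun g => if g = 0 then 0 else (g - algebraMap k0 F0 (c g)) / π0) (by simp),
      fun i => by rw [Finsupp.mapRange_apply]⟩
  have hf2O : ∀ i, f2 i ∈ P0.toValuationSubring := by
    intro i
    rw [hf2a]
    by_cases hi : f1 i = 0
    · simp [hi]
    · rw [if_neg hi]
      rcases hc (f1 i) (hf1O i) with h | h
      · rw [← h, sub_self, zero_div]; exact zero_mem _
      · have hne : f1 i - algebraMap k0 F0 (c (f1 i)) ≠ 0 := by
          intro h0
          rw [h0] at h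
          simp at h
        rw [wp1_mem_iff_ord_nonneg, div_eq_mul_inv, P0.ord_mul hne (inv_ne_zero hπ00),
          P0.ord_inv, C.hπ0]
        omega
  have hdec : f1 = l.mapRange (fun a => algebraMap k0 F0 a * 1) (by simp) +
      f2.mapRange (fun g => π0 * g) (mul_zero _) := by
    ext i
    rw [Finsupp.add_apply, Finsupp.mapRange_apply, Finsupp.mapRange_apply, hla, hf2a]
    by_cases hi : f1 i = 0
    · simp [hi]
    · rw [if_neg hi, if_neg hi]
      field_simp
      ring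
  have hEf1 : pe99_E ι b f1 =
      algebraMap K F (l.sum (fun i a => φ a * b i)) + ι π0 * pe99_E ι b f2 := by
    conv_lhs => rw [hdec]
    rw [map_add, pe99_E_mapRange_const C.hι, pe99_E_mapRange_mul, map_one, mul_one]
  refine ⟨n, l.sum (fun i a => φ a * b i), pe99_E ι b f2, ?_, ⟨f2, hf2O, rfl⟩, ?_⟩
  · intro hu
    have hl0 := C.hind l hu
    have h1 : l i0 = 0 := by rw [hl0]; rfl
    have hf1i0 : f1 i0 ≠ 0 := by
      rw [hf1a]
      exact div_ne_zero hfi0 (pow_ne_zero _ hπ00)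
    rw [hla, if_neg hf1i0] at h1
    have hord0 : P0.ord (f1 i0) = 0 := by
      rw [hf1a, hord _ hfi0]; omega
    rcases hc (f1 i0) (hf1O i0) with h | h
    · rw [h1, map_zero] at h
      exact hf1i0 h
    · rw [h1, map_zero, sub_zero, hord0] at h
      exact lt_irrefl _ h
  · rw [hEf, hEf1]

/-- the multiplicative set `Kˣ + π R0` -/
def pe99_U (ι : F0 →+* F) (b : I → K) (P0 : Place k0 F0) (π0 : F0) (s : F) : Prop :=
  ∃ (u : K) (r : F), u ≠ 0 ∧ r ∈ pe99_R0 ι b P0 ∧ s = algebraMap K F u + ι π0 * r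

theorem pe99_U_one : pe99_U ι b P0 π0 1 :=
  ⟨1, 0, one_ne_zero, zero_mem _, by simp⟩

theorem pe99_U_mem_R0 (C : pe99_Ctx φ ι b P0 π0) {s : F} (hs : pe99_U ι b P0 π0 s) :
    s ∈ pe99_R0 ι b P0 := by
  obtain ⟨u, r, -, hr, rfl⟩ := hs
  exact add_mem (pe99_R0_algebraMap_mem C u) (pe99_R0_mul_mem C (pe99_R0_pi_mem C) hr)

theorem pe99_U_mul (C : pe99_Ctx φ ι b P0 π0) {s t : F} (hs : pe99_U ι b P0 π0 s)
    (ht : pe99_U ι b P0 π0 t) : pe99_U ι b P0 π0 (s * t) := by
  obtain ⟨u, r, hu, hr, rfl⟩ := hs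
  obtain ⟨u', r', hu', hr', rfl⟩ := ht
  refine ⟨u * u', algebraMap K F u * r' + algebraMap K F u' * r + ι π0 * (r * r'),
    mul_ne_zero hu hu', ?_, ?_⟩
  · exact add_mem (add_mem (pe99_R0_mul_mem C (pe99_R0_algebraMap_mem C u) hr')
      (pe99_R0_mul_mem C (pe99_R0_algebraMap_mem C u') hr))
      (pe99_R0_mul_mem C (pe99_R0_pi_mem C) (pe99_R0_mul_mem C hr hr'))
  · rw [map_mul]; ring

theorem pe99_U_ne_pi_mul (C : pe99_Ctx φ ι b P0 π0) {s r : F} (hs : pe99_U ι b P0 π0 s)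
    (hr : r ∈ pe99_R0 ι b P0) : s ≠ ι π0 * r := by
  obtain ⟨u, r', hu, hr', rfl⟩ := hs
  intro h
  have hu' : algebraMap K F u ≠ 0 := by simpa using hu
  refine pe99_not_one C (r := algebraMap K F u⁻¹ * (r - r'))
    (pe99_R0_mul_mem C (pe99_R0_algebraMap_mem C _) (sub_mem hr hr')) ?_
  have h2 : algebraMap K F u = ι π0 * (r - r') := by rw [mul_sub, ← h]; ring
  rw [mul_left_comm, ← h2, map_inv₀, inv_mul_cancel₀ hu']

theorem pe99_U_ne_zero (C : pe99_Ctx φ ι b P0 π0) {s : F} (hs : pe99_U ι b P0 π0 s) :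
    s ≠ 0 := by
  have := pe99_U_ne_pi_mul C hs (zero_mem _)
  rwa [mul_zero] at this

theorem pe99_iota_pi_ne_zero (C : pe99_Ctx φ ι b P0 π0) : ι π0 ≠ 0 := by
  simpa using pe99_pi_ne_zero C

/-- `F = Frac R0`. -/
theorem pe99_frac (C : pe99_Ctx φ ι b P0 π0) (x : F) :
    ∃ a ∈ pe99_R0 ι b P0, ∃ s ∈ pe99_R0 ι b P0, s ≠ 0 ∧ x * s = a := by
  have hx : x ∈ IntermediateField.adjoin K (Set.range ι) := by rw [C.hgen]; trivial
  induction hx using IntermediateField.adjoin_induction with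
  | mem x hx =>
      obtain ⟨g, rfl⟩ := hx
      rcases P0.toValuationSubring.mem_or_inv_mem g with hg | hg
      · exact ⟨ι g, pe99_R0_iota_mem C hg, 1, pe99_R0_one_mem C, one_ne_zero, mul_one _⟩
      · by_cases hg0 : g = 0
        · subst hg0
          exact ⟨0, zero_mem _, 1, pe99_R0_one_mem C, one_ne_zero, by simp⟩
        · exact ⟨1, pe99_R0_one_mem C, ι g⁻¹, pe99_R0_iota_mem C hg, by simpa using hg0, by
            rw [← map_mul, mul_inv_cancel₀ hg0, map_one]⟩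
  | algebraMap c =>
      exact ⟨algebraMap K F c, pe99_R0_algebraMap_mem C c, 1, pe99_R0_one_mem C, one_ne_zero,
        mul_one _⟩
  | add x y _ _ hx hy =>
      obtain ⟨a, ha, s, hs, hs0, h⟩ := hx
      obtain ⟨a', ha', s', hs', hs0', h'⟩ := hy
      exact ⟨a * s' + a' * s,
        add_mem (pe99_R0_mul_mem C ha hs') (pe99_R0_mul_mem C ha' hs), s * s',
        pe99_R0_mul_mem C hs hs', mul_ne_zero hs0 hs0', by rw [← h, ← h']; ring⟩
  | inv x _ hx =>
      obtain ⟨a, ha, s, hs, hs0, h⟩ := hx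
      by_cases hx0 : x = 0
      · subst hx0
        exact ⟨0, zero_mem _, 1, pe99_R0_one_mem C, one_ne_zero, by simp⟩
      · have ha0 : a ≠ 0 := by rw [← h]; exact mul_ne_zero hx0 hs0
        exact ⟨s, hs, a, ha, ha0, by rw [← h]; field_simp⟩
  | mul x y _ _ hx hy =>
      obtain ⟨a, ha, s, hs, hs0, h⟩ := hx
      obtain ⟨a', ha', s', hs', hs0', h'⟩ := hy
      exact ⟨a * a', pe99_R0_mul_mem C ha ha', s * s', pe99_R0_mul_mem C hs hs',
        mul_ne_zero hs0 hs0', by rw [← h, ← h']; ring⟩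

/-- unit-shaped elements: quotients of two elements of `Kˣ + π R0` -/
def pe99_IsU (ι : F0 →+* F) (b : I → K) (P0 : Place k0 F0) (π0 : F0) (w : F) : Prop :=
  ∃ s t : F, pe99_U ι b P0 π0 s ∧ pe99_U ι b P0 π0 t ∧ w * s = t

theorem pe99_IsU_ne_zero (C : pe99_Ctx φ ι b P0 π0) {w : F} (hw : pe99_IsU ι b P0 π0 w) :
    w ≠ 0 := by
  obtain ⟨s, t, -, ht, h⟩ := hw
  rintro rfl
  rw [zero_mul] at h
  exact pe99_U_ne_zero C ht h.symm

theorem pe99_IsU_one : pe99_IsU ι b P0 π0 1 :=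
  ⟨1, 1, pe99_U_one, pe99_U_one, one_mul 1⟩

/-- every nonzero element of `F` is `π ^ n * unit`. -/
theorem pe99_exists_pow (C : pe99_Ctx φ ι b P0 π0) {x : F} (hx : x ≠ 0) :
    ∃ (n : ℤ) (w : F), pe99_IsU ι b P0 π0 w ∧ x = ι π0 ^ n * w := by
  obtain ⟨a, ha, s, hs, hs0, h⟩ := pe99_frac C x
  have ha0 : a ≠ 0 := by rw [← h]; exact mul_ne_zero hx hs0
  obtain ⟨m, u, r, hu, hr, rfl⟩ := pe99_factor C ha ha0
  obtain ⟨n, u', r', hu', hr', rfl⟩ := pe99_factor C hs hs0
  have hπ := pe99_iota_pi_ne_zero C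
  have hU1 : pe99_U ι b P0 π0 (algebraMap K F u + ι π0 * r) := ⟨u, r, hu, hr, rfl⟩
  have hU2 : pe99_U ι b P0 π0 (algebraMap K F u' + ι π0 * r') := ⟨u', r', hu', hr', rfl⟩
  have h2 := pe99_U_ne_zero C hU2
  refine ⟨(m : ℤ) - n, (algebraMap K F u + ι π0 * r) / (algebraMap K F u' + ι π0 * r'),
    ⟨_, _, hU2, hU1, div_mul_cancel₀ _ h2⟩, ?_⟩
  rw [zpow_sub₀ hπ, zpow_natCast, zpow_natCast]
  have hn : ι π0 ^ n ≠ 0 := pow_ne_zero _ hπ
  field_simp
  linear_combination h

/-- The valuation subring: the localisation of `R0` at `Kˣ + π R0`. -/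
def pe99_V (C : pe99_Ctx φ ι b P0 π0) : ValuationSubring F where
  carrier := {x | ∃ a ∈ pe99_R0 ι b P0, ∃ s, pe99_U ι b P0 π0 s ∧ x * s = a}
  mul_mem' := by
    rintro x y ⟨a, ha, s, hs, h⟩ ⟨a', ha', s', hs', h'⟩
    exact ⟨a * a', pe99_R0_mul_mem C ha ha', s * s', pe99_U_mul C hs hs', by
      rw [← h, ← h']; ring⟩
  one_mem' := ⟨1, pe99_R0_one_mem C, 1, pe99_U_one, by simp⟩
  add_mem' := by
    rintro x y ⟨a, ha, s, hs, h⟩ ⟨a', ha', s', hs', h'⟩
    exact ⟨a * s' + a' * s,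
      add_mem (pe99_R0_mul_mem C ha (pe99_U_mem_R0 C hs'))
        (pe99_R0_mul_mem C ha' (pe99_U_mem_R0 C hs)),
      s * s', pe99_U_mul C hs hs', by rw [← h, ← h']; ring⟩
  zero_mem' := ⟨0, zero_mem _, 1, pe99_U_one, by simp⟩
  neg_mem' := by
    rintro x ⟨a, ha, s, hs, h⟩
    exact ⟨-a, neg_mem ha, s, hs, by rw [← h]; ring⟩
  mem_or_inv_mem' := by
    intro x
    by_cases hx : x = 0
    · left
      subst hx
      exact ⟨0, zero_mem _, 1, pe99_U_one, by simp⟩
    · obtain ⟨n, w, hw, rfl⟩ := pe99_exists_pow C hx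
      have hw0 := pe99_IsU_ne_zero C hw
      obtain ⟨s, t, hs, ht, hwst⟩ := hw
      rcases le_total 0 n with hn | hn
      · left
        obtain ⟨k, rfl⟩ := Int.eq_ofNat_of_zero_le hn
        exact ⟨ι π0 ^ k * t,
          pe99_R0_mul_mem C (pe99_R0_pow_mem C (pe99_R0_pi_mem C) k) (pe99_U_mem_R0 C ht),
          s, hs, by rw [zpow_natCast, mul_assoc, hwst]⟩
      · right
        obtain ⟨k, hk⟩ := Int.eq_ofNat_of_zero_le (neg_nonneg.mpr hn)
        refine ⟨ι π0 ^ k * s,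
          pe99_R0_mul_mem C (pe99_R0_pow_mem C (pe99_R0_pi_mem C) k) (pe99_U_mem_R0 C hs),
          t, ht, ?_⟩
        rw [mul_inv, ← zpow_neg, hk, zpow_natCast, mul_assoc]
        congr 1
        rw [← hwst]
        field_simp

theorem pe99_mem_V (C : pe99_Ctx φ ι b P0 π0) {x : F} :
    x ∈ pe99_V C ↔ ∃ a ∈ pe99_R0 ι b P0, ∃ s, pe99_U ι b P0 π0 s ∧ x * s = a :=
  Iff.rfl

theorem pe99_IsU_mem (C : pe99_Ctx φ ι b P0 π0) {w : F} (hw : pe99_IsU ι b P0 π0 w) :
    w ∈ pe99_V C ∧ w⁻¹ ∈ pe99_V C := by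
  have hw0 := pe99_IsU_ne_zero C hw
  obtain ⟨s, t, hs, ht, h⟩ := hw
  refine ⟨⟨t, pe99_U_mem_R0 C ht, s, hs, h⟩, ⟨s, pe99_U_mem_R0 C hs, t, ht, ?_⟩⟩
  rw [← h]
  field_simp

theorem pe99_pi_mem_V (C : pe99_Ctx φ ι b P0 π0) : ι π0 ∈ pe99_V C :=
  ⟨ι π0, pe99_R0_pi_mem C, 1, pe99_U_one, mul_one _⟩

theorem pe99_pi_inv_not_mem (C : pe99_Ctx φ ι b P0 π0) : (ι π0)⁻¹ ∉ pe99_V C := by
  rintro ⟨a, ha, s, hs, h⟩
  refine pe99_U_ne_pi_mul C hs ha ?_
  have hπ := pe99_iota_pi_ne_zero C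
  rw [← h]
  field_simp

theorem pe99_exp_nonneg (C : pe99_Ctx φ ι b P0 π0) {n : ℤ} {w : F}
    (hw : pe99_IsU ι b P0 π0 w) (hx : ι π0 ^ n * w ∈ pe99_V C) : 0 ≤ n := by
  by_contra hn
  have hn' : n < 0 := not_le.mp hn
  have hw0 := pe99_IsU_ne_zero C hw
  have hπ := pe99_iota_pi_ne_zero C
  have h1 : ι π0 ^ n ∈ pe99_V C := by
    have := mul_mem hx (pe99_IsU_mem C hw).2
    rwa [mul_assoc, mul_inv_cancel₀ hw0, mul_one] at this
  obtain ⟨k, hk⟩ := Int.eq_ofNat_of_zero_le (show (0 : ℤ) ≤ -n - 1 by omega)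
  have h2 : ι π0 ^ k ∈ pe99_V C := pow_mem (pe99_pi_mem_V C) k
  have h3 := mul_mem h2 h1
  rw [← zpow_natCast, ← hk, ← zpow_add₀ hπ] at h3
  have h4 : -n - 1 + n = -1 := by ring
  rw [h4, zpow_neg_one] at h3
  exact pe99_pi_inv_not_mem C h3

theorem pe99_isUnit (C : pe99_Ctx φ ι b P0 π0) {w : F} (hw : pe99_IsU ι b P0 π0 w) :
    IsUnit (⟨w, (pe99_IsU_mem C hw).1⟩ : pe99_V C) :=
  isUnit_iff_exists_inv.mpr
    ⟨⟨w⁻¹, (pe99_IsU_mem C hw).2⟩, Subtype.ext (mul_inv_cancel₀ (pe99_IsU_ne_zero C hw))⟩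

theorem pe99_irreducible (C : pe99_Ctx φ ι b P0 π0) :
    Irreducible (⟨ι π0, pe99_pi_mem_V C⟩ : pe99_V C) := by
  have hπ := pe99_iota_pi_ne_zero C
  rw [irreducible_iff]
  constructor
  · intro hu
    obtain ⟨y, hy⟩ := isUnit_iff_exists_inv.mp hu
    have h1 : ι π0 * (y : F) = 1 := by
      have := congrArg Subtype.val hy
      simpa using this
    have h2 : (y : F) = (ι π0)⁻¹ := eq_inv_of_mul_eq_one_right h1
    exact pe99_pi_inv_not_mem C (h2 ▸ y.2)
  · intro x y hxy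
    have hxy' : ι π0 = (x : F) * (y : F) := by
      have := congrArg Subtype.val hxy
      simpa using this
    have hx0 : (x : F) ≠ 0 := by
      intro h
      rw [h, zero_mul] at hxy'
      exact hπ hxy'
    have hy0 : (y : F) ≠ 0 := by
      intro h
      rw [h, mul_zero] at hxy'
      exact hπ hxy'
    obtain ⟨i, w, hw, hxw⟩ := pe99_exists_pow C hx0
    obtain ⟨j, w', hw', hyw⟩ := pe99_exists_pow C hy0
    have hi : 0 ≤ i := pe99_exp_nonneg C hw (hxw ▸ x.2)
    have hj : 0 ≤ j := pe99_exp_nonneg C hw' (hyw ▸ y.2)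
    have hw0 := pe99_IsU_ne_zero C hw
    have hw0' := pe99_IsU_ne_zero C hw'
    have hij : i + j ≤ 1 := by
      by_contra hcon
      have h3 : ι π0 = ι π0 ^ (i + j) * (w * w') := by
        rw [zpow_add₀ hπ]
        calc ι π0 = (x : F) * (y : F) := hxy'
          _ = (ι π0 ^ i * w) * (ι π0 ^ j * w') := by rw [hxw, hyw]
          _ = ι π0 ^ i * ι π0 ^ j * (w * w') := by ring
      have h1 : ι π0 ^ (1 - i - j) * 1 ∈ pe99_V C := by
        have h2 : ι π0 ^ (1 - i - j) * 1 = w * w' := by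
          rw [mul_one, show (1 - i - j : ℤ) = 1 - (i + j) by ring, zpow_sub₀ hπ, zpow_one,
            div_eq_iff (zpow_ne_zero _ hπ), mul_comm]
          exact h3
        rw [h2]
        exact mul_mem (pe99_IsU_mem C hw).1 (pe99_IsU_mem C hw').1
      have := pe99_exp_nonneg C pe99_IsU_one h1
      omega
    rcases (show i = 0 ∨ j = 0 by omega) with h0 | h0
    · left
      have : x = ⟨w, (pe99_IsU_mem C hw).1⟩ := Subtype.ext (by rw [hxw, h0]; simp)
      rw [this]
      exact pe99_isUnit C hw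
    · right
      have : y = ⟨w', (pe99_IsU_mem C hw').1⟩ := Subtype.ext (by rw [hyw, h0]; simp)
      rw [this]
      exact pe99_isUnit C hw'

theorem pe99_isPID (C : pe99_Ctx φ ι b P0 π0) : IsPrincipalIdealRing (pe99_V C) := by
  have h : IsDiscreteValuationRing.HasUnitMulPowIrreducibleFactorization (pe99_V C) := by
    refine ⟨⟨ι π0, pe99_pi_mem_V C⟩, pe99_irreducible C, ?_⟩
    intro x hx
    have hx0 : (x : F) ≠ 0 := fun h => hx (Subtype.ext h)
    obtain ⟨n, w, hw, hxw⟩ := pe99_exists_pow C hx0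
    have hn := pe99_exp_nonneg C hw (hxw ▸ x.2)
    obtain ⟨k, rfl⟩ := Int.eq_ofNat_of_zero_le hn
    refine ⟨k, ?_⟩
    obtain ⟨u, hu⟩ := pe99_isUnit C hw
    refine ⟨u, Subtype.ext ?_⟩
    rw [hu, hxw, zpow_natCast]
    rfl
  exact (IsDiscreteValuationRing.ofHasUnitMulPowIrreducibleFactorization h).toIsPrincipalIdealRing

/-- The extended place. -/
def pe99_place (C : pe99_Ctx φ ι b P0 π0) : Place K F where
  toValuationSubring := pe99_V C
  algebraMap_mem' := fun a =>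
    ⟨algebraMap K F a, pe99_R0_algebraMap_mem C a, 1, pe99_U_one, mul_one _⟩
  ne_top' := fun h => pe99_pi_inv_not_mem C (h ▸ ValuationSubring.mem_top _)
  isPrincipalIdealRing' := pe99_isPID C

theorem pe99_ord_pow_mul (C : pe99_Ctx φ ι b P0 π0) (n : ℤ) {w : F}
    (hw : pe99_IsU ι b P0 π0 w) : (pe99_place C).ord (ι π0 ^ n * w) = n := by
  obtain ⟨u, hu⟩ := pe99_isUnit C hw
  have h := (pe99_place C).ord_unit_smul_zpow u (π := ⟨ι π0, pe99_pi_mem_V C⟩)
    (pe99_irreducible C) n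
  have hu' : ((u : pe99_V C) : F) = w := congrArg Subtype.val hu
  rw [mul_comm, ← hu']
  exact h

theorem pe99_U_iota_unit (C : pe99_Ctx φ ι b P0 π0) {g : F0}
    (hg : g ∈ P0.toValuationSubring) (hg0 : P0.ord g = 0) (hgne : g ≠ 0) :
    pe99_U ι b P0 π0 (ι g) := by
  have hπ00 := pe99_pi_ne_zero C
  obtain ⟨c, h | h⟩ := C.hres g hg
  · have hc : c ≠ 0 := by
      rintro rfl
      exact hgne (by rw [h, map_zero])
    exact ⟨φ c, 0, by simpa using hc, zero_mem _, by rw [h, C.hι]; simp⟩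
  · have hc : c ≠ 0 := by
      rintro rfl
      rw [map_zero, sub_zero, hg0] at h
      exact lt_irrefl _ h
    have hne : g - algebraMap k0 F0 c ≠ 0 := by
      intro h0
      rw [h0] at h
      simp at h
    have hmem : (g - algebraMap k0 F0 c) / π0 ∈ P0.toValuationSubring := by
      rw [wp1_mem_iff_ord_nonneg, div_eq_mul_inv, P0.ord_mul hne (inv_ne_zero hπ00),
        P0.ord_inv, C.hπ0]
      omega
    refine ⟨φ c, ι ((g - algebraMap k0 F0 c) / π0), by simpa using hc,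
      pe99_R0_iota_mem C hmem, ?_⟩
    rw [← C.hι, ← map_mul, ← map_add]
    congr 1
    field_simp
    ring

/-- The extended place has the same order on `ι F0` (index one). -/
theorem pe99_ord_iota (C : pe99_Ctx φ ι b P0 π0) (g : F0) :
    (pe99_place C).ord (ι g) = P0.ord g := by
  have hπ00 := pe99_pi_ne_zero C
  by_cases hg : g = 0
  · subst hg
    simp
  · have hu0ne : g / π0 ^ (P0.ord g) ≠ 0 := div_ne_zero hg (zpow_ne_zero _ hπ00)
    have hu0 : P0.ord (g / π0 ^ (P0.ord g)) = 0 := by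
      rw [div_eq_mul_inv, P0.ord_mul hg (inv_ne_zero (zpow_ne_zero _ hπ00)), P0.ord_inv,
        P0.ord_zpow, C.hπ0]
      ring
    have hmem : g / π0 ^ (P0.ord g) ∈ P0.toValuationSubring := by
      rw [wp1_mem_iff_ord_nonneg, hu0]
    have hU := pe99_U_iota_unit C hmem hu0 hu0ne
    have hIsU : pe99_IsU ι b P0 π0 (ι (g / π0 ^ (P0.ord g))) :=
      ⟨1, _, pe99_U_one, hU, mul_one _⟩
    have hdec : ι g = ι π0 ^ (P0.ord g) * ι (g / π0 ^ (P0.ord g)) := by
      rw [← map_zpow₀, ← map_mul]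
      congr 1
      field_simp
    conv_lhs => rw [hdec]
    exact pe99_ord_pow_mul C _ hIsU

end pe99core

section pe99final

variable {k0 K F0 F : Type*} [Field k0] [Field K] [Field F0] [Field F]
  [Algebra k0 F0] [Algebra K F]

/-- **T2, core form** (no function-field hypothesis): under linear disjointness `hld`, a place
`P0` of `F0 / k0` whose residue field is `k0` (`hres`, the output shape of `wp1_exists_const`)
extends to a place of `F / K` with the same orders on `ι F0`. -/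
theorem pe99_place_ext_core (S : ds3_Data k0 K F0 F)
    (hld : ∀ (m : ℕ) (c : Fin m → K) (g : Fin m → F0),
      (∀ a : Fin m → k0, ∑ i, S.φ (a i) * c i = 0 → ∀ i, a i = 0) →
      ∑ i, algebraMap K F (c i) * S.ι (g i) = 0 → ∀ i, g i = 0)
    (P0 : Place k0 F0)
    (hres : ∀ g : F0, g ∈ P0.toValuationSubring →
      ∃ c : k0, g = algebraMap k0 F0 c ∨ 0 < P0.ord (g - algebraMap k0 F0 c)) :
    ∃ P : Place K F, ∀ g : F0, P.ord (S.ι g) = P0.ord g := by
  classical
  let _ : Algebra k0 K := S.φ.toAlgebra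
  let B := Module.Basis.ofVectorSpace k0 K
  obtain ⟨ϖ, hϖ⟩ := IsDiscreteValuationRing.exists_irreducible P0.toValuationSubring
  have hsmul : ∀ (a : k0) (x : K), a • x = S.φ a * x := fun a x => rfl
  have C : pe99_Ctx S.φ S.ι (fun i => B i) P0 (ϖ : F0) :=
    { hι := S.ι_algebraMap
      hspan := by
        intro c
        refine ⟨B.repr c, ?_⟩
        have h := B.linearCombination_repr c
        rw [Finsupp.linearCombination_apply] at h
        exact h
      hind := by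
        intro l hl
        apply linearIndependent_iff.mp B.linearIndependent l
        rw [Finsupp.linearCombination_apply]
        exact hl
      hld := by
        intro f hf
        by_contra hf0
        obtain ⟨i, hi⟩ : ∃ i, i ∈ f.support := Finsupp.support_nonempty_iff.mpr hf0
        let e := f.support.equivFin
        have hinj : Function.Injective (fun j : Fin f.support.card => (e.symm j).1) :=
          fun j j' h => e.symm.injective (Subtype.ext h)
        have hli := B.linearIndependent.comp _ hinj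
        have h1 := hld f.support.card (fun j => B (e.symm j).1) (fun j => f (e.symm j).1)
          (fun a ha => Fintype.linearIndependent_iff.mp hli a ha) (by
            rw [pe99_E_apply, Finsupp.sum, ← Finset.sum_coe_sort] at hf
            rw [← hf]
            exact Equiv.sum_comp e.symm
              (fun i : f.support => algebraMap K F (B i.1) * S.ι (f i.1)))
        have h2 := h1 (e ⟨i, hi⟩)
        rw [Equiv.symm_apply_apply] at h2
        exact (Finsupp.mem_support_iff.mp hi) h2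
      hres := hres
      hπ0 := P0.ord_coe_irreducible hϖ
      hgen := S.gen }
  exact ⟨pe99_place C, pe99_ord_iota C⟩

/-- **T2 = row D4, literal shape of descent ruling 1**: every place of `F0 / k0` extends to a
place of `F / K` with index one. -/
theorem pe99_place_ext [IsAlgClosed k0] [CharZero k0] [IsAlgClosed K] [CharZero K]
    (S : ds3_Data k0 K F0 F) (x : F0) (hx : Transcendental k0 x)
    [FiniteDimensional (IntermediateField.adjoin k0 {x}) F0]
    (_hy : Transcendental K (S.ι x))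
    [FiniteDimensional (IntermediateField.adjoin K {S.ι x}) F]
    (hld : ∀ (m : ℕ) (c : Fin m → K) (g : Fin m → F0),
      (∀ a : Fin m → k0, ∑ i, S.φ (a i) * c i = 0 → ∀ i, a i = 0) →
      ∑ i, algebraMap K F (c i) * S.ι (g i) = 0 → ∀ i, g i = 0)
    (P0 : Place k0 F0) :
    ∃ P : Place K F, ∀ g : F0, P.ord (S.ι g) = P0.ord g :=
  pe99_place_ext_core S hld P0 (fun g hg => wp1_exists_const x hx P0 g hg)

/-- Consumer form for the integrality of `Theta` at the places of `F0`: if `G` has the output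
shape `c · ι g · w ^ n` of `ds3_kummer` and `n ∣ P.ord G` at every place `P` of `F / K`, then
`n ∣ P0.ord g` at every place `P0` of `F0 / k0` (with residue field `k0`). -/
theorem pe99_dvd_descend (S : ds3_Data k0 K F0 F)
    (hld : ∀ (m : ℕ) (c : Fin m → K) (g : Fin m → F0),
      (∀ a : Fin m → k0, ∑ i, S.φ (a i) * c i = 0 → ∀ i, a i = 0) →
      ∑ i, algebraMap K F (c i) * S.ι (g i) = 0 → ∀ i, g i = 0)
    {n : ℕ} {G w : F} {c : K} {g : F0} (hc : c ≠ 0) (hw : w ≠ 0) (hg : g ≠ 0)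
    (hG : G = algebraMap K F c * S.ι g * w ^ n)
    (hdiv : ∀ P : Place K F, (n : ℤ) ∣ P.ord G)
    (P0 : Place k0 F0)
    (hres : ∀ g : F0, g ∈ P0.toValuationSubring →
      ∃ c : k0, g = algebraMap k0 F0 c ∨ 0 < P0.ord (g - algebraMap k0 F0 c)) :
    (n : ℤ) ∣ P0.ord g := by
  obtain ⟨P, hP⟩ := pe99_place_ext_core S hld P0 hres
  have hc' : algebraMap K F c ≠ 0 := by simpa using hc
  have hg' : S.ι g ≠ 0 := by simpa using hg
  have h1 : P.ord G = P0.ord g + n * P.ord w := by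
    rw [hG, P.ord_mul (mul_ne_zero hc' hg') (pow_ne_zero _ hw), P.ord_mul hc' hg',
      wp1_ord_algebraMap, zero_add, hP, ← zpow_natCast, P.ord_zpow]
  have h2 := hdiv P
  rw [h1] at h2
  exact (Int.dvd_add_left (Dvd.intro _ rfl)).mp h2

end pe99final

end Fermat.Agent.S42

end
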