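import Fermat.Agent.S37.WeakRiemann86

/-!
# D5 of the derivation descent (abstract form): minimal representative and derivation quotient

Setting: `K` algebraically closed, `F/K` a function field in one variable (a transcendental `y`
with `F` finite over `K(y)`), `Rat` a set of places (the "rational" ones).

* `dr86_rep`: every divisor is linearly equivalent to `E - B`, `E ≥ 0`, `B` supported on `Rat`.
* `dr86_min`: moreover `E` can be chosen with `L(E) = K`.
* `dr86_quot`, `dr86_supp`: for `n (E - B) = div f` and a map `f ↦ Df` with the local estimates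
  of a coefficientwise derivation, `Df = c f` with `c ∈ K`, and `E` vanishes at every
  non-rational place at which the derivation is nondegenerate.
* `dr86_main`: the package.
-/

open AlgebraicCurve IntermediateField

namespace Fermat.Agent.S42

open Fermat.Agent.S24 Fermat.Agent.S37

section dr86

variable {K F : Type*} [Field K] [IsAlgClosed K] [CharZero K] [Field F] [Algebra K F]

/-- The principal divisor of a nonzero function, as a finitely supported function. -/
theorem dr86_exists_div (y : F) (hy : Transcendental K y) [FiniteDimensional K⟮y⟯ F]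
    (f : F) (hf : f ≠ 0) :
    ∃ D : Divisor K F, (∀ v : Place K F, D v = v.ord f) ∧ Divisor.degree D = 0 :=
  (hi63_hasPrincipalDivisors y hy).exists_divisor f hf

omit [IsAlgClosed K] [CharZero K] in
/-- `ord (f ^ n) = n * ord f` for natural powers. -/
theorem dr86_ord_pow (P : Place K F) (f : F) (n : ℕ) : P.ord (f ^ n) = n * P.ord f := by
  have := P.ord_zpow f (n : ℤ)
  simpa using this

omit [IsAlgClosed K] [CharZero K] in
/-- Step 0: a function `g` making `D + div g` effective at all non-rational places. -/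
theorem dr86_fix (Rat : Set (Place K F))
    (hpole : ∀ P : Place K F, P ∉ Rat →
      ∃ g : F, g ≠ 0 ∧ 0 < P.ord g ∧ ∀ Q : Place K F, Q.ord g < 0 → Q ∈ Rat)
    (D : Divisor K F) :
    ∃ g : F, g ≠ 0 ∧ ∀ Q : Place K F, Q ∉ Rat → 0 ≤ D Q + Q.ord g := by
  classical
  induction D using Finsupp.induction_linear with
  | zero => exact ⟨1, one_ne_zero, fun Q _ => by simp⟩
  | add D₁ D₂ h₁ h₂ =>
    obtain ⟨g₁, hg₁, h₁⟩ := h₁
    obtain ⟨g₂, hg₂, h₂⟩ := h₂
    refine ⟨g₁ * g₂, mul_ne_zero hg₁ hg₂, fun Q hQ => ?_⟩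
    rw [Q.ord_mul hg₁ hg₂, Finsupp.add_apply]
    have := h₁ Q hQ
    have := h₂ Q hQ
    omega
  | single P a =>
    by_cases hP : P ∈ Rat
    · refine ⟨1, one_ne_zero, fun Q hQ => ?_⟩
      have hne : P ≠ Q := fun h => hQ (h ▸ hP)
      simp [hne]
    · by_cases ha : 0 ≤ a
      · refine ⟨1, one_ne_zero, fun Q _ => ?_⟩
        rw [Place.ord_one, add_zero, Finsupp.single_apply]
        split_ifs <;> omega
      · obtain ⟨g, hg, hgP, hgQ⟩ := hpole P hP
        refine ⟨g ^ (-a).toNat, pow_ne_zero _ hg, fun Q hQ => ?_⟩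
        rw [dr86_ord_pow]
        have hcast : (((-a).toNat : ℕ) : ℤ) = -a := Int.toNat_of_nonneg (by omega)
        rw [hcast, Finsupp.single_apply]
        have hQ0 : 0 ≤ Q.ord g := by
          by_contra hcon
          exact hQ (hgQ Q (by omega))
        split_ifs with hPQ
        · subst hPQ
          nlinarith
        · nlinarith

/-- Step (3a): every divisor is linearly equivalent to `E - B` with `E ≥ 0` and `B` supported
on rational places. -/
theorem dr86_rep (y : F) (hy : Transcendental K y) [FiniteDimensional K⟮y⟯ F]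
    (Rat : Set (Place K F))
    (hpole : ∀ P : Place K F, P ∉ Rat →
      ∃ g : F, g ≠ 0 ∧ 0 < P.ord g ∧ ∀ Q : Place K F, Q.ord g < 0 → Q ∈ Rat)
    (D : Divisor K F) :
    ∃ (E B : Divisor K F) (g : F), g ≠ 0 ∧ (∀ Q, 0 ≤ E Q) ∧ (∀ Q, B Q ≠ 0 → Q ∈ Rat) ∧
      (∀ Q, D Q + Q.ord g = E Q - B Q) := by
  classical
  obtain ⟨g, hg, hgD⟩ := dr86_fix Rat hpole D
  obtain ⟨G, hG, -⟩ := dr86_exists_div y hy g hg
  refine ⟨Finsupp.mapRange (fun n : ℤ => max n 0) (by simp) (D + G),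
    Finsupp.mapRange (fun n : ℤ => max (-n) 0) (by simp) (D + G), g, hg, fun Q => ?_,
    fun Q hQ => ?_, fun Q => ?_⟩
  · simp
  · by_contra hcon
    have := hgD Q hcon
    rw [Finsupp.mapRange_apply, Finsupp.add_apply, hG] at hQ
    exact hQ (max_eq_right (by omega))
  · rw [Finsupp.mapRange_apply, Finsupp.mapRange_apply, Finsupp.add_apply, hG]
    rcases le_total 0 (D Q + Q.ord g) with h | h
    · rw [max_eq_left h, max_eq_right (by omega)]; ring
    · rw [max_eq_right h, max_eq_left (by omega)]; ring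

/-- Step (3b): the representative can be chosen with `L(E) = K`. -/
theorem dr86_min (y : F) (hy : Transcendental K y) [FiniteDimensional K⟮y⟯ F]
    (Rat : Set (Place K F))
    (hpole : ∀ P : Place K F, P ∉ Rat →
      ∃ g : F, g ≠ 0 ∧ 0 < P.ord g ∧ ∀ Q : Place K F, Q.ord g < 0 → Q ∈ Rat)
    (hinf : ∀ S : Finset (Place K F), ∃ R ∈ Rat, R ∉ S)
    (D : Divisor K F) :
    ∃ (E B : Divisor K F) (g : F), g ≠ 0 ∧ (∀ Q, 0 ≤ E Q) ∧ (∀ Q, B Q ≠ 0 → Q ∈ Rat) ∧
      (∀ Q, D Q + Q.ord g = E Q - B Q) ∧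
      (∀ h : F, h ≠ 0 → (∀ Q : Place K F, 0 ≤ Q.ord h + E Q) →
        h ∈ Set.range (algebraMap K F)) := by
  classical
  -- the set of degrees of admissible `E`
  let S : ℕ → Prop := fun k => ∃ (E B : Divisor K F) (g : F), g ≠ 0 ∧ (∀ Q, 0 ≤ E Q) ∧
      (∀ Q, B Q ≠ 0 → Q ∈ Rat) ∧ (∀ Q, D Q + Q.ord g = E Q - B Q) ∧ Divisor.degree E = (k : ℤ)
  have hS : ∃ k, S k := by
    obtain ⟨E, B, g, hg, hE, hB, hD⟩ := dr86_rep y hy Rat hpole D
    refine ⟨(Divisor.degree E).toNat, E, B, g, hg, hE, hB, hD, ?_⟩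
    exact (Int.toNat_of_nonneg (wr86_degree_nonneg y hy hE)).symm
  obtain ⟨E, B, g, hg, hE, hB, hD, hdeg⟩ := Nat.find_spec hS
  refine ⟨E, B, g, hg, hE, hB, hD, fun h hh hhE => ?_⟩
  by_contra hcon
  obtain ⟨R, hR, hRE⟩ := hinf E.support
  have hER : E R = 0 := by simpa using hRE
  have hhR : h ∈ R.toValuationSubring := by
    rw [wp1_mem_iff_ord_nonneg]
    have := hhE R
    omega
  obtain ⟨c, hc | hc⟩ := wp1_exists_const y hy R h hhR
  · exact hcon ⟨c, hc.symm⟩
  set h' : F := h - algebraMap K F c with hh'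
  have hh'0 : h' ≠ 0 := fun h0 => hcon ⟨c, (sub_eq_zero.mp h0).symm⟩
  have hh'E : ∀ Q : Place K F, 0 ≤ Q.ord h' + E Q := by
    intro Q
    have h1 : h ∈ wr86_ball Q (-E Q) := by
      rw [wr86_mem_ball]
      right
      have := hhE Q
      omega
    have h2 : algebraMap K F c ∈ wr86_ball Q (-E Q) := by
      rw [wr86_mem_ball]
      right
      rw [wp1_ord_algebraMap]
      have := hE Q
      omega
    have h3 : h' ∈ wr86_ball Q (-E Q) := Submodule.sub_mem _ h1 h2
    rw [wr86_mem_ball] at h3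
    rcases h3 with h3 | h3
    · exact absurd h3 hh'0
    · omega
  obtain ⟨H, hH, hHdeg⟩ := dr86_exists_div y hy h' hh'0
  have hdegR : Divisor.degree (Finsupp.single R (1 : ℤ)) = 1 := by
    rw [Divisor.degree_single, wp1_deg_eq_one y hy R]
    simp
  have hE2 : ∀ Q, 0 ≤ (E + H - Finsupp.single R (1 : ℤ)) Q := by
    intro Q
    rw [Finsupp.sub_apply, Finsupp.add_apply, hH, Finsupp.single_apply]
    split_ifs with hRQ
    · subst hRQ
      rw [hER]
      omega
    · have := hh'E Q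
      omega
  have hdeg2 : Divisor.degree (E + H - Finsupp.single R (1 : ℤ)) =
      Divisor.degree E - 1 := by
    rw [map_sub, map_add, hHdeg, hdegR, add_zero]
  have hnn := wr86_degree_nonneg y hy hE2
  have hk : 1 ≤ Nat.find hS := by
    have : (1 : ℤ) ≤ (Nat.find hS : ℤ) := by
      rw [← hdeg]
      omega
    exact_mod_cast this
  refine Nat.find_min hS (m := Nat.find hS - 1) (by omega)
    ⟨E + H - Finsupp.single R (1 : ℤ), B - Finsupp.single R (1 : ℤ), g * h',
      mul_ne_zero hg hh'0, hE2, fun Q hQ => ?_, fun Q => ?_, ?_⟩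
  · rw [Finsupp.sub_apply, Finsupp.single_apply] at hQ
    by_cases hRQ : R = Q
    · exact hRQ ▸ hR
    · rw [if_neg hRQ, sub_zero] at hQ
      exact hB Q hQ
  · rw [Q.ord_mul hg hh'0, Finsupp.sub_apply, Finsupp.sub_apply, Finsupp.add_apply, hH]
    have := hD Q
    omega
  · rw [hdeg2, hdeg]
    omega

omit [IsAlgClosed K] [CharZero K] in
/-- Step (4a): the derivation quotient `Df / f` is a constant. Here `Df` is any element of `F`
satisfying the local estimates of a coefficientwise derivation applied to `f`. -/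
theorem dr86_quot (Rat : Set (Place K F)) (E B : Divisor K F)
    (hE : ∀ Q, 0 ≤ E Q) (hB : ∀ Q, B Q ≠ 0 → Q ∈ Rat)
    (hL : ∀ h : F, h ≠ 0 → (∀ Q : Place K F, 0 ≤ Q.ord h + E Q) →
      h ∈ Set.range (algebraMap K F))
    (n : ℤ) (f : F) (hf : f ≠ 0) (hdiv : ∀ Q : Place K F, Q.ord f = n * (E Q - B Q))
    (Df : F)
    (h1 : Df ≠ 0 → ∀ P : Place K F, P ∈ Rat → P.ord f ≤ P.ord Df)
    (h2 : Df ≠ 0 → ∀ P : Place K F, P ∉ Rat →
      P.ord f - 1 ≤ P.ord Df ∧ (P.ord f = 0 → 0 ≤ P.ord Df)) :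
    ∃ c : K, Df = algebraMap K F c * f := by
  by_cases hDf : Df = 0
  · exact ⟨0, by simp [hDf]⟩
  have hu : Df * f⁻¹ ≠ 0 := mul_ne_zero hDf (inv_ne_zero hf)
  have hordu : ∀ Q : Place K F, Q.ord (Df * f⁻¹) = Q.ord Df - Q.ord f := by
    intro Q
    rw [Q.ord_mul hDf (inv_ne_zero hf), Q.ord_inv]
    ring
  obtain ⟨c, hc⟩ := hL (Df * f⁻¹) hu (fun Q => by
    rw [hordu]
    by_cases hQ : Q ∈ Rat
    · have := h1 hDf Q hQ
      have := hE Q
      omega
    · obtain ⟨ha, hb⟩ := h2 hDf Q hQ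
      have hBQ : B Q = 0 := by
        by_contra hcon
        exact hQ (hB Q hcon)
      have hfQ : Q.ord f = n * E Q := by rw [hdiv, hBQ, sub_zero]
      rcases (hE Q).eq_or_lt with h0 | h0
      · have hf0 : Q.ord f = 0 := by rw [hfQ, ← h0, mul_zero]
        have := hb hf0
        omega
      · omega)
  refine ⟨c, ?_⟩
  rw [hc]
  field_simp

omit [IsAlgClosed K] [CharZero K] in
/-- Step (4b): `E` vanishes at a non-rational place where the derivation is nondegenerate. -/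
theorem dr86_supp (P : Place K F) (f : F) (hf : f ≠ 0) (Df : F)
    (hc : ∃ c : K, Df = algebraMap K F c * f)
    (h3 : P.ord f ≠ 0 → Df ≠ 0 ∧ P.ord Df = P.ord f - 1) : P.ord f = 0 := by
  by_contra hcon
  obtain ⟨hDf, hord⟩ := h3 hcon
  obtain ⟨c, rfl⟩ := hc
  have hc0 : algebraMap K F c ≠ 0 := left_ne_zero_of_mul hDf
  rw [P.ord_mul hc0 hf] at hord
  have hc1 : P.ord (algebraMap K F c) = 0 := by
    have hc' : c ≠ 0 := fun h => hc0 (by rw [h, map_zero])
    have hu : IsUnit (algebraMap K P.toValuationSubring c) := (Ne.isUnit hc').map _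
    have := P.ord_coe_unit hu.unit
    simpa using this
  omega

/-- **D5, abstract form.** If `n D = div f0` with `n ≠ 0`, then `D` is linearly equivalent to
a divisor `A` supported on rational places, `n A = div f` with `f = f0 * g ^ n`, and every
"derivation" `Dv i` multiplies `f` by a constant. -/
theorem dr86_main (y : F) (hy : Transcendental K y) [FiniteDimensional K⟮y⟯ F]
    (Rat : Set (Place K F))
    (hpole : ∀ P : Place K F, P ∉ Rat →
      ∃ g : F, g ≠ 0 ∧ 0 < P.ord g ∧ ∀ Q : Place K F, Q.ord g < 0 → Q ∈ Rat)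
    (hinf : ∀ S : Finset (Place K F), ∃ R ∈ Rat, R ∉ S)
    {ι : Type*} (Dv : ι → F → F)
    (h1 : ∀ i, ∀ P : Place K F, P ∈ Rat → ∀ f : F, f ≠ 0 → Dv i f ≠ 0 →
      P.ord f ≤ P.ord (Dv i f))
    (h2 : ∀ i, ∀ P : Place K F, P ∉ Rat → ∀ f : F, f ≠ 0 → Dv i f ≠ 0 →
      P.ord f - 1 ≤ P.ord (Dv i f) ∧ (P.ord f = 0 → 0 ≤ P.ord (Dv i f)))
    (h3 : ∀ P : Place K F, P ∉ Rat → ∃ i, ∀ f : F, f ≠ 0 → P.ord f ≠ 0 →
      Dv i f ≠ 0 ∧ P.ord (Dv i f) = P.ord f - 1)
    (n : ℤ) (hn : n ≠ 0) (D : Divisor K F) (f0 : F) (hf0 : f0 ≠ 0)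
    (hD : ∀ Q : Place K F, Q.ord f0 = n * D Q) :
    ∃ (A : Divisor K F) (g f : F), g ≠ 0 ∧ f ≠ 0 ∧ (∀ Q, A Q ≠ 0 → Q ∈ Rat) ∧
      (∀ Q : Place K F, D Q + Q.ord g = A Q) ∧ f = f0 * g ^ n ∧
      (∀ Q : Place K F, Q.ord f = n * A Q) ∧
      ∀ i, ∃ c : K, Dv i f = algebraMap K F c * f := by
  classical
  obtain ⟨E, B, g, hg, hE, hB, hDg, hL⟩ := dr86_min y hy Rat hpole hinf D
  have hf : f0 * g ^ n ≠ 0 := mul_ne_zero hf0 (zpow_ne_zero _ hg)
  have hdiv : ∀ Q : Place K F, Q.ord (f0 * g ^ n) = n * (E Q - B Q) := by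
    intro Q
    rw [Q.ord_mul hf0 (zpow_ne_zero _ hg), Q.ord_zpow, hD, ← hDg]
    ring
  have hquot : ∀ i, ∃ c : K, Dv i (f0 * g ^ n) = algebraMap K F c * (f0 * g ^ n) := fun i =>
    dr86_quot Rat E B hE hB hL n (f0 * g ^ n) hf hdiv (Dv i (f0 * g ^ n))
      (fun hne P hP => h1 i P hP _ hf hne) (fun hne P hP => h2 i P hP _ hf hne)
  have hEB : ∀ Q : Place K F, Q ∉ Rat → E Q - B Q = 0 := by
    intro Q hQ
    obtain ⟨i, hi⟩ := h3 Q hQ
    have h0 := dr86_supp Q (f0 * g ^ n) hf (Dv i (f0 * g ^ n)) (hquot i) (hi _ hf)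
    rw [hdiv] at h0
    rcases mul_eq_zero.mp h0 with h0 | h0
    · exact absurd h0 hn
    · exact h0
  refine ⟨E - B, g, f0 * g ^ n, hg, hf, fun Q hQ => ?_, fun Q => ?_, rfl, fun Q => ?_, hquot⟩
  · by_contra hcon
    exact hQ (by rw [Finsupp.sub_apply]; exact hEB Q hcon)
  · rw [Finsupp.sub_apply]
    exact hDg Q
  · rw [Finsupp.sub_apply]
    exact hdiv Q

end dr86

end Fermat.Agent.S42
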