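import Mathlib
import Fermat.Prelude.Def_AlgebraicCurve_DivisorClassGroup

/-!
# S42, descent block, row D5-abs (helper5): the abstract global core of the derivation descent

Setting: `F / K` a function field with the Prelude `Place / Divisor / ord` API, a set
`Rat` of "rational" places and a set `DD` of maps `F → F` (the admissible derivations; no
algebraic structure on `DD` is used here, only the local inequalities below).

* `dd5_LTrivial E` : `L(E) = K`.
* `dd5_exists_minimal` : every divisor is linearly equivalent to `E - B` with `E ≥ 0`,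
  `B` supported on rational places and `L(E) = K` (representative with `deg E` minimal).
* `dd5_core` : if `n (E - B) = div f` with `E ≥ 0`, `L(E) = K`, `B` rational, then `E` is
  supported on rational places and `f` is a common eigenvector of all `D ∈ DD`.
* `dd5_descent` : the two together.
-/

set_option autoImplicit false

namespace Fermat.Agent.S42

open AlgebraicCurve

section Basic

variable {K F : Type*} [Field K] [Field F] [Algebra K F]

theorem dd5_ord_le_ord_iff (v : Place K F) {f g : F} (hf : f ≠ 0) (hg : g ≠ 0) :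
    v.ord f ≤ v.ord g ↔ v.adicValuation g ≤ v.adicValuation f := by
  unfold Place.ord
  rw [neg_le_neg_iff, WithZero.log_le_log (v.adicValuation_ne_zero hg)
    (v.adicValuation_ne_zero hf)]

theorem dd5_ord_add (v : Place K F) (f g : F) (hfg : f + g ≠ 0) (hf : f ≠ 0) (hg : g ≠ 0) :
    min (v.ord f) (v.ord g) ≤ v.ord (f + g) := by
  have h := Valuation.map_add v.adicValuation f g
  rcases le_total (v.adicValuation f) (v.adicValuation g) with h1 | h1
  · rw [max_eq_right h1] at h
    exact (min_le_right _ _).trans ((dd5_ord_le_ord_iff v hg hfg).mpr h)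
  · rw [max_eq_left h1] at h
    exact (min_le_left _ _).trans ((dd5_ord_le_ord_iff v hf hfg).mpr h)

theorem dd5_ord_algebraMap (v : Place K F) (c : K) : v.ord (algebraMap K F c) = 0 := by
  rcases eq_or_ne c 0 with rfl | hc
  · simp
  have hu : IsUnit (algebraMap K v.toValuationSubring c) := (Ne.isUnit hc).map _
  have := v.ord_coe_unit hu.unit
  rwa [IsUnit.unit_spec, v.coe_algebraMap] at this

theorem dd5_ord_pow (v : Place K F) (f : F) (n : ℕ) : v.ord (f ^ n) = n * v.ord f := by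
  have := v.ord_zpow f (n : ℤ)
  rwa [zpow_natCast] at this

theorem dd5_ord_prod {ι : Type*} (v : Place K F) (s : Finset ι) (a : ι → F)
    (ha : ∀ i ∈ s, a i ≠ 0) : v.ord (∏ i ∈ s, a i) = ∑ i ∈ s, v.ord (a i) := by
  classical
  induction s using Finset.induction_on with
  | empty => simp
  | insert i s hi ih =>
    rw [Finset.prod_insert hi, Finset.sum_insert hi,
      v.ord_mul (ha i (Finset.mem_insert_self i s))
        (Finset.prod_ne_zero_iff.mpr fun j hj => ha j (Finset.mem_insert_of_mem hj)),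
      ih fun j hj => ha j (Finset.mem_insert_of_mem hj)]

/-- `g - c` still lies in `L(E)` if `g` does and `E ≥ 0`. -/
theorem dd5_ord_sub_const (v : Place K F) (g : F) (c : K) (n : ℤ) (hn : 0 ≤ n)
    (hg : 0 ≤ v.ord g + n) : 0 ≤ v.ord (g - algebraMap K F c) + n := by
  rcases eq_or_ne c 0 with rfl | hc
  · simpa using hg
  rcases eq_or_ne g 0 with rfl | hg0
  · rw [zero_sub, show -(algebraMap K F c) = algebraMap K F (-c) by rw [map_neg],
      dd5_ord_algebraMap]
    simpa using hn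
  rcases eq_or_ne (g - algebraMap K F c) 0 with h0 | h0
  · rw [h0]; simpa using hn
  have hc' : -(algebraMap K F c) ≠ 0 := neg_ne_zero.mpr ((map_ne_zero _).mpr hc)
  have h1 := dd5_ord_add v g (-(algebraMap K F c)) (by rwa [← sub_eq_add_neg]) hg0 hc'
  rw [← sub_eq_add_neg, show -(algebraMap K F c) = algebraMap K F (-c) by rw [map_neg],
    dd5_ord_algebraMap] at h1
  rcases min_le_iff.mp h1 with h2 | h2
  · linarith
  · linarith

end Basic

section Core

variable {K F : Type*} [Field K] [Field F] [Algebra K F]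

/-- `L(E) = K`: every nonzero `g` with `div g + E ≥ 0` is a constant. -/
def dd5_LTrivial (E : Divisor K F) : Prop :=
  ∀ g : F, g ≠ 0 → (∀ v : Place K F, 0 ≤ v.ord g + E v) → ∃ c : K, g = algebraMap K F c

/-- **Global core of the derivation descent.**  If `n (E - B) = div f` with `E ≥ 0`,
`L(E) = K` and `B` supported on rational places, then `E` is supported on rational places and
`f` is a common eigenvector of all the maps `D ∈ DD`. -/
theorem dd5_core (Rat : Set (Place K F)) (DD : Set (F → F))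
    (hrat : ∀ D ∈ DD, ∀ P ∈ Rat, ∀ f : F, f ≠ 0 → D f ≠ 0 → P.ord f ≤ P.ord (D f))
    (hgen : ∀ D ∈ DD, ∀ P : Place K F, ∀ f : F, f ≠ 0 → D f ≠ 0 → P.ord f - 1 ≤ P.ord (D f))
    (hunit : ∀ D ∈ DD, ∀ P : Place K F, ∀ f : F, f ≠ 0 → D f ≠ 0 → P.ord f = 0 →
      0 ≤ P.ord (D f))
    (hpole : ∀ P : Place K F, P ∉ Rat → ∃ D ∈ DD, ∀ f : F, f ≠ 0 → P.ord f ≠ 0 →
      D f ≠ 0 ∧ P.ord (D f) = P.ord f - 1)
    {E B : Divisor K F} (hE : ∀ v, 0 ≤ E v) (hB : ∀ v, B v ≠ 0 → v ∈ Rat)
    (hL : dd5_LTrivial E) {n : ℕ} (hn : 0 < n) {f : F} (hf : f ≠ 0)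
    (hdiv : ∀ v : Place K F, v.ord f = n * (E v - B v)) :
    (∀ v, E v ≠ 0 → v ∈ Rat) ∧ ∀ D ∈ DD, ∃ c : K, D f = algebraMap K F c * f := by
  have heig : ∀ D ∈ DD, ∃ c : K, D f = algebraMap K F c * f := by
    intro D hD
    by_cases hDf : D f = 0
    · exact ⟨0, by rw [hDf, map_zero, zero_mul]⟩
    have hu0 : D f * f⁻¹ ≠ 0 := mul_ne_zero hDf (inv_ne_zero hf)
    have hord : ∀ v : Place K F, v.ord (D f * f⁻¹) = v.ord (D f) - v.ord f := by
      intro v
      rw [v.ord_mul hDf (inv_ne_zero hf), v.ord_inv]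
      ring
    obtain ⟨c, hc⟩ := hL (D f * f⁻¹) hu0 (by
      intro v
      rw [hord v]
      by_cases hv : v ∈ Rat
      · have := hrat D hD v hv f hf hDf
        have := hE v
        linarith
      · have hBv : B v = 0 := by
          by_contra h
          exact hv (hB v h)
        have hfv : v.ord f = n * E v := by rw [hdiv v, hBv, sub_zero]
        rcases (hE v).eq_or_lt with h0 | h0
        · have h1 : v.ord f = 0 := by rw [hfv, ← h0, mul_zero]
          have := hunit D hD v f hf hDf h1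
          rw [h1, ← h0]
          linarith
        · have := hgen D hD v f hf hDf
          linarith)
    refine ⟨c, ?_⟩
    rw [← hc, mul_assoc, inv_mul_cancel₀ hf, mul_one]
  refine ⟨?_, heig⟩
  intro v hEv
  by_contra hv
  have hBv : B v = 0 := by
    by_contra h
    exact hv (hB v h)
  have hfv : v.ord f ≠ 0 := by
    rw [hdiv v, hBv, sub_zero]
    exact mul_ne_zero (by exact_mod_cast hn.ne') hEv
  obtain ⟨D, hD, hDP⟩ := hpole v hv
  obtain ⟨hDf, hordD⟩ := hDP f hf hfv
  obtain ⟨c, hc⟩ := heig D hD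
  have hc0 : c ≠ 0 := by
    rintro rfl
    rw [map_zero, zero_mul] at hc
    exact hDf hc
  have : v.ord (D f) = v.ord f := by
    rw [hc, v.ord_mul ((map_ne_zero _).mpr hc0) hf, dd5_ord_algebraMap, zero_add]
  rw [this] at hordD
  linarith

end Core

section Minimal

variable {K F : Type*} [Field K] [Field F] [Algebra K F]

theorem dd5_degree_nonneg (E : Divisor K F) (hE : ∀ v, 0 ≤ E v) : 0 ≤ Divisor.degree E := by
  have h : Divisor.degree E = E.sum fun v n => n * (v.deg : ℤ) := by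
    simp [Divisor.degree, Finsupp.liftAddHom_apply]
  rw [h]
  exact Finsupp.sum_nonneg fun v _ => mul_nonneg (hE v) (Int.natCast_nonneg _)

/-- Clearing the negative part of a divisor at the non-rational places. -/
theorem dd5_exists_clear (Rat : Set (Place K F))
    (hneg : ∀ P : Place K F, P ∉ Rat → ∃ g : F, g ≠ 0 ∧ 0 < P.ord g ∧
      ∀ Q : Place K F, Q.ord g < 0 → Q ∈ Rat)
    (Δ : Divisor K F) :
    ∃ h : F, h ≠ 0 ∧ ∀ v : Place K F, v ∉ Rat → 0 ≤ Δ v + v.ord h := by
  classical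
  choose g hg0 hgpos hgpole using hneg
  let a : Place K F → F := fun P => if hP : P ∉ Rat then g P hP else 1
  have ha0 : ∀ P, a P ≠ 0 := by
    intro P
    by_cases hP : P ∉ Rat
    · simp only [a, dif_pos hP]; exact hg0 P hP
    · simp only [a, dif_neg hP]; exact one_ne_zero
  have hanonneg : ∀ v : Place K F, v ∉ Rat → ∀ P, 0 ≤ v.ord (a P) := by
    intro v hv P
    by_cases hP : P ∉ Rat
    · simp only [a, dif_pos hP]
      by_contra hlt
      exact hv (hgpole P hP v (not_le.mp hlt))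
    · simp only [a, dif_neg hP, Place.ord_one, le_refl]
  have hapos : ∀ v : Place K F, v ∉ Rat → 0 < v.ord (a v) := by
    intro v hv
    simp only [a, dif_pos hv]
    exact hgpos v hv
  refine ⟨∏ P ∈ Δ.support, a P ^ (Δ P).natAbs, ?_, ?_⟩
  · exact Finset.prod_ne_zero_iff.mpr fun P _ => pow_ne_zero _ (ha0 P)
  · intro v hv
    rw [dd5_ord_prod v Δ.support _ fun P _ => pow_ne_zero _ (ha0 P)]
    simp only [dd5_ord_pow]
    have hterm : ∀ P ∈ Δ.support, (0 : ℤ) ≤ ((Δ P).natAbs : ℤ) * v.ord (a P) := fun P _ =>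
      mul_nonneg (Int.natCast_nonneg _) (hanonneg v hv P)
    by_cases hvs : v ∈ Δ.support
    · have h1 := Finset.single_le_sum hterm hvs
      have h2 : ((Δ v).natAbs : ℤ) * 1 ≤ ((Δ v).natAbs : ℤ) * v.ord (a v) :=
        mul_le_mul_of_nonneg_left (hapos v hv) (Int.natCast_nonneg _)
      have h3 : -Δ v ≤ ((Δ v).natAbs : ℤ) := by
        rw [Int.natCast_natAbs]; exact neg_le_abs (Δ v)
      linarith
    · have h1 := Finset.sum_nonneg hterm
      rw [Finsupp.notMem_support_iff.mp hvs]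
      linarith

variable [HasPrincipalDivisors K F]

/-- A first representative `E - B`, `E ≥ 0`, `B` supported on rational places. -/
theorem dd5_exists_rep (Rat : Set (Place K F))
    (hneg : ∀ P : Place K F, P ∉ Rat → ∃ g : F, g ≠ 0 ∧ 0 < P.ord g ∧
      ∀ Q : Place K F, Q.ord g < 0 → Q ∈ Rat)
    (Δ : Divisor K F) :
    ∃ (E B : Divisor K F) (h : F), h ≠ 0 ∧ (∀ v, 0 ≤ E v) ∧ (∀ v, B v ≠ 0 → v ∈ Rat) ∧
      ∀ v : Place K F, Δ v + v.ord h = E v - B v := by
  classical
  obtain ⟨h, hh0, hh⟩ := dd5_exists_clear Rat hneg Δ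
  obtain ⟨Dh, hDh, -⟩ := HasPrincipalDivisors.exists_divisor (K := K) h hh0
  refine ⟨(Δ + Dh).mapRange (fun n => max n 0) (by simp),
    (Δ + Dh).mapRange (fun n => max (-n) 0) (by simp), h, hh0, ?_, ?_, ?_⟩
  · intro v
    simp
  · intro v hv
    by_contra hvR
    apply hv
    have := hh v hvR
    simp only [Finsupp.mapRange_apply, Finsupp.add_apply, hDh v]
    exact max_eq_right (by linarith)
  · intro v
    simp only [Finsupp.mapRange_apply, Finsupp.add_apply, hDh v]
    rw [max_zero_sub_max_neg_zero_eq_self]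

/-- **Minimal representative.**  Every divisor is linearly equivalent to `E - B` with `E ≥ 0`,
`B` supported on rational places and `L(E) = K`. -/
theorem dd5_exists_minimal (Rat : Set (Place K F))
    (hdeg : ∀ R ∈ Rat, 0 < R.deg)
    (hinf : ∀ S : Finset (Place K F), ∃ R ∈ Rat, R ∉ S)
    (hval : ∀ R ∈ Rat, ∀ g : F, 0 ≤ R.ord g →
      ∃ c : K, g = algebraMap K F c ∨ 0 < R.ord (g - algebraMap K F c))
    (hneg : ∀ P : Place K F, P ∉ Rat → ∃ g : F, g ≠ 0 ∧ 0 < P.ord g ∧
      ∀ Q : Place K F, Q.ord g < 0 → Q ∈ Rat)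
    (Δ : Divisor K F) :
    ∃ (E B : Divisor K F) (h : F), h ≠ 0 ∧ (∀ v, 0 ≤ E v) ∧ (∀ v, B v ≠ 0 → v ∈ Rat) ∧
      (∀ v : Place K F, Δ v + v.ord h = E v - B v) ∧ dd5_LTrivial E := by
  classical
  have key : ∀ n : ℕ, ∀ (E B : Divisor K F) (h : F), h ≠ 0 → (∀ v, 0 ≤ E v) →
      (∀ v, B v ≠ 0 → v ∈ Rat) → (∀ v : Place K F, Δ v + v.ord h = E v - B v) →
      Divisor.degree E = n →
      ∃ (E' B' : Divisor K F) (h' : F), h' ≠ 0 ∧ (∀ v, 0 ≤ E' v) ∧ (∀ v, B' v ≠ 0 → v ∈ Rat) ∧
        (∀ v : Place K F, Δ v + v.ord h' = E' v - B' v) ∧ dd5_LTrivial E' := by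
    intro n
    induction n using Nat.strong_induction_on with
    | _ n ih =>
      intro E B h hh0 hE hB hrel hdegE
      by_cases hL : dd5_LTrivial E
      · exact ⟨E, B, h, hh0, hE, hB, hrel, hL⟩
      unfold dd5_LTrivial at hL
      push Not at hL
      obtain ⟨g, hg0, hgE, hgc⟩ := hL
      obtain ⟨R, hR, hRE⟩ := hinf E.support
      have hER : E R = 0 := Finsupp.notMem_support_iff.mp hRE
      have hgR : 0 ≤ R.ord g := by
        have := hgE R
        rw [hER] at this
        linarith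
      obtain ⟨c, hc | hc⟩ := hval R hR g hgR
      · exact absurd hc (hgc c)
      have hg'0 : g - algebraMap K F c ≠ 0 := sub_ne_zero.mpr (hgc c)
      obtain ⟨Dg, hDg, hDgdeg⟩ :=
        HasPrincipalDivisors.exists_divisor (K := K) (g - algebraMap K F c) hg'0
      have hE2 : ∀ v, 0 ≤ (E + Dg - Finsupp.single R 1 : Divisor K F) v := by
        intro v
        simp only [Finsupp.sub_apply, Finsupp.add_apply, hDg v, Finsupp.single_apply]
        have h1 := dd5_ord_sub_const v g c (E v) (hE v) (hgE v)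
        split_ifs with hv
        · subst hv
          rw [hER]
          linarith
        · linarith
      have hdeg2 : Divisor.degree (E + Dg - Finsupp.single R 1 : Divisor K F) =
          (n : ℤ) - (R.deg : ℤ) := by
        rw [map_sub, map_add, hDgdeg, hdegE, Divisor.degree_single]
        ring
      have hnn := dd5_degree_nonneg _ hE2
      have hRdeg := hdeg R hR
      have hle : R.deg ≤ n := by
        rw [hdeg2] at hnn
        omega
      refine ih (n - R.deg) (by omega) (E + Dg - Finsupp.single R 1) (B - Finsupp.single R 1)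
        (h * (g - algebraMap K F c)) (mul_ne_zero hh0 hg'0) hE2 ?_ ?_ ?_
      · intro v hv
        by_cases hvR : v = R
        · rw [hvR]; exact hR
        · apply hB
          simpa [Finsupp.single_apply, Ne.symm hvR] using hv
      · intro v
        rw [v.ord_mul hh0 hg'0]
        simp only [Finsupp.sub_apply, Finsupp.add_apply, hDg v]
        have := hrel v
        linarith
      · rw [hdeg2]
        omega
  obtain ⟨E0, B0, h0, hh0, hE0, hB0, hrel0⟩ := dd5_exists_rep Rat hneg Δ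
  have hnn := dd5_degree_nonneg E0 hE0
  obtain ⟨n, hn⟩ := Int.eq_ofNat_of_zero_le hnn
  exact key n E0 B0 h0 hh0 hE0 hB0 hrel0 hn

end Minimal

section Descent

variable {K F : Type*} [Field K] [Field F] [Algebra K F] [HasPrincipalDivisors K F]

/-- Linearly equivalent divisors have the same degree. -/
theorem dd5_degree_eq {Δ Δ' : Divisor K F} {h : F} (hh : h ≠ 0)
    (hrel : ∀ v : Place K F, Δ' v = Δ v + v.ord h) :
    Divisor.degree Δ' = Divisor.degree Δ := by
  obtain ⟨Dh, hDh, hdeg⟩ := HasPrincipalDivisors.exists_divisor (K := K) h hh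
  have : Δ' = Δ + Dh := by
    ext v
    rw [Finsupp.add_apply, hDh v, hrel v]
  rw [this, map_add, hdeg, add_zero]

/-- **Derivation descent, abstract form.**  If `n Δ = div f₀` (`n ≥ 1`), then `Δ` is linearly
equivalent to a divisor `Δ'` supported on rational places, and the function
`f = f₀ hⁿ` with `div f = n Δ'` is a common eigenvector of all `D ∈ DD`. -/
theorem dd5_descent (Rat : Set (Place K F)) (DD : Set (F → F))
    (hdeg : ∀ R ∈ Rat, 0 < R.deg)
    (hinf : ∀ S : Finset (Place K F), ∃ R ∈ Rat, R ∉ S)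
    (hval : ∀ R ∈ Rat, ∀ g : F, 0 ≤ R.ord g →
      ∃ c : K, g = algebraMap K F c ∨ 0 < R.ord (g - algebraMap K F c))
    (hneg : ∀ P : Place K F, P ∉ Rat → ∃ g : F, g ≠ 0 ∧ 0 < P.ord g ∧
      ∀ Q : Place K F, Q.ord g < 0 → Q ∈ Rat)
    (hrat : ∀ D ∈ DD, ∀ P ∈ Rat, ∀ f : F, f ≠ 0 → D f ≠ 0 → P.ord f ≤ P.ord (D f))
    (hgen : ∀ D ∈ DD, ∀ P : Place K F, ∀ f : F, f ≠ 0 → D f ≠ 0 → P.ord f - 1 ≤ P.ord (D f))
    (hunit : ∀ D ∈ DD, ∀ P : Place K F, ∀ f : F, f ≠ 0 → D f ≠ 0 → P.ord f = 0 →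
      0 ≤ P.ord (D f))
    (hpole : ∀ P : Place K F, P ∉ Rat → ∃ D ∈ DD, ∀ f : F, f ≠ 0 → P.ord f ≠ 0 →
      D f ≠ 0 ∧ P.ord (D f) = P.ord f - 1)
    (Δ : Divisor K F) {n : ℕ} (hn : 0 < n) {f₀ : F} (hf₀ : f₀ ≠ 0)
    (hΔ : ∀ v : Place K F, v.ord f₀ = n * Δ v) :
    ∃ (Δ' : Divisor K F) (h f : F), h ≠ 0 ∧ f ≠ 0 ∧ f = f₀ * h ^ n ∧
      (∀ v : Place K F, Δ' v = Δ v + v.ord h) ∧ (∀ v, Δ' v ≠ 0 → v ∈ Rat) ∧
      (∀ v : Place K F, v.ord f = n * Δ' v) ∧
      ∀ D ∈ DD, ∃ c : K, D f = algebraMap K F c * f := by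
  obtain ⟨E, B, h, hh0, hE, hB, hrel, hL⟩ := dd5_exists_minimal Rat hdeg hinf hval hneg Δ
  have hf : f₀ * h ^ n ≠ 0 := mul_ne_zero hf₀ (pow_ne_zero _ hh0)
  have hdiv : ∀ v : Place K F, v.ord (f₀ * h ^ n) = n * (E v - B v) := by
    intro v
    rw [v.ord_mul hf₀ (pow_ne_zero _ hh0), dd5_ord_pow, hΔ v, ← hrel v]
    ring
  obtain ⟨hER, heig⟩ := dd5_core Rat DD hrat hgen hunit hpole hE hB hL hn hf hdiv
  refine ⟨E - B, h, f₀ * h ^ n, hh0, hf, rfl, ?_, ?_, ?_, heig⟩
  · intro v
    rw [Finsupp.sub_apply, hrel v]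
  · intro v hv
    rw [Finsupp.sub_apply] at hv
    by_cases hEv : E v = 0
    · apply hB
      intro hBv
      rw [hEv, hBv, sub_zero] at hv
      exact hv rfl
    · exact hER v hEv
  · intro v
    rw [hdiv v, Finsupp.sub_apply]

omit [HasPrincipalDivisors K F] in
/-- The case `E = 0` of `dd5_core`: a function whose divisor is supported on rational places
is a common eigenvector of all `D ∈ DD` (given `L(0) = K`). -/
theorem dd5_core_rational (Rat : Set (Place K F)) (DD : Set (F → F))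
    (hrat : ∀ D ∈ DD, ∀ P ∈ Rat, ∀ f : F, f ≠ 0 → D f ≠ 0 → P.ord f ≤ P.ord (D f))
    (hunit : ∀ D ∈ DD, ∀ P : Place K F, ∀ f : F, f ≠ 0 → D f ≠ 0 → P.ord f = 0 →
      0 ≤ P.ord (D f))
    (hL : dd5_LTrivial (0 : Divisor K F)) {f : F} (hf : f ≠ 0)
    (hsupp : ∀ v : Place K F, v.ord f ≠ 0 → v ∈ Rat) :
    ∀ D ∈ DD, ∃ c : K, D f = algebraMap K F c * f := by
  intro D hD
  by_cases hDf : D f = 0
  · exact ⟨0, by rw [hDf, map_zero, zero_mul]⟩
  have hu0 : D f * f⁻¹ ≠ 0 := mul_ne_zero hDf (inv_ne_zero hf)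
  obtain ⟨c, hc⟩ := hL (D f * f⁻¹) hu0 (by
    intro v
    rw [v.ord_mul hDf (inv_ne_zero hf), v.ord_inv, Finsupp.zero_apply, add_zero]
    by_cases hv : v.ord f = 0
    · have := hunit D hD v f hf hDf hv
      rw [hv]
      linarith
    · have := hrat D hD v (hsupp v hv) f hf hDf
      linarith)
  refine ⟨c, ?_⟩
  rw [← hc, mul_assoc, inv_mul_cancel₀ hf, mul_one]

end Descent

end Fermat.Agent.S42
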