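import Mathlib
import Fermat.Prelude.Def_AlgebraicCurve_DivisorClassGroup

/-!
# S42 descent, row D3 (helper62): local analysis at rational / non-rational places

Abstract setting: fields `k₀ ⊆ K`, `F₀/k₀`, `F/K`, a map `F₀ → F`, and `F = Frac (K[F₀])`.
A derivation `D` of `F` killing `F₀` and preserving `K`; a place `P` of `F/K`.
-/

set_option autoImplicit false

open AlgebraicCurve Polynomial IntermediateField

namespace Fermat.Agent.S42

section Dict

variable {K F : Type*} [Field K] [Field F] [Algebra K F]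

theorem dl62_zero_mem_nu (A : ValuationSubring F) : (0 : F) ∈ A.nonunits := by
  rw [ValuationSubring.mem_nonunits_iff, map_zero]; exact zero_lt_one

theorem dl62_nu_add (A : ValuationSubring F) {x y : F} (hx : x ∈ A.nonunits)
    (hy : y ∈ A.nonunits) : x + y ∈ A.nonunits := by
  rw [ValuationSubring.mem_nonunits_iff] at *
  exact Valuation.map_add_lt _ hx hy

theorem dl62_nu_neg (A : ValuationSubring F) {x : F} (hx : x ∈ A.nonunits) :
    -x ∈ A.nonunits := by
  rw [ValuationSubring.mem_nonunits_iff] at *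
  rwa [Valuation.map_neg]

theorem dl62_nu_sub (A : ValuationSubring F) {x y : F} (hx : x ∈ A.nonunits)
    (hy : y ∈ A.nonunits) : x - y ∈ A.nonunits := by
  rw [sub_eq_add_neg]; exact dl62_nu_add A hx (dl62_nu_neg A hy)

theorem dl62_nu_mem (A : ValuationSubring F) {x : F} (hx : x ∈ A.nonunits) : x ∈ A := by
  rw [ValuationSubring.mem_nonunits_iff] at hx
  exact (ValuationSubring.valuation_le_one_iff A x).mp hx.le

theorem dl62_nu_mul_left (A : ValuationSubring F) {a x : F} (ha : a ∈ A)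
    (hx : x ∈ A.nonunits) : a * x ∈ A.nonunits := by
  rw [ValuationSubring.mem_nonunits_iff] at *
  rw [map_mul]
  have h1 := (ValuationSubring.valuation_le_one_iff A a).mpr ha
  calc A.valuation a * A.valuation x ≤ 1 * A.valuation x := mul_le_mul_left h1 _
    _ = A.valuation x := one_mul _
    _ < 1 := hx

theorem dl62_nu_mul_right (A : ValuationSubring F) {a x : F} (ha : a ∈ A)
    (hx : x ∈ A.nonunits) : x * a ∈ A.nonunits := by
  rw [mul_comm]; exact dl62_nu_mul_left A ha hx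

theorem dl62_nu_sum (A : ValuationSubring F) {ι : Type*} (s : Finset ι) (f : ι → F)
    (h : ∀ i ∈ s, f i ∈ A.nonunits) : ∑ i ∈ s, f i ∈ A.nonunits := by
  classical
  induction s using Finset.induction_on with
  | empty => simp [dl62_zero_mem_nu A]
  | insert a s ha ih =>
    rw [Finset.sum_insert ha]
    exact dl62_nu_add A (h a (Finset.mem_insert_self a s))
      (ih fun i hi => h i (Finset.mem_insert_of_mem hi))

/-- an element of `A` outside the maximal ideal has its inverse in `A`. -/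
theorem dl62_inv_mem (A : ValuationSubring F) {x : F} (hx : x ∈ A) (hx' : x ∉ A.nonunits) :
    x⁻¹ ∈ A := by
  rw [ValuationSubring.mem_nonunits_iff, not_lt] at hx'
  have h1 := (ValuationSubring.valuation_le_one_iff A x).mpr hx
  have h2 : A.valuation x = 1 := le_antisymm h1 hx'
  rw [← ValuationSubring.valuation_le_one_iff, map_inv₀, h2, inv_one]

theorem dl62_not_nu_of_inv_mem (A : ValuationSubring F) {x : F} (hx0 : x ≠ 0)
    (hx : x⁻¹ ∈ A) : x ∉ A.nonunits := by
  intro h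
  have h1 := dl62_nu_mul_left A hx h
  rw [inv_mul_cancel₀ hx0, ValuationSubring.mem_nonunits_iff, map_one] at h1
  exact lt_irrefl _ h1

theorem dl62_nu_of_inv_not_mem (A : ValuationSubring F) {x : F} (hx : x⁻¹ ∉ A) :
    x ∈ A.nonunits := by
  have hx0 : x ≠ 0 := by
    rintro rfl
    rw [inv_zero] at hx
    exact hx A.zero_mem
  rw [← ValuationSubring.valuation_le_one_iff, not_le, map_inv₀] at hx
  rw [ValuationSubring.mem_nonunits_iff]
  exact (one_lt_inv₀ (zero_lt_iff.mpr ((Valuation.ne_zero_iff _).mpr hx0))).mp hx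

theorem dl62_one_not_mem_nu (A : ValuationSubring F) : (1 : F) ∉ A.nonunits :=
  dl62_not_nu_of_inv_mem A one_ne_zero (by rw [inv_one]; exact A.one_mem)

theorem dl62_ne_zero_of_not_nu (A : ValuationSubring F) {x : F} (hx : x ∉ A.nonunits) :
    x ≠ 0 := by
  rintro rfl; exact hx (dl62_zero_mem_nu A)

theorem dl62_mul_not_nu (A : ValuationSubring F) {x y : F} (hx : x ∈ A) (hy : y ∈ A)
    (hx' : x ∉ A.nonunits) (hy' : y ∉ A.nonunits) : x * y ∉ A.nonunits := by
  have hx0 := dl62_ne_zero_of_not_nu A hx'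
  have hy0 := dl62_ne_zero_of_not_nu A hy'
  apply dl62_not_nu_of_inv_mem A (mul_ne_zero hx0 hy0)
  rw [mul_inv]
  exact A.mul_mem _ _ (dl62_inv_mem A hx hx') (dl62_inv_mem A hy hy')

theorem dl62_inv_not_nu (A : ValuationSubring F) {x : F} (hx : x ∈ A)
    (hx' : x ∉ A.nonunits) : x⁻¹ ∉ A.nonunits := by
  have hx0 := dl62_ne_zero_of_not_nu A hx'
  apply dl62_not_nu_of_inv_mem A (inv_ne_zero hx0)
  rwa [inv_inv]

/-- the constants are units of the valuation ring of a place. -/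
theorem dl62_algebraMap_not_nu (P : Place K F) {c : K} (hc : c ≠ 0) :
    algebraMap K F c ∉ P.toValuationSubring.nonunits := by
  apply dl62_not_nu_of_inv_mem _ (by simpa using hc)
  rw [← map_inv₀]
  exact P.algebraMap_mem' _

theorem dl62_algebraMap_eq_zero_of_nu (P : Place K F) {c : K}
    (hc : algebraMap K F c ∈ P.toValuationSubring.nonunits) : c = 0 := by
  by_contra h
  exact dl62_algebraMap_not_nu P h hc

theorem dl62_mem_iff (P : Place K F) (f : F) : f ∈ P.toValuationSubring ↔ 0 ≤ P.ord f := by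
  rcases eq_or_ne f 0 with rfl | hf
  · simp
  have h0 : 0 ≤ P.ord f ↔ P.adicValuation f ≤ 1 := by
    unfold Place.ord
    rw [neg_nonneg, ← WithZero.log_one,
      WithZero.log_le_log (P.adicValuation_ne_zero hf) one_ne_zero]
  rw [h0]
  constructor
  · intro h
    have := P.adicValuation_coe ⟨f, h⟩
    rw [this]
    exact IsDedekindDomain.HeightOneSpectrum.intValuation_le_one _ _
  · intro h
    obtain ⟨a, ha⟩ := IsDiscreteValuationRing.exists_lift_of_le_one
      (A := P.toValuationSubring) (K := F) (x := f) h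
    rw [← ha]
    exact a.2

theorem dl62_mem_nu_iff (P : Place K F) {f : F} (hf : f ≠ 0) :
    f ∈ P.toValuationSubring.nonunits ↔ 0 < P.ord f := by
  constructor
  · intro h
    by_contra hle
    rw [not_lt] at hle
    have h1 : f⁻¹ ∈ P.toValuationSubring := by
      rw [dl62_mem_iff, Place.ord_inv]; omega
    exact dl62_not_nu_of_inv_mem _ hf h1 h
  · intro h
    by_contra hnu
    have hmem : f ∈ P.toValuationSubring := by rw [dl62_mem_iff]; omega
    have h1 := dl62_inv_mem _ hmem hnu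
    rw [dl62_mem_iff, Place.ord_inv] at h1
    omega

theorem dl62_ord_eq_zero (P : Place K F) {f : F} (hf : f ∈ P.toValuationSubring)
    (hf' : f ∉ P.toValuationSubring.nonunits) : P.ord f = 0 := by
  have hf0 := dl62_ne_zero_of_not_nu _ hf'
  have h1 := (dl62_mem_iff P f).mp hf
  have h2 := (dl62_mem_nu_iff P hf0).not.mp hf'
  omega

theorem dl62_ord_div (P : Place K F) {f g : F} (hf : f ≠ 0) (hg : g ≠ 0) :
    P.ord (f / g) = P.ord f - P.ord g := by
  rw [div_eq_mul_inv, P.ord_mul hf (inv_ne_zero hg), P.ord_inv]; ring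

theorem dl62_exists_ord_one (P : Place K F) : ∃ π : F, P.ord π = 1 := by
  obtain ⟨π, hπ⟩ := IsDiscreteValuationRing.exists_irreducible P.toValuationSubring
  exact ⟨(π : F), P.ord_coe_irreducible hπ⟩

end Dict

section Setting

variable {k₀ K F₀ F : Type*} [Field k₀] [Field K] [Field F₀] [Field F]
  [Algebra k₀ K] [Algebra k₀ F₀] [Algebra K F] [Algebra F₀ F] [Algebra k₀ F]
  [IsScalarTower k₀ K F] [IsScalarTower k₀ F₀ F]

variable (K F₀ F) in
/-- The subring `K[F₀]` of `F` generated by `K` and (the image of) `F₀`. -/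
def dl62_R : Subalgebra K F := Algebra.adjoin K (Set.range (algebraMap F₀ F))

theorem dl62_F₀_mem_R (g : F₀) : algebraMap F₀ F g ∈ dl62_R K F₀ F :=
  Algebra.subset_adjoin ⟨g, rfl⟩

variable (F₀) in
/-- A place of `F/K` is *rational* (w.r.t. `F₀`) if it is non-trivial on `F₀`. -/
def dl62_IsRational (P : Place K F) : Prop :=
  ∃ g : F₀, algebraMap F₀ F g ∉ P.toValuationSubring

theorem dl62_algebraMap_k₀ (c : k₀) :
    algebraMap F₀ F (algebraMap k₀ F₀ c) = algebraMap K F (algebraMap k₀ K c) :=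
  (IsScalarTower.algebraMap_apply k₀ F₀ F c).symm.trans (IsScalarTower.algebraMap_apply k₀ K F c)

/-- every element of `K[F₀]` is an `F₀`-combination of a `k₀`-basis of `K`. -/
theorem dl62_R_repr {ι : Type*} (b : Module.Basis ι k₀ K) {A : F} (hA : A ∈ dl62_R K F₀ F) :
    ∃ g : ι →₀ F₀, A = ∑ i ∈ g.support, algebraMap K F (b i) * algebraMap F₀ F (g i) := by
  set M : Submodule F₀ F := Submodule.span F₀ (Set.range fun i => algebraMap K F (b i)) with hM
  have hK : ∀ c : K, algebraMap K F c ∈ M := by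
    intro c
    have h1 := b.linearCombination_repr c
    rw [Finsupp.linearCombination_apply, Finsupp.sum] at h1
    rw [← h1, map_sum]
    refine Submodule.sum_mem _ fun i _ => ?_
    have h2 : algebraMap K F ((b.repr c) i • b i)
        = (algebraMap k₀ F₀ ((b.repr c) i)) • algebraMap K F (b i) := by
      rw [Algebra.smul_def, map_mul, Algebra.smul_def, dl62_algebraMap_k₀ (K := K) (F₀ := F₀) (F := F)]
    rw [h2]
    exact Submodule.smul_mem _ _ (Submodule.subset_span ⟨i, rfl⟩)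
  have hmem : A ∈ M := by
    refine Algebra.adjoin_induction (p := fun x _ => x ∈ M) ?_ ?_ ?_ ?_ hA
    · rintro x ⟨g, rfl⟩
      have h1 : algebraMap F₀ F g = g • algebraMap K F 1 := by
        rw [Algebra.smul_def, map_one, mul_one]
      rw [h1]
      exact Submodule.smul_mem _ _ (hK 1)
    · exact hK
    · intro x y _ _ hx hy
      exact Submodule.add_mem _ hx hy
    · intro x y _ _ hx hy
      have h1 : x * y ∈ M * M := Submodule.mul_mem_mul hx hy
      rw [hM, Submodule.span_mul_span] at h1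
      refine (Submodule.span_le.mpr ?_) h1
      rintro z ⟨u, ⟨i, rfl⟩, v, ⟨j, rfl⟩, rfl⟩
      simp only
      rw [← map_mul]
      exact hK _
  obtain ⟨g, hg⟩ := Finsupp.mem_span_range_iff_exists_finsupp.mp hmem
  refine ⟨g, ?_⟩
  rw [← hg, Finsupp.sum]
  refine Finset.sum_congr rfl fun i _ => ?_
  rw [Algebra.smul_def, mul_comm]

/-- **Gauss lemma** at a valuation ring containing `K` whose trace on `F₀` has residue field
`k₀`: a combination of `k₀`-independent constants with coefficients in `F₀`, one of which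
divides the others, is a unit times that coefficient. -/
theorem dl62_gauss_unit (V : ValuationSubring F) (hK : ∀ c : K, algebraMap K F c ∈ V)
    (hKu : ∀ c : K, c ≠ 0 → algebraMap K F c ∉ V.nonunits)
    (hres : ∀ g : F₀, algebraMap F₀ F g ∈ V →
      ∃ c : k₀, algebraMap F₀ F g - algebraMap k₀ F c ∈ V.nonunits)
    {ι : Type*} (s : Finset ι) (b : ι → K) (hb : LinearIndependent k₀ b) (g : ι → F₀)
    (i₀ : ι) (hi₀ : i₀ ∈ s) (hg₀ : g i₀ ≠ 0)
    (hmem : ∀ i ∈ s, algebraMap F₀ F (g i / g i₀) ∈ V) :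
    (∑ i ∈ s, algebraMap K F (b i) * algebraMap F₀ F (g i)) / algebraMap F₀ F (g i₀) ∈ V ∧
    (∑ i ∈ s, algebraMap K F (b i) * algebraMap F₀ F (g i)) / algebraMap F₀ F (g i₀)
      ∉ V.nonunits := by
  classical
  have hG₀ : algebraMap F₀ F (g i₀) ≠ 0 := by simpa using hg₀
  have hsum : (∑ i ∈ s, algebraMap K F (b i) * algebraMap F₀ F (g i)) / algebraMap F₀ F (g i₀)
      = ∑ i ∈ s, algebraMap K F (b i) * algebraMap F₀ F (g i / g i₀) := by
    rw [Finset.sum_div]
    refine Finset.sum_congr rfl fun i _ => ?_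
    rw [map_div₀, mul_div_assoc]
  rw [hsum]
  refine ⟨V.sum_mem fun i hi => V.mul_mem _ _ (hK _) (hmem i hi), ?_⟩
  -- constants
  have hex : ∀ i : ι, ∃ c : k₀, i ∈ s →
      algebraMap F₀ F (g i / g i₀) - algebraMap k₀ F c ∈ V.nonunits := by
    intro i
    by_cases hi : i ∈ s
    · obtain ⟨c, hc⟩ := hres _ (hmem i hi)
      exact ⟨c, fun _ => hc⟩
    · exact ⟨0, fun h => absurd h hi⟩
  choose c hc using hex
  set c' : ι → k₀ := fun i => if i = i₀ then 1 else c i with hc'
  have hc'' : ∀ i ∈ s, algebraMap F₀ F (g i / g i₀) - algebraMap k₀ F (c' i) ∈ V.nonunits := by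
    intro i hi
    by_cases h : i = i₀
    · subst h
      simp only [hc', if_true, div_self hg₀, map_one, sub_self]
      exact dl62_zero_mem_nu V
    · simp only [hc', if_neg h]
      exact hc i hi
  intro hnu
  have hκ : algebraMap K F (∑ i ∈ s, c' i • b i) ∈ V.nonunits := by
    have h1 : algebraMap K F (∑ i ∈ s, c' i • b i)
        = ∑ i ∈ s, algebraMap K F (b i) * algebraMap F₀ F (g i / g i₀)
          - ∑ i ∈ s, algebraMap K F (b i) *
              (algebraMap F₀ F (g i / g i₀) - algebraMap k₀ F (c' i)) := by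
      rw [← Finset.sum_sub_distrib, map_sum]
      refine Finset.sum_congr rfl fun i _ => ?_
      rw [Algebra.smul_def, map_mul, ← IsScalarTower.algebraMap_apply k₀ K F]
      ring
    rw [h1]
    exact dl62_nu_sub V hnu
      (dl62_nu_sum V s _ fun i hi => dl62_nu_mul_left V (hK _) (hc'' i hi))
  have hzero : ∑ i ∈ s, c' i • b i = 0 := by
    by_contra h
    exact hKu _ h hκ
  have := linearIndependent_iff'.mp hb s c' hzero i₀ hi₀
  simp [hc'] at this

/-- a representation of an element of `K[F₀]` with a coefficient of minimal order. -/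
theorem dl62_R_rational (V : ValuationSubring F)
    {ι : Type*} (b : Module.Basis ι k₀ K) {A : F} (hA : A ∈ dl62_R K F₀ F) (hA0 : A ≠ 0) :
    ∃ (g : ι →₀ F₀) (i₀ : ι), i₀ ∈ g.support ∧
      A = ∑ i ∈ g.support, algebraMap K F (b i) * algebraMap F₀ F (g i) ∧
      (∀ i ∈ g.support, algebraMap F₀ F (g i / g i₀) ∈ V) := by
  obtain ⟨g, hg⟩ := dl62_R_repr b hA
  have hne : g.support.Nonempty := by
    rw [Finset.nonempty_iff_ne_empty]
    intro h
    rw [h, Finset.sum_empty] at hg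
    exact hA0 hg
  obtain ⟨i₀, hi₀, hmax⟩ := Finset.exists_max_image g.support
    (fun i => V.valuation (algebraMap F₀ F (g i))) hne
  refine ⟨g, i₀, hi₀, hg, fun i hi => ?_⟩
  have hg₀ : algebraMap F₀ F (g i₀) ≠ 0 := by
    have := Finsupp.mem_support_iff.mp hi₀
    simpa using this
  rw [← ValuationSubring.valuation_le_one_iff, map_div₀, map_div₀]
  have h1 := hmax i hi
  have h2 : V.valuation (algebraMap F₀ F (g i₀)) ≠ 0 := (Valuation.ne_zero_iff _).mpr hg₀
  exact div_le_one_of_le₀ h1 zero_le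

/-- at a valuation ring which has residue field `k₀` on `F₀`: every nonzero element of `K[F₀]`
is a unit times an element of `F₀`, and `D` does not lower the order. -/
theorem dl62_R_rational_D (V : ValuationSubring F) (hK : ∀ c : K, algebraMap K F c ∈ V)
    (hKu : ∀ c : K, c ≠ 0 → algebraMap K F c ∉ V.nonunits)
    (hres : ∀ g : F₀, algebraMap F₀ F g ∈ V →
      ∃ c : k₀, algebraMap F₀ F g - algebraMap k₀ F c ∈ V.nonunits)
    {R : Type*} [CommRing R] [Algebra R F] (D : Derivation R F F)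
    (hD0 : ∀ g : F₀, D (algebraMap F₀ F g) = 0)
    (hDK : ∀ c : K, ∃ c' : K, D (algebraMap K F c) = algebraMap K F c')
    {A : F} (hA : A ∈ dl62_R K F₀ F) (hA0 : A ≠ 0) :
    ∃ g₀ : F₀, g₀ ≠ 0 ∧ A / algebraMap F₀ F g₀ ∈ V ∧ A / algebraMap F₀ F g₀ ∉ V.nonunits ∧
      D A / algebraMap F₀ F g₀ ∈ V := by
  set b := Module.Basis.ofVectorSpace k₀ K with hb
  obtain ⟨g, i₀, hi₀, hg, hmem⟩ := dl62_R_rational (F₀ := F₀) V b hA hA0
  have hg₀ : g i₀ ≠ 0 := Finsupp.mem_support_iff.mp hi₀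
  have hG := dl62_gauss_unit V hK hKu hres g.support b b.linearIndependent g i₀ hi₀ hg₀ hmem
  rw [← hg] at hG
  refine ⟨g i₀, hg₀, hG.1, hG.2, ?_⟩
  have hDA : D A = ∑ i ∈ g.support, D (algebraMap K F (b i)) * algebraMap F₀ F (g i) := by
    rw [hg, map_sum]
    refine Finset.sum_congr rfl fun i _ => ?_
    rw [Derivation.leibniz, hD0, smul_zero, zero_add, smul_eq_mul, mul_comm]
  rw [hDA, Finset.sum_div]
  refine V.sum_mem fun i hi => ?_
  obtain ⟨c', hc'⟩ := hDK (b i)
  rw [hc', mul_div_assoc, ← map_div₀]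
  exact V.mul_mem _ _ (hK _) (hmem i hi)

theorem dl62_logDeriv_R_rational (V : ValuationSubring F) (hK : ∀ c : K, algebraMap K F c ∈ V)
    (hKu : ∀ c : K, c ≠ 0 → algebraMap K F c ∉ V.nonunits)
    (hres : ∀ g : F₀, algebraMap F₀ F g ∈ V →
      ∃ c : k₀, algebraMap F₀ F g - algebraMap k₀ F c ∈ V.nonunits)
    {R : Type*} [CommRing R] [Algebra R F] (D : Derivation R F F)
    (hD0 : ∀ g : F₀, D (algebraMap F₀ F g) = 0)
    (hDK : ∀ c : K, ∃ c' : K, D (algebraMap K F c) = algebraMap K F c')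
    {A : F} (hA : A ∈ dl62_R K F₀ F) : D A / A ∈ V := by
  rcases eq_or_ne A 0 with rfl | hA0
  · simp [V.zero_mem]
  obtain ⟨g₀, hg₀, h1, h2, h3⟩ := dl62_R_rational_D V hK hKu hres D hD0 hDK hA hA0
  have hG₀ : algebraMap F₀ F g₀ ≠ 0 := by simpa using hg₀
  have h4 : D A / A = D A / algebraMap F₀ F g₀ * (A / algebraMap F₀ F g₀)⁻¹ := by
    field_simp
  rw [h4]
  exact V.mul_mem _ _ h3 (dl62_inv_mem V h1 h2)

theorem dl62_logDeriv_div {R : Type*} [CommRing R] [Algebra R F] (D : Derivation R F F)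
    {A B : F} (hA : A ≠ 0) (hB : B ≠ 0) : D (A / B) / (A / B) = D A / A - D B / B := by
  rw [Derivation.leibniz_div, smul_eq_mul, smul_eq_mul, smul_eq_mul]
  field_simp

/-- **(R)** log-derivatives have no pole at rational places. -/
theorem dl62_logDeriv_mem_of_rational
    (hgen : ∀ f : F, ∃ A B : F, A ∈ dl62_R K F₀ F ∧ B ∈ dl62_R K F₀ F ∧ B ≠ 0 ∧ f = A / B)
    {R : Type*} [CommRing R] [Algebra R F] (D : Derivation R F F)
    (hD0 : ∀ g : F₀, D (algebraMap F₀ F g) = 0)
    (hDK : ∀ c : K, ∃ c' : K, D (algebraMap K F c) = algebraMap K F c')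
    (P : Place K F)
    (hres : ∀ g : F₀, algebraMap F₀ F g ∈ P.toValuationSubring →
      ∃ c : k₀, algebraMap F₀ F g - algebraMap k₀ F c ∈ P.toValuationSubring.nonunits)
    (f : F) : D f / f ∈ P.toValuationSubring := by
  rcases eq_or_ne f 0 with rfl | hf
  · simp
  obtain ⟨A, B, hA, hB, hB0, rfl⟩ := hgen f
  have hA0 : A ≠ 0 := by
    rintro rfl
    simp at hf
  rw [dl62_logDeriv_div D hA0 hB0]
  have hK : ∀ c : K, algebraMap K F c ∈ P.toValuationSubring := P.algebraMap_mem'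
  have hKu : ∀ c : K, c ≠ 0 → algebraMap K F c ∉ P.toValuationSubring.nonunits :=
    fun c hc => dl62_algebraMap_not_nu P hc
  exact sub_mem (dl62_logDeriv_R_rational _ hK hKu hres D hD0 hDK hA)
    (dl62_logDeriv_R_rational _ hK hKu hres D hD0 hDK hB)

/-- **(R)** Gauss formula at rational places. -/
theorem dl62_ord_sum_of_rational
    (P : Place K F)
    (hres : ∀ g : F₀, algebraMap F₀ F g ∈ P.toValuationSubring →
      ∃ c : k₀, algebraMap F₀ F g - algebraMap k₀ F c ∈ P.toValuationSubring.nonunits)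
    {ι : Type*} (s : Finset ι) (b : ι → K) (hb : LinearIndependent k₀ b) (g : ι → F₀)
    (i₀ : ι) (hi₀ : i₀ ∈ s) (hg₀ : g i₀ ≠ 0)
    (hmin : ∀ i ∈ s, g i ≠ 0 →
      P.ord (algebraMap F₀ F (g i₀)) ≤ P.ord (algebraMap F₀ F (g i))) :
    (∑ i ∈ s, algebraMap K F (b i) * algebraMap F₀ F (g i)) ≠ 0 ∧
    P.ord (∑ i ∈ s, algebraMap K F (b i) * algebraMap F₀ F (g i))
      = P.ord (algebraMap F₀ F (g i₀)) := by
  have hG₀ : algebraMap F₀ F (g i₀) ≠ 0 := by simpa using hg₀
  have hmem : ∀ i ∈ s, algebraMap F₀ F (g i / g i₀) ∈ P.toValuationSubring := by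
    intro i hi
    rcases eq_or_ne (g i) 0 with h0 | h0
    · rw [h0, zero_div, map_zero]; exact P.toValuationSubring.zero_mem
    · have hGi : algebraMap F₀ F (g i) ≠ 0 := by simpa using h0
      rw [dl62_mem_iff, map_div₀, dl62_ord_div P hGi hG₀]
      have := hmin i hi h0
      omega
  obtain ⟨h1, h2⟩ := dl62_gauss_unit P.toValuationSubring P.algebraMap_mem'
    (fun c hc => dl62_algebraMap_not_nu P hc) hres s b hb g i₀ hi₀ hg₀ hmem
  have hne : (∑ i ∈ s, algebraMap K F (b i) * algebraMap F₀ F (g i)) ≠ 0 := by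
    intro h
    rw [h, zero_div] at h2
    exact h2 (dl62_zero_mem_nu _)
  refine ⟨hne, ?_⟩
  have h3 := dl62_ord_eq_zero P h1 h2
  rw [dl62_ord_div P hne hG₀] at h3
  omega

/-- at a rational place with residue field `k₀` on `F₀`, every element of `F` is a unit
times an element of `F₀`. -/
theorem dl62_exists_unit_mul_of_rational
    (hgen : ∀ f : F, ∃ A B : F, A ∈ dl62_R K F₀ F ∧ B ∈ dl62_R K F₀ F ∧ B ≠ 0 ∧ f = A / B)
    (V : ValuationSubring F) (hK : ∀ c : K, algebraMap K F c ∈ V)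
    (hKu : ∀ c : K, c ≠ 0 → algebraMap K F c ∉ V.nonunits)
    (hres : ∀ g : F₀, algebraMap F₀ F g ∈ V →
      ∃ c : k₀, algebraMap F₀ F g - algebraMap k₀ F c ∈ V.nonunits)
    {f : F} (hf : f ≠ 0) :
    ∃ g₀ : F₀, g₀ ≠ 0 ∧ f / algebraMap F₀ F g₀ ∈ V ∧ f / algebraMap F₀ F g₀ ∉ V.nonunits := by
  obtain ⟨A, B, hA, hB, hB0, rfl⟩ := hgen f
  have hA0 : A ≠ 0 := by
    rintro rfl
    simp at hf
  have hD0 : ∀ g : F₀, (0 : Derivation ℤ F F) (algebraMap F₀ F g) = 0 := fun _ => rfl
  have hDK : ∀ c : K, ∃ c' : K, (0 : Derivation ℤ F F) (algebraMap K F c) = algebraMap K F c' :=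
    fun _ => ⟨0, by simp⟩
  obtain ⟨gA, hgA, h1, h2, -⟩ := dl62_R_rational_D V hK hKu hres _ hD0 hDK hA hA0
  obtain ⟨gB, hgB, h3, h4, -⟩ := dl62_R_rational_D V hK hKu hres _ hD0 hDK hB hB0
  have hGA : algebraMap F₀ F gA ≠ 0 := by simpa using hgA
  have hGB : algebraMap F₀ F gB ≠ 0 := by simpa using hgB
  refine ⟨gA / gB, div_ne_zero hgA hgB, ?_⟩
  have h5 : A / B / algebraMap F₀ F (gA / gB)
      = A / algebraMap F₀ F gA * (B / algebraMap F₀ F gB)⁻¹ := by
    rw [map_div₀]; field_simp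
  rw [h5]
  exact ⟨V.mul_mem _ _ h1 (dl62_inv_mem V h3 h4),
    dl62_mul_not_nu V h1 (dl62_inv_mem V h3 h4) h2 (dl62_inv_not_nu V h3 h4)⟩

/-- **(R)** rational places are unramified over `F₀`. -/
theorem dl62_exists_ord_eq_one_of_rational
    (hgen : ∀ f : F, ∃ A B : F, A ∈ dl62_R K F₀ F ∧ B ∈ dl62_R K F₀ F ∧ B ≠ 0 ∧ f = A / B)
    (P : Place K F)
    (hres : ∀ g : F₀, algebraMap F₀ F g ∈ P.toValuationSubring →
      ∃ c : k₀, algebraMap F₀ F g - algebraMap k₀ F c ∈ P.toValuationSubring.nonunits) :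
    ∃ g : F₀, P.ord (algebraMap F₀ F g) = 1 := by
  obtain ⟨π, hπ⟩ := dl62_exists_ord_one P
  have hπ0 : π ≠ 0 := by
    rintro rfl
    simp at hπ
  obtain ⟨g₀, hg₀, h1, h2⟩ := dl62_exists_unit_mul_of_rational hgen P.toValuationSubring
    P.algebraMap_mem' (fun c hc => dl62_algebraMap_not_nu P hc) hres hπ0
  have hG₀ : algebraMap F₀ F g₀ ≠ 0 := by simpa using hg₀
  refine ⟨g₀, ?_⟩
  have h3 := dl62_ord_eq_zero P h1 h2
  rw [dl62_ord_div P hπ0 hG₀] at h3
  omega

theorem dl62_hres_transfer (V V' : ValuationSubring F)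
    (hres : ∀ g : F₀, algebraMap F₀ F g ∈ V →
      ∃ c : k₀, algebraMap F₀ F g - algebraMap k₀ F c ∈ V.nonunits)
    (h : ∀ g : F₀, algebraMap F₀ F g ∈ V ↔ algebraMap F₀ F g ∈ V') :
    ∀ g : F₀, algebraMap F₀ F g ∈ V' →
      ∃ c : k₀, algebraMap F₀ F g - algebraMap k₀ F c ∈ V'.nonunits := by
  intro g hg
  obtain ⟨c, hc⟩ := hres g ((h g).mpr hg)
  refine ⟨c, ?_⟩
  have h1 : algebraMap F₀ F g - algebraMap k₀ F c = algebraMap F₀ F (g - algebraMap k₀ F₀ c) := by
    rw [map_sub, ← IsScalarTower.algebraMap_apply k₀ F₀ F]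
  rw [h1] at hc ⊢
  rcases eq_or_ne (g - algebraMap k₀ F₀ c) 0 with h0 | h0
  · rw [h0, map_zero]; exact dl62_zero_mem_nu V'
  · apply dl62_nu_of_inv_not_mem
    rw [← map_inv₀, ← h]
    intro h2
    rw [map_inv₀] at h2
    exact dl62_not_nu_of_inv_mem V ((_root_.map_ne_zero _).mpr h0) h2 hc

theorem dl62_rational_le
    (hgen : ∀ f : F, ∃ A B : F, A ∈ dl62_R K F₀ F ∧ B ∈ dl62_R K F₀ F ∧ B ≠ 0 ∧ f = A / B)
    (V V' : ValuationSubring F) (hK : ∀ c : K, algebraMap K F c ∈ V)
    (hKu : ∀ c : K, c ≠ 0 → algebraMap K F c ∉ V.nonunits)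
    (hK' : ∀ c : K, algebraMap K F c ∈ V')
    (hKu' : ∀ c : K, c ≠ 0 → algebraMap K F c ∉ V'.nonunits)
    (hres : ∀ g : F₀, algebraMap F₀ F g ∈ V →
      ∃ c : k₀, algebraMap F₀ F g - algebraMap k₀ F c ∈ V.nonunits)
    (h : ∀ g : F₀, algebraMap F₀ F g ∈ V ↔ algebraMap F₀ F g ∈ V') : V ≤ V' := by
  have hres' := dl62_hres_transfer V V' hres h
  set b := Module.Basis.ofVectorSpace k₀ K with hb
  -- simultaneous unit decomposition on `K[F₀]`
  have key : ∀ A : F, A ∈ dl62_R K F₀ F → A ≠ 0 → ∃ g₀ : F₀, g₀ ≠ 0 ∧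
      (A / algebraMap F₀ F g₀ ∈ V ∧ A / algebraMap F₀ F g₀ ∉ V.nonunits) ∧
      (A / algebraMap F₀ F g₀ ∈ V' ∧ A / algebraMap F₀ F g₀ ∉ V'.nonunits) := by
    intro A hA hA0
    obtain ⟨g, i₀, hi₀, hg, hmem⟩ := dl62_R_rational (F₀ := F₀) V b hA hA0
    have hg₀ : g i₀ ≠ 0 := Finsupp.mem_support_iff.mp hi₀
    have hG := dl62_gauss_unit V hK hKu hres g.support b b.linearIndependent g i₀ hi₀ hg₀ hmem
    have hG' := dl62_gauss_unit V' hK' hKu' hres' g.support b b.linearIndependent g i₀ hi₀ hg₀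
      (fun i hi => (h _).mp (hmem i hi))
    rw [← hg] at hG hG'
    exact ⟨g i₀, hg₀, hG, hG'⟩
  intro f hf
  rcases eq_or_ne f 0 with rfl | hf0
  · exact V'.zero_mem
  obtain ⟨A, B, hA, hB, hB0, rfl⟩ := hgen f
  have hA0 : A ≠ 0 := by
    rintro rfl
    simp at hf0
  obtain ⟨gA, hgA, ⟨h1, h2⟩, ⟨h1', h2'⟩⟩ := key A hA hA0
  obtain ⟨gB, hgB, ⟨h3, h4⟩, ⟨h3', h4'⟩⟩ := key B hB hB0
  have hGA : algebraMap F₀ F gA ≠ 0 := by simpa using hgA
  have hGB : algebraMap F₀ F gB ≠ 0 := by simpa using hgB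
  have hA1 : A / algebraMap F₀ F gA ≠ 0 := div_ne_zero hA0 hGA
  have hB1 : B / algebraMap F₀ F gB ≠ 0 := div_ne_zero hB0 hGB
  have h5 : algebraMap F₀ F (gA / gB)
      = A / B * ((A / algebraMap F₀ F gA)⁻¹ * (B / algebraMap F₀ F gB)) := by
    rw [map_div₀]; field_simp
  have h6 : algebraMap F₀ F (gA / gB) ∈ V := by
    rw [h5]
    exact V.mul_mem _ _ hf (V.mul_mem _ _ (dl62_inv_mem V h1 h2) h3)
  have h7 : A / B = algebraMap F₀ F (gA / gB)
      * (A / algebraMap F₀ F gA * (B / algebraMap F₀ F gB)⁻¹) := by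
    rw [map_div₀]; field_simp
  rw [h7]
  exact V'.mul_mem _ _ ((h _).mp h6) (V'.mul_mem _ _ h1' (dl62_inv_mem V' h3' h4'))

/-- **(R)** a rational place (with residue field `k₀` on `F₀`) is determined by its
restriction to `F₀`. -/
theorem dl62_rational_ext
    (hgen : ∀ f : F, ∃ A B : F, A ∈ dl62_R K F₀ F ∧ B ∈ dl62_R K F₀ F ∧ B ≠ 0 ∧ f = A / B)
    (P P' : Place K F)
    (hres : ∀ g : F₀, algebraMap F₀ F g ∈ P.toValuationSubring →
      ∃ c : k₀, algebraMap F₀ F g - algebraMap k₀ F c ∈ P.toValuationSubring.nonunits)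
    (h : ∀ g : F₀, algebraMap F₀ F g ∈ P.toValuationSubring ↔
      algebraMap F₀ F g ∈ P'.toValuationSubring) : P = P' := by
  apply Place.ext
  have hres' := dl62_hres_transfer _ _ hres h
  exact le_antisymm
    (dl62_rational_le hgen _ _ P.algebraMap_mem' (fun c hc => dl62_algebraMap_not_nu P hc)
      P'.algebraMap_mem' (fun c hc => dl62_algebraMap_not_nu P' hc) hres h)
    (dl62_rational_le hgen _ _ P'.algebraMap_mem' (fun c hc => dl62_algebraMap_not_nu P' hc)
      P.algebraMap_mem' (fun c hc => dl62_algebraMap_not_nu P hc) hres' (fun g => (h g).symm))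

/-- **(Z)** a place at which some `x ∈ F₀` takes a value outside `k₀` is not rational
(`hres`: at rational places the values of `x` lie in `k₀`). -/
theorem dl62_not_rational_of_zero (P : Place K F) (x : F₀)
    (hres : dl62_IsRational F₀ P → algebraMap F₀ F x ∈ P.toValuationSubring →
      ∃ c : k₀, algebraMap F₀ F x - algebraMap k₀ F c ∈ P.toValuationSubring.nonunits)
    (a : K) (ha : a ∉ Set.range (algebraMap k₀ K))
    (hz : algebraMap F₀ F x - algebraMap K F a ∈ P.toValuationSubring.nonunits) :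
    ¬ dl62_IsRational F₀ P := by
  intro hrat
  have hx : algebraMap F₀ F x ∈ P.toValuationSubring := by
    have h1 : algebraMap F₀ F x = (algebraMap F₀ F x - algebraMap K F a) + algebraMap K F a := by
      ring
    rw [h1]
    exact add_mem (dl62_nu_mem _ hz) (P.algebraMap_mem' a)
  obtain ⟨c, hc⟩ := hres hrat hx
  have h2 : algebraMap K F (a - algebraMap k₀ K c) ∈ P.toValuationSubring.nonunits := by
    have h3 : algebraMap K F (a - algebraMap k₀ K c)
        = (algebraMap F₀ F x - algebraMap k₀ F c) - (algebraMap F₀ F x - algebraMap K F a) := by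
      rw [map_sub, ← IsScalarTower.algebraMap_apply k₀ K F]; ring
    rw [h3]
    exact dl62_nu_sub _ hc hz
  have h4 := dl62_algebraMap_eq_zero_of_nu P h2
  exact ha ⟨c, (sub_eq_zero.mp h4).symm⟩

/-- poles of elements of `F₀` are rational places. -/
theorem dl62_rational_of_pole (P : Place K F) (x : F₀)
    (hx : algebraMap F₀ F x ∉ P.toValuationSubring) : dl62_IsRational F₀ P :=
  ⟨x, hx⟩

end Setting

end Fermat.Agent.S42
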