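import Mathlib
import Fermat.Prelude.Def_AlgebraicCurve_DivisorClassGroup
import Fermat.Agent.S24.PlacesBasicCore
import Fermat.Agent.S37.Conserve57

/-!
# S42 (helper66), derivation descent, block D3: local analysis at the places of `F = K · F₀`

Setting: fields `k₀ ⊆ K`, a function field `F₀ / k₀`, a function field `F / K` generated by `K`
and `ι F₀`; a derivation `D` of `F` which kills `ι F₀` and maps `K` to `K` (by `d`).

* Part A: basics on `ord`, the maximal ideal `dl66_m P`, the value map at a place of degree one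
  (`dl66_IsVal`, `dl66_exists_val`).
* Part B: the localisation `dl66_loc P R` of a subalgebra `R ⊆ O_P` inside `F`, and the normal
  form engine: if every `r ∈ R` is `val r + ϖ w`, then every `f ≠ 0` is `ϖ ^ m * w` with `w` a
  unit of the localisation; estimates for `ord (D f)`.
-/

set_option autoImplicit false
set_option linter.style.haveILetI false
set_option linter.unusedSectionVars false

open AlgebraicCurve IntermediateField

namespace Fermat.Agent.S42

open Fermat.Agent.S24 Fermat.Agent.S37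

section Basics

variable {K F : Type*} [Field K] [Field F] [Algebra K F] (P : Place K F)

theorem dl66_ord_neg (f : F) : P.ord (-f) = P.ord f := by
  rcases eq_or_ne f 0 with rfl | hf
  · simp
  have h1 : (-1 : F) ≠ 0 := by simp
  have h : P.ord (-1 : F) = 0 := by
    have := wp1_ord_algebraMap P (-1 : K)
    simpa using this
  rw [show -f = (-1) * f by ring, P.ord_mul h1 hf, h, zero_add]

theorem dl66_ord_div {f g : F} (hf : f ≠ 0) (hg : g ≠ 0) :
    P.ord (f / g) = P.ord f - P.ord g := by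
  rw [div_eq_mul_inv, P.ord_mul hf (inv_ne_zero hg), P.ord_inv]
  ring

theorem dl66_nonneg_add {f g : F} (hf : 0 ≤ P.ord f) (hg : 0 ≤ P.ord g) : 0 ≤ P.ord (f + g) :=
  (wp1_mem_iff_ord_nonneg P _).mp
    (add_mem ((wp1_mem_iff_ord_nonneg P f).mpr hf) ((wp1_mem_iff_ord_nonneg P g).mpr hg))

theorem dl66_nonneg_mul {f g : F} (hf : 0 ≤ P.ord f) (hg : 0 ≤ P.ord g) : 0 ≤ P.ord (f * g) :=
  (wp1_mem_iff_ord_nonneg P _).mp
    (mul_mem ((wp1_mem_iff_ord_nonneg P f).mpr hf) ((wp1_mem_iff_ord_nonneg P g).mpr hg))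

theorem dl66_nonneg_neg {f : F} (hf : 0 ≤ P.ord f) : 0 ≤ P.ord (-f) := by
  rwa [dl66_ord_neg]

theorem dl66_nonneg_sub {f g : F} (hf : 0 ≤ P.ord f) (hg : 0 ≤ P.ord g) : 0 ≤ P.ord (f - g) := by
  rw [sub_eq_add_neg]
  exact dl66_nonneg_add P hf (dl66_nonneg_neg P hg)

/-- The strict triangle inequality. -/
theorem dl66_ord_add_of_lt {f g : F} (hf : f ≠ 0) (hg : g = 0 ∨ P.ord f < P.ord g) :
    f + g ≠ 0 ∧ P.ord (f + g) = P.ord f := by
  by_cases hg0 : g = 0
  · subst hg0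
    simpa using hf
  have hlt : P.ord f < P.ord g := hg.resolve_left hg0
  have hne : f + g ≠ 0 := by
    intro h
    have hgf : g = -f := by linear_combination h
    rw [hgf, dl66_ord_neg] at hlt
    exact lt_irrefl _ hlt
  refine ⟨hne, le_antisymm ?_ ?_⟩
  · have h1 := wp1_ord_add P (f + g) (-g) (by simpa using hf) hne (neg_ne_zero.mpr hg0)
    rw [add_neg_cancel_right, dl66_ord_neg] at h1
    rcases min_le_iff.mp h1 with h | h
    · exact h
    · exact absurd h (not_le.mpr hlt)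
  · have h2 := wp1_ord_add P f g hne hf hg0
    rwa [min_eq_left hlt.le] at h2

/-- The maximal ideal of the place, as an additive subgroup of `F`. -/
def dl66_m : AddSubgroup F where
  carrier := {f | f = 0 ∨ 0 < P.ord f}
  zero_mem' := Or.inl rfl
  add_mem' := by
    rintro f g hf hg
    by_cases hf0 : f = 0
    · subst hf0
      simpa using hg
    by_cases hg0 : g = 0
    · subst hg0
      simpa using hf
    by_cases h : f + g = 0
    · exact Or.inl h
    · right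
      have hf' : 0 < P.ord f := hf.resolve_left hf0
      have hg' : 0 < P.ord g := hg.resolve_left hg0
      exact lt_of_lt_of_le (lt_min hf' hg') (wp1_ord_add P f g h hf0 hg0)
  neg_mem' := by
    rintro f (rfl | hf)
    · left
      simp
    · right
      rwa [dl66_ord_neg]

theorem dl66_mem_m {f : F} : f ∈ dl66_m P ↔ f = 0 ∨ 0 < P.ord f := Iff.rfl

theorem dl66_m_nonneg {f : F} (hf : f ∈ dl66_m P) : 0 ≤ P.ord f := by
  rcases hf with rfl | hf
  · simp
  · exact hf.le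

theorem dl66_mul_mem_m {f g : F} (hf : 0 ≤ P.ord f) (hg : g ∈ dl66_m P) : f * g ∈ dl66_m P := by
  rcases hg with rfl | hg
  · left
    simp
  rcases eq_or_ne f 0 with rfl | hf0
  · left
    simp
  have hg0 : g ≠ 0 := by
    rintro rfl
    simp at hg
  right
  rw [P.ord_mul hf0 hg0]
  omega

theorem dl66_mem_m_mul {f g : F} (hf : f ∈ dl66_m P) (hg : 0 ≤ P.ord g) : f * g ∈ dl66_m P := by
  rw [mul_comm]
  exact dl66_mul_mem_m P hg hf

/-- A nonzero constant plus an element of the maximal ideal is a unit. -/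
theorem dl66_ord_const_add {c : K} (hc : c ≠ 0) {g : F} (hg : g ∈ dl66_m P) :
    algebraMap K F c + g ≠ 0 ∧ P.ord (algebraMap K F c + g) = 0 := by
  have hc' : algebraMap K F c ≠ 0 := by simpa using hc
  have h := dl66_ord_add_of_lt P hc' (g := g) (by
    rcases hg with h | h
    · exact Or.inl h
    · right
      rwa [wp1_ord_algebraMap])
  rw [wp1_ord_algebraMap] at h
  exact h

/-- A value map at a place: a "ring homomorphism" `O_P → K` written on `F`. -/
structure dl66_IsVal (val : F → K) : Prop where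
  const : ∀ c : K, val (algebraMap K F c) = c
  add : ∀ f g : F, 0 ≤ P.ord f → 0 ≤ P.ord g → val (f + g) = val f + val g
  mul : ∀ f g : F, 0 ≤ P.ord f → 0 ≤ P.ord g → val (f * g) = val f * val g
  sub_mem : ∀ f : F, 0 ≤ P.ord f → f - algebraMap K F (val f) ∈ dl66_m P

/-- A place of degree one has a value map. -/
theorem dl66_exists_val (hdeg : P.deg = 1) : ∃ val : F → K, dl66_IsVal P val := by
  classical
  obtain ⟨ev, hev, hev0⟩ := cv57_exists_ev P hdeg
  refine ⟨fun f => if h : f ∈ P.toValuationSubring then ev ⟨f, h⟩ else 0, ?_, ?_, ?_, ?_⟩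
  · intro c
    have hmem : algebraMap K F c ∈ P.toValuationSubring := P.algebraMap_mem' c
    simp only [dif_pos hmem]
    have : (⟨algebraMap K F c, hmem⟩ : P.toValuationSubring)
        = algebraMap K P.toValuationSubring c := Subtype.ext (P.coe_algebraMap c).symm
    rw [this, hev]
  · intro f g hf hg
    have hf' := (wp1_mem_iff_ord_nonneg P f).mpr hf
    have hg' := (wp1_mem_iff_ord_nonneg P g).mpr hg
    have hfg' : f + g ∈ P.toValuationSubring := add_mem hf' hg'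
    simp only [dif_pos hf', dif_pos hg', dif_pos hfg']
    rw [← map_add]
    rfl
  · intro f g hf hg
    have hf' := (wp1_mem_iff_ord_nonneg P f).mpr hf
    have hg' := (wp1_mem_iff_ord_nonneg P g).mpr hg
    have hfg' : f * g ∈ P.toValuationSubring := mul_mem hf' hg'
    simp only [dif_pos hf', dif_pos hg', dif_pos hfg']
    rw [← map_mul]
    rfl
  · intro f hf
    have hf' := (wp1_mem_iff_ord_nonneg P f).mpr hf
    simp only [dif_pos hf']
    set c := ev ⟨f, hf'⟩ with hc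
    have hmem : f - algebraMap K F c ∈ P.toValuationSubring :=
      sub_mem hf' (P.algebraMap_mem' c)
    have h0 : ev ⟨f - algebraMap K F c, hmem⟩ = 0 := by
      have : (⟨f - algebraMap K F c, hmem⟩ : P.toValuationSubring)
          = ⟨f, hf'⟩ - algebraMap K P.toValuationSubring c :=
        Subtype.ext (by simp [P.coe_algebraMap])
      rw [this, map_sub, hev, ← hc, sub_self]
    have hnu : ¬ IsUnit (⟨f - algebraMap K F c, hmem⟩ : P.toValuationSubring) := (hev0 _).mp h0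
    have hnon : (f - algebraMap K F c) ∈ P.toValuationSubring.nonunits := by
      have := (ValuationSubring.coe_mem_nonunits_iff
        (a := (⟨f - algebraMap K F c, hmem⟩ : P.toValuationSubring))).mpr
        (mem_nonunits_iff.mpr hnu)
      exact this
    exact (cv57_mem_nonunits_iff P _).mp hnon

variable {P}
variable {val : F → K} (hv : dl66_IsVal P val)
include hv

theorem dl66_IsVal.val_zero : val 0 = 0 := by
  have := hv.const 0
  simpa using this

theorem dl66_IsVal.val_one : val 1 = 1 := by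
  have := hv.const 1
  simpa using this

theorem dl66_IsVal.val_of_mem_m {f : F} (hf : f ∈ dl66_m P) : val f = 0 := by
  have h0 : 0 ≤ P.ord f := dl66_m_nonneg P hf
  by_contra hne
  have hmem := hv.sub_mem f h0
  have hc : algebraMap K F (val f) ∈ dl66_m P := by
    have := (dl66_m P).sub_mem hf hmem
    simpa using this
  rcases hc with h | h
  · exact hne (by simpa using h)
  · rw [wp1_ord_algebraMap] at h
    exact lt_irrefl _ h

theorem dl66_IsVal.mem_m_of_val {f : F} (hf : 0 ≤ P.ord f) (h : val f = 0) : f ∈ dl66_m P := by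
  have := hv.sub_mem f hf
  rwa [h, map_zero, sub_zero] at this

theorem dl66_IsVal.val_ne_zero {f : F} (hf0 : f ≠ 0) (hf : P.ord f = 0) : val f ≠ 0 := by
  intro h
  rcases hv.mem_m_of_val hf.ge h with h' | h'
  · exact hf0 h'
  · omega

theorem dl66_IsVal.ord_eq_zero {f : F} (hf : 0 ≤ P.ord f) (h : val f ≠ 0) :
    f ≠ 0 ∧ P.ord f = 0 := by
  have h1 := dl66_ord_const_add P h (hv.sub_mem f hf)
  rwa [add_sub_cancel] at h1

theorem dl66_IsVal.val_const_add (c : K) {g : F} (hg : g ∈ dl66_m P) :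
    val (algebraMap K F c + g) = c := by
  rw [hv.add _ _ (by rw [wp1_ord_algebraMap]) (dl66_m_nonneg P hg), hv.const,
    hv.val_of_mem_m hg, add_zero]

theorem dl66_IsVal.val_neg {f : F} (hf : 0 ≤ P.ord f) : val (-f) = -val f := by
  have h1 : -f = algebraMap K F (-1) * f := by simp
  rw [h1, hv.mul _ _ (by rw [wp1_ord_algebraMap]) hf, hv.const]
  ring

theorem dl66_IsVal.val_sub {f g : F} (hf : 0 ≤ P.ord f) (hg : 0 ≤ P.ord g) :
    val (f - g) = val f - val g := by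
  rw [sub_eq_add_neg, hv.add _ _ hf (dl66_nonneg_neg P hg), hv.val_neg hg]
  ring

end Basics

section Loc

variable {K F : Type*} [Field K] [Field F] [Algebra K F] (P : Place K F)

/-- The localisation, inside `F`, of a subalgebra `R` at the elements of order `0`. -/
def dl66_loc (R : Subalgebra K F) : Subalgebra K F where
  carrier := {f | ∃ r s, r ∈ R ∧ s ∈ R ∧ s ≠ 0 ∧ P.ord s = 0 ∧ f = r / s}
  mul_mem' := by
    rintro _ _ ⟨r, s, hr, hs, hs0, hso, rfl⟩ ⟨r', s', hr', hs', hs0', hso', rfl⟩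
    refine ⟨r * r', s * s', R.mul_mem hr hr', R.mul_mem hs hs', mul_ne_zero hs0 hs0', ?_, ?_⟩
    · rw [P.ord_mul hs0 hs0', hso, hso', add_zero]
    · field_simp
  add_mem' := by
    rintro _ _ ⟨r, s, hr, hs, hs0, hso, rfl⟩ ⟨r', s', hr', hs', hs0', hso', rfl⟩
    refine ⟨r * s' + r' * s, s * s', R.add_mem (R.mul_mem hr hs') (R.mul_mem hr' hs),
      R.mul_mem hs hs', mul_ne_zero hs0 hs0', ?_, ?_⟩
    · rw [P.ord_mul hs0 hs0', hso, hso', add_zero]
    · field_simp
  algebraMap_mem' c :=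
    ⟨algebraMap K F c, 1, R.algebraMap_mem c, R.one_mem, one_ne_zero, P.ord_one, by simp⟩

theorem dl66_mem_loc {R : Subalgebra K F} {f : F} :
    f ∈ dl66_loc P R ↔ ∃ r s, r ∈ R ∧ s ∈ R ∧ s ≠ 0 ∧ P.ord s = 0 ∧ f = r / s := Iff.rfl

theorem dl66_le_loc (R : Subalgebra K F) : R ≤ dl66_loc P R := fun r hr =>
  ⟨r, 1, hr, R.one_mem, one_ne_zero, P.ord_one, by simp⟩

theorem dl66_loc_nonneg {R : Subalgebra K F} (hRO : ∀ r ∈ R, 0 ≤ P.ord r) {f : F}
    (hf : f ∈ dl66_loc P R) : 0 ≤ P.ord f := by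
  obtain ⟨r, s, hr, hs, hs0, hso, rfl⟩ := hf
  rcases eq_or_ne r 0 with rfl | hr0
  · simp
  · rw [dl66_ord_div P hr0 hs0, hso, sub_zero]
    exact hRO r hr

theorem dl66_loc_inv {R : Subalgebra K F} {f : F} (hf : f ∈ dl66_loc P R) (hf0 : f ≠ 0)
    (hord : P.ord f = 0) : f⁻¹ ∈ dl66_loc P R := by
  obtain ⟨r, s, hr, hs, hs0, hso, rfl⟩ := hf
  have hr0 : r ≠ 0 := by
    rintro rfl
    simp at hf0
  refine ⟨s, r, hs, hr, hr0, ?_, by rw [inv_div]⟩
  rw [dl66_ord_div P hr0 hs0, hso, sub_zero] at hord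
  exact hord

theorem dl66_loc_deriv {R : Subalgebra K F} (D : Derivation ℤ F F) (hDR : ∀ r ∈ R, D r ∈ R)
    {f : F} (hf : f ∈ dl66_loc P R) : D f ∈ dl66_loc P R := by
  obtain ⟨r, s, hr, hs, hs0, hso, rfl⟩ := hf
  refine ⟨s * D r - r * D s, s ^ 2, R.sub_mem (R.mul_mem hs (hDR r hr)) (R.mul_mem hr (hDR s hs)),
    R.pow_mem hs 2, pow_ne_zero 2 hs0, ?_, ?_⟩
  · rw [pow_two, P.ord_mul hs0 hs0, hso, add_zero]
  · rw [Derivation.leibniz_div]
    simp only [smul_eq_mul]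
    field_simp

end Loc

section Engine

variable {K F : Type*} [Field K] [Field F] [Algebra K F] {P : Place K F}
variable {val : F → K} (hv : dl66_IsVal P val) {R : Subalgebra K F}
  (hRO : ∀ r ∈ R, 0 ≤ P.ord r) {ϖ : F} (hϖR : ϖ ∈ R) (hϖ : 0 < P.ord ϖ)
  (hH : ∀ r ∈ R, ∃ w ∈ dl66_loc P R, r = algebraMap K F (val r) + ϖ * w)

include hv hRO hϖR hϖ hH

/-- The congruence `f ≡ val f mod ϖ` on the localisation. -/
theorem dl66_H_loc {f : F} (hf : f ∈ dl66_loc P R) :
    ∃ w ∈ dl66_loc P R, f = algebraMap K F (val f) + ϖ * w := by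
  have hfO : 0 ≤ P.ord f := dl66_loc_nonneg P hRO hf
  obtain ⟨r, s, hr, hs, hs0, hso, rfl⟩ := hf
  obtain ⟨wr, hwr, hr'⟩ := hH r hr
  obtain ⟨ws, hws, hs'⟩ := hH s hs
  have hvs : val s ≠ 0 := hv.val_ne_zero hs0 hso
  have hvs' : algebraMap K F (val s) ≠ 0 := by simpa using hvs
  have hmul : val (r / s) * val s = val r := by
    rw [← hv.mul _ _ hfO hso.ge, div_mul_cancel₀ r hs0]
  have hval : val (r / s) = val r / val s := by
    rw [eq_div_iff hvs, hmul]
  have hden : s * algebraMap K F (val s) ∈ dl66_loc P R :=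
    dl66_le_loc P R (R.mul_mem hs (R.algebraMap_mem _))
  have hden0 : s * algebraMap K F (val s) ≠ 0 := mul_ne_zero hs0 hvs'
  have hdenord : P.ord (s * algebraMap K F (val s)) = 0 := by
    rw [P.ord_mul hs0 hvs', hso, wp1_ord_algebraMap, add_zero]
  have hinv := dl66_loc_inv P hden hden0 hdenord
  refine ⟨(wr * algebraMap K F (val s) - algebraMap K F (val r) * ws)
      * (s * algebraMap K F (val s))⁻¹, ?_, ?_⟩
  · exact (dl66_loc P R).mul_mem
      ((dl66_loc P R).sub_mem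
        ((dl66_loc P R).mul_mem hwr ((dl66_loc P R).algebraMap_mem _))
        ((dl66_loc P R).mul_mem ((dl66_loc P R).algebraMap_mem _) hws)) hinv
  · rw [hval, map_div₀]
    have e1 : r = algebraMap K F (val r) + ϖ * wr := hr'
    have e2 : s = algebraMap K F (val s) + ϖ * ws := hs'
    field_simp
    linear_combination (algebraMap K F (val s)) * e1 - (algebraMap K F (val r)) * e2

/-- Normal form on the localisation. -/
theorem dl66_nf_loc (n : ℕ) : ∀ f ∈ dl66_loc P R, f ≠ 0 → P.ord f ≤ n →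
    ∃ m : ℕ, ∃ w ∈ dl66_loc P R, w ≠ 0 ∧ P.ord w = 0 ∧ f = ϖ ^ m * w := by
  have hϖ0 : ϖ ≠ 0 := by
    rintro rfl
    simp at hϖ
  induction n with
  | zero =>
    intro f hf hf0 hle
    have hfO : 0 ≤ P.ord f := dl66_loc_nonneg P hRO hf
    exact ⟨0, f, hf, hf0, le_antisymm (by simpa using hle) hfO, by simp⟩
  | succ n ih =>
    intro f hf hf0 hle
    have hfO : 0 ≤ P.ord f := dl66_loc_nonneg P hRO hf
    obtain ⟨w, hw, hfw⟩ := dl66_H_loc hv hRO hϖR hϖ hH hf
    by_cases hc : val f = 0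
    · rw [hc, map_zero, zero_add] at hfw
      have hw0 : w ≠ 0 := by
        rintro rfl
        exact hf0 (by rw [hfw, mul_zero])
      have hord : P.ord f = P.ord ϖ + P.ord w := by rw [hfw, P.ord_mul hϖ0 hw0]
      have hwle : P.ord w ≤ n := by
        push_cast at hle
        omega
      obtain ⟨m, w', hw', hw'0, hw'ord, hww'⟩ := ih w hw hw0 hwle
      exact ⟨m + 1, w', hw', hw'0, hw'ord, by rw [hfw, hww', pow_succ]; ring⟩
    · exact ⟨0, f, hf, hf0, (hv.ord_eq_zero hfO hc).2, by simp⟩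

/-- Normal form on `F`, when `F` is the fraction field of `R`. -/
theorem dl66_nf (hgen : ∀ f : F, ∃ r s, r ∈ R ∧ s ∈ R ∧ s ≠ 0 ∧ f = r / s) {f : F}
    (hf0 : f ≠ 0) :
    ∃ m : ℤ, ∃ w ∈ dl66_loc P R, w ≠ 0 ∧ P.ord w = 0 ∧ f = ϖ ^ m * w := by
  have hϖ0 : ϖ ≠ 0 := by
    rintro rfl
    simp at hϖ
  obtain ⟨r, s, hr, hs, hs0, rfl⟩ := hgen f
  have hr0 : r ≠ 0 := by
    rintro rfl
    simp at hf0
  obtain ⟨m₁, w₁, hw₁, hw₁0, hw₁o, hrw⟩ :=
    dl66_nf_loc hv hRO hϖR hϖ hH (P.ord r).toNat r (dl66_le_loc P R hr) hr0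
      (by rw [Int.toNat_of_nonneg (hRO r hr)])
  obtain ⟨m₂, w₂, hw₂, hw₂0, hw₂o, hsw⟩ :=
    dl66_nf_loc hv hRO hϖR hϖ hH (P.ord s).toNat s (dl66_le_loc P R hs) hs0
      (by rw [Int.toNat_of_nonneg (hRO s hs)])
  refine ⟨(m₁ : ℤ) - m₂, w₁ * w₂⁻¹,
    (dl66_loc P R).mul_mem hw₁ (dl66_loc_inv P hw₂ hw₂0 hw₂o),
    mul_ne_zero hw₁0 (inv_ne_zero hw₂0), ?_, ?_⟩
  · rw [P.ord_mul hw₁0 (inv_ne_zero hw₂0), P.ord_inv, hw₁o, hw₂o]
    simp
  · rw [hrw, hsw, zpow_sub₀ hϖ0, zpow_natCast, zpow_natCast]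
    field_simp

/-- If `F` is the fraction field of `R`, the element `ϖ` is a uniformiser. -/
theorem dl66_ord_unif (hgen : ∀ f : F, ∃ r s, r ∈ R ∧ s ∈ R ∧ s ≠ 0 ∧ f = r / s) :
    P.ord ϖ = 1 := by
  have hϖ0 : ϖ ≠ 0 := by
    rintro rfl
    simp at hϖ
  obtain ⟨τ, hτ⟩ := IsDiscreteValuationRing.exists_irreducible P.toValuationSubring
  have h1 : P.ord (τ : F) = 1 := P.ord_coe_irreducible hτ
  have hτ0 : (τ : F) ≠ 0 := by
    intro h
    rw [h, P.ord_zero] at h1
    exact zero_ne_one h1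
  obtain ⟨m, w, hw, hw0, hwo, hτw⟩ := dl66_nf hv hRO hϖR hϖ hH hgen hτ0
  rw [hτw, P.ord_mul (zpow_ne_zero m hϖ0) hw0, P.ord_zpow, hwo, add_zero] at h1
  exact Int.eq_one_of_dvd_one hϖ.le ⟨m, by rw [mul_comm]; exact h1.symm⟩

/-- **Estimate, `D ϖ = 0`** (rational places): `D` does not decrease the order. -/
theorem dl66_ord_deriv_of_zero (hgen : ∀ f : F, ∃ r s, r ∈ R ∧ s ∈ R ∧ s ≠ 0 ∧ f = r / s)
    (D : Derivation ℤ F F) (hDR : ∀ r ∈ R, D r ∈ R) (hDϖ : D ϖ = 0) (f : F) (hDf : D f ≠ 0) :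
    P.ord f ≤ P.ord (D f) := by
  have hϖ0 : ϖ ≠ 0 := by
    rintro rfl
    simp at hϖ
  have hf0 : f ≠ 0 := by
    rintro rfl
    simp at hDf
  obtain ⟨m, w, hw, hw0, hwo, hfw⟩ := dl66_nf hv hRO hϖR hϖ hH hgen hf0
  have hDw : D w ∈ dl66_loc P R := dl66_loc_deriv P D hDR hw
  have hDf' : D f = ϖ ^ m * D w := by
    rw [hfw, Derivation.leibniz, Derivation.leibniz_zpow, hDϖ]
    simp
  have hDw0 : D w ≠ 0 := by
    intro h
    exact hDf (by rw [hDf', h, mul_zero])
  rw [hDf', P.ord_mul (zpow_ne_zero m hϖ0) hDw0, hfw, P.ord_mul (zpow_ne_zero m hϖ0) hw0, hwo,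
    add_zero]
  have := dl66_loc_nonneg P hRO hDw
  omega

/-- **Estimates, `D ϖ` a constant** (non-rational places). -/
theorem dl66_ord_deriv_of_const [CharZero K]
    (hgen : ∀ f : F, ∃ r s, r ∈ R ∧ s ∈ R ∧ s ≠ 0 ∧ f = r / s)
    (D : Derivation ℤ F F) (hDR : ∀ r ∈ R, D r ∈ R) (c₀ : K)
    (hDϖ : D ϖ = algebraMap K F c₀) :
    (∀ f : F, D f ≠ 0 → P.ord f - 1 ≤ P.ord (D f)) ∧
    (∀ f : F, f ≠ 0 → P.ord f = 0 → D f ≠ 0 → 0 ≤ P.ord (D f)) ∧
    (∀ f : F, f ≠ 0 → P.ord f ≠ 0 → c₀ ≠ 0 → D f ≠ 0 ∧ P.ord (D f) = P.ord f - 1) := by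
  have hϖ0 : ϖ ≠ 0 := by
    rintro rfl
    simp at hϖ
  have hϖ1 : P.ord ϖ = 1 := dl66_ord_unif hv hRO hϖR hϖ hH hgen
  -- the basic computation
  have key : ∀ f : F, f ≠ 0 → ∃ m : ℤ, ∃ w ∈ dl66_loc P R, w ≠ 0 ∧ P.ord w = 0 ∧
      P.ord f = m ∧ D w ∈ dl66_loc P R ∧
      D f = ϖ ^ (m - 1) * (algebraMap K F ((m : K) * c₀) * w + ϖ * D w) := by
    intro f hf0
    obtain ⟨m, w, hw, hw0, hwo, hfw⟩ := dl66_nf hv hRO hϖR hϖ hH hgen hf0
    have hDw : D w ∈ dl66_loc P R := dl66_loc_deriv P D hDR hw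
    refine ⟨m, w, hw, hw0, hwo, ?_, hDw, ?_⟩
    · rw [hfw, P.ord_mul (zpow_ne_zero m hϖ0) hw0, P.ord_zpow, hwo, hϖ1]
      ring
    · rw [hfw, Derivation.leibniz, Derivation.leibniz_zpow, hDϖ]
      simp only [smul_eq_mul, zsmul_eq_mul, map_mul, map_intCast]
      have h1 : ϖ ^ m = ϖ ^ (m - 1) * ϖ := by
        rw [← zpow_add_one₀ hϖ0, sub_add_cancel]
      rw [h1]
      ring
  refine ⟨?_, ?_, ?_⟩
  · intro f hDf
    have hf0 : f ≠ 0 := by
      rintro rfl
      simp at hDf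
    obtain ⟨m, w, hw, hw0, hwo, hfm, hDw, hDf'⟩ := key f hf0
    set B := algebraMap K F ((m : K) * c₀) * w + ϖ * D w with hB
    have hB0 : B ≠ 0 := by
      intro h
      exact hDf (by rw [hDf', h, mul_zero])
    have hBO : 0 ≤ P.ord B :=
      dl66_nonneg_add P
        (dl66_nonneg_mul P (by rw [wp1_ord_algebraMap]) hwo.ge)
        (dl66_nonneg_mul P hϖ.le (dl66_loc_nonneg P hRO hDw))
    rw [hDf', P.ord_mul (zpow_ne_zero _ hϖ0) hB0, P.ord_zpow, hϖ1, hfm]
    omega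
  · intro f hf0 hford hDf
    obtain ⟨m, w, hw, hw0, hwo, hfm, hDw, hDf'⟩ := key f hf0
    have hm : m = 0 := by rw [← hfm, hford]
    subst hm
    have hDf'' : D f = D w := by
      rw [hDf']
      simp only [Int.cast_zero, zero_mul, map_zero, zero_add, zero_sub]
      rw [← mul_assoc, ← zpow_add_one₀ hϖ0]
      simp
    rw [hDf'']
    exact dl66_loc_nonneg P hRO hDw
  · intro f hf0 hford hc₀
    obtain ⟨m, w, hw, hw0, hwo, hfm, hDw, hDf'⟩ := key f hf0
    have hm : m ≠ 0 := by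
      rintro rfl
      exact hford hfm
    have hκ : (m : K) * c₀ ≠ 0 := mul_ne_zero (Int.cast_ne_zero.mpr hm) hc₀
    have hκ' : algebraMap K F ((m : K) * c₀) ≠ 0 := (map_ne_zero (algebraMap K F)).mpr hκ
    have hmain : algebraMap K F ((m : K) * c₀) * w ≠ 0 := mul_ne_zero hκ' hw0
    have hmainord : P.ord (algebraMap K F ((m : K) * c₀) * w) = 0 := by
      rw [P.ord_mul hκ' hw0, wp1_ord_algebraMap, hwo, add_zero]
    have hsmall : ϖ * D w = 0 ∨ P.ord (algebraMap K F ((m : K) * c₀) * w) < P.ord (ϖ * D w) := by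
      by_cases hDw0 : D w = 0
      · left
        rw [hDw0, mul_zero]
      · right
        rw [hmainord, P.ord_mul hϖ0 hDw0]
        have := dl66_loc_nonneg P hRO hDw
        omega
    obtain ⟨hB0, hBord⟩ := dl66_ord_add_of_lt P hmain hsmall
    refine ⟨?_, ?_⟩
    · rw [hDf']
      exact mul_ne_zero (zpow_ne_zero _ hϖ0) hB0
    · rw [hDf', P.ord_mul (zpow_ne_zero _ hϖ0) hB0, P.ord_zpow, hϖ1, hBord, hmainord, hfm]
      ring

end Engine

section Rational

variable {k0 K F0 F : Type*} [Field k0] [Field K] [Field F0] [Field F]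
  [Algebra k0 K] [Algebra k0 F0] [Algebra K F]
  (ι : F0 →+* F) (P : Place K F)

/-- A place of `F` is *rational* (for `ι : F₀ → F`) if it is non-trivial on `ι F₀`. -/
def dl66_IsRational : Prop := ∃ g : F0, g ≠ 0 ∧ P.ord (ι g) ≠ 0

/-- The subalgebra `K[ι (O_P ∩ F₀)]` of `F`. -/
def dl66_R : Subalgebra K F := Algebra.adjoin K (ι '' {a : F0 | 0 ≤ P.ord (ι a)})

theorem dl66_ord_ι_mul {g h : F0} (hg : g ≠ 0) (hh : h ≠ 0) :
    P.ord (ι (g * h)) = P.ord (ι g) + P.ord (ι h) := by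
  rw [map_mul, P.ord_mul ((map_ne_zero ι).mpr hg) ((map_ne_zero ι).mpr hh)]

/-- A generator of the value group of `ord ∘ ι` on `F₀`. -/
theorem dl66_exists_min (hP : dl66_IsRational ι P) :
    ∃ π0 : F0, π0 ≠ 0 ∧ 0 < P.ord (ι π0) ∧
      ∀ g : F0, g ≠ 0 → ∃ m : ℤ, P.ord (ι g) = m * P.ord (ι π0) := by
  classical
  obtain ⟨g, hg0, hg⟩ := hP
  have hex : ∃ n : ℕ, 0 < n ∧ ∃ g : F0, g ≠ 0 ∧ P.ord (ι g) = n := by
    rcases lt_or_gt_of_ne hg with h | h
    · refine ⟨(P.ord (ι g⁻¹)).toNat, ?_, g⁻¹, inv_ne_zero hg0, ?_⟩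
      · rw [map_inv₀, P.ord_inv]
        omega
      · rw [map_inv₀, P.ord_inv]
        omega
    · exact ⟨(P.ord (ι g)).toNat, by omega, g, hg0, by omega⟩
  obtain ⟨he, π0, hπ0, hπ⟩ := Nat.find_spec hex
  have hmin : ∀ n : ℕ, 0 < n → (∃ g : F0, g ≠ 0 ∧ P.ord (ι g) = n) → Nat.find hex ≤ n :=
    fun n hn h => Nat.find_min' hex ⟨hn, h⟩
  set e := Nat.find hex with he_def
  refine ⟨π0, hπ0, by rw [hπ]; exact_mod_cast he, fun g hg0 => ?_⟩
  rw [hπ]
  set a := P.ord (ι g) with ha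
  have he' : (0 : ℤ) < e := by exact_mod_cast he
  have hr0 : 0 ≤ a % (e : ℤ) := Int.emod_nonneg a he'.ne'
  have hr1 : a % (e : ℤ) < e := Int.emod_lt_of_pos a he'
  have hdecomp : (e : ℤ) * (a / e) + a % e = a := Int.mul_ediv_add_emod a e
  have hg' : g * π0 ^ (-(a / (e : ℤ))) ≠ 0 := mul_ne_zero hg0 (zpow_ne_zero _ hπ0)
  have hord : P.ord (ι (g * π0 ^ (-(a / (e : ℤ))))) = a % e := by
    rw [dl66_ord_ι_mul ι P hg0 (zpow_ne_zero _ hπ0), map_zpow₀, P.ord_zpow, hπ, ← ha]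
    linarith
  have hr : a % (e : ℤ) = 0 := by
    by_contra hne
    have hpos : 0 < a % (e : ℤ) := lt_of_le_of_ne hr0 (Ne.symm hne)
    have := hmin (a % (e : ℤ)).toNat (by omega) ⟨_, hg', by rw [hord]; omega⟩
    omega
  exact ⟨a / e, by linarith⟩

variable {ι P}

/-- Nonzero polynomials in `a0` have order zero, if all `a0 - γ` do. -/
theorem dl66_ord_aeval_eq_zero [IsAlgClosed k0]
    (hι : ∀ c : k0, ι (algebraMap k0 F0 c) = algebraMap K F (algebraMap k0 K c)) (a0 : F0)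
    (h : ∀ γ : k0, a0 - algebraMap k0 F0 γ ≠ 0 ∧ P.ord (ι (a0 - algebraMap k0 F0 γ)) = 0) :
    ∀ (n : ℕ) (p : Polynomial k0), p.natDegree = n → p ≠ 0 →
      Polynomial.aeval a0 p ≠ 0 ∧ P.ord (ι (Polynomial.aeval a0 p)) = 0 := by
  intro n
  induction n with
  | zero =>
    intro p hp hp0
    rw [Polynomial.eq_C_of_natDegree_eq_zero hp] at hp0 ⊢
    have hc : p.coeff 0 ≠ 0 := by
      intro h0
      exact hp0 (by rw [h0, map_zero])
    simp only [Polynomial.aeval_C]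
    refine ⟨(map_ne_zero (algebraMap k0 F0)).mpr hc, ?_⟩
    rw [hι]
    exact wp1_ord_algebraMap P _
  | succ n ih =>
    intro p hp hp0
    have hdeg : p.degree ≠ 0 := by
      intro h0
      have := Polynomial.natDegree_eq_zero_iff_degree_le_zero.mpr h0.le
      omega
    obtain ⟨c, hc⟩ := IsAlgClosed.exists_root p hdeg
    obtain ⟨q, rfl⟩ := Polynomial.dvd_iff_isRoot.mpr hc
    have hq0 : q ≠ 0 := fun h0 => hp0 (by rw [h0, mul_zero])
    have hqdeg : q.natDegree = n := by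
      have := Polynomial.natDegree_mul (Polynomial.X_sub_C_ne_zero c) hq0
      rw [Polynomial.natDegree_X_sub_C] at this
      omega
    have h1 : Polynomial.aeval a0 (Polynomial.X - Polynomial.C c) = a0 - algebraMap k0 F0 c := by
      simp
    obtain ⟨hq1, hq2⟩ := ih q hqdeg hq0
    rw [map_mul, h1]
    exact ⟨mul_ne_zero (h c).1 hq1, by rw [dl66_ord_ι_mul ι P (h c).1 hq1, (h c).2, hq2, add_zero]⟩

/-- Nonzero elements of `k₀(a0)` have order zero, if all `a0 - γ` do. -/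
theorem dl66_ord_adjoin_eq_zero [IsAlgClosed k0]
    (hι : ∀ c : k0, ι (algebraMap k0 F0 c) = algebraMap K F (algebraMap k0 K c)) (a0 : F0)
    (h : ∀ γ : k0, a0 - algebraMap k0 F0 γ ≠ 0 ∧ P.ord (ι (a0 - algebraMap k0 F0 γ)) = 0)
    (z : F0) (hz : z ∈ k0⟮a0⟯) (hz0 : z ≠ 0) : P.ord (ι z) = 0 := by
  obtain ⟨r, s, rfl⟩ := (IntermediateField.mem_adjoin_simple_iff k0 z).mp hz
  have hr : Polynomial.aeval a0 r ≠ 0 := by
    intro h0
    exact hz0 (by rw [h0, zero_div])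
  have hs : Polynomial.aeval a0 s ≠ 0 := by
    intro h0
    exact hz0 (by rw [h0, div_zero])
  have hr0 : r ≠ 0 := by
    rintro rfl
    simp at hr
  have hs0 : s ≠ 0 := by
    rintro rfl
    simp at hs
  rw [map_div₀, dl66_ord_div P ((map_ne_zero ι).mpr hr) ((map_ne_zero ι).mpr hs),
    (dl66_ord_aeval_eq_zero hι a0 h _ r rfl hr0).2, (dl66_ord_aeval_eq_zero hι a0 h _ s rfl hs0).2,
    sub_zero]

/-- **The residue field of `O_P ∩ F₀` is `k₀`** at a rational place. -/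
theorem dl66_rational_residue [IsAlgClosed k0]
    (hι : ∀ c : k0, ι (algebraMap k0 F0 c) = algebraMap K F (algebraMap k0 K c))
    (htr : ∀ y : F0, (∀ c0 : k0, y ≠ algebraMap k0 F0 c0) → ∀ g : F0, IsAlgebraic k0⟮y⟯ g)
    {val : F → K} (hv : dl66_IsVal P val) (hP : dl66_IsRational ι P)
    (a0 : F0) (ha0 : 0 ≤ P.ord (ι a0)) : ∃ γ : k0, val (ι a0) = algebraMap k0 K γ := by
  by_contra hcon
  push Not at hcon
  obtain ⟨π0, hπ0, hπpos, -⟩ := dl66_exists_min ι P hP
  -- all `a0 - γ` are units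
  have h : ∀ γ : k0, a0 - algebraMap k0 F0 γ ≠ 0 ∧ P.ord (ι (a0 - algebraMap k0 F0 γ)) = 0 := by
    intro γ
    have hc : val (ι a0) - algebraMap k0 K γ ≠ 0 := sub_ne_zero.mpr (hcon γ)
    have hmem := hv.sub_mem (ι a0) ha0
    have h1 := dl66_ord_const_add P hc hmem
    have e : algebraMap K F (val (ι a0) - algebraMap k0 K γ) + (ι a0 - algebraMap K F (val (ι a0)))
        = ι (a0 - algebraMap k0 F0 γ) := by
      rw [map_sub, map_sub, hι]
      ring
    rw [e] at h1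
    exact ⟨fun h0 => h1.1 (by rw [h0, map_zero]), h1.2⟩
  have ha0c : ∀ c0 : k0, a0 ≠ algebraMap k0 F0 c0 := fun c0 h0 => (h c0).1 (sub_eq_zero.mpr h0)
  have halg : IsAlgebraic k0⟮a0⟯ π0 := htr a0 ha0c π0
  have hint : IsIntegral k0⟮a0⟯ π0 := halg.isIntegral
  set Q := minpoly k0⟮a0⟯ π0 with hQ
  have hQ0 : Q.coeff 0 ≠ 0 := minpoly.coeff_zero_ne_zero hint hπ0
  have hQa : Polynomial.aeval π0 Q = 0 := minpoly.aeval _ _
  have hsplit : Q = Q.divX * Polynomial.X + Polynomial.C (Q.coeff 0) :=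
    (Polynomial.divX_mul_X_add Q).symm
  have hq0 : ((Q.coeff 0 : k0⟮a0⟯) : F0) = -(Polynomial.aeval π0 Q.divX * π0) := by
    have h2 : Polynomial.aeval π0 Q.divX * π0 + ((Q.coeff 0 : k0⟮a0⟯) : F0) = 0 := by
      have h3 := hQa
      rw [hsplit] at h3
      simpa using h3
    linear_combination h2
  have hq0ne : ((Q.coeff 0 : k0⟮a0⟯) : F0) ≠ 0 := by
    intro h0
    exact hQ0 (Subtype.ext h0)
  have hq0ord : P.ord (ι ((Q.coeff 0 : k0⟮a0⟯) : F0)) = 0 :=
    dl66_ord_adjoin_eq_zero hι a0 h _ (Q.coeff 0).2 hq0ne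
  -- the other side has positive order
  have hcoef : ∀ z : k0⟮a0⟯, 0 ≤ P.ord (ι (z : F0)) := by
    intro z
    rcases eq_or_ne (z : F0) 0 with h0 | h0
    · rw [h0, map_zero, P.ord_zero]
    · exact (dl66_ord_adjoin_eq_zero hι a0 h _ z.2 h0).ge
  have hpoly : ∀ q : Polynomial k0⟮a0⟯, 0 ≤ P.ord (ι (Polynomial.aeval π0 q)) := by
    intro q
    rw [Polynomial.aeval_eq_sum_range, map_sum]
    apply (wp1_mem_iff_ord_nonneg P _).mp
    refine Subring.sum_mem _ fun i _ => ?_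
    apply (wp1_mem_iff_ord_nonneg P _).mpr
    rw [Algebra.smul_def, map_mul, map_pow]
    refine dl66_nonneg_mul P (hcoef _) ?_
    apply (wp1_mem_iff_ord_nonneg P _).mp
    exact Subring.pow_mem _ ((wp1_mem_iff_ord_nonneg P _).mpr hπpos.le) _
  have hw0 : Polynomial.aeval π0 Q.divX ≠ 0 := by
    intro h0
    exact hq0ne (by rw [hq0, h0, zero_mul, neg_zero])
  have hfin : P.ord (ι ((Q.coeff 0 : k0⟮a0⟯) : F0))
      = P.ord (ι (Polynomial.aeval π0 Q.divX)) + P.ord (ι π0) := by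
    rw [hq0, map_neg, dl66_ord_neg, dl66_ord_ι_mul ι P hw0 hπ0]
  have := hpoly Q.divX
  omega

theorem dl66_R_nonneg {r : F} (hr : r ∈ dl66_R (K := K) ι P) : 0 ≤ P.ord r := by
  induction hr using Algebra.adjoin_induction with
  | mem x hx =>
    obtain ⟨a, ha, rfl⟩ := hx
    exact ha
  | algebraMap c => rw [wp1_ord_algebraMap]
  | add x y _ _ hx hy => exact dl66_nonneg_add P hx hy
  | mul x y _ _ hx hy => exact dl66_nonneg_mul P hx hy

theorem dl66_ι_mem_R {a : F0} (ha : 0 ≤ P.ord (ι a)) : ι a ∈ dl66_R (K := K) ι P :=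
  Algebra.subset_adjoin ⟨a, ha, rfl⟩

/-- `D` preserves `K[ι (O_P ∩ F₀)]`. -/
theorem dl66_R_deriv (D : Derivation ℤ F F) (d : K → K) (hD0 : ∀ g : F0, D (ι g) = 0)
    (hDK : ∀ c : K, D (algebraMap K F c) = algebraMap K F (d c)) {r : F}
    (hr : r ∈ dl66_R (K := K) ι P) : D r ∈ dl66_R (K := K) ι P := by
  induction hr using Algebra.adjoin_induction with
  | mem x hx =>
    obtain ⟨a, ha, rfl⟩ := hx
    rw [hD0]
    exact Subalgebra.zero_mem _
  | algebraMap c =>
    rw [hDK]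
    exact Subalgebra.algebraMap_mem _ _
  | add x y _ _ hx hy =>
    rw [map_add]
    exact Subalgebra.add_mem _ hx hy
  | mul x y hx' hy' hx hy =>
    rw [Derivation.leibniz]
    simp only [smul_eq_mul]
    exact Subalgebra.add_mem _ (Subalgebra.mul_mem _ hx' hy) (Subalgebra.mul_mem _ hy' hx)

/-- `F` is the fraction field of `K[ι (O_P ∩ F₀)]`. -/
theorem dl66_R_gen
    (hgen : ∀ f : F, ∃ r s, r ∈ Algebra.adjoin K (Set.range ι) ∧
      s ∈ Algebra.adjoin K (Set.range ι) ∧ s ≠ 0 ∧ f = r / s) (f : F) :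
    ∃ r s, r ∈ dl66_R (K := K) ι P ∧ s ∈ dl66_R (K := K) ι P ∧ s ≠ 0 ∧ f = r / s := by
  have key : ∀ z ∈ Algebra.adjoin K (Set.range ι),
      ∃ r s, r ∈ dl66_R (K := K) ι P ∧ s ∈ dl66_R (K := K) ι P ∧ s ≠ 0 ∧ z = r / s := by
    intro z hz
    induction hz using Algebra.adjoin_induction with
    | mem x hx =>
      obtain ⟨g, rfl⟩ := hx
      by_cases hg : 0 ≤ P.ord (ι g)
      · exact ⟨ι g, 1, dl66_ι_mem_R hg, Subalgebra.one_mem _, one_ne_zero, by simp⟩
      · have hg0 : g ≠ 0 := by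
          rintro rfl
          simp at hg
        have hinv : 0 ≤ P.ord (ι g⁻¹) := by
          rw [map_inv₀, P.ord_inv]
          omega
        refine ⟨1, ι g⁻¹, Subalgebra.one_mem _, dl66_ι_mem_R hinv,
          (map_ne_zero ι).mpr (inv_ne_zero hg0), ?_⟩
        rw [map_inv₀, one_div, inv_inv]
    | algebraMap c =>
      exact ⟨algebraMap K F c, 1, Subalgebra.algebraMap_mem _ _, Subalgebra.one_mem _,
        one_ne_zero, by simp⟩
    | add x y _ _ hx hy =>
      obtain ⟨r, s, hr, hs, hs0, rfl⟩ := hx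
      obtain ⟨r', s', hr', hs', hs0', rfl⟩ := hy
      refine ⟨r * s' + r' * s, s * s',
        Subalgebra.add_mem _ (Subalgebra.mul_mem _ hr hs') (Subalgebra.mul_mem _ hr' hs),
        Subalgebra.mul_mem _ hs hs', mul_ne_zero hs0 hs0', ?_⟩
      field_simp
    | mul x y _ _ hx hy =>
      obtain ⟨r, s, hr, hs, hs0, rfl⟩ := hx
      obtain ⟨r', s', hr', hs', hs0', rfl⟩ := hy
      refine ⟨r * r', s * s', Subalgebra.mul_mem _ hr hr', Subalgebra.mul_mem _ hs hs',
        mul_ne_zero hs0 hs0', ?_⟩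
      field_simp
  obtain ⟨z₁, z₂, hz₁, hz₂, hz₂0, rfl⟩ := hgen f
  obtain ⟨r₁, s₁, hr₁, hs₁, hs₁0, rfl⟩ := key z₁ hz₁
  obtain ⟨r₂, s₂, hr₂, hs₂, hs₂0, rfl⟩ := key z₂ hz₂
  have hr₂0 : r₂ ≠ 0 := by
    rintro rfl
    simp at hz₂0
  refine ⟨r₁ * s₂, s₁ * r₂, Subalgebra.mul_mem _ hr₁ hs₂, Subalgebra.mul_mem _ hs₁ hr₂,
    mul_ne_zero hs₁0 hr₂0, ?_⟩
  field_simp

/-- The congruence `r ≡ val r mod ι π0` on `K[ι (O_P ∩ F₀)]`. -/
theorem dl66_R_cong [IsAlgClosed k0]
    (hι : ∀ c : k0, ι (algebraMap k0 F0 c) = algebraMap K F (algebraMap k0 K c))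
    (htr : ∀ y : F0, (∀ c0 : k0, y ≠ algebraMap k0 F0 c0) → ∀ g : F0, IsAlgebraic k0⟮y⟯ g)
    {val : F → K} (hv : dl66_IsVal P val) (hP : dl66_IsRational ι P)
    {π0 : F0} (hπ0 : π0 ≠ 0) (hπpos : 0 < P.ord (ι π0))
    (hπ : ∀ g : F0, g ≠ 0 → ∃ m : ℤ, P.ord (ι g) = m * P.ord (ι π0))
    {r : F} (hr : r ∈ dl66_R (K := K) ι P) :
    ∃ r₁ ∈ dl66_R (K := K) ι P, r = algebraMap K F (val r) + ι π0 * r₁ := by
  have hπR : ι π0 ∈ dl66_R (K := K) ι P := dl66_ι_mem_R hπpos.le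
  induction hr using Algebra.adjoin_induction with
  | mem x hx =>
    obtain ⟨a, ha, rfl⟩ := hx
    have ha' : 0 ≤ P.ord (ι a) := ha
    obtain ⟨γ, hγ⟩ := dl66_rational_residue hι htr hv hP a ha'
    have hmem := hv.sub_mem (ι a) ha'
    rw [hγ, ← hι, ← map_sub] at hmem
    rw [hγ, ← hι]
    set b := a - algebraMap k0 F0 γ with hb
    rcases eq_or_ne b 0 with hb0 | hb0
    · refine ⟨0, Subalgebra.zero_mem _, ?_⟩
      have : a = algebraMap k0 F0 γ := sub_eq_zero.mp hb0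
      rw [mul_zero, add_zero, this]
    · have hbpos : 0 < P.ord (ι b) := by
        rcases hmem with h | h
        · exact absurd ((map_eq_zero ι).mp h) hb0
        · exact h
      obtain ⟨m, hm⟩ := hπ b hb0
      have hm1 : 1 ≤ m := by
        by_contra hlt
        have hm0 : m ≤ 0 := by omega
        have : m * P.ord (ι π0) ≤ 0 := mul_nonpos_of_nonpos_of_nonneg hm0 hπpos.le
        omega
      have hb' : 0 ≤ P.ord (ι (b / π0)) := by
        rw [map_div₀, dl66_ord_div P ((map_ne_zero ι).mpr hb0) ((map_ne_zero ι).mpr hπ0), hm]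
        nlinarith
      refine ⟨ι (b / π0), dl66_ι_mem_R hb', ?_⟩
      rw [← map_mul, mul_div_cancel₀ b hπ0, ← map_add, hb]
      congr 1
      ring
  | algebraMap c =>
    exact ⟨0, Subalgebra.zero_mem _, by rw [hv.const, mul_zero, add_zero]⟩
  | add x y hx' hy' hx hy =>
    obtain ⟨x₁, hx₁, ex⟩ := hx
    obtain ⟨y₁, hy₁, ey⟩ := hy
    refine ⟨x₁ + y₁, Subalgebra.add_mem _ hx₁ hy₁, ?_⟩
    rw [hv.add _ _ (dl66_R_nonneg hx') (dl66_R_nonneg hy'), map_add]
    linear_combination ex + ey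
  | mul x y hx' hy' hx hy =>
    obtain ⟨x₁, hx₁, ex⟩ := hx
    obtain ⟨y₁, hy₁, ey⟩ := hy
    refine ⟨algebraMap K F (val x) * y₁ + algebraMap K F (val y) * x₁ + ι π0 * x₁ * y₁,
      Subalgebra.add_mem _ (Subalgebra.add_mem _
        (Subalgebra.mul_mem _ (Subalgebra.algebraMap_mem _ _) hy₁)
        (Subalgebra.mul_mem _ (Subalgebra.algebraMap_mem _ _) hx₁))
        (Subalgebra.mul_mem _ (Subalgebra.mul_mem _ hπR hx₁) hy₁), ?_⟩
    rw [hv.mul _ _ (dl66_R_nonneg hx') (dl66_R_nonneg hy'), map_mul]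
    linear_combination y * ex + (algebraMap K F (val x) + ι π0 * x₁) * ey

/-- **At a rational place, `ord ∘ ι` is a normalised valuation of `F₀`**: there is `π0 ∈ F₀`
with `ord (ι π0) = 1`. -/
theorem dl66_rational_unif [IsAlgClosed k0]
    (hι : ∀ c : k0, ι (algebraMap k0 F0 c) = algebraMap K F (algebraMap k0 K c))
    (hgen : ∀ f : F, ∃ r s, r ∈ Algebra.adjoin K (Set.range ι) ∧
      s ∈ Algebra.adjoin K (Set.range ι) ∧ s ≠ 0 ∧ f = r / s)
    (htr : ∀ y : F0, (∀ c0 : k0, y ≠ algebraMap k0 F0 c0) → ∀ g : F0, IsAlgebraic k0⟮y⟯ g)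
    (hdeg : P.deg = 1) (hP : dl66_IsRational ι P) : ∃ π0 : F0, P.ord (ι π0) = 1 := by
  obtain ⟨val, hv⟩ := dl66_exists_val P hdeg
  obtain ⟨π0, hπ0, hπpos, hπ⟩ := dl66_exists_min ι P hP
  refine ⟨π0, dl66_ord_unif hv (fun r hr => dl66_R_nonneg hr) (dl66_ι_mem_R hπpos.le) hπpos
    (fun r hr => ?_) (dl66_R_gen hgen)⟩
  obtain ⟨r₁, hr₁, e⟩ := dl66_R_cong hι htr hv hP hπ0 hπpos hπ hr
  exact ⟨r₁, dl66_le_loc P _ hr₁, e⟩

/-- **Rational places: a derivation killing `ι F₀` and preserving `K` does not decrease the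
order.** -/
theorem dl66_ord_deriv_rational [IsAlgClosed k0]
    (hι : ∀ c : k0, ι (algebraMap k0 F0 c) = algebraMap K F (algebraMap k0 K c))
    (hgen : ∀ f : F, ∃ r s, r ∈ Algebra.adjoin K (Set.range ι) ∧
      s ∈ Algebra.adjoin K (Set.range ι) ∧ s ≠ 0 ∧ f = r / s)
    (htr : ∀ y : F0, (∀ c0 : k0, y ≠ algebraMap k0 F0 c0) → ∀ g : F0, IsAlgebraic k0⟮y⟯ g)
    (hdeg : P.deg = 1) (hP : dl66_IsRational ι P)
    (D : Derivation ℤ F F) (d : K → K) (hD0 : ∀ g : F0, D (ι g) = 0)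
    (hDK : ∀ c : K, D (algebraMap K F c) = algebraMap K F (d c))
    (f : F) (hDf : D f ≠ 0) : P.ord f ≤ P.ord (D f) := by
  obtain ⟨val, hv⟩ := dl66_exists_val P hdeg
  obtain ⟨π0, hπ0, hπpos, hπ⟩ := dl66_exists_min ι P hP
  refine dl66_ord_deriv_of_zero hv (fun r hr => dl66_R_nonneg hr) (dl66_ι_mem_R hπpos.le) hπpos
    (fun r hr => ?_) (dl66_R_gen hgen) D (fun r hr => dl66_R_deriv D d hD0 hDK hr) (hD0 π0) f hDf
  obtain ⟨r₁, hr₁, e⟩ := dl66_R_cong hι htr hv hP hπ0 hπpos hπ hr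
  exact ⟨r₁, dl66_le_loc P _ hr₁, e⟩

end Rational

section NonRational

variable {k0 K F0 F : Type*} [Field k0] [Field K] [Field F0] [Field F]
  [Algebra k0 K] [Algebra k0 F0] [Algebra K F]
  {ι : F0 →+* F} {P : Place K F}

theorem dl66_nr_ord (hP : ¬ dl66_IsRational ι P) (g : F0) : P.ord (ι g) = 0 := by
  by_contra h
  rcases eq_or_ne g 0 with rfl | hg
  · simp at h
  · exact hP ⟨g, hg, h⟩

theorem dl66_nr_nonneg (hP : ¬ dl66_IsRational ι P) {r : F}
    (hr : r ∈ Algebra.adjoin K (Set.range ι)) : 0 ≤ P.ord r := by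
  induction hr using Algebra.adjoin_induction with
  | mem x hx =>
    obtain ⟨g, rfl⟩ := hx
    exact (dl66_nr_ord hP g).ge
  | algebraMap c => rw [wp1_ord_algebraMap]
  | add x y _ _ hx hy => exact dl66_nonneg_add P hx hy
  | mul x y _ _ hx hy => exact dl66_nonneg_mul P hx hy

/-- `D` preserves `K[ι F₀]`. -/
theorem dl66_nr_deriv (D : Derivation ℤ F F) (d : K → K) (hD0 : ∀ g : F0, D (ι g) = 0)
    (hDK : ∀ c : K, D (algebraMap K F c) = algebraMap K F (d c)) {r : F}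
    (hr : r ∈ Algebra.adjoin K (Set.range ι)) : D r ∈ Algebra.adjoin K (Set.range ι) := by
  induction hr using Algebra.adjoin_induction with
  | mem x hx =>
    obtain ⟨g, rfl⟩ := hx
    rw [hD0]
    exact Subalgebra.zero_mem _
  | algebraMap c =>
    rw [hDK]
    exact Subalgebra.algebraMap_mem _ _
  | add x y _ _ hx hy =>
    rw [map_add]
    exact Subalgebra.add_mem _ hx hy
  | mul x y hx' hy' hx hy =>
    rw [Derivation.leibniz]
    simp only [smul_eq_mul]
    exact Subalgebra.add_mem _ (Subalgebra.mul_mem _ hx' hy) (Subalgebra.mul_mem _ hy' hx)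

/-- The value map on `F₀` at a non-rational place: a field embedding `F₀ → K`. -/
noncomputable def dl66_ev0 {val : F → K} (hv : dl66_IsVal P val) (hP : ¬ dl66_IsRational ι P) :
    F0 →+* K where
  toFun g := val (ι g)
  map_one' := by rw [map_one]; exact hv.val_one
  map_mul' g h := by
    rw [map_mul]
    exact hv.mul _ _ (dl66_nr_ord hP g).ge (dl66_nr_ord hP h).ge
  map_zero' := by rw [map_zero]; exact hv.val_zero
  map_add' g h := by
    rw [map_add]
    exact hv.add _ _ (dl66_nr_ord hP g).ge (dl66_nr_ord hP h).ge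

theorem dl66_ev0_apply {val : F → K} (hv : dl66_IsVal P val) (hP : ¬ dl66_IsRational ι P)
    (g : F0) : dl66_ev0 hv hP g = val (ι g) := rfl

/-- The set of `g ∈ F₀` with `ι g ≡ val (ι g)` modulo `t`, as an intermediate field. -/
noncomputable def dl66_congField
    (hι : ∀ c : k0, ι (algebraMap k0 F0 c) = algebraMap K F (algebraMap k0 K c))
    {val : F → K} (hv : dl66_IsVal P val) (hP : ¬ dl66_IsRational ι P) (t : F)
    (ht : t ∈ Algebra.adjoin K (Set.range ι)) : IntermediateField k0 F0 where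
  carrier := {g | ∃ w ∈ dl66_loc P (Algebra.adjoin K (Set.range ι)),
    ι g = algebraMap K F (val (ι g)) + t * w}
  mul_mem' := by
    rintro g h ⟨w, hw, eg⟩ ⟨w', hw', eh⟩
    have htL := dl66_le_loc P _ ht
    refine ⟨algebraMap K F (val (ι g)) * w' + algebraMap K F (val (ι h)) * w + t * w * w',
      Subalgebra.add_mem _ (Subalgebra.add_mem _
        (Subalgebra.mul_mem _ (Subalgebra.algebraMap_mem _ _) hw')
        (Subalgebra.mul_mem _ (Subalgebra.algebraMap_mem _ _) hw))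
        (Subalgebra.mul_mem _ (Subalgebra.mul_mem _ htL hw) hw'), ?_⟩
    rw [map_mul, hv.mul _ _ (dl66_nr_ord hP g).ge (dl66_nr_ord hP h).ge, map_mul]
    linear_combination ι h * eg + (algebraMap K F (val (ι g)) + t * w) * eh
  one_mem' := ⟨0, Subalgebra.zero_mem _, by rw [map_one, hv.val_one, map_one, mul_zero, add_zero]⟩
  add_mem' := by
    rintro g h ⟨w, hw, eg⟩ ⟨w', hw', eh⟩
    refine ⟨w + w', Subalgebra.add_mem _ hw hw', ?_⟩
    rw [map_add, hv.add _ _ (dl66_nr_ord hP g).ge (dl66_nr_ord hP h).ge, map_add]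
    linear_combination eg + eh
  zero_mem' := ⟨0, Subalgebra.zero_mem _, by
    rw [map_zero, hv.val_zero, map_zero, mul_zero, add_zero]⟩
  algebraMap_mem' c := ⟨0, Subalgebra.zero_mem _, by rw [hι, hv.const, mul_zero, add_zero]⟩
  inv_mem' := by
    rintro g ⟨w, hw, eg⟩
    rcases eq_or_ne g 0 with rfl | hg
    · exact ⟨0, Subalgebra.zero_mem _, by
        rw [inv_zero, map_zero, hv.val_zero, map_zero, mul_zero, add_zero]⟩
    have hιg : ι g ≠ 0 := (map_ne_zero ι).mpr hg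
    have hvg : val (ι g) ≠ 0 := hv.val_ne_zero hιg (dl66_nr_ord hP g)
    have hvg' : algebraMap K F (val (ι g)) ≠ 0 := (map_ne_zero _).mpr hvg
    have hvinv : val (ι g⁻¹) = (val (ι g))⁻¹ := by
      have h1 : val (ι g⁻¹) * val (ι g) = 1 := by
        rw [← hv.mul _ _ (dl66_nr_ord hP g⁻¹).ge (dl66_nr_ord hP g).ge, ← map_mul,
          inv_mul_cancel₀ hg, map_one, hv.val_one]
      exact eq_inv_of_mul_eq_one_left h1
    have hden : algebraMap K F (val (ι g)) * ι g ∈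
        dl66_loc P (Algebra.adjoin K (Set.range ι)) :=
      dl66_le_loc P _ (Subalgebra.mul_mem _ (Subalgebra.algebraMap_mem _ _)
        (Algebra.subset_adjoin ⟨g, rfl⟩))
    have hdenord : P.ord (algebraMap K F (val (ι g)) * ι g) = 0 := by
      rw [P.ord_mul hvg' hιg, wp1_ord_algebraMap, dl66_nr_ord hP g, add_zero]
    have hinv := dl66_loc_inv P hden (mul_ne_zero hvg' hιg) hdenord
    refine ⟨-(w * (algebraMap K F (val (ι g)) * ι g)⁻¹),
      Subalgebra.neg_mem _ (Subalgebra.mul_mem _ hw hinv), ?_⟩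
    rw [hvinv, map_inv₀, map_inv₀]
    field_simp
    linear_combination -eg

theorem dl66_mem_congField
    (hι : ∀ c : k0, ι (algebraMap k0 F0 c) = algebraMap K F (algebraMap k0 K c))
    {val : F → K} (hv : dl66_IsVal P val) (hP : ¬ dl66_IsRational ι P) (t : F)
    (ht : t ∈ Algebra.adjoin K (Set.range ι)) (g : F0) :
    g ∈ dl66_congField hι hv hP t ht ↔
      ∃ w ∈ dl66_loc P (Algebra.adjoin K (Set.range ι)),
        ι g = algebraMap K F (val (ι g)) + t * w := Iff.rfl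

/-- Two coefficient maps that are congruent modulo `t` give congruent polynomial values. -/
theorem dl66_eval₂_cong {E : Type*} [CommRing E] (L : Subalgebra K F) (t : F)
    (Φ Ψ : E →+* F) (hΦΨ : ∀ q : E, ∃ w ∈ L, Φ q - Ψ q = t * w) (p : Polynomial E) {y : F}
    (hy : y ∈ L) : ∃ w ∈ L, p.eval₂ Φ y - p.eval₂ Ψ y = t * w := by
  induction p using Polynomial.induction_on' with
  | add p q hp hq =>
    obtain ⟨w, hw, e⟩ := hp
    obtain ⟨w', hw', e'⟩ := hq
    refine ⟨w + w', L.add_mem hw hw', ?_⟩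
    rw [Polynomial.eval₂_add, Polynomial.eval₂_add]
    linear_combination e + e'
  | monomial n a =>
    obtain ⟨w, hw, e⟩ := hΦΨ a
    refine ⟨w * y ^ n, L.mul_mem hw (L.pow_mem hy n), ?_⟩
    rw [Polynomial.eval₂_monomial, Polynomial.eval₂_monomial]
    linear_combination y ^ n * e

/-- First-order Taylor expansion inside a subalgebra. -/
theorem dl66_taylor (L : Subalgebra K F) (q : Polynomial K) (c : K) {δ : F} (hδ : δ ∈ L) :
    ∃ k ∈ L, q.eval₂ (algebraMap K F) (algebraMap K F c + δ)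
      = algebraMap K F (q.eval c) + algebraMap K F (q.derivative.eval c) * δ + k * δ ^ 2 := by
  obtain ⟨k, hk⟩ := Polynomial.binomExpansion (q.map (algebraMap K L)) (algebraMap K L c)
    (⟨δ, hδ⟩ : L)
  refine ⟨(k : F), k.2, ?_⟩
  have hcomp : (L.val : L →+* F).comp (algebraMap K L) = algebraMap K F := RingHom.ext fun _ => rfl
  have h1 := congrArg (fun z : L => (z : F)) hk
  simp only [Polynomial.eval_map, Polynomial.derivative_map, Polynomial.eval₂_at_apply] at h1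
  have h2 : ((q.eval₂ (algebraMap K L) (algebraMap K L c + ⟨δ, hδ⟩) : L) : F)
      = q.eval₂ (algebraMap K F) (algebraMap K F c + δ) := by
    have := Polynomial.hom_eval₂ q (algebraMap K L) (L.val : L →+* F)
      (algebraMap K L c + ⟨δ, hδ⟩)
    rw [hcomp] at this
    exact this
  rw [← h2, h1]
  rfl

/-- **The key congruence at a non-rational place**: every `ι g` is congruent to its value
modulo `t = ι x - a`. -/
theorem dl66_nr_cong_ι [CharZero k0]
    (hι : ∀ c : k0, ι (algebraMap k0 F0 c) = algebraMap K F (algebraMap k0 K c))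
    {val : F → K} (hv : dl66_IsVal P val) (hP : ¬ dl66_IsRational ι P) (x : F0)
    (halg : ∀ g : F0, IsAlgebraic k0⟮x⟯ g) (g : F0) :
    ∃ w ∈ dl66_loc P (Algebra.adjoin K (Set.range ι)),
      ι g = algebraMap K F (val (ι g)) + (ι x - algebraMap K F (val (ι x))) * w := by
  set R' := Algebra.adjoin K (Set.range ι) with hR'
  set L := dl66_loc P R' with hL
  set t := ι x - algebraMap K F (val (ι x)) with ht
  have hRO : ∀ r ∈ R', 0 ≤ P.ord r := fun r hr => dl66_nr_nonneg hP hr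
  have hLO : ∀ f ∈ L, 0 ≤ P.ord f := fun f hf => dl66_loc_nonneg P hRO hf
  have hιR : ∀ g : F0, ι g ∈ R' := fun g => Algebra.subset_adjoin ⟨g, rfl⟩
  have htR : t ∈ R' := Subalgebra.sub_mem _ (hιR x) (Subalgebra.algebraMap_mem _ _)
  have htL : t ∈ L := dl66_le_loc P R' htR
  have htm : t ∈ dl66_m P := hv.sub_mem (ι x) (dl66_nr_ord hP x).ge
  -- the congruence field contains `k₀(x)`
  set 𝔖 := dl66_congField hι hv hP t htR with h𝔖
  have hx𝔖 : x ∈ 𝔖 := ⟨1, Subalgebra.one_mem _, by rw [mul_one, ht]; ring⟩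
  have hle : k0⟮x⟯ ≤ 𝔖 := (IntermediateField.adjoin_simple_le_iff).mpr hx𝔖
  -- the minimal polynomial of `g` over `k₀(x)`
  haveI : CharZero ↥k0⟮x⟯ := charZero_of_injective_algebraMap (algebraMap k0 ↥k0⟮x⟯).injective
  have hint : IsIntegral ↥k0⟮x⟯ g := (halg g).isIntegral
  set Q := minpoly ↥k0⟮x⟯ g with hQ
  have hQg : Polynomial.aeval g Q = 0 := minpoly.aeval _ _
  have hsep : Q.Separable := (minpoly.irreducible hint).separable
  have hder : Polynomial.aeval g (Polynomial.derivative Q) ≠ 0 :=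
    hsep.aeval_derivative_ne_zero hQg
  set φ : ↥k0⟮x⟯ →+* F0 := algebraMap ↥k0⟮x⟯ F0 with hφ
  set ev := dl66_ev0 hv hP with hev
  set Φ : ↥k0⟮x⟯ →+* F := ι.comp φ with hΦ
  set Ψ : ↥k0⟮x⟯ →+* F := (algebraMap K F).comp (ev.comp φ) with hΨ
  have hcoef : ∀ q : ↥k0⟮x⟯, ∃ w ∈ L, Φ q - Ψ q = t * w := by
    intro q
    obtain ⟨w, hw, e⟩ := hle q.2
    refine ⟨w, hw, ?_⟩
    show ι (q : F0) - algebraMap K F (val (ι (q : F0))) = t * w
    linear_combination e
  obtain ⟨W, hW, eW⟩ := dl66_eval₂_cong L t Φ Ψ hcoef Q (dl66_le_loc P R' (hιR g))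
  have h1 : Q.eval₂ Φ (ι g) = 0 := by
    rw [hΦ, ← Polynomial.hom_eval₂, ← Polynomial.aeval_def, hQg, map_zero]
  rw [h1, zero_sub] at eW
  -- Taylor expansion of the reduced polynomial
  set Qb : Polynomial K := Q.map (ev.comp φ) with hQb
  have h2 : Q.eval₂ Ψ (ι g) = Qb.eval₂ (algebraMap K F) (ι g) := by
    rw [hQb, Polynomial.eval₂_map]
  set c := val (ι g) with hc
  set δ := ι g - algebraMap K F c with hδ
  have hδm : δ ∈ dl66_m P := hv.sub_mem (ι g) (dl66_nr_ord hP g).ge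
  have hδL : δ ∈ L :=
    dl66_le_loc P R' (Subalgebra.sub_mem _ (hιR g) (Subalgebra.algebraMap_mem _ _))
  obtain ⟨k, hk, eT⟩ := dl66_taylor L Qb c hδL
  have hsum : algebraMap K F c + δ = ι g := by rw [hδ]; ring
  rw [hsum] at eT
  -- the main relation
  have hrel : algebraMap K F (Qb.eval c) + algebraMap K F (Qb.derivative.eval c) * δ + k * δ ^ 2
      = -(t * W) := by
    rw [← eT, ← h2]
    linear_combination -eW
  -- `Qb c = 0`
  have hmem1 : algebraMap K F (Qb.derivative.eval c) * δ + k * δ ^ 2 ∈ dl66_m P := by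
    refine (dl66_m P).add_mem (dl66_mul_mem_m P (by rw [wp1_ord_algebraMap]) hδm) ?_
    rw [pow_two, ← mul_assoc]
    exact dl66_mul_mem_m P (dl66_nonneg_mul P (hLO k hk) (dl66_m_nonneg P hδm)) hδm
  have hmem2 : -(t * W) ∈ dl66_m P := (dl66_m P).neg_mem (dl66_mem_m_mul P htm (hLO W hW))
  have hQc : Qb.eval c = 0 := by
    have h3 := hv.val_const_add (Qb.eval c) hmem1
    rw [← add_assoc, hrel, hv.val_of_mem_m hmem2] at h3
    exact h3.symm
  -- `Qb' c ≠ 0`
  have hQ'c : Qb.derivative.eval c ≠ 0 := by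
    have h4 : ev (Polynomial.aeval g (Polynomial.derivative Q)) = Qb.derivative.eval c := by
      rw [Polynomial.aeval_def, Polynomial.hom_eval₂, hQb, Polynomial.derivative_map,
        Polynomial.eval_map]
      rfl
    rw [← h4]
    exact hv.val_ne_zero ((map_ne_zero ι).mpr hder) (dl66_nr_ord hP _)
  -- the cofactor is a unit
  set C := algebraMap K F (Qb.derivative.eval c) + k * δ with hC
  have hkδ : k * δ ∈ dl66_m P := dl66_mul_mem_m P (hLO k hk) hδm
  obtain ⟨hC0, hCord⟩ := dl66_ord_const_add P hQ'c hkδ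
  have hCL : C ∈ L :=
    Subalgebra.add_mem _ (Subalgebra.algebraMap_mem _ _) (Subalgebra.mul_mem _ hk hδL)
  have hCinv : C⁻¹ ∈ L := dl66_loc_inv P hCL hC0 hCord
  have hδC : δ * C = -(t * W) := by
    rw [← hrel, hQc, map_zero, hC]
    ring
  refine ⟨-(W * C⁻¹), Subalgebra.neg_mem _ (Subalgebra.mul_mem _ hW hCinv), ?_⟩
  have hδeq : δ = t * -(W * C⁻¹) := by
    have : δ = -(t * W) * C⁻¹ := by
      rw [← hδC, mul_assoc, mul_inv_cancel₀ hC0, mul_one]
    rw [this]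
    ring
  rw [← hδeq, hδ]
  ring

/-- The congruence `r ≡ val r mod t` on `K[ι F₀]` at a non-rational place. -/
theorem dl66_nr_cong [CharZero k0]
    (hι : ∀ c : k0, ι (algebraMap k0 F0 c) = algebraMap K F (algebraMap k0 K c))
    {val : F → K} (hv : dl66_IsVal P val) (hP : ¬ dl66_IsRational ι P) (x : F0)
    (halg : ∀ g : F0, IsAlgebraic k0⟮x⟯ g) {r : F}
    (hr : r ∈ Algebra.adjoin K (Set.range ι)) :
    ∃ w ∈ dl66_loc P (Algebra.adjoin K (Set.range ι)),
      r = algebraMap K F (val r) + (ι x - algebraMap K F (val (ι x))) * w := by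
  have htL : ι x - algebraMap K F (val (ι x)) ∈ dl66_loc P (Algebra.adjoin K (Set.range ι)) :=
    dl66_le_loc P _ (Subalgebra.sub_mem _ (Algebra.subset_adjoin ⟨x, rfl⟩)
      (Subalgebra.algebraMap_mem _ _))
  induction hr using Algebra.adjoin_induction with
  | mem y hy =>
    obtain ⟨g, rfl⟩ := hy
    exact dl66_nr_cong_ι hι hv hP x halg g
  | algebraMap c =>
    exact ⟨0, Subalgebra.zero_mem _, by rw [hv.const, mul_zero, add_zero]⟩
  | add y z hy' hz' hy hz =>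
    obtain ⟨y₁, hy₁, ey⟩ := hy
    obtain ⟨z₁, hz₁, ez⟩ := hz
    refine ⟨y₁ + z₁, Subalgebra.add_mem _ hy₁ hz₁, ?_⟩
    rw [hv.add _ _ (dl66_nr_nonneg hP hy') (dl66_nr_nonneg hP hz'), map_add]
    linear_combination ey + ez
  | mul y z hy' hz' hy hz =>
    obtain ⟨y₁, hy₁, ey⟩ := hy
    obtain ⟨z₁, hz₁, ez⟩ := hz
    refine ⟨algebraMap K F (val y) * z₁ + algebraMap K F (val z) * y₁
        + (ι x - algebraMap K F (val (ι x))) * y₁ * z₁,
      Subalgebra.add_mem _ (Subalgebra.add_mem _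
        (Subalgebra.mul_mem _ (Subalgebra.algebraMap_mem _ _) hz₁)
        (Subalgebra.mul_mem _ (Subalgebra.algebraMap_mem _ _) hy₁))
        (Subalgebra.mul_mem _ (Subalgebra.mul_mem _ htL hy₁) hz₁), ?_⟩
    rw [hv.mul _ _ (dl66_nr_nonneg hP hy') (dl66_nr_nonneg hP hz'), map_mul]
    linear_combination z * ey
      + (algebraMap K F (val y) + (ι x - algebraMap K F (val (ι x))) * y₁) * ez

/-- **Non-rational places.**  Let `x ∈ F₀` be non-constant with `F₀` algebraic over `k₀(x)`.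
At a place `P` of degree one of `F` which is trivial on `ι F₀`, with `a` the value of `ι x`:
`a ∉ k₀`, `ι x - a` is a uniformiser, and for every derivation `D` of `F` killing `ι F₀` and
acting on `K` by `d`: `ord (D f) ≥ ord f - 1`, `ord (D f) ≥ 0` if `ord f = 0`, and
`ord (D f) = ord f - 1` if `ord f ≠ 0` and `d a ≠ 0`. -/
theorem dl66_nonrational [CharZero k0]
    (hι : ∀ c : k0, ι (algebraMap k0 F0 c) = algebraMap K F (algebraMap k0 K c))
    (hgen : ∀ f : F, ∃ r s, r ∈ Algebra.adjoin K (Set.range ι) ∧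
      s ∈ Algebra.adjoin K (Set.range ι) ∧ s ≠ 0 ∧ f = r / s)
    (hdisj : ∀ (g : F0) (c : K), ι g = algebraMap K F c → ∃ c0 : k0, g = algebraMap k0 F0 c0)
    (hdeg : P.deg = 1) (hP : ¬ dl66_IsRational ι P) (x : F0)
    (hx : ∀ c0 : k0, x ≠ algebraMap k0 F0 c0) (halg : ∀ g : F0, IsAlgebraic k0⟮x⟯ g) :
    ∃ a : K, (∀ c0 : k0, a ≠ algebraMap k0 K c0) ∧ P.ord (ι x - algebraMap K F a) = 1 ∧
      ∀ (D : Derivation ℤ F F) (d : K → K), (∀ g : F0, D (ι g) = 0) →
        (∀ c : K, D (algebraMap K F c) = algebraMap K F (d c)) →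
        (∀ f : F, D f ≠ 0 → P.ord f - 1 ≤ P.ord (D f)) ∧
        (∀ f : F, f ≠ 0 → P.ord f = 0 → D f ≠ 0 → 0 ≤ P.ord (D f)) ∧
        (∀ f : F, f ≠ 0 → P.ord f ≠ 0 → d a ≠ 0 → D f ≠ 0 ∧ P.ord (D f) = P.ord f - 1) := by
  haveI : CharZero K := charZero_of_injective_algebraMap (algebraMap k0 K).injective
  obtain ⟨val, hv⟩ := dl66_exists_val P hdeg
  set t := ι x - algebraMap K F (val (ι x)) with ht
  have htR : t ∈ Algebra.adjoin K (Set.range ι) :=
    Subalgebra.sub_mem _ (Algebra.subset_adjoin ⟨x, rfl⟩) (Subalgebra.algebraMap_mem _ _)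
  have htm : t ∈ dl66_m P := hv.sub_mem (ι x) (dl66_nr_ord hP x).ge
  have ht0 : t ≠ 0 := by
    intro h0
    obtain ⟨c0, hc0⟩ := hdisj x (val (ι x)) (sub_eq_zero.mp h0)
    exact hx c0 hc0
  have htpos : 0 < P.ord t := htm.resolve_left ht0
  have hRO : ∀ r ∈ Algebra.adjoin K (Set.range ι), 0 ≤ P.ord r :=
    fun r hr => dl66_nr_nonneg hP hr
  have hH : ∀ r ∈ Algebra.adjoin K (Set.range ι),
      ∃ w ∈ dl66_loc P (Algebra.adjoin K (Set.range ι)), r = algebraMap K F (val r) + t * w :=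
    fun r hr => dl66_nr_cong hι hv hP x halg hr
  refine ⟨val (ι x), ?_, dl66_ord_unif hv hRO htR htpos hH hgen, ?_⟩
  · intro c0 h0
    have h1 : t = ι (x - algebraMap k0 F0 c0) := by
      rw [ht, h0, map_sub, hι]
    rw [h1, dl66_nr_ord hP] at htpos
    exact lt_irrefl _ htpos
  · intro D d hD0 hDK
    have hDt : D t = algebraMap K F (-d (val (ι x))) := by
      rw [ht, map_sub, hD0, hDK, map_neg, zero_sub]
    obtain ⟨h1, h2, h3⟩ := dl66_ord_deriv_of_const hv hRO htR htpos hH hgen D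
      (fun r hr => dl66_nr_deriv D d hD0 hDK hr) (-d (val (ι x))) hDt
    exact ⟨h1, h2, fun f hf0 hford hda => h3 f hf0 hford (neg_ne_zero.mpr hda)⟩

end NonRational

end Fermat.Agent.S42
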