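import Fermat.Agent.S42.PlacesExactB93

/-!
S42 / S29, row M5c (helper93): `p ∣ v.ord G` at the finite places, abstract form.

Part 1 (`dg93_core`): a field `M` over `K` with an action of a group `G₀` fixing the constants,
a subgroup `Γ` of finite index, an embedding `ι : F →ₐ[K] M` with `Γ`-invariant image, an
element `y` with `G₀`-invariant image, an order function `w` on `M` and an element `γ` with the
local data of S24's `asmB_core`.  If `ι f = U ^ p` and `U` is invariant under the finite order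
elements of `Γ`, then `p ∣ v.ord f` for every place `v` of `F` over `y = 0`.

Part 2 (`dg93_rot`): an invariance-divisibility property of `w` on a `γ`-stable subring passes
to its field of fractions.
-/

set_option autoImplicit false

open AlgebraicCurve IntermediateField

namespace Fermat.Agent.S42

open Fermat.Agent.S24

section Core

variable {K F M G₀ : Type*} [Field K] [Field F] [Algebra K F]
  [Field M] [Algebra K M] [Group G₀] [MulSemiringAction G₀ M]

/-- The conjugate embedding `f ↦ g • ι f`. -/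
noncomputable def dg93_sigma0
    (hK : ∀ (g : G₀) (c : K), g • algebraMap K M c = algebraMap K M c)
    (ι : F →ₐ[K] M) (g : G₀) : F →ₐ[K] M :=
  { (MulSemiringAction.toRingHom G₀ M g).comp (ι : F →+* M) with
    commutes' := fun c => by
      show g • ι (algebraMap K F c) = algebraMap K M c
      rw [AlgHom.commutes, hK] }

theorem dg93_sigma0_apply
    (hK : ∀ (g : G₀) (c : K), g • algebraMap K M c = algebraMap K M c)
    (ι : F →ₐ[K] M) (g : G₀) (f : F) : dg93_sigma0 hK ι g f = g • ι f := rfl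

/-- The conjugate embedding attached to a left coset. -/
noncomputable def dg93_sigma
    (hK : ∀ (g : G₀) (c : K), g • algebraMap K M c = algebraMap K M c)
    (ι : F →ₐ[K] M) (Γ : Subgroup G₀) (a : G₀ ⧸ Γ) : F →ₐ[K] M :=
  dg93_sigma0 hK ι a.out

theorem dg93_sigma_apply
    (hK : ∀ (g : G₀) (c : K), g • algebraMap K M c = algebraMap K M c)
    (ι : F →ₐ[K] M) (Γ : Subgroup G₀) (a : G₀ ⧸ Γ) (f : F) :
    dg93_sigma hK ι Γ a f = a.out • ι f := rfl

theorem dg93_out_smul (Γ : Subgroup G₀) (g : G₀) (a : G₀ ⧸ Γ) :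
    (g * a.out)⁻¹ * (g • a).out ∈ Γ := by
  have h1 : ((g * a.out : G₀) : G₀ ⧸ Γ) = (((g • a).out : G₀) : G₀ ⧸ Γ) := by
    rw [QuotientGroup.out_eq']
    conv_rhs => rw [← QuotientGroup.out_eq' a]
    rfl
  exact QuotientGroup.eq.mp h1

theorem dg93_sigma_smul
    (hK : ∀ (g : G₀) (c : K), g • algebraMap K M c = algebraMap K M c)
    (ι : F →ₐ[K] M) (Γ : Subgroup G₀) (hΓ : ∀ g ∈ Γ, ∀ f : F, g • ι f = ι f)
    (g : G₀) (a : G₀ ⧸ Γ) (f : F) :
    dg93_sigma hK ι Γ (g • a) f = g • dg93_sigma hK ι Γ a f := by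
  have h2 := dg93_out_smul Γ g a
  have h3 : (g • a).out = (g * a.out) * ((g * a.out)⁻¹ * (g • a).out) := by group
  show (g • a).out • ι f = g • (a.out • ι f)
  rw [h3, mul_smul, hΓ _ h2, mul_smul]

/-- Elements of `K⟮y⟯` have `G₀`-invariant image as soon as `y` has. -/
theorem dg93_smul_of_mem_adjoin
    (hK : ∀ (g : G₀) (c : K), g • algebraMap K M c = algebraMap K M c)
    (ι : F →ₐ[K] M) (y : F) (hσy : ∀ g : G₀, g • ι y = ι y) (g : G₀) (r : F)
    (hr : r ∈ K⟮y⟯) : g • ι r = ι r := by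
  induction hr using IntermediateField.adjoin_induction with
  | mem x hx =>
    rw [Set.mem_singleton_iff.mp hx]
    exact hσy g
  | algebraMap c => rw [AlgHom.commutes, hK]
  | add x z _ _ hx hz => rw [map_add, smul_add, hx, hz]
  | inv x _ hx => rw [map_inv₀, smul_inv'', hx]
  | mul x z _ _ hx hz => rw [map_mul, smul_mul', hx, hz]

variable [IsAlgClosed K] [CharZero K]

/-- **Core.**  `p ∣ v.ord f` at every place over `y = 0` when `ι f = U ^ p` and `U` is invariant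
under the elements `a⁻¹ γ ^ k a ∈ Γ`. -/
theorem dg93_core
    (hK : ∀ (g : G₀) (c : K), g • algebraMap K M c = algebraMap K M c)
    (Γ : Subgroup G₀) [Fintype (G₀ ⧸ Γ)]
    (ι : F →ₐ[K] M) (hΓ : ∀ g ∈ Γ, ∀ f : F, g • ι f = ι f)
    (y : F) (hy : Transcendental K y) [FiniteDimensional K⟮y⟯ F]
    (hdeg : Module.finrank K⟮y⟯ F = Fintype.card (G₀ ⧸ Γ))
    (hnorm : ∀ f : F, ∃ r : F, r ∈ K⟮y⟯ ∧ ι r = ∏ b : G₀ ⧸ Γ, b.out • ι f)
    (hσy : ∀ g : G₀, g • ι y = ι y)
    (w : OrdFn K M) (e₀ : ℕ) (he₀ : 0 < e₀) (hw : w.ord (ι y) = e₀)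
    (γ : G₀) (hγ : ∀ a : G₀ ⧸ Γ, γ ^ e₀ • a = a)
    (h1 : ∀ h : M, w.ord (γ • h) = w.ord h)
    (h2 : ∀ h : M, h ≠ 0 → ∀ k : ℕ, k ∣ e₀ → γ ^ k • h = h → ((e₀ / k : ℕ) : ℤ) ∣ w.ord h)
    (p : ℕ) (f : F) (U : M) (hU : U ≠ 0) (hfU : ι f = U ^ p)
    (hUinv : ∀ (a : G₀) (k : ℕ), k ∣ e₀ → a⁻¹ * γ ^ k * a ∈ Γ → (a⁻¹ * γ ^ k * a) • U = U)
    (v : Place K F) (hv : 0 < v.ord y) : (p : ℤ) ∣ v.ord f := by
  classical
  have hπpow : ∀ (k : ℕ) (a : G₀ ⧸ Γ),
      ((MulAction.toPerm γ : Equiv.Perm (G₀ ⧸ Γ)) ^ k) a = γ ^ k • a := by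
    intro k
    induction k with
    | zero => intro a; simp
    | succ k ih =>
      intro a
      rw [pow_succ', Equiv.Perm.mul_apply, ih, pow_succ', mul_smul]
      rfl
  have hpp : ∀ a : G₀ ⧸ Γ,
      Function.IsPeriodicPt (MulAction.toPerm γ : Equiv.Perm (G₀ ⧸ Γ)) e₀ a := by
    intro a
    show (MulAction.toPerm γ : Equiv.Perm (G₀ ⧸ Γ))^[e₀] a = a
    rw [Equiv.Perm.iterate_eq_pow, hπpow, hγ]
  have hper : ∀ a : G₀ ⧸ Γ,
      γ ^ Function.minimalPeriod (MulAction.toPerm γ : Equiv.Perm (G₀ ⧸ Γ)) a • a = a := by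
    intro a
    rw [← hπpow]
    have hmp := Function.iterate_minimalPeriod
      (f := (MulAction.toPerm γ : Equiv.Perm (G₀ ⧸ Γ))) (x := a)
    rw [Equiv.Perm.iterate_eq_pow] at hmp
    exact hmp
  refine pe93_dvd_all (dg93_sigma hK ι Γ) y hy ?hcard ?hnorm ?hσy w e₀ he₀ ?hw
    (MulAction.toPerm γ) ?hπ ?h1 ?h2 p f (fun a => a.out • U) ?hu0 ?hfu ?hudvd v hv
  case hcard => exact hdeg
  case hnorm =>
    intro f
    obtain ⟨r, hr, hrP⟩ := hnorm f
    refine ⟨r, hr, fun a => ?_⟩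
    show a.out • ι r = ∏ b : G₀ ⧸ Γ, b.out • ι f
    rw [dg93_smul_of_mem_adjoin hK ι y hσy _ r hr, hrP]
  case hσy =>
    intro a b
    show a.out • ι y = b.out • ι y
    rw [hσy, hσy]
  case hw =>
    intro a
    show w.ord (a.out • ι y) = e₀
    rw [hσy]
    exact hw
  case hπ =>
    ext a
    rw [hπpow, hγ]
    rfl
  case h1 =>
    intro a f
    show w.ord (dg93_sigma hK ι Γ (γ • a) f) = _
    rw [dg93_sigma_smul hK ι Γ hΓ, h1]
  case h2 =>
    intro a f hf
    have hσf : dg93_sigma hK ι Γ a f ≠ 0 := (map_ne_zero _).mpr hf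
    refine h2 _ hσf _ (hpp a).minimalPeriod_dvd ?_
    rw [← dg93_sigma_smul hK ι Γ hΓ, hper a]
  case hu0 =>
    intro a
    exact (smul_ne_zero_iff_ne _).mpr hU
  case hfu =>
    intro a
    show a.out • ι f = (a.out • U) ^ p
    rw [hfU, smul_pow']
  case hudvd =>
    intro a
    have hua : a.out • U ≠ 0 := (smul_ne_zero_iff_ne _).mpr hU
    refine h2 _ hua _ (hpp a).minimalPeriod_dvd ?_
    set k := Function.minimalPeriod (MulAction.toPerm γ : Equiv.Perm (G₀ ⧸ Γ)) a with hk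
    have hmem : a.out⁻¹ * γ ^ k * a.out ∈ Γ := by
      have h3 : ((γ ^ k * a.out : G₀) : G₀ ⧸ Γ) = ((a.out : G₀) : G₀ ⧸ Γ) := by
        have h4 : ((γ ^ k * a.out : G₀) : G₀ ⧸ Γ) = γ ^ k • ((a.out : G₀) : G₀ ⧸ Γ) := rfl
        rw [h4, QuotientGroup.out_eq', hper a]
      have h5 := QuotientGroup.eq.mp h3.symm
      rwa [mul_assoc]
    have h6 := hUinv a.out k (hpp a).minimalPeriod_dvd hmem
    have h7 : γ ^ k * a.out = a.out * (a.out⁻¹ * γ ^ k * a.out) := by group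
    rw [← mul_smul, h7, mul_smul, h6]

end Core

section Rot

variable {K M G₀ : Type*} [Field K] [Field M] [Algebra K M] [Group G₀] [MulSemiringAction G₀ M]

/-- **Rotation lemma for fractions.**  If `e ∣ w a` for every nonzero `γ`-invariant element `a`
of a `γ`-stable subring `O` whose fractions exhaust `M`, and `γ` has finite order, then
`e ∣ w x` for every nonzero `γ`-invariant `x : M`. -/
theorem dg93_rot (O : Subring M)
    (hfrac : ∀ x : M, ∃ a ∈ O, ∃ b ∈ O, b ≠ 0 ∧ x = a / b)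
    (w : OrdFn K M) (γ : G₀) (hγO : ∀ a ∈ O, γ • a ∈ O)
    (n : ℕ) (hn : 0 < n) (hγn : ∀ x : M, γ ^ n • x = x)
    (e : ℤ) (hO : ∀ a ∈ O, a ≠ 0 → γ • a = a → e ∣ w.ord a)
    (x : M) (hx : x ≠ 0) (hinv : γ • x = x) : e ∣ w.ord x := by
  classical
  obtain ⟨a, ha, b, hb, hb0, rfl⟩ := hfrac x
  obtain ⟨m, rfl⟩ : ∃ m, n = m + 1 := ⟨n - 1, by omega⟩
  have ha0 : a ≠ 0 := by
    rintro rfl
    exact hx (zero_div b)
  have hpowO : ∀ (k : ℕ) (c : M), c ∈ O → γ ^ k • c ∈ O := by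
    intro k
    induction k with
    | zero => intro c hc; simpa using hc
    | succ k ih =>
      intro c hc
      rw [pow_succ', mul_smul]
      exact hγO _ (ih c hc)
  -- the invariant denominator
  set b' : M := ∏ k ∈ Finset.range (m + 1), γ ^ k • b with hb'
  set c' : M := ∏ k ∈ Finset.range m, γ ^ (k + 1) • b with hc'
  have hb'c' : b' = c' * b := by
    rw [hb', Finset.prod_range_succ', pow_zero, one_smul]
  have hc'O : c' ∈ O := Subring.prod_mem O fun k _ => hpowO _ b hb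
  have hb'O : b' ∈ O := Subring.prod_mem O fun k _ => hpowO _ b hb
  have hsm0 : ∀ k : ℕ, γ ^ k • b ≠ 0 := fun k => (smul_ne_zero_iff_ne _).mpr hb0
  have hc'0 : c' ≠ 0 := Finset.prod_ne_zero_iff.mpr fun k _ => hsm0 _
  have hb'0 : b' ≠ 0 := Finset.prod_ne_zero_iff.mpr fun k _ => hsm0 _
  have hb'inv : γ • b' = b' := by
    have h1 : γ • b' = ∏ k ∈ Finset.range (m + 1), γ ^ (k + 1) • b := by
      rw [hb', Finset.smul_prod']
      refine Finset.prod_congr rfl fun k _ => ?_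
      rw [← mul_smul, ← pow_succ']
    rw [h1, Finset.prod_range_succ, hγn b, hb'c', mul_comm]
  -- the invariant numerator
  have hxb' : a / b * b' = a * c' := by
    rw [hb'c']
    field_simp
  have ha'O : a * c' ∈ O := O.mul_mem ha hc'O
  have ha'0 : a * c' ≠ 0 := mul_ne_zero ha0 hc'0
  have ha'inv : γ • (a * c') = a * c' := by
    rw [← hxb', smul_mul', hinv, hb'inv]
  have h1 := hO _ ha'O ha'0 ha'inv
  have h2 := hO _ hb'O hb'0 hb'inv
  have h3 : w.ord (a / b * b') = w.ord (a / b) + w.ord b' := w.ord_mul _ _ hx hb'0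
  rw [hxb'] at h3
  have h4 : w.ord (a / b) = w.ord (a * c') - w.ord b' := by omega
  rw [h4]
  exact dvd_sub h1 h2

end Rot

end Fermat.Agent.S42
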