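import Fermat.Agent.S42.DivGInst93
import Fermat.Agent.S42.ThetaAbs70

/-!
S42 / S29, seam (G-X), divisibility half (helper93).

`dg93_IsEll δ` : `δ` is conjugate in `SL(2,ℤ)` to a power of `S * T` or of `S`
(`dg93_IsEll.pow_twelve : δ ^ 12 = 1`).

* `dg93_finite_mer_ell` : `dg93_finite_mer` with the invariance of `U` only required for the
  elements `δ ∈ Γ₀(N)` with `dg93_IsEll δ`.
* `dg93_char_ell` : an element `h` with a character `ζ ^ χ` (`th70_IsChar`), `p ≥ 5` prime, is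
  invariant under those elements.
* `dg93_GX_div` : **(G-X), divisibility.**  `h ≠ 0` with character, `ι u = h ^ p`, `p ≥ 5`, and
  `v.ord u = 0` at the places over `x = ∞` give `p ∣ v.ord u` at EVERY place `v`.
* `dg93_GX_div_ell` : the same for any `p` when `h` is invariant under the elliptic elements
  (the `p = 2, 3` form).
-/

set_option autoImplicit false

open AlgebraicCurve IntermediateField MatrixGroups UpperHalfPlane ModularForm EisensteinSeries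
open scoped Manifold

namespace Fermat.Agent.S42

open Fermat.Agent.S24

/-- `δ` is conjugate in `SL(2,ℤ)` to a power of `S * T` or of `S`. -/
def dg93_IsEll (δ : SL(2, ℤ)) : Prop :=
  ∃ (a γ : SL(2, ℤ)) (k : ℕ),
    (γ = ModularGroup.S * ModularGroup.T ∨ γ = ModularGroup.S) ∧ δ = a⁻¹ * γ ^ k * a

theorem dg93_IsEll.pow_twelve {δ : SL(2, ℤ)} (h : dg93_IsEll δ) : δ ^ 12 = 1 := by
  obtain ⟨a, γ, k, hγ, rfl⟩ := h
  have hγ12 : γ ^ 12 = 1 := by
    rcases hγ with rfl | rfl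
    · have h1 : (ModularGroup.S * ModularGroup.T : SL(2, ℤ)) ^ 12 =
          ((ModularGroup.S * ModularGroup.T : SL(2, ℤ)) ^ 6) ^ 2 := by rw [← pow_mul]
      rw [h1, dg93_ST_pow_six, one_pow]
    · have h1 : (ModularGroup.S : SL(2, ℤ)) ^ 12 = ((ModularGroup.S : SL(2, ℤ)) ^ 4) ^ 3 := by
        rw [← pow_mul]
      rw [h1, dg93_S_pow_four, one_pow]
  have h1 : a⁻¹ * γ ^ k * a = a⁻¹ * γ ^ k * a⁻¹⁻¹ := by rw [inv_inv]
  rw [h1, conj_pow, ← pow_mul, mul_comm, pow_mul, hγ12, one_pow, mul_one, mul_inv_cancel]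

theorem dg93_isEll_one : dg93_IsEll 1 :=
  ⟨1, ModularGroup.S, 0, Or.inr rfl, by simp⟩

section Finite

variable {F M : Type*} [Field F] [Algebra ℂ F] [Field M] [Algebra ℂ M]
  [MulSemiringAction SL(2, ℤ) M]

/-- One value `c`, with the local data at a point `τ₀` over it (elliptic form). -/
theorem dg93_finite_at_ell
    (hK : ∀ (g : SL(2, ℤ)) (c : ℂ), g • algebraMap ℂ M c = algebraMap ℂ M c)
    (jM : M) (hjinv : ∀ g : SL(2, ℤ), g • jM = jM)
    (N : ℕ) [Fintype (Cosets N)]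
    (ι : F →ₐ[ℂ] M) (hΓ : ∀ g ∈ CongruenceSubgroup.Gamma0 N, ∀ f : F, g • ι f = ι f)
    (x : F) (hιx : ι x = jM) (hx : Transcendental ℂ x) [FiniteDimensional ℂ⟮x⟯ F]
    (hdeg : Module.finrank ℂ⟮x⟯ F = Nat.card (Cosets N))
    (hnorm : ∀ f : F, ∃ r : F, r ∈ ℂ⟮x⟯ ∧ ι r = ∏ b : Cosets N, b.out • ι f)
    (c : ℂ) (w : OrdFn ℂ M) (e₀ : ℕ) (he₀ : e₀ = 1 ∨ e₀.Prime)
    (hw : w.ord (jM - algebraMap ℂ M c) = e₀)
    (γ : SL(2, ℤ)) (hγ : ∀ a : Cosets N, γ ^ e₀ • a = a)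
    (hγell : ∀ (a : SL(2, ℤ)) (k : ℕ), dg93_IsEll (a⁻¹ * γ ^ k * a))
    (h1 : ∀ h : M, w.ord (γ • h) = w.ord h)
    (h2 : ∀ h : M, h ≠ 0 → γ • h = h → (e₀ : ℤ) ∣ w.ord h)
    (p : ℕ) (G : F) (U : M) (hU : U ≠ 0) (hGU : ι G = U ^ p)
    (hUell : ∀ δ ∈ CongruenceSubgroup.Gamma0 N, dg93_IsEll δ → δ • U = U)
    (v : Place ℂ F) (hv : 0 < v.ord (x - algebraMap ℂ F c)) : (p : ℤ) ∣ v.ord G := by
  have hyx := asmB_adjoin_sub (K := ℂ) x c
  have hfd : FiniteDimensional ℂ⟮x - algebraMap ℂ F c⟯ F := by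
    rw [hyx]
    infer_instance
  have he₀pos : 0 < e₀ := by
    rcases he₀ with rfl | h
    · exact one_pos
    · exact h.pos
  have hιy : ι (x - algebraMap ℂ F c) = jM - algebraMap ℂ M c := by
    rw [map_sub, hιx, AlgHom.commutes]
  refine dg93_core hK (CongruenceSubgroup.Gamma0 N) ι hΓ (x - algebraMap ℂ F c)
    (asmB_transcendental_sub hx c) ?hdeg ?hnorm ?hσy w e₀ he₀pos ?hw γ hγ h1 ?h2 p G U hU hGU
    ?hUinv v hv
  case hdeg => rw [hyx, hdeg, Nat.card_eq_fintype_card]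
  case hnorm =>
    intro f
    obtain ⟨r, hr, hrP⟩ := hnorm f
    exact ⟨r, by rw [hyx]; exact hr, hrP⟩
  case hσy =>
    intro g
    rw [hιy, smul_sub, hjinv, hK]
  case hw => rw [hιy, hw]
  case h2 =>
    intro h hh k hk hfix
    rcases he₀ with rfl | hprime
    · rw [Nat.dvd_one.mp hk]
      exact one_dvd _
    · rcases (Nat.dvd_prime hprime).mp hk with rfl | rfl
      · rw [pow_one] at hfix
        rw [Nat.div_one]
        exact h2 h hh hfix
      · rw [Nat.div_self hprime.pos]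
        exact one_dvd _
  case hUinv =>
    intro a k _ hmem
    exact hUell _ hmem (hγell a k)

variable (w : ℍ → OrdFn ℂ M)

/-- **All finite places** (elliptic form). -/
theorem dg93_finite_ell
    (hK : ∀ (g : SL(2, ℤ)) (c : ℂ), g • algebraMap ℂ M c = algebraMap ℂ M c)
    (hwsmul : ∀ (g : SL(2, ℤ)) (τ : ℍ) (x : M), (w τ).ord (g • x) = (w (g⁻¹ • τ)).ord x)
    (hrot3 : ∀ x : M, x ≠ 0 → (ModularGroup.S * ModularGroup.T) • x = x →
      (3 : ℤ) ∣ (w rhoH).ord x)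
    (hrot2 : ∀ x : M, x ≠ 0 → ModularGroup.S • x = x → (2 : ℤ) ∣ (w UpperHalfPlane.I).ord x)
    (jM : M) (hjinv : ∀ g : SL(2, ℤ), g • jM = jM)
    (hjord : ∀ τ : ℍ, (w τ).ord (jM - algebraMap ℂ M (kleinJ τ)) =
      ordAt τ (fun z => kleinJ z - kleinJ τ))
    (N : ℕ) [Fintype (Cosets N)]
    (ι : F →ₐ[ℂ] M) (hΓ : ∀ g ∈ CongruenceSubgroup.Gamma0 N, ∀ f : F, g • ι f = ι f)
    (x : F) (hιx : ι x = jM) (hx : Transcendental ℂ x) [FiniteDimensional ℂ⟮x⟯ F]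
    (hdeg : Module.finrank ℂ⟮x⟯ F = Nat.card (Cosets N))
    (hnorm : ∀ f : F, ∃ r : F, r ∈ ℂ⟮x⟯ ∧ ι r = ∏ b : Cosets N, b.out • ι f)
    (p : ℕ) (G : F) (U : M) (hU : U ≠ 0) (hGU : ι G = U ^ p)
    (hUell : ∀ δ ∈ CongruenceSubgroup.Gamma0 N, dg93_IsEll δ → δ • U = U)
    (c : ℂ) (v : Place ℂ F) (hv : 0 < v.ord (x - algebraMap ℂ F c)) : (p : ℤ) ∣ v.ord G := by
  have hinvsmul : ∀ (γ : SL(2, ℤ)) (τ : ℍ), γ • τ = τ → γ⁻¹ • τ = τ := by
    intro γ τ h
    rw [inv_smul_eq_iff, h]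
  by_cases hc0 : c = 0
  · -- the point `ρ`
    subst hc0
    have hw : (w rhoH).ord (jM - algebraMap ℂ M 0) = (3 : ℕ) := by
      have h := hjord rhoH
      rw [wpA3_kleinJ_rho] at h
      rw [h]
      unfold ordAt
      have h3 : ((fun z : ℍ => kleinJ z - 0) ∘ ofComplex) = kleinJ ∘ ofComplex := by
        funext z
        simp
      rw [h3, wpA3_order_rho]
      rfl
    exact dg93_finite_at_ell hK jM hjinv N ι hΓ x hιx hx hdeg hnorm 0 (w rhoH) 3
      (Or.inr Nat.prime_three) hw (ModularGroup.S * ModularGroup.T)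
      (fun b => Fermat.Agent.Lib.Gamma0Orbits.ST_cube_smul N b)
      (fun a k => ⟨a, _, k, Or.inl rfl, rfl⟩)
      (fun h => by rw [hwsmul, hinvsmul _ _ wpA3_ST_smul_rho])
      (fun h hh hfix => hrot3 h hh hfix)
      p G U hU hGU hUell v hv
  by_cases hc1 : c = 1728
  · -- the point `i`
    subst hc1
    have hw : (w UpperHalfPlane.I).ord (jM - algebraMap ℂ M 1728) = (2 : ℕ) := by
      have h := hjord UpperHalfPlane.I
      rw [wpA3_kleinJ_I] at h
      rw [h]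
      unfold ordAt
      have h3 : ((fun z : ℍ => kleinJ z - 1728) ∘ ofComplex) =
          fun z : ℂ => kleinJ (ofComplex z) - 1728 := rfl
      rw [h3, wpA3_order_I]
      rfl
    exact dg93_finite_at_ell hK jM hjinv N ι hΓ x hιx hx hdeg hnorm 1728 (w UpperHalfPlane.I) 2
      (Or.inr Nat.prime_two) hw ModularGroup.S
      (fun b => Fermat.Agent.Lib.Gamma0Orbits.S_sq_smul N b)
      (fun a k => ⟨a, _, k, Or.inr rfl, rfl⟩)
      (fun h => by rw [hwsmul, hinvsmul _ _ wpA5b3_S_smul_I])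
      (fun h hh hfix => hrot2 h hh hfix)
      p G U hU hGU hUell v hv
  · -- a generic point
    obtain ⟨τ₀, hτ₀⟩ := wpA2_kleinJ_surjective c
    have hw : (w τ₀).ord (jM - algebraMap ℂ M c) = (1 : ℕ) := by
      have h := hjord τ₀
      rw [hτ₀] at h
      rw [h]
      unfold ordAt
      have hd := wpA3_deriv_ne_zero τ₀ (by rw [hτ₀]; exact hc0) (by rw [hτ₀]; exact hc1)
      have han : AnalyticAt ℂ (kleinJ ∘ ofComplex) (τ₀ : ℂ) := wpA3_analyticAt wpA5_kleinJ_mdiff τ₀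
      have h2 := han.analyticOrderAt_sub_eq_one_of_deriv_ne_zero hd
      have h3 : ((fun z : ℍ => kleinJ z - c) ∘ ofComplex) =
          fun z => (kleinJ ∘ ofComplex) z - (kleinJ ∘ ofComplex) (τ₀ : ℂ) := by
        funext z
        simp only [Function.comp_apply, ofComplex_apply, hτ₀]
      rw [h3, h2]
      rfl
    exact dg93_finite_at_ell hK jM hjinv N ι hΓ x hιx hx hdeg hnorm c (w τ₀) 1
      (Or.inl rfl) hw 1 (fun b => by simp)
      (fun a k => by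
        have h1 : a⁻¹ * (1 : SL(2, ℤ)) ^ k * a = 1 := by simp
        rw [h1]
        exact dg93_isEll_one)
      (fun h => by rw [one_smul])
      (fun h _ _ => by simp)
      p G U hU hGU hUell v hv

end Finite

/-- `dg93_finite_mer` with the invariance of `U` only under the elliptic elements. -/
theorem dg93_finite_mer_ell {F : Type*} [Field F] [Algebra ℂ F] (N : ℕ) [Fintype (Cosets N)]
    (ι : F →ₐ[ℂ] mer95_MER)
    (hΓ : ∀ g ∈ CongruenceSubgroup.Gamma0 N, ∀ f : F, g • ι f = ι f)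
    (x : F) (hιx : ι x = dg93_jM) (hx : Transcendental ℂ x) [FiniteDimensional ℂ⟮x⟯ F]
    (hdeg : Module.finrank ℂ⟮x⟯ F = Nat.card (Cosets N))
    (hnorm : ∀ f : F, ∃ r : F, r ∈ ℂ⟮x⟯ ∧ ι r = ∏ b : Cosets N, b.out • ι f)
    (p : ℕ) (G : F) (U : mer95_MER) (hU : U ≠ 0) (hGU : ι G = U ^ p)
    (hUell : ∀ δ ∈ CongruenceSubgroup.Gamma0 N, dg93_IsEll δ → δ • U = U)
    (c : ℂ) (v : Place ℂ F) (hv : 0 < v.ord (x - algebraMap ℂ F c)) : (p : ℤ) ∣ v.ord G :=
  dg93_finite_ell dg93_w mer95_smul_C_SL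
    (fun g τ y => mer95_ord_smul_SL g τ y)
    (fun y hy hfix => by
      exact_mod_cast dg93_rot_mer rhoH _ wpA3_ST_smul_rho 3 wpA5b3_prim_rho 6 (by norm_num)
        dg93_ST_pow_six y hy hfix)
    (fun y hy hfix => by
      exact_mod_cast dg93_rot_mer UpperHalfPlane.I _ wpA5b3_S_smul_I 2 wpA5b3_prim_I 4
        (by norm_num) dg93_S_pow_four y hy hfix)
    dg93_jM dg93_jM_smul dg93_jord N ι hΓ x hιx hx hdeg hnorm p G U hU hGU hUell c v hv

/-- An element with a character `ζ ^ χ` of `Γ₀(N)` (values in `ZMod p`, `p ≥ 5` prime) is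
invariant under the elliptic elements of `Γ₀(N)`. -/
theorem dg93_char_ell {M : Type*} [Field M] [MulSemiringAction SL(2, ℤ) M] (N : ℕ) (p : ℕ)
    (hp : p.Prime) (hp5 : 5 ≤ p) (ζ : M)
    (χ : Additive (CongruenceSubgroup.Gamma0 N) →+ ZMod p) (h : M)
    (hchar : th70_IsChar p ζ χ h) (δ : SL(2, ℤ)) (hδ : δ ∈ CongruenceSubgroup.Gamma0 N)
    (hell : dg93_IsEll δ) : δ • h = h := by
  haveI : Fact p.Prime := ⟨hp⟩
  have h12 := hell.pow_twelve
  set d : CongruenceSubgroup.Gamma0 N := ⟨δ, hδ⟩ with hd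
  have hd12 : d ^ 12 = 1 := by
    apply Subtype.ext
    simpa using h12
  have h1 : (12 : ℕ) • χ (Additive.ofMul d) = 0 := by
    rw [← map_nsmul, ← ofMul_pow, hd12, ofMul_one, map_zero]
  have h2 : χ (Additive.ofMul d) = 0 := by
    rw [nsmul_eq_mul] at h1
    rcases mul_eq_zero.mp h1 with h3 | h3
    · exfalso
      have h4 : ((12 : ℕ) : ZMod p) = 0 := h3
      rw [ZMod.natCast_eq_zero_iff] at h4
      have h5 : p ≤ 12 := Nat.le_of_dvd (by norm_num) h4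
      interval_cases p
      · exact absurd h4 (by norm_num)
      · exact absurd hp (by norm_num)
      · exact absurd h4 (by norm_num)
      · exact absurd hp (by norm_num)
      · exact absurd hp (by norm_num)
      · exact absurd hp (by norm_num)
      · exact absurd h4 (by norm_num)
      · exact absurd hp (by norm_num)
    · exact h3
  have h3 := hchar d
  rw [h2, ZMod.val_zero, pow_zero, one_mul] at h3
  exact h3

/-- **(G-X), divisibility, elliptic form (any `p`).** -/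
theorem dg93_GX_div_ell {F : Type*} [Field F] [Algebra ℂ F] (N : ℕ) [Fintype (Cosets N)]
    (ι : F →ₐ[ℂ] mer95_MER)
    (hΓ : ∀ g ∈ CongruenceSubgroup.Gamma0 N, ∀ f : F, g • ι f = ι f)
    (x : F) (hιx : ι x = dg93_jM) (hx : Transcendental ℂ x) [FiniteDimensional ℂ⟮x⟯ F]
    (hdeg : Module.finrank ℂ⟮x⟯ F = Nat.card (Cosets N))
    (hnorm : ∀ f : F, ∃ r : F, r ∈ ℂ⟮x⟯ ∧ ι r = ∏ b : Cosets N, b.out • ι f)
    (p : ℕ) (u : F) (h : mer95_MER) (hh : h ≠ 0) (hu : ι u = h ^ p)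
    (hell : ∀ δ ∈ CongruenceSubgroup.Gamma0 N, dg93_IsEll δ → δ • h = h)
    (hcusp : ∀ v : Place ℂ F, v.ord x < 0 → (p : ℤ) ∣ v.ord u)
    (v : Place ℂ F) : (p : ℤ) ∣ v.ord u := by
  by_cases hv : v.ord x < 0
  · exact hcusp v hv
  · obtain ⟨c, hc | hc⟩ :=
      wp1_exists_const x hx v x ((wp1_mem_iff_ord_nonneg v x).mpr (not_lt.mp hv))
    · exact absurd (hc ▸ isAlgebraic_algebraMap c) hx
    · exact dg93_finite_mer_ell N ι hΓ x hιx hx hdeg hnorm p u h hh hu hell c v hc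

/-- **(G-X), divisibility.**  For `p ≥ 5` prime: `h ≠ 0` with a character `ζ ^ χ` of `Γ₀(N)`,
`ι u = h ^ p`, and `v.ord u = 0` at the places over `x = ∞`, give `p ∣ v.ord u` at every
place `v` of `F`. -/
theorem dg93_GX_div {F : Type*} [Field F] [Algebra ℂ F] (N : ℕ) [Fintype (Cosets N)]
    (ι : F →ₐ[ℂ] mer95_MER)
    (hΓ : ∀ g ∈ CongruenceSubgroup.Gamma0 N, ∀ f : F, g • ι f = ι f)
    (x : F) (hιx : ι x = dg93_jM) (hx : Transcendental ℂ x) [FiniteDimensional ℂ⟮x⟯ F]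
    (hdeg : Module.finrank ℂ⟮x⟯ F = Nat.card (Cosets N))
    (hnorm : ∀ f : F, ∃ r : F, r ∈ ℂ⟮x⟯ ∧ ι r = ∏ b : Cosets N, b.out • ι f)
    (p : ℕ) (hp : p.Prime) (hp5 : 5 ≤ p) (ζ : mer95_MER)
    (χ : Additive (CongruenceSubgroup.Gamma0 N) →+ ZMod p)
    (u : F) (h : mer95_MER) (hh : h ≠ 0) (hchar : th70_IsChar p ζ χ h) (hu : ι u = h ^ p)
    (hcusp : ∀ v : Place ℂ F, v.ord x < 0 → v.ord u = 0)
    (v : Place ℂ F) : (p : ℤ) ∣ v.ord u :=
  dg93_GX_div_ell N ι hΓ x hιx hx hdeg hnorm p u h hh hu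
    (fun δ hδ hell => dg93_char_ell N p hp hp5 ζ χ h hchar δ hδ hell)
    (fun v hv => by rw [hcusp v hv]; exact dvd_zero _) v

end Fermat.Agent.S42
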