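import Fermat.Agent.S42.DivG93
import Fermat.Agent.S24.AsmCounts
import Fermat.Agent.S24.KleinJOrder
import Fermat.Agent.S24.KleinJSurj
import Fermat.Agent.S24.ModDataCore
import Fermat.Agent.S24.ModField

/-!
S42 / S29, row M5c (helper93): `p ∣ v.ord G` at ALL finite places, analytic-abstract form.

`M` is any field over `ℂ` with an action of `SL(2,ℤ)` fixing the constants and a family
`w : ℍ → OrdFn ℂ M` of order functions (`M = MER`, `w τ = ord_τ` in the application) such that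
* `w τ (g • x) = w (g⁻¹ • τ) x`,
* the rotation lemma holds (`hrot`),
* `w τ (jM - j(τ)) =` the analytic order of `j - j(τ)` at `τ` (`hjord`).

`dg93_finite`: for `ι : F →ₐ[ℂ] M` with `Γ₀(N)`-invariant image, `ι x = jM`,
`[F : ℂ(x)] = [SL(2,ℤ) : Γ₀(N)]` and the norm property, every `G : F` with `ι G = U ^ p`, `U`
invariant under the finite-order elements of `Γ₀(N)`, satisfies `p ∣ v.ord G` at every place
`v` of `F` over a finite value `x = c`.  No condition on `p`.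
-/

set_option autoImplicit false

open AlgebraicCurve IntermediateField MatrixGroups UpperHalfPlane ModularForm EisensteinSeries
open scoped Manifold

namespace Fermat.Agent.S42

open Fermat.Agent.S24

theorem dg93_isOfFinOrder_conj_pow {G₀ : Type*} [Group G₀] (γ : G₀) (n : ℕ) (hn : 0 < n)
    (hγ : γ ^ n = 1) (a : G₀) (k : ℕ) : IsOfFinOrder (a⁻¹ * γ ^ k * a) := by
  rw [isOfFinOrder_iff_pow_eq_one]
  refine ⟨n, hn, ?_⟩
  have h1 : a⁻¹ * γ ^ k * a = a⁻¹ * γ ^ k * a⁻¹⁻¹ := by rw [inv_inv]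
  rw [h1, conj_pow, ← pow_mul, mul_comm, pow_mul, hγ, one_pow, mul_one, mul_inv_cancel]

theorem dg93_ST_pow_six : (ModularGroup.S * ModularGroup.T : SL(2, ℤ)) ^ 6 = 1 := by
  have h : (ModularGroup.S * ModularGroup.T : SL(2, ℤ)) ^ 6 =
      ((ModularGroup.S * ModularGroup.T : SL(2, ℤ)) ^ 3) ^ 2 := by rw [← pow_mul]
  rw [h, Fermat.Agent.Lib.Gamma0Orbits.ST_cube_eq_neg_one]
  simp

theorem dg93_S_pow_four : (ModularGroup.S : SL(2, ℤ)) ^ 4 = 1 := by
  have h : (ModularGroup.S : SL(2, ℤ)) ^ 4 = ((ModularGroup.S : SL(2, ℤ)) ^ 2) ^ 2 := by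
    rw [← pow_mul]
  rw [h, Fermat.Agent.Lib.Gamma0Orbits.S_sq_eq_neg_one]
  simp

section Finite

variable {F M : Type*} [Field F] [Algebra ℂ F] [Field M] [Algebra ℂ M]
  [MulSemiringAction SL(2, ℤ) M]

/-- One value `c`, with the local data at a point `τ₀` over it. -/
theorem dg93_finite_at
    (hK : ∀ (g : SL(2, ℤ)) (c : ℂ), g • algebraMap ℂ M c = algebraMap ℂ M c)
    (jM : M) (hjinv : ∀ g : SL(2, ℤ), g • jM = jM)
    (N : ℕ) [Fintype (Cosets N)]
    (ι : F →ₐ[ℂ] M) (hΓ : ∀ g ∈ CongruenceSubgroup.Gamma0 N, ∀ f : F, g • ι f = ι f)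
    (x : F) (hιx : ι x = jM) (hx : Transcendental ℂ x) [FiniteDimensional ℂ⟮x⟯ F]
    (hdeg : Module.finrank ℂ⟮x⟯ F = Nat.card (Cosets N))
    (hnorm : ∀ f : F, ∃ r : F, r ∈ ℂ⟮x⟯ ∧ ι r = ∏ b : Cosets N, b.out • ι f)
    (c : ℂ) (w : OrdFn ℂ M) (e₀ : ℕ) (he₀ : e₀ = 1 ∨ e₀.Prime)
    (hw : w.ord (jM - algebraMap ℂ M c) = e₀)
    (γ : SL(2, ℤ)) (hγ : ∀ a : Cosets N, γ ^ e₀ • a = a)
    (n : ℕ) (hn : 0 < n) (hγn : γ ^ n = 1)
    (h1 : ∀ h : M, w.ord (γ • h) = w.ord h)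
    (h2 : ∀ h : M, h ≠ 0 → γ • h = h → (e₀ : ℤ) ∣ w.ord h)
    (p : ℕ) (G : F) (U : M) (hU : U ≠ 0) (hGU : ι G = U ^ p)
    (hUfin : ∀ δ ∈ CongruenceSubgroup.Gamma0 N, IsOfFinOrder δ → δ • U = U)
    (v : Place ℂ F) (hv : 0 < v.ord (x - algebraMap ℂ F c)) : (p : ℤ) ∣ v.ord G := by
  have hyx := asmB_adjoin_sub (K := ℂ) x c
  have hfd : FiniteDimensional ℂ⟮x - algebraMap ℂ F c⟯ F := by
    rw [hyx]
    infer_instance
  have he₀pos : 0 < e₀ := by
    rcases he₀ with rfl | h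
    · exact one_pos
    · exact h.pos
  have hιy : ι (x - algebraMap ℂ F c) = jM - algebraMap ℂ M c := by
    rw [map_sub, hιx, AlgHom.commutes]
  refine dg93_core hK (CongruenceSubgroup.Gamma0 N) ι hΓ (x - algebraMap ℂ F c)
    (asmB_transcendental_sub hx c) ?hdeg ?hnorm ?hσy w e₀ he₀pos ?hw γ hγ h1 ?h2 p G U hU hGU
    ?hUinv v hv
  case hdeg => rw [hyx, hdeg, Nat.card_eq_fintype_card]
  case hnorm =>
    intro f
    obtain ⟨r, hr, hrP⟩ := hnorm f
    exact ⟨r, by rw [hyx]; exact hr, hrP⟩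
  case hσy =>
    intro g
    rw [hιy, smul_sub, hjinv, hK]
  case hw => rw [hιy, hw]
  case h2 =>
    intro h hh k hk hfix
    rcases he₀ with rfl | hprime
    · rw [Nat.dvd_one.mp hk]
      exact one_dvd _
    · rcases (Nat.dvd_prime hprime).mp hk with rfl | rfl
      · rw [pow_one] at hfix
        rw [Nat.div_one]
        exact h2 h hh hfix
      · rw [Nat.div_self hprime.pos]
        exact one_dvd _
  case hUinv =>
    intro a k _ hmem
    exact hUfin _ hmem (dg93_isOfFinOrder_conj_pow γ n hn hγn a k)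

variable (w : ℍ → OrdFn ℂ M)

/-- **All finite places.** -/
theorem dg93_finite
    (hK : ∀ (g : SL(2, ℤ)) (c : ℂ), g • algebraMap ℂ M c = algebraMap ℂ M c)
    (hwsmul : ∀ (g : SL(2, ℤ)) (τ : ℍ) (x : M), (w τ).ord (g • x) = (w (g⁻¹ • τ)).ord x)
    (hrot : ∀ (τ : ℍ) (γ : SL(2, ℤ)), γ • τ = τ → ∀ e : ℕ,
      IsPrimitiveRoot (UpperHalfPlane.denom γ τ ^ 2) e → ∀ x : M, x ≠ 0 → γ • x = x →
      (e : ℤ) ∣ (w τ).ord x)
    (jM : M) (hjinv : ∀ g : SL(2, ℤ), g • jM = jM)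
    (hjord : ∀ τ : ℍ, (w τ).ord (jM - algebraMap ℂ M (kleinJ τ)) =
      ordAt τ (fun z => kleinJ z - kleinJ τ))
    (N : ℕ) [Fintype (Cosets N)]
    (ι : F →ₐ[ℂ] M) (hΓ : ∀ g ∈ CongruenceSubgroup.Gamma0 N, ∀ f : F, g • ι f = ι f)
    (x : F) (hιx : ι x = jM) (hx : Transcendental ℂ x) [FiniteDimensional ℂ⟮x⟯ F]
    (hdeg : Module.finrank ℂ⟮x⟯ F = Nat.card (Cosets N))
    (hnorm : ∀ f : F, ∃ r : F, r ∈ ℂ⟮x⟯ ∧ ι r = ∏ b : Cosets N, b.out • ι f)
    (p : ℕ) (G : F) (U : M) (hU : U ≠ 0) (hGU : ι G = U ^ p)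
    (hUfin : ∀ δ ∈ CongruenceSubgroup.Gamma0 N, IsOfFinOrder δ → δ • U = U)
    (c : ℂ) (v : Place ℂ F) (hv : 0 < v.ord (x - algebraMap ℂ F c)) : (p : ℤ) ∣ v.ord G := by
  have hinvsmul : ∀ (γ : SL(2, ℤ)) (τ : ℍ), γ • τ = τ → γ⁻¹ • τ = τ := by
    intro γ τ h
    rw [inv_smul_eq_iff, h]
  by_cases hc0 : c = 0
  · -- the point `ρ`
    subst hc0
    have hw : (w rhoH).ord (jM - algebraMap ℂ M 0) = (3 : ℕ) := by
      have h := hjord rhoH
      rw [wpA3_kleinJ_rho] at h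
      rw [h]
      unfold ordAt
      have h3 : ((fun z : ℍ => kleinJ z - 0) ∘ ofComplex) = kleinJ ∘ ofComplex := by
        funext z
        simp
      rw [h3, wpA3_order_rho]
      rfl
    exact dg93_finite_at hK jM hjinv N ι hΓ x hιx hx hdeg hnorm 0 (w rhoH) 3
      (Or.inr Nat.prime_three) hw (ModularGroup.S * ModularGroup.T)
      (fun b => Fermat.Agent.Lib.Gamma0Orbits.ST_cube_smul N b) 6 (by norm_num) dg93_ST_pow_six
      (fun h => by rw [hwsmul, hinvsmul _ _ wpA3_ST_smul_rho])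
      (fun h hh hfix => hrot rhoH _ wpA3_ST_smul_rho 3 wpA5b3_prim_rho h hh hfix)
      p G U hU hGU hUfin v hv
  by_cases hc1 : c = 1728
  · -- the point `i`
    subst hc1
    have hw : (w UpperHalfPlane.I).ord (jM - algebraMap ℂ M 1728) = (2 : ℕ) := by
      have h := hjord UpperHalfPlane.I
      rw [wpA3_kleinJ_I] at h
      rw [h]
      unfold ordAt
      have h3 : ((fun z : ℍ => kleinJ z - 1728) ∘ ofComplex) =
          fun z : ℂ => kleinJ (ofComplex z) - 1728 := rfl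
      rw [h3, wpA3_order_I]
      rfl
    exact dg93_finite_at hK jM hjinv N ι hΓ x hιx hx hdeg hnorm 1728 (w UpperHalfPlane.I) 2
      (Or.inr Nat.prime_two) hw ModularGroup.S
      (fun b => Fermat.Agent.Lib.Gamma0Orbits.S_sq_smul N b) 4 (by norm_num) dg93_S_pow_four
      (fun h => by rw [hwsmul, hinvsmul _ _ wpA5b3_S_smul_I])
      (fun h hh hfix => hrot UpperHalfPlane.I _ wpA5b3_S_smul_I 2 wpA5b3_prim_I h hh hfix)
      p G U hU hGU hUfin v hv
  · -- a generic point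
    obtain ⟨τ₀, hτ₀⟩ := wpA2_kleinJ_surjective c
    have hw : (w τ₀).ord (jM - algebraMap ℂ M c) = (1 : ℕ) := by
      have h := hjord τ₀
      rw [hτ₀] at h
      rw [h]
      unfold ordAt
      have hd := wpA3_deriv_ne_zero τ₀ (by rw [hτ₀]; exact hc0) (by rw [hτ₀]; exact hc1)
      have han : AnalyticAt ℂ (kleinJ ∘ ofComplex) (τ₀ : ℂ) := wpA3_analyticAt wpA5_kleinJ_mdiff τ₀
      have h2 := han.analyticOrderAt_sub_eq_one_of_deriv_ne_zero hd
      have h3 : ((fun z : ℍ => kleinJ z - c) ∘ ofComplex) =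
          fun z => (kleinJ ∘ ofComplex) z - (kleinJ ∘ ofComplex) (τ₀ : ℂ) := by
        funext z
        simp only [Function.comp_apply, ofComplex_apply, hτ₀]
      rw [h3, h2]
      rfl
    exact dg93_finite_at hK jM hjinv N ι hΓ x hιx hx hdeg hnorm c (w τ₀) 1
      (Or.inl rfl) hw 1 (fun b => by simp) 1 one_pos (by simp)
      (fun h => by rw [one_smul])
      (fun h _ _ => by simp)
      p G U hU hGU hUfin v hv

end Finite

end Fermat.Agent.S42
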