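import Fermat.Agent.S42.DivGFin93
import Fermat.Agent.S42.Mer95
import Fermat.Agent.S24.KleinJ

/-!
S42 / S29, row M5c (helper93): `p ∣ v.ord G` at all finite places, on the binding M0 API
(`mer95_MER`, `mer95_ord`; helper95).

* `dg93_finite'` : variant of `dg93_finite` whose rotation hypothesis is only required at the two
  elliptic points `ρ` (for `S * T`) and `i` (for `S`).
* `dg93_w τ : OrdFn ℂ mer95_MER` : `ord_τ` as an S24 order function.
* `dg93_jM : mer95_MER` : the function `j` (S24 `kleinJ`) as an element of `MER`.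
* `dg93_finite_mer` : the finite-place divisibility for `ι : F →ₐ[ℂ] mer95_MER`.
-/

set_option autoImplicit false

open AlgebraicCurve IntermediateField MatrixGroups UpperHalfPlane ModularForm EisensteinSeries
open scoped Manifold

namespace Fermat.Agent.S42

open Fermat.Agent.S24

section Finite'

variable {F M : Type*} [Field F] [Algebra ℂ F] [Field M] [Algebra ℂ M]
  [MulSemiringAction SL(2, ℤ) M] (w : ℍ → OrdFn ℂ M)

/-- **All finite places**, with the rotation lemma only at `ρ` and `i`. -/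
theorem dg93_finite'
    (hK : ∀ (g : SL(2, ℤ)) (c : ℂ), g • algebraMap ℂ M c = algebraMap ℂ M c)
    (hwsmul : ∀ (g : SL(2, ℤ)) (τ : ℍ) (x : M), (w τ).ord (g • x) = (w (g⁻¹ • τ)).ord x)
    (hrot3 : ∀ x : M, x ≠ 0 → (ModularGroup.S * ModularGroup.T) • x = x →
      (3 : ℤ) ∣ (w rhoH).ord x)
    (hrot2 : ∀ x : M, x ≠ 0 → ModularGroup.S • x = x → (2 : ℤ) ∣ (w UpperHalfPlane.I).ord x)
    (jM : M) (hjinv : ∀ g : SL(2, ℤ), g • jM = jM)
    (hjord : ∀ τ : ℍ, (w τ).ord (jM - algebraMap ℂ M (kleinJ τ)) =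
      ordAt τ (fun z => kleinJ z - kleinJ τ))
    (N : ℕ) [Fintype (Cosets N)]
    (ι : F →ₐ[ℂ] M) (hΓ : ∀ g ∈ CongruenceSubgroup.Gamma0 N, ∀ f : F, g • ι f = ι f)
    (x : F) (hιx : ι x = jM) (hx : Transcendental ℂ x) [FiniteDimensional ℂ⟮x⟯ F]
    (hdeg : Module.finrank ℂ⟮x⟯ F = Nat.card (Cosets N))
    (hnorm : ∀ f : F, ∃ r : F, r ∈ ℂ⟮x⟯ ∧ ι r = ∏ b : Cosets N, b.out • ι f)
    (p : ℕ) (G : F) (U : M) (hU : U ≠ 0) (hGU : ι G = U ^ p)
    (hUfin : ∀ δ ∈ CongruenceSubgroup.Gamma0 N, IsOfFinOrder δ → δ • U = U)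
    (c : ℂ) (v : Place ℂ F) (hv : 0 < v.ord (x - algebraMap ℂ F c)) : (p : ℤ) ∣ v.ord G := by
  have hinvsmul : ∀ (γ : SL(2, ℤ)) (τ : ℍ), γ • τ = τ → γ⁻¹ • τ = τ := by
    intro γ τ h
    rw [inv_smul_eq_iff, h]
  by_cases hc0 : c = 0
  · -- the point `ρ`
    subst hc0
    have hw : (w rhoH).ord (jM - algebraMap ℂ M 0) = (3 : ℕ) := by
      have h := hjord rhoH
      rw [wpA3_kleinJ_rho] at h
      rw [h]
      unfold ordAt
      have h3 : ((fun z : ℍ => kleinJ z - 0) ∘ ofComplex) = kleinJ ∘ ofComplex := by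
        funext z
        simp
      rw [h3, wpA3_order_rho]
      rfl
    exact dg93_finite_at hK jM hjinv N ι hΓ x hιx hx hdeg hnorm 0 (w rhoH) 3
      (Or.inr Nat.prime_three) hw (ModularGroup.S * ModularGroup.T)
      (fun b => Fermat.Agent.Lib.Gamma0Orbits.ST_cube_smul N b) 6 (by norm_num) dg93_ST_pow_six
      (fun h => by rw [hwsmul, hinvsmul _ _ wpA3_ST_smul_rho])
      (fun h hh hfix => hrot3 h hh hfix)
      p G U hU hGU hUfin v hv
  by_cases hc1 : c = 1728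
  · -- the point `i`
    subst hc1
    have hw : (w UpperHalfPlane.I).ord (jM - algebraMap ℂ M 1728) = (2 : ℕ) := by
      have h := hjord UpperHalfPlane.I
      rw [wpA3_kleinJ_I] at h
      rw [h]
      unfold ordAt
      have h3 : ((fun z : ℍ => kleinJ z - 1728) ∘ ofComplex) =
          fun z : ℂ => kleinJ (ofComplex z) - 1728 := rfl
      rw [h3, wpA3_order_I]
      rfl
    exact dg93_finite_at hK jM hjinv N ι hΓ x hιx hx hdeg hnorm 1728 (w UpperHalfPlane.I) 2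
      (Or.inr Nat.prime_two) hw ModularGroup.S
      (fun b => Fermat.Agent.Lib.Gamma0Orbits.S_sq_smul N b) 4 (by norm_num) dg93_S_pow_four
      (fun h => by rw [hwsmul, hinvsmul _ _ wpA5b3_S_smul_I])
      (fun h hh hfix => hrot2 h hh hfix)
      p G U hU hGU hUfin v hv
  · -- a generic point
    obtain ⟨τ₀, hτ₀⟩ := wpA2_kleinJ_surjective c
    have hw : (w τ₀).ord (jM - algebraMap ℂ M c) = (1 : ℕ) := by
      have h := hjord τ₀
      rw [hτ₀] at h
      rw [h]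
      unfold ordAt
      have hd := wpA3_deriv_ne_zero τ₀ (by rw [hτ₀]; exact hc0) (by rw [hτ₀]; exact hc1)
      have han : AnalyticAt ℂ (kleinJ ∘ ofComplex) (τ₀ : ℂ) := wpA3_analyticAt wpA5_kleinJ_mdiff τ₀
      have h2 := han.analyticOrderAt_sub_eq_one_of_deriv_ne_zero hd
      have h3 : ((fun z : ℍ => kleinJ z - c) ∘ ofComplex) =
          fun z => (kleinJ ∘ ofComplex) z - (kleinJ ∘ ofComplex) (τ₀ : ℂ) := by
        funext z
        simp only [Function.comp_apply, ofComplex_apply, hτ₀]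
      rw [h3, h2]
      rfl
    exact dg93_finite_at hK jM hjinv N ι hΓ x hιx hx hdeg hnorm c (w τ₀) 1
      (Or.inl rfl) hw 1 (fun b => by simp) 1 one_pos (by simp)
      (fun h => by rw [one_smul])
      (fun h _ _ => by simp)
      p G U hU hGU hUfin v hv

end Finite'

/-! ### The instantiation on `mer95_MER` -/

/-- `ord_τ` as an order function on `MER`. -/
noncomputable def dg93_w (τ : ℍ) : OrdFn ℂ mer95_MER where
  ord := mer95_ord τ
  ord_mul := fun _ _ hf hg => mer95_ord_mul τ hf hg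
  ord_add := fun _ _ _ _ hfg => mer95_ord_add τ hfg
  ord_const := fun c _ => mer95_ord_C τ c

theorem dg93_w_ord (τ : ℍ) (x : mer95_MER) : (dg93_w τ).ord x = mer95_ord τ x := rfl

/-- `j` as a holomorphic function. -/
noncomputable def dg93_jO : mer95_O := mer95_mk kleinJ wpA5_kleinJ_mdiff

/-- `j` as an element of `MER`. -/
noncomputable def dg93_jM : mer95_MER := algebraMap mer95_O mer95_MER dg93_jO

theorem dg93_jO_apply (τ : ℍ) : dg93_jO.1 τ = kleinJ τ := rfl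

theorem dg93_jM_smul (g : SL(2, ℤ)) : g • dg93_jM = dg93_jM := by
  unfold dg93_jM
  rw [mer95_smul_algebraMap_SL]
  congr 1
  apply Subtype.ext
  funext τ
  rw [mer95_smul_apply_SL]
  exact wpA1_kleinJ_smul g⁻¹ τ

theorem dg93_ord_algebraMap (τ : ℍ) (f : mer95_O) :
    (dg93_w τ).ord (algebraMap mer95_O mer95_MER f) = ordAt τ f.1 := by
  rw [dg93_w_ord, mer95_ord_algebraMap]
  rfl

theorem dg93_jM_sub (c : ℂ) :
    dg93_jM - algebraMap ℂ mer95_MER c =
      algebraMap mer95_O mer95_MER (dg93_jO - algebraMap ℂ mer95_O c) := by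
  rw [map_sub, ← IsScalarTower.algebraMap_apply]
  rfl

theorem dg93_jord (τ : ℍ) :
    (dg93_w τ).ord (dg93_jM - algebraMap ℂ mer95_MER (kleinJ τ)) =
      ordAt τ (fun z => kleinJ z - kleinJ τ) := by
  rw [dg93_jM_sub, dg93_ord_algebraMap]
  rfl

/-- The rotation lemma on `MER` for an element of finite order fixing `τ`. -/
theorem dg93_rot_mer (τ : ℍ) (γ : SL(2, ℤ)) (hγ : γ • τ = τ) (e : ℕ)
    (he : IsPrimitiveRoot (UpperHalfPlane.denom γ τ ^ 2) e)
    (n : ℕ) (hn : 0 < n) (hγn : γ ^ n = 1)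
    (x : mer95_MER) (hx : x ≠ 0) (hinv : γ • x = x) : (e : ℤ) ∣ (dg93_w τ).ord x := by
  refine dg93_rot (K := ℂ) (algebraMap mer95_O mer95_MER).range ?_ (dg93_w τ) γ ?_ n hn ?_
    (e : ℤ) ?_ x hx hinv
  · intro y
    obtain ⟨a, b, hb, rfl⟩ := IsFractionRing.div_surjective mer95_O y
    exact ⟨_, ⟨a, rfl⟩, _, ⟨b, rfl⟩,
      mer95_algebraMap_ne_zero (nonZeroDivisors.ne_zero hb), rfl⟩
  · rintro _ ⟨f, rfl⟩
    exact ⟨γ • f, (mer95_smul_algebraMap_SL γ f).symm⟩
  · intro y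
    rw [hγn, one_smul]
  · rintro _ ⟨f, rfl⟩ hf0 hfinv
    rw [dg93_ord_algebraMap]
    have hf0' : f ≠ 0 := by
      rintro rfl
      exact hf0 (map_zero _)
    have hfinv' : γ • f = f := by
      apply mer95_algebraMap_injective
      rw [← mer95_smul_algebraMap_SL]
      exact hfinv
    have hact : actFn γ f.1 = f.1 := by
      funext z
      rw [actFn_apply, ← mer95_smul_apply_SL, hfinv']
    have hf1 : f.1 ≠ 0 := fun h => hf0' (Subtype.ext h)
    exact wpA5_dvd_ordAt' τ γ hγ e he f.1 f.2 hf1 hact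

/-- **`p ∣ v.ord G` at all finite places, on `mer95_MER`.**  `ι : F →ₐ[ℂ] MER` with
`Γ₀(N)`-invariant image, `ι x = j`, `[F : ℂ(x)] = [SL(2,ℤ) : Γ₀(N)]`, the norm property; if
`ι G = U ^ p` with `U` invariant under the finite-order elements of `Γ₀(N)`, then `p ∣ v.ord G`
for every place `v` of `F` with `0 < v.ord (x - c)`.  Any `p`. -/
theorem dg93_finite_mer {F : Type*} [Field F] [Algebra ℂ F] (N : ℕ) [Fintype (Cosets N)]
    (ι : F →ₐ[ℂ] mer95_MER)
    (hΓ : ∀ g ∈ CongruenceSubgroup.Gamma0 N, ∀ f : F, g • ι f = ι f)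
    (x : F) (hιx : ι x = dg93_jM) (hx : Transcendental ℂ x) [FiniteDimensional ℂ⟮x⟯ F]
    (hdeg : Module.finrank ℂ⟮x⟯ F = Nat.card (Cosets N))
    (hnorm : ∀ f : F, ∃ r : F, r ∈ ℂ⟮x⟯ ∧ ι r = ∏ b : Cosets N, b.out • ι f)
    (p : ℕ) (G : F) (U : mer95_MER) (hU : U ≠ 0) (hGU : ι G = U ^ p)
    (hUfin : ∀ δ ∈ CongruenceSubgroup.Gamma0 N, IsOfFinOrder δ → δ • U = U)
    (c : ℂ) (v : Place ℂ F) (hv : 0 < v.ord (x - algebraMap ℂ F c)) : (p : ℤ) ∣ v.ord G :=
  dg93_finite' dg93_w mer95_smul_C_SL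
    (fun g τ y => mer95_ord_smul_SL g τ y)
    (fun y hy hfix => by
      exact_mod_cast dg93_rot_mer rhoH _ wpA3_ST_smul_rho 3 wpA5b3_prim_rho 6 (by norm_num)
        dg93_ST_pow_six y hy hfix)
    (fun y hy hfix => by
      exact_mod_cast dg93_rot_mer UpperHalfPlane.I _ wpA5b3_S_smul_I 2 wpA5b3_prim_I 4
        (by norm_num) dg93_S_pow_four y hy hfix)
    dg93_jM dg93_jM_smul dg93_jord N ι hΓ x hιx hx hdeg hnorm p G U hU hGU hUfin c v hv

end Fermat.Agent.S42
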