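import Fermat.Agent.S42.Eex17
import Fermat.Agent.S42.DescBar80
import Fermat.Agent.S42.ThetaInst70
import Fermat.Agent.S42.DivGFinal93

/-!
# S42, seam (G-Eex), CONCRETE (helper17): `(X)` ⟹ `hex` of `th70_I_Theta`

Instantiation of `Eex17` (`eex17_adm_exists`) at

* `k0 = ℚ̄`, `F0 = ↥(modularFunctionFieldBar N)` (the function field of `JZero N`),
* `K = ℂ`, `F = gi41_FC N = ↥(laurentBaseChange ℂ (modularFunctionFieldFull N))`,
* `M = mer95_MER`, `Gam = ↥(Γ₀(N))`,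
* `bc = ff79_bc φ N`, `ev = ff79_evMer N`, `ev0 = ff79_ev0 φ N` (`φ : ℚ̄ →+* ℂ` ARBITRARY),

with `(DESC) = ds80_desc_bc` (helper80 / helper86 / helper3, hypothesis-free) and
`hfix = ff79_evMer_smul` (helper79).  The ONLY remaining hypothesis is `(X)`.

* `eex17_adm_bar`  : one `χ` (any `p > 0`, any `ζ`);
* `eex17_hex_bar`  : literally the hypothesis `hex` of `th70_I_Theta` / `th70_W1` at
  `ev0 := ff79_ev0 φ N`, from `(X)` over `w1a28_Par N p`;
* `eex17_hex_bar'` : the same from `(X)` in the nested shape `∃ h, … ∧ ∃ u, …` of ARCH-2;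
* `eex17_hex_bar_neg` : the same when `(X)` is stated for `-χ` (sign convention);
* `eex17_hex_bar_cusp` : `p ≥ 5`; `(X)` WITHOUT its divisibility clause, which is replaced by
  `v.ord u = 0` at the places over `j = ∞` (`dg93_X_div`, helper93).
-/

set_option autoImplicit false
set_option linter.unusedSectionVars false
set_option linter.unusedVariables false
set_option linter.style.longLine false

open AlgebraicCurve ModularCurve CongruenceSubgroup

namespace Fermat.Agent.S42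

section eex17_inst

variable (φ : AlgebraicClosure ℚ →+* ℂ) (N : ℕ) [NeZero N]

/-- `hfix` over `ℂ` in the `th70` shape: `ff79_evMer N` has `Γ₀(N)`-invariant image. -/
theorem eex17_fixC (γ : ↥(Gamma0 N)) (f : gi41_FC N) :
    γ • (ff79_evMer N : gi41_FC N →+* mer95_MER) f = (ff79_evMer N : gi41_FC N →+* mer95_MER) f :=
  ff79_evMer_smul N γ.1 γ.2 f

/-- `(DESC)` for the concrete fields, in the shape `eex17_DESC`. -/
theorem eex17_DESC_bar {p : ℕ} (hp : 0 < p) :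
    eex17_DESC (AlgebraicClosure ℚ) ℂ (ff79_bc φ N) p :=
  fun _ hu hdiv => ds80_desc_bc φ N hp hu hdiv

/-- **(G-Eex), concrete, one character.** -/
theorem eex17_adm_bar {p : ℕ} (hp : 0 < p) (ζ : mer95_MER)
    (χ : Additive (Gamma0 N) →+ ZMod p)
    (hX : ∃ (h : mer95_MER) (u : gi41_FC N), h ≠ 0 ∧ th70_IsChar p ζ χ h ∧
      ff79_evMer N u = h ^ p ∧ ∀ v : Place ℂ (gi41_FC N), (p : ℤ) ∣ v.ord u) :
    ∃ (h : mer95_MER) (f : ↥(modularFunctionFieldBar N)),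
      th70_Adm (AlgebraicClosure ℚ) (ff79_ev0 φ N) p ζ χ h f :=
  eex17_adm_exists (k0 := AlgebraicClosure ℚ) (K := ℂ) (ff79_bc φ N)
    (ff79_evMer N : gi41_FC N →+* mer95_MER) (ff79_ev0 φ N) (fun _ => rfl)
    (eex17_fixC N) hp.ne' (fun c => IsAlgClosed.exists_pow_nat_eq c hp) hX
    (eex17_DESC_bar φ N hp)

/-- **(G-Eex), concrete** = the hypothesis `hex` of `th70_I_Theta` / `th70_W1` at
`ev0 := ff79_ev0 φ N`, from `(X)`. -/
theorem eex17_hex_bar (p : ℕ) [Fact p.Prime]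
    (hX : ∀ χ ∈ w1a28_Par N p, ∃ (h : mer95_MER) (u : gi41_FC N), h ≠ 0 ∧
      th70_IsChar p (th70_zeta p) χ h ∧ ff79_evMer N u = h ^ p ∧
        ∀ v : Place ℂ (gi41_FC N), (p : ℤ) ∣ v.ord u) :
    ∀ χ ∈ w1a28_Par N p, ∃ (h : mer95_MER) (f : ↥(modularFunctionFieldBar N)),
      th70_Adm (AlgebraicClosure ℚ) (ff79_ev0 φ N) p (th70_zeta p) χ h f :=
  fun χ hχ => eex17_adm_bar φ N (Fact.out : p.Prime).pos (th70_zeta p) χ (hX χ hχ)

/-- The same from `(X)` in the nested shape of ARCH-2 (`∃ h, … ∧ ∃ u, …`). -/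
theorem eex17_hex_bar' (p : ℕ) [Fact p.Prime]
    (hX : ∀ χ ∈ w1a28_Par N p, ∃ h : mer95_MER, h ≠ 0 ∧ th70_IsChar p (th70_zeta p) χ h ∧
      ∃ u : gi41_FC N, ff79_evMer N u = h ^ p ∧ ∀ v : Place ℂ (gi41_FC N), (p : ℤ) ∣ v.ord u) :
    ∀ χ ∈ w1a28_Par N p, ∃ (h : mer95_MER) (f : ↥(modularFunctionFieldBar N)),
      th70_Adm (AlgebraicClosure ℚ) (ff79_ev0 φ N) p (th70_zeta p) χ h f :=
  eex17_hex_bar φ N p fun χ hχ => by
    obtain ⟨h, hh, hchar, u, hu, hdiv⟩ := hX χ hχ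
    exact ⟨h, u, hh, hchar, hu, hdiv⟩

/-- The same when the producer of `(X)` states the character of `h` for `-χ`. -/
theorem eex17_hex_bar_neg (p : ℕ) [Fact p.Prime]
    (hX : ∀ χ ∈ w1a28_Par N p, ∃ (h : mer95_MER) (u : gi41_FC N), h ≠ 0 ∧
      th70_IsChar p (th70_zeta p) (-χ) h ∧ ff79_evMer N u = h ^ p ∧
        ∀ v : Place ℂ (gi41_FC N), (p : ℤ) ∣ v.ord u) :
    ∀ χ ∈ w1a28_Par N p, ∃ (h : mer95_MER) (f : ↥(modularFunctionFieldBar N)),
      th70_Adm (AlgebraicClosure ℚ) (ff79_ev0 φ N) p (th70_zeta p) χ h f := by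
  have hp : p ≠ 0 := (Fact.out : p.Prime).ne_zero
  have : NeZero p := ⟨hp⟩
  intro χ hχ
  have h1 : eex17_X ℂ (ff79_evMer N : gi41_FC N →+* mer95_MER) p (th70_zeta p) (-(-χ)) :=
    eex17_X_neg _ (th70_zeta_isPrimitiveRoot p hp).pow_eq_one (hX χ hχ)
  rw [neg_neg] at h1
  exact eex17_adm_bar φ N (Nat.pos_of_ne_zero hp) (th70_zeta p) χ h1

/-- **(G-Eex) + the divisibility half of (G-X)**, `p ≥ 5`: `hex` of `th70_I_Theta` from the
membership half of `(X)` (`ev u = h ^ p`, character) and the cusp condition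
`v.ord u = 0` at the places over `j = ∞`. -/
theorem eex17_hex_bar_cusp (p : ℕ) [Fact p.Prime] (hp5 : 5 ≤ p)
    (hX : ∀ χ ∈ w1a28_Par N p, ∃ (h : mer95_MER) (u : gi41_FC N), h ≠ 0 ∧
      th70_IsChar p (th70_zeta p) χ h ∧ ff79_evMer N u = h ^ p ∧
        ∀ v : Place ℂ (gi41_FC N), v.ord (dg93_j0 N) < 0 → v.ord u = 0) :
    ∀ χ ∈ w1a28_Par N p, ∃ (h : mer95_MER) (f : ↥(modularFunctionFieldBar N)),
      th70_Adm (AlgebraicClosure ℚ) (ff79_ev0 φ N) p (th70_zeta p) χ h f :=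
  eex17_hex_bar φ N p fun χ hχ => by
    obtain ⟨h, u, hh, hchar, hu, hcusp⟩ := hX χ hχ
    exact ⟨h, u, hh, hchar, hu,
      dg93_X_div N p Fact.out hp5 (th70_zeta p) χ u h hh hchar hu hcusp⟩

end eex17_inst

end Fermat.Agent.S42
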