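/-
S42 / M9 by-product (helper54): THE INTEGRAL STRUCTURE OF THE PARABOLIC HOMOMORPHISMS.

* `m9s54_span` : every parabolic homomorphism `χ : Γ₀(N) → V` with values in a torsion-free
  abelian group is a finite combination `χ γ = ∑ k, ψ k γ • m k` of INTEGRAL parabolic
  homomorphisms `ψ k : Γ₀(N) → ℤ` (so `Hom_par(Γ₀(N), ℂ)` is the `ℂ`-span of
  `Hom_par(Γ₀(N), ℤ)`, and the same over any field of characteristic zero).
* `m9s54_span_ring` : the same as an identity of homomorphisms with values in a domain `R` of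
  characteristic zero.
* `m9s54_transfer` : a family `u A` of additive endomorphisms of `Hom(Γ₀(N), A)`, natural in the
  coefficient group (e.g. any integer polynomial in the Hecke operators `heckeHom N ℓ A`), which
  kills the integral parabolic homomorphisms kills the `R`-valued parabolic homomorphisms.

Inputs on main: `el2_exists_symbol`, `slp10_decomp`, `sc71_nu`.
-/
import Mathlib
import Fermat.Agent.S41.EigenSymb2

set_option autoImplicit false

open CongruenceSubgroup ModularCurve ModularCurve.Period OnePoint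
open scoped MatrixGroups

namespace Fermat.Agent.S42

open Fermat.Agent.S16 Fermat.Agent.S41

variable (N : ℕ) [NeZero N]

/-- **Integral structure.** A parabolic homomorphism with torsion-free values is a finite
combination of integral parabolic homomorphisms. -/
theorem m9s54_span {V : Type*} [AddCommGroup V] [Module.IsTorsionFree ℤ V]
    (χ : Additive (Gamma0 N) →+ V) (hχ : IsParabolicHom (Gamma0 N) χ) :
    ∃ (n : ℕ) (m : Fin n → V) (ψ : Fin n → Additive (Gamma0 N) →+ ℤ),
      (∀ k, IsParabolicHom (Gamma0 N) (ψ k)) ∧ ∀ γ, χ γ = ∑ k, ψ k γ • m k := by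
  obtain ⟨Φ, hΦ, hinv, hν⟩ := el2_exists_symbol N χ hχ
  obtain ⟨n, m, ψ', hψ', hdec⟩ := slp10_decomp (M := N) (Φ := Φ) ⟨hΦ, hinv⟩
  refine ⟨n, m, fun k => sc71_nu N (ψ' k) (hψ' k).1 (hψ' k).2,
    fun k => sc71_nu_parabolic (hψ' k).1 (hψ' k).2, fun γ => ?_⟩
  rw [← hν]
  show Φ _ = _
  rw [hdec]
  rfl

/-- The same as an identity of homomorphisms, for a module over a ring `R` of
characteristic zero without zero divisors acting on `V`: `χ = ∑ k, m k • (ψ k : Γ₀(N) → R)`
when `V = R`. -/
theorem m9s54_span_ring {R : Type*} [CommRing R] [IsDomain R] [CharZero R]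
    (χ : Additive (Gamma0 N) →+ R) (hχ : IsParabolicHom (Gamma0 N) χ) :
    ∃ (n : ℕ) (m : Fin n → R) (ψ : Fin n → Additive (Gamma0 N) →+ ℤ),
      (∀ k, IsParabolicHom (Gamma0 N) (ψ k)) ∧
        χ = ∑ k, (AddMonoidHom.mulLeft (m k)).comp ((Int.castAddHom R).comp (ψ k)) := by
  obtain ⟨n, m, ψ, hψ, h⟩ := m9s54_span N χ hχ
  refine ⟨n, m, ψ, hψ, AddMonoidHom.ext fun γ => ?_⟩
  rw [h γ, AddMonoidHom.finsetSum_apply]
  refine Finset.sum_congr rfl (fun k _ => ?_)
  simp [mul_comm]

/-- **Transfer of Hecke identities.** Let `u A` be a family of additive endomorphisms of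
`Hom(Γ₀(N), A)`, natural in the coefficient group `A` (e.g. any `ℤ`-polynomial in the Hecke
operators `heckeHom N ℓ A`).  If `u ℤ` kills the integral parabolic homomorphisms, then `u R`
kills the `R`-valued parabolic homomorphisms, for every domain `R` of characteristic zero. -/
theorem m9s54_transfer {R : Type*} [CommRing R] [IsDomain R] [CharZero R]
    (uZ : (Additive (Gamma0 N) →+ ℤ) →+ (Additive (Gamma0 N) →+ ℤ))
    (uR : (Additive (Gamma0 N) →+ R) →+ (Additive (Gamma0 N) →+ R))
    (hnat : ∀ (g : ℤ →+ R) (ψ : Additive (Gamma0 N) →+ ℤ), uR (g.comp ψ) = g.comp (uZ ψ))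
    (hZ : ∀ ψ : Additive (Gamma0 N) →+ ℤ, IsParabolicHom (Gamma0 N) ψ → uZ ψ = 0)
    (χ : Additive (Gamma0 N) →+ R) (hχ : IsParabolicHom (Gamma0 N) χ) : uR χ = 0 := by
  obtain ⟨n, m, ψ, hψ, rfl⟩ := m9s54_span_ring N χ hχ
  rw [map_sum]
  refine Finset.sum_eq_zero (fun k _ => ?_)
  rw [← AddMonoidHom.comp_assoc, hnat, hZ (ψ k) (hψ k), AddMonoidHom.comp_zero]

end Fermat.Agent.S42
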