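/-
S42 / M9, seam (I-EIG) (helper18): THE TENSOR FORM OF THE EIGENCLASS, FOR A GENERAL SUBMODULE `P`.

Producer: `m9e54_eigenclass` (helper54, matrix form: a `ℤ`-basis `ψ` of the integral parabolic
homomorphisms, integer Hecke matrices, reductions mod `p` linearly independent, a common left
eigenvector `c ≠ 0` over `k0`).

Consumers: the hypothesis `heig` of `w1t28_main` / `w1t70_main_eigenform` / `th70_W1`
(`P = w1a28_Par N p`), and its variants for other submodules `P` of `Hom(Γ₀(N), ZMod p)`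
containing the reductions of all integral parabolic homomorphisms (the S29 layer for `p = 2, 3`).

* `ec18_sum_tmul_ne_zero` : `∑ i, c i ⊗ e i ≠ 0` for a linearly independent family `e` and `c ≠ 0`;
* `ec18_heig_P`  : the eigenclass `x ≠ 0` in `k0 ⊗[ZMod p] P`, eigen-equations for ALL primes
  `ℓ ∤ N` (`ℓ = p` allowed);
* `ec18_heig_P_primes` : the same in the `Nat.Primes`, `¬ ℓ ∣ N * p` vocabulary;
* `ec18_heig`    : `P = w1a28_Par N p`, literally the `heig` of `th70_W1`;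
* `ec18_heig_lam`: function-level form (`lam : Nat.Primes → k0`), literally the `heig` of
  `w1t28_main`;
* `ec18_W1`      : consumer check, (I-Theta) ⟹ (W1) with no eigen-hypothesis left.
-/
import Mathlib
import Fermat.Agent.S42.EigenClass54
import Fermat.Agent.S42.W1Theta28

set_option autoImplicit false

open CongruenceSubgroup ModularCurve ModularCurve.Period ModularFormClass AlgebraicCurve
open scoped TensorProduct MatrixGroups

namespace Fermat.Agent.S42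

open Fermat.Agent.S16

section Abstract

/-- A nonzero combination `∑ i, c i ⊗ e i` of a linearly independent family with coefficients in
an extension field is nonzero. -/
theorem ec18_sum_tmul_ne_zero {F : Type*} [Field F] {k0 : Type*} [Field k0] [Algebra F k0]
    {M : Type*} [AddCommGroup M] [Module F M] {n : ℕ} (e : Fin n → M)
    (he : LinearIndependent F e) (c : Fin n → k0) (hc : c ≠ 0) :
    (∑ i, c i ⊗ₜ[F] e i : k0 ⊗[F] M) ≠ 0 := by
  classical
  intro h0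
  apply hc
  obtain ⟨G, hG⟩ := LinearMap.exists_leftInverse_of_injective (Finsupp.linearCombination F e)
    (LinearMap.ker_eq_bot.mpr he)
  have hGe : ∀ i, G (e i) = Finsupp.single i (1 : F) := by
    intro i
    have h1 := LinearMap.congr_fun hG (Finsupp.single i (1 : F))
    simpa using h1
  funext j
  let Λ : k0 ⊗[F] M →ₗ[F] k0 :=
    (TensorProduct.rid F k0).toLinearMap ∘ₗ ((Finsupp.lapply j ∘ₗ G).lTensor k0)
  have hΛ : ∀ (a : k0) (m : M), Λ (a ⊗ₜ[F] m) = (G m) j • a := by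
    intro a m
    simp [Λ]
  have h2 : Λ (∑ i, c i ⊗ₜ[F] e i) = c j := by
    rw [map_sum]
    simp only [hΛ, hGe]
    rw [Finset.sum_eq_single j]
    · simp
    · intro i _ hij
      simp [hij]
    · intro hj
      exact absurd (Finset.mem_univ j) hj
  rw [h0, map_zero] at h2
  exact h2.symm

end Abstract

section Main

variable {N : ℕ} [NeZero N] {p : ℕ} [Fact p.Prime] {k0 : Type*} [Field k0] [Algebra (ZMod p) k0]

/-- **(I-EIG), general `P`.**  For a normalised eigenform `f` of level `N`, a ring homomorphism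
`φ : ℤ̄ → k0` (`k0` a field over `ZMod p`) and a submodule `P ≤ Hom(Γ₀(N), ZMod p)` containing the
reductions of all integral parabolic homomorphisms: a nonzero `x : k0 ⊗ P` whose image in
`k0 ⊗ Hom(Γ₀(N), ZMod p)` is an eigenvector of `1 ⊗ T_ℓ` with eigenvalue `φ (a_ℓ(f))`, for EVERY
prime `ℓ ∤ N`. -/
theorem ec18_heig_P {f : CuspForm (Gamma0 N) 2} (hf : f.IsNormalizedEigenform)
    (φ : integralClosure ℤ ℂ →+* k0)
    (P : Submodule (ZMod p) (Additive (Gamma0 N) →+ ZMod p))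
    (hP : ∀ χ : Additive (Gamma0 N) →+ ℤ, IsParabolicHom (Gamma0 N) χ →
      (Int.castAddHom (ZMod p)).comp χ ∈ P) :
    ∃ x : k0 ⊗[ZMod p] P, x ≠ 0 ∧ ∀ ℓ : ℕ, ℓ.Prime → ¬ ℓ ∣ N →
      ∃ a : integralClosure ℤ ℂ, (a : ℂ) = qCoeff (⇑f) ℓ ∧
        ((heckeHom N ℓ (ZMod p)).toZModLinearMap p).baseChange k0 (P.subtype.baseChange k0 x)
          = φ a • P.subtype.baseChange k0 x := by
  classical
  have : CharP k0 p := charP_of_injective_algebraMap (algebraMap (ZMod p) k0).injective p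
  obtain ⟨n, ψ, A, c, hψ, -, hli, hA, hc0, hc⟩ := m9e54_eigenclass N hf p φ
  let red : (Additive (Gamma0 N) →+ ℤ) →+ (Additive (Gamma0 N) →+ ZMod p) :=
    AddMonoidHom.compHom (Int.castAddHom (ZMod p))
  have hred : ∀ χ, red χ = (Int.castAddHom (ZMod p)).comp χ := fun _ => rfl
  let e : Fin n → P := fun i => ⟨red (ψ i), hP _ (hψ i)⟩
  have he : LinearIndependent (ZMod p) e := by
    refine LinearIndependent.of_comp P.subtype ?_
    exact hli
  refine ⟨∑ i, c i ⊗ₜ[ZMod p] e i, ec18_sum_tmul_ne_zero e he c hc0, ?_⟩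
  intro ℓ hℓ hℓN
  obtain ⟨a, ha, hca⟩ := hc ℓ hℓ hℓN
  refine ⟨a, ha, ?_⟩
  have hsub : P.subtype.baseChange k0 (∑ i, c i ⊗ₜ[ZMod p] e i)
      = ∑ i, c i ⊗ₜ[ZMod p] red (ψ i) := by
    rw [map_sum]
    rfl
  have hT : ∀ i, heckeHom N ℓ (ZMod p) (red (ψ i)) = ∑ j, (A ℓ i j : ZMod p) • red (ψ j) := by
    intro i
    rw [hred, heckeHom_comp, hA ℓ hℓ hℓN i, ← hred, map_sum]
    refine Finset.sum_congr rfl fun j _ => ?_
    rw [map_zsmul, Int.cast_smul_eq_zsmul]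
  rw [hsub, map_sum]
  have h1 : ∀ i, ((heckeHom N ℓ (ZMod p)).toZModLinearMap p).baseChange k0
      (c i ⊗ₜ[ZMod p] red (ψ i)) = ∑ j, (c i * (A ℓ i j : k0)) ⊗ₜ[ZMod p] red (ψ j) := by
    intro i
    rw [LinearMap.baseChange_tmul]
    show c i ⊗ₜ[ZMod p] heckeHom N ℓ (ZMod p) (red (ψ i)) = _
    rw [hT i, TensorProduct.tmul_sum]
    refine Finset.sum_congr rfl fun j _ => ?_
    rw [← TensorProduct.smul_tmul, Algebra.smul_def, map_intCast, mul_comm]
  simp only [h1]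
  rw [Finset.sum_comm, Finset.smul_sum]
  refine Finset.sum_congr rfl fun j _ => ?_
  rw [← TensorProduct.sum_tmul, hca j, TensorProduct.smul_tmul', smul_eq_mul]

/-- (I-EIG) for a general `P`, in the `Nat.Primes` / `¬ ℓ ∣ N * p` vocabulary of `w1t28_main`. -/
theorem ec18_heig_P_primes {f : CuspForm (Gamma0 N) 2} (hf : f.IsNormalizedEigenform)
    (φ : integralClosure ℤ ℂ →+* k0)
    (P : Submodule (ZMod p) (Additive (Gamma0 N) →+ ZMod p))
    (hP : ∀ χ : Additive (Gamma0 N) →+ ℤ, IsParabolicHom (Gamma0 N) χ →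
      (Int.castAddHom (ZMod p)).comp χ ∈ P) :
    ∃ x : k0 ⊗[ZMod p] P, x ≠ 0 ∧ ∀ ℓ : Nat.Primes, ¬ (ℓ : ℕ) ∣ N * p →
      ∃ a : integralClosure ℤ ℂ, (a : ℂ) = qCoeff (⇑f) ℓ ∧
        (w1a28_TX N p ℓ).baseChange k0 (P.subtype.baseChange k0 x)
          = φ a • P.subtype.baseChange k0 x := by
  obtain ⟨x, hx0, hx⟩ := ec18_heig_P hf φ P hP
  exact ⟨x, hx0, fun ℓ hℓ => hx ℓ ℓ.2 (fun hd => hℓ (hd.mul_right p))⟩

/-- The reduction mod `p` of an integral parabolic homomorphism is parabolic. -/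
theorem ec18_red_parabolic (N p : ℕ) (χ : Additive (Gamma0 N) →+ ℤ)
    (hχ : IsParabolicHom (Gamma0 N) χ) :
    (Int.castAddHom (ZMod p)).comp χ ∈ w1a28_Par N p := by
  intro γ hγ
  show ((χ (Additive.ofMul γ) : ℤ) : ZMod p) = 0
  rw [hχ γ hγ, Int.cast_zero]

/-- **(I-EIG)**, literally the hypothesis `heig` of `th70_W1` / `w1t70_main_eigenform` /
`w1a28_main_eigenform`. -/
theorem ec18_heig {f : CuspForm (Gamma0 N) 2} (hf : f.IsNormalizedEigenform)
    (φ : integralClosure ℤ ℂ →+* k0) :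
    ∃ x : k0 ⊗[ZMod p] w1a28_Par N p, x ≠ 0 ∧
      ∀ ℓ : Nat.Primes, ¬ (ℓ : ℕ) ∣ N * p →
        ∃ a : integralClosure ℤ ℂ, (a : ℂ) = ModularFormClass.qCoeff (⇑f) ℓ ∧
          (w1a28_TX N p ℓ).baseChange k0 ((w1a28_Par N p).subtype.baseChange k0 x)
            = φ a • (w1a28_Par N p).subtype.baseChange k0 x :=
  ec18_heig_P_primes hf φ (w1a28_Par N p) (ec18_red_parabolic N p)

/-- (I-EIG), function-level form: an eigenvalue function `lam : Nat.Primes → k0` with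
`lam ℓ = φ (a_ℓ(f))` for every prime `ℓ ∤ N`, and the hypothesis `heig` of `w1t28_main` for it. -/
theorem ec18_heig_lam {f : CuspForm (Gamma0 N) 2} (hf : f.IsNormalizedEigenform)
    (φ : integralClosure ℤ ℂ →+* k0) :
    ∃ lam : Nat.Primes → k0,
      (∀ ℓ : Nat.Primes, ¬ (ℓ : ℕ) ∣ N →
        ∃ a : integralClosure ℤ ℂ, (a : ℂ) = ModularFormClass.qCoeff (⇑f) ℓ ∧ lam ℓ = φ a) ∧
      ∃ x : k0 ⊗[ZMod p] w1a28_Par N p, x ≠ 0 ∧
        ∀ ℓ : Nat.Primes, ¬ (ℓ : ℕ) ∣ N * p →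
          (w1a28_TX N p ℓ).baseChange k0 ((w1a28_Par N p).subtype.baseChange k0 x)
            = lam ℓ • (w1a28_Par N p).subtype.baseChange k0 x := by
  classical
  obtain ⟨x, hx0, hx⟩ := ec18_heig_P (p := p) hf φ (w1a28_Par N p) (ec18_red_parabolic N p)
  have hch : ∀ ℓ : Nat.Primes, ∃ c : k0, ¬ (ℓ : ℕ) ∣ N →
      (∃ a : integralClosure ℤ ℂ, (a : ℂ) = ModularFormClass.qCoeff (⇑f) ℓ ∧ c = φ a) ∧
      (w1a28_TX N p ℓ).baseChange k0 ((w1a28_Par N p).subtype.baseChange k0 x)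
        = c • (w1a28_Par N p).subtype.baseChange k0 x := by
    intro ℓ
    by_cases hℓ : (ℓ : ℕ) ∣ N
    · exact ⟨0, fun h => absurd hℓ h⟩
    · obtain ⟨a, ha, hxa⟩ := hx ℓ ℓ.2 hℓ
      exact ⟨φ a, fun _ => ⟨⟨a, ha, rfl⟩, hxa⟩⟩
  choose lam hlam using hch
  exact ⟨lam, fun ℓ hℓ => (hlam ℓ hℓ).1, x, hx0,
    fun ℓ hℓ => (hlam ℓ (fun hd => hℓ (hd.mul_right p))).2⟩

/-- **Consumer check: (I-Theta) ⟹ (W1), no eigen-hypothesis left.**  From the four items of
(I-Theta) (the hypotheses of `w1t28_main`), for every normalised eigenform `f` of level `N` and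
every `φ : ℤ̄ → k0`: a nonzero `y : k0 ⊗ J₀(N)(ℚ̄)[p]` with `(1 ⊗ T_ℓ) y = φ (a_ℓ(f)) • y` for all
primes `ℓ ∤ N p`. -/
theorem ec18_W1 (Θ : w1a28_Par N p →+ JZero N) (hΘ : Function.Injective Θ)
    (htors : ∀ χ : w1a28_Par N p, (p : ℤ) • Θ χ = 0)
    (hhec : ∀ ℓ : Nat.Primes, ¬ (ℓ : ℕ) ∣ N * p → ∀ χ χ' : w1a28_Par N p,
      (χ' : Additive (Gamma0 N) →+ ZMod p) = heckeHom N ℓ (ZMod p) χ →
        heckeOperatorBar N ℓ (Θ χ) = Θ χ')
    {f : CuspForm (Gamma0 N) 2} (hf : f.IsNormalizedEigenform)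
    (φ : integralClosure ℤ ℂ →+* k0) :
    ∃ y : k0 ⊗[ZMod p] w1a28_J N p, y ≠ 0 ∧
      ∀ ℓ : Nat.Primes, ¬ (ℓ : ℕ) ∣ N * p →
        ∃ a : integralClosure ℤ ℂ, (a : ℂ) = ModularFormClass.qCoeff (⇑f) ℓ ∧
          (w1a28_TJ N p ℓ).baseChange k0 y = φ a • y := by
  obtain ⟨lam, hlam, heig⟩ := ec18_heig_lam (p := p) hf φ
  obtain ⟨y, hy0, hy⟩ := w1t28_main Θ hΘ htors hhec lam heig
  refine ⟨y, hy0, fun ℓ hℓ => ?_⟩
  obtain ⟨a, ha, hla⟩ := hlam ℓ (fun hd => hℓ (hd.mul_right p))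
  exact ⟨a, ha, by rw [hy ℓ hℓ, hla]⟩

end Main

end Fermat.Agent.S42
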