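/-
S42 / Project 4, seam (I-EIG), the TENSOR STEP (helper2; second seat named in S42 Ruling 2 R3,
binding signature of helper28's report on `ev28_exists_field`).

From a nonzero parabolic homomorphism `χ : Γ₀(N) → k0` (`k0` a field over `ZMod p`) which is an
eigenvector of the operators `heckeHom N ℓ k0` to a nonzero element `x` of
`k0 ⊗[ZMod p] Par_N` (`Par_N = parabolicHoms (ZMod p) (Gamma0 N) (ZMod p)`) whose image in
`k0 ⊗[ZMod p] Hom(Γ₀(N), ZMod p)` is an eigenvector of `1 ⊗ heckeHom N ℓ (ZMod p)` with the same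
eigenvalues: this is the literal hypothesis (I-EIG) of `w1a28_main` / `w1t28_main`.

* `ts2_mu` : `k0 ⊗[ZMod p] Hom(Γ₀(N), ZMod p) →+ Hom(Γ₀(N), k0)`, `c ⊗ ψ ↦ c · ψ`;
* `ts2_mu_injective`, `ts2_mu_hecke` (`μ ∘ (1 ⊗ T'_ℓ) = heckeHom N ℓ k0 ∘ μ`), `ts2_mu_smul`;
* `ts2_tensor_gen` : `x` with `μ (ι x) = χ`, `x ≠ 0`, and every eigen-equation of `χ`
  (any `ℓ`, any eigenvalue) transported to `ι x`;
* `ts2_tensor` : the binding shape (eigenvalues `lam : Nat.Primes → k0`);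
* `ts2_IEIG` : (I-EIG) verbatim from a `k0`-valued eigen-homomorphism attached to `f`.
-/
import Mathlib
import Fermat.Agent.S42.W1Asm28

set_option autoImplicit false

open CongruenceSubgroup ModularCurve ModularCurve.Period
open scoped TensorProduct MatrixGroups

namespace Fermat.Agent.S42

open Fermat.Agent.S16

section Tensor

variable {N p : ℕ} {k0 : Type*} [Field k0] [Algebra (ZMod p) k0]

/-- `a ↦ c * a` from `ZMod p` to `k0`. -/
noncomputable def ts2_g (p : ℕ) {k0 : Type*} [Field k0] [Algebra (ZMod p) k0] (c : k0) :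
    ZMod p →+ k0 :=
  (AddMonoidHom.mulLeft c).comp (algebraMap (ZMod p) k0).toAddMonoidHom

theorem ts2_g_apply (c : k0) (a : ZMod p) :
    ts2_g p c a = c * algebraMap (ZMod p) k0 a := rfl

/-- The comparison map `k0 ⊗ Hom(Γ₀(N), ZMod p) → Hom(Γ₀(N), k0)`, `c ⊗ ψ ↦ c · ψ`. -/
noncomputable def ts2_mu (N p : ℕ) (k0 : Type*) [Field k0] [Algebra (ZMod p) k0] :
    k0 ⊗[ZMod p] (Additive (Gamma0 N) →+ ZMod p) →+ (Additive (Gamma0 N) →+ k0) :=
  TensorProduct.liftAddHom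
    (AddMonoidHom.mk' (fun c : k0 =>
        AddMonoidHom.mk' (fun ψ : Additive (Gamma0 N) →+ ZMod p => (ts2_g p c).comp ψ)
          (fun ψ ψ' => AddMonoidHom.comp_add _ ψ ψ'))
      (fun c c' => by
        refine AddMonoidHom.ext fun ψ => DFunLike.ext _ _ fun γ => ?_
        show (c + c') * algebraMap (ZMod p) k0 (ψ γ)
          = c * algebraMap (ZMod p) k0 (ψ γ) + c' * algebraMap (ZMod p) k0 (ψ γ)
        exact add_mul _ _ _))
    (fun r c ψ => by
      refine DFunLike.ext _ _ fun γ => ?_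
      show (r • c) * algebraMap (ZMod p) k0 (ψ γ) = c * algebraMap (ZMod p) k0 (r • ψ γ)
      rw [Algebra.smul_def, smul_eq_mul, map_mul]
      ring)

theorem ts2_mu_tmul (c : k0) (ψ : Additive (Gamma0 N) →+ ZMod p) :
    ts2_mu N p k0 (c ⊗ₜ[ZMod p] ψ) = (ts2_g p c).comp ψ := rfl

theorem ts2_mu_tmul_apply (c : k0) (ψ : Additive (Gamma0 N) →+ ZMod p)
    (γ : Additive (Gamma0 N)) :
    ts2_mu N p k0 (c ⊗ₜ[ZMod p] ψ) γ = c * algebraMap (ZMod p) k0 (ψ γ) := rfl

/-- `μ` is `k0`-homogeneous. -/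
theorem ts2_mu_smul (c : k0) (y : k0 ⊗[ZMod p] (Additive (Gamma0 N) →+ ZMod p)) :
    ts2_mu N p k0 (c • y) = c • ts2_mu N p k0 y := by
  induction y using TensorProduct.induction_on with
  | zero => simp
  | tmul d ψ =>
    rw [TensorProduct.smul_tmul', ts2_mu_tmul, ts2_mu_tmul]
    refine DFunLike.ext _ _ fun γ => ?_
    show (c • d) * algebraMap (ZMod p) k0 (ψ γ) = c • (d * algebraMap (ZMod p) k0 (ψ γ))
    rw [smul_eq_mul, smul_eq_mul, mul_assoc]
  | add y y' hy hy' => rw [smul_add, map_add, hy, hy', map_add, smul_add]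

/-- `μ` intertwines `1 ⊗ heckeHom N ℓ (ZMod p)` with `heckeHom N ℓ k0`. -/
theorem ts2_mu_hecke (ℓ : ℕ) (y : k0 ⊗[ZMod p] (Additive (Gamma0 N) →+ ZMod p)) :
    ts2_mu N p k0 ((w1a28_TX N p ℓ).baseChange k0 y) = heckeHom N ℓ k0 (ts2_mu N p k0 y) := by
  induction y using TensorProduct.induction_on with
  | zero => simp
  | tmul c ψ =>
    rw [LinearMap.baseChange_tmul, ts2_mu_tmul, ts2_mu_tmul, w1a28_TX_apply, heckeHom_comp]
  | add y y' hy hy' => rw [map_add, map_add, hy, hy', map_add, map_add]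

variable [Fact p.Prime]

/-- `μ` is injective (coefficients of `ZMod p`-valued functions in a `ZMod p`-basis of `k0`). -/
theorem ts2_mu_injective : Function.Injective (ts2_mu N p k0) := by
  classical
  rw [injective_iff_map_eq_zero]
  intro x hx
  obtain ⟨c, rfl⟩ := TensorProduct.eq_repr_basis_left (Module.Basis.ofVectorSpace (ZMod p) k0) x
  have hc : c = 0 := by
    refine Finsupp.ext fun i => DFunLike.ext _ _ fun γ => ?_
    have h1 : (ts2_mu N p k0
        (c.sum fun i ψ => (Module.Basis.ofVectorSpace (ZMod p) k0) i ⊗ₜ[ZMod p] ψ)) γ = 0 := by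
      rw [hx]; rfl
    rw [Finsupp.sum, map_sum, AddMonoidHom.finsetSum_apply] at h1
    simp only [ts2_mu_tmul_apply] at h1
    have h2 : ∑ j ∈ c.support, (c j γ) • (Module.Basis.ofVectorSpace (ZMod p) k0) j = 0 := by
      rw [← h1]
      refine Finset.sum_congr rfl fun j _ => ?_
      rw [Algebra.smul_def, mul_comm]
    have h3 := linearIndependent_iff'.mp
      (Module.Basis.ofVectorSpace (ZMod p) k0).linearIndependent c.support (fun j => c j γ) h2
    by_cases hi : i ∈ c.support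
    · exact h3 i hi
    · rw [Finsupp.notMem_support_iff] at hi
      rw [hi]
      rfl
  rw [hc]
  simp

variable [NeZero N]

/-- **Tensor step, general form.** A nonzero parabolic `χ : Γ₀(N) → k0` is `μ (ι x)` for a nonzero
`x ∈ k0 ⊗[ZMod p] Par_N`, and every eigen-equation `heckeHom N ℓ k0 χ = c • χ` gives the
eigen-equation of `ι x` under `1 ⊗ heckeHom N ℓ (ZMod p)`. -/
theorem ts2_tensor_gen (χ : Additive (Gamma0 N) →+ k0) (hχ0 : χ ≠ 0)
    (hχ : IsParabolicHom (Gamma0 N) χ) :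
    ∃ x : k0 ⊗[ZMod p] ↥(w1a28_Par N p), x ≠ 0 ∧
      ts2_mu N p k0 ((w1a28_Par N p).subtype.baseChange k0 x) = χ ∧
      ∀ (ℓ : ℕ) (c : k0), heckeHom N ℓ k0 χ = c • χ →
        (w1a28_TX N p ℓ).baseChange k0 ((w1a28_Par N p).subtype.baseChange k0 x)
          = c • (w1a28_Par N p).subtype.baseChange k0 x := by
  classical
  set B := Module.Basis.ofVectorSpace (ZMod p) k0 with hB
  -- the coordinate homomorphisms
  let ψ : Module.Basis.ofVectorSpaceIndex (ZMod p) k0 → (Additive (Gamma0 N) →+ ZMod p) :=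
    fun i => (B.coord i).toAddMonoidHom.comp χ
  have hψ_apply : ∀ i (γ : Additive (Gamma0 N)), ψ i γ = B.repr (χ γ) i := fun i γ => rfl
  have hpar : ∀ i, ψ i ∈ w1a28_Par N p := by
    intro i γ hγ
    rw [hψ_apply, hχ γ hγ]
    simp
  -- `Γ₀(N)` is finitely generated
  have hfgS : Group.FG SL(2, ℤ) :=
    Group.fg_def.mpr ⟨{ModularGroup.S, ModularGroup.T},
      by simpa using SpecialLinearGroup.SL2Z_generators⟩
  have hfg : Group.FG (Gamma0 N) := Subgroup.fg_of_index_ne_zero (Gamma0 N)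
  obtain ⟨gens, hgens⟩ := Group.fg_def.mp hfg
  let S : Finset (Module.Basis.ofVectorSpaceIndex (ZMod p) k0) :=
    gens.biUnion fun g => (B.repr (χ (Additive.ofMul g))).support
  have hzero : ∀ i, i ∉ S → ψ i = 0 := by
    intro i hi
    have hgen : ∀ g ∈ gens, ψ i (Additive.ofMul g) = 0 := by
      intro g hg
      rw [hψ_apply]
      by_contra hne
      exact hi (Finset.mem_biUnion.mpr ⟨g, hg, Finsupp.mem_support_iff.mpr hne⟩)
    have hall : ∀ g : Gamma0 N, ψ i (Additive.ofMul g) = 0 := by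
      intro g
      have hg : g ∈ Subgroup.closure (gens : Set (Gamma0 N)) := by
        rw [hgens]; trivial
      induction hg using Subgroup.closure_induction with
      | mem g hg => exact hgen g hg
      | one => rw [ofMul_one, map_zero]
      | mul a b _ _ ha hb => rw [ofMul_mul, map_add, ha, hb, add_zero]
      | inv a _ ha => rw [ofMul_inv, map_neg, ha, neg_zero]
    refine DFunLike.ext _ _ fun γ => ?_
    exact hall (Additive.toMul γ)
  -- the element
  let x : k0 ⊗[ZMod p] ↥(w1a28_Par N p) :=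
    ∑ i ∈ S, B i ⊗ₜ[ZMod p] (⟨ψ i, hpar i⟩ : ↥(w1a28_Par N p))
  have hx' : (w1a28_Par N p).subtype.baseChange k0 x = ∑ i ∈ S, B i ⊗ₜ[ZMod p] ψ i := by
    simp only [x, map_sum, LinearMap.baseChange_tmul, Submodule.subtype_apply]
  have hμ : ts2_mu N p k0 (∑ i ∈ S, B i ⊗ₜ[ZMod p] ψ i) = χ := by
    refine DFunLike.ext _ _ fun γ => ?_
    rw [map_sum, AddMonoidHom.finsetSum_apply]
    simp only [ts2_mu_tmul_apply, hψ_apply]
    have hsub : (B.repr (χ γ)).support ⊆ S := by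
      intro i hi
      by_contra hiS
      have h0 : ψ i γ = 0 := by rw [hzero i hiS]; rfl
      rw [hψ_apply] at h0
      exact (Finsupp.mem_support_iff.mp hi) h0
    calc ∑ i ∈ S, B i * algebraMap (ZMod p) k0 (B.repr (χ γ) i)
        = ∑ i ∈ S, (B.repr (χ γ) i) • B i := by
          refine Finset.sum_congr rfl fun i _ => ?_
          rw [Algebra.smul_def, mul_comm]
      _ = (B.repr (χ γ)).sum (fun i a => a • B i) :=
          (Finsupp.sum_of_support_subset (B.repr (χ γ)) hsub (fun i a => a • B i)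
            (fun i _ => zero_smul _ _)).symm
      _ = χ γ := by
          rw [← Finsupp.linearCombination_apply, B.linearCombination_repr]
  refine ⟨x, ?_, by rw [hx', hμ], ?_⟩
  · intro h0
    apply hχ0
    rw [← hμ, ← hx', h0]
    simp
  · intro ℓ c hc
    apply ts2_mu_injective
    rw [ts2_mu_hecke, ts2_mu_smul, hx', hμ, hc]

/-- **Tensor step, binding shape** (S42 Ruling 2 R3, (I-EIG) second seat). -/
theorem ts2_tensor (χ : Additive (Gamma0 N) →+ k0) (hχ0 : χ ≠ 0)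
    (hχ : IsParabolicHom (Gamma0 N) χ) (lam : Nat.Primes → k0)
    (heig : ∀ ℓ : Nat.Primes, heckeHom N ℓ k0 χ = lam ℓ • χ) :
    ∃ x : k0 ⊗[ZMod p] ↥(w1a28_Par N p), x ≠ 0 ∧ ∀ ℓ : Nat.Primes,
      (w1a28_TX N p ℓ).baseChange k0 ((w1a28_Par N p).subtype.baseChange k0 x)
        = lam ℓ • (w1a28_Par N p).subtype.baseChange k0 x := by
  obtain ⟨x, hx0, -, hx⟩ := ts2_tensor_gen (p := p) χ hχ0 hχ
  exact ⟨x, hx0, fun ℓ => hx ℓ (lam ℓ) (heig ℓ)⟩

/-- **(I-EIG), verbatim** (the hypothesis `heig` of `w1a28_main_eigenform` / `w1t28_main`), from a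
`k0`-valued parabolic eigen-homomorphism attached to `f`. -/
theorem ts2_IEIG (f : CuspForm (Gamma0 N) 2) (φ : integralClosure ℤ ℂ →+* k0)
    (hev : ∃ χ : Additive (Gamma0 N) →+ k0, χ ≠ 0 ∧ IsParabolicHom (Gamma0 N) χ ∧
      ∀ ℓ : ℕ, ℓ.Prime → ∃ a : integralClosure ℤ ℂ,
        (a : ℂ) = ModularFormClass.qCoeff (⇑f) ℓ ∧ heckeHom N ℓ k0 χ = φ a • χ) :
    ∃ x : k0 ⊗[ZMod p] ↥(w1a28_Par N p), x ≠ 0 ∧
      ∀ ℓ : Nat.Primes, ¬ (ℓ : ℕ) ∣ N * p →
        ∃ a : integralClosure ℤ ℂ, (a : ℂ) = ModularFormClass.qCoeff (⇑f) ℓ ∧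
          (w1a28_TX N p ℓ).baseChange k0 ((w1a28_Par N p).subtype.baseChange k0 x)
            = φ a • (w1a28_Par N p).subtype.baseChange k0 x := by
  obtain ⟨χ, hχ0, hχ, heig⟩ := hev
  obtain ⟨x, hx0, -, hx⟩ := ts2_tensor_gen (p := p) χ hχ0 hχ
  refine ⟨x, hx0, fun ℓ _ => ?_⟩
  obtain ⟨a, ha, hae⟩ := heig ℓ ℓ.2
  exact ⟨a, ha, hx ℓ (φ a) hae⟩

end Tensor

end Fermat.Agent.S42
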