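/-
S42 / Project 4, (I-EIG) TWIN (helper28): the literal hypothesis `heig` of `w1t28_main_eigenform`
/ `th70_W1`, by the short route

  `ev28_exists_field` (period lattice + Nakayama, helper28, `EigenVec28`)
  + `ts2_IEIG` (tensor step, helper2, `TensorStep2`).

Independent of the primary route `m9t54_heig'` (helper54, hom-lattice + commuting matrices).
The eigen-equations hold for EVERY prime `ℓ` here (`ℓ ∣ N` and `ℓ = p` included).
-/
import Mathlib
import Fermat.Agent.S42.EigenVec28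
import Fermat.Agent.S42.TensorStep2

set_option autoImplicit false

open CongruenceSubgroup ModularCurve ModularCurve.Period
open scoped TensorProduct MatrixGroups

namespace Fermat.Agent.S42

open Fermat.Agent.S16

/-- the kernel of a ring homomorphism from `ℤ̄` to a field of characteristic `p` is maximal. -/
theorem etw28_ker_isMaximal (p : ℕ) [Fact p.Prime] {k0 : Type*} [Field k0] [CharP k0 p]
    (φ : integralClosure ℤ ℂ →+* k0) : (RingHom.ker φ).IsMaximal := by
  have hprime : (RingHom.ker φ).IsPrime := RingHom.ker_isPrime φ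
  apply Ideal.isMaximal_of_isIntegral_of_isMaximal_comap (R := ℤ) (RingHom.ker φ)
  have h1 : (RingHom.ker φ).comap (algebraMap ℤ (integralClosure ℤ ℂ)) =
      Ideal.span {(p : ℤ)} := by
    rw [RingHom.comap_ker, ← CharP.ker_intAlgebraMap_eq_span (R := k0) p]
    congr 1
    exact RingHom.ext_int _ _
  rw [h1]
  exact Int.ideal_span_isMaximal_of_prime p

variable (N : ℕ) [NeZero N] (p : ℕ) [Fact p.Prime] {k0 : Type*} [Field k0] [Algebra (ZMod p) k0]

/-- **(I-EIG), every prime `ℓ`** (twin route). -/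
theorem etw28_heig_all {f : CuspForm (Gamma0 N) 2} (hf : f.IsNormalizedEigenform)
    (φ : integralClosure ℤ ℂ →+* k0) :
    ∃ x : k0 ⊗[ZMod p] ↥(w1a28_Par N p), x ≠ 0 ∧
      ∀ ℓ : Nat.Primes,
        ∃ a : integralClosure ℤ ℂ, (a : ℂ) = ModularFormClass.qCoeff (⇑f) ℓ ∧
          (w1a28_TX N p ℓ).baseChange k0 ((w1a28_Par N p).subtype.baseChange k0 x)
            = φ a • (w1a28_Par N p).subtype.baseChange k0 x := by
  have : CharP k0 p := charP_of_injective_algebraMap (algebraMap (ZMod p) k0).injective p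
  obtain ⟨χ, hχ0, hχ, heig⟩ := ev28_exists_field hf φ (etw28_ker_isMaximal p φ)
  obtain ⟨x, hx0, -, hx⟩ := ts2_tensor_gen (p := p) χ hχ0 hχ
  refine ⟨x, hx0, fun ℓ => ?_⟩
  obtain ⟨a, ha, hae⟩ := heig ℓ ℓ.2
  exact ⟨a, ha, hx ℓ (φ a) hae⟩

/-- **(I-EIG), verbatim** the hypothesis `heig` of `w1t28_main_eigenform` / `w1a28_main_eigenform`
/ `th70_W1` (twin of `m9t54_heig'`). -/
theorem etw28_heig {f : CuspForm (Gamma0 N) 2} (hf : f.IsNormalizedEigenform)
    (φ : integralClosure ℤ ℂ →+* k0) :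
    ∃ x : k0 ⊗[ZMod p] ↥(w1a28_Par N p), x ≠ 0 ∧
      ∀ ℓ : Nat.Primes, ¬ (ℓ : ℕ) ∣ N * p →
        ∃ a : integralClosure ℤ ℂ, (a : ℂ) = ModularFormClass.qCoeff (⇑f) ℓ ∧
          (w1a28_TX N p ℓ).baseChange k0 ((w1a28_Par N p).subtype.baseChange k0 x)
            = φ a • (w1a28_Par N p).subtype.baseChange k0 x := by
  obtain ⟨x, hx0, hx⟩ := etw28_heig_all N p hf φ
  exact ⟨x, hx0, fun ℓ _ => hx ℓ⟩

end Fermat.Agent.S42
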