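/-
S42 / Project 4, M9 by the short route (helper28): a nonzero PARABOLIC Hecke eigenvector with
values in the residue field `ℤ̄ ⧸ 𝔪` (or in any field `k0` receiving `ℤ̄` with maximal kernel)
attached to a normalised eigenform of level `N`, for ALL primes `ℓ`.

Proof.  `v := periodMap N f : Γ₀(N) → ℂ` is a nonzero parabolic eigenvector of every
`heckeHom N ℓ ℂ` with eigenvalue `a_ℓ` (`eb67_periodMap_eigen`).  `Γ₀(N)` is finitely generated,
so the `ℤ̄`-span `Λ ⊆ ℂ` of the periods is a nonzero finitely generated torsion-free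
`ℤ̄`-module; by Nakayama `𝔪 Λ ≠ Λ`, so there is a nonzero `ℤ̄ ⧸ 𝔪`-linear functional on
`Λ ⧸ 𝔪 Λ`; composing the periods with it gives `χ`.  It is nonzero because the periods span
`Λ`; the Hecke equation follows from functoriality of `heckeHom` in the coefficient group
(`heckeHom_comp`).  The eigenvalues `a_ℓ` are algebraic integers because they stabilise the
finitely generated `ℤ`-span of the periods.
-/
import Mathlib
import Fermat.Agent.S41.EigenBridge67

set_option autoImplicit false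

open CongruenceSubgroup ModularCurve ModularCurve.Period ModularFormClass
open scoped MatrixGroups

namespace Fermat.Agent.S42

open Fermat.Agent.S16 Fermat.Agent.S41

/-! ### Abstract part: homomorphisms from a finitely generated group to `ℂ` -/

section Abstract

variable {G : Type*} [Group G]

/-- the values of a homomorphism lie in the additive subgroup generated by its values on a
generating set. -/
theorem ev28_mem_closure {S : Set G} (hS : Subgroup.closure S = ⊤) (v : Additive G →+ ℂ)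
    (g : G) :
    v (Additive.ofMul g) ∈ AddSubgroup.closure ((fun s : G => v (Additive.ofMul s)) '' S) := by
  have hg : g ∈ Subgroup.closure S := hS ▸ Subgroup.mem_top g
  induction hg using Subgroup.closure_induction with
  | mem x hx => exact AddSubgroup.subset_closure ⟨x, hx, rfl⟩
  | one => rw [ofMul_one, map_zero]; exact zero_mem _
  | mul x y _ _ hx hy => rw [ofMul_mul, map_add]; exact add_mem hx hy
  | inv x _ hx => rw [ofMul_inv, map_neg]; exact neg_mem hx

/-- **Integrality of an eigenvalue**: a complex number which multiplies the values of a nonzero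
homomorphism `v : G → ℂ` (`G` finitely generated) into the group of values is an algebraic
integer. -/
theorem ev28_isIntegral [Group.FG G] (v : Additive G →+ ℂ) (hv : v ≠ 0) (c : ℂ)
    (hc : ∀ γ : Additive G, c * v γ ∈ v.range) : IsIntegral ℤ c := by
  obtain ⟨S, hS, hSfin⟩ := Group.fg_iff.mp (inferInstance : Group.FG G)
  set gens : Set ℂ := (fun s : G => v (Additive.ofMul s)) '' S with hgens
  have hmem : ∀ γ : Additive G, v γ ∈ Submodule.span ℤ gens := by
    intro γ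
    obtain ⟨g, rfl⟩ := Additive.ofMul.surjective γ
    exact (AddSubgroup.closure_le (K := (Submodule.span ℤ gens).toAddSubgroup)).mpr
      Submodule.subset_span (ev28_mem_closure hS v g)
  have hne : Submodule.span ℤ gens ≠ ⊥ := by
    intro hbot
    apply hv
    refine AddMonoidHom.ext fun γ => ?_
    have := hmem γ
    rw [hbot, Submodule.mem_bot] at this
    rw [this, AddMonoidHom.zero_apply]
  refine isIntegral_of_smul_mem_submodule (Submodule.span ℤ gens) hne
    (Submodule.fg_span (hSfin.image _)) c (fun n hn => ?_)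
  induction hn using Submodule.span_induction with
  | mem x hx =>
    obtain ⟨s, -, rfl⟩ := hx
    obtain ⟨γ', hγ'⟩ := hc (Additive.ofMul s)
    rw [smul_eq_mul, ← hγ']
    exact hmem γ'
  | zero => rw [smul_zero]; exact zero_mem _
  | add x y _ _ hx hy => rw [smul_add]; exact add_mem hx hy
  | smul z x _ hx => rw [smul_comm]; exact Submodule.smul_mem _ _ hx

/-- **Reduction of the period lattice**: for a nonzero `v : G → ℂ` (`G` finitely generated) and a
maximal ideal `𝔪` of `ℤ̄` there are a `ℤ̄`-submodule `Λ ⊆ ℂ` containing the values of `v` and an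
additive map `L : Λ → ℤ̄ ⧸ 𝔪`, semilinear for `ℤ̄ → ℤ̄ ⧸ 𝔪`, with `L ∘ v ≠ 0`. -/
theorem ev28_abs [Group.FG G] (v : Additive G →+ ℂ) (hv : v ≠ 0)
    (𝔪 : Ideal (integralClosure ℤ ℂ)) [h𝔪 : 𝔪.IsMaximal] :
    ∃ (Λ : Submodule (integralClosure ℤ ℂ) ℂ) (v₀ : Additive G →+ Λ)
      (L : Λ →+ (integralClosure ℤ ℂ ⧸ 𝔪)),
      (∀ γ, ((v₀ γ : Λ) : ℂ) = v γ) ∧
      (∀ (r : integralClosure ℤ ℂ) (m : Λ), L (r • m) = Ideal.Quotient.mk 𝔪 r * L m) ∧
      L.comp v₀ ≠ 0 := by
  classical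
  obtain ⟨S, hS, hSfin⟩ := Group.fg_iff.mp (inferInstance : Group.FG G)
  set gens : Set ℂ := (fun s : G => v (Additive.ofMul s)) '' S with hgens
  set Λ : Submodule (integralClosure ℤ ℂ) ℂ := Submodule.span (integralClosure ℤ ℂ) gens with hΛ
  have hmem : ∀ γ : Additive G, v γ ∈ Λ := by
    intro γ
    obtain ⟨g, rfl⟩ := Additive.ofMul.surjective γ
    exact (AddSubgroup.closure_le (K := Λ.toAddSubgroup)).mpr
      Submodule.subset_span (ev28_mem_closure hS v g)
  -- the corestriction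
  let v₀ : Additive G →+ Λ :=
    { toFun := fun γ => ⟨v γ, hmem γ⟩
      map_zero' := Subtype.ext (map_zero v)
      map_add' := fun a b => Subtype.ext (map_add v a b) }
  have hv₀ : ∀ γ, ((v₀ γ : Λ) : ℂ) = v γ := fun _ => rfl
  -- a nonzero element
  obtain ⟨γ₀, hγ₀⟩ : ∃ γ₀, v γ₀ ≠ 0 := by
    by_contra hcon
    push Not at hcon
    exact hv (AddMonoidHom.ext hcon)
  -- Nakayama
  have hfin : Module.Finite (integralClosure ℤ ℂ) Λ :=
    Module.Finite.iff_fg.mpr (Submodule.fg_span (hSfin.image _))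
  have hnak : ¬ (⊤ : Submodule (integralClosure ℤ ℂ) Λ) ≤ 𝔪 • ⊤ := by
    intro hle
    obtain ⟨r, hr, hkill⟩ := Submodule.exists_sub_one_mem_and_smul_eq_zero_of_fg_of_le_smul 𝔪
      (⊤ : Submodule (integralClosure ℤ ℂ) Λ) Module.Finite.fg_top hle
    have h1 := congrArg (fun m : Λ => (m : ℂ)) (hkill (v₀ γ₀) Submodule.mem_top)
    have h2 : (r : ℂ) * v γ₀ = 0 := h1
    have h3 : (r : ℂ) = 0 := (mul_eq_zero.mp h2).resolve_right hγ₀
    have h4 : r = 0 := Subtype.ext h3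
    rw [h4, zero_sub] at hr
    exact h𝔪.ne_top ((Ideal.eq_top_iff_one _).mpr (by simpa using 𝔪.neg_mem hr))
  obtain ⟨m₀, hm₀⟩ : ∃ m₀ : Λ, m₀ ∉ (𝔪 • ⊤ : Submodule (integralClosure ℤ ℂ) Λ) := by
    by_contra hcon
    push Not at hcon
    exact hnak (fun m _ => hcon m)
  -- a functional on the quotient
  let _ : Field (integralClosure ℤ ℂ ⧸ 𝔪) := Ideal.Quotient.field 𝔪
  have hq₀ : (Submodule.Quotient.mk m₀ : Λ ⧸ (𝔪 • ⊤ : Submodule (integralClosure ℤ ℂ) Λ)) ≠ 0 :=
    fun h => hm₀ ((Submodule.Quotient.mk_eq_zero _).mp h)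
  obtain ⟨φ, hφ⟩ : ∃ φ : Module.Dual (integralClosure ℤ ℂ ⧸ 𝔪)
      (Λ ⧸ (𝔪 • ⊤ : Submodule (integralClosure ℤ ℂ) Λ)),
      φ (Submodule.Quotient.mk m₀) ≠ 0 := by
    by_contra hcon
    push Not at hcon
    exact hq₀ ((Module.forall_dual_apply_eq_zero_iff (integralClosure ℤ ℂ ⧸ 𝔪) _).mp hcon)
  let L : Λ →+ (integralClosure ℤ ℂ ⧸ 𝔪) :=
    φ.toAddMonoidHom.comp (Submodule.mkQ (𝔪 • ⊤ : Submodule (integralClosure ℤ ℂ) Λ)).toAddMonoidHom
  have hL : ∀ (r : integralClosure ℤ ℂ) (m : Λ), L (r • m) = Ideal.Quotient.mk 𝔪 r * L m := by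
    intro r m
    show φ (Submodule.Quotient.mk (r • m)) = Ideal.Quotient.mk 𝔪 r * φ (Submodule.Quotient.mk m)
    rw [← Module.Quotient.mk_smul_mk, map_smul, smul_eq_mul]
  refine ⟨Λ, v₀, L, hv₀, hL, fun h0 => hφ ?_⟩
  -- `L` vanishes on the values of `v`, hence everywhere
  have hL0 : ∀ (x : ℂ) (hx : x ∈ Λ), L ⟨x, hx⟩ = 0 := by
    intro x hx
    induction hx using Submodule.span_induction with
    | mem x hx =>
      obtain ⟨s, -, rfl⟩ := hx
      exact DFunLike.congr_fun h0 (Additive.ofMul s)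
    | zero => exact map_zero L
    | add x y hx hy ihx ihy =>
      have : (⟨x + y, Λ.add_mem hx hy⟩ : Λ) = ⟨x, hx⟩ + ⟨y, hy⟩ := rfl
      rw [this, map_add, ihx, ihy, add_zero]
    | smul r x hx ih =>
      have : (⟨r • x, Λ.smul_mem r hx⟩ : Λ) = r • ⟨x, hx⟩ := rfl
      rw [this, hL, ih, mul_zero]
  exact hL0 m₀.1 m₀.2

end Abstract

/-! ### The modular statement -/

section Modular

/-- `Γ₀(N)` is finitely generated (`N ≥ 1`). -/
theorem ev28_fg (N : ℕ) [NeZero N] : Group.FG (Gamma0 N) := by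
  have : Group.FG SL(2, ℤ) :=
    Group.fg_iff.mpr ⟨{ModularGroup.S, ModularGroup.T}, SpecialLinearGroup.SL2Z_generators,
      Set.toFinite _⟩
  infer_instance

variable {N : ℕ} [NeZero N]

/-- the `q`-coefficients at primes of a normalised eigenform are algebraic integers. -/
theorem ev28_qCoeff_isIntegral {f : CuspForm (Gamma0 N) 2} (hf : f.IsNormalizedEigenform)
    {ℓ : ℕ} (hℓ : ℓ.Prime) : IsIntegral ℤ (qCoeff (⇑f) ℓ) := by
  obtain ⟨-, hv0, heig⟩ := eb67_periodMap_eigen N hf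
  have := ev28_fg N
  refine ev28_isIntegral (periodMap N f) hv0 _ (fun γ => ?_)
  have h1 : heckeHom N ℓ ℂ (periodMap N f)
      = (periodMap N f).range.subtype.comp (heckeHom N ℓ _ (periodMap N f).rangeRestrict) := by
    rw [← heckeHom_comp]
    rfl
  have h2 : qCoeff (⇑f) ℓ * periodMap N f γ = heckeHom N ℓ ℂ (periodMap N f) γ := by
    rw [heig ℓ hℓ]; rfl
  rw [h2, h1]
  exact SetLike.coe_mem _

/-- **M9, residue-field form.**  For a normalised eigenform `f` of level `N` and a maximal ideal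
`𝔪` of `ℤ̄`: a nonzero parabolic homomorphism `χ : Γ₀(N) → ℤ̄ ⧸ 𝔪` with
`heckeHom N ℓ χ = (a_ℓ mod 𝔪) • χ` for every prime `ℓ`. -/
theorem ev28_exists {f : CuspForm (Gamma0 N) 2} (hf : f.IsNormalizedEigenform)
    (𝔪 : Ideal (integralClosure ℤ ℂ)) (h𝔪 : 𝔪.IsMaximal) :
    ∃ χ : Additive (Gamma0 N) →+ (integralClosure ℤ ℂ ⧸ 𝔪),
      χ ≠ 0 ∧ IsParabolicHom (Gamma0 N) χ ∧
      ∀ ℓ : ℕ, ℓ.Prime → ∃ a : integralClosure ℤ ℂ, (a : ℂ) = qCoeff (⇑f) ℓ ∧
        heckeHom N ℓ (integralClosure ℤ ℂ ⧸ 𝔪) χ = Ideal.Quotient.mk 𝔪 a • χ := by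
  obtain ⟨hpar, hv0, heig⟩ := eb67_periodMap_eigen N hf
  have := ev28_fg N
  obtain ⟨Λ, v₀, L, hv₀, hL, hne⟩ := ev28_abs (periodMap N f) hv0 𝔪
  refine ⟨L.comp v₀, hne, fun γ hγ => ?_, fun ℓ hℓ =>
    ⟨⟨qCoeff (⇑f) ℓ, ev28_qCoeff_isIntegral hf hℓ⟩, rfl, ?_⟩⟩
  · have h0 : v₀ (Additive.ofMul γ) = 0 := Subtype.ext (by
      rw [hv₀]; exact (mem_parabolicHoms_iff.mp hpar) γ hγ)
    show L (v₀ (Additive.ofMul γ)) = 0
    rw [h0, map_zero]
  · set a : integralClosure ℤ ℂ := ⟨qCoeff (⇑f) ℓ, ev28_qCoeff_isIntegral hf hℓ⟩ with ha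
    have h1 : heckeHom N ℓ Λ v₀ = a • v₀ := by
      refine AddMonoidHom.ext fun γ => Subtype.ext ?_
      have hcomp : Λ.subtype.toAddMonoidHom.comp v₀ = periodMap N f :=
        AddMonoidHom.ext fun γ => hv₀ γ
      have h2 : Λ.subtype.toAddMonoidHom.comp (heckeHom N ℓ Λ v₀)
          = heckeHom N ℓ ℂ (periodMap N f) := by
        rw [← heckeHom_comp, hcomp]
      have h3 := DFunLike.congr_fun h2 γ
      rw [heig ℓ hℓ] at h3
      show ((heckeHom N ℓ Λ v₀ γ : Λ) : ℂ) = ((a • v₀ γ : Λ) : ℂ)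
      rw [show ((heckeHom N ℓ Λ v₀ γ : Λ) : ℂ)
        = Λ.subtype.toAddMonoidHom.comp (heckeHom N ℓ Λ v₀) γ from rfl, h3]
      show qCoeff (⇑f) ℓ * periodMap N f γ = (a : ℂ) * ((v₀ γ : Λ) : ℂ)
      rw [hv₀]
    rw [heckeHom_comp, h1]
    refine AddMonoidHom.ext fun γ => ?_
    show L (a • v₀ γ) = Ideal.Quotient.mk 𝔪 a * L (v₀ γ)
    exact hL a (v₀ γ)

/-- **M9, field form.**  The same with values in a field `k0` receiving `ℤ̄` through a ring
homomorphism with maximal kernel (automatic in positive characteristic). -/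
theorem ev28_exists_field {f : CuspForm (Gamma0 N) 2} (hf : f.IsNormalizedEigenform)
    {k0 : Type*} [Field k0] (φ : integralClosure ℤ ℂ →+* k0)
    (hker : (RingHom.ker φ).IsMaximal) :
    ∃ χ : Additive (Gamma0 N) →+ k0,
      χ ≠ 0 ∧ IsParabolicHom (Gamma0 N) χ ∧
      ∀ ℓ : ℕ, ℓ.Prime → ∃ a : integralClosure ℤ ℂ, (a : ℂ) = qCoeff (⇑f) ℓ ∧
        heckeHom N ℓ k0 χ = φ a • χ := by
  obtain ⟨χ, hχ0, hχpar, hχ⟩ := ev28_exists hf (RingHom.ker φ) hker
  have hinj : Function.Injective (RingHom.kerLift φ) := RingHom.kerLift_injective φ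
  refine ⟨(RingHom.kerLift φ).toAddMonoidHom.comp χ, fun h0 => hχ0 ?_, fun γ hγ => ?_,
    fun ℓ hℓ => ?_⟩
  · refine AddMonoidHom.ext fun γ => hinj ?_
    rw [AddMonoidHom.zero_apply, map_zero]
    exact DFunLike.congr_fun h0 γ
  · show RingHom.kerLift φ (χ (Additive.ofMul γ)) = 0
    rw [hχpar γ hγ, map_zero]
  · obtain ⟨a, ha, hχa⟩ := hχ ℓ hℓ
    refine ⟨a, ha, ?_⟩
    rw [heckeHom_comp, hχa]
    refine AddMonoidHom.ext fun γ => ?_
    show RingHom.kerLift φ (Ideal.Quotient.mk (RingHom.ker φ) a * χ γ)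
      = φ a * RingHom.kerLift φ (χ γ)
    rw [map_mul, RingHom.kerLift_mk]

end Modular

end Fermat.Agent.S42
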