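import Mathlib

/-!
# Eisenstein series with an abstract coefficient function (helper11, M5a analysis)

For `a : (Fin 2 → ℤ) → ℂ` we consider `E_a(z) = ∑ a(v) (v₀ z + v₁)^(-k)`, the sum running over
coprime integer vectors `v` (Mathlib's `gammaSet 1 1 0`).  We prove the slash formula
`E_a ∣[k] s = E_{a(· s⁻¹)}` for every `s ∈ SL(2,ℤ)`, holomorphy for bounded `a` and `3 ≤ k`,
and the limit at `i∞`.
-/

namespace Fermat.Agent.S42

open EisensteinSeries UpperHalfPlane ModularForm Matrix Filter Topology CongruenceSubgroup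
open scoped MatrixGroups Manifold

/-- Eisenstein series with coefficient function `a` on coprime integer vectors. -/
noncomputable def ea11_E (a : (Fin 2 → ℤ) → ℂ) (k : ℤ) (z : ℍ) : ℂ :=
  ∑' v : gammaSet 1 1 0, a v.1 * eisSummand k v.1 z

theorem ea11_E_one (k : ℤ) : ea11_E (fun _ => 1) k = eisensteinSeries (0 : Fin 2 → ZMod 1) k := by
  funext z
  simp [ea11_E, eisensteinSeries]

/-- right multiplication by `s` on coprime vectors -/
def ea11_equiv (s : SL(2, ℤ)) : gammaSet 1 1 0 ≃ gammaSet 1 1 0 where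
  toFun v := ⟨v.1 ᵥ* (s : Matrix (Fin 2) (Fin 2) ℤ), (mem_gammaSet_one _).2 (((mem_gammaSet_one _).1 v.2).vecMulSL s)⟩
  invFun v := ⟨v.1 ᵥ* ((s⁻¹ : SL(2, ℤ)) : Matrix (Fin 2) (Fin 2) ℤ), (mem_gammaSet_one _).2 (((mem_gammaSet_one _).1 v.2).vecMulSL s⁻¹)⟩
  left_inv v := by
    simp_rw [vecMul_vecMul, ← Matrix.SpecialLinearGroup.coe_mul, mul_inv_cancel,
      Matrix.SpecialLinearGroup.coe_one, vecMul_one]
  right_inv v := by
    simp_rw [vecMul_vecMul, ← Matrix.SpecialLinearGroup.coe_mul, inv_mul_cancel,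
      Matrix.SpecialLinearGroup.coe_one, vecMul_one]

theorem ea11_slash (a : (Fin 2 → ℤ) → ℂ) (k : ℤ) (s : SL(2, ℤ)) :
    ea11_E a k ∣[k] s =
      ea11_E (fun v => a (v ᵥ* ((s⁻¹ : SL(2, ℤ)) : Matrix (Fin 2) (Fin 2) ℤ))) k := by
  ext1 z
  rw [SL_slash_apply, _root_.zpow_neg,
    mul_inv_eq_iff_eq_mul₀ (zpow_ne_zero _ <| denom_ne_zero _ z)]
  unfold ea11_E
  have h1 : ∀ v : gammaSet 1 1 0, a v.1 * eisSummand k v.1 (s • z) =
      (fun w : gammaSet 1 1 0 =>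
        a (w.1 ᵥ* ((s⁻¹ : SL(2, ℤ)) : Matrix (Fin 2) (Fin 2) ℤ)) * eisSummand k w.1 z)
        (ea11_equiv s v) * denom s z ^ k := by
    intro v
    have h2 : ((ea11_equiv s v).1) ᵥ* ((s⁻¹ : SL(2, ℤ)) : Matrix (Fin 2) (Fin 2) ℤ) = v.1 := by
      simp only [ea11_equiv, Equiv.coe_fn_mk]
      simp_rw [vecMul_vecMul, ← Matrix.SpecialLinearGroup.coe_mul, mul_inv_cancel,
        Matrix.SpecialLinearGroup.coe_one, vecMul_one]
    simp only [h2, eisSummand_SL2_apply]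
    simp only [ea11_equiv, Equiv.coe_fn_mk]
    ring
  rw [tsum_congr h1, tsum_mul_right, (ea11_equiv s).tsum_eq
    (fun w : gammaSet 1 1 0 =>
        a (w.1 ᵥ* ((s⁻¹ : SL(2, ℤ)) : Matrix (Fin 2) (Fin 2) ℤ)) * eisSummand k w.1 z)]

theorem ea11_norm_term_le {a : (Fin 2 → ℤ) → ℂ} (ha : ∀ v, ‖a v‖ ≤ 1) (k : ℤ) (v : Fin 2 → ℤ)
    (z : ℍ) : ‖a v * eisSummand k v z‖ ≤ ‖eisSummand k v z‖ := by
  rw [norm_mul]
  exact mul_le_of_le_one_left (norm_nonneg _) (ha v)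

theorem ea11_summable {a : (Fin 2 → ℤ) → ℂ} (ha : ∀ v, ‖a v‖ ≤ 1) {k : ℤ} (hk : 3 ≤ k) (z : ℍ) :
    Summable fun v : gammaSet 1 1 0 => a v.1 * eisSummand k v.1 z := by
  refine Summable.of_norm_bounded ((summable_norm_eisSummand hk z).subtype _) ?_
  intro v
  exact ea11_norm_term_le ha k v.1 z

/-- The defining sum converges locally uniformly on `ℍ`. -/
theorem ea11_tlu {a : (Fin 2 → ℤ) → ℂ} (ha : ∀ v, ‖a v‖ ≤ 1) {k : ℤ} (hk : 3 ≤ k) :
    TendstoLocallyUniformly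
      (fun (s : Finset (gammaSet 1 1 0)) ↦ (∑ x ∈ s, a x.1 * eisSummand k x.1 ·))
      (ea11_E a k ·) Filter.atTop := by
  have hk' : (2 : ℝ) < k := by norm_cast
  have p_sum : Summable fun x : gammaSet 1 1 0 ↦ ‖x.val‖ ^ (-k) :=
    mod_cast (summable_one_div_norm_rpow hk').subtype (· ∈ gammaSet 1 1 0)
  simp only [tendstoLocallyUniformly_iff_forall_isCompact, ea11_E]
  intro K hK
  obtain ⟨A, B, hB, HABK⟩ := subset_verticalStrip_of_isCompact hK
  refine (tendstoUniformlyOn_tsum (hu := p_sum.mul_left <| r ⟨⟨A, B⟩, hB⟩ ^ (-k : ℝ))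
    (fun p z hz ↦ ?_)).mono HABK
  refine (ea11_norm_term_le ha k p.1 z).trans ?_
  simpa only [eisSummand, one_div, ← _root_.zpow_neg, norm_zpow, ← Real.rpow_intCast,
    Int.cast_neg] using summand_bound_of_mem_verticalStrip (by positivity) p hB hz

theorem ea11_tluOn {a : (Fin 2 → ℤ) → ℂ} (ha : ∀ v, ‖a v‖ ≤ 1) {k : ℤ} (hk : 3 ≤ k) :
    TendstoLocallyUniformlyOn (fun (s : Finset (gammaSet 1 1 0)) ↦
      ↑ₕ(fun (z : ℍ) ↦ ∑ x ∈ s, a x.1 * eisSummand k x.1 z)) (↑ₕ(ea11_E a k))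
          Filter.atTop {z : ℂ | 0 < z.im} := by
  rw [← upperHalfPlaneSet, ← UpperHalfPlane.range_coe, ← Set.image_univ]
  apply TendstoLocallyUniformlyOn.comp (s := ⊤) _ _ _ (OpenPartialHomeomorph.continuousOn_symm _)
  · simp only [Set.top_eq_univ, tendstoLocallyUniformlyOn_univ]
    apply ea11_tlu ha hk
  · simp only [IsOpenEmbedding.toOpenPartialHomeomorph_target, Set.top_eq_univ,
      Set.mapsTo_range_iff, Set.mem_univ, forall_const]

theorem ea11_term_differentiableOn (c : ℂ) (k : ℤ) (v : Fin 2 → ℤ) :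
    DifferentiableOn ℂ (↑ₕ(fun z : ℍ => c * eisSummand k v z)) {z : ℂ | 0 < z.im} := by
  have h := (eisSummand_extension_differentiableOn k v).const_smul c
  refine h.congr ?_
  intro z hz
  simp [smul_eq_mul]

/-- `E_a` is holomorphic on the upper half plane for bounded `a` and `3 ≤ k`. -/
theorem ea11_mdiff {a : (Fin 2 → ℤ) → ℂ} (ha : ∀ v, ‖a v‖ ≤ 1) {k : ℤ} (hk : 3 ≤ k) :
    MDiff (ea11_E a k) := by
  intro τ
  suffices DifferentiableAt ℂ (↑ₕ(ea11_E a k)) τ.1 by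
    convert!
      MDifferentiableAt.comp τ (DifferentiableAt.mdifferentiableAt this) τ.mdifferentiable_coe
    exact funext fun z ↦ (comp_ofComplex (ea11_E a k) z).symm
  refine DifferentiableOn.differentiableAt ?_ (isOpen_upperHalfPlaneSet.mem_nhds τ.2)
  refine (ea11_tluOn ha hk).differentiableOn (Eventually.of_forall fun s ↦ ?_)
    isOpen_upperHalfPlaneSet
  have h := DifferentiableOn.fun_sum (u := s)
    (fun (x : gammaSet 1 1 0) _ ↦ ea11_term_differentiableOn (a x.1) k x.1)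
  refine h.congr ?_
  intro z hz
  simp

/-! ### The limit at `i∞` -/

/-- the untwisted tail: sum of the norms of the summands with nonzero first entry -/
noncomputable def ea11_R (k : ℤ) (z : ℍ) : ℝ :=
  ∑' v : Fin 2 → ℤ, if v 0 = 0 then 0 else ‖eisSummand k v z‖

theorem ea11_R_summable {k : ℤ} (hk : 3 ≤ k) (z : ℍ) :
    Summable fun v : Fin 2 → ℤ => if v 0 = 0 then (0 : ℝ) else ‖eisSummand k v z‖ := by
  refine Summable.of_nonneg_of_le (fun v => ?_) (fun v => ?_) (summable_norm_eisSummand hk z)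
  · split_ifs
    · exact le_rfl
    · exact norm_nonneg _
  · split_ifs
    · exact norm_nonneg _
    · exact le_rfl

/-- the shear `v ↦ (v₀, v₀ n + v₁)` -/
def ea11_shift (n : ℤ) : (Fin 2 → ℤ) ≃ (Fin 2 → ℤ) where
  toFun v := ![v 0, v 0 * n + v 1]
  invFun v := ![v 0, v 1 - v 0 * n]
  left_inv v := by
    ext i
    fin_cases i <;> simp
  right_inv v := by
    ext i
    fin_cases i <;> simp

theorem ea11_eisSummand_T (k : ℤ) (n : ℤ) (v : Fin 2 → ℤ) (z : ℍ) :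
    eisSummand k v (ModularGroup.T ^ n • z) = eisSummand k (ea11_shift n v) z := by
  simp only [eisSummand, ea11_shift, Equiv.coe_fn_mk, ModularGroup.coe_T_zpow_smul_eq]
  congr 1
  simp
  ring

theorem ea11_R_T (k : ℤ) (n : ℤ) (z : ℍ) : ea11_R k (ModularGroup.T ^ n • z) = ea11_R k z := by
  unfold ea11_R
  rw [← (ea11_shift n).tsum_eq
    (fun v : Fin 2 → ℤ => if v 0 = 0 then (0 : ℝ) else ‖eisSummand k v z‖)]
  refine tsum_congr fun v => ?_
  rw [ea11_eisSummand_T]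
  by_cases hv : v 0 = 0 <;> simp [ea11_shift, hv]

theorem ea11_norm_eisSummand_le {k : ℤ} (hk : 0 ≤ k) (v : Fin 2 → ℤ) (hv : v 0 ≠ 0) (z : ℍ) :
    ‖eisSummand k v z‖ ≤ z.im ^ (-k) := by
  have him : 0 < z.im := z.im_pos
  have h1 : z.im ≤ ‖(v 0 : ℂ) * (z : ℂ) + v 1‖ := by
    have h2 : |((v 0 : ℂ) * (z : ℂ) + v 1).im| ≤ ‖(v 0 : ℂ) * (z : ℂ) + v 1‖ :=
      Complex.abs_im_le_norm _
    have h3 : ((v 0 : ℂ) * (z : ℂ) + v 1).im = (v 0 : ℝ) * z.im := by
      simp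
    rw [h3, abs_mul, abs_of_pos him] at h2
    have h4 : (1 : ℝ) ≤ |(v 0 : ℝ)| := by
      have : (1 : ℤ) ≤ |v 0| := Int.one_le_abs hv
      exact_mod_cast this
    nlinarith
  simp only [eisSummand, norm_zpow]
  rw [_root_.zpow_neg, _root_.zpow_neg]
  have h5 : z.im ^ k ≤ ‖(v 0 : ℂ) * (z : ℂ) + v 1‖ ^ k := by
    lift k to ℕ using hk
    simp only [zpow_natCast]
    exact pow_le_pow_left₀ him.le h1 _
  exact inv_anti₀ (zpow_pos him k) h5

theorem ea11_R_tendsto_strip {k : ℤ} (hk : 3 ≤ k) :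
    Tendsto (ea11_R k) (atImInfty ⊓ 𝓟 (verticalStrip 1 1)) (𝓝 0) := by
  have hk' : (2 : ℝ) < k := by norm_cast
  have hsum : Summable fun v : Fin 2 → ℤ =>
      r ⟨⟨1, 1⟩, one_pos⟩ ^ (-k : ℝ) * ‖v‖ ^ (-k : ℝ) :=
    (summable_one_div_norm_rpow hk').mul_left _
  have h0 : (0 : ℝ) = ∑' _ : Fin 2 → ℤ, (0 : ℝ) := by simp
  rw [h0]
  unfold ea11_R
  refine tendsto_tsum_of_dominated_convergence hsum (fun v => ?_) ?_
  · by_cases hv : v 0 = 0
    · simp only [hv, if_true]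
      exact tendsto_const_nhds
    · simp only [hv, if_false]
      have h1 : Tendsto (fun z : ℍ => z.im ^ (-k)) atImInfty (𝓝 0) :=
        (tendsto_zpow_atTop_zero (by omega : -k < 0)).comp tendsto_comap
      refine squeeze_zero (fun z => norm_nonneg _)
        (fun z => ea11_norm_eisSummand_le (by omega) v hv z) (h1.mono_left inf_le_left)
  · rw [eventually_inf_principal]
    refine Eventually.of_forall fun z hz v => ?_
    have hb := summand_bound_of_mem_verticalStrip (k := (k : ℝ)) (by positivity) v one_pos hz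
    split_ifs with hv
    · simp only [norm_zero]
      exact mul_nonneg (Real.rpow_nonneg (r_pos _).le _) (Real.rpow_nonneg (norm_nonneg _) _)
    · simp only [norm_norm]
      simpa only [eisSummand, one_div, ← _root_.zpow_neg, norm_zpow, ← Real.rpow_intCast,
        Int.cast_neg] using hb

theorem ea11_R_tendsto {k : ℤ} (hk : 3 ≤ k) : Tendsto (ea11_R k) atImInfty (𝓝 0) := by
  rw [Metric.tendsto_nhds]
  intro ε hε
  have h1 := (Metric.tendsto_nhds.1 (ea11_R_tendsto_strip hk)) ε hε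
  rw [eventually_inf_principal] at h1
  obtain ⟨A, hA⟩ := (atImInfty_mem _).1 h1
  refine (atImInfty_mem _).2 ⟨max A 1, fun z hz => ?_⟩
  obtain ⟨n, hn⟩ := ModularGroup_T_zpow_mem_verticalStrip z (N := 1) one_pos
  have h2 : (ModularGroup.T ^ (((1 : ℕ) : ℤ) * n) • z) ∈ verticalStrip 1 1 := by
    refine verticalStrip_anti_right _ ?_ (by simpa using hn)
    exact le_trans (le_max_right _ _) hz
  have h3 : A ≤ (ModularGroup.T ^ (((1 : ℕ) : ℤ) * n) • z).im := by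
    have := hn.2
    exact le_trans (le_trans (le_max_left _ _) hz) this
  have h4 := hA _ h3 h2
  rw [ea11_R_T] at h4
  exact h4

theorem ea11_neg_one_zpow_neg (k : ℤ) : ((-1 : ℂ)) ^ (-k) = (-1) ^ k := by
  rw [_root_.zpow_neg]
  apply inv_eq_of_mul_eq_one_left
  rw [← mul_zpow]
  simp

theorem ea11_coprime_zero {v : Fin 2 → ℤ} (hv : v ∈ gammaSet 1 1 0) (h0 : v 0 = 0) :
    v = ![0, 1] ∨ v = ![0, -1] := by
  have h1 : IsCoprime (v 0) (v 1) := (mem_gammaSet_one v).1 hv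
  rw [h0, isCoprime_zero_left] at h1
  rcases Int.isUnit_iff.1 h1 with h | h
  · left
    ext i
    fin_cases i <;> simp [h0, h]
  · right
    ext i
    fin_cases i <;> simp [h0, h]

theorem ea11_sub_le {a : (Fin 2 → ℤ) → ℂ} (ha : ∀ v, ‖a v‖ ≤ 1) {k : ℤ} (hk : 3 ≤ k) (z : ℍ) :
    ‖ea11_E a k z - (a ![0, 1] + (-1) ^ k * a ![0, -1])‖ ≤ ea11_R k z := by
  classical
  have m1 : (![0, 1] : Fin 2 → ℤ) ∈ gammaSet 1 1 0 := by
    rw [mem_gammaSet_one]
    simp [isCoprime_zero_left]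
  have m2 : (![0, -1] : Fin 2 → ℤ) ∈ gammaSet 1 1 0 := by
    rw [mem_gammaSet_one]
    simp [isCoprime_zero_left]
  set e1 : gammaSet 1 1 0 := ⟨![0, 1], m1⟩ with he1
  set e2 : gammaSet 1 1 0 := ⟨![0, -1], m2⟩ with he2
  have h12 : e1 ≠ e2 := by
    intro h
    have h' := congrArg (fun x : gammaSet 1 1 0 => x.1 1) h
    simp [he1, he2] at h'
  set F : gammaSet 1 1 0 → ℂ := fun v => a v.1 * eisSummand k v.1 z with hFdef
  have hF : Summable F := ea11_summable ha hk z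
  have hsplit := hF.sum_add_tsum_compl (s := ({e1, e2} : Finset (gammaSet 1 1 0)))
  rw [Finset.sum_pair h12] at hsplit
  have hF1 : F e1 = a ![0, 1] := by
    simp [hFdef, he1, eisSummand]
  have hF2 : F e2 = (-1) ^ k * a ![0, -1] := by
    simp only [hFdef, he2, eisSummand]
    have : (((![0, -1] : Fin 2 → ℤ) 0 : ℤ) : ℂ) * (z : ℂ) + (((![0, -1] : Fin 2 → ℤ) 1 : ℤ) : ℂ)
        = -1 := by simp
    rw [this, ea11_neg_one_zpow_neg, mul_comm]
  have hE : ea11_E a k z = ∑' v, F v := rfl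
  have hdiff : ea11_E a k z - (a ![0, 1] + (-1) ^ k * a ![0, -1]) =
      ∑' x : ↑((({e1, e2} : Finset (gammaSet 1 1 0)) : Set (gammaSet 1 1 0))ᶜ), F x := by
    rw [hE, ← hsplit, hF1, hF2]
    ring
  rw [hdiff]
  have hFn : Summable fun v => ‖F v‖ := hF.norm
  have hsub : Summable fun x : ↑((({e1, e2} : Finset (gammaSet 1 1 0)) :
      Set (gammaSet 1 1 0))ᶜ) => ‖F x‖ := hFn.subtype _
  refine (norm_tsum_le_tsum_norm hsub).trans ?_
  unfold ea11_R
  refine Summable.tsum_le_tsum_of_inj (fun x => x.1.1)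
    (fun x y hxy => Subtype.ext (Subtype.ext hxy)) (fun c _ => ?_) (fun x => ?_) hsub
    (ea11_R_summable hk z)
  · split_ifs
    · exact le_rfl
    · exact norm_nonneg _
  · have hx : x.1.1 0 ≠ 0 := by
      intro h0
      have hx2 := x.2
      simp only [Finset.coe_insert, Finset.coe_singleton, Set.mem_compl_iff,
        Set.mem_insert_iff, Set.mem_singleton_iff, not_or] at hx2
      rcases ea11_coprime_zero x.1.2 h0 with h | h
      · exact hx2.1 (Subtype.ext h)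
      · exact hx2.2 (Subtype.ext h)
    simp only [hx, if_false]
    exact ea11_norm_term_le ha k x.1.1 z

/-- **Limit at `i∞`** of the Eisenstein series with bounded coefficient function. -/
theorem ea11_tendsto {a : (Fin 2 → ℤ) → ℂ} (ha : ∀ v, ‖a v‖ ≤ 1) {k : ℤ} (hk : 3 ≤ k) :
    Tendsto (ea11_E a k) atImInfty (𝓝 (a ![0, 1] + (-1) ^ k * a ![0, -1])) := by
  rw [tendsto_iff_norm_sub_tendsto_zero]
  exact squeeze_zero (fun z => norm_nonneg _) (fun z => ea11_sub_le ha hk z) (ea11_R_tendsto hk)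

/-- Limit at `i∞` of every `SL(2,ℤ)`-translate (i.e. the behaviour at every cusp). -/
theorem ea11_slash_tendsto {a : (Fin 2 → ℤ) → ℂ} (ha : ∀ v, ‖a v‖ ≤ 1) {k : ℤ} (hk : 3 ≤ k)
    (s : SL(2, ℤ)) :
    Tendsto (ea11_E a k ∣[k] s) atImInfty
      (𝓝 (a (![0, 1] ᵥ* ((s⁻¹ : SL(2, ℤ)) : Matrix (Fin 2) (Fin 2) ℤ)) +
        (-1) ^ k * a (![0, -1] ᵥ* ((s⁻¹ : SL(2, ℤ)) : Matrix (Fin 2) (Fin 2) ℤ)))) := by
  rw [ea11_slash]
  exact ea11_tendsto (a := fun v => a (v ᵥ* ((s⁻¹ : SL(2, ℤ)) : Matrix (Fin 2) (Fin 2) ℤ)))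
    (fun v => ha _) hk

theorem ea11_bdd {a : (Fin 2 → ℤ) → ℂ} (ha : ∀ v, ‖a v‖ ≤ 1) {k : ℤ} (hk : 3 ≤ k)
    (s : SL(2, ℤ)) : IsBoundedAtImInfty (ea11_E a k ∣[k] s) :=
  (ea11_slash_tendsto ha hk s).isBigO_one ℝ

/-! ### Equivariant coefficient functions -/

theorem ea11_E_const_mul (c : ℂ) (a : (Fin 2 → ℤ) → ℂ) (k : ℤ) :
    ea11_E (fun v => c * a v) k = c • ea11_E a k := by
  funext z
  simp only [ea11_E, Pi.smul_apply, smul_eq_mul, mul_assoc, tsum_mul_left]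

/-- If the coefficient function is multiplied by the constant `c` under `v ↦ v s⁻¹`, then the
series is multiplied by `c` under the slash action of `s`. -/
theorem ea11_slash_smul (a : (Fin 2 → ℤ) → ℂ) (k : ℤ) (s : SL(2, ℤ)) (c : ℂ)
    (h : ∀ v, a (v ᵥ* ((s⁻¹ : SL(2, ℤ)) : Matrix (Fin 2) (Fin 2) ℤ)) = c * a v) :
    ea11_E a k ∣[k] s = c • ea11_E a k := by
  rw [ea11_slash, ← ea11_E_const_mul]
  congr 1
  funext v
  exact h v

/-- pointwise form of `ea11_slash_smul` -/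
theorem ea11_apply_smul (a : (Fin 2 → ℤ) → ℂ) (k : ℤ) (s : SL(2, ℤ)) (c : ℂ)
    (h : ∀ v, a (v ᵥ* ((s⁻¹ : SL(2, ℤ)) : Matrix (Fin 2) (Fin 2) ℤ)) = c * a v) (z : ℍ) :
    ea11_E a k (s • z) = c * denom s z ^ k * ea11_E a k z := by
  have h1 := congrFun (ea11_slash_smul a k s c h) z
  rw [SL_slash_apply, Pi.smul_apply, smul_eq_mul, _root_.zpow_neg,
    mul_inv_eq_iff_eq_mul₀ (zpow_ne_zero _ <| denom_ne_zero _ z)] at h1
  rw [h1]
  ring

theorem ea11_vecMul_e1 (M : Matrix (Fin 2) (Fin 2) ℤ) : (![0, 1] : Fin 2 → ℤ) ᵥ* M = M 1 := by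
  ext j
  simp [Matrix.vecMul, dotProduct, Fin.sum_univ_two]

theorem ea11_vecMul_neg_e1 (M : Matrix (Fin 2) (Fin 2) ℤ) :
    (![0, -1] : Fin 2 → ℤ) ᵥ* M = -M 1 := by
  ext j
  simp [Matrix.vecMul, dotProduct, Fin.sum_univ_two]

/-- Limit of the translates when the coefficient function is even and `k` is even:
`(E_a ∣[k] s)(z) → 2 a(bottom row of s⁻¹)`. -/
theorem ea11_slash_tendsto_even {a : (Fin 2 → ℤ) → ℂ} (ha : ∀ v, ‖a v‖ ≤ 1)
    (heven : ∀ v, a (-v) = a v) {k : ℤ} (hk : 3 ≤ k) (hk2 : Even k) (s : SL(2, ℤ)) :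
    Tendsto (ea11_E a k ∣[k] s) atImInfty
      (𝓝 (2 * a (((s⁻¹ : SL(2, ℤ)) : Matrix (Fin 2) (Fin 2) ℤ) 1))) := by
  have h := ea11_slash_tendsto ha hk s
  rw [ea11_vecMul_e1, ea11_vecMul_neg_e1, heven, hk2.neg_one_zpow, one_mul, ← two_mul] at h
  exact h

end Fermat.Agent.S42
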