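import Fermat.Agent.S42.Mer95

/-!
# S42 / M12b-local (helper97): the order of a semi-invariant function at a fixed point

In the M0 framework (`Mer95`): if `g ∈ GL(2, ℝ)⁺` fixes `τ` and `x ≠ 0` is a meromorphic function
on the upper half plane with `g • x = c • x`, then `c = λ ^ (ord_τ x)`, where `λ` is the
multiplier at `τ` of the Moebius map `z ↦ g⁻¹ z` (`el97_fixed`).

For `γ ∈ SL(2, ℤ)` fixing `τ` the multiplier is `(denom γ τ) ^ 2` (`el97_fixed_SL`), a primitive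
square resp. cube root of unity if `γ` has trace `0` resp. `± 1`; hence an invariant function
has even order at `τ` in the first case (`el97_dvd_two`) and order divisible by `3` in the second
case (`el97_dvd_three`).
-/

set_option autoImplicit false

open UpperHalfPlane Filter Topology
open scoped Manifold MatrixGroups

namespace Fermat.Agent.S42

/-- The germ of `g • x` is the germ of `x` composed with the Moebius map of `g⁻¹`. -/
theorem el97_germ_smul (g : GL(2, ℝ)⁺) (x : mer95_MER) {z : ℂ} (hz : z ∈ mer95_U) :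
    mer95_germ (g • x) =ᶠ[𝓝[≠] z] mer95_germ x ∘ mer95_phi g⁻¹ := by
  have hb : g • mer95_den x ≠ 0 := by
    intro h
    exact mer95_den_ne_zero x ((smul_eq_zero_iff_eq g).mp h)
  have h : g • x * algebraMap mer95_O mer95_MER (g • mer95_den x) =
      algebraMap mer95_O mer95_MER (g • mer95_num x) := by
    rw [← mer95_smul_algebraMap, ← mer95_smul_algebraMap, ← smul_mul', mer95_num_den]
  have h1 := mer95_germ_eq hb h hz
  have h2 : mer95_Q (g • mer95_num x) (g • mer95_den x) = mer95_germ x ∘ mer95_phi g⁻¹ := by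
    funext w
    simp only [mer95_Q, mer95_germ, mer95_F_smul, Function.comp_apply]
  rwa [h2] at h1

/-- The germ of `c • x` is `c` times the germ of `x`. -/
theorem el97_germ_const_smul (c : ℂ) (x : mer95_MER) {z : ℂ} (hz : z ∈ mer95_U) :
    mer95_germ (c • x) =ᶠ[𝓝[≠] z] fun w => c * mer95_germ x w := by
  have hb := mer95_den_ne_zero x
  have h : (c • x) * algebraMap mer95_O mer95_MER (mer95_den x) =
      algebraMap mer95_O mer95_MER (algebraMap ℂ mer95_O c * mer95_num x) := by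
    rw [map_mul, ← mer95_num_den x, ← IsScalarTower.algebraMap_apply, Algebra.smul_def]
    ring
  have h1 := mer95_germ_eq hb h hz
  have h2 : mer95_Q (algebraMap ℂ mer95_O c * mer95_num x) (mer95_den x) =
      fun w => c * mer95_germ x w := by
    funext w
    simp only [mer95_Q, mer95_germ, mer95_F_mul, Pi.mul_apply, mer95_F_algebraMap]
    rw [mul_div_assoc]
  rwa [h2] at h1

/-- **Order at a fixed point.**  If `g` fixes `τ` and `g • x = c • x` with `x ≠ 0`, then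
`c = λ ^ (ord_τ x)` with `λ` the multiplier of `z ↦ g⁻¹ z` at `τ`. -/
theorem el97_fixed (g : GL(2, ℝ)⁺) (τ : ℍ) (hτ : g • τ = τ) (x : mer95_MER) (hx : x ≠ 0) (c : ℂ)
    (h : g • x = c • x) :
    c = (deriv (mer95_phi g⁻¹) (τ : ℂ)) ^ (mer95_ord τ x) := by
  have hτU := mer95_coe_mem_U τ
  have hginv : g⁻¹ • τ = τ := by rw [inv_smul_eq_iff, hτ]
  have hφτ : mer95_phi g⁻¹ (τ : ℂ) = (τ : ℂ) := by rw [mer95_phi_coe, hginv]
  have hφan : AnalyticAt ℂ (mer95_phi g⁻¹) (τ : ℂ) := mer95_phi_analyticAt g⁻¹ hτU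
  have hlam : deriv (mer95_phi g⁻¹) (τ : ℂ) ≠ 0 := mer95_deriv_phi_ne_zero g⁻¹ hτU
  have hmer := mer95_germ_meromorphicAt x hτU
  have hord : meromorphicOrderAt (mer95_germ x) (τ : ℂ) = ((mer95_ord τ x : ℤ) : WithTop ℤ) :=
    (mer95_coe_ord hx τ).symm
  obtain ⟨u, hu, hu0, hQ⟩ := (meromorphicOrderAt_eq_int_iff hmer).mp hord
  -- the Moebius map preserves punctured neighbourhoods of the fixed point
  have hφtend : Tendsto (mer95_phi g⁻¹) (𝓝[≠] (τ : ℂ)) (𝓝[≠] (τ : ℂ)) := by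
    refine tendsto_nhdsWithin_of_tendsto_nhds_of_eventually_within _ ?_ ?_
    · have h1 := hφan.continuousAt.tendsto
      rw [hφτ] at h1
      exact h1.mono_left nhdsWithin_le_nhds
    · filter_upwards [mer95_eventually_mem_U hτU, self_mem_nhdsWithin] with w hwU hw
      intro hw'
      apply hw
      have h1 := mer95_phi_inv_phi g⁻¹ hwU
      have h2 := mer95_phi_inv_phi g⁻¹ hτU
      rw [Set.mem_singleton_iff] at hw'
      rw [hw'] at h1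
      rw [hφτ] at h2
      rw [Set.mem_singleton_iff, ← h1, h2]
  -- the functional equation of the germ
  have hfe : ∀ᶠ w in 𝓝[≠] (τ : ℂ),
      mer95_germ x (mer95_phi g⁻¹ w) = c * mer95_germ x w := by
    have h1 := el97_germ_smul g x hτU
    have h2 := el97_germ_const_smul c x hτU
    rw [h] at h1
    filter_upwards [h1, h2] with w hw1 hw2
    rw [← hw2, hw1]
    rfl
  have hQφ : ∀ᶠ w in 𝓝[≠] (τ : ℂ), mer95_germ x (mer95_phi g⁻¹ w) =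
      (mer95_phi g⁻¹ w - (τ : ℂ)) ^ (mer95_ord τ x) • u (mer95_phi g⁻¹ w) :=
    hφtend.eventually hQ
  have key : ∀ᶠ w in 𝓝[≠] (τ : ℂ),
      (slope (mer95_phi g⁻¹) (τ : ℂ) w) ^ (mer95_ord τ x) * u (mer95_phi g⁻¹ w) = c * u w := by
    filter_upwards [hfe, hQ, hQφ, self_mem_nhdsWithin] with w h1 h2 h3 hw
    have hw0 : w - (τ : ℂ) ≠ 0 := sub_ne_zero.mpr hw
    have hz0 : (w - (τ : ℂ)) ^ (mer95_ord τ x) ≠ 0 := zpow_ne_zero _ hw0
    rw [h2, h3] at h1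
    simp only [smul_eq_mul] at h1
    have hs : slope (mer95_phi g⁻¹) (τ : ℂ) w = (mer95_phi g⁻¹ w - (τ : ℂ)) / (w - (τ : ℂ)) := by
      rw [slope_def_field, hφτ]
    rw [hs, div_zpow]
    apply mul_left_cancel₀ hz0
    rw [← mul_assoc, mul_div_cancel₀ _ hz0, h1]
    ring
  have hl1 : Tendsto (fun w => (slope (mer95_phi g⁻¹) (τ : ℂ) w) ^ (mer95_ord τ x) *
      u (mer95_phi g⁻¹ w)) (𝓝[≠] (τ : ℂ))
      (𝓝 ((deriv (mer95_phi g⁻¹) (τ : ℂ)) ^ (mer95_ord τ x) * u (τ : ℂ))) := by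
    have hs : Tendsto (slope (mer95_phi g⁻¹) (τ : ℂ)) (𝓝[≠] (τ : ℂ))
        (𝓝 (deriv (mer95_phi g⁻¹) (τ : ℂ))) :=
      hasDerivAt_iff_tendsto_slope.mp hφan.differentiableAt.hasDerivAt
    have hu' : Tendsto (fun w => u (mer95_phi g⁻¹ w)) (𝓝[≠] (τ : ℂ)) (𝓝 (u (τ : ℂ))) :=
      hu.continuousAt.tendsto.comp (hφtend.mono_right nhdsWithin_le_nhds)
    exact (hs.zpow₀ _ (Or.inl hlam)).mul hu'
  have hl2 : Tendsto (fun w => c * u w) (𝓝[≠] (τ : ℂ)) (𝓝 (c * u (τ : ℂ))) :=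
    (hu.continuousAt.tendsto.mono_left nhdsWithin_le_nhds).const_mul c
  have hfin := tendsto_nhds_unique (hl1.congr' key) hl2
  exact (mul_right_cancel₀ hu0 hfin).symm

/-- Inverse form of `el97_fixed`, with the multiplier of `z ↦ g z` itself. -/
theorem el97_fixed_inv (g : GL(2, ℝ)⁺) (τ : ℍ) (hτ : g • τ = τ) (x : mer95_MER) (hx : x ≠ 0)
    (c : ℂ) (h : g • x = c • x) :
    c * (deriv (mer95_phi g) (τ : ℂ)) ^ (mer95_ord τ x) = 1 := by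
  have hc : c ≠ 0 := by
    rintro rfl
    rw [zero_smul] at h
    exact hx ((smul_eq_zero_iff_eq g).mp h)
  have h' : g⁻¹ • x = c⁻¹ • x := by
    have h1 : g⁻¹ • (c • x) = c • g⁻¹ • x := by
      rw [Algebra.smul_def, Algebra.smul_def, smul_mul', mer95_smul_C]
    have h2 : x = c • g⁻¹ • x := by
      rw [← h1, ← h, inv_smul_smul]
    rw [h2, smul_smul, inv_mul_cancel₀ hc, one_smul, ← h2]
  have hτ' : g⁻¹ • τ = τ := by rw [inv_smul_eq_iff, hτ]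
  have h3 := el97_fixed g⁻¹ τ hτ' x hx c⁻¹ h'
  rw [inv_inv] at h3
  rw [← h3, mul_inv_cancel₀ hc]

/-! ### The case of `SL(2, ℤ)` -/

/-- The Moebius map of `γ ∈ SL(2, ℤ)` in coordinates. -/
theorem el97_phi_SL (γ : SL(2, ℤ)) {z : ℂ} (hz : z ∈ mer95_U) :
    mer95_phi (mer95_slToGL γ) z =
      (((γ 0 0 : ℤ) : ℂ) * z + ((γ 0 1 : ℤ) : ℂ)) / (((γ 1 0 : ℤ) : ℂ) * z + ((γ 1 1 : ℤ) : ℂ)) := by
  have h1 : mer95_phi (mer95_slToGL γ) z = ((γ • (⟨z, hz⟩ : ℍ) : ℍ) : ℂ) := by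
    simp only [mer95_phi, mer95_slToGL_smul]
    rw [ofComplex_apply_of_im_pos hz]
  rw [h1, coe_specialLinearGroup_apply]
  simp

theorem el97_denom_ne_zero (γ : SL(2, ℤ)) (τ : ℍ) :
    ((γ 1 0 : ℤ) : ℂ) * (τ : ℂ) + ((γ 1 1 : ℤ) : ℂ) ≠ 0 := by
  have h := UpperHalfPlane.denom_ne_zero (γ : GL (Fin 2) ℝ) τ
  simpa [UpperHalfPlane.denom] using h

theorem el97_det (γ : SL(2, ℤ)) :
    ((γ 0 0 : ℤ) : ℂ) * ((γ 1 1 : ℤ) : ℂ) - ((γ 0 1 : ℤ) : ℂ) * ((γ 1 0 : ℤ) : ℂ) = 1 := by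
  have h := γ.det_coe
  rw [Matrix.det_fin_two] at h
  exact_mod_cast h

/-- The multiplier of `z ↦ γ z` at `τ` is `(c τ + d)⁻²`. -/
theorem el97_deriv_phi_SL (γ : SL(2, ℤ)) (τ : ℍ) :
    deriv (mer95_phi (mer95_slToGL γ)) (τ : ℂ) =
      ((((γ 1 0 : ℤ) : ℂ) * (τ : ℂ) + ((γ 1 1 : ℤ) : ℂ)) ^ 2)⁻¹ := by
  have hτU := mer95_coe_mem_U τ
  have hd := el97_denom_ne_zero γ τ
  have hev : mer95_phi (mer95_slToGL γ) =ᶠ[𝓝 (τ : ℂ)] fun z =>
      (((γ 0 0 : ℤ) : ℂ) * z + ((γ 0 1 : ℤ) : ℂ)) / (((γ 1 0 : ℤ) : ℂ) * z + ((γ 1 1 : ℤ) : ℂ)) := by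
    filter_upwards [mer95_isOpen_U.mem_nhds hτU] with w hw
    exact el97_phi_SL γ hw
  have h1 : HasDerivAt (fun z : ℂ => ((γ 0 0 : ℤ) : ℂ) * z + ((γ 0 1 : ℤ) : ℂ))
      ((γ 0 0 : ℤ) : ℂ) (τ : ℂ) := by
    simpa using ((hasDerivAt_id (τ : ℂ)).const_mul ((γ 0 0 : ℤ) : ℂ)).add_const ((γ 0 1 : ℤ) : ℂ)
  have h2 : HasDerivAt (fun z : ℂ => ((γ 1 0 : ℤ) : ℂ) * z + ((γ 1 1 : ℤ) : ℂ))
      ((γ 1 0 : ℤ) : ℂ) (τ : ℂ) := by
    simpa using ((hasDerivAt_id (τ : ℂ)).const_mul ((γ 1 0 : ℤ) : ℂ)).add_const ((γ 1 1 : ℤ) : ℂ)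
  have h3 := (h1.div h2 hd).congr_of_eventuallyEq hev
  rw [h3.deriv]
  have hdet := el97_det γ
  field_simp
  linear_combination hdet

/-- **Order at a fixed point, `SL(2, ℤ)` form**: if `γ τ = τ` and `γ • x = c • x`, `x ≠ 0`, then
`c = ((c_γ τ + d_γ)²) ^ (ord_τ x)`. -/
theorem el97_fixed_SL (γ : SL(2, ℤ)) (τ : ℍ) (hτ : γ • τ = τ) (x : mer95_MER) (hx : x ≠ 0) (c : ℂ)
    (h : γ • x = c • x) :
    c = ((((γ 1 0 : ℤ) : ℂ) * (τ : ℂ) + ((γ 1 1 : ℤ) : ℂ)) ^ 2) ^ (mer95_ord τ x) := by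
  have hd := el97_denom_ne_zero γ τ
  have h1 := el97_fixed_inv (mer95_slToGL γ) τ (by rw [mer95_slToGL_smul, hτ]) x hx c
    (by rw [← mer95_SL_smul_eq, h])
  rw [el97_deriv_phi_SL, inv_zpow] at h1
  have h2 : ((((γ 1 0 : ℤ) : ℂ) * (τ : ℂ) + ((γ 1 1 : ℤ) : ℂ)) ^ 2) ^ (mer95_ord τ x) ≠ 0 :=
    zpow_ne_zero _ (pow_ne_zero 2 hd)
  rw [← div_eq_mul_inv, div_eq_one_iff_eq h2] at h1
  exact h1

/-- The eigenvalue equation: for `γ τ = τ` the number `μ = c τ + d` satisfies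
`μ² - tr(γ) μ + 1 = 0`. -/
theorem el97_eigen (γ : SL(2, ℤ)) (τ : ℍ) (hτ : γ • τ = τ) :
    (((γ 1 0 : ℤ) : ℂ) * (τ : ℂ) + ((γ 1 1 : ℤ) : ℂ)) ^ 2 -
      (((γ 0 0 : ℤ) : ℂ) + ((γ 1 1 : ℤ) : ℂ)) * (((γ 1 0 : ℤ) : ℂ) * (τ : ℂ) + ((γ 1 1 : ℤ) : ℂ))
      + 1 = 0 := by
  have hd := el97_denom_ne_zero γ τ
  have hdet := el97_det γ
  have h1 : ((γ • τ : ℍ) : ℂ) = (τ : ℂ) := by rw [hτ]
  rw [coe_specialLinearGroup_apply] at h1
  simp only [algebraMap_int_eq, eq_intCast, Complex.ofReal_intCast] at h1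
  rw [div_eq_iff hd] at h1
  linear_combination (-((γ 1 0 : ℤ) : ℂ)) * h1 - hdet

/-- If `γ` has trace `0` and fixes `τ`, a `γ`-invariant function has even order at `τ`;
more precisely `γ • x = c • x` forces `c = (-1) ^ ord_τ x`. -/
theorem el97_char_two (γ : SL(2, ℤ)) (τ : ℍ) (hτ : γ • τ = τ)
    (htr : γ 0 0 + γ 1 1 = 0) (x : mer95_MER) (hx : x ≠ 0) (c : ℂ) (h : γ • x = c • x) :
    c = (-1 : ℂ) ^ (mer95_ord τ x) := by
  have h1 := el97_fixed_SL γ τ hτ x hx c h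
  have h2 := el97_eigen γ τ hτ
  have htr' : ((γ 0 0 : ℤ) : ℂ) + ((γ 1 1 : ℤ) : ℂ) = 0 := by exact_mod_cast htr
  rw [htr', zero_mul, sub_zero] at h2
  have h3 : (((γ 1 0 : ℤ) : ℂ) * (τ : ℂ) + ((γ 1 1 : ℤ) : ℂ)) ^ 2 = -1 := by
    linear_combination h2
  rw [h3] at h1
  exact h1

theorem el97_dvd_two (γ : SL(2, ℤ)) (τ : ℍ) (hτ : γ • τ = τ)
    (htr : γ 0 0 + γ 1 1 = 0) (x : mer95_MER) (h : γ • x = x) :
    (2 : ℤ) ∣ mer95_ord τ x := by
  rcases eq_or_ne x 0 with rfl | hx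
  · rw [mer95_ord_zero]; exact dvd_zero _
  have h1 := el97_char_two γ τ hτ htr x hx 1 (by rw [one_smul, h])
  have h2 : Even (mer95_ord τ x) := by
    by_contra hne
    rw [neg_one_zpow_eq_ite, if_neg hne] at h1
    norm_num at h1
  exact even_iff_two_dvd.mp h2

/-- For `γ` of trace `± 1` fixing `τ`, the multiplier `(c τ + d)²` is a primitive cube root of
unity. -/
theorem el97_primitive_three (γ : SL(2, ℤ)) (τ : ℍ) (hτ : γ • τ = τ)
    (htr : γ 0 0 + γ 1 1 = 1 ∨ γ 0 0 + γ 1 1 = -1) :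
    IsPrimitiveRoot ((((γ 1 0 : ℤ) : ℂ) * (τ : ℂ) + ((γ 1 1 : ℤ) : ℂ)) ^ 2) 3 := by
  have h2 := el97_eigen γ τ hτ
  set μ := ((γ 1 0 : ℤ) : ℂ) * (τ : ℂ) + ((γ 1 1 : ℤ) : ℂ) with hμ
  have key : (μ ^ 2) ^ 3 = 1 ∧ μ ^ 2 ≠ 1 := by
    rcases htr with htr | htr
    · have htr' : ((γ 0 0 : ℤ) : ℂ) + ((γ 1 1 : ℤ) : ℂ) = 1 := by exact_mod_cast htr
      rw [htr', one_mul] at h2
      have hsq : μ ^ 2 = μ - 1 := by linear_combination h2
      refine ⟨?_, ?_⟩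
      · linear_combination (μ ^ 4 + μ ^ 3 - μ - 1) * h2
      · intro h1
        have hμ2 : μ = 2 := by linear_combination hsq.symm.trans h1
        rw [hμ2] at h1
        norm_num at h1
    · have htr' : ((γ 0 0 : ℤ) : ℂ) + ((γ 1 1 : ℤ) : ℂ) = -1 := by exact_mod_cast htr
      rw [htr'] at h2
      have hsq : μ ^ 2 = -μ - 1 := by linear_combination h2
      refine ⟨?_, ?_⟩
      · linear_combination (μ ^ 4 - μ ^ 3 + μ - 1) * h2
      · intro h1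
        have hμ2 : μ = -2 := by linear_combination -(hsq.symm.trans h1)
        rw [hμ2] at h1
        norm_num at h1
  have h3 := IsPrimitiveRoot.orderOf (μ ^ 2)
  rwa [orderOf_eq_prime key.1 key.2] at h3

/-- If `γ` has trace `± 1` and fixes `τ`, then `γ • x = c • x` forces `c = ω ^ ord_τ x` with
`ω = (c τ + d)²` a primitive cube root of unity; in particular `c ^ 3 = 1`. -/
theorem el97_char_three (γ : SL(2, ℤ)) (τ : ℍ) (hτ : γ • τ = τ)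
    (htr : γ 0 0 + γ 1 1 = 1 ∨ γ 0 0 + γ 1 1 = -1) (x : mer95_MER) (hx : x ≠ 0) (c : ℂ)
    (h : γ • x = c • x) : c ^ 3 = 1 ∧ (c = 1 ↔ (3 : ℤ) ∣ mer95_ord τ x) := by
  have h1 := el97_fixed_SL γ τ hτ x hx c h
  have hprim := el97_primitive_three γ τ hτ htr
  refine ⟨?_, ?_⟩
  · have e : ∀ (ω : ℂ) (n : ℤ), (ω ^ n) ^ (3 : ℕ) = (ω ^ (3 : ℕ)) ^ n := by
      intro ω n
      rw [← zpow_natCast (ω ^ n) 3, ← zpow_mul, mul_comm n ((3 : ℕ) : ℤ), zpow_mul, zpow_natCast]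
    rw [h1, e, hprim.pow_eq_one, one_zpow]
  · rw [h1]
    exact_mod_cast hprim.zpow_eq_one_iff_dvd (mer95_ord τ x)

theorem el97_dvd_three (γ : SL(2, ℤ)) (τ : ℍ) (hτ : γ • τ = τ)
    (htr : γ 0 0 + γ 1 1 = 1 ∨ γ 0 0 + γ 1 1 = -1) (x : mer95_MER) (h : γ • x = x) :
    (3 : ℤ) ∣ mer95_ord τ x := by
  rcases eq_or_ne x 0 with rfl | hx
  · rw [mer95_ord_zero]; exact dvd_zero _
  exact (el97_char_three γ τ hτ htr x hx 1 (by rw [one_smul, h])).2.mp rfl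

/-- Trace form of the hypotheses. -/
theorem el97_dvd_two' (γ : SL(2, ℤ)) (τ : ℍ) (hτ : γ • τ = τ)
    (htr : Matrix.trace (γ : Matrix (Fin 2) (Fin 2) ℤ) = 0) (x : mer95_MER) (h : γ • x = x) :
    (2 : ℤ) ∣ mer95_ord τ x :=
  el97_dvd_two γ τ hτ (by rwa [Matrix.trace_fin_two] at htr) x h

theorem el97_dvd_three' (γ : SL(2, ℤ)) (τ : ℍ) (hτ : γ • τ = τ)
    (htr : Matrix.trace (γ : Matrix (Fin 2) (Fin 2) ℤ) = 1 ∨
      Matrix.trace (γ : Matrix (Fin 2) (Fin 2) ℤ) = -1)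
    (x : mer95_MER) (h : γ • x = x) : (3 : ℤ) ∣ mer95_ord τ x :=
  el97_dvd_three γ τ hτ (by rwa [Matrix.trace_fin_two] at htr) x h

end Fermat.Agent.S42
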