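/-
S42 / M11 small input C4 (helper74): the FREY FIELD.

The Galois action on the `n`-torsion of a Weierstrass curve over `ℚ` factors through a finite
level as soon as the `n`-torsion over `ℚ̄` is finite; in particular this holds for the
`p`-torsion of the Frey curve of a Frey package.

* `ff74_finiteLevel` : `GaloisFactorsThroughFiniteLevel (galoisRepModuleEnd ℚ W n)` for finite
  `n`-torsion (any `DecidableEq (AlgebraicClosure ℚ)` instance);
* `ff74_frey`        : the same for `P.freyCurve`, `P.p` (no hypothesis);
* `ff74_frey_ker`    : the kernel form used by the frozen S42 statement;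
* `ff74_finite_frey` : the `p`-torsion of the Frey curve over `ℚ̄` is finite (any instance).
-/
import Fermat.Prelude.Def_GaloisRep_Residual
import Fermat.Agent.S41.FrobTors24
import Fermat.Agent.S41.TorsCardE82
import Fermat.Agent.Lib.FreyModel

set_option autoImplicit false

open WeierstrassCurve WeierstrassCurve.Affine WeierstrassCurve.Affine.Point

namespace Fermat.Agent.S42

open Fermat.Agent.S41

/-- **Finite level.** If the `n`-torsion of `W` over `ℚ̄` is finite, the Galois action on it
factors through a finite extension of `ℚ` (the field generated by the coordinates). -/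
theorem ff74_finiteLevel [DecidableEq (AlgebraicClosure ℚ)] (W : WeierstrassCurve ℚ) (n : ℕ)
    [Finite (Submodule.torsionBy ℤ (W⁄(AlgebraicClosure ℚ)).Point n)] :
    GaloisFactorsThroughFiniteLevel
      (WeierstrassCurve.Affine.Point.galoisRepModuleEnd (K := AlgebraicClosure ℚ) ℚ W n) := by
  have := fb24_isAlgClosure
  haveI : Fintype (Submodule.torsionBy ℤ (W⁄(AlgebraicClosure ℚ)).Point n) := Fintype.ofFinite _
  let s : Finset (AlgebraicClosure ℚ) :=
    Finset.univ.biUnion
      (fun x : Submodule.torsionBy ℤ (W⁄(AlgebraicClosure ℚ)).Point n =>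
        fb24_coords (x : (W⁄(AlgebraicClosure ℚ)).Point))
  have : FiniteDimensional ℚ
      (IntermediateField.adjoin ℚ (s : Set (AlgebraicClosure ℚ))) :=
    IntermediateField.finiteDimensional_adjoin (fun x _ => Algebra.IsIntegral.isIntegral x)
  refine ⟨IntermediateField.adjoin ℚ (s : Set (AlgebraicClosure ℚ)), inferInstance,
    fun σ hσ => ?_⟩
  refine LinearMap.ext fun x => Subtype.ext ?_
  change σ • (x : (W⁄(AlgebraicClosure ℚ)).Point) = (x : (W⁄(AlgebraicClosure ℚ)).Point)
  refine fb24_smul_eq_self σ _ fun c hc => ?_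
  exact hσ c (IntermediateField.subset_adjoin ℚ _
    (Finset.mem_coe.mpr (Finset.mem_biUnion.mpr ⟨x, Finset.mem_univ _, hc⟩)))

/-- The `p`-torsion of the Frey curve over `ℚ̄` is finite (for any decidability instance). -/
theorem ff74_finite_frey [inst : DecidableEq (AlgebraicClosure ℚ)] (P : FreyPackage) :
    Finite (Submodule.torsionBy ℤ (P.freyCurve⁄(AlgebraicClosure ℚ)).Point P.p) := by
  have h : inst = instDecEqAlgebraicClosureRat := Subsingleton.elim _ _
  subst h
  exact (tc82_card_torsionBy_rat P.freyCurve (Fermat.Agent.Lib.freyCurve_Δ_ne_zero P) P.pp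
    (by have := P.hp5; omega)).1

/-- **C4, the Frey field.** The Galois action on the `p`-torsion of the Frey curve factors
through a finite extension of `ℚ`. -/
theorem ff74_frey [DecidableEq (AlgebraicClosure ℚ)] (P : FreyPackage) :
    GaloisFactorsThroughFiniteLevel
      (WeierstrassCurve.Affine.Point.galoisRepModuleEnd (S := ℚ) (K := AlgebraicClosure ℚ)
        P.freyCurve P.p) := by
  have := ff74_finite_frey P
  exact ff74_finiteLevel P.freyCurve P.p

/-- Kernel form of `ff74_frey`. -/
theorem ff74_frey_ker [DecidableEq (AlgebraicClosure ℚ)] (P : FreyPackage) :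
    ∃ L : IntermediateField ℚ (AlgebraicClosure ℚ), FiniteDimensional ℚ L ∧
      ∀ σ : AlgebraicClosure ℚ ≃ₐ[ℚ] AlgebraicClosure ℚ, (∀ x ∈ L, σ x = x) →
        σ ∈ (WeierstrassCurve.Affine.Point.galoisRepModuleEnd (S := ℚ)
          (K := AlgebraicClosure ℚ) P.freyCurve P.p).ker := by
  obtain ⟨L, hL, h⟩ := ff74_frey P
  exact ⟨L, hL, fun σ hσ => MonoidHom.mem_ker.mpr (h σ hσ)⟩

end Fermat.Agent.S42
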