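import Fermat.Agent.S42.PackFree64

/-!
# S42 (row M10, items (i) and (ii), helper64): inertia and Frobenius on `p`-power torsion of
`J₀(N)`, at operator level

For a prime `ℓ ∤ N`, `ℓ ∤ p`, a valuation subring `A` of `ℚ̄` over `ℓ` and a class `x : JZero N`
killed by a power of `p`:

* `h64_op_inertia` : the inertia group of `A` fixes `x`;
* `h64_op_frob` : every Frobenius element `σ` at `A` satisfies
  `σ • σ • x - T_ℓ (σ • x) + ℓ • x = 0` (Eichler-Shimura), `T_ℓ = heckeOperatorBar N ℓ`.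

No commutation hypothesis on the Hecke operators and no `SMulCommClass` is used: both statements
are read off the divisor-level package `h64_pack_free`.
-/

set_option autoImplicit false
set_option linter.style.haveILetI false
set_option synthInstance.maxHeartbeats 400000
set_option maxHeartbeats 1000000

namespace Fermat.Agent.S42

open ModularCurve AlgebraicCurve Fermat.Agent.S37

local notation "Qb" => AlgebraicClosure ℚ

local notation "GQ" => (AlgebraicClosure ℚ ≃ₐ[ℚ] AlgebraicClosure ℚ)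

/-- The package of `h64_pack_free` together with the Hecke inputs, in one existential. -/
theorem h64_op_pack (N p : ℕ) [NeZero N] {ℓ : ℕ} (hℓ : ℓ.Prime) [NeZero ℓ] (hN : ¬ ℓ ∣ N)
    (hp : ¬ ℓ ∣ p) (A : ValuationSubring Qb) (hA : A.LiesOverPrime ℓ) :
    ∃ (hα : HeckeAlphaBarIntegral Qb N ℓ) (hβ : HeckeBetaBarIntegral Qb N ℓ)
      (_ : HasPrincipalDivisors Qb (modularFunctionFieldBar (N * ℓ)))
      (hfin : FiniteAlong Qb (heckeAlphaBar Qb N ℓ))
      (_ : FundamentalIdentityAlong Qb (heckeBetaBar Qb N ℓ) hβ)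
      (_ : NormFormulaAlong Qb (heckeAlphaBar Qb N ℓ) hfin),
      h64_Pack0 N p ℓ A hα hβ 1 := by
  obtain ⟨hα, hβ, hP, hfin, hFI, hNF⟩ := hi63_heckeInputsAlong N ℓ
  exact ⟨hα, hβ, hP, hfin, hFI, hNF, h64_pack_free N p hℓ hN hp A hA hα hβ hFI⟩

/-- The Galois action preserves the classes killed by `m`. -/
theorem h64_op_nsmul_smul {N m : ℕ} (σ : GQ) {x : JZero N} (hx : m • x = 0) :
    m • (σ • x) = 0 := by
  rw [smul_comm, hx]
  exact smul_zero (A := JZero N) σ

/-- **M10 (i): inertia acts trivially on `p`-power torsion** (`ℓ ∤ N p`). -/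
theorem h64_op_inertia (N p : ℕ) [NeZero N] {ℓ : ℕ} (hℓ : ℓ.Prime) (hN : ¬ ℓ ∣ N)
    (hp : ¬ ℓ ∣ p) (A : ValuationSubring Qb) (hA : A.LiesOverPrime ℓ)
    (τ : GQ) (hτ : τ ∈ A.inertiaSubgroupIn ℚ) (x : JZero N) (hx : ∃ n : ℕ, p ^ n • x = 0) :
    τ • x = x := by
  haveI : NeZero ℓ := ⟨hℓ.ne_zero⟩
  obtain ⟨hα, hβ, hP, hfin, hFI, hNF, G, instG, c, Fr, V, hVF, hin, hfr, hES, hinj⟩ :=
    h64_op_pack N p hℓ hN hp A hA
  obtain ⟨n, hn⟩ := hx
  have h1 : tv1_red c (τ • x - x) = 0 := by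
    rw [map_sub, galois_smul_pic0_def]
    rw [tv1_red_smul_of_fix c _ (hin τ hτ) x, sub_self]
  have h2 : p ^ n • (τ • x - x) = 0 := by
    rw [nsmul_sub, h64_op_nsmul_smul τ hn, hn, sub_self]
  have h3 : τ • x - x = 0 :=
    tv1_red_inj c (p ^ n)
      (fun D hD hc hm => by
        have := hinj D hD hc ⟨n, hm⟩
        rwa [one_smul] at this) _ h1 h2
  exact sub_eq_zero.mp h3

/-- **M10 (ii): the Eichler-Shimura relation for Frobenius elements on `p`-power torsion**
(`ℓ ∤ N p`), at operator level. -/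
theorem h64_op_frob (N p : ℕ) [NeZero N] {ℓ : ℕ} (hℓ : ℓ.Prime) (hN : ¬ ℓ ∣ N)
    (hp : ¬ ℓ ∣ p) (A : ValuationSubring Qb) (hA : A.LiesOverPrime ℓ)
    (σ : GQ) (hσ : A.IsFrobeniusAt σ ℓ) (x : JZero N) (hx : ∃ n : ℕ, p ^ n • x = 0) :
    σ • σ • x - heckeOperatorBar N ⟨ℓ, hℓ⟩ (σ • x) + ℓ • x = 0 := by
  haveI : NeZero ℓ := ⟨hℓ.ne_zero⟩
  obtain ⟨hα, hβ, hP, hfin, hFI, hNF, G, instG, c, Fr, V, hVF, hin, hfr, hES, hinj⟩ :=
    h64_op_pack N p hℓ hN hp A hA
  obtain ⟨n, hn⟩ := hx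
  set g := arithmeticGalois (L := Qb) (modularFunctionFieldFull N) σ with hg
  have hgc : ∀ D : Divisor Qb (modularFunctionFieldBar N), c (g • D) = Fr (c D) := hfr σ hσ
  have h1 : tv1_red c (σ • σ • x - heckeOperatorBar N ⟨ℓ, hℓ⟩ (σ • x) + ℓ • x) = 0 := by
    obtain ⟨D, rfl⟩ := Pic0.mk_surjective x
    have e1 : σ • Pic0.mk D = Pic0.mk (SemilinearAut.degZeroSMulHom g D) := by
      rw [galois_smul_pic0_def]
      rfl
    have e2 : σ • Pic0.mk (SemilinearAut.degZeroSMulHom g D)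
        = Pic0.mk (SemilinearAut.degZeroSMulHom g (SemilinearAut.degZeroSMulHom g D)) := by
      rw [galois_smul_pic0_def]
      rfl
    have e3 : heckeOperatorBar N ⟨ℓ, hℓ⟩ (Pic0.mk (SemilinearAut.degZeroSMulHom g D))
        = Pic0.mk (Pic0.degZeroCorrespondence (heckeBetaBar Qb N ℓ) (heckeAlphaBar Qb N ℓ) hβ hα
            hFI (SemilinearAut.degZeroSMulHom g D)) := by
      refine (heckeOperatorBar_apply N ⟨ℓ, hℓ⟩ _).trans ?_
      rw [heckeOperatorAlong_eq hα hβ hFI hfin hNF]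
      rfl
    rw [map_add, map_sub, map_nsmul, e1, e2, e3]
    rw [tv1_red_mk, tv1_red_mk, tv1_red_mk]
    rw [← map_nsmul, ← map_sub, ← map_add]
    have hz : c ((SemilinearAut.degZeroSMulHom g (SemilinearAut.degZeroSMulHom g D) :
          Divisor.degZero (K := Qb) (F := modularFunctionFieldBar N)) : Divisor Qb _)
        - c ((Pic0.degZeroCorrespondence (heckeBetaBar Qb N ℓ) (heckeAlphaBar Qb N ℓ)
            hβ hα hFI (SemilinearAut.degZeroSMulHom g D) :
              Divisor.degZero (K := Qb) (F := modularFunctionFieldBar N)) : Divisor Qb _)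
        + ℓ • c (D : Divisor Qb _) = 0 := by
      have h1 : c ((SemilinearAut.degZeroSMulHom g (SemilinearAut.degZeroSMulHom g D) :
          Divisor.degZero (K := Qb) (F := modularFunctionFieldBar N)) : Divisor Qb _)
          = Fr (Fr (c (D : Divisor Qb _))) := by
        rw [SemilinearAut.coe_degZeroSMulHom, SemilinearAut.coe_degZeroSMulHom, hgc, hgc]
      have h2 := h64_hecke_degZero c Fr V ℓ (heckeDivBar hα hβ) hES g D
      have h3 : c ((Pic0.degZeroCorrespondence (heckeBetaBar Qb N ℓ)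
          (heckeAlphaBar Qb N ℓ) hβ hα hFI (SemilinearAut.degZeroSMulHom g D) :
            Divisor.degZero (K := Qb) (F := modularFunctionFieldBar N)) : Divisor Qb _)
          = c (heckeDivBar hα hβ (g • (D : Divisor Qb _))) := rfl
      rw [h1, h3, h2, hgc, hVF]
      abel
    rw [hz, map_zero]
  have h2 : p ^ n • (σ • σ • x - heckeOperatorBar N ⟨ℓ, hℓ⟩ (σ • x) + ℓ • x) = 0 := by
    have a0 : p ^ n • (σ • x) = 0 := h64_op_nsmul_smul σ hn
    have a1 : p ^ n • (σ • σ • x) = 0 := h64_op_nsmul_smul σ a0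
    have a2 : p ^ n • heckeOperatorBar N ⟨ℓ, hℓ⟩ (σ • x) = 0 := by
      rw [← map_nsmul, a0, map_zero]
    have a3 : p ^ n • (ℓ • x) = 0 := by
      rw [smul_comm (p ^ n) ℓ, hn, nsmul_zero]
    rw [nsmul_add, nsmul_sub, a1, a2, a3, sub_zero, add_zero]
  exact tv1_red_inj c (p ^ n)
    (fun D hD hc hm => by
      have := hinj D hD hc ⟨n, hm⟩
      rwa [one_smul] at this) _ h1 h2

end Fermat.Agent.S42
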