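import Fermat.Agent.S37.FrobEvery14
import Fermat.Agent.S41.FrobBridgeMain24

/-!
# S42, row M11-F (helper14): true Frobenius elements with prescribed restriction

`fb24_frob_exists_both` (S41) produces, for `σ ∈ Gal(ℚ̄/ℚ)`, a prime `ℓ`, a valuation subring
`A` of `ℚ̄` over `ℓ` and `τ` which is a Frobenius at `A` only ON A NUMBER FIELD `K₀`
(`τ x - x ^ ℓ ∈ 𝔪_A` for `x ∈ K₀ ∩ A`).  Statement S37 and the operator-level relations of M10
speak about TRUE Frobenius elements (`A.IsFrobeniusAt τ ℓ`: `τ` in the decomposition group of `A`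
and `x ↦ x ^ ℓ` on the whole residue field).  This file bridges the two:

* `fl14_isFrobeniusAt_of_center` : an element of the stabiliser of the centre of `A` on the ring
  of algebraic integers which satisfies the Frobenius congruence there is a Frobenius at `A`;
* `fl14_exists_isFrobeniusAt_extending` : a Frobenius on `K₀` at `A` agrees on `K₀` with a true
  Frobenius at `A`;
* `fl14_frob_exists` : Frobenius density in existence form with a TRUE Frobenius: every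
  `σ ∈ Gal(ℚ̄/ℚ)` agrees, on a Galois-stable subfield `K₀` containing a prescribed finite set,
  with a power of a true Frobenius `τ` at a prime `ℓ` outside a prescribed finite set (and `τ`
  agrees on `K₀` with a power of `σ`).
-/

set_option autoImplicit false
set_option linter.style.haveILetI false
set_option linter.unusedVariables false

namespace Fermat.Agent.S42

open Polynomial
open scoped Pointwise
open Fermat.Agent.S54 Fermat.Agent.S37 Fermat.Agent.S41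

section Frob

local notation "Qb" => AlgebraicClosure ℚ
local notation "OQb" => integralClosure ℤ (AlgebraicClosure ℚ)
local notation "GQ" => AlgebraicClosure ℚ ≃ₐ[ℚ] AlgebraicClosure ℚ

attribute [local instance] h96_isAlgClosure_rat
attribute [local instance] h96_galActionInt
attribute [local instance] h96_galActionInt_smulCommClass

/-- The centre of a valuation subring of `ℚ̄` on the ring of algebraic integers is a prime
ideal. -/
theorem fl14_centerIdeal_isPrime (V : ValuationSubring Qb) : (h14_centerIdeal V).IsPrime := by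
  have hBV' : ∀ b : OQb, (b : Qb) ∈ V := fun b => h14_mem_valuationSubring_of_isIntegral V b.2
  have hQne : h14_centerIdeal V ≠ ⊤ := by
    intro h
    have h1 : (1 : OQb) ∈ h14_centerIdeal V := by rw [h]; trivial
    have h2 : V.valuation (((1 : OQb) : OQb) : Qb) < 1 := h1
    simp at h2
  refine ⟨hQne, ?_⟩
  intro a b hab
  by_contra hcon
  rw [not_or] at hcon
  have ha : V.valuation (a : Qb) = 1 :=
    le_antisymm ((ValuationSubring.valuation_le_one_iff V _).mpr (hBV' _)) (not_lt.mp hcon.1)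
  have hb : V.valuation (b : Qb) = 1 :=
    le_antisymm ((ValuationSubring.valuation_le_one_iff V _).mpr (hBV' _)) (not_lt.mp hcon.2)
  have h2 : V.valuation (((a * b : OQb)) : Qb) < 1 := hab
  push_cast at h2
  rw [map_mul, ha, hb, one_mul] at h2
  exact lt_irrefl _ h2

/-- The centre of a valuation subring over `ℓ` lies over `(ℓ)`. -/
theorem fl14_centerIdeal_comap (l : ℕ) (hl : l.Prime) (V : ValuationSubring Qb)
    (hlV : V.LiesOverPrime l) :
    (h14_centerIdeal V).comap (algebraMap ℤ OQb) = Ideal.span {(l : ℤ)} := by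
  haveI hlmax : (Ideal.span {(l : ℤ)}).IsMaximal :=
    PrincipalIdealRing.isMaximal_of_irreducible (Nat.prime_iff_prime_int.mp hl).irreducible
  have hQne : h14_centerIdeal V ≠ ⊤ := (fl14_centerIdeal_isPrime V).ne_top
  have hlQ : (algebraMap ℤ OQb (l : ℤ)) ∈ h14_centerIdeal V := by
    show ((algebraMap ℤ OQb (l : ℤ) : OQb) : Qb) ∈ V.nonunits
    have : ((algebraMap ℤ OQb (l : ℤ) : OQb) : Qb) = (l : Qb) := by simp
    rw [this]
    exact hlV
  refine (hlmax.eq_of_le ?_ ?_).symm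
  · exact (Ideal.comap_ne_top _ hQne)
  · rw [Ideal.span_singleton_le_iff_mem]
    exact hlQ

/-- **From the ring of algebraic integers to the valuation subring**: an element of
`Gal(ℚ̄/ℚ)` which stabilises the centre `Q` of `V` and satisfies `g b ≡ b ^ ℓ mod Q` for all
algebraic integers `b` is a Frobenius element at `V`. -/
theorem fl14_isFrobeniusAt_of_center (l : ℕ) (hl : l.Prime) (V : ValuationSubring Qb)
    (hlV : V.LiesOverPrime l) (g : GQ)
    (hgstab : ∀ b : OQb, b ∈ h14_centerIdeal V ↔ g • b ∈ h14_centerIdeal V)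
    (hgQ : ∀ b : OQb, g • b - b ^ l ∈ h14_centerIdeal V) : V.IsFrobeniusAt g l := by
  have hBV' : ∀ b : OQb, (b : Qb) ∈ V := fun b => h14_mem_valuationSubring_of_isIntegral V b.2
  set Q : Ideal OQb := h14_centerIdeal V with hQdef
  have hQV1 : ∀ b : OQb, b ∈ Q → (b : Qb) ∈ V.nonunits := fun b hb => hb
  have hQV2 : ∀ b : OQb, b ∉ Q → (b : Qb) ∉ V.nonunits := fun b hb => hb
  haveI hQprime : Q.IsPrime := fl14_centerIdeal_isPrime V
  -- fractions
  have hfrac : ∀ x ∈ V, ∃ b s : OQb, s ∉ Q ∧ x * (s : Qb) = (b : Qb) := by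
    intro x hx
    have hxalg : IsAlgebraic ℤ x :=
      (IsFractionRing.isAlgebraic_iff ℤ ℚ Qb).mpr (Algebra.IsAlgebraic.isAlgebraic x)
    obtain ⟨b, hb, s, hs, hsV, hxs⟩ := h96_exists_frac V l hl hlV x hx hxalg
    exact ⟨⟨b, hb⟩, ⟨s, hs⟩, fun hsQ => hsV (hQV1 _ hsQ), hxs⟩
  have hval1 : ∀ b : OQb, b ∉ Q → V.valuation (b : Qb) = 1 := by
    intro b hb
    exact le_antisymm ((ValuationSubring.valuation_le_one_iff V _).mpr (hBV' _))
      (not_lt.mp (hQV2 _ hb))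
  -- stability
  have hstab : ∀ h : GQ, (∀ b : OQb, b ∈ Q ↔ h • b ∈ Q) → ∀ x ∈ V, h x ∈ V := by
    intro h hh x hx
    obtain ⟨b, s, hs, hxs⟩ := hfrac x hx
    have h1 : h x * ((h • s : OQb) : Qb) = ((h • b : OQb) : Qb) := by
      rw [h96_galActionInt_coe, h96_galActionInt_coe, ← map_mul, hxs]
    have hs' : V.valuation ((h • s : OQb) : Qb) = 1 :=
      hval1 _ (fun hmem => hs ((hh s).mpr hmem))
    rw [← ValuationSubring.valuation_le_one_iff]
    have := congrArg V.valuation h1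
    rw [map_mul, hs', mul_one] at this
    rw [this]
    exact (ValuationSubring.valuation_le_one_iff V _).mpr (hBV' _)
  have hginv : ∀ b : OQb, b ∈ Q ↔ g⁻¹ • b ∈ Q := by
    intro b
    rw [hgstab (g⁻¹ • b), smul_inv_smul]
  have hgV : g ∈ V.decompositionSubgroup ℚ := by
    rw [MulAction.mem_stabilizer_iff]
    ext x
    rw [ValuationSubring.mem_pointwise_smul_iff_inv_smul_mem]
    constructor
    · intro hx
      have := hstab g hgstab _ hx
      rwa [AlgEquiv.smul_def, ← AlgEquiv.mul_apply, mul_inv_cancel, AlgEquiv.one_apply] at this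
    · intro hx
      exact hstab g⁻¹ hginv x hx
  refine ⟨hgV, ?_⟩
  intro x
  obtain ⟨y, rfl⟩ := IsLocalRing.residue_surjective x
  rw [← IsLocalRing.ResidueField.residue_smul, ← map_pow, ← sub_eq_zero, ← map_sub,
    IsLocalRing.residue_eq_zero_iff, ValuationSubring.valuation_lt_one_iff]
  obtain ⟨b, s, hs, hxs⟩ := hfrac y y.2
  have hcoe : ((((⟨g, hgV⟩ : V.decompositionSubgroup ℚ) • y - y ^ l : V)) : Qb) =
      g (y : Qb) - (y : Qb) ^ l := rfl
  rw [hcoe]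
  have hgs : g • s ∉ Q := fun h => hs ((hgstab s).mpr h)
  have hunit : V.valuation (((g • s) * s ^ l : OQb) : Qb) = 1 :=
    hval1 _ (fun h => (Ideal.IsPrime.mem_or_mem ‹Q.IsPrime› h).elim hgs
      (fun h' => hs (Ideal.IsPrime.mem_of_pow_mem ‹Q.IsPrime› _ h')))
  have hnum : V.valuation
      ((((g • b - b ^ l) * s ^ l - b ^ l * (g • s - s ^ l) : OQb)) : Qb) < 1 :=
    hQV1 _ (Q.sub_mem (Q.mul_mem_right _ (hgQ b)) (Q.mul_mem_left _ (hgQ s)))
  have hkey : (g (y : Qb) - (y : Qb) ^ l) * (((g • s) * s ^ l : OQb) : Qb) =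
      ((((g • b - b ^ l) * s ^ l - b ^ l * (g • s - s ^ l) : OQb)) : Qb) := by
    have e1 : g (y : Qb) * g (s : Qb) = g (b : Qb) := by rw [← map_mul, hxs]
    have e2 : (y : Qb) ^ l * (s : Qb) ^ l = (b : Qb) ^ l := by rw [← mul_pow, hxs]
    push_cast
    rw [h96_galActionInt_coe, h96_galActionInt_coe]
    linear_combination (s : Qb) ^ l * e1 - g (s : Qb) * e2
  have := congrArg V.valuation hkey
  rw [map_mul, hunit, mul_one] at this
  rw [this]
  exact hnum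

/-- **A Frobenius on a subfield extends to a true Frobenius.**  Let `V` be a valuation subring of
`ℚ̄` over `ℓ` and `τ ∈ Gal(ℚ̄/ℚ)` with `τ x ≡ x ^ ℓ` modulo the maximal ideal of `V` for all
`x ∈ K₀ ∩ V`.  Then there is a Frobenius element `τ'` at `V` (in the decomposition group of `V`,
inducing `x ↦ x ^ ℓ` on the whole residue field) with `τ' = τ` on `K₀`. -/
theorem fl14_exists_isFrobeniusAt_extending (l : ℕ) (hl : l.Prime) (V : ValuationSubring Qb)
    (hlV : V.LiesOverPrime l) (K₀ : IntermediateField ℚ Qb) (τ : GQ)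
    (hτ : ∀ x ∈ K₀, x ∈ V → τ x - x ^ l ∈ V.nonunits) :
    ∃ τ' : GQ, V.IsFrobeniusAt τ' l ∧ ∀ x ∈ K₀, τ' x = τ x := by
  haveI : IsGalois ℚ Qb := IsAlgClosure.isGalois ℚ Qb
  letI : TopologicalSpace OQb := ⊥
  haveI : DiscreteTopology OQb := ⟨rfl⟩
  haveI : ContinuousSMul GQ OQb := by
    rw [continuousSMul_iff_stabilizer_isOpen]
    intro b
    have : (MulAction.stabilizer GQ b : Set GQ) = (MulAction.stabilizer GQ (b : Qb) : Set GQ) := by
      ext g
      simp only [SetLike.mem_coe, MulAction.mem_stabilizer_iff]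
      exact Subtype.ext_iff
    rw [this]
    exact stabilizer_isOpen_of_isIntegral (b : Qb)
  set H : Subgroup GQ := K₀.fixingSubgroup with hH
  haveI : CompactSpace ↥H :=
    isCompact_iff_compactSpace.mp (InfiniteGalois.fixingSubgroup_isClosed K₀).isCompact
  haveI : ContinuousSMul ↥H OQb := inferInstance
  -- the ring of `H`-invariants
  set A₀ : Subalgebra ℤ OQb := FixedPoints.subalgebra ℤ OQb ↥H with hA₀
  haveI : SMulCommClass ↥H ↥A₀ OQb := ⟨fun g a b => by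
    show g • ((a : OQb) * b) = (a : OQb) * g • b
    rw [smul_mul', a.2 g]⟩
  haveI : Algebra.IsInvariant ↥A₀ OQb ↥H := ⟨fun b hb => ⟨⟨b, hb⟩, rfl⟩⟩
  have hA₀K : ∀ a : A₀, ((a : OQb) : Qb) ∈ K₀ := by
    intro a
    rw [← InfiniteGalois.fixedField_fixingSubgroup K₀, IntermediateField.mem_fixedField_iff]
    intro g hg
    exact congrArg Subtype.val (a.2 ⟨g, hg⟩)
  have hBV' : ∀ b : OQb, (b : Qb) ∈ V := fun b => h14_mem_valuationSubring_of_isIntegral V b.2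
  set Q : Ideal OQb := h14_centerIdeal V with hQdef
  haveI hQprime : Q.IsPrime := fl14_centerIdeal_isPrime V
  -- `τ⁻¹ Q` and `Q` have the same trace on the invariants
  have hτA₀ : ∀ a : A₀, (τ • (a : OQb) ∈ Q ↔ (a : OQb) ∈ Q) := by
    intro a
    have h1 : V.valuation (τ ((a : OQb) : Qb) - ((a : OQb) : Qb) ^ l) < 1 :=
      hτ _ (hA₀K a) (hBV' _)
    show V.valuation (τ ((a : OQb) : Qb)) < 1 ↔ V.valuation ((a : OQb) : Qb) < 1
    constructor
    · intro h2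
      have h3 : V.valuation (((a : OQb) : Qb) ^ l) < 1 := by
        have : ((a : OQb) : Qb) ^ l
            = τ ((a : OQb) : Qb) - (τ ((a : OQb) : Qb) - ((a : OQb) : Qb) ^ l) := by ring
        rw [this]
        exact Valuation.map_sub_lt _ h2 h1
      rw [map_pow] at h3
      by_contra hcon
      have h4 : V.valuation ((a : OQb) : Qb) = 1 :=
        le_antisymm ((ValuationSubring.valuation_le_one_iff V _).mpr (hBV' _)) (not_lt.mp hcon)
      rw [h4, one_pow] at h3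
      exact lt_irrefl _ h3
    · intro h2
      have h3 : V.valuation (((a : OQb) : Qb) ^ l) < 1 := by
        rw [map_pow]
        exact pow_lt_one₀ zero_le h2 hl.ne_zero
      have : τ ((a : OQb) : Qb)
          = (τ ((a : OQb) : Qb) - ((a : OQb) : Qb) ^ l) + ((a : OQb) : Qb) ^ l := by ring
      rw [this]
      exact Valuation.map_add_lt _ h1 h3
  have hunder : Q.under A₀ = (τ⁻¹ • Q).under A₀ := by
    ext a
    rw [Ideal.mem_comap, Ideal.mem_comap, Ideal.mem_pointwise_smul_iff_inv_smul_mem, inv_inv]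
    exact (hτA₀ a).symm
  obtain ⟨h1, hh1⟩ := Algebra.IsInvariant.exists_smul_of_under_eq_of_profinite (A := ↥A₀)
    (G := ↥H) Q (τ⁻¹ • Q) hunder
  -- `τ₁ := τ h₁` stabilises `Q` and agrees with `τ` on `K₀`
  have hh1' : ∀ c : OQb, τ • c ∈ Q ↔ (h1 : GQ)⁻¹ • c ∈ Q := by
    intro c
    have e1 : (c ∈ τ⁻¹ • Q) ↔ (c ∈ h1 • Q) := Eq.to_iff (congrArg (fun I : Ideal OQb => c ∈ I) hh1)
    rw [Ideal.mem_pointwise_smul_iff_inv_smul_mem, inv_inv] at e1
    have e2 : c ∈ h1 • Q ↔ h1⁻¹ • c ∈ Q := Ideal.mem_pointwise_smul_iff_inv_smul_mem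
    exact e1.trans e2
  have hτ1stab : ∀ b : OQb, b ∈ Q ↔ (τ * (h1 : GQ)) • b ∈ Q := by
    intro b
    rw [mul_smul, hh1' ((h1 : GQ) • b), inv_smul_smul]
  have hτ1Q : (τ * (h1 : GQ)) • Q = Q := by
    ext b
    rw [Ideal.mem_pointwise_smul_iff_inv_smul_mem, hτ1stab ((τ * (h1 : GQ))⁻¹ • b),
      smul_inv_smul]
  -- the residue automorphisms
  haveI hlmax : (Ideal.span {(l : ℤ)}).IsMaximal :=
    PrincipalIdealRing.isMaximal_of_irreducible (Nat.prime_iff_prime_int.mp hl).irreducible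
  haveI : Q.LiesOver (Ideal.span {(l : ℤ)}) := ⟨(fl14_centerIdeal_comap l hl V hlV).symm⟩
  obtain ⟨Fr, hFr⟩ := h96_exists_frobenius_algEquiv_of_algebra l hl Q
  set φ1 := Ideal.Quotient.stabilizerHom Q (Ideal.span {(l : ℤ)}) GQ
    ⟨τ * (h1 : GQ), hτ1Q⟩ with hφ1
  have hφ1mk : ∀ b : OQb, φ1 (Ideal.Quotient.mk Q b)
      = Ideal.Quotient.mk Q ((τ * (h1 : GQ)) • b) := fun b => rfl
  set P₀ : Ideal ↥A₀ := Q.under ↥A₀ with hP₀
  haveI : Q.LiesOver P₀ := ⟨rfl⟩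
  -- on the image of the invariants, `φ₁` is the Frobenius
  have hφ1A₀ : ∀ a : A₀, φ1 (Ideal.Quotient.mk Q (a : OQb)) = Fr (Ideal.Quotient.mk Q (a : OQb)) := by
    intro a
    rw [hφ1mk, hFr, ← map_pow, Ideal.Quotient.eq, mul_smul]
    have h2 : (h1 : GQ) • (a : OQb) = (a : OQb) := a.2 h1
    rw [h2]
    show V.valuation (τ ((a : OQb) : Qb) - ((a : OQb) : Qb) ^ l) < 1
    exact hτ _ (hA₀K a) (hBV' _)
  let ψr : (OQb ⧸ Q) ≃+* (OQb ⧸ Q) := Fr.toRingEquiv.trans φ1.symm.toRingEquiv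
  have hψr : ∀ x : OQb ⧸ Q, ψr x = φ1.symm (Fr x) := fun x => rfl
  let ψ : (OQb ⧸ Q) ≃ₐ[↥A₀ ⧸ P₀] (OQb ⧸ Q) := AlgEquiv.ofRingEquiv (f := ψr) (by
    intro r
    obtain ⟨a, rfl⟩ := Ideal.Quotient.mk_surjective r
    have e1 : algebraMap (↥A₀ ⧸ P₀) (OQb ⧸ Q) (Ideal.Quotient.mk P₀ a)
        = Ideal.Quotient.mk Q (a : OQb) := Ideal.Quotient.algebraMap_mk_of_liesOver Q P₀ a
    rw [e1, hψr, ← hφ1A₀ a, AlgEquiv.symm_apply_apply])
  obtain ⟨⟨h2, hh2⟩, hψ⟩ := Ideal.Quotient.stabilizerHom_surjective_of_profinite (G := ↥H)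
    P₀ Q ψ
  have hψmk : ∀ b : OQb, Ideal.Quotient.mk Q ((h2 : GQ) • b) = φ1.symm (Fr (Ideal.Quotient.mk Q b)) := by
    intro b
    have e1 := congrArg (fun f : (OQb ⧸ Q) ≃ₐ[↥A₀ ⧸ P₀] (OQb ⧸ Q) => f (Ideal.Quotient.mk Q b)) hψ
    exact e1
  have hh2' : ∀ b : OQb, b ∈ Q ↔ (h2 : GQ) • b ∈ Q := by
    intro b
    have e1 : ((h2 : GQ) • b ∈ h2 • Q) ↔ ((h2 : GQ) • b ∈ Q) :=
      Eq.to_iff (congrArg (fun I : Ideal OQb => (h2 : GQ) • b ∈ I) hh2)
    have e2 : (h2 : GQ) • b ∈ h2 • Q ↔ b ∈ Q := Ideal.smul_mem_pointwise_smul_iff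
    exact e2.symm.trans e1
  refine ⟨τ * (h1 : GQ) * (h2 : GQ), fl14_isFrobeniusAt_of_center l hl V hlV _ ?_ ?_, ?_⟩
  · intro b
    rw [mul_smul, ← hτ1stab, ← hh2']
  · intro b
    rw [← Ideal.Quotient.eq, map_pow, ← hFr, mul_smul, ← hφ1mk, hψmk, AlgEquiv.apply_symm_apply]
  · intro x hx
    have e1 : (h2 : GQ) x = x := h2.2 ⟨x, hx⟩
    have e2 : (h1 : GQ) x = x := h1.2 ⟨x, hx⟩
    rw [AlgEquiv.mul_apply, AlgEquiv.mul_apply, e1, e2]

/-- **Frobenius density, existence form, with a TRUE Frobenius.**  For every finite set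
`s ⊆ ℚ̄`, every `σ ∈ Gal(ℚ̄/ℚ)` and every finite set `S` of primes there are a prime `ℓ ∉ S`, a
valuation subring `A` of `ℚ̄` over `ℓ`, a Frobenius element `τ` at `A` and a Galois-stable
subfield `K₀ ∋ s` such that `σ = τ ^ j` on `K₀` and `τ = σ ^ i` on `K₀`. -/
theorem fl14_frob_exists (s : Finset Qb) (σ : GQ) (S : Finset ℕ) :
    ∃ (ℓ : ℕ) (A : ValuationSubring Qb) (τ : GQ) (K₀ : IntermediateField ℚ Qb),
      ℓ.Prime ∧ ℓ ∉ S ∧ A.LiesOverPrime ℓ ∧ A.IsFrobeniusAt τ ℓ ∧ (∀ x ∈ s, x ∈ K₀) ∧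
      (∃ j : ℕ, ∀ x ∈ K₀, σ x = (τ ^ j) x) ∧ (∃ i : ℕ, ∀ x ∈ K₀, τ x = (σ ^ i) x) ∧
      (∀ ρ : GQ, ∀ x ∈ K₀, ρ x ∈ K₀) := by
  obtain ⟨ℓ, A, τ, K₀, hℓ, hℓS, -, hA, hs, hfrob, ⟨j, hj⟩, ⟨i, hi⟩, hstab⟩ :=
    fb24_frob_exists_both s 1 one_pos σ (fun ζ hζ => by rw [pow_one] at hζ; rw [hζ, map_one]) S
  obtain ⟨τ', hτ', hττ'⟩ := fl14_exists_isFrobeniusAt_extending ℓ hℓ A hA K₀ τ hfrob
  -- powers of `τ'` and `τ` agree on the stable field `K₀`
  have hpow : ∀ (n : ℕ) (x : Qb), x ∈ K₀ → (τ' ^ n) x = (τ ^ n) x ∧ (τ ^ n) x ∈ K₀ := by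
    intro n
    induction n with
    | zero => intro x hx; exact ⟨rfl, hx⟩
    | succ n ih =>
      intro x hx
      obtain ⟨h1, h2⟩ := ih x hx
      refine ⟨?_, hstab _ x hx⟩
      rw [pow_succ', pow_succ', AlgEquiv.mul_apply, AlgEquiv.mul_apply, h1, hττ' _ h2]
  refine ⟨ℓ, A, τ', K₀, hℓ, hℓS, hA, hτ', hs, ⟨j, fun x hx => ?_⟩, ⟨i, fun x hx => ?_⟩, hstab⟩
  · rw [hj x hx, (hpow j x hx).1]
  · rw [hττ' x hx, hi x hx]

/-- Variant of `fl14_frob_exists` keeping the congruence condition `ℓ ≡ 1 mod m` for `σ` fixing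
the `m`-th roots of unity. -/
theorem fl14_frob_exists_modEq (s : Finset Qb) (m : ℕ) (hm : 0 < m) (σ : GQ)
    (hσ : ∀ ζ : Qb, ζ ^ m = 1 → σ ζ = ζ) (S : Finset ℕ) :
    ∃ (ℓ : ℕ) (A : ValuationSubring Qb) (τ : GQ) (K₀ : IntermediateField ℚ Qb),
      ℓ.Prime ∧ ℓ ∉ S ∧ ℓ ≡ 1 [MOD m] ∧ A.LiesOverPrime ℓ ∧ A.IsFrobeniusAt τ ℓ ∧
      (∀ x ∈ s, x ∈ K₀) ∧
      (∃ j : ℕ, ∀ x ∈ K₀, σ x = (τ ^ j) x) ∧ (∃ i : ℕ, ∀ x ∈ K₀, τ x = (σ ^ i) x) ∧
      (∀ ρ : GQ, ∀ x ∈ K₀, ρ x ∈ K₀) := by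
  obtain ⟨ℓ, A, τ, K₀, hℓ, hℓS, hℓm, hA, hs, hfrob, ⟨j, hj⟩, ⟨i, hi⟩, hstab⟩ :=
    fb24_frob_exists_both s m hm σ hσ S
  obtain ⟨τ', hτ', hττ'⟩ := fl14_exists_isFrobeniusAt_extending ℓ hℓ A hA K₀ τ hfrob
  have hpow : ∀ (n : ℕ) (x : Qb), x ∈ K₀ → (τ' ^ n) x = (τ ^ n) x ∧ (τ ^ n) x ∈ K₀ := by
    intro n
    induction n with
    | zero => intro x hx; exact ⟨rfl, hx⟩
    | succ n ih =>
      intro x hx
      obtain ⟨h1, h2⟩ := ih x hx
      refine ⟨?_, hstab _ x hx⟩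
      rw [pow_succ', pow_succ', AlgEquiv.mul_apply, AlgEquiv.mul_apply, h1, hττ' _ h2]
  refine ⟨ℓ, A, τ', K₀, hℓ, hℓS, hℓm, hA, hτ', hs, ⟨j, fun x hx => ?_⟩, ⟨i, fun x hx => ?_⟩,
    hstab⟩
  · rw [hj x hx, (hpow j x hx).1]
  · rw [hττ' x hx, hi x hx]

/-- The Frobenius congruence of a true Frobenius element: `τ x ≡ x ^ ℓ` modulo the maximal ideal
of `A`, for every `x ∈ A`. -/
theorem fl14_isFrobeniusAt_congr (A : ValuationSubring Qb) {ℓ : ℕ} {τ : GQ}
    (hτ : A.IsFrobeniusAt τ ℓ) (x : Qb) (hx : x ∈ A) : τ x - x ^ ℓ ∈ A.nonunits := by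
  obtain ⟨hτD, hτx⟩ := hτ
  have h1 := hτx (IsLocalRing.residue A ⟨x, hx⟩)
  rw [← IsLocalRing.ResidueField.residue_smul, ← map_pow, ← sub_eq_zero, ← map_sub,
    IsLocalRing.residue_eq_zero_iff, ValuationSubring.valuation_lt_one_iff] at h1
  exact h1

/-- A natural number prime to `ℓ` is a unit of every valuation subring over `ℓ`. -/
theorem fl14_valuation_natCast_eq_one (A : ValuationSubring Qb) {ℓ : ℕ} (hℓ : ℓ.Prime)
    (hA : A.LiesOverPrime ℓ) (n : ℕ) (hn : ¬ ℓ ∣ n) : A.valuation (n : Qb) = 1 := by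
  have hle : ∀ z : ℤ, A.valuation (z : Qb) ≤ 1 := fun z =>
    (ValuationSubring.valuation_le_one_iff A _).mpr (intCast_mem A z)
  have hn1 : A.valuation (n : Qb) ≤ 1 := by
    have := hle (n : ℤ)
    rwa [Int.cast_natCast] at this
  refine le_antisymm hn1 (not_lt.mp fun hlt => ?_)
  have hcop : Nat.Coprime ℓ n := (Nat.Prime.coprime_iff_not_dvd hℓ).mpr hn
  have hbez : (ℓ : ℤ) * Nat.gcdA ℓ n + (n : ℤ) * Nat.gcdB ℓ n = 1 := by
    have := Nat.gcd_eq_gcd_ab ℓ n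
    rw [hcop] at this
    exact_mod_cast this.symm
  have hbez' : (ℓ : Qb) * (Nat.gcdA ℓ n : Qb) + (n : Qb) * (Nat.gcdB ℓ n : Qb) = 1 := by
    exact_mod_cast congrArg (Int.cast : ℤ → Qb) hbez
  have hℓlt : A.valuation (ℓ : Qb) < 1 := hA
  have h1 : A.valuation ((ℓ : Qb) * (Nat.gcdA ℓ n : Qb)) < 1 := by
    rw [map_mul]
    exact mul_lt_one_of_lt_of_le hℓlt (hle _)
  have h2 : A.valuation ((n : Qb) * (Nat.gcdB ℓ n : Qb)) < 1 := by
    rw [map_mul]
    exact mul_lt_one_of_lt_of_le hlt (hle _)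
  have h3 := Valuation.map_add_lt A.valuation h1 h2
  rw [hbez', map_one] at h3
  exact lt_irrefl _ h3

/-- **A true Frobenius element acts on roots of unity of order prime to the residue
characteristic by `ζ ↦ ζ ^ ℓ`** (formulated with `n` a unit of `A`). -/
theorem fl14_isFrobeniusAt_root_of_unity (A : ValuationSubring Qb) {ℓ : ℕ} {τ : GQ}
    (hτ : A.IsFrobeniusAt τ ℓ) (n : ℕ) (hn : A.valuation (n : Qb) = 1) (ζ : Qb)
    (hζ : ζ ^ n = 1) : τ ζ = ζ ^ ℓ := by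
  have hn0 : n ≠ 0 := by
    rintro rfl
    simp at hn
  have hint : ∀ ω : Qb, ω ^ n = 1 → ω ∈ A := fun ω hω =>
    h14_mem_valuationSubring_of_isIntegral A
      (IsIntegral.of_pow (Nat.pos_of_ne_zero hn0) (by rw [hω]; exact isIntegral_one))
  have hζ0 : ζ ≠ 0 := by
    rintro rfl
    rw [zero_pow hn0] at hζ
    exact zero_ne_one hζ
  set ω : Qb := τ ζ * (ζ ^ ℓ)⁻¹ with hω
  have hωn : ω ^ n = 1 := by
    rw [hω, mul_pow, ← map_pow, hζ, map_one, one_mul, inv_pow, ← pow_mul, mul_comm, pow_mul, hζ,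
      one_pow, inv_one]
  have hinv : (ζ ^ ℓ)⁻¹ ∈ A := hint _ (by rw [inv_pow, ← pow_mul, mul_comm, pow_mul, hζ, one_pow,
    inv_one])
  have hω1 : A.valuation (ω - 1) < 1 := by
    have e1 : ω - 1 = (τ ζ - ζ ^ ℓ) * (ζ ^ ℓ)⁻¹ := by
      rw [hω, sub_mul, mul_inv_cancel₀ (pow_ne_zero _ hζ0)]
    rw [e1, map_mul]
    exact mul_lt_one_of_lt_of_le (fl14_isFrobeniusAt_congr A hτ ζ (hint ζ hζ))
      ((ValuationSubring.valuation_le_one_iff A _).mpr hinv)
  have hωA : ω ∈ A := hint ω hωn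
  by_cases h1 : ω = 1
  · have := h1
    rw [hω] at this
    field_simp at this
    exact this
  · exfalso
    have hgeom : (∑ i ∈ Finset.range n, ω ^ i) * (ω - 1) = 0 := by
      rw [geom_sum_mul, hωn, sub_self]
    have hsum0 : ∑ i ∈ Finset.range n, ω ^ i = 0 := by
      rcases mul_eq_zero.mp hgeom with h | h
      · exact h
      · exact absurd (sub_eq_zero.mp h) h1
    have hterm : ∀ i ∈ Finset.range n, A.valuation (ω ^ i - 1) < 1 := by
      intro i _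
      have e2 : ω ^ i - 1 = (∑ k ∈ Finset.range i, ω ^ k) * (ω - 1) := by
        rw [geom_sum_mul]
      rw [e2, map_mul, mul_comm]
      refine mul_lt_one_of_lt_of_le hω1 ((ValuationSubring.valuation_le_one_iff A _).mpr ?_)
      exact sum_mem fun k _ => pow_mem hωA k
    have hsum : A.valuation (∑ i ∈ Finset.range n, (ω ^ i - 1)) < 1 :=
      Valuation.map_sum_lt A.valuation one_ne_zero hterm
    rw [Finset.sum_sub_distrib, hsum0, Finset.sum_const, Finset.card_range, nsmul_eq_mul, mul_one,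
      zero_sub, Valuation.map_neg, hn] at hsum
    exact lt_irrefl _ hsum

/-- **A true Frobenius element at a prime `ℓ` acts on the `n`-th roots of unity, `ℓ ∤ n`, by
`ζ ↦ ζ ^ ℓ`**: the cyclotomic character takes the value `ℓ` at Frobenius. -/
theorem fl14_isFrobeniusAt_root_of_unity' (A : ValuationSubring Qb) {ℓ : ℕ} (hℓ : ℓ.Prime)
    (hA : A.LiesOverPrime ℓ) {τ : GQ} (hτ : A.IsFrobeniusAt τ ℓ) (n : ℕ) (hn : ¬ ℓ ∣ n) (ζ : Qb)
    (hζ : ζ ^ n = 1) : τ ζ = ζ ^ ℓ :=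
  fl14_isFrobeniusAt_root_of_unity A hτ n (fl14_valuation_natCast_eq_one A hℓ hA n hn) ζ hζ

end Frob

end Fermat.Agent.S42
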