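import Fermat.Agent.S24.Infinity
import Fermat.Agent.S24.ModIntegral
import Fermat.Prelude.Def_ModularCurve_X0ModL

/-!
Project S42, row M2 (the function field inside the meromorphic functions), STAGE 1 (helper34).

The formal ring `ℂ[j(q^d) : d ∣ N] ⊆ ℂ((q))` (`ff34_ring N`, the `ℂ`-subalgebra of Laurent series
generated by `divisorExpansionsC ℂ N`; its fraction field inside `ℂ((q))` is
`modularFunctionFieldFullC ℂ N`) is embedded into the functions on the upper half plane:

* `ff34_ev0 N : ff34_ring N →ₐ[ℂ] (ℍ → ℂ)`, injective (`ff34_ev0_injective`);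
* `ff34_ev0_hasWExp` : `x` is the expansion of `ff34_ev0 N x` in `w = e^{2πiτ/N}` (S24 `HasWExp`),
  hence `ff34_ev0 N x` is holomorphic (`ff34_ev0_mdiff`);
* `ff34_ev0_j`, `ff34_ev0_jd` : the generators go to `kleinJ` and `τ ↦ kleinJ (d τ)`;
* `ff34_ev0_smul` : the image is `Γ₀(N)`-invariant.
-/

set_option autoImplicit false

open ModularCurve AlgebraicCurve MatrixGroups UpperHalfPlane ModularForm EisensteinSeries
open Fermat.Agent.S24

open scoped Manifold

namespace Fermat.Agent.S42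

/-! ### The formal generators with complex coefficients -/

/-- The formal series `j(q^d)` with complex coefficients (`0` for `d = 0`). -/
noncomputable def ff34_JC (d : ℕ) : LaurentSeries ℂ :=
  if h : d = 0 then 0 else
    haveI : NeZero d := ⟨h⟩
    qExpand ℂ d (jqModC ℂ)

theorem ff34_JC_of_neZero (d : ℕ) [NeZero d] : ff34_JC d = qExpand ℂ d (jqModC ℂ) := by
  unfold ff34_JC
  rw [dif_neg (NeZero.ne d)]

/-- The complex formal generators are the images of the `ℚ̄`-generators of S24 under the fixed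
embedding `phi : ℚ̄ → ℂ`. -/
theorem ff34_coeffMap_JJ (d : ℕ) : coeffMap phi (JJ d) = ff34_JC d := by
  by_cases hd : d = 0
  · subst hd
    simp [JJ, ff34_JC]
  · have : NeZero d := ⟨hd⟩
    rw [JJ_of_neZero, ff34_JC_of_neZero, coeffEmb, coeffMap_coeffMap, coeffMap_qExpand,
      ← jqModC_rat, coeffMap_jqModC]

/-- The same generators written as base changes from `ℚ` (the shape used in
`laurentBaseChange ℂ (modularFunctionFieldFull N)`). -/
theorem ff34_JC_eq_coeffEmb (d : ℕ) [NeZero d] : ff34_JC d = coeffEmb ℂ (qExpand ℚ d jq) := by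
  rw [ff34_JC_of_neZero, coeffEmb, coeffMap_qExpand, ← jqModC_rat, coeffMap_jqModC]

theorem ff34_hasWExp_gen (N : ℕ) [NeZero N] (d : ℕ) (hd : d ∣ N) :
    HasWExp N (genFn 1 d) (qExpand ℂ N (ff34_JC d)) := by
  have h := wpA4_genFn_one_hasWExp N d hd
  rwa [coeffMap_qExpand, ff34_coeffMap_JJ] at h

theorem ff34_hasWExp_aeval (N : ℕ) [NeZero N] (P : MvPolynomial N.divisors ℂ) :
    HasWExp N (MvPolynomial.aeval (fun d : N.divisors => genFn 1 d.1) P)
      (qExpand ℂ N (MvPolynomial.aeval (fun d : N.divisors => ff34_JC d.1) P)) := by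
  induction P using MvPolynomial.induction_on with
  | C c =>
    rw [MvPolynomial.aeval_C, MvPolynomial.aeval_C, algebraMap_laurentSeries_eq_single,
      qExpand_single, mul_zero]
    exact hasWExp_const N c
  | add p q hp hq =>
    rw [map_add, map_add, map_add]
    exact hp.add hq
  | mul_X p i hp =>
    rw [map_mul, map_mul, map_mul, MvPolynomial.aeval_X, MvPolynomial.aeval_X]
    exact hp.mul (ff34_hasWExp_gen N i.1 (Nat.dvd_of_mem_divisors i.2))

/-- A polynomial relation with complex coefficients holds among the formal `j(q^d)`, `d ∣ N`, iff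
it holds among the analytic functions `τ ↦ j(dτ)`. -/
theorem ff34_rel_iff (N : ℕ) [NeZero N] (P : MvPolynomial N.divisors ℂ) :
    MvPolynomial.aeval (fun d : N.divisors => ff34_JC d.1) P = 0 ↔
      MvPolynomial.aeval (fun d : N.divisors => genFn 1 d.1) P = 0 := by
  have h := ff34_hasWExp_aeval N P
  rw [h.eq_zero_iff]
  constructor
  · intro h0
    rw [h0, map_zero]
  · intro h0
    apply qExpand_injective (R := ℂ) N
    rw [h0, map_zero]

theorem ff34_aeval_congr (N : ℕ) [NeZero N] {P Q : MvPolynomial N.divisors ℂ}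
    (h : MvPolynomial.aeval (fun d : N.divisors => ff34_JC d.1) P =
      MvPolynomial.aeval (fun d : N.divisors => ff34_JC d.1) Q) :
    MvPolynomial.aeval (fun d : N.divisors => genFn 1 d.1) P =
      MvPolynomial.aeval (fun d : N.divisors => genFn 1 d.1) Q := by
  have h1 : MvPolynomial.aeval (fun d : N.divisors => ff34_JC d.1) (P - Q) = 0 := by
    rw [map_sub, h, sub_self]
  have h2 := (ff34_rel_iff N (P - Q)).1 h1
  rw [map_sub] at h2
  exact sub_eq_zero.1 h2

/-! ### The formal ring -/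

/-- The formal ring `ℂ[j(q^d) : d ∣ N]` inside the Laurent series. Its fraction field inside
`ℂ((q))` is `modularFunctionFieldFullC ℂ N = IntermediateField.adjoin ℂ (divisorExpansionsC ℂ N)`. -/
noncomputable def ff34_ring (N : ℕ) : Subalgebra ℂ (LaurentSeries ℂ) :=
  Algebra.adjoin ℂ (divisorExpansionsC ℂ N)

theorem ff34_range_JC (N : ℕ) [NeZero N] :
    Set.range (fun d : N.divisors => ff34_JC d.1) = divisorExpansionsC ℂ N := by
  ext x
  constructor
  · rintro ⟨d, rfl⟩
    have hd0 : d.1 ≠ 0 := (Nat.pos_of_mem_divisors d.2).ne'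
    have : NeZero d.1 := ⟨hd0⟩
    exact ⟨d.1, ‹_›, Nat.dvd_of_mem_divisors d.2, ff34_JC_of_neZero d.1⟩
  · rintro ⟨d, hd0, hd, rfl⟩
    have := hd0
    exact ⟨⟨d, Nat.mem_divisors.2 ⟨hd, NeZero.ne N⟩⟩, ff34_JC_of_neZero d⟩

theorem ff34_ring_eq_range (N : ℕ) [NeZero N] :
    ff34_ring N = (MvPolynomial.aeval (fun d : N.divisors => ff34_JC d.1)).range := by
  rw [ff34_ring, ← ff34_range_JC N, Algebra.adjoin_range_eq_range_aeval]

theorem ff34_exists_poly (N : ℕ) [NeZero N] (x : ff34_ring N) :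
    ∃ P : MvPolynomial N.divisors ℂ,
      MvPolynomial.aeval (fun d : N.divisors => ff34_JC d.1) P = (x : LaurentSeries ℂ) := by
  have hx : (x : LaurentSeries ℂ) ∈
      (MvPolynomial.aeval (R := ℂ) (fun d : N.divisors => ff34_JC d.1)).range := by
    rw [← ff34_ring_eq_range]
    exact x.2
  exact hx

theorem ff34_aeval_mem (N : ℕ) [NeZero N] (P : MvPolynomial N.divisors ℂ) :
    MvPolynomial.aeval (fun d : N.divisors => ff34_JC d.1) P ∈ ff34_ring N := by
  rw [ff34_ring_eq_range]
  exact ⟨P, rfl⟩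

/-- A polynomial representing an element of the formal ring. -/
noncomputable def ff34_poly (N : ℕ) [NeZero N] (x : ff34_ring N) : MvPolynomial N.divisors ℂ :=
  Classical.choose (ff34_exists_poly N x)

theorem ff34_poly_spec (N : ℕ) [NeZero N] (x : ff34_ring N) :
    MvPolynomial.aeval (fun d : N.divisors => ff34_JC d.1) (ff34_poly N x) = (x : LaurentSeries ℂ) :=
  Classical.choose_spec (ff34_exists_poly N x)

/-! ### The evaluation map -/

/-- The value of the evaluation map: the analytic function attached to an element of the formal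
ring. -/
noncomputable def ff34_ev0Fun (N : ℕ) [NeZero N] (x : ff34_ring N) : ℍ → ℂ :=
  MvPolynomial.aeval (fun d : N.divisors => genFn 1 d.1) (ff34_poly N x)

theorem ff34_ev0Fun_eq (N : ℕ) [NeZero N] (x : ff34_ring N) (P : MvPolynomial N.divisors ℂ)
    (hP : MvPolynomial.aeval (fun d : N.divisors => ff34_JC d.1) P = (x : LaurentSeries ℂ)) :
    ff34_ev0Fun N x = MvPolynomial.aeval (fun d : N.divisors => genFn 1 d.1) P :=
  ff34_aeval_congr N ((ff34_poly_spec N x).trans hP.symm)

/-- **The evaluation map** from the formal ring `ℂ[j(q^d) : d ∣ N]` to functions on `ℍ`. -/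
noncomputable def ff34_ev0 (N : ℕ) [NeZero N] : ff34_ring N →ₐ[ℂ] (ℍ → ℂ) where
  toFun := ff34_ev0Fun N
  map_one' := by
    rw [ff34_ev0Fun_eq N 1 1 (by rw [map_one]; rfl), map_one]
  map_mul' x y := by
    rw [ff34_ev0Fun_eq N (x * y) (ff34_poly N x * ff34_poly N y)
      (by rw [map_mul, ff34_poly_spec, ff34_poly_spec]; rfl), map_mul]
    rfl
  map_zero' := by
    rw [ff34_ev0Fun_eq N 0 0 (by rw [map_zero]; rfl), map_zero]
  map_add' x y := by
    rw [ff34_ev0Fun_eq N (x + y) (ff34_poly N x + ff34_poly N y)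
      (by rw [map_add, ff34_poly_spec, ff34_poly_spec]; rfl), map_add]
    rfl
  commutes' c := by
    rw [ff34_ev0Fun_eq N (algebraMap ℂ (ff34_ring N) c) (MvPolynomial.C c)
      (by rw [MvPolynomial.aeval_C]; rfl), MvPolynomial.aeval_C]

theorem ff34_ev0_apply (N : ℕ) [NeZero N] (x : ff34_ring N) : ff34_ev0 N x = ff34_ev0Fun N x := rfl

/-- The evaluation of a polynomial in the formal generators. -/
theorem ff34_ev0_aeval (N : ℕ) [NeZero N] (P : MvPolynomial N.divisors ℂ) :
    ff34_ev0 N ⟨MvPolynomial.aeval (fun d : N.divisors => ff34_JC d.1) P, ff34_aeval_mem N P⟩ =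
      MvPolynomial.aeval (fun d : N.divisors => genFn 1 d.1) P :=
  ff34_ev0Fun_eq N _ P rfl

/-- Every element `x` of the formal ring is the expansion in `w = e^{2πiτ/N}` of its analytic
function `ff34_ev0 N x` (as the series `x(w^N)`). -/
theorem ff34_ev0_hasWExp (N : ℕ) [NeZero N] (x : ff34_ring N) :
    HasWExp N (ff34_ev0 N x) (qExpand ℂ N (x : LaurentSeries ℂ)) := by
  have h := ff34_hasWExp_aeval N (ff34_poly N x)
  rwa [ff34_poly_spec] at h

/-- The analytic functions in the image are holomorphic on `ℍ`. -/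
theorem ff34_ev0_mdiff (N : ℕ) [NeZero N] (x : ff34_ring N) : MDiff (ff34_ev0 N x) :=
  (ff34_ev0_hasWExp N x).mdiff

theorem ff34_ev0_eq_zero_iff (N : ℕ) [NeZero N] (x : ff34_ring N) : ff34_ev0 N x = 0 ↔ x = 0 := by
  rw [(ff34_ev0_hasWExp N x).eq_zero_iff]
  constructor
  · intro h
    apply Subtype.ext
    apply qExpand_injective (R := ℂ) N
    show qExpand ℂ N (x : LaurentSeries ℂ) = qExpand ℂ N 0
    rw [h, map_zero]
  · rintro rfl
    exact map_zero _

/-- The evaluation map is injective. -/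
theorem ff34_ev0_injective (N : ℕ) [NeZero N] : Function.Injective (ff34_ev0 N) :=
  (injective_iff_map_eq_zero _).2 fun x hx => (ff34_ev0_eq_zero_iff N x).1 hx

/-! ### The generators -/

theorem ff34_jd_mem (N : ℕ) {d : ℕ} [NeZero d] (hd : d ∣ N) :
    qExpand ℂ d (jqModC ℂ) ∈ ff34_ring N :=
  Algebra.subset_adjoin (mem_divisorExpansionsC ℂ N hd)

theorem ff34_j_mem (N : ℕ) : jqModC ℂ ∈ ff34_ring N := by
  have h := ff34_jd_mem N (d := 1) (one_dvd N)
  rwa [qExpand_one_apply] at h

/-- `ev(j(q^d)) = (τ ↦ j(dτ))`. -/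
theorem ff34_ev0_jd (N : ℕ) [NeZero N] {d : ℕ} [NeZero d] (hd : d ∣ N) :
    ff34_ev0 N ⟨qExpand ℂ d (jqModC ℂ), ff34_jd_mem N hd⟩ = genFn 1 d := by
  rw [ff34_ev0_apply, ff34_ev0Fun_eq N _
    (MvPolynomial.X (⟨d, Nat.mem_divisors.2 ⟨hd, NeZero.ne N⟩⟩ : N.divisors))
    (by rw [MvPolynomial.aeval_X]; exact ff34_JC_of_neZero d), MvPolynomial.aeval_X]

theorem ff34_genFn_one_apply (d : ℕ) (τ : ℍ) : genFn 1 d τ = kleinJ (scaleH d τ) := by
  rw [genFn_apply, inv_one, one_smul]

theorem ff34_ev0_jd_apply (N : ℕ) [NeZero N] {d : ℕ} [NeZero d] (hd : d ∣ N) (τ : ℍ) :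
    ff34_ev0 N ⟨qExpand ℂ d (jqModC ℂ), ff34_jd_mem N hd⟩ τ = kleinJ (scaleH d τ) := by
  rw [ff34_ev0_jd N hd, ff34_genFn_one_apply]

/-- `ev(j(q)) = j`. -/
theorem ff34_ev0_j (N : ℕ) [NeZero N] : ff34_ev0 N ⟨jqModC ℂ, ff34_j_mem N⟩ = kleinJ := by
  have h := ff34_ev0_jd N (d := 1) (one_dvd N)
  rw [wpA4c_genFn_one_one] at h
  rw [← h]
  congr 1
  apply Subtype.ext
  exact (qExpand_one_apply _).symm

/-! ### Invariance under `Γ₀(N)` -/

theorem ff34_actFn_aeval (N : ℕ) [NeZero N] (g : SL(2, ℤ)) (hg : g ∈ CongruenceSubgroup.Gamma0 N)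
    (P : MvPolynomial N.divisors ℂ) :
    actFn g (MvPolynomial.aeval (fun d : N.divisors => genFn 1 d.1) P) =
      MvPolynomial.aeval (fun d : N.divisors => genFn 1 d.1) P := by
  induction P using MvPolynomial.induction_on with
  | C c =>
    rw [MvPolynomial.aeval_C]
    rfl
  | add p q hp hq =>
    rw [map_add]
    funext τ
    have e1 := congrFun hp τ
    have e2 := congrFun hq τ
    simp only [actFn_apply, Pi.add_apply] at e1 e2 ⊢
    rw [e1, e2]
  | mul_X p i hp =>
    rw [map_mul, MvPolynomial.aeval_X]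
    funext τ
    have e1 := congrFun hp τ
    have e2 := congrFun (wpA5b_actFn_genFn_one N i.1 (Nat.dvd_of_mem_divisors i.2) g hg) τ
    simp only [actFn_apply, Pi.mul_apply] at e1 e2 ⊢
    rw [e1, e2]

/-- The image of the evaluation map consists of `Γ₀(N)`-invariant functions (`actFn` form). -/
theorem ff34_ev0_actFn (N : ℕ) [NeZero N] (g : SL(2, ℤ)) (hg : g ∈ CongruenceSubgroup.Gamma0 N)
    (x : ff34_ring N) : actFn g (ff34_ev0 N x) = ff34_ev0 N x :=
  ff34_actFn_aeval N g hg (ff34_poly N x)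

/-- The image of the evaluation map consists of `Γ₀(N)`-invariant functions (pointwise form). -/
theorem ff34_ev0_smul (N : ℕ) [NeZero N] (g : SL(2, ℤ)) (hg : g ∈ CongruenceSubgroup.Gamma0 N)
    (x : ff34_ring N) (τ : ℍ) : ff34_ev0 N x (g • τ) = ff34_ev0 N x τ := by
  have h := congrFun (ff34_ev0_actFn N g⁻¹ (inv_mem hg) x) τ
  rwa [actFn_apply, inv_inv] at h

end Fermat.Agent.S42
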