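import Fermat.Agent.S42.FunFieldMer34
import Fermat.Agent.S42.FunFieldMer79

/-!
Project S42, row M2: the two constructions of `ev : F_ℂ(N) → MER` on main are THE SAME MAP
(helper34). `ff34_evB N = ff79_evMer N`, hence every statement about one transfers to the other:
in particular the q-expansion statements of `FunField34` (`ff34_ev0_hasWExp`, `ff34_exists_div`)
hold for `ff79_evMer`, and the level maps of `FunFieldMer79`/`FunFieldBar79` hold for `ff34_evB`.
-/

set_option autoImplicit false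

open ModularCurve AlgebraicCurve MatrixGroups UpperHalfPlane ModularForm EisensteinSeries
open Fermat.Agent.S24

open scoped Manifold

namespace Fermat.Agent.S42

theorem ff34_JC_eq_ff79 (d : ℕ) : ff34_JC d = ff79_JJ ℂ d := by
  by_cases hd : d = 0
  · subst hd
    simp [ff34_JC, ff79_JJ]
  · have : NeZero d := ⟨hd⟩
    rw [ff34_JC_eq_coeffEmb, ff79_JJ_of_neZero]

theorem ff34_jdO_eq_ff79 (d : ℕ) : ff34_jdO d = ff79_jO d := rfl

/-- **The two evaluation maps agree.** -/
theorem ff34_evB_eq_ff79 (N : ℕ) [NeZero N] : ff34_evB N = ff79_evMer N := by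
  apply ff79_evMer_unique
  intro d hd
  have hd0 : d ≠ 0 := fun h => NeZero.ne N (by simpa [h] using hd)
  have : NeZero d := ⟨hd0⟩
  rw [ff34_evB_apply, ← ff34_jdO_eq_ff79, ← ff34_ev_jd N hd]
  congr 1
  apply Subtype.ext
  show ff79_JJ ℂ d = qExpand ℂ d (jqModC ℂ)
  rw [← ff34_JC_eq_ff79, ff34_JC_of_neZero]

theorem ff34_evB_eq_ff79_apply (N : ℕ) [NeZero N]
    (f : ↥(laurentBaseChange ℂ (modularFunctionFieldFull N))) :
    ff79_evMer N f = ff34_ev N ⟨f.1, le_of_eq (ff34_baseChange_eq N) f.2⟩ := by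
  rw [← ff34_evB_eq_ff79, ff34_evB_apply]

/-- Every element of `F_ℂ(N)` is a quotient `a / b` of two elements of the formal ring
`ℂ[j(q^d) : d ∣ N]`, and `ff79_evMer N f` is the quotient of the holomorphic functions
`ff34_ev0 N a`, `ff34_ev0 N b`, whose expansions at `i∞` are `a`, `b` (`ff34_ev0_hasWExp`). -/
theorem ff34_ff79_exists_div (N : ℕ) [NeZero N]
    (f : ↥(laurentBaseChange ℂ (modularFunctionFieldFull N))) :
    ∃ a b : ff34_ring N, b ≠ 0 ∧ (f : LaurentSeries ℂ) = (a : LaurentSeries ℂ) / (b : LaurentSeries ℂ) ∧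
      ff79_evMer N f = algebraMap mer95_O mer95_MER (ff34_evO N a) /
        algebraMap mer95_O mer95_MER (ff34_evO N b) := by
  obtain ⟨a, b, hb, h1, h2⟩ := ff34_exists_div N ⟨f.1, le_of_eq (ff34_baseChange_eq N) f.2⟩
  exact ⟨a, b, hb, h1, by rw [ff34_evB_eq_ff79_apply, h2]⟩

end Fermat.Agent.S42
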