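import Fermat.Agent.S42.FunField34
import Fermat.Agent.S42.Mer95
import Fermat.Agent.S18.CoeffGlue36

/-!
Project S42, row M2 (the function field inside the meromorphic functions), STAGE 2 (helper34).

`ff34_ev N : ↥(modularFunctionFieldFullC ℂ N) →ₐ[ℂ] mer95_MER` : **the** embedding of the function
field `F_ℂ(N) = ℂ(j(q^d) : d ∣ N) ⊆ ℂ((q))` into the field of meromorphic functions on the upper
half plane (M0, `Mer95.lean`), the fraction-field extension of `ff34_ev0` (stage 1).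

* `ff34_ev_ring` : on the ring `ℂ[j(q^d) : d ∣ N]` it is `ff34_evO` followed by `O → MER`;
* `ff34_ev_j`, `ff34_ev_jd`, `ff34_ev_jd_smul` : `ev(j(q)) = j`, `ev(j(q^d)) = (τ ↦ j(dτ))
  = diag(d,1)⁻¹ • j`;
* `ff34_ev_smul` : the image is fixed by `Γ₀(N)`;
* `ff34_ev_div`, `ff34_exists_div` : every element is a quotient of ring elements;
* `ff34_evB` : the same map on `laurentBaseChange ℂ (modularFunctionFieldFull N)`.
-/

set_option autoImplicit false

open ModularCurve AlgebraicCurve MatrixGroups UpperHalfPlane ModularForm EisensteinSeries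
open Fermat.Agent.S24 Fermat.Agent.S18

open scoped Manifold

namespace Fermat.Agent.S42

/-! ### Values in `O` -/

/-- The evaluation map on the formal ring, with values in the ring `O` of holomorphic functions. -/
noncomputable def ff34_evO (N : ℕ) [NeZero N] : ff34_ring N →ₐ[ℂ] mer95_O :=
  (ff34_ev0 N).codRestrict mer95_O (fun x => ff34_ev0_mdiff N x)

theorem ff34_evO_coe (N : ℕ) [NeZero N] (x : ff34_ring N) :
    ((ff34_evO N x : mer95_O) : ℍ → ℂ) = ff34_ev0 N x := rfl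

theorem ff34_evO_apply (N : ℕ) [NeZero N] (x : ff34_ring N) (τ : ℍ) :
    (ff34_evO N x).1 τ = ff34_ev0 N x τ := rfl

theorem ff34_evO_injective (N : ℕ) [NeZero N] : Function.Injective (ff34_evO N) := by
  intro x y h
  apply ff34_ev0_injective N
  exact congrArg Subtype.val h

/-- `Γ₀(N)` fixes the image in `O`. -/
theorem ff34_evO_smul (N : ℕ) [NeZero N] (g : SL(2, ℤ)) (hg : g ∈ CongruenceSubgroup.Gamma0 N)
    (x : ff34_ring N) : g • ff34_evO N x = ff34_evO N x := by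
  apply Subtype.ext
  funext τ
  rw [mer95_smul_apply_SL]
  exact ff34_ev0_smul N g⁻¹ (inv_mem hg) x τ

/-- The analytic `j` as an element of `O`. -/
noncomputable def ff34_jO : mer95_O := mer95_mk kleinJ wpA5_kleinJ_mdiff

/-- The function `τ ↦ j(dτ)` as an element of `O`. -/
noncomputable def ff34_jdO (d : ℕ) : mer95_O := mer95_mk (genFn 1 d) (wpA5_genFn_mdiff 1 d)

theorem ff34_jO_apply (τ : ℍ) : ff34_jO.1 τ = kleinJ τ := rfl

theorem ff34_jdO_apply (d : ℕ) (τ : ℍ) : (ff34_jdO d).1 τ = kleinJ (scaleH d τ) :=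
  ff34_genFn_one_apply d τ

theorem ff34_evO_j (N : ℕ) [NeZero N] : ff34_evO N ⟨jqModC ℂ, ff34_j_mem N⟩ = ff34_jO :=
  Subtype.ext (ff34_ev0_j N)

theorem ff34_evO_jd (N : ℕ) [NeZero N] {d : ℕ} [NeZero d] (hd : d ∣ N) :
    ff34_evO N ⟨qExpand ℂ d (jqModC ℂ), ff34_jd_mem N hd⟩ = ff34_jdO d :=
  Subtype.ext (ff34_ev0_jd N hd)

/-! ### Values in `MER`, on the ring -/

/-- The evaluation map on the formal ring, with values in `MER`. -/
noncomputable def ff34_evR (N : ℕ) [NeZero N] : ff34_ring N →ₐ[ℂ] mer95_MER :=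
  (IsScalarTower.toAlgHom ℂ mer95_O mer95_MER).comp (ff34_evO N)

theorem ff34_evR_apply (N : ℕ) [NeZero N] (x : ff34_ring N) :
    ff34_evR N x = algebraMap mer95_O mer95_MER (ff34_evO N x) := rfl

theorem ff34_evR_injective (N : ℕ) [NeZero N] : Function.Injective (ff34_evR N) :=
  mer95_algebraMap_injective.comp (ff34_evO_injective N)

/-! ### The function field -/

theorem ff34_ring_le (N : ℕ) :
    ff34_ring N ≤ (modularFunctionFieldFullC ℂ N).toSubalgebra :=
  IntermediateField.algebra_adjoin_le_adjoin ℂ _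

open scoped IntermediateField.algebraAdjoinAdjoin in
/-- **The evaluation map** `F_ℂ(N) → MER`: the embedding of the function field of `X₀(N)` over `ℂ`
(as a field of formal Laurent series) into the field of meromorphic functions on `ℍ`. -/
noncomputable def ff34_ev (N : ℕ) [NeZero N] : ↥(modularFunctionFieldFullC ℂ N) →ₐ[ℂ] mer95_MER :=
  IsFractionRing.liftAlgHom (R := ℂ) (A := ↥(Algebra.adjoin ℂ (divisorExpansionsC ℂ N)))
    (K := ↥(IntermediateField.adjoin ℂ (divisorExpansionsC ℂ N))) (L := mer95_MER)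
    (g := ff34_evR N) (ff34_evR_injective N)

open scoped IntermediateField.algebraAdjoinAdjoin in
/-- On the formal ring, `ff34_ev` is `ff34_evO` followed by `O → MER`. -/
theorem ff34_ev_ring (N : ℕ) [NeZero N] (x : ff34_ring N) :
    ff34_ev N ⟨x.1, ff34_ring_le N x.2⟩ = algebraMap mer95_O mer95_MER (ff34_evO N x) :=
  IsFractionRing.lift_algebraMap (A := ↥(Algebra.adjoin ℂ (divisorExpansionsC ℂ N)))
    (K := ↥(IntermediateField.adjoin ℂ (divisorExpansionsC ℂ N))) (L := mer95_MER)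
    (g := (ff34_evR N : ff34_ring N →+* mer95_MER)) (ff34_evR_injective N) x

theorem ff34_ev_ring' (N : ℕ) [NeZero N] {x : LaurentSeries ℂ} (hx : x ∈ ff34_ring N)
    (hx' : x ∈ modularFunctionFieldFullC ℂ N) :
    ff34_ev N ⟨x, hx'⟩ = algebraMap mer95_O mer95_MER (ff34_evO N ⟨x, hx⟩) :=
  ff34_ev_ring N ⟨x, hx⟩

theorem ff34_ev_injective (N : ℕ) [NeZero N] : Function.Injective (ff34_ev N) :=
  (ff34_ev N).toRingHom.injective

/-- `ev(j(q)) = j`. -/
theorem ff34_ev_j (N : ℕ) [NeZero N] :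
    ff34_ev N ⟨jqModC ℂ, jqModC_mem_full ℂ N⟩ = algebraMap mer95_O mer95_MER ff34_jO := by
  rw [ff34_ev_ring' N (ff34_j_mem N), ff34_evO_j]

/-- `ev(j(q^d)) = (τ ↦ j(dτ))`. -/
theorem ff34_ev_jd (N : ℕ) [NeZero N] {d : ℕ} [NeZero d] (hd : d ∣ N) :
    ff34_ev N ⟨qExpand ℂ d (jqModC ℂ), jqModCd_mem_full ℂ N hd⟩ =
      algebraMap mer95_O mer95_MER (ff34_jdO d) := by
  rw [ff34_ev_ring' N (ff34_jd_mem N hd), ff34_evO_jd N hd]

/-! ### Quotients -/

open scoped IntermediateField.algebraAdjoinAdjoin in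
/-- Every element of the function field is a quotient of two elements of the formal ring. -/
theorem ff34_exists_div (N : ℕ) [NeZero N] (f : ↥(modularFunctionFieldFullC ℂ N)) :
    ∃ a b : ff34_ring N, b ≠ 0 ∧ (f : LaurentSeries ℂ) = (a : LaurentSeries ℂ) / (b : LaurentSeries ℂ) ∧
      ff34_ev N f = algebraMap mer95_O mer95_MER (ff34_evO N a) /
        algebraMap mer95_O mer95_MER (ff34_evO N b) := by
  obtain ⟨a0, b0, hb, hab⟩ := IsFractionRing.div_surjective
    (↥(Algebra.adjoin ℂ (divisorExpansionsC ℂ N)))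
    (K := ↥(IntermediateField.adjoin ℂ (divisorExpansionsC ℂ N))) f
  obtain ⟨a, ha⟩ : ∃ a : ff34_ring N, a = a0 := ⟨a0, rfl⟩
  obtain ⟨b, hb'⟩ : ∃ b : ff34_ring N, b = b0 := ⟨b0, rfl⟩
  subst ha hb'
  refine ⟨a, b, nonZeroDivisors.ne_zero hb, ?_, ?_⟩
  · rw [← hab]
    rfl
  · have h1 : f = (⟨a.1, ff34_ring_le N a.2⟩ : ↥(modularFunctionFieldFullC ℂ N)) /
        ⟨b.1, ff34_ring_le N b.2⟩ := hab.symm
    rw [h1, map_div₀, ff34_ev_ring, ff34_ev_ring]

/-! ### Invariance under `Γ₀(N)` -/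

/-- **The image of `ev` is fixed by `Γ₀(N)`** (for the `SL(2, ℤ)`-action `(g • f) τ = f (g⁻¹ τ)` on
`MER`). -/
theorem ff34_ev_smul (N : ℕ) [NeZero N] (g : SL(2, ℤ)) (hg : g ∈ CongruenceSubgroup.Gamma0 N)
    (f : ↥(modularFunctionFieldFullC ℂ N)) : g • ff34_ev N f = ff34_ev N f := by
  obtain ⟨a, b, -, -, hab⟩ := ff34_exists_div N f
  have key : ∀ x y : mer95_MER, g • (x / y) = g • x / g • y := fun x y =>
    map_div₀ (MulSemiringAction.toRingHom SL(2, ℤ) mer95_MER g) x y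
  rw [hab, key, mer95_smul_algebraMap_SL, mer95_smul_algebraMap_SL, ff34_evO_smul N g hg,
    ff34_evO_smul N g hg]

/-! ### `τ ↦ j(dτ)` as a translate of `j` -/

/-- The matrix `diag(d, 1)`. -/
def ff34_diag (d : ℕ) : Matrix (Fin 2) (Fin 2) ℤ := !![(d : ℤ), 0; 0, 1]

theorem ff34_diag_det_pos (d : ℕ) [NeZero d] : 0 < (ff34_diag d).det := by
  rw [ff34_diag, Matrix.det_fin_two_of]
  have : 0 < d := Nat.pos_of_ne_zero (NeZero.ne d)
  simpa using this

/-- `diag(d,1) • τ = d τ`. -/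
theorem ff34_diag_smul (d : ℕ) [NeZero d] (τ : ℍ) :
    mer95_gl (ff34_diag d) (ff34_diag_det_pos d) • τ = scaleH d τ := by
  apply UpperHalfPlane.ext
  rw [mer95_gl_smul_coe, coe_scaleH d (NeZero.ne d)]
  simp [ff34_diag]

/-- `(τ ↦ j(dτ)) = diag(d,1)⁻¹ • j` in `O`. -/
theorem ff34_jdO_eq_smul (d : ℕ) [NeZero d] :
    ff34_jdO d = (mer95_gl (ff34_diag d) (ff34_diag_det_pos d))⁻¹ • ff34_jO := by
  apply Subtype.ext
  funext τ
  rw [mer95_smul_apply, inv_inv, ff34_diag_smul, ff34_jdO_apply, ff34_jO_apply]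

/-- `ev(j(q^d)) = diag(d,1)⁻¹ • ev(j(q))` in `MER`. -/
theorem ff34_ev_jd_smul (N : ℕ) [NeZero N] {d : ℕ} [NeZero d] (hd : d ∣ N) :
    ff34_ev N ⟨qExpand ℂ d (jqModC ℂ), jqModCd_mem_full ℂ N hd⟩ =
      (mer95_gl (ff34_diag d) (ff34_diag_det_pos d))⁻¹ •
        ff34_ev N ⟨jqModC ℂ, jqModC_mem_full ℂ N⟩ := by
  rw [ff34_ev_jd N hd, ff34_ev_j, mer95_smul_algebraMap, ff34_jdO_eq_smul]

/-! ### The order at a point, on the ring -/

theorem ff34_ord_ev_ring (N : ℕ) [NeZero N] (x : ff34_ring N) (τ : ℍ) :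
    mer95_ord τ (ff34_ev N ⟨x.1, ff34_ring_le N x.2⟩) =
      ((analyticOrderAt (ff34_ev0 N x ∘ ofComplex) (τ : ℂ)).toNat : ℤ) := by
  rw [ff34_ev_ring, mer95_ord_algebraMap]
  rfl

/-! ### The same map on `laurentBaseChange ℂ (modularFunctionFieldFull N)` -/

theorem ff34_baseChange_eq (N : ℕ) :
    laurentBaseChange ℂ (modularFunctionFieldFull N) = modularFunctionFieldFullC ℂ N :=
  cg36_baseChange_eq_fullC ℂ N

/-- The evaluation map on the Prelude's base change `laurentBaseChange ℂ (modularFunctionFieldFull N)`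
(the same field as `modularFunctionFieldFullC ℂ N`, see `ff34_baseChange_eq`). -/
noncomputable def ff34_evB (N : ℕ) [NeZero N] :
    ↥(laurentBaseChange ℂ (modularFunctionFieldFull N)) →ₐ[ℂ] mer95_MER :=
  (ff34_ev N).comp (IntermediateField.inclusion (le_of_eq (ff34_baseChange_eq N)))

theorem ff34_evB_apply (N : ℕ) [NeZero N] (f : ↥(laurentBaseChange ℂ (modularFunctionFieldFull N))) :
    ff34_evB N f = ff34_ev N ⟨f.1, le_of_eq (ff34_baseChange_eq N) f.2⟩ := by
  rw [ff34_evB, AlgHom.comp_apply]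
  rfl

theorem ff34_evB_smul (N : ℕ) [NeZero N] (g : SL(2, ℤ)) (hg : g ∈ CongruenceSubgroup.Gamma0 N)
    (f : ↥(laurentBaseChange ℂ (modularFunctionFieldFull N))) : g • ff34_evB N f = ff34_evB N f :=
  ff34_ev_smul N g hg _

theorem ff34_evB_injective (N : ℕ) [NeZero N] : Function.Injective (ff34_evB N) :=
  (ff34_evB N).toRingHom.injective

end Fermat.Agent.S42
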