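import Fermat.Agent.S42.FunFieldBar79
import Fermat.Agent.S42.FunFieldMer34
import Fermat.Agent.S42.LaurentDeriv80

/-!
S42 / Project 4, seam (G-inv), complements (helper79):

* `ff79_evMer_stab`, `ff79_ev0_stab` : an element of `SL(2,ℤ)` fixing the image of `ev` (resp.
  `ev0`) of level `N` lies in `Γ₀(N)` (the hypothesis `hstab` of the relative norm formula);
* `ff79_evMer_eq_ff34` : the two constructions of `ev` on the Prelude's `F_ℂ(N)` coincide
  (`ff34_evB N = ff79_evMer N`); `ff79_ff34_ev` : `ff34_ev` on `modularFunctionFieldFullC ℂ N`;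
* `ff79_toFullC`, the identification of the Prelude's base change
  `laurentBaseChange L (modularFunctionFieldFull N)` with `modularFunctionFieldFullC L N`, and its
  compatibility with the two base-change maps (`ff79_bc` and `ld80_iota`) and with `ev0`.
-/

set_option autoImplicit false

open ModularCurve AlgebraicCurve MatrixGroups UpperHalfPlane
open Fermat.Agent.S24 Fermat.Agent.S18

namespace Fermat.Agent.S42

/-! ### The stabiliser of the image -/

theorem ff79_smul_jO_stab (N : ℕ) [NeZero N] (g : SL(2, ℤ)) (h : g • ff79_jO N = ff79_jO N) :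
    g ∈ CongruenceSubgroup.Gamma0 N := by
  apply wpA4_stab N g
  funext τ
  have h1 := congrArg (fun f : mer95_O => f.1 τ) h
  simp only [mer95_smul_apply_SL] at h1
  exact h1

/-- An element of `SL(2,ℤ)` fixing `ev (j(q^N))` lies in `Γ₀(N)`. -/
theorem ff79_evMer_stab (N : ℕ) [NeZero N] (g : SL(2, ℤ))
    (h : ∀ y : ↥(laurentBaseChange ℂ (modularFunctionFieldFull N)),
      g • ff79_evMer N y = ff79_evMer N y) : g ∈ CongruenceSubgroup.Gamma0 N := by
  apply ff79_smul_jO_stab N g
  have h1 := h ⟨ff79_JJ ℂ N, ff79_JJ_mem ℂ N N dvd_rfl⟩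
  rw [ff79_evMer_gen N N dvd_rfl, mer95_smul_algebraMap_SL] at h1
  exact mer95_algebraMap_injective h1

/-- An element of `SL(2,ℤ)` fixing the image of `ev0` lies in `Γ₀(N)`. -/
theorem ff79_ev0_stab (φ : AlgebraicClosure ℚ →+* ℂ) (N : ℕ) [NeZero N] (g : SL(2, ℤ))
    (h : ∀ y : ↥(modularFunctionFieldBar N), g • ff79_ev0 φ N y = ff79_ev0 φ N y) :
    g ∈ CongruenceSubgroup.Gamma0 N := by
  apply ff79_smul_jO_stab N g
  have h1 := h ⟨ff79_JJ (AlgebraicClosure ℚ) N, ff79_JJ_mem (AlgebraicClosure ℚ) N N dvd_rfl⟩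
  rw [ff79_ev0_gen φ N N dvd_rfl, mer95_smul_algebraMap_SL] at h1
  exact mer95_algebraMap_injective h1

/-! ### The two constructions of `ev` agree -/

theorem ff79_JJ_eq_qExpand (d : ℕ) [NeZero d] : ff79_JJ ℂ d = qExpand ℂ d (jqModC ℂ) := by
  rw [ff79_JJ_of_neZero, ← ff34_JC_eq_coeffEmb, ff34_JC_of_neZero]

/-- `ff34_evB N = ff79_evMer N`. -/
theorem ff79_evMer_eq_ff34 (N : ℕ) [NeZero N] : ff34_evB N = ff79_evMer N := by
  apply ff79_evMer_unique
  intro d hd
  have hd0 : d ≠ 0 := fun h => NeZero.ne N (by simpa [h] using hd)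
  have : NeZero d := ⟨hd0⟩
  rw [ff34_evB_apply]
  have h1 : (⟨ff79_JJ ℂ d, le_of_eq (ff34_baseChange_eq N) (ff79_JJ_mem ℂ N d hd)⟩ :
      ↥(modularFunctionFieldFullC ℂ N)) =
      ⟨qExpand ℂ d (jqModC ℂ), jqModCd_mem_full ℂ N hd⟩ :=
    Subtype.ext (ff79_JJ_eq_qExpand d)
  rw [h1, ff34_ev_jd N hd]
  rfl

/-! ### The Prelude's base change and `modularFunctionFieldFullC` -/

section FullC

variable (L : Type*) [Field L] [Algebra ℚ L] (N : ℕ)

/-- The identification of the Prelude's base change `laurentBaseChange L (modularFunctionFieldFull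
N)` with `modularFunctionFieldFullC L N` (the same subfield of `L((q))`). -/
noncomputable def ff79_toFullC :
    ↥(laurentBaseChange L (modularFunctionFieldFull N)) ≃ₐ[L] ↥(modularFunctionFieldFullC L N) where
  toFun x := ⟨x.1, le_of_eq (cg36_baseChange_eq_fullC L N) x.2⟩
  invFun x := ⟨x.1, ge_of_eq (cg36_baseChange_eq_fullC L N) x.2⟩
  left_inv _ := rfl
  right_inv _ := rfl
  map_mul' _ _ := rfl
  map_add' _ _ := rfl
  commutes' _ := rfl

/-- Generic helper (keeps the kernel from comparing the two membership predicates). -/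
theorem ff79_val_mk {α : Type*} {P Q : α → Prop} (hPQ : ∀ y, P y → Q y) (x : Subtype P) :
    ((⟨x.1, hPQ _ x.2⟩ : Subtype Q) : α) = (x : α) := rfl

@[simp]
theorem ff79_toFullC_coe (x : ↥(laurentBaseChange L (modularFunctionFieldFull N))) :
    ((ff79_toFullC L N x : ↥(modularFunctionFieldFullC L N)) : LaurentSeries L) =
      (x : LaurentSeries L) :=
  ff79_val_mk (fun _ h => le_of_eq (cg36_baseChange_eq_fullC L N) h) x

@[simp]
theorem ff79_toFullC_symm_coe (x : ↥(modularFunctionFieldFullC L N)) :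
    (((ff79_toFullC L N).symm x : ↥(laurentBaseChange L (modularFunctionFieldFull N))) :
      LaurentSeries L) = (x : LaurentSeries L) :=
  ff79_val_mk (fun _ h => ge_of_eq (cg36_baseChange_eq_fullC L N) h) x

end FullC

/-- The two base-change maps (`ld80_iota` on `modularFunctionFieldFullC`, `ff79_bc` on the
Prelude's base change) correspond. -/
theorem ff79_toFullC_bc {L L' : Type*} [Field L] [Algebra ℚ L] [Field L'] [Algebra ℚ L']
    (φ : L →+* L') (N : ℕ) (x : ↥(laurentBaseChange L (modularFunctionFieldFull N))) :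
    ld80_iota φ N (ff79_toFullC L N x) = ff79_toFullC L' N (ff79_bc φ N x) :=
  Subtype.ext rfl

/-- `ff34_ev` on `modularFunctionFieldFullC ℂ N` is `ff79_evMer` on the Prelude's base change. -/
theorem ff79_ff34_ev (N : ℕ) [NeZero N] (x : ↥(laurentBaseChange ℂ (modularFunctionFieldFull N))) :
    ff34_ev N (ff79_toFullC ℂ N x) = ff79_evMer N x := by
  rw [← ff79_evMer_eq_ff34, ff34_evB_apply]
  rfl

/-- **`ev0` in the vocabulary of the descent block**: for `g` in the `ℚ̄`-function field (as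
`modularFunctionFieldFullC ℚ̄ N`), `ff34_ev (ld80_iota φ N g) = ff79_ev0 φ N g`. -/
theorem ff79_ev0_eq_ev_iota (φ : AlgebraicClosure ℚ →+* ℂ) (N : ℕ) [NeZero N]
    (g : ↥(modularFunctionFieldBar N)) :
    ff34_ev N (ld80_iota φ N (ff79_toFullC (AlgebraicClosure ℚ) N g)) = ff79_ev0 φ N g := by
  rw [ff79_toFullC_bc, ff79_ff34_ev]
  rfl

end Fermat.Agent.S42
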