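import Mathlib
import Fermat.Agent.S42.DescPow3
import Fermat.Agent.S42.ThetaAbs70
import Fermat.Agent.S42.GaloisInst41

/-!
# S42, seam (G-K2p) of Ruling 2 R3 (twin seat helper87)

Glue: **(K2) over the big constant field + `ev` injective + T3 (powers descend) ⟹ `hK2`** of
`th70_exists_theta` for the composite evaluation `ev0 = evC ∘ ι`.

Setting: `ds3_Data k0 K F0 F` (helper3; `ι : F0 → F` the base change of functions, in the
application `k0 = ℚ̄`, `K = ℂ`), `evC : F →+* M` (in the application `M = mer95_MER`), a group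
`Gam` acting on `M`.

* `gk87_root_poly` : a `p`-th root of an element of `evC F` is a root of a nonzero polynomial
  over `F` (through `evC`);
* `gk87_hK2` : from (K2) over `K` in the exact output shape of `gi41_K2_top` / `gc6ev_L1_sub`
  (`Gam`-invariant + root of a nonzero polynomial over `F` ⟹ in `evC F`), the hypothesis `hK2` of
  `th70_exists_theta` for `ev := evC.comp S.ι`, LITERALLY;
* `gk87_K2C_sub` : the subgroup form (`Γ ≤ G`, action of `↥Γ` inherited from `G`) of (K2) from the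
  `ρ`-form with `ρ = MulSemiringAction.toRingAut G M`;
* `gk87_hK2_gi41` : `hK2` directly from the five hypotheses of `gi41_K2_top` (absolute case over
  `K0`, e.g. `K0 = ℂ(j)`, `G = SL(2,ℤ)`, `Γ = Γ₀(N)`);
* `gk87_exists_theta` : referee statement: `th70_exists_theta` with `hK2` discharged this way.

All names are prefixed `gk87_`.
-/

set_option autoImplicit false
set_option linter.unusedSectionVars false
set_option linter.unusedVariables false
set_option linter.style.longLine false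

open AlgebraicCurve Polynomial

namespace Fermat.Agent.S42

section gk87

variable {k0 K F0 F M : Type*} [Field k0] [Field K] [Field F0] [Field F]
  [Algebra k0 F0] [Algebra K F] [Field M]

/-- A `p`-th root of an element of `ev F` is a root of a nonzero polynomial over `F`. -/
theorem gk87_root_poly (ev : F →+* M) {p : ℕ} (hp : 0 < p) (x : M) (u : F) (h : x ^ p = ev u) :
    ∃ P : F[X], P ≠ 0 ∧ P.eval₂ ev x = 0 := by
  refine ⟨X ^ p - C u, X_pow_sub_C_ne_zero hp u, ?_⟩
  rw [eval₂_sub, eval₂_pow, eval₂_X, eval₂_C, h, sub_self]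

/-- **(G-K2p).**  (K2) over `K` + T3 ⟹ the hypothesis `hK2` of `th70_exists_theta` for
`ev := evC.comp S.ι`. -/
theorem gk87_hK2 [CharZero K] {Gam : Type*} [Group Gam] [MulSemiringAction Gam M]
    (S : ds3_Data k0 K F0 F) (evC : F →+* M) {p : ℕ} (hp : 0 < p)
    (hK2C : ∀ x : M, (∀ g : Gam, g • x = x) → (∃ P : F[X], P ≠ 0 ∧ P.eval₂ evC x = 0) →
      ∃ w : F, evC w = x) :
    ∀ x : M, x ≠ 0 → (∀ g : Gam, g • x = x) → ∀ f : F0, x ^ p = (evC.comp S.ι) f →
      ∃ (w : F0) (a : k0), f = algebraMap k0 F0 a * w ^ p := by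
  intro x hx0 hinv f hf
  have hf0 : f ≠ 0 := by
    rintro rfl
    rw [map_zero] at hf
    exact hx0 ((pow_eq_zero_iff hp.ne').mp hf)
  obtain ⟨w', hw'⟩ := hK2C x hinv (gk87_root_poly evC hp x (S.ι f) hf)
  have h1 : S.ι f = algebraMap K F 1 * w' ^ p := by
    rw [map_one, one_mul]
    apply evC.injective
    rw [map_pow, hw']
    exact hf.symm
  obtain ⟨c0, v0, h⟩ := ds3_pow_descend S hp hf0 h1
  exact ⟨v0, c0, h⟩

/-- The same with a weaker input: only `p`-th roots of elements of `evC F` are needed. -/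
theorem gk87_hK2' [CharZero K] {Gam : Type*} [Group Gam] [MulSemiringAction Gam M]
    (S : ds3_Data k0 K F0 F) (evC : F →+* M) {p : ℕ} (hp : 0 < p)
    (hK2C : ∀ x : M, x ≠ 0 → (∀ g : Gam, g • x = x) → ∀ u : F, x ^ p = evC u →
      ∃ w : F, evC w = x) :
    ∀ x : M, x ≠ 0 → (∀ g : Gam, g • x = x) → ∀ f : F0, x ^ p = (evC.comp S.ι) f →
      ∃ (w : F0) (a : k0), f = algebraMap k0 F0 a * w ^ p := by
  intro x hx0 hinv f hf
  have hf0 : f ≠ 0 := by
    rintro rfl
    rw [map_zero] at hf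
    exact hx0 ((pow_eq_zero_iff hp.ne').mp hf)
  obtain ⟨w', hw'⟩ := hK2C x hx0 hinv (S.ι f) hf
  have h1 : S.ι f = algebraMap K F 1 * w' ^ p := by
    rw [map_one, one_mul]
    apply evC.injective
    rw [map_pow, hw']
    exact hf.symm
  obtain ⟨c0, v0, h⟩ := ds3_pow_descend S hp hf0 h1
  exact ⟨v0, c0, h⟩

/-- Subgroup form of (K2): from the `ρ`-form (`ρ = MulSemiringAction.toRingAut G M`, invariance
under the elements of `Γ ≤ G`) to the form with the inherited action of `↥Γ`. -/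
theorem gk87_K2C_sub {G : Type*} [Group G] [MulSemiringAction G M] (Γ : Subgroup G)
    (evC : F →+* M)
    (h : ∀ x : M, (∀ g ∈ Γ, MulSemiringAction.toRingAut G M g x = x) →
      (∃ P : F[X], P ≠ 0 ∧ P.eval₂ evC x = 0) → ∃ w : F, evC w = x) :
    ∀ x : M, (∀ g : Γ, g • x = x) → (∃ P : F[X], P ≠ 0 ∧ P.eval₂ evC x = 0) →
      ∃ w : F, evC w = x :=
  fun x hx hP => h x (fun g hg => hx ⟨g, hg⟩) hP

/-- **(G-K2p) from the hypotheses of `gi41_K2_top`** (absolute Galois core over a base field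
`K0 ⊆ F`; application: `K0 = ℂ(j)`, `G = SL(2,ℤ)`, `Γ = Γ₀(N)`, `r` = coset representatives). -/
theorem gk87_hK2_gi41 [CharZero K] {K0 : Type*} [Field K0] [Algebra K0 F] [FiniteDimensional K0 F]
    [CharZero K0] {G : Type*} [Group G] [MulSemiringAction G M] (Γ : Subgroup G)
    {ι : Type*} [Fintype ι] {r : ι → G}
    (S : ds3_Data k0 K F0 F) (evC : F →+* M) {p : ℕ} (hp : 0 < p)
    (hK : ∀ (g : G) (c : K0), g • evC (algebraMap K0 F c) = evC (algebraMap K0 F c))
    (hL1 : ∀ x : M, (∀ g : G, g • x = x) →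
      (∃ P : K0[X], P ≠ 0 ∧ P.eval₂ (evC.comp (algebraMap K0 F)) x = 0) →
      ∃ c : K0, evC (algebraMap K0 F c) = x)
    (hr : Function.Bijective (fun i => (r i : G ⧸ Γ)))
    (hL : ∀ g ∈ Γ, ∀ f : F, g • evC f = evC f)
    (hdeg : Fintype.card ι ≤ Module.finrank K0 F) :
    ∀ x : M, x ≠ 0 → (∀ g : Γ, g • x = x) → ∀ f : F0, x ^ p = (evC.comp S.ι) f →
      ∃ (w : F0) (a : k0), f = algebraMap k0 F0 a * w ^ p := by
  refine gk87_hK2 S evC hp (gk87_K2C_sub Γ evC ?_)
  intro x hx hP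
  exact gi41_K2_top (K0 := K0) evC (MulSemiringAction.toRingAut G M) Γ hK hL1 hr hL hdeg hx hP

/-- **Referee statement for the seam**: `th70_exists_theta` for `ev0 = evC ∘ ι` with `hK2`
discharged by (K2) over `K` and T3. -/
theorem gk87_exists_theta [CharZero K] {Gam : Type*} [Group Gam] [MulSemiringAction Gam M]
    [HasPrincipalDivisors k0 F0] (S : ds3_Data k0 K F0 F) (evC : F →+* M)
    (p : ℕ) [Fact p.Prime] (ζ : M) (hζ : IsPrimitiveRoot ζ p) (hζfix : ∀ g : Gam, g • ζ = ζ)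
    (hfix : ∀ (g : Gam) (f : F0), g • (evC.comp S.ι) f = (evC.comp S.ι) f)
    (hK2C : ∀ x : M, (∀ g : Gam, g • x = x) → (∃ P : F[X], P ≠ 0 ∧ P.eval₂ evC x = 0) →
      ∃ w : F, evC w = x)
    (hconst : ∀ f : F0, f ≠ 0 → (∀ v : Place k0 F0, v.ord f = 0) →
      ∃ a : k0, f = algebraMap k0 F0 a)
    (hroot : ∀ a : k0, ∃ b : k0, b ^ p = a)
    (Par : AddSubgroup (Additive Gam →+ ZMod p))
    (hex : ∀ χ ∈ Par, ∃ (h : M) (f : F0), th70_Adm k0 (evC.comp S.ι) p ζ χ h f) :
    ∃ Θ : Par →+ Pic0 k0 F0, Function.Injective Θ ∧ (∀ χ, (p : ℤ) • Θ χ = 0) ∧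
      ∀ (χ : Par) (h : M) (f : F0),
        th70_Adm k0 (evC.comp S.ι) p ζ (χ : Additive Gam →+ ZMod p) h f →
        ∀ D : Divisor.degZero (K := k0) (F := F0), th70_IsDivOf p f (D : Divisor k0 F0) →
          Θ χ = Pic0.mk D :=
  th70_exists_theta (evC.comp S.ι) p ζ hζ hζfix hfix
    (gk87_hK2 S evC (Fact.out : p.Prime).pos hK2C) hconst hroot Par hex

end gk87

end Fermat.Agent.S42
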