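import Fermat.Agent.S42.GalModAbs14
import Fermat.Agent.S42.M10Adapter69

/-!
# S42, row M11-W (helper14): the Galois module `W` attached to a Hecke eigenvector of `J₀(N)[p] ⊗ k0`

Binding shape of helper75's M11 ruling (item 2):

`gm14_module` : for a nonzero `y ∈ k0 ⊗ J₀(N)[p]` which is an eigenvector of all `T_ℓ`
(`ℓ ∤ Np`) with eigenvalues `a ℓ`, there is a nonzero finite-dimensional `k0`-representation
`ρ` of `Gal(ℚ̄/ℚ)` of finite level, unramified at every `ℓ ∤ Np`, on which every Frobenius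
`τ` at `ℓ ∤ Np` satisfies the Eichler-Shimura relation `ρ(τ)² - a_ℓ ρ(τ) + ℓ = 0`.

`W` is the `k0`-span of the Galois orbit of `y` (`gm14_abs`, file `GalModAbs14`); the inputs are
the M10 adapter statements `fi69_ad_comm`, `fi69_ad_frob'`, `fi69_ad_inert'`, `fi69_ad_open`.
-/

set_option autoImplicit false
set_option linter.style.haveILetI false
set_option linter.unusedVariables false

namespace Fermat.Agent.S42

open scoped TensorProduct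

local notation "Qb" => AlgebraicClosure ℚ
local notation "GQ" => AlgebraicClosure ℚ ≃ₐ[ℚ] AlgebraicClosure ℚ

/-- **M11-W**: the Galois module spanned by the orbit of a Hecke eigenvector in
`k0 ⊗ J₀(N)[p]`. -/
theorem gm14_module (N p : ℕ) [NeZero N] [Fact p.Prime] {k0 : Type} [Field k0]
    [Algebra (ZMod p) k0] (a : Nat.Primes → k0)
    (y : TensorProduct (ZMod p) k0
      ↥(AlgebraicCurve.Pic0.torsion Qb (ModularCurve.modularFunctionFieldBar N) p))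
    (hy : y ≠ 0)
    (heig : ∀ ℓ : Nat.Primes, ¬ (ℓ : ℕ) ∣ N * p →
      (th75_heckeTors N p ℓ).baseChange k0 y = a ℓ • y) :
    ∃ (W : Type) (_ : AddCommGroup W) (_ : Module k0 W) (_ : Module.Finite k0 W)
      (_ : Nontrivial W) (ρ : GQ →* Module.End k0 W),
      GaloisFactorsThroughFiniteLevel ρ ∧
      (∀ (ℓ : ℕ) (hℓ : ℓ.Prime), ¬ ℓ ∣ N * p → ∀ A : ValuationSubring Qb, A.LiesOverPrime ℓ →
        ∀ τ : GQ, A.IsFrobeniusAt τ ℓ →
          ρ τ * ρ τ - a ⟨ℓ, hℓ⟩ • ρ τ + (ℓ : k0) • (1 : Module.End k0 W) = 0) ∧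
      (∀ ℓ : ℕ, ℓ.Prime → ¬ ℓ ∣ N * p → ∀ A : ValuationSubring Qb, A.LiesOverPrime ℓ →
        ∀ σ ∈ A.inertiaSubgroupIn ℚ, ρ σ = 1) := by
  have hp0 : p ≠ 0 := (Fact.out : p.Prime).ne_zero
  obtain ⟨W, i1, i2, i3, i4, ρ, h1, h2, h3⟩ :=
    gm14_abs (k0 := k0) (ModularCurve.JZero.torsionGaloisRep N p) (fi69_ad_open N p hp0) y hy
  refine ⟨W, i1, i2, i3, i4, ρ, h1, ?_, ?_⟩
  · intro ℓ hℓ hNp A hA τ hτ
    exact h2 (th75_heckeTors N p ⟨ℓ, hℓ⟩) (fun σ => fi69_ad_comm N p ⟨ℓ, hℓ⟩ σ) (a ⟨ℓ, hℓ⟩)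
      (heig ⟨ℓ, hℓ⟩ hNp) τ ((ℓ : ℕ) : ZMod p) (ℓ : k0) (map_natCast _ _)
      (fi69_ad_frob' N p ⟨ℓ, hℓ⟩ hNp A hA τ hτ)
  · intro ℓ hℓ hNp A hA σ hσ
    exact h3 σ (fi69_ad_inert' N p ℓ hℓ hNp A hA σ hσ)

end Fermat.Agent.S42
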