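import Mathlib
import Fermat.Prelude.Def_GaloisRep_Residual

/-!
# S42, row M11-W (helper14), abstract part: the Galois module spanned by an orbit

Setting: `F0` a commutative ring (`ZMod p`), `k0` an `F0`-algebra which is a field, `J` an `F0`-module
with a representation `ρ0 : Gal(ℚ̄/ℚ) →* End_{F0} J` all of whose vectors have an OPEN
stabiliser (fixed by the fixing group of a number field).  For `y ∈ k0 ⊗ J`:

* `gm14_bc ρ0` : the base-changed representation on `k0 ⊗[F0] J`;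
* `gm14_W ρ0 y` : the `k0`-span of the Galois orbit of `y`; it contains `y`, is Galois-stable
  (`gm14_W_stable`), finite-dimensional (`gm14_W_finite`), the action on it factors through a
  number field (`gm14_W_level`), and every `F0`-endomorphism `T` of `J` commuting with the
  Galois action which has `y` as an eigenvector acts on `gm14_W ρ0 y` by the same scalar
  (`gm14_W_eigen`);
* `gm14_rep ρ0 y` : the representation on `gm14_W ρ0 y`;
* `gm14_abs` : the package consumed by the Boston-Lenstra-Ribet step of M11.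
-/

set_option autoImplicit false
set_option linter.style.haveILetI false
set_option linter.unusedVariables false

namespace Fermat.Agent.S42

open scoped TensorProduct

local notation "Qb" => AlgebraicClosure ℚ
local notation "GQ" => AlgebraicClosure ℚ ≃ₐ[ℚ] AlgebraicClosure ℚ

section Abstract

variable {F0 : Type*} [CommRing F0] {k0 : Type*} [Field k0] [Algebra F0 k0]
  {J : Type*} [AddCommGroup J] [Module F0 J] (ρ0 : GQ →* Module.End F0 J)

/-- The base-changed representation on `k0 ⊗[F0] J`. -/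
noncomputable def gm14_bc : GQ →* Module.End k0 (k0 ⊗[F0] J) where
  toFun σ := (ρ0 σ).baseChange k0
  map_one' := by rw [map_one, LinearMap.baseChange_one]
  map_mul' σ τ := by rw [map_mul, LinearMap.baseChange_mul]

theorem gm14_bc_apply (σ : GQ) (y : k0 ⊗[F0] J) :
    gm14_bc (k0 := k0) ρ0 σ y = (ρ0 σ).baseChange k0 y := rfl

/-- The `k0`-span of the Galois orbit of `y`. -/
noncomputable def gm14_W (y : k0 ⊗[F0] J) : Submodule k0 (k0 ⊗[F0] J) :=
  Submodule.span k0 (Set.range fun σ : GQ => gm14_bc (k0 := k0) ρ0 σ y)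

theorem gm14_mem_W (y : k0 ⊗[F0] J) : y ∈ gm14_W ρ0 y :=
  Submodule.subset_span ⟨1, by
    show gm14_bc (k0 := k0) ρ0 1 y = y
    rw [map_one]
    rfl⟩

theorem gm14_W_stable (y : k0 ⊗[F0] J) (σ : GQ) {w : k0 ⊗[F0] J} (hw : w ∈ gm14_W ρ0 y) :
    gm14_bc (k0 := k0) ρ0 σ w ∈ gm14_W ρ0 y := by
  induction hw using Submodule.span_induction with
  | mem x hx =>
      obtain ⟨τ, rfl⟩ := hx
      exact Submodule.subset_span ⟨σ * τ, by
        show gm14_bc (k0 := k0) ρ0 (σ * τ) y = gm14_bc ρ0 σ (gm14_bc ρ0 τ y)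
        rw [map_mul]
        rfl⟩
  | zero => rw [map_zero]; exact zero_mem _
  | add a b _ _ ha hb => rw [map_add]; exact add_mem ha hb
  | smul c a _ ha => rw [map_smul]; exact Submodule.smul_mem _ c ha

/-- Every tensor has an open stabiliser if every vector of `J` has one. -/
theorem gm14_open_tensor
    (hopen : ∀ x : J, ∃ E : IntermediateField ℚ Qb, FiniteDimensional ℚ E ∧
      ∀ σ : GQ, (∀ a ∈ E, σ a = a) → ρ0 σ x = x) (y : k0 ⊗[F0] J) :
    ∃ E : IntermediateField ℚ Qb, FiniteDimensional ℚ E ∧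
      ∀ σ : GQ, (∀ a ∈ E, σ a = a) → gm14_bc (k0 := k0) ρ0 σ y = y := by
  induction y using TensorProduct.induction_on with
  | zero => exact ⟨⊥, inferInstance, fun σ _ => map_zero _⟩
  | tmul c x =>
      obtain ⟨E, hE, h⟩ := hopen x
      refine ⟨E, hE, fun σ hσ => ?_⟩
      rw [gm14_bc_apply, LinearMap.baseChange_tmul, h σ hσ]
  | add y z hy hz =>
      obtain ⟨E₁, h₁, hE₁⟩ := hy
      obtain ⟨E₂, h₂, hE₂⟩ := hz
      refine ⟨E₁ ⊔ E₂, IntermediateField.finiteDimensional_sup E₁ E₂, fun σ hσ => ?_⟩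
      rw [map_add, hE₁ σ (fun a ha => hσ a ((le_sup_left : E₁ ≤ E₁ ⊔ E₂) ha)),
        hE₂ σ (fun a ha => hσ a ((le_sup_right : E₂ ≤ E₁ ⊔ E₂) ha))]

/-- A Galois-stable number field through which the stabiliser of `y` factors. -/
theorem gm14_open_normal
    (hopen : ∀ x : J, ∃ E : IntermediateField ℚ Qb, FiniteDimensional ℚ E ∧
      ∀ σ : GQ, (∀ a ∈ E, σ a = a) → ρ0 σ x = x) (y : k0 ⊗[F0] J) :
    ∃ L : IntermediateField ℚ Qb, FiniteDimensional ℚ L ∧ (∀ (g : GQ), ∀ x ∈ L, g x ∈ L) ∧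
      ∀ σ : GQ, (∀ a ∈ L, σ a = a) → gm14_bc (k0 := k0) ρ0 σ y = y := by
  obtain ⟨E, hE, h⟩ := gm14_open_tensor ρ0 hopen y
  haveI := hE
  have hinst : (DivisionRing.toRatAlgebra : Algebra ℚ Qb) = AlgebraicClosure.instAlgebra ℚ :=
    Subsingleton.elim _ _
  haveI : IsAlgClosure ℚ Qb := by rw [hinst]; infer_instance
  haveI : Normal ℚ Qb := IsAlgClosure.normal ℚ Qb
  let L : IntermediateField ℚ Qb := IntermediateField.normalClosure ℚ E Qb
  haveI hLfd : FiniteDimensional ℚ L := normalClosure.is_finiteDimensional ..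
  haveI hLn : Normal ℚ L := normalClosure.normal ..
  have hle : E ≤ L := IntermediateField.le_normalClosure _
  refine ⟨L, hLfd, fun g x hx => ?_, fun σ hσ => h σ fun a ha => hσ a (hle ha)⟩
  have h1 := AlgEquiv.restrictNormal_commutes g L ⟨x, hx⟩
  have h2 : g x = ((g.restrictNormal L ⟨x, hx⟩ : L) : Qb) := h1.symm
  rw [h2]
  exact (g.restrictNormal L ⟨x, hx⟩).2

/-- The action on the orbit span factors through a number field. -/
theorem gm14_W_level
    (hopen : ∀ x : J, ∃ E : IntermediateField ℚ Qb, FiniteDimensional ℚ E ∧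
      ∀ σ : GQ, (∀ a ∈ E, σ a = a) → ρ0 σ x = x) (y : k0 ⊗[F0] J) :
    ∃ L : IntermediateField ℚ Qb, FiniteDimensional ℚ L ∧ (∀ (g : GQ), ∀ x ∈ L, g x ∈ L) ∧
      ∀ σ : GQ, (∀ a ∈ L, σ a = a) → ∀ w ∈ gm14_W ρ0 y, gm14_bc (k0 := k0) ρ0 σ w = w := by
  obtain ⟨L, hL, hstab, h⟩ := gm14_open_normal ρ0 hopen y
  refine ⟨L, hL, hstab, fun σ hσ w hw => ?_⟩
  induction hw using Submodule.span_induction with
  | mem x hx =>
      obtain ⟨g, rfl⟩ := hx
      have h1 : ∀ a ∈ L, (g⁻¹ * σ * g) a = a := by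
        intro a ha
        rw [AlgEquiv.mul_apply, AlgEquiv.mul_apply, hσ (g a) (hstab g a ha)]
        exact g.symm_apply_apply a
      have h2 := h (g⁻¹ * σ * g) h1
      show gm14_bc ρ0 σ (gm14_bc ρ0 g y) = gm14_bc ρ0 g y
      have h3 : gm14_bc (k0 := k0) ρ0 σ (gm14_bc ρ0 g y)
          = gm14_bc ρ0 g (gm14_bc ρ0 (g⁻¹ * σ * g) y) := by
        rw [← Module.End.mul_apply, ← Module.End.mul_apply, ← map_mul, ← map_mul]
        congr 2
        group
      rw [h3, h2]
  | zero => exact map_zero _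
  | add a b _ _ ha hb => rw [map_add, ha, hb]
  | smul c a _ ha => rw [map_smul, ha]

/-- The orbit span is finite-dimensional. -/
theorem gm14_W_finite
    (hopen : ∀ x : J, ∃ E : IntermediateField ℚ Qb, FiniteDimensional ℚ E ∧
      ∀ σ : GQ, (∀ a ∈ E, σ a = a) → ρ0 σ x = x) (y : k0 ⊗[F0] J) :
    Module.Finite k0 (gm14_W ρ0 y) := by
  classical
  obtain ⟨L, hL, hstab, h⟩ := gm14_open_normal ρ0 hopen y
  haveI := hL
  -- the orbit is parametrised by the finitely many embeddings of `L`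
  let Φ : GQ → (L →ₐ[ℚ] Qb) := fun g => (g : Qb →ₐ[ℚ] Qb).comp L.val
  have hΦ : ∀ g₁ g₂ : GQ, Φ g₁ = Φ g₂ →
      gm14_bc (k0 := k0) ρ0 g₁ y = gm14_bc (k0 := k0) ρ0 g₂ y := by
    intro g₁ g₂ h12
    have h1 : ∀ a ∈ L, (g₁⁻¹ * g₂) a = a := by
      intro a ha
      have h2 : g₁ a = g₂ a := congrArg (fun f : L →ₐ[ℚ] Qb => f ⟨a, ha⟩) h12
      rw [AlgEquiv.mul_apply, ← h2]
      exact g₁.symm_apply_apply a
    have h3 := h (g₁⁻¹ * g₂) h1
    have h4 : gm14_bc (k0 := k0) ρ0 g₂ y = gm14_bc ρ0 g₁ (gm14_bc ρ0 (g₁⁻¹ * g₂) y) := by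
      rw [← Module.End.mul_apply, ← map_mul]
      congr 2
      group
    rw [h4, h3]
  let ψ : (L →ₐ[ℚ] Qb) → k0 ⊗[F0] J := fun e =>
    if he : ∃ g : GQ, Φ g = e then gm14_bc (k0 := k0) ρ0 he.choose y else 0
  have hsub : (Set.range fun σ : GQ => gm14_bc (k0 := k0) ρ0 σ y) ⊆ Set.range ψ := by
    rintro _ ⟨g, rfl⟩
    have he : ∃ g' : GQ, Φ g' = Φ g := ⟨g, rfl⟩
    refine ⟨Φ g, ?_⟩
    show (if he : ∃ g' : GQ, Φ g' = Φ g then gm14_bc (k0 := k0) ρ0 he.choose y else 0) = _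
    rw [dif_pos he]
    exact hΦ _ _ he.choose_spec
  have hfin : (Set.range fun σ : GQ => gm14_bc (k0 := k0) ρ0 σ y).Finite :=
    (Set.finite_range ψ).subset hsub
  exact Module.Finite.iff_fg.mpr (Submodule.fg_span hfin)

/-- An endomorphism of `J` commuting with the Galois action which has `y` as an eigenvector
acts on the orbit span by the same scalar. -/
theorem gm14_W_eigen (y : k0 ⊗[F0] J) (T : Module.End F0 J)
    (hT : ∀ σ : GQ, ρ0 σ * T = T * ρ0 σ) (c : k0) (hy : T.baseChange k0 y = c • y)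
    {w : k0 ⊗[F0] J} (hw : w ∈ gm14_W ρ0 y) : T.baseChange k0 w = c • w := by
  induction hw using Submodule.span_induction with
  | mem x hx =>
      obtain ⟨g, rfl⟩ := hx
      show T.baseChange k0 ((ρ0 g).baseChange k0 y) = c • (ρ0 g).baseChange k0 y
      rw [← LinearMap.comp_apply, ← LinearMap.baseChange_comp]
      have h1 : T ∘ₗ ρ0 g = ρ0 g ∘ₗ T := (hT g).symm
      rw [h1, LinearMap.baseChange_comp, LinearMap.comp_apply, hy, map_smul]
  | zero => rw [map_zero, smul_zero]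
  | add a b _ _ ha hb => rw [map_add, ha, hb, smul_add]
  | smul d a _ ha => rw [map_smul, ha, smul_comm]

/-- The representation on the orbit span. -/
noncomputable def gm14_rep (y : k0 ⊗[F0] J) : GQ →* Module.End k0 (gm14_W ρ0 y) where
  toFun σ := (gm14_bc (k0 := k0) ρ0 σ).restrict fun w hw => gm14_W_stable ρ0 y σ hw
  map_one' := by
    refine LinearMap.ext fun w => Subtype.ext ?_
    rw [LinearMap.coe_restrict_apply, map_one]
    rfl
  map_mul' σ τ := by
    refine LinearMap.ext fun w => Subtype.ext ?_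
    rw [LinearMap.coe_restrict_apply, map_mul]
    rfl

theorem gm14_rep_coe (y : k0 ⊗[F0] J) (σ : GQ) (w : gm14_W ρ0 y) :
    ((gm14_rep ρ0 y σ w : gm14_W ρ0 y) : k0 ⊗[F0] J) = (ρ0 σ).baseChange k0 (w : k0 ⊗[F0] J) :=
  rfl


/-- The additive group structure on the orbit span (stated explicitly: instance search through
`Submodule.addCommGroup` gets stuck on the tensor product inside unification problems). -/
noncomputable instance gm14_instAddCommGroup (y : k0 ⊗[F0] J) : AddCommGroup (gm14_W ρ0 y) :=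
  Submodule.addCommGroup _

theorem gm14_W_nontrivial (y : k0 ⊗[F0] J) (hy : y ≠ 0) : Nontrivial (gm14_W ρ0 y) :=
  ⟨⟨⟨y, gm14_mem_W ρ0 y⟩, 0, fun h => hy (congrArg Subtype.val h)⟩⟩

/-- Finite level of the representation on the orbit span. -/
theorem gm14_rep_level
    (hopen : ∀ x : J, ∃ E : IntermediateField ℚ Qb, FiniteDimensional ℚ E ∧
      ∀ σ : GQ, (∀ a ∈ E, σ a = a) → ρ0 σ x = x) (y : k0 ⊗[F0] J) :
    ∃ L : IntermediateField ℚ Qb, FiniteDimensional ℚ L ∧
      ∀ σ : GQ, (∀ x ∈ L, σ x = x) → gm14_rep ρ0 y σ = 1 := by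
  obtain ⟨L, hL, -, h⟩ := gm14_W_level ρ0 hopen y
  exact ⟨L, hL, fun σ hσ => LinearMap.ext fun w => Subtype.ext (h σ hσ w w.2)⟩

/-- Elements acting trivially on `J` act trivially on the orbit span. -/
theorem gm14_rep_eq_one (y : k0 ⊗[F0] J) (σ : GQ) (h : ρ0 σ = 1) : gm14_rep ρ0 y σ = 1 := by
  refine LinearMap.ext fun w => Subtype.ext ?_
  rw [gm14_rep_coe, h, LinearMap.baseChange_one]
  rfl

/-- **The quadratic relation on the orbit span**: if `ρ0 τ ^ 2 - T ρ0 τ + e = 0` on `J`, `T`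
commutes with the Galois action and `y` is an eigenvector of `T` with eigenvalue `c`, then
`ρ τ ^ 2 - c ρ τ + e = 0` on the orbit span of `y`. -/
theorem gm14_rep_quadratic (y : k0 ⊗[F0] J) (T : Module.End F0 J)
    (hT : ∀ σ : GQ, ρ0 σ * T = T * ρ0 σ) (c : k0) (hy : T.baseChange k0 y = c • y) (τ : GQ)
    (e : F0) (hrel : ρ0 τ * ρ0 τ - T * ρ0 τ + e • (1 : Module.End F0 J) = 0) :
    gm14_rep ρ0 y τ * gm14_rep ρ0 y τ - c • gm14_rep ρ0 y τ
      + (algebraMap F0 k0 e) • (1 : Module.End k0 (gm14_W ρ0 y)) = 0 := by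
  refine LinearMap.ext fun w => Subtype.ext ?_
  have h1 : (ρ0 τ * ρ0 τ - T * ρ0 τ + e • (1 : Module.End F0 J)).baseChange k0
      (w : k0 ⊗[F0] J) = 0 := by
    rw [hrel, LinearMap.baseChange_zero]
    rfl
  rw [LinearMap.baseChange_add, LinearMap.baseChange_sub, LinearMap.baseChange_smul,
    LinearMap.baseChange_mul, LinearMap.baseChange_mul, LinearMap.baseChange_one,
    LinearMap.add_apply, LinearMap.sub_apply, LinearMap.smul_apply, Module.End.mul_apply,
    Module.End.mul_apply, Module.End.one_apply] at h1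
  have h2 : T.baseChange k0 ((ρ0 τ).baseChange k0 (w : k0 ⊗[F0] J))
      = c • (ρ0 τ).baseChange k0 (w : k0 ⊗[F0] J) :=
    gm14_W_eigen ρ0 y T hT c hy (gm14_W_stable ρ0 y τ w.2)
  rw [h2, ← algebraMap_smul k0 e (w : k0 ⊗[F0] J)] at h1
  exact h1

end Abstract

section Package

variable {F0 : Type*} [CommRing F0] {k0 : Type} [Field k0] [Algebra F0 k0]
  {J : Type} [AddCommGroup J] [Module F0 J] (ρ0 : GQ →* Module.End F0 J)

/-- **The orbit-span package** (abstract form of row M11-W): a nonzero `y ∈ k0 ⊗ J` generates a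
nonzero finite-dimensional `k0`-representation `ρ` of `Gal(ℚ̄/ℚ)` of finite level such that

* every quadratic relation `ρ0(τ)² - T ρ0(τ) + e = 0` on `J`, with `T` commuting with the Galois
  action and `T y = c y`, becomes `ρ(τ)² - c ρ(τ) + e = 0`;
* every `σ` acting trivially on `J` acts trivially through `ρ`. -/
theorem gm14_abs
    (hopen : ∀ x : J, ∃ E : IntermediateField ℚ Qb, FiniteDimensional ℚ E ∧
      ∀ σ : GQ, (∀ a ∈ E, σ a = a) → ρ0 σ x = x) (y : k0 ⊗[F0] J) (hy : y ≠ 0) :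
    ∃ (W : Type) (_ : AddCommGroup W) (_ : Module k0 W) (_ : Module.Finite k0 W)
      (_ : Nontrivial W) (ρ : GQ →* Module.End k0 W),
      GaloisFactorsThroughFiniteLevel ρ ∧
      (∀ (T : Module.End F0 J), (∀ σ : GQ, ρ0 σ * T = T * ρ0 σ) → ∀ c : k0,
        T.baseChange k0 y = c • y → ∀ (τ : GQ) (e : F0) (e' : k0), algebraMap F0 k0 e = e' →
        ρ0 τ * ρ0 τ - T * ρ0 τ + e • (1 : Module.End F0 J) = 0 →
        ρ τ * ρ τ - c • ρ τ + e' • (1 : Module.End k0 W) = 0) ∧
      (∀ σ : GQ, ρ0 σ = 1 → ρ σ = 1) := by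
  refine ⟨↥(gm14_W ρ0 y), gm14_instAddCommGroup ρ0 y, Submodule.module _,
    gm14_W_finite ρ0 hopen y, gm14_W_nontrivial ρ0 y hy, gm14_rep ρ0 y, ?_, ?_, ?_⟩
  · exact gm14_rep_level ρ0 hopen y
  · intro T hT c hc τ e e' he hrel
    have h := gm14_rep_quadratic ρ0 y T hT c hc τ e hrel
    rw [he] at h
    exact h
  · intro σ hσ
    exact gm14_rep_eq_one ρ0 y σ hσ

end Package

end Fermat.Agent.S42
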