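/-
S42 / M5b (helper96), membership for the Kummer generators `ec77_hX` / `ec77_hZ` of helper77:
`h_χ ^ p = ev u` for some `u ∈ F_ℂ(N)`, every `p ≠ 0`.
-/
import Fermat.Agent.S42.GchiMem96
import Fermat.Agent.S42.EisChiZeta77

set_option autoImplicit false

open UpperHalfPlane ModularForm MatrixGroups CongruenceSubgroup

namespace Fermat.Agent.S42

open ModularCurve.Period

/-- **(G-X), membership for `ec77_hX`** (any weight `k ≥ 3` even, any `ζ` with `ζ ^ p = 1`, any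
`p ≠ 0`): `h_χ ^ p = ev u`. -/
theorem ga96_hX_pow_mem (N : ℕ) [NeZero N] (p : ℕ) [NeZero p] (k : ℤ) (ζ : ℂˣ) (hζ : ζ ^ p = 1)
    {χ : Additive ↥(Gamma0 N) →+ ZMod p} (hχ : IsParabolicHom (Gamma0 N) χ)
    (hk : 3 ≤ k) (hk2 : Even k) :
    ∃ u : gi41_FC N, u ≠ 0 ∧ ff79_evMer N u = ec77_hX k (Gamma0 N) ζ hζ χ hk ^ p :=
  ga96_Fchi_pow_mem N k (ec77_charZ ζ hζ χ) p hk hk2 (NeZero.ne p) (ec77_charZ_pow ζ hζ χ)
    (ec77_charZ_par ζ hζ hχ)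

/-- **(G-X), membership for `ec77_hZ`** (`ζ = th70_zeta p`, weight `4`), every `p ≠ 0`. -/
theorem ga96_hZ_pow_mem (N : ℕ) [NeZero N] (p : ℕ) [NeZero p]
    {χ : Additive ↥(Gamma0 N) →+ ZMod p} (hχ : IsParabolicHom (Gamma0 N) χ) :
    ∃ u : gi41_FC N, u ≠ 0 ∧ ff79_evMer N u = ec77_hZ N p χ ^ p :=
  ga96_hX_pow_mem N p 4 (ec77_zetaU p) (ec77_zetaU_pow p) hχ (by norm_num) ⟨2, by norm_num⟩

/-- The same for `χ ∈ w1a28_Par N p`. -/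
theorem ga96_hZ_pow_mem_Par (N : ℕ) [NeZero N] (p : ℕ) [NeZero p]
    (χ : Additive ↥(Gamma0 N) →+ ZMod p) (hχ : χ ∈ w1a28_Par N p) :
    ∃ u : gi41_FC N, u ≠ 0 ∧ ff79_evMer N u = ec77_hZ N p χ ^ p :=
  ga96_hZ_pow_mem N p (mem_parabolicHoms_iff.mp hχ)

end Fermat.Agent.S42
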