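import Fermat.Agent.S42.ThetaInst70
import Fermat.Agent.S42.DescInst3
import Fermat.Agent.S42.FunFieldBar79
import Fermat.Agent.S42.FunFieldBridge34

/-!
# S42, seam (G-Eex) (helper94): admissible pairs over `ℚ̄` from (X) over `ℂ`, concretely

The hypothesis `hex` of `th70_I_Theta` / `th70_W1` (ThetaInst70), LITERALLY, at the evaluation
`ev0 := ff79_ev0 φ N` (`φ : ℚ̄ →+* ℂ` arbitrary), from the analytic existence statement (X) over
`ℂ`:

  for every `χ ∈ Par_N` there are `h : mer95_MER`, `h ≠ 0`, of character `χ`, and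
  `u : F_ℂ(N) = ↥(laurentBaseChange ℂ (modularFunctionFieldFull N))` with `ff79_evMer N u = h ^ p`
  and `p ∣ ord_v u` at every place `v` of `F_ℂ(N) / ℂ`.

The descent (DESC) is `di3_desc_bar` (helper3), the invariance of `ev` is `ff79_evMer_smul`
(helper79).  No hypothesis besides (X) is left.

* `geex94_adm_of_desc` : the abstract step, (DESC) in the shape `ev0 g = ev (c * (w ^ p * u))`.
* `geex94_adm_of_bc`   : the same for `ev0 = ev ∘ bc`, (DESC) in the literal shape of `dr86_desc`.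
* `geex94_adm`         : concrete, one character at a time (any `p > 0`, any `ζ`).
* `geex94_adm_ev0`     : the same for any `ev0` that is `ff79_evMer N` after coefficientwise `φ`.
* `geex94_hex`         : `hex` of `th70_I_Theta` from (X).
* `geex94_adm_fullC`, `geex94_hex_fullC` : the same with (X) stated on
  `modularFunctionFieldFullC ℂ N` and `ff34_ev N`.

All names are prefixed `geex94_`.
-/

set_option autoImplicit false
set_option linter.unusedSectionVars false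
set_option linter.unusedVariables false
set_option linter.style.longLine false

open AlgebraicCurve ModularCurve CongruenceSubgroup

namespace Fermat.Agent.S42

section geex94_abstract

variable {K0 K F0 F : Type*} [Field K0] [Field K] [Field F0] [Field F]
  [Algebra K0 F0] [Algebra K F]
variable {M : Type*} [Field M] {Gam : Type*} [Group Gam] [MulSemiringAction Gam M]

/-- **(X) + (DESC) ⟹ admissible pair**, abstractly.  `ev : F →+* M` over the big constant field,
`ev0 : F0 →+* M` over the small one; (DESC) produces `g : F0` with `ev0 g = ev (c * (w ^ p * u))`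
and `p ∣ ord g` everywhere. -/
theorem geex94_adm_of_desc (ev : F →+* M) (ev0 : F0 →+* M) {p : ℕ} (hp : p ≠ 0) (ζ : M)
    (hfix : ∀ (g : Gam) (f : F), g • ev f = ev f)
    (hroot : ∀ c : K, ∃ b : K, b ^ p = c)
    (hDESC : ∀ u : F, u ≠ 0 → (∀ v : Place K F, (p : ℤ) ∣ v.ord u) →
      ∃ (g : F0) (w : F) (c : K), g ≠ 0 ∧ w ≠ 0 ∧ c ≠ 0 ∧
        ev0 g = ev (algebraMap K F c * (w ^ p * u)) ∧ ∀ P0 : Place K0 F0, (p : ℤ) ∣ P0.ord g)
    {χ : Additive Gam →+ ZMod p} {h : M} {u : F} (hh : h ≠ 0)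
    (hchar : th70_IsChar p ζ χ h) (hpow : ev u = h ^ p)
    (hdvd : ∀ v : Place K F, (p : ℤ) ∣ v.ord u) :
    ∃ (h' : M) (f : F0), th70_Adm K0 ev0 p ζ χ h' f := by
  have hu : u ≠ 0 := by
    rintro rfl
    rw [map_zero] at hpow
    exact pow_ne_zero p hh hpow.symm
  obtain ⟨g, w, c, hg, hw, hc, hgw, hint⟩ := hDESC u hu hdvd
  obtain ⟨b, hb⟩ := hroot c
  have hb0 : b ≠ 0 := by
    rintro rfl
    rw [zero_pow hp] at hb
    exact hc hb.symm
  have hevb : ev (algebraMap K F b) ≠ 0 := by simpa using hb0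
  have hevw : ev w ≠ 0 := by simpa using hw
  refine ⟨ev (algebraMap K F b) * ev w * h, g,
    mul_ne_zero (mul_ne_zero hevb hevw) hh, hg, fun γ => ?_, ?_, hint⟩
  · rw [smul_mul', smul_mul', hfix, hfix, hchar γ]
    ring
  · rw [hgw, mul_pow, mul_pow, ← map_pow, ← map_pow, ← map_pow, hb, ← hpow, ← map_mul, ← map_mul,
      mul_assoc]

/-- The same for `ev0 = ev ∘ bc`, with (DESC) in the literal shape of `dr86_desc`. -/
theorem geex94_adm_of_bc (ev : F →+* M) (bc : F0 →+* F) {p : ℕ} (hp : p ≠ 0) (ζ : M)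
    (hfix : ∀ (g : Gam) (f : F), g • ev f = ev f)
    (hroot : ∀ c : K, ∃ b : K, b ^ p = c)
    (hDESC : ∀ u : F, u ≠ 0 → (∀ v : Place K F, (p : ℤ) ∣ v.ord u) →
      ∃ (g : F0) (w : F) (c : K), g ≠ 0 ∧ w ≠ 0 ∧ c ≠ 0 ∧
        bc g = algebraMap K F c * (w ^ p * u) ∧ ∀ P0 : Place K0 F0, (p : ℤ) ∣ P0.ord g)
    {χ : Additive Gam →+ ZMod p} {h : M} {u : F} (hh : h ≠ 0)
    (hchar : th70_IsChar p ζ χ h) (hpow : ev u = h ^ p)
    (hdvd : ∀ v : Place K F, (p : ℤ) ∣ v.ord u) :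
    ∃ (h' : M) (f : F0), th70_Adm K0 (ev.comp bc) p ζ χ h' f := by
  refine geex94_adm_of_desc (K := K) ev (ev.comp bc) hp ζ hfix hroot ?_ hh hchar hpow hdvd
  intro u hu hdiv
  obtain ⟨g, w, c, hg, hw, hc, hgw, hint⟩ := hDESC u hu hdiv
  exact ⟨g, w, c, hg, hw, hc, by rw [RingHom.comp_apply, hgw], hint⟩

/-- Divisibility of the orders at all places is insensitive to the presentation of the field as
an intermediate field. -/
theorem geex94_dvd_transport {k L : Type*} [Field k] [Field L] [Algebra k L]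
    (E E' : IntermediateField k L) (hE : E = E') (n : ℤ) (x : L) (hx : x ∈ E) (hx' : x ∈ E')
    (h : ∀ v : Place k ↥E, n ∣ v.ord ⟨x, hx⟩) : ∀ v : Place k ↥E', n ∣ v.ord ⟨x, hx'⟩ := by
  subst hE
  exact h

end geex94_abstract

section geex94_concrete

variable (φ : AlgebraicClosure ℚ →+* ℂ) (N : ℕ) [NeZero N]

/-- **(G-Eex), one character at a time**, for any evaluation `ev0` of the `ℚ̄`-function field
which is `ff79_evMer N` after the coefficientwise base change along `φ`. -/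
theorem geex94_adm_ev0 (ev0 : ↥(modularFunctionFieldBar N) →+* mer95_MER)
    (hev0 : ∀ (g : ↥(modularFunctionFieldBar N))
      (x : ↥(laurentBaseChange ℂ (modularFunctionFieldFull N))),
      (x : LaurentSeries ℂ) = coeffMap φ (g : LaurentSeries (AlgebraicClosure ℚ)) →
        ev0 g = ff79_evMer N x)
    {p : ℕ} (hp : p ≠ 0) (ζ : mer95_MER)
    {χ : Additive ↥(Gamma0 N) →+ ZMod p} {h : mer95_MER}
    {u : ↥(laurentBaseChange ℂ (modularFunctionFieldFull N))} (hh : h ≠ 0)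
    (hchar : th70_IsChar p ζ χ h) (hpow : ff79_evMer N u = h ^ p)
    (hdvd : ∀ v : Place ℂ ↥(laurentBaseChange ℂ (modularFunctionFieldFull N)),
      (p : ℤ) ∣ v.ord u) :
    ∃ (h' : mer95_MER) (f : ↥(modularFunctionFieldBar N)),
      th70_Adm (AlgebraicClosure ℚ) ev0 p ζ χ h' f := by
  refine geex94_adm_of_desc (K := ℂ)
    (ff79_evMer N : ↥(laurentBaseChange ℂ (modularFunctionFieldFull N)) →+* mer95_MER) ev0 hp ζ
    (fun γ f => ff79_evMer_smul N γ.1 γ.2 f)
    (fun c => IsAlgClosed.exists_pow_nat_eq c (Nat.pos_of_ne_zero hp)) ?_ hh hchar hpow hdvd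
  intro u hu hdiv
  obtain ⟨g, w, c, hg, hw, hc, hgw, hint⟩ := di3_desc_bar φ N (Nat.pos_of_ne_zero hp) hu hdiv
  refine ⟨g, w, c, hg, hw, hc, ?_, hint⟩
  exact hev0 g _ hgw.symm

/-- **(G-Eex), one character at a time**, at `ev0 := ff79_ev0 φ N`. -/
theorem geex94_adm {p : ℕ} (hp : p ≠ 0) (ζ : mer95_MER)
    {χ : Additive ↥(Gamma0 N) →+ ZMod p} {h : mer95_MER}
    {u : ↥(laurentBaseChange ℂ (modularFunctionFieldFull N))} (hh : h ≠ 0)
    (hchar : th70_IsChar p ζ χ h) (hpow : ff79_evMer N u = h ^ p)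
    (hdvd : ∀ v : Place ℂ ↥(laurentBaseChange ℂ (modularFunctionFieldFull N)),
      (p : ℤ) ∣ v.ord u) :
    ∃ (h' : mer95_MER) (f : ↥(modularFunctionFieldBar N)),
      th70_Adm (AlgebraicClosure ℚ) (ff79_ev0 φ N) p ζ χ h' f := by
  refine geex94_adm_ev0 φ N (ff79_ev0 φ N) ?_ hp ζ hh hchar hpow hdvd
  intro g x hx
  rw [ff79_ev0_apply]
  congr 1
  exact Subtype.ext hx.symm

/-- **(G-Eex): the hypothesis `hex` of `th70_I_Theta` / `th70_W1`, literally**, at
`ev0 := ff79_ev0 φ N`, from (X) over `ℂ`. -/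
theorem geex94_hex (p : ℕ) [Fact p.Prime]
    (hX : ∀ χ ∈ w1a28_Par N p, ∃ (h : mer95_MER)
      (u : ↥(laurentBaseChange ℂ (modularFunctionFieldFull N))),
      h ≠ 0 ∧ th70_IsChar p (th70_zeta p) χ h ∧ ff79_evMer N u = h ^ p ∧
        ∀ v : Place ℂ ↥(laurentBaseChange ℂ (modularFunctionFieldFull N)), (p : ℤ) ∣ v.ord u) :
    ∀ χ ∈ w1a28_Par N p, ∃ (h : mer95_MER) (f : ↥(modularFunctionFieldBar N)),
      th70_Adm (AlgebraicClosure ℚ) (ff79_ev0 φ N) p (th70_zeta p) χ h f := by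
  intro χ hχ
  obtain ⟨h, u, hh, hchar, hpow, hdvd⟩ := hX χ hχ
  exact geex94_adm φ N (Fact.out : p.Prime).ne_zero (th70_zeta p) hh hchar hpow hdvd

/-- **(G-Eex), one character at a time**, with (X) stated on `modularFunctionFieldFullC ℂ N` and
`ff34_ev N`. -/
theorem geex94_adm_fullC {p : ℕ} (hp : p ≠ 0) (ζ : mer95_MER)
    {χ : Additive ↥(Gamma0 N) →+ ZMod p} {h : mer95_MER}
    {u : ↥(modularFunctionFieldFullC ℂ N)} (hh : h ≠ 0)
    (hchar : th70_IsChar p ζ χ h) (hpow : ff34_ev N u = h ^ p)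
    (hdvd : ∀ v : Place ℂ ↥(modularFunctionFieldFullC ℂ N), (p : ℤ) ∣ v.ord u) :
    ∃ (h' : mer95_MER) (f : ↥(modularFunctionFieldBar N)),
      th70_Adm (AlgebraicClosure ℚ) (ff79_ev0 φ N) p ζ χ h' f := by
  have hmem : (u : LaurentSeries ℂ) ∈ laurentBaseChange ℂ (modularFunctionFieldFull N) := by
    rw [ff34_baseChange_eq N]
    exact u.2
  refine geex94_adm φ N hp ζ (u := ⟨u.1, hmem⟩) hh hchar ?_ ?_
  · rw [ff34_evB_eq_ff79_apply]
    exact hpow
  · exact geex94_dvd_transport _ _ (ff34_baseChange_eq N).symm (p : ℤ) u.1 u.2 hmem hdvd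

/-- `hex` of `th70_I_Theta` from (X) stated on `modularFunctionFieldFullC ℂ N` and `ff34_ev N`. -/
theorem geex94_hex_fullC (p : ℕ) [Fact p.Prime]
    (hX : ∀ χ ∈ w1a28_Par N p, ∃ (h : mer95_MER) (u : ↥(modularFunctionFieldFullC ℂ N)),
      h ≠ 0 ∧ th70_IsChar p (th70_zeta p) χ h ∧ ff34_ev N u = h ^ p ∧
        ∀ v : Place ℂ ↥(modularFunctionFieldFullC ℂ N), (p : ℤ) ∣ v.ord u) :
    ∀ χ ∈ w1a28_Par N p, ∃ (h : mer95_MER) (f : ↥(modularFunctionFieldBar N)),
      th70_Adm (AlgebraicClosure ℚ) (ff79_ev0 φ N) p (th70_zeta p) χ h f := by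
  intro χ hχ
  obtain ⟨h, u, hh, hchar, hpow, hdvd⟩ := hX χ hχ
  exact geex94_adm_fullC φ N (Fact.out : p.Prime).ne_zero (th70_zeta p) hh hchar hpow hdvd

end geex94_concrete

end Fermat.Agent.S42
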