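import Fermat.Agent.S42.HeckeNormInst49
import Fermat.Agent.S42.Mer95
import Fermat.Agent.S42.FunFieldC79
import Fermat.Agent.S42.HeckeDiv63

/-!
# S42, row M8f (helper49): the Hecke inputs `hcomp`, `hinv`, `hstab`, `hbeta` and the closed (H1)
from a GENERATOR SPEC of `ev0`

`nm49_EvSpec N e` : the ring hom `e : F_ℚ̄(N) → mer95_MER` sends a constant `a` to the constant
`phi a` and the formal generator `j(q^d)` (`ff79_JJ ℚ̄ d`, `d ∣ N`) to the function `τ ↦ j(dτ)`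
(`nm49_jO d`).  Any `ev0 = ev ∘ bc` of row M2 satisfies it, and it determines `e`
(`nm49_spec_unique`).  From the spec at the levels `N` and `N ℓ`:

* `nm49_spec_comp`  : `e' (heckeAlphaBar x) = e x`;
* `nm49_spec_inv`   : `γ • e x = e x` for `γ ∈ Γ₀(N)`;
* `nm49_spec_stab`  : `γ ∈ SL(2,ℤ)` fixing `e' (F(Nℓ))` pointwise lies in `Γ₀(Nℓ)`;
* `nm49_spec_beta`  : `e' (heckeBetaBar x) = (nm49_dl ℓ)⁻¹ • e x`, `nm49_dl ℓ = diag(ℓ, 1)`;
* `nm49_H1`         : `e (Nm_α (β f)) = ∏ q : Γ₀(N) ⧸ Γ₀(Nℓ), (q.out * diag(ℓ,1)⁻¹) • e f`;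
* `nm49_H1_root`    : `h ^ p = e f → (∏ q, (q.out * diag(ℓ,1)⁻¹) • h) ^ p = e (Nm_α (β f))`.
-/

set_option autoImplicit false
set_option linter.style.haveILetI false
set_option synthInstance.maxHeartbeats 400000

open ModularCurve AlgebraicCurve CongruenceSubgroup MatrixGroups UpperHalfPlane
open Fermat.Agent.S24

namespace Fermat.Agent.S42

local notation "Qb" => AlgebraicClosure ℚ

/-- The holomorphic function `τ ↦ j(dτ)`. -/
noncomputable def nm49_jO (d : ℕ) : mer95_O := ⟨genFn 1 d, ff79_genFn_mdiff d⟩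

theorem nm49_jO_apply (d : ℕ) (τ : ℍ) : (nm49_jO d).1 τ = genFn 1 d τ := rfl

/-- The generator spec of `ev0` at level `N`. -/
def nm49_EvSpec (N : ℕ) [NeZero N] (e : ↥(modularFunctionFieldBar N) →+* mer95_MER) : Prop :=
  (∀ a : Qb, e (algebraMap Qb ↥(modularFunctionFieldBar N) a) = algebraMap ℂ mer95_MER (phi a)) ∧
    ∀ (d : ℕ) (hd : d ∣ N),
      e ⟨ff79_JJ Qb d, ff79_JJ_mem Qb N d hd⟩ = algebraMap mer95_O mer95_MER (nm49_jO d)

/-- Two ring homs with the same values on constants and generators as a spec'd one agree. -/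
theorem nm49_spec_unique {N : ℕ} [NeZero N] {e₁ e₂ : ↥(modularFunctionFieldBar N) →+* mer95_MER}
    (h₁ : nm49_EvSpec N e₁) (h₂ : nm49_EvSpec N e₂) : e₁ = e₂ := by
  refine ff79_ringHom_ext e₁ e₂ (fun c => ?_) (fun d => ?_)
  · exact (h₁.1 c).trans (h₂.1 c).symm
  · exact (h₁.2 d.1 (Nat.dvd_of_mem_divisors d.2)).trans
      (h₂.2 d.1 (Nat.dvd_of_mem_divisors d.2)).symm

/-- `x ↦ γ • x` as a ring endomorphism of `mer95_MER` (`γ ∈ SL(2,ℤ)`). -/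
noncomputable def nm49_actSL (γ : SL(2, ℤ)) : mer95_MER →+* mer95_MER where
  toFun x := γ • x
  map_one' := smul_one γ
  map_mul' x y := smul_mul' γ x y
  map_zero' := smul_zero γ
  map_add' x y := smul_add γ x y

theorem nm49_actSL_apply (γ : SL(2, ℤ)) (x : mer95_MER) : nm49_actSL γ x = γ • x := rfl

/-- `x ↦ g • x` as a ring endomorphism of `mer95_MER` (`g ∈ GL(2,ℝ)⁺`). -/
noncomputable def nm49_actGL (g : GL(2, ℝ)⁺) : mer95_MER →+* mer95_MER where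
  toFun x := g • x
  map_one' := smul_one g
  map_mul' x y := smul_mul' g x y
  map_zero' := smul_zero g
  map_add' x y := smul_add g x y

theorem nm49_actGL_apply (g : GL(2, ℝ)⁺) (x : mer95_MER) : nm49_actGL g x = g • x := rfl

section Levels

variable {N ℓ : ℕ} [NeZero N] [NeZero ℓ]

/-- `e' ∘ α = e`. -/
theorem nm49_spec_comp {e : ↥(modularFunctionFieldBar N) →+* mer95_MER}
    {e' : ↥(modularFunctionFieldBar (N * ℓ)) →+* mer95_MER}
    (he : nm49_EvSpec N e) (he' : nm49_EvSpec (N * ℓ) e')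
    (x : ↥(modularFunctionFieldBar N)) : e' (heckeAlphaBar Qb N ℓ x) = e x := by
  have key : nm49_EvSpec N (e'.comp (heckeAlphaBar Qb N ℓ).toRingHom) := by
    refine ⟨fun a => ?_, fun d hd => ?_⟩
    · have h1 : (heckeAlphaBar Qb N ℓ).toRingHom (algebraMap Qb _ a) = algebraMap Qb _ a :=
        (heckeAlphaBar Qb N ℓ).commutes a
      rw [RingHom.comp_apply, h1]
      exact he'.1 a
    · have h1 : (heckeAlphaBar Qb N ℓ).toRingHom ⟨ff79_JJ Qb d, ff79_JJ_mem Qb N d hd⟩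
          = ⟨ff79_JJ Qb d, ff79_JJ_mem Qb (N * ℓ) d (hd.trans (dvd_mul_right N ℓ))⟩ := rfl
      rw [RingHom.comp_apply, h1]
      exact he'.2 d (hd.trans (dvd_mul_right N ℓ))
  have h := nm49_spec_unique key he
  have h2 := congrArg (fun k => k x) h
  exact h2

omit [NeZero ℓ] in
/-- `Γ₀(N)`-invariance of `e (F(N))`. -/
theorem nm49_spec_inv {e : ↥(modularFunctionFieldBar N) →+* mer95_MER}
    (he : nm49_EvSpec N e) (γ : SL(2, ℤ)) (hγ : γ ∈ Gamma0 N)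
    (x : ↥(modularFunctionFieldBar N)) : γ • e x = e x := by
  have hj : ∀ (d : ℕ), d ∣ N → γ • nm49_jO d = nm49_jO d := by
    intro d hd
    apply Subtype.ext
    funext τ
    rw [mer95_smul_apply_SL]
    exact ff79_genFn_invariant N d hd γ hγ τ
  have key : nm49_EvSpec N ((nm49_actSL γ).comp e) := by
    refine ⟨fun a => ?_, fun d hd => ?_⟩
    · rw [RingHom.comp_apply, nm49_actSL_apply, he.1 a, mer95_smul_C_SL]
    · rw [RingHom.comp_apply, nm49_actSL_apply, he.2 d hd, mer95_smul_algebraMap_SL, hj d hd]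
  have h := nm49_spec_unique key he
  have h2 := congrArg (fun k => k x) h
  exact h2

omit [NeZero ℓ] in
/-- An element of `SL(2,ℤ)` fixing the image of the generator `j(q^N)` lies in `Γ₀(N)`. -/
theorem nm49_spec_stab_gen {e : ↥(modularFunctionFieldBar N) →+* mer95_MER}
    (he : nm49_EvSpec N e) (γ : SL(2, ℤ))
    (h : γ • e ⟨ff79_JJ Qb N, ff79_JJ_mem Qb N N dvd_rfl⟩
      = e ⟨ff79_JJ Qb N, ff79_JJ_mem Qb N N dvd_rfl⟩) : γ ∈ Gamma0 N := by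
  rw [he.2 N dvd_rfl, mer95_smul_algebraMap_SL] at h
  have h1 : γ • nm49_jO N = nm49_jO N := mer95_algebraMap_injective h
  apply wpA4_stab N γ
  funext τ
  have h2 := congrArg (fun f : mer95_O => f.1 τ) h1
  simp only [mer95_smul_apply_SL] at h2
  exact h2

omit [NeZero ℓ] in
/-- `hstab`: an element of `SL(2,ℤ)` fixing `e (F(N))` pointwise lies in `Γ₀(N)`. -/
theorem nm49_spec_stab {e : ↥(modularFunctionFieldBar N) →+* mer95_MER}
    (he : nm49_EvSpec N e) (γ : SL(2, ℤ))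
    (h : ∀ y : ↥(modularFunctionFieldBar N), γ • e y = e y) : γ ∈ Gamma0 N :=
  nm49_spec_stab_gen he γ (h _)

end Levels

/-- `diag(ℓ, 1)` as an element of `GL(2, ℝ)⁺`. -/
noncomputable def nm49_dl (ℓ : ℕ) [NeZero ℓ] : GL(2, ℝ)⁺ :=
  mer95_gl !![(ℓ : ℤ), 0; 0, 1] (by
    rw [Matrix.det_fin_two_of]
    have : (0 : ℤ) < ℓ := by exact_mod_cast Nat.pos_of_ne_zero (NeZero.ne ℓ)
    linarith)

theorem nm49_dl_smul (ℓ : ℕ) [NeZero ℓ] (τ : ℍ) : nm49_dl ℓ • τ = scaleH ℓ τ := by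
  apply UpperHalfPlane.ext
  rw [coe_scaleH ℓ (NeZero.ne ℓ), nm49_dl, mer95_gl_smul_coe]
  simp

/-- `diag(ℓ,1)⁻¹ • j(d ·) = j(ℓ d ·)`. -/
theorem nm49_dl_inv_smul_jO (ℓ : ℕ) [NeZero ℓ] (d : ℕ) (hd : d ≠ 0) :
    (nm49_dl ℓ)⁻¹ • nm49_jO d = nm49_jO (ℓ * d) := by
  apply Subtype.ext
  funext τ
  rw [mer95_smul_apply, inv_inv, nm49_dl_smul]
  exact ff79_genFn_scale d ℓ hd (NeZero.ne ℓ) τ

theorem nm49_beta_JJ (N ℓ : ℕ) [NeZero N] [NeZero ℓ] (d : ℕ) (hd : d ∣ N) :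
    heckeBetaBar Qb N ℓ ⟨ff79_JJ Qb d, ff79_JJ_mem Qb N d hd⟩
      = ⟨ff79_JJ Qb (ℓ * d), ff79_JJ_mem Qb (N * ℓ) (ℓ * d)
          (by rw [mul_comm N ℓ]; exact mul_dvd_mul_left ℓ hd)⟩ := by
  have hd0 : d ≠ 0 := fun h => NeZero.ne N (by simpa [h] using hd)
  haveI : NeZero d := ⟨hd0⟩
  haveI : NeZero (ℓ * d) := ⟨mul_ne_zero (NeZero.ne ℓ) hd0⟩
  apply Subtype.ext
  rw [coe_heckeBetaBar]
  show qExpand Qb ℓ (ff79_JJ Qb d) = ff79_JJ Qb (ℓ * d)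
  rw [ff79_JJ_of_neZero, ff79_JJ_of_neZero]
  have h1 : qExpand Qb ℓ (coeffEmb Qb (qExpand ℚ d jq))
      = coeffEmb Qb (qExpand ℚ ℓ (qExpand ℚ d jq)) :=
    (coeffMap_qExpand (algebraMap ℚ Qb) ℓ (qExpand ℚ d jq)).symm
  rw [h1, qExpand_qExpand]

section Beta

variable {N ℓ : ℕ} [NeZero N] [NeZero ℓ]

/-- `hbeta`: `e' (β x) = diag(ℓ,1)⁻¹ • e x`, i.e. `τ ↦ (e x)(ℓ τ)`. -/
theorem nm49_spec_beta {e : ↥(modularFunctionFieldBar N) →+* mer95_MER}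
    {e' : ↥(modularFunctionFieldBar (N * ℓ)) →+* mer95_MER}
    (he : nm49_EvSpec N e) (he' : nm49_EvSpec (N * ℓ) e')
    (x : ↥(modularFunctionFieldBar N)) :
    e' (heckeBetaBar Qb N ℓ x) = (nm49_dl ℓ)⁻¹ • e x := by
  have h : e'.comp (heckeBetaBar Qb N ℓ).toRingHom = (nm49_actGL (nm49_dl ℓ)⁻¹).comp e := by
    refine ff79_ringHom_ext _ _ (fun c => ?_) (fun d => ?_)
    · have h1 : (heckeBetaBar Qb N ℓ).toRingHom (algebraMap Qb _ c) = algebraMap Qb _ c :=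
        (heckeBetaBar Qb N ℓ).commutes c
      rw [RingHom.comp_apply, RingHom.comp_apply, nm49_actGL_apply, h1, he'.1 c, he.1 c,
        mer95_smul_C]
    · have hd : d.1 ∣ N := Nat.dvd_of_mem_divisors d.2
      have hd0 : d.1 ≠ 0 := fun h => NeZero.ne N (by simpa [h] using hd)
      have hdvd : ℓ * d.1 ∣ N * ℓ := by rw [mul_comm N ℓ]; exact mul_dvd_mul_left ℓ hd
      have h1 : (heckeBetaBar Qb N ℓ).toRingHom ⟨ff79_JJ Qb d.1, ff79_JJ_mem Qb N d.1 hd⟩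
          = ⟨ff79_JJ Qb (ℓ * d.1), ff79_JJ_mem Qb (N * ℓ) (ℓ * d.1) hdvd⟩ :=
        nm49_beta_JJ N ℓ d.1 hd
      rw [RingHom.comp_apply, RingHom.comp_apply, nm49_actGL_apply, h1, he'.2 (ℓ * d.1) hdvd,
        he.2 d.1 hd, mer95_smul_algebraMap, nm49_dl_inv_smul_jO ℓ d.1 hd0]
  have h2 := congrArg (fun k => k x) h
  exact h2

/-- **(H1), function level.** The image of `Nm_α (β f)` is the product of the `ℓ + 1`
translates of the image of `f` by `q.out * diag(ℓ,1)⁻¹`, `q ∈ Γ₀(N) ⧸ Γ₀(Nℓ)`. -/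
theorem nm49_H1 (hℓ : ℓ.Prime) (hNℓ : ¬ ℓ ∣ N)
    {e : ↥(modularFunctionFieldBar N) →+* mer95_MER}
    {e' : ↥(modularFunctionFieldBar (N * ℓ)) →+* mer95_MER}
    (he : nm49_EvSpec N e) (he' : nm49_EvSpec (N * ℓ) e')
    [Fintype (↥(Gamma0 N) ⧸ (Gamma0 (N * ℓ)).subgroupOf (Gamma0 N))]
    (f : ↥(modularFunctionFieldBar N)) :
    e (hd63_heckeNorm N ℓ f)
      = ∏ q : ↥(Gamma0 N) ⧸ (Gamma0 (N * ℓ)).subgroupOf (Gamma0 N),
          (mer95_slToGL (q.out : SL(2, ℤ)) * (nm49_dl ℓ)⁻¹) • e f := by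
  have h1 := nm49_hecke_hnorm (G := GL(2, ℝ)⁺) (M := mer95_MER) N ℓ hℓ hNℓ
    (mer95_slToGL.comp (Gamma0 N).subtype) e e' (nm49_spec_comp he he')
    (fun γ x => nm49_spec_inv he (γ : SL(2, ℤ)) γ.2 x)
    (fun γ hγ => nm49_spec_stab he' (γ : SL(2, ℤ)) hγ) (heckeBetaBar Qb N ℓ f)
  have h2 : hd63_heckeNorm N ℓ f
      = ht45_normAlong (heckeAlphaBar Qb N ℓ) (heckeBetaBar Qb N ℓ f) := rfl
  rw [h2, h1]
  refine Finset.prod_congr rfl fun q _ => ?_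
  rw [nm49_spec_beta he he', mul_smul]
  rfl

/-- **(H1), root form.** -/
theorem nm49_H1_root (hℓ : ℓ.Prime) (hNℓ : ¬ ℓ ∣ N)
    {e : ↥(modularFunctionFieldBar N) →+* mer95_MER}
    {e' : ↥(modularFunctionFieldBar (N * ℓ)) →+* mer95_MER}
    (he : nm49_EvSpec N e) (he' : nm49_EvSpec (N * ℓ) e')
    [Fintype (↥(Gamma0 N) ⧸ (Gamma0 (N * ℓ)).subgroupOf (Gamma0 N))]
    (p : ℕ) {f : ↥(modularFunctionFieldBar N)} {h : mer95_MER} (hh : h ^ p = e f) :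
    (∏ q : ↥(Gamma0 N) ⧸ (Gamma0 (N * ℓ)).subgroupOf (Gamma0 N),
        (mer95_slToGL (q.out : SL(2, ℤ)) * (nm49_dl ℓ)⁻¹) • h) ^ p
      = e (hd63_heckeNorm N ℓ f) := by
  rw [nm49_H1 hℓ hNℓ he he', ← Finset.prod_pow]
  refine Finset.prod_congr rfl fun q _ => ?_
  rw [← smul_pow', hh]

end Beta

end Fermat.Agent.S42
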