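/-
# S42, seam (G-HEC) (helper45): the Hecke clause of (I-Theta)

`(H1) + (H2) + (H3) ⟹ hT` of `th70_hecke_of`, for `T := heckeOperatorBar N ℓ`,
`T' := heckeHom N ℓ (ZMod p)`, `ev := ff79_ev0 φ N` (any embedding `φ : ℚ̄ →+* ℂ`),
`M := mer95_MER`, `Gam := Γ₀(N)`, `ζ := algebraMap ℂ mer95_MER ζc` with `ζc ^ p = 1`.

* `hg45_hstab`  : an element of `Γ₀(N)` fixing `ev0 (F(N ℓ))` lies in `Γ₀(N ℓ)` (S24 `wpA4_stab`);
* `hg45_hnorm`  : K3-relative along `heckeAlphaBar` for `ev0` (no hypothesis left);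
* `hg45_pair`   : admissible pairs are pushed through `T_ℓ`:
    `(h, f)` admissible for `χ`  ⟹  `(∏_q (q.out * diag(ℓ,1)⁻¹) • h, Nm_α (β f))` admissible for
    `heckeHom N ℓ (ZMod p) χ`;
* `hg45_hT`     : the hypothesis `hT` of `th70_hecke_of`, hypothesis-free;
* `hg45_hecke`  : for any `Θ` computed by admissible pairs (the evaluation clause of
    `th70_exists_theta`), `heckeOperatorBar N ℓ (Θ χ) = Θ ⟨heckeHom N ℓ (ZMod p) χ, _⟩`.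
-/
import Mathlib
import Fermat.Agent.S42.ThetaAbs70
import Fermat.Agent.S42.FunFieldBar79
import Fermat.Agent.S42.HeckeNormInst49
import Fermat.Agent.S42.HeckeDiv63
import Fermat.Agent.S42.HeckeChar45

set_option autoImplicit false
set_option linter.style.haveILetI false

open ModularCurve AlgebraicCurve CongruenceSubgroup UpperHalfPlane
open scoped MatrixGroups
open Fermat.Agent.S24 Fermat.Agent.S16

namespace Fermat.Agent.S42

noncomputable section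

variable (φ : AlgebraicClosure ℚ →+* ℂ)

/-- **Stabiliser.** An element of `SL(2, ℤ)` fixing `ev0 (F(M))` pointwise lies in `Γ₀(M)`. -/
theorem hg45_stab (M : ℕ) [NeZero M] (g : SL(2, ℤ))
    (h : ∀ y : ↥(modularFunctionFieldBar M), g • ff79_ev0 φ M y = ff79_ev0 φ M y) :
    g ∈ Gamma0 M := by
  have h1 := h ⟨ff79_JJ (AlgebraicClosure ℚ) M, ff79_JJ_mem (AlgebraicClosure ℚ) M M dvd_rfl⟩
  rw [ff79_ev0_gen φ M M dvd_rfl, mer95_smul_algebraMap_SL] at h1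
  have h2 : g • ff79_jO M = ff79_jO M := mer95_algebraMap_injective h1
  apply wpA4_stab M
  funext τ
  have h3 := congrArg (fun f : mer95_O => f.1 τ) h2
  simp only [mer95_smul_apply_SL, ff79_jO_apply] at h3
  rw [actFn_apply, genFn_apply, genFn_apply]
  simpa using h3

/-- **(H1)**, hypothesis-free: K3-relative along `heckeAlphaBar` for `ev0`, with the
representatives `Quotient.out` of `Γ₀(N) ⧸ Γ₀(N ℓ)`. -/
theorem hg45_hnorm (N ℓ : ℕ) [NeZero N] [NeZero ℓ] (hℓ : ℓ.Prime) (hNℓ : ¬ ℓ ∣ N)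
    [Fintype (↥(Gamma0 N) ⧸ (Gamma0 (N * ℓ)).subgroupOf (Gamma0 N))]
    (y : ↥(modularFunctionFieldBar (N * ℓ))) :
    ff79_ev0 φ N (ht45_normAlong (heckeAlphaBar (AlgebraicClosure ℚ) N ℓ) y)
      = ∏ q : ↥(Gamma0 N) ⧸ (Gamma0 (N * ℓ)).subgroupOf (Gamma0 N),
          ((q.out : ↥(Gamma0 N)) : SL(2, ℤ)) • ff79_ev0 φ (N * ℓ) y := by
  haveI : NeZero (N * ℓ) := ⟨mul_ne_zero (NeZero.ne N) (NeZero.ne ℓ)⟩
  exact nm49_hecke_hnorm N ℓ hℓ hNℓ (Gamma0 N).subtype (ff79_ev0 φ N) (ff79_ev0 φ (N * ℓ))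
    (ff79_ev0_alpha φ N ℓ) (fun γ x => ff79_ev0_smul φ N γ.1 γ.2 x)
    (fun γ hγ => hg45_stab φ (N * ℓ) γ.1 hγ) y

/-- The `p`-th root of unity in `mer95_MER` attached to `ζc : ℂ`, as a character of `ZMod p`. -/
def hg45_e (p : ℕ) [NeZero p] (ζc : ℂ) (hζ : ζc ^ p = 1) : Multiplicative (ZMod p) →* ℂ where
  toFun x := ζc ^ (Multiplicative.toAdd x).val
  map_one' := by simp
  map_mul' x y := by
    rw [toAdd_mul, ← pow_add, ZMod.val_add, ← pow_eq_pow_mod _ hζ]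

theorem hg45_e_apply (p : ℕ) [NeZero p] (ζc : ℂ) (hζ : ζc ^ p = 1) (a : ZMod p) :
    hg45_e p ζc hζ (Multiplicative.ofAdd a) = ζc ^ a.val := rfl

/-- **Admissible pairs are pushed through `T_ℓ`.**  If `(h, f)` is admissible for `χ` then
`(∏_q (q.out * diag(ℓ,1)⁻¹) • h, Nm_α (β f))` is admissible for `heckeHom N ℓ (ZMod p) χ`. -/
theorem hg45_pair (N ℓ p : ℕ) [NeZero N] [NeZero ℓ] [NeZero p] (hℓ : ℓ.Prime) (hNℓ : ¬ ℓ ∣ N)
    (ζc : ℂ) (hζ : ζc ^ p = 1) (χ : Additive ↥(Gamma0 N) →+ ZMod p)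
    (h : mer95_MER) (f : ↥(modularFunctionFieldBar N))
    (H : th70_Adm (AlgebraicClosure ℚ) (ff79_ev0 φ N) p (algebraMap ℂ mer95_MER ζc) χ h f)
    [Fintype (↥(Gamma0 N) ⧸ (Gamma0 (N * ℓ)).subgroupOf (Gamma0 N))]
    (hdvd : ∀ v : Place (AlgebraicClosure ℚ) ↥(modularFunctionFieldBar N),
      (p : ℤ) ∣ v.ord (hd63_heckeNorm N ℓ f)) :
    th70_Adm (AlgebraicClosure ℚ) (ff79_ev0 φ N) p (algebraMap ℂ mer95_MER ζc)
      (heckeHom N ℓ (ZMod p) χ)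
      (∏ q : ↥(Gamma0 N) ⧸ (Gamma0 (N * ℓ)).subgroupOf (Gamma0 N),
        (mer95_slToGL ((q.out : ↥(Gamma0 N)) : SL(2, ℤ)) * (ff79_diag ℓ)⁻¹) • h)
      (hd63_heckeNorm N ℓ f) := by
  obtain ⟨h0, f0, hchar, hpow, -⟩ := H
  have hh : ∀ γ : ↥(Gamma0 N), (γ : SL(2, ℤ)) • h
      = algebraMap ℂ mer95_MER
          (hg45_e p ζc hζ (Multiplicative.ofAdd (χ (Additive.ofMul γ)))) * h := by
    intro γ
    rw [hg45_e_apply, map_pow]
    exact hchar γ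
  have key := hc45_hecke_pair hℓ hNℓ (heckeBetaBar (AlgebraicClosure ℚ) N ℓ)
    (heckeAlphaBar (AlgebraicClosure ℚ) N ℓ) (ff79_ev0 φ N) (ff79_ev0 φ (N * ℓ)) _
    (ff79_ev0_beta φ N ℓ) (hg45_hnorm φ N ℓ hℓ hNℓ) χ (hg45_e p ζc hζ) h hh p hpow
  refine ⟨key.2.2 h0, hd63_heckeNorm_ne_zero N ℓ f0, fun γ => ?_, key.1, hdvd⟩
  have := key.2.1 γ
  rw [hg45_e_apply, map_pow] at this
  exact this

/-- Finiteness of `Γ₀(N) ⧸ Γ₀(N ℓ)`. -/
theorem hg45_finite (N ℓ : ℕ) (hℓ : ℓ.Prime) (hNℓ : ¬ ℓ ∣ N) :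
    Finite (↥(Gamma0 N) ⧸ (Gamma0 (N * ℓ)).subgroupOf (Gamma0 N)) := by
  obtain ⟨D⟩ := Fermat.Agent.S41.tr43_Data_exists (N := N) (q := ℓ)
    ((Nat.Prime.coprime_iff_not_dvd hℓ).mpr hNℓ)
  exact Fermat.Agent.S41.hid43_finite_quot hℓ D

/-- **(G-HEC): the hypothesis `hT` of `th70_hecke_of`**, for `T := heckeOperatorBar N ℓ`,
`T' := heckeHom N ℓ (ZMod p)`, `ℓ ∤ N` prime; no hypothesis left. -/
theorem hg45_hT (N p : ℕ) [NeZero N] [NeZero p] (ℓ : Nat.Primes) (hNℓ : ¬ (ℓ : ℕ) ∣ N)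
    (ζc : ℂ) (hζ : ζc ^ p = 1) (χ : Additive ↥(Gamma0 N) →+ ZMod p)
    (h : mer95_MER) (f : ↥(modularFunctionFieldBar N))
    (H : th70_Adm (AlgebraicClosure ℚ) (ff79_ev0 φ N) p (algebraMap ℂ mer95_MER ζc) χ h f)
    (D : Divisor.degZero (K := AlgebraicClosure ℚ) (F := ↥(modularFunctionFieldBar N)))
    (hD : th70_IsDivOf p f (D : Divisor (AlgebraicClosure ℚ) ↥(modularFunctionFieldBar N))) :
    ∃ (h' : mer95_MER) (f' : ↥(modularFunctionFieldBar N))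
      (D' : Divisor.degZero (K := AlgebraicClosure ℚ) (F := ↥(modularFunctionFieldBar N))),
      th70_Adm (AlgebraicClosure ℚ) (ff79_ev0 φ N) p (algebraMap ℂ mer95_MER ζc)
          (heckeHom N ℓ (ZMod p) χ) h' f' ∧
        th70_IsDivOf p f' (D' : Divisor (AlgebraicClosure ℚ) ↥(modularFunctionFieldBar N)) ∧
          heckeOperatorBar N ℓ (Pic0.mk D) = Pic0.mk D' := by
  haveI : NeZero (ℓ : ℕ) := ⟨ℓ.2.ne_zero⟩
  haveI : Finite (↥(Gamma0 N) ⧸ (Gamma0 (N * (ℓ : ℕ))).subgroupOf (Gamma0 N)) :=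
    hg45_finite N ℓ ℓ.2 hNℓ
  letI : Fintype (↥(Gamma0 N) ⧸ (Gamma0 (N * (ℓ : ℕ))).subgroupOf (Gamma0 N)) :=
    Fintype.ofFinite _
  obtain ⟨D', hTD, hD'⟩ := hd63_heckeOperatorBar_kummer (N := N) (ℓ := (ℓ : ℕ)) ℓ.2 (p : ℤ) D f
    H.2.1 hD
  refine ⟨_, hd63_heckeNorm N ℓ f, D', hg45_pair φ N ℓ p ℓ.2 hNℓ ζc hζ χ h f H
    (fun v => ⟨_, (hD' v).symm⟩), hD', hTD⟩

/-- **The Hecke clause of (I-Theta)**: for any `Θ` computed by admissible pairs (the evaluation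
clause of `th70_exists_theta`), `heckeOperatorBar N ℓ (Θ χ) = Θ (heckeHom N ℓ (ZMod p) χ)` for
every prime `ℓ ∤ N`. -/
theorem hg45_hecke (N p : ℕ) [NeZero N] [NeZero p] (ζc : ℂ) (hζ : ζc ^ p = 1)
    {Par : AddSubgroup (Additive ↥(Gamma0 N) →+ ZMod p)}
    (hex : ∀ χ ∈ Par, ∃ (h : mer95_MER) (f : ↥(modularFunctionFieldBar N)),
      th70_Adm (AlgebraicClosure ℚ) (ff79_ev0 φ N) p (algebraMap ℂ mer95_MER ζc) χ h f)
    (Θ : Par →+ Pic0 (AlgebraicClosure ℚ) ↥(modularFunctionFieldBar N))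
    (heval : ∀ (χ : Par) (h : mer95_MER) (f : ↥(modularFunctionFieldBar N)),
      th70_Adm (AlgebraicClosure ℚ) (ff79_ev0 φ N) p (algebraMap ℂ mer95_MER ζc)
        (χ : Additive ↥(Gamma0 N) →+ ZMod p) h f →
      ∀ D : Divisor.degZero (K := AlgebraicClosure ℚ) (F := ↥(modularFunctionFieldBar N)),
        th70_IsDivOf p f (D : Divisor (AlgebraicClosure ℚ) ↥(modularFunctionFieldBar N)) →
          Θ χ = Pic0.mk D)
    (ℓ : Nat.Primes) (hNℓ : ¬ (ℓ : ℕ) ∣ N) (χ : Par)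
    (hχ : heckeHom N ℓ (ZMod p) (χ : Additive ↥(Gamma0 N) →+ ZMod p) ∈ Par) :
    heckeOperatorBar N ℓ (Θ χ) = Θ ⟨heckeHom N ℓ (ZMod p) (χ : Additive ↥(Gamma0 N) →+ ZMod p), hχ⟩ := by
  haveI := Fermat.Agent.S37.hi63_hasPrincipalDivisors_bar N
  exact th70_hecke_of hex Θ heval (NeZero.ne p) (heckeOperatorBar N ℓ)
    (fun χ => heckeHom N ℓ (ZMod p) χ)
    (fun χ _ h f H D hD => hg45_hT φ N p ℓ hNℓ ζc hζ χ h f H D hD) χ hχ

end

end Fermat.Agent.S42
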