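/-
# S42, seam (G-HEC) (helper45): the closing term of `th70_HK`

`hk45_HK φ N p : th70_HK φ N p` — the Hecke step on roots of `ThetaFinal70`, with no hypothesis
left (all primes `ℓ ∤ N`).  With `gk5_K2C` (helper5) the only remaining hypothesis of
`th70_final_I_Theta` / `th70_final_W1` is the analytic existence statement (G-X) `th70_X N p`:

* `hk45_I_Theta (hX : th70_X N p)` : (I-Theta);
* `hk45_W1 (hX : th70_X N p) f ψ heig` : (W1).
-/
import Mathlib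
import Fermat.Agent.S42.ThetaFinal70
import Fermat.Agent.S42.K2CInst5
import Fermat.Agent.S42.HeckeGlue45

set_option autoImplicit false
set_option linter.style.haveILetI false

open CongruenceSubgroup ModularCurve ModularCurve.Period AlgebraicCurve UpperHalfPlane
open scoped TensorProduct MatrixGroups

namespace Fermat.Agent.S42

open Fermat.Agent.S16

section

variable (φ : AlgebraicClosure ℚ →+* ℂ) (N : ℕ) [NeZero N] (p : ℕ) [Fact p.Prime]

/-- `ζ_p ^ p = 1` in `ℂ`. -/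
theorem hk45_zeta_pow : (Complex.exp (2 * Real.pi * Complex.I / p)) ^ p = 1 :=
  (Complex.isPrimitiveRoot_exp p (Fact.out : p.Prime).ne_zero).pow_eq_one

/-- **The closing term of `th70_HK`** (seam (G-HEC)): the Hecke step on roots, for every prime
`ℓ ∤ N`. -/
theorem hk45_HK : th70_HK φ N p := by
  intro ℓ _ hℓ hℓNp χ _ h f h0 f0 hchar hpow
  haveI : NeZero p := ⟨(Fact.out : p.Prime).ne_zero⟩
  have hℓN : ¬ ℓ ∣ N := fun hd => hℓNp (hd.mul_right p)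
  haveI : Finite (↥(Gamma0 N) ⧸ (Gamma0 (N * ℓ)).subgroupOf (Gamma0 N)) :=
    hg45_finite N ℓ hℓ hℓN
  letI : Fintype (↥(Gamma0 N) ⧸ (Gamma0 (N * ℓ)).subgroupOf (Gamma0 N)) := Fintype.ofFinite _
  have hh : ∀ γ : ↥(Gamma0 N), (γ : SL(2, ℤ)) • h
      = algebraMap ℂ mer95_MER
          (hg45_e p _ (hk45_zeta_pow p) (Multiplicative.ofAdd (χ (Additive.ofMul γ)))) * h := by
    intro γ
    rw [hg45_e_apply, map_pow]
    exact hchar γ
  have key := hc45_hecke_pair hℓ hℓN (heckeBetaBar (AlgebraicClosure ℚ) N ℓ)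
    (heckeAlphaBar (AlgebraicClosure ℚ) N ℓ) (ff79_ev0 φ N) (ff79_ev0 φ (N * ℓ)) _
    (ff79_ev0_beta φ N ℓ) (hg45_hnorm φ N ℓ hℓ hℓN) χ (hg45_e p _ (hk45_zeta_pow p)) h hh p hpow
  refine ⟨_, key.2.2 h0, fun γ => ?_, key.1⟩
  have := key.2.1 γ
  rw [hg45_e_apply, map_pow] at this
  exact this

include φ in
/-- **(I-Theta)** with only the analytic existence statement (G-X) left (any embedding `φ`). -/
theorem hk45_I_Theta_of (hX : th70_X N p) :
    ∃ Θ : w1a28_Par N p →+ JZero N, Function.Injective Θ ∧ (∀ χ, (p : ℤ) • Θ χ = 0) ∧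
      ∀ ℓ : Nat.Primes, ¬ (ℓ : ℕ) ∣ N * p → ∀ χ : w1a28_Par N p,
        ∃ hχ : heckeHom N ℓ (ZMod p) χ ∈ w1a28_Par N p,
          heckeOperatorBar N ℓ (Θ χ) = Θ ⟨heckeHom N ℓ (ZMod p) χ, hχ⟩ :=
  th70_final_I_Theta φ N p hX (gk5_K2C N p) (hk45_HK φ N p)

/-- **(I-Theta)** with only the analytic existence statement (G-X) left. -/
theorem hk45_I_Theta (hX : th70_X N p) :
    ∃ Θ : w1a28_Par N p →+ JZero N, Function.Injective Θ ∧ (∀ χ, (p : ℤ) • Θ χ = 0) ∧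
      ∀ ℓ : Nat.Primes, ¬ (ℓ : ℕ) ∣ N * p → ∀ χ : w1a28_Par N p,
        ∃ hχ : heckeHom N ℓ (ZMod p) χ ∈ w1a28_Par N p,
          heckeOperatorBar N ℓ (Θ χ) = Θ ⟨heckeHom N ℓ (ZMod p) χ, hχ⟩ :=
  hk45_I_Theta_of Fermat.Agent.S24.phi N p hX

/-- **(W1)** with only (G-X) and (I-EIG) left. -/
theorem hk45_W1 {k0 : Type*} [Field k0] [Algebra (ZMod p) k0]
    (hX : th70_X N p)
    (f : CuspForm (Gamma0 N) 2) (ψ : integralClosure ℤ ℂ →+* k0)
    (heig : ∃ x : k0 ⊗[ZMod p] w1a28_Par N p, x ≠ 0 ∧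
      ∀ ℓ : Nat.Primes, ¬ (ℓ : ℕ) ∣ N * p →
        ∃ a : integralClosure ℤ ℂ, (a : ℂ) = ModularFormClass.qCoeff (⇑f) ℓ ∧
          (w1a28_TX N p ℓ).baseChange k0 ((w1a28_Par N p).subtype.baseChange k0 x)
            = ψ a • (w1a28_Par N p).subtype.baseChange k0 x) :
    ∃ y : k0 ⊗[ZMod p] w1a28_J N p, y ≠ 0 ∧
      ∀ ℓ : Nat.Primes, ¬ (ℓ : ℕ) ∣ N * p →
        ∃ a : integralClosure ℤ ℂ, (a : ℂ) = ModularFormClass.qCoeff (⇑f) ℓ ∧
          (w1a28_TJ N p ℓ).baseChange k0 y = ψ a • y :=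
  th70_final_W1 Fermat.Agent.S24.phi N p hX (gk5_K2C N p) (hk45_HK Fermat.Agent.S24.phi N p) f ψ heig

end

end Fermat.Agent.S42
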