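import Fermat.Agent.S42.HeckeEvSpec49
import Fermat.Agent.S42.HeckeChar45
import Fermat.Agent.S42.FunFieldBar79
import Fermat.Agent.S42.ThetaInst70

/-!
# S42, row M8f / seam (G-H1)+(G-HEC) (helper49): the Hecke hypothesis `hHK` of `th70_I_Theta` /
`th70_W1`, LITERALLY, for `ev0 := ff79_ev0 phi N`

Twin route through the generator spec (`HeckeEvSpec49`):

* `nm49_spec_ff79`  : `ff79_ev0 phi N` satisfies `nm49_EvSpec N`;
* `nm49_expChar p`  : the character `a ↦ exp(2πi/p) ^ a.val` of `ZMod p`;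
* `nm49_hHK`        : hypothesis (5) `hHK` of `th70_I_Theta N p (ff79_ev0 phi N)`: the root
  `h' := ∏ q : Γ₀(N) ⧸ Γ₀(Nℓ), (q.out * diag(ℓ,1)⁻¹) • h` is nonzero, has character
  `heckeHom N ℓ (ZMod p) χ` (`hc45_char`) and `h' ^ p = ev0 (Nm_α (β f))` (`nm49_H1_root`);
* `nm49_hHK_spec`   : the same for any `ev0` with the generator spec at all levels.
-/

set_option autoImplicit false
set_option linter.style.haveILetI false
set_option synthInstance.maxHeartbeats 400000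

open ModularCurve ModularCurve.Period AlgebraicCurve CongruenceSubgroup MatrixGroups
open UpperHalfPlane
open Fermat.Agent.S16 Fermat.Agent.S24 Fermat.Agent.S37 Fermat.Agent.S18 Fermat.Agent.S41

namespace Fermat.Agent.S42

local notation "Qb" => AlgebraicClosure ℚ

/-- `ff79_ev0 phi N` satisfies the generator spec. -/
theorem nm49_spec_ff79 (N : ℕ) [NeZero N] : nm49_EvSpec N (ff79_ev0 phi N) :=
  ⟨fun a => ff79_ev0_C phi N a, fun d hd => ff79_ev0_gen phi N d hd⟩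

theorem nm49_exp_pow (p : ℕ) [NeZero p] :
    Complex.exp (2 * Real.pi * Complex.I / p) ^ p = 1 :=
  (Complex.isPrimitiveRoot_exp p (NeZero.ne p)).pow_eq_one

/-- The character `a ↦ exp(2πi/p) ^ a.val` of `ZMod p`. -/
noncomputable def nm49_expChar (p : ℕ) [NeZero p] : Multiplicative (ZMod p) →* ℂ where
  toFun a := Complex.exp (2 * Real.pi * Complex.I / p) ^ (Multiplicative.toAdd a).val
  map_one' := by simp
  map_mul' a b := by
    rw [toAdd_mul]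
    exact th70_zeta_pow_add (nm49_exp_pow p) _ _

theorem nm49_expChar_apply (p : ℕ) [NeZero p] (a : ZMod p) :
    algebraMap ℂ mer95_MER (nm49_expChar p (Multiplicative.ofAdd a)) = th70_zeta p ^ a.val := by
  rw [th70_zeta, ← map_pow]
  rfl

/-- The quotient `Γ₀(N) ⧸ Γ₀(Nℓ)` is finite. -/
theorem nm49_finite_quot (N ℓ : ℕ) [NeZero N] (hℓ : ℓ.Prime) (hNℓ : ¬ ℓ ∣ N) :
    Finite (↥(Gamma0 N) ⧸ (Gamma0 (N * ℓ)).subgroupOf (Gamma0 N)) := by
  haveI : NeZero ℓ := ⟨hℓ.ne_zero⟩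
  haveI : ((Gamma0 (N * ℓ)).subgroupOf (Gamma0 N)).FiniteIndex :=
    ⟨by
      have h := gi41_relindex N ℓ hℓ hNℓ
      rw [Subgroup.relIndex] at h
      rw [h]; omega⟩
  exact Subgroup.finite_quotient_of_finiteIndex

/-- **`hHK` from the generator spec.** -/
theorem nm49_hHK_spec (N : ℕ) [NeZero N] (p : ℕ) [Fact p.Prime]
    (ev : ∀ (M : ℕ) [NeZero M], ↥(modularFunctionFieldBar M) →+* mer95_MER)
    (hev : ∀ (M : ℕ) [NeZero M], nm49_EvSpec M (ev M))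
    (ℓ : ℕ) [NeZero ℓ] (hℓ : ℓ.Prime) (hℓN : ¬ ℓ ∣ N * p)
    (χ : Additive ↥(Gamma0 N) →+ ZMod p)
    (h : mer95_MER) (f : ↥(modularFunctionFieldBar N)) (h0 : h ≠ 0)
    (hchar : th70_IsChar p (th70_zeta p) χ h) (hpow : h ^ p = ev N f) :
    ∃ h' : mer95_MER, h' ≠ 0 ∧ th70_IsChar p (th70_zeta p) (heckeHom N ℓ (ZMod p) χ) h' ∧
      h' ^ p = ev N (hd63_heckeNorm N ℓ f) := by
  haveI : NeZero p := ⟨(Fact.out : p.Prime).ne_zero⟩
  have hNℓ : ¬ ℓ ∣ N := fun hd => hℓN (Dvd.dvd.mul_right hd p)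
  haveI := nm49_finite_quot N ℓ hℓ hNℓ
  letI : Fintype (↥(Gamma0 N) ⧸ (Gamma0 (N * ℓ)).subgroupOf (Gamma0 N)) := Fintype.ofFinite _
  refine ⟨∏ q : ↥(Gamma0 N) ⧸ (Gamma0 (N * ℓ)).subgroupOf (Gamma0 N),
      (mer95_slToGL (q.out : SL(2, ℤ)) * (nm49_dl ℓ)⁻¹) • h,
    ht45_prod_ne_zero _ h0, fun γ => ?_, nm49_H1_root hℓ hNℓ (hev N) (hev (N * ℓ)) p hpow⟩
  have key := hc45_char hℓ hNℓ χ (nm49_expChar p) h
    (fun γ => by
      rw [nm49_expChar_apply]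
      exact hchar γ)
    (by
      rw [Matrix.det_fin_two_of]
      have : (0 : ℤ) < ℓ := by exact_mod_cast Nat.pos_of_ne_zero (NeZero.ne ℓ)
      linarith) γ
  rw [nm49_expChar_apply] at key
  exact key

/-- **Hypothesis (5) `hHK` of `th70_I_Theta N p (ff79_ev0 phi N)` / `th70_W1`, literally.** -/
theorem nm49_hHK (N : ℕ) [NeZero N] (p : ℕ) [Fact p.Prime] :
    ∀ (ℓ : ℕ) [NeZero ℓ], ℓ.Prime → ¬ ℓ ∣ N * p → ∀ χ ∈ w1a28_Par N p,
      ∀ (h : mer95_MER) (f : ↥(modularFunctionFieldBar N)), h ≠ 0 → f ≠ 0 →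
        th70_IsChar p (th70_zeta p) χ h → h ^ p = ff79_ev0 phi N f →
          ∃ h' : mer95_MER, h' ≠ 0 ∧ th70_IsChar p (th70_zeta p) (heckeHom N ℓ (ZMod p) χ) h' ∧
            h' ^ p = ff79_ev0 phi N (hd63_heckeNorm N ℓ f) := by
  intro ℓ _ hℓ hℓN χ _ h f h0 _ hchar hpow
  exact nm49_hHK_spec N p (fun M _ => ff79_ev0 phi M) (fun M _ => nm49_spec_ff79 M)
    ℓ hℓ hℓN χ h f h0 hchar hpow

end Fermat.Agent.S42
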