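import Fermat.Agent.S42.HeckeHK10

/-!
# S42 / riders S29, S30, S31 (helper10): the Hecke step on roots at an ARBITRARY modulus `m`

`hk10_HK_mod`: the statement of `hk10_HK` (`th70_HK φ N p`) with the prime `p` replaced by any
`m ≠ 0`, for an arbitrary character `χ : Additive Γ₀(N) →+ ZMod m` (no parabolicity), and without
the hypothesis `f ≠ 0`:  for a prime `ℓ ∤ N`, `h ≠ 0` with `γ • h = ζ_m ^ (χ γ).val * h` on `Γ₀(N)`
and `h ^ m = ev0 f`, the product of translates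
`H := ∏ q : Γ₀(N) ⧸ Γ₀(N ℓ), (q.out * diag(ℓ, 1)⁻¹) • h` is nonzero, has character
`heckeHom N ℓ (ZMod m) χ`, and `H ^ m = ev0 (hd63_heckeNorm N ℓ f)`.

`hk10_hT_mod` packages it with `hd63_heckeOperatorBar_kummer` into the pair-level Hecke step
(`hT` of `th70_hecke_of` / `tm86_hecke_int`) at modulus `m`, for an arbitrary character.
-/

set_option autoImplicit false
set_option linter.unusedSectionVars false
set_option linter.unusedVariables false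
set_option linter.style.longLine false
set_option linter.style.haveILetI false

open CongruenceSubgroup ModularCurve AlgebraicCurve UpperHalfPlane
open scoped MatrixGroups

namespace Fermat.Agent.S42

open Fermat.Agent.S16 Fermat.Agent.S24

local notation "Qb" => AlgebraicClosure ℚ

/-- **The Hecke step on roots at modulus `m`.** -/
theorem hk10_HK_mod (φ : Qb →+* ℂ) (N : ℕ) [NeZero N] (m : ℕ) [NeZero m]
    (ℓ : ℕ) [NeZero ℓ] (hℓ : ℓ.Prime) (hℓN : ¬ ℓ ∣ N)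
    (χ : Additive (Gamma0 N) →+ ZMod m) (h : mer95_MER) (f : ↥(modularFunctionFieldBar N))
    (h0 : h ≠ 0) (hchar : th70_IsChar m (th70_zeta m) χ h) (hpow : h ^ m = ff79_ev0 φ N f) :
    ∃ h' : mer95_MER, h' ≠ 0 ∧ th70_IsChar m (th70_zeta m) (heckeHom N ℓ (ZMod m) χ) h' ∧
      h' ^ m = ff79_ev0 φ N (hd63_heckeNorm N ℓ f) := by
  have hpos : 0 < (!![(ℓ : ℤ), 0; 0, 1] : Matrix (Fin 2) (Fin 2) ℤ).det := by
    rw [Matrix.det_fin_two_of]
    have : (0 : ℤ) < ℓ := by exact_mod_cast hℓ.pos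
    linarith
  haveI : ((Gamma0 (N * ℓ)).subgroupOf (Gamma0 N)).FiniteIndex := ⟨by
    have h1 := gi41_relindex N ℓ hℓ hℓN
    rw [Subgroup.relIndex] at h1
    rw [h1]
    exact Nat.succ_ne_zero ℓ⟩
  letI : Fintype (↥(Gamma0 N) ⧸ (Gamma0 (N * ℓ)).subgroupOf (Gamma0 N)) := Fintype.ofFinite _
  have hh : ∀ γ : Gamma0 N, (γ : SL(2, ℤ)) • h
      = algebraMap ℂ mer95_MER (hk10_e m (Multiplicative.ofAdd (χ (Additive.ofMul γ)))) * h := by
    intro γ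
    rw [hk10_e_apply]
    exact hchar γ
  obtain ⟨k1, k2, k3⟩ := hc45_hecke_pair (N := N) (ℓ := ℓ) (K := Qb) hℓ hℓN
    (heckeBetaBar Qb N ℓ) (heckeAlphaBar Qb N ℓ) (ff79_ev0 φ N) (ff79_ev0 φ (N * ℓ)) hpos
    (fun x => ff79_ev0_beta φ N ℓ x)
    (fun w => nm49_hecke_hnorm N ℓ hℓ hℓN (mer95_slToGL.comp (Gamma0 N).subtype)
      (ff79_ev0 φ N) (ff79_ev0 φ (N * ℓ)) (ff79_ev0_alpha φ N ℓ)
      (fun γ x => ff79_ev0_fix φ N γ x)
      (fun γ hγ => hk10_stab φ (N * ℓ) (γ : SL(2, ℤ)) hγ) w)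
    χ (hk10_e m) h hh m hpow
  refine ⟨_, k3 h0, ?_, k1⟩
  intro γ
  rw [← hk10_e_apply]
  exact k2 γ

/-- **The pair-level Hecke step at modulus `m`** (`hT` of `th70_hecke_of` / `tm86_hecke_int` for
`T := heckeOperatorBar N ℓ`, `T' := heckeHom N ℓ (ZMod m)`), for an arbitrary character `χ`. -/
theorem hk10_hT_mod (φ : Qb →+* ℂ) (N : ℕ) [NeZero N] (m : ℕ) [NeZero m]
    (ℓ : ℕ) (hℓ : ℓ.Prime) (hℓN : ¬ ℓ ∣ N)
    (χ : Additive (Gamma0 N) →+ ZMod m) (h : mer95_MER) (f : ↥(modularFunctionFieldBar N))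
    (H : th70_Adm Qb (ff79_ev0 φ N) m (th70_zeta m) χ h f)
    (D : Divisor.degZero (K := Qb) (F := ↥(modularFunctionFieldBar N)))
    (hD : th70_IsDivOf m f (D : Divisor Qb ↥(modularFunctionFieldBar N))) :
    ∃ (h' : mer95_MER) (f' : ↥(modularFunctionFieldBar N))
      (D' : Divisor.degZero (K := Qb) (F := ↥(modularFunctionFieldBar N))),
      th70_Adm Qb (ff79_ev0 φ N) m (th70_zeta m) (heckeHom N ℓ (ZMod m) χ) h' f' ∧
        th70_IsDivOf m f' (D' : Divisor Qb ↥(modularFunctionFieldBar N)) ∧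
          heckeOperatorBar N ⟨ℓ, hℓ⟩ (Pic0.mk D) = Pic0.mk D' := by
  obtain ⟨h0, f0, hchar, hpow, hdvd⟩ := H
  haveI : NeZero ℓ := ⟨hℓ.ne_zero⟩
  obtain ⟨h', h'0, hchar', hpow'⟩ := hk10_HK_mod φ N m ℓ hℓ hℓN χ h f h0 hchar hpow
  obtain ⟨D', hTD, hD'⟩ :=
    hd63_heckeOperatorBar_kummer (N := N) (ℓ := ℓ) hℓ (m : ℤ) D f f0 hD
  exact ⟨h', hd63_heckeNorm N ℓ f, D',
    ⟨h'0, hd63_heckeNorm_ne_zero N ℓ f0, hchar', hpow', fun v => ⟨_, (hD' v).symm⟩⟩, hD', hTD⟩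

end Fermat.Agent.S42
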