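import Fermat.Agent.S42.ThetaAbsZ31
import Fermat.Agent.S42.ThetaInst70
import Fermat.Agent.S42.HeckePar88

/-!
# Riders S30 / S31, row THETA-Z (helper31): `Θ_m : Hom_par(Γ₀(N), ℤ) → J₀(N)(ℚ̄)[m]`

The concrete Kummer map at an ARBITRARY modulus `m ≠ 0` on the lattice
`L = parabolicHoms ℤ (Gamma0 N) ℤ` of integral parabolic homomorphisms: instantiation of
`ThetaAbsZ31` at `K = ℚ̄`, `F = modularFunctionFieldBar N`, `M = mer95_MER`, `Gam = Γ₀(N)`,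
`ζ = exp(2πi/m)` (`th70_zeta m`).  The analytic inputs are PLAIN hypotheses, literally the ones of
helper70's `th70_I_Theta` with the prime `p` replaced by the modulus `m` and `ZMod p`-valued
characters replaced by integral ones:

* `ev0`, `hfix` : the evaluation `F_ℚ̄(N) → MER` with `Γ₀(N)`-invariant image;
* `hK2`  : a `Γ₀(N)`-invariant `x ≠ 0` with `x ^ m = ev0 f` forces `f = a • w ^ m`;
* `hex`  : every integral parabolic `χ` has an admissible pair at modulus `m`;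
* `hHK`  : the Hecke step on roots.

Conclusions:

* `thz31_I_Theta_Z_eval`, `thz31_I_Theta_Z` : **(I-Theta-Z)** — `Θ : L →+ JZero N` killed by `m`,
  with kernel inside `m • L`, commuting with the Hecke operators at the primes `ℓ ∤ N m`;
* `thz31_I_Theta_family` : the compatible family `Θ_n` at the moduli `p ^ n`,
  `p • Θ_{n+1} = Θ_n`.
-/

set_option autoImplicit false
set_option linter.unusedSectionVars false
set_option linter.unusedVariables false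
set_option linter.style.longLine false
set_option linter.style.haveILetI false

open CongruenceSubgroup ModularCurve ModularCurve.Period AlgebraicCurve UpperHalfPlane
open IntermediateField
open scoped TensorProduct MatrixGroups

namespace Fermat.Agent.S42

open Fermat.Agent.S16 Fermat.Agent.S24 Fermat.Agent.S37 Fermat.Agent.S18

/-- The lattice of integral parabolic homomorphisms of `Γ₀(N)`. -/
abbrev thz31_L (N : ℕ) : Submodule ℤ (Additive (Gamma0 N) →+ ℤ) :=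
  parabolicHoms ℤ (Gamma0 N) ℤ

/-- `L` is saturated: an integral parabolic hom all of whose values are divisible by `m` is `m`
times an integral parabolic hom. -/
theorem thz31_saturated (N : ℕ) (m : ℕ) (hm : m ≠ 0) (χ : Additive (Gamma0 N) →+ ℤ)
    (hχ : χ ∈ thz31_L N) (hdvd : ∀ g : Additive (Gamma0 N), (m : ℤ) ∣ χ g) :
    ∃ χ' ∈ thz31_L N, χ = m • χ' := by
  have hm' : (m : ℤ) ≠ 0 := by exact_mod_cast hm
  let χ' : Additive (Gamma0 N) →+ ℤ :=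
    { toFun := fun g => χ g / (m : ℤ)
      map_zero' := by simp
      map_add' := fun a b => by
        show χ (a + b) / (m : ℤ) = χ a / (m : ℤ) + χ b / (m : ℤ)
        rw [map_add, Int.add_ediv_of_dvd_left (hdvd a)] }
  refine ⟨χ', fun γ hγ => ?_, ?_⟩
  · show χ (Additive.ofMul γ) / (m : ℤ) = 0
    rw [hχ γ hγ, Int.zero_ediv]
  · refine DFunLike.ext _ _ fun g => ?_
    show χ g = (m • χ') g
    rw [AddMonoidHom.nsmul_apply]
    show χ g = m • (χ g / (m : ℤ))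
    rw [nsmul_eq_mul, Int.mul_ediv_cancel' (hdvd g)]

/-- `ζ_{k m} ^ k = ζ_m` for `ζ_n = exp(2πi/n)`. -/
theorem thz31_zeta_pow (k m : ℕ) (hk : k ≠ 0) (hm : m ≠ 0) :
    th70_zeta (k * m) ^ k = th70_zeta m := by
  have hk' : (k : ℂ) ≠ 0 := by exact_mod_cast hk
  have hm' : (m : ℂ) ≠ 0 := by exact_mod_cast hm
  unfold th70_zeta
  rw [← map_pow, ← Complex.exp_nat_mul]
  congr 2
  push_cast
  field_simp

section thz31_inst

variable (N : ℕ) [NeZero N] (m : ℕ) [NeZero m]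

/-- **(I-Theta-Z), with the evaluation clause.** -/
theorem thz31_I_Theta_Z_eval
    (ev0 : ↥(modularFunctionFieldBar N) →+* mer95_MER)
    (hfix : ∀ (γ : ↥(Gamma0 N)) (f : ↥(modularFunctionFieldBar N)), γ • ev0 f = ev0 f)
    (hK2 : ∀ x : mer95_MER, x ≠ 0 → (∀ γ : ↥(Gamma0 N), γ • x = x) →
      ∀ f : ↥(modularFunctionFieldBar N), x ^ m = ev0 f →
        ∃ (w : ↥(modularFunctionFieldBar N)) (a : AlgebraicClosure ℚ),
          f = algebraMap (AlgebraicClosure ℚ) ↥(modularFunctionFieldBar N) a * w ^ m)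
    (hex : ∀ χ ∈ thz31_L N, ∃ (h : mer95_MER) (f : ↥(modularFunctionFieldBar N)),
      thz31_AdmZ (AlgebraicClosure ℚ) ev0 m (th70_zeta m) χ h f)
    (hHK : ∀ (ℓ : ℕ) [NeZero ℓ], ℓ.Prime → ¬ ℓ ∣ N * m → ∀ χ ∈ thz31_L N,
      ∀ (h : mer95_MER) (f : ↥(modularFunctionFieldBar N)), h ≠ 0 → f ≠ 0 →
        thz31_IsCharZ (th70_zeta m) χ h → h ^ m = ev0 f →
          ∃ h' : mer95_MER, h' ≠ 0 ∧ thz31_IsCharZ (th70_zeta m) (heckeHom N ℓ ℤ χ) h' ∧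
            h' ^ m = ev0 (hd63_heckeNorm N ℓ f)) :
    ∃ Θ : ↥(thz31_L N) →+ JZero N,
      (∀ χ, (m : ℤ) • Θ χ = 0) ∧
      (∀ χ, Θ χ = 0 → ∃ χ' : ↥(thz31_L N), χ = m • χ') ∧
      (∀ ℓ : Nat.Primes, ¬ (ℓ : ℕ) ∣ N * m → ∀ χ : ↥(thz31_L N),
        ∃ hχ : heckeHom N ℓ ℤ χ ∈ thz31_L N,
          heckeOperatorBar N ℓ (Θ χ) = Θ ⟨heckeHom N ℓ ℤ χ, hχ⟩) ∧
      ∀ (χ : ↥(thz31_L N)) (h : mer95_MER) (f : ↥(modularFunctionFieldBar N)),
        thz31_AdmZ (AlgebraicClosure ℚ) ev0 m (th70_zeta m)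
          (χ : Additive (Gamma0 N) →+ ℤ) h f →
        ∀ D : Divisor.degZero (K := AlgebraicClosure ℚ) (F := ↥(modularFunctionFieldBar N)),
          th70_IsDivOf m f (D : Divisor (AlgebraicClosure ℚ) ↥(modularFunctionFieldBar N)) →
            Θ χ = Pic0.mk D := by
  have hm : m ≠ 0 := NeZero.ne m
  haveI := hi63_hasPrincipalDivisors_bar N
  have hroot : ∀ a : AlgebraicClosure ℚ, ∃ b : AlgebraicClosure ℚ, b ^ m = a :=
    fun a => IsAlgClosed.exists_pow_nat_eq a (Nat.pos_of_ne_zero hm)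
  have hex' : ∀ χ ∈ (thz31_L N).toAddSubgroup,
      ∃ (h : mer95_MER) (f : ↥(modularFunctionFieldBar N)),
        thz31_AdmZ (AlgebraicClosure ℚ) ev0 m (th70_zeta m) χ h f := hex
  obtain ⟨Θ, htors, hker, heval⟩ := thz31_exists_thetaZ (K := AlgebraicClosure ℚ) ev0 m
    (th70_zeta m) (th70_zeta_isPrimitiveRoot m hm) (th70_zeta_fix N m) hfix hK2 (th70_const N)
    hroot (thz31_L N).toAddSubgroup hex'
  refine ⟨Θ, htors, fun χ h0 => ?_, fun ℓ hℓ χ => ?_, heval⟩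
  · obtain ⟨χ', hχ', he⟩ := thz31_saturated N m hm χ.1 χ.2 ((hker χ).mp h0)
    exact ⟨⟨χ', hχ'⟩, Subtype.ext he⟩
  · have hχ : heckeHom N ℓ ℤ χ ∈ thz31_L N := hpg88_mem_parabolicHoms_prime ℓ.2 ℤ χ.2
    refine ⟨hχ, ?_⟩
    refine thz31_hecke_of (K := AlgebraicClosure ℚ) hex' Θ heval hm
      (heckeOperatorBar N ℓ).toAddMonoidHom (fun χ => heckeHom N ℓ ℤ χ) ?_ χ hχ
    intro χ hχ h f H D hD
    obtain ⟨h0, f0, hchar, hpow, hdvd⟩ := H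
    haveI : NeZero (ℓ : ℕ) := ⟨ℓ.2.ne_zero⟩
    obtain ⟨h', h'0, hchar', hpow'⟩ := hHK (ℓ : ℕ) ℓ.2 hℓ χ hχ h f h0 f0 hchar hpow
    obtain ⟨D', hTD, hD'⟩ :=
      hd63_heckeOperatorBar_kummer (N := N) (ℓ := (ℓ : ℕ)) ℓ.2 (m : ℤ) D f f0 hD
    exact ⟨h', hd63_heckeNorm N ℓ f, D',
      ⟨h'0, hd63_heckeNorm_ne_zero N ℓ f0, hchar', hpow', fun v => ⟨_, (hD' v).symm⟩⟩, hD', hTD⟩

/-- **(I-Theta-Z)**: `Θ_m` on the lattice of integral parabolic homomorphisms. -/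
theorem thz31_I_Theta_Z
    (ev0 : ↥(modularFunctionFieldBar N) →+* mer95_MER)
    (hfix : ∀ (γ : ↥(Gamma0 N)) (f : ↥(modularFunctionFieldBar N)), γ • ev0 f = ev0 f)
    (hK2 : ∀ x : mer95_MER, x ≠ 0 → (∀ γ : ↥(Gamma0 N), γ • x = x) →
      ∀ f : ↥(modularFunctionFieldBar N), x ^ m = ev0 f →
        ∃ (w : ↥(modularFunctionFieldBar N)) (a : AlgebraicClosure ℚ),
          f = algebraMap (AlgebraicClosure ℚ) ↥(modularFunctionFieldBar N) a * w ^ m)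
    (hex : ∀ χ ∈ thz31_L N, ∃ (h : mer95_MER) (f : ↥(modularFunctionFieldBar N)),
      thz31_AdmZ (AlgebraicClosure ℚ) ev0 m (th70_zeta m) χ h f)
    (hHK : ∀ (ℓ : ℕ) [NeZero ℓ], ℓ.Prime → ¬ ℓ ∣ N * m → ∀ χ ∈ thz31_L N,
      ∀ (h : mer95_MER) (f : ↥(modularFunctionFieldBar N)), h ≠ 0 → f ≠ 0 →
        thz31_IsCharZ (th70_zeta m) χ h → h ^ m = ev0 f →
          ∃ h' : mer95_MER, h' ≠ 0 ∧ thz31_IsCharZ (th70_zeta m) (heckeHom N ℓ ℤ χ) h' ∧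
            h' ^ m = ev0 (hd63_heckeNorm N ℓ f)) :
    ∃ Θ : ↥(parabolicHoms ℤ (Gamma0 N) ℤ) →+ JZero N,
      (∀ χ, (m : ℤ) • Θ χ = 0) ∧
      (∀ χ, Θ χ = 0 → ∃ χ' : ↥(parabolicHoms ℤ (Gamma0 N) ℤ), χ = m • χ') ∧
      ∀ ℓ : Nat.Primes, ¬ (ℓ : ℕ) ∣ N * m → ∀ χ : ↥(parabolicHoms ℤ (Gamma0 N) ℤ),
        ∃ hχ : heckeHom N ℓ ℤ χ ∈ parabolicHoms ℤ (Gamma0 N) ℤ,
          heckeOperatorBar N ℓ (Θ χ) = Θ ⟨heckeHom N ℓ ℤ χ, hχ⟩ := by
  obtain ⟨Θ, h1, h2, h3, -⟩ := thz31_I_Theta_Z_eval N m ev0 hfix hK2 hex hHK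
  exact ⟨Θ, h1, h2, h3⟩

end thz31_inst

/-- **The compatible family `Θ_n` at the moduli `p ^ n`** (input of the Tate-module riders):
each `Θ n` is (I-Theta-Z) at modulus `p ^ n`, and `p • Θ (n + 1) = Θ n`. -/
theorem thz31_I_Theta_family (N : ℕ) [NeZero N] (p : ℕ) (hp : p ≠ 0)
    (ev0 : ↥(modularFunctionFieldBar N) →+* mer95_MER)
    (hfix : ∀ (γ : ↥(Gamma0 N)) (f : ↥(modularFunctionFieldBar N)), γ • ev0 f = ev0 f)
    (hK2 : ∀ n : ℕ, ∀ x : mer95_MER, x ≠ 0 → (∀ γ : ↥(Gamma0 N), γ • x = x) →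
      ∀ f : ↥(modularFunctionFieldBar N), x ^ (p ^ n) = ev0 f →
        ∃ (w : ↥(modularFunctionFieldBar N)) (a : AlgebraicClosure ℚ),
          f = algebraMap (AlgebraicClosure ℚ) ↥(modularFunctionFieldBar N) a * w ^ (p ^ n))
    (hex : ∀ n : ℕ, ∀ χ ∈ thz31_L N, ∃ (h : mer95_MER) (f : ↥(modularFunctionFieldBar N)),
      thz31_AdmZ (AlgebraicClosure ℚ) ev0 (p ^ n) (th70_zeta (p ^ n)) χ h f)
    (hHK : ∀ n : ℕ, ∀ (ℓ : ℕ) [NeZero ℓ], ℓ.Prime → ¬ ℓ ∣ N * p ^ n → ∀ χ ∈ thz31_L N,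
      ∀ (h : mer95_MER) (f : ↥(modularFunctionFieldBar N)), h ≠ 0 → f ≠ 0 →
        thz31_IsCharZ (th70_zeta (p ^ n)) χ h → h ^ (p ^ n) = ev0 f →
          ∃ h' : mer95_MER, h' ≠ 0 ∧
            thz31_IsCharZ (th70_zeta (p ^ n)) (heckeHom N ℓ ℤ χ) h' ∧
            h' ^ (p ^ n) = ev0 (hd63_heckeNorm N ℓ f)) :
    ∃ Θ : ℕ → (↥(parabolicHoms ℤ (Gamma0 N) ℤ) →+ JZero N),
      (∀ n χ, ((p ^ n : ℕ) : ℤ) • Θ n χ = 0) ∧
      (∀ n χ, Θ n χ = 0 → ∃ χ' : ↥(parabolicHoms ℤ (Gamma0 N) ℤ), χ = (p ^ n) • χ') ∧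
      (∀ (n : ℕ) (ℓ : Nat.Primes), ¬ (ℓ : ℕ) ∣ N * p ^ n →
        ∀ χ : ↥(parabolicHoms ℤ (Gamma0 N) ℤ),
          ∃ hχ : heckeHom N ℓ ℤ χ ∈ parabolicHoms ℤ (Gamma0 N) ℤ,
            heckeOperatorBar N ℓ (Θ n χ) = Θ n ⟨heckeHom N ℓ ℤ χ, hχ⟩) ∧
      ∀ n χ, (p : ℤ) • Θ (n + 1) χ = Θ n χ := by
  have hne : ∀ n : ℕ, NeZero (p ^ n) := fun n => ⟨pow_ne_zero n hp⟩
  choose Θ h1 h2 h3 h4 using fun n : ℕ =>
    @thz31_I_Theta_Z_eval N _ (p ^ n) (hne n) ev0 hfix (hK2 n) (hex n) (hHK n)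
  haveI := hi63_hasPrincipalDivisors_bar N
  refine ⟨Θ, h1, h2, h3, fun n χ => ?_⟩
  exact thz31_level' (K := AlgebraicClosure ℚ) (L := (thz31_L N).toAddSubgroup)
    (pow_succ' p n) (pow_ne_zero n hp) hp
    (by rw [pow_succ']; exact thz31_zeta_pow p (p ^ n) hp (pow_ne_zero n hp))
    (Θ n) (Θ (n + 1)) (h4 n) (h4 (n + 1)) (hex (n + 1)) χ

end Fermat.Agent.S42
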