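import Fermat.Agent.S42.HeckeGlue45
import Fermat.Agent.S42.HeckeHK49
import Fermat.Agent.S42.ThetaInstZ31

/-!
# S42 / THETA-Z row Z3 (helper49): the Hecke step on roots at an ARBITRARY modulus `m`,
for integral characters and for `ZMod m`-valued characters

`ev0 := ff79_ev0 φ N` for an arbitrary embedding `φ : ℚ̄ →+* ℂ`.  For a prime `ℓ ∤ N`, the root
`h' := ∏ q : Γ₀(N) ⧸ Γ₀(Nℓ), (q.out * diag(ℓ,1)⁻¹) • h` is nonzero, satisfies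
`h' ^ m = ev0 (Nm_α (β f))` whenever `h ^ m = ev0 f` (any `m : ℕ`), and:

* `nm49_hHK_Z_unit` : if `γ • h = ζ ^ χ(γ) * h` with `χ` INTEGRAL and `ζ` any nonzero complex
  constant, then `γ • h' = ζ ^ (heckeHom N ℓ ℤ χ)(γ) * h'` (no modulus at all in the character);
* `nm49_hHK_Z`      : **literally the hypothesis `hHK` of `thz31_I_Theta_Z`** (any `m`);
* `nm49_hHK_Z_family` : literally the hypothesis `hHK` of `thz31_I_Theta_family` (`m = p ^ n`);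
* `nm49_hHK_mod`    : the `ZMod m` form (`th70_IsChar m (th70_zeta m)`), `[NeZero m]`;
  for `m = p` prime it is `th70_HK φ N p`.
-/

set_option autoImplicit false
set_option linter.style.haveILetI false
set_option synthInstance.maxHeartbeats 400000

open ModularCurve ModularCurve.Period AlgebraicCurve CongruenceSubgroup MatrixGroups
open UpperHalfPlane
open Fermat.Agent.S16 Fermat.Agent.S24 Fermat.Agent.S37 Fermat.Agent.S18 Fermat.Agent.S41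

namespace Fermat.Agent.S42

local notation "Qb" => AlgebraicClosure ℚ

/-- The character `n ↦ ζ ^ n` of `ℤ` attached to a complex unit. -/
noncomputable def nm49_zpowChar (ζ : ℂˣ) : Multiplicative ℤ →* ℂ :=
  (Units.coeHom ℂ).comp (zpowersHom ℂˣ ζ)

theorem nm49_zpowChar_apply (ζ : ℂˣ) (n : ℤ) :
    algebraMap ℂ mer95_MER (nm49_zpowChar ζ (Multiplicative.ofAdd n))
      = algebraMap ℂ mer95_MER (ζ : ℂ) ^ n := by
  rw [← map_zpow₀]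
  congr 1
  simp [nm49_zpowChar]

theorem nm49_det_pos (ℓ : ℕ) [NeZero ℓ] :
    0 < (!![(ℓ : ℤ), 0; 0, 1] : Matrix (Fin 2) (Fin 2) ℤ).det := by
  rw [Matrix.det_fin_two_of]
  have : (0 : ℤ) < ℓ := by exact_mod_cast Nat.pos_of_ne_zero (NeZero.ne ℓ)
  linarith

/-- **The Hecke step on roots, integral characters, no modulus in the character.** -/
theorem nm49_hHK_Z_unit (φ : Qb →+* ℂ) (N : ℕ) [NeZero N] (m : ℕ) (ζ : ℂˣ)
    (ℓ : ℕ) [NeZero ℓ] (hℓ : ℓ.Prime) (hNℓ : ¬ ℓ ∣ N)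
    (χ : Additive ↥(Gamma0 N) →+ ℤ)
    (h : mer95_MER) (f : ↥(modularFunctionFieldBar N)) (h0 : h ≠ 0)
    (hchar : thz31_IsCharZ (algebraMap ℂ mer95_MER (ζ : ℂ)) χ h)
    (hpow : h ^ m = ff79_ev0 φ N f) :
    ∃ h' : mer95_MER, h' ≠ 0 ∧
      thz31_IsCharZ (algebraMap ℂ mer95_MER (ζ : ℂ)) (heckeHom N ℓ ℤ χ) h' ∧
      h' ^ m = ff79_ev0 φ N (hd63_heckeNorm N ℓ f) := by
  haveI := nm49_finite_quot N ℓ hℓ hNℓ
  letI : Fintype (↥(Gamma0 N) ⧸ (Gamma0 (N * ℓ)).subgroupOf (Gamma0 N)) := Fintype.ofFinite _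
  obtain ⟨k1, k2, k3⟩ := hc45_hecke_pair hℓ hNℓ (heckeBetaBar Qb N ℓ) (heckeAlphaBar Qb N ℓ)
    (ff79_ev0 φ N) (ff79_ev0 φ (N * ℓ)) (nm49_det_pos ℓ) (ff79_ev0_beta φ N ℓ)
    (hg45_hnorm φ N ℓ hℓ hNℓ) χ (nm49_zpowChar ζ) h
    (fun γ => by
      rw [nm49_zpowChar_apply]
      exact hchar γ) m hpow
  refine ⟨_, k3 h0, fun γ => ?_, k1⟩
  have key := k2 γ
  rw [nm49_zpowChar_apply] at key
  exact key

/-- `th70_zeta m` is the image of a complex unit. -/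
theorem nm49_zeta_unit (m : ℕ) :
    th70_zeta m = algebraMap ℂ mer95_MER
      ((Units.mk0 (Complex.exp (2 * Real.pi * Complex.I / m)) (Complex.exp_ne_zero _) : ℂˣ) : ℂ) :=
  rfl

/-- **Hypothesis `hHK` of `thz31_I_Theta_Z N m (ff79_ev0 φ N)`, literally** (any modulus `m`). -/
theorem nm49_hHK_Z (φ : Qb →+* ℂ) (N : ℕ) [NeZero N] (m : ℕ) :
    ∀ (ℓ : ℕ) [NeZero ℓ], ℓ.Prime → ¬ ℓ ∣ N * m → ∀ χ ∈ thz31_L N,
      ∀ (h : mer95_MER) (f : ↥(modularFunctionFieldBar N)), h ≠ 0 → f ≠ 0 →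
        thz31_IsCharZ (th70_zeta m) χ h → h ^ m = ff79_ev0 φ N f →
          ∃ h' : mer95_MER, h' ≠ 0 ∧ thz31_IsCharZ (th70_zeta m) (heckeHom N ℓ ℤ χ) h' ∧
            h' ^ m = ff79_ev0 φ N (hd63_heckeNorm N ℓ f) := by
  intro ℓ _ hℓ hℓN χ _ h f h0 _ hchar hpow
  have hNℓ : ¬ ℓ ∣ N := fun hd => hℓN (Dvd.dvd.mul_right hd m)
  rw [nm49_zeta_unit] at hchar ⊢
  exact nm49_hHK_Z_unit φ N m _ ℓ hℓ hNℓ χ h f h0 hchar hpow

/-- **Hypothesis `hHK` of `thz31_I_Theta_family N p hp (ff79_ev0 φ N)`, literally.** -/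
theorem nm49_hHK_Z_family (φ : Qb →+* ℂ) (N : ℕ) [NeZero N] (p : ℕ) :
    ∀ n : ℕ, ∀ (ℓ : ℕ) [NeZero ℓ], ℓ.Prime → ¬ ℓ ∣ N * p ^ n → ∀ χ ∈ thz31_L N,
      ∀ (h : mer95_MER) (f : ↥(modularFunctionFieldBar N)), h ≠ 0 → f ≠ 0 →
        thz31_IsCharZ (th70_zeta (p ^ n)) χ h → h ^ (p ^ n) = ff79_ev0 φ N f →
          ∃ h' : mer95_MER, h' ≠ 0 ∧
            thz31_IsCharZ (th70_zeta (p ^ n)) (heckeHom N ℓ ℤ χ) h' ∧
            h' ^ (p ^ n) = ff79_ev0 φ N (hd63_heckeNorm N ℓ f) :=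
  fun n => nm49_hHK_Z φ N (p ^ n)

/-- **The `ZMod m` form** (`th70_IsChar m (th70_zeta m)`), any modulus `m ≠ 0`, any `χ`. -/
theorem nm49_hHK_mod (φ : Qb →+* ℂ) (N : ℕ) [NeZero N] (m : ℕ) [NeZero m]
    (ℓ : ℕ) [NeZero ℓ] (hℓ : ℓ.Prime) (hNℓ : ¬ ℓ ∣ N)
    (χ : Additive ↥(Gamma0 N) →+ ZMod m)
    (h : mer95_MER) (f : ↥(modularFunctionFieldBar N)) (h0 : h ≠ 0)
    (hchar : th70_IsChar m (th70_zeta m) χ h) (hpow : h ^ m = ff79_ev0 φ N f) :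
    ∃ h' : mer95_MER, h' ≠ 0 ∧ th70_IsChar m (th70_zeta m) (heckeHom N ℓ (ZMod m) χ) h' ∧
      h' ^ m = ff79_ev0 φ N (hd63_heckeNorm N ℓ f) := by
  haveI := nm49_finite_quot N ℓ hℓ hNℓ
  letI : Fintype (↥(Gamma0 N) ⧸ (Gamma0 (N * ℓ)).subgroupOf (Gamma0 N)) := Fintype.ofFinite _
  obtain ⟨k1, k2, k3⟩ := hc45_hecke_pair hℓ hNℓ (heckeBetaBar Qb N ℓ) (heckeAlphaBar Qb N ℓ)
    (ff79_ev0 φ N) (ff79_ev0 φ (N * ℓ)) (nm49_det_pos ℓ) (ff79_ev0_beta φ N ℓ)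
    (hg45_hnorm φ N ℓ hℓ hNℓ) χ (nm49_expChar m) h
    (fun γ => by
      rw [nm49_expChar_apply]
      exact hchar γ) m hpow
  refine ⟨_, k3 h0, fun γ => ?_, k1⟩
  have key := k2 γ
  rw [nm49_expChar_apply] at key
  exact key

end Fermat.Agent.S42
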