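import Mathlib

/-!
# S42 / M0 (helper44): the framework — holomorphic functions on the upper half plane

* `m0_O` : the `ℂ`-algebra of holomorphic functions on `ℍ` (a domain);
* `m0_MER` : its fraction field;
* the action of `GL(2, ℝ)⁺` (hence of `SL(2, ℤ)` and of integer matrices of positive determinant)
  by ring automorphisms, with the LEFT action convention `(g • f) τ = f (g⁻¹ • τ)`.

Mathlib only.
-/

set_option autoImplicit false

open UpperHalfPlane Matrix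
open scoped Manifold MatrixGroups Topology

namespace Fermat.Agent.S42

/-- The `ℂ`-algebra of holomorphic functions on the upper half plane. -/
def m0_O : Subalgebra ℂ (ℍ → ℂ) where
  carrier := {f | MDifferentiable 𝓘(ℂ) 𝓘(ℂ) f}
  mul_mem' {f g} hf hg := by
    have hf' : MDifferentiable 𝓘(ℂ) 𝓘(ℂ) f := hf
    have hg' : MDifferentiable 𝓘(ℂ) 𝓘(ℂ) g := hg
    show MDifferentiable 𝓘(ℂ) 𝓘(ℂ) (f * g)
    rw [UpperHalfPlane.mdifferentiable_iff] at hf' hg' ⊢
    exact hf'.mul hg'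
  one_mem' := by
    show MDifferentiable 𝓘(ℂ) 𝓘(ℂ) (1 : ℍ → ℂ)
    rw [UpperHalfPlane.mdifferentiable_iff]
    exact differentiableOn_const (1 : ℂ)
  add_mem' {f g} hf hg := by
    have hf' : MDifferentiable 𝓘(ℂ) 𝓘(ℂ) f := hf
    have hg' : MDifferentiable 𝓘(ℂ) 𝓘(ℂ) g := hg
    show MDifferentiable 𝓘(ℂ) 𝓘(ℂ) (f + g)
    rw [UpperHalfPlane.mdifferentiable_iff] at hf' hg' ⊢
    exact hf'.add hg'
  zero_mem' := by
    show MDifferentiable 𝓘(ℂ) 𝓘(ℂ) (0 : ℍ → ℂ)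
    rw [UpperHalfPlane.mdifferentiable_iff]
    exact differentiableOn_const (0 : ℂ)
  algebraMap_mem' c := by
    show MDifferentiable 𝓘(ℂ) 𝓘(ℂ) (algebraMap ℂ (ℍ → ℂ) c)
    rw [UpperHalfPlane.mdifferentiable_iff]
    exact differentiableOn_const c

theorem m0_mem_O {f : ℍ → ℂ} : f ∈ m0_O ↔ MDifferentiable 𝓘(ℂ) 𝓘(ℂ) f := Iff.rfl

theorem m0_mdiff (f : m0_O) : MDifferentiable 𝓘(ℂ) 𝓘(ℂ) (f : ℍ → ℂ) := f.2

theorem m0_differentiableOn (f : m0_O) :
    DifferentiableOn ℂ ((f : ℍ → ℂ) ∘ ofComplex) {z : ℂ | 0 < z.im} :=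
  UpperHalfPlane.mdifferentiable_iff.mp f.2

theorem m0_analyticAt (f : m0_O) (τ : ℍ) : AnalyticAt ℂ ((f : ℍ → ℂ) ∘ ofComplex) (τ : ℂ) :=
  (m0_differentiableOn f).analyticAt (isOpen_upperHalfPlaneSet.mem_nhds τ.im_pos)

/-- Constructor from a function on `ℂ` differentiable on the upper half plane. -/
def m0_ofDifferentiableOn (F : ℂ → ℂ) (hF : DifferentiableOn ℂ F {z : ℂ | 0 < z.im}) : m0_O :=
  ⟨fun τ : ℍ => F (τ : ℂ), by
    rw [m0_mem_O, UpperHalfPlane.mdifferentiable_iff]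
    refine hF.congr fun z hz => ?_
    simp only [Function.comp_apply]
    rw [ofComplex_apply_of_im_pos hz]⟩

@[simp] theorem m0_ofDifferentiableOn_apply (F : ℂ → ℂ)
    (hF : DifferentiableOn ℂ F {z : ℂ | 0 < z.im}) (τ : ℍ) :
    (m0_ofDifferentiableOn F hF : ℍ → ℂ) τ = F (τ : ℂ) := rfl

@[simp] theorem m0_algebraMap_apply (c : ℂ) (τ : ℍ) :
    ((algebraMap ℂ m0_O c : m0_O) : ℍ → ℂ) τ = c := rfl

theorem m0_ext {f g : m0_O} (h : ∀ τ : ℍ, (f : ℍ → ℂ) τ = (g : ℍ → ℂ) τ) : f = g :=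
  Subtype.ext (funext h)

instance m0_isDomain : IsDomain m0_O := by
  have h1 : NoZeroDivisors m0_O := by
    constructor
    intro a b hab
    have h : (a : ℍ → ℂ) * (b : ℍ → ℂ) = 0 := by
      have := congrArg Subtype.val hab
      simpa using this
    rcases (UpperHalfPlane.mul_eq_zero_iff a.2 b.2).mp h with h | h
    · exact Or.inl (Subtype.ext h)
    · exact Or.inr (Subtype.ext h)
  have h2 : Nontrivial m0_O := by
    refine ⟨⟨0, 1, ?_⟩⟩
    intro h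
    have := congrArg (fun f : m0_O => (f : ℍ → ℂ) UpperHalfPlane.I) h
    simp at this
  exact NoZeroDivisors.to_isDomain _

/-- The field of meromorphic functions on the upper half plane (quotients of holomorphic
functions). -/
def m0_MER : Type := FractionRing m0_O

noncomputable instance m0_MER_field : Field m0_MER :=
  inferInstanceAs (Field (FractionRing m0_O))

noncomputable instance m0_MER_algebra : Algebra m0_O m0_MER :=
  inferInstanceAs (Algebra m0_O (FractionRing m0_O))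

instance m0_MER_isFractionRing : IsFractionRing m0_O m0_MER :=
  inferInstanceAs (IsFractionRing m0_O (FractionRing m0_O))

noncomputable instance m0_MER_algebraC : Algebra ℂ m0_MER :=
  ((algebraMap m0_O m0_MER).comp (algebraMap ℂ m0_O)).toAlgebra

instance m0_MER_isScalarTower : IsScalarTower ℂ m0_O m0_MER :=
  IsScalarTower.of_algebraMap_eq (fun _ => rfl)

instance m0_MER_charZero : CharZero m0_MER :=
  charZero_of_injective_algebraMap (algebraMap ℂ m0_MER).injective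

/-! ### The action of `GL(2, ℝ)⁺` -/

theorem m0_det_pos (g : GL(2, ℝ)⁺) : 0 < (g : GL (Fin 2) ℝ).det.val :=
  (Matrix.mem_glpos _).mp g.2

theorem m0_mdiff_smul (g : GL(2, ℝ)⁺) (f : ℍ → ℂ) (hf : MDifferentiable 𝓘(ℂ) 𝓘(ℂ) f) :
    MDifferentiable 𝓘(ℂ) 𝓘(ℂ) (fun τ : ℍ => f (g • τ)) :=
  hf.comp (UpperHalfPlane.mdifferentiable_smul (m0_det_pos g))

/-- `f ↦ f ∘ g⁻¹` as a `ℂ`-algebra automorphism of `m0_O`. -/
noncomputable def m0_actEquiv (g : GL(2, ℝ)⁺) : m0_O ≃ₐ[ℂ] m0_O where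
  toFun f := ⟨fun τ => (f : ℍ → ℂ) (g⁻¹ • τ), m0_mdiff_smul g⁻¹ f f.2⟩
  invFun f := ⟨fun τ => (f : ℍ → ℂ) (g • τ), m0_mdiff_smul g f f.2⟩
  left_inv f := by
    apply m0_ext
    intro τ
    show (f : ℍ → ℂ) (g⁻¹ • g • τ) = (f : ℍ → ℂ) τ
    rw [inv_smul_smul]
  right_inv f := by
    apply m0_ext
    intro τ
    show (f : ℍ → ℂ) (g • g⁻¹ • τ) = (f : ℍ → ℂ) τ
    rw [smul_inv_smul]
  map_mul' _ _ := rfl
  map_add' _ _ := rfl
  commutes' _ := rfl

theorem m0_actEquiv_apply (g : GL(2, ℝ)⁺) (f : m0_O) (τ : ℍ) :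
    ((m0_actEquiv g f : m0_O) : ℍ → ℂ) τ = (f : ℍ → ℂ) (g⁻¹ • τ) := rfl

/-- The action as a monoid homomorphism into ring automorphisms. -/
noncomputable def m0_actHom : GL(2, ℝ)⁺ →* (m0_O ≃+* m0_O) where
  toFun g := (m0_actEquiv g).toRingEquiv
  map_one' := by
    ext f : 1
    apply m0_ext
    intro τ
    show (f : ℍ → ℂ) ((1 : GL(2, ℝ)⁺)⁻¹ • τ) = (f : ℍ → ℂ) τ
    rw [inv_one, one_smul]
  map_mul' g h := by
    ext f : 1
    apply m0_ext
    intro τ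
    show (f : ℍ → ℂ) ((g * h)⁻¹ • τ) = (f : ℍ → ℂ) (h⁻¹ • g⁻¹ • τ)
    rw [_root_.mul_inv_rev, mul_smul]

noncomputable instance m0_actO : MulSemiringAction GL(2, ℝ)⁺ m0_O :=
  MulSemiringAction.compHom m0_O m0_actHom

noncomputable instance m0_smulO : SMul GL(2, ℝ)⁺ m0_O :=
  m0_actO.toDistribMulAction.toMulAction.toSMul

theorem m0_smul_apply (g : GL(2, ℝ)⁺) (f : m0_O) (τ : ℍ) :
    ((g • f : m0_O) : ℍ → ℂ) τ = (f : ℍ → ℂ) (g⁻¹ • τ) := rfl

theorem m0_smul_algebraMap_O (g : GL(2, ℝ)⁺) (c : ℂ) :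
    g • algebraMap ℂ m0_O c = algebraMap ℂ m0_O c := rfl

noncomputable instance m0_actMER : MulSemiringAction GL(2, ℝ)⁺ m0_MER :=
  MulSemiringAction.compHom m0_MER
    ((IsFractionRing.ringEquivOfRingEquivHom m0_O m0_MER).comp m0_actHom)

noncomputable instance m0_smulMER : SMul GL(2, ℝ)⁺ m0_MER :=
  m0_actMER.toDistribMulAction.toMulAction.toSMul

theorem m0_smul_algebraMap (g : GL(2, ℝ)⁺) (f : m0_O) :
    g • algebraMap m0_O m0_MER f = algebraMap m0_O m0_MER (g • f) := by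
  show IsFractionRing.ringEquivOfRingEquiv (m0_actHom g) (algebraMap m0_O m0_MER f) = _
  rw [IsFractionRing.ringEquivOfRingEquiv_algebraMap]
  rfl

theorem m0_smul_const (g : GL(2, ℝ)⁺) (c : ℂ) :
    g • algebraMap ℂ m0_MER c = algebraMap ℂ m0_MER c := by
  rw [IsScalarTower.algebraMap_apply ℂ m0_O m0_MER, m0_smul_algebraMap, m0_smul_algebraMap_O]

theorem m0_smul_div (g : GL(2, ℝ)⁺) (a b : m0_O) :
    g • (algebraMap m0_O m0_MER a / algebraMap m0_O m0_MER b) =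
      algebraMap m0_O m0_MER (g • a) / algebraMap m0_O m0_MER (g • b) := by
  rw [smul_div₀', m0_smul_algebraMap, m0_smul_algebraMap]

/-- Every element of `m0_MER` is a quotient of two holomorphic functions. -/
theorem m0_exists_div (x : m0_MER) :
    ∃ a b : m0_O, b ≠ 0 ∧ x = algebraMap m0_O m0_MER a / algebraMap m0_O m0_MER b := by
  obtain ⟨a, b, hb, h⟩ := IsFractionRing.div_surjective (A := m0_O) x
  exact ⟨a, b, nonZeroDivisors.ne_zero hb, h.symm⟩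

theorem m0_algebraMap_injective : Function.Injective (algebraMap m0_O m0_MER) :=
  IsFractionRing.injective m0_O m0_MER

theorem m0_algebraMap_const_injective : Function.Injective (algebraMap ℂ m0_MER) :=
  (algebraMap ℂ m0_MER).injective

/-! ### `SL(2, ℤ)` and integer matrices of positive determinant -/

/-- `SL(2, ℤ) → GL(2, ℝ)⁺`. -/
noncomputable def m0_sl : SL(2, ℤ) →* GL(2, ℝ)⁺ :=
  Matrix.SpecialLinearGroup.toGLPos.comp
    (Matrix.SpecialLinearGroup.map (Int.castRingHom ℝ))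

theorem m0_sl_smul (γ : SL(2, ℤ)) (τ : ℍ) : m0_sl γ • τ = γ • τ := by
  apply UpperHalfPlane.ext
  rw [UpperHalfPlane.coe_specialLinearGroup_apply]
  show ((((m0_sl γ : GL(2, ℝ)⁺) : GL (Fin 2) ℝ) • τ : ℍ) : ℂ) = _
  rw [UpperHalfPlane.coe_smul_of_det_pos (m0_det_pos _)]
  rfl

noncomputable instance m0_actO_sl : MulSemiringAction SL(2, ℤ) m0_O :=
  MulSemiringAction.compHom m0_O m0_sl

noncomputable instance m0_smulO_sl : SMul SL(2, ℤ) m0_O :=
  m0_actO_sl.toDistribMulAction.toMulAction.toSMul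

noncomputable instance m0_actMER_sl : MulSemiringAction SL(2, ℤ) m0_MER :=
  MulSemiringAction.compHom m0_MER m0_sl

noncomputable instance m0_smulMER_sl : SMul SL(2, ℤ) m0_MER :=
  m0_actMER_sl.toDistribMulAction.toMulAction.toSMul

theorem m0_sl_smul_def_O (γ : SL(2, ℤ)) (f : m0_O) : γ • f = m0_sl γ • f := rfl

theorem m0_sl_smul_def (γ : SL(2, ℤ)) (x : m0_MER) : γ • x = m0_sl γ • x := rfl

theorem m0_sl_smul_apply (γ : SL(2, ℤ)) (f : m0_O) (τ : ℍ) :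
    ((γ • f : m0_O) : ℍ → ℂ) τ = (f : ℍ → ℂ) (γ⁻¹ • τ) := by
  rw [m0_sl_smul_def_O, m0_smul_apply, ← map_inv, m0_sl_smul]

theorem m0_sl_smul_algebraMap (γ : SL(2, ℤ)) (f : m0_O) :
    γ • algebraMap m0_O m0_MER f = algebraMap m0_O m0_MER (γ • f) :=
  m0_smul_algebraMap (m0_sl γ) f

theorem m0_sl_smul_const (γ : SL(2, ℤ)) (c : ℂ) :
    γ • algebraMap ℂ m0_MER c = algebraMap ℂ m0_MER c :=
  m0_smul_const (m0_sl γ) c

/-- An integer matrix of positive determinant as an element of `GL(2, ℝ)⁺`. -/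
noncomputable def m0_ofInt (A : Matrix (Fin 2) (Fin 2) ℤ) (hA : 0 < A.det) : GL(2, ℝ)⁺ :=
  ⟨Matrix.GeneralLinearGroup.mkOfDetNeZero (A.map (Int.castRingHom ℝ)) (by
      rw [← RingHom.mapMatrix_apply, ← RingHom.map_det, eq_intCast]
      exact_mod_cast hA.ne'), by
    rw [Matrix.mem_glpos]
    show 0 < (A.map (Int.castRingHom ℝ)).det
    rw [← RingHom.mapMatrix_apply, ← RingHom.map_det, eq_intCast]
    exact_mod_cast hA⟩

theorem m0_ofInt_coe (A : Matrix (Fin 2) (Fin 2) ℤ) (hA : 0 < A.det) (i j : Fin 2) :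
    ((m0_ofInt A hA : GL(2, ℝ)⁺) : GL (Fin 2) ℝ) i j = (A i j : ℝ) := rfl

theorem m0_ofInt_smul_coe (A : Matrix (Fin 2) (Fin 2) ℤ) (hA : 0 < A.det) (τ : ℍ) :
    ((m0_ofInt A hA • τ : ℍ) : ℂ) =
      ((A 0 0 : ℂ) * τ + (A 0 1 : ℂ)) / ((A 1 0 : ℂ) * τ + (A 1 1 : ℂ)) := by
  show ((((m0_ofInt A hA : GL(2, ℝ)⁺) : GL (Fin 2) ℝ) • τ : ℍ) : ℂ) = _
  rw [UpperHalfPlane.coe_smul_of_det_pos (m0_det_pos _)]
  simp [UpperHalfPlane.num, UpperHalfPlane.denom, m0_ofInt_coe]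

theorem m0_ofInt_mul (A B : Matrix (Fin 2) (Fin 2) ℤ) (hA : 0 < A.det) (hB : 0 < B.det)
    (hAB : 0 < (A * B).det) : m0_ofInt (A * B) hAB = m0_ofInt A hA * m0_ofInt B hB := by
  apply Subtype.ext
  apply Matrix.GeneralLinearGroup.ext
  intro i j
  show ((A * B).map (Int.castRingHom ℝ)) i j =
    ((A.map (Int.castRingHom ℝ)) * (B.map (Int.castRingHom ℝ))) i j
  rw [Matrix.map_mul]

theorem m0_sl_eq_ofInt (γ : SL(2, ℤ)) :
    m0_sl γ = m0_ofInt (γ : Matrix (Fin 2) (Fin 2) ℤ) (by rw [γ.det_coe]; exact one_pos) := by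
  apply Subtype.ext
  apply Matrix.GeneralLinearGroup.ext
  intro i j
  rfl

end Fermat.Agent.S42
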