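/-
S42 / M8g (helper42): the group side of the Hecke seam (H2).

For `ℓ ∤ N` prime, `δ = diag(ℓ, 1) = lbMat ℓ none` and `𝐇 = Γ₀(N ℓ) ≤ Γ₀(N)`, the S16 Hecke
operator `heckeHom N ℓ A` on `Hom(Γ₀(N), A)` is the transfer of `α ∘ conj_δ`
(`conj_δ = hic88_dconj N ℓ : Γ₀(N ℓ) →* Γ₀(N)`, `γ ↦ δ γ δ⁻¹`):

* `td42_transfer_reps`   : the transfer sum does not depend on the left-coset representatives
                           (abstract groups);
* `td42_heckeHom_out`    : `heckeHom N ℓ A α g = ∑ᶠ q, α (conj_δ (ct77_h 𝐇 g q))`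
                           (`Quotient.out` form);
* `td42_heckeHom_reps`   : the same for ANY family `r j` of left-coset representatives and ANY
                           cocycle `g * r j = r (π j) * x j`;
* `td42_zeta_sum`, `td42_zeta_heckeHom` : the multiplicative form for `μ_p`-valued characters;
* `td42_dconj_amb`, `td42_cocycle_amb` : the cocycle in an ambient group `GG` receiving the
                           integer matrices of positive determinant multiplicatively;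
* `td42_hecke_char`      : **(H2)**: if `h` has character `ζ ^ χ` under `Γ₀(N)` (left action
                           of `GG` on a commutative ring `MM`), then
                           `∏ j, (r j * δ⁻¹) • h` has character `ζ ^ (heckeHom N ℓ (ZMod p) χ)`.
-/
import Mathlib
import Fermat.Agent.S41.HeckeCores54
import Fermat.Agent.S41.HomIharaConc88

set_option autoImplicit false

open CongruenceSubgroup
open scoped MatrixGroups

namespace Fermat.Agent.S42

open Fermat.Agent.S16 Fermat.Agent.S41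

/-! ### independence of the representatives (abstract transfer) -/

section Abstract

variable {G : Type*} [Group G] (H : Subgroup G) {A : Type*} [AddCommGroup A]

/-- **The transfer sum for an arbitrary system of left-coset representatives.**  If `r` is a
system of representatives of `G ⧸ H` and `g * r j = r (π j) * x j` with `x j ∈ H`, then the
transfer sum of `ν : H → A` built on `Quotient.out` (`ct77_h`) is `∑ j, ν (x j)`. -/
theorem td42_transfer_reps (ν : Additive H →+ A) {ι : Type*} [Fintype ι] (r : ι → G)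
    (hr : Function.Bijective (fun i => (r i : G ⧸ H))) (g : G) (π : Equiv.Perm ι)
    (x : ι → H) (hx : ∀ j, g * r j = r (π j) * (x j : G)) :
    ∑ᶠ q : G ⧸ H, ν (Additive.ofMul ⟨ct77_h H g q, ct77_h_mem H g q⟩) =
      ∑ j, ν (Additive.ofMul (x j)) := by
  classical
  set e : ι ≃ G ⧸ H := Equiv.ofBijective _ hr with he
  have he_apply : ∀ j, e j = (r j : G ⧸ H) := fun j => rfl
  -- the `Quotient.out` representative differs from `r j` by `η j ∈ H`
  have hη : ∀ j, (r j)⁻¹ * (e j).out ∈ H := by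
    intro j
    have h1 : ((e j).out : G ⧸ H) = (r j : G ⧸ H) := by
      rw [QuotientGroup.out_eq']
      exact he_apply j
    exact QuotientGroup.eq.mp h1.symm
  set η : ι → H := fun j => ⟨(r j)⁻¹ * (e j).out, hη j⟩ with hηdef
  have hout : ∀ j, (e j).out = r j * (η j : G) := by
    intro j
    simp only [hηdef]
    group
  -- the action of `g` on the cosets
  have hsmul : ∀ j, g • e j = e (π j) := by
    intro j
    rw [he_apply, he_apply]
    have h1 : g • (r j : G ⧸ H) = ((g * r j : G) : G ⧸ H) := rfl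
    rw [h1, hx j]
    exact (QuotientGroup.eq.mpr (by simp)).symm
  -- the cocycle in terms of `x` and `η`
  have hct : ∀ j, (⟨ct77_h H g (e j), ct77_h_mem H g (e j)⟩ : H) = (η (π j))⁻¹ * x j * η j := by
    intro j
    apply Subtype.ext
    show ct77_h H g (e j) = _
    rw [ct77_h, hsmul j, hout (π j), hout j]
    push_cast
    rw [mul_inv_rev, mul_assoc, mul_assoc, ← mul_assoc g, hx j]
    group
  rw [← finsum_comp_equiv e, finsum_eq_sum_of_fintype]
  have hterm : ∀ j, ν (Additive.ofMul ⟨ct77_h H g (e j), ct77_h_mem H g (e j)⟩) =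
      ν (Additive.ofMul (x j)) + (ν (Additive.ofMul (η j)) - ν (Additive.ofMul (η (π j)))) := by
    intro j
    rw [hct j, ofMul_mul, ofMul_mul, ofMul_inv, map_add, map_add, map_neg]
    abel
  rw [Finset.sum_congr rfl fun j _ => hterm j, Finset.sum_add_distrib, Finset.sum_sub_distrib,
    Equiv.sum_comp π fun j => ν (Additive.ofMul (η j)), sub_self, add_zero]

end Abstract

/-! ### the Hecke operator as a transfer -/

section Hecke

variable {N ℓ : ℕ}

local notation "mat[" x "]" => ((x : SL(2, ℤ)) : Matrix (Fin 2) (Fin 2) ℤ)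

local notation "𝐇" => Subgroup.subgroupOf (Gamma0 (N * ℓ)) (Gamma0 N)

/-- the identification `𝐇 = Γ₀(N ℓ).subgroupOf Γ₀(N) → Γ₀(N ℓ)`. -/
def td42_toNl (N ℓ : ℕ) : (Subgroup.subgroupOf (Gamma0 (N * ℓ)) (Gamma0 N)) →* Gamma0 (N * ℓ) where
  toFun h := ⟨((h : Gamma0 N) : SL(2, ℤ)), Subgroup.mem_subgroupOf.mp h.2⟩
  map_one' := rfl
  map_mul' _ _ := rfl

theorem td42_toNl_coe (h : 𝐇) : ((td42_toNl N ℓ h : Gamma0 (N * ℓ)) : SL(2, ℤ)) =
    ((h : Gamma0 N) : SL(2, ℤ)) := rfl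

/-- conjugation by any Atkin–Lehner matrix `w` and conjugation by `δ = diag(ℓ, 1)` agree after
any homomorphism on `Γ₀(N)` (they differ by an inner automorphism of `Γ₀(N)`). -/
theorem td42_cw_eq [NeZero ℓ] (D : tr43_Data N ℓ) (cw : Gamma0 (N * ℓ) → Gamma0 N)
    (hcw : ∀ h : Gamma0 (N * ℓ), D.w * mat[h] = mat[cw h] * D.w)
    {A : Type*} [AddCommGroup A] (α : Additive (Gamma0 N) →+ A) (h : Gamma0 (N * ℓ)) :
    α (Additive.ofMul (cw h)) = α (Additive.ofMul (hic88_dconj N ℓ h)) := by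
  rw [← hic88_res₂_apply]
  exact (hic88_isRes₂ D A α h (cw h) (hcw h).symm).symm

/-- **`T_ℓ` is the transfer of `α ∘ conj_δ`** (`Quotient.out` form). -/
theorem td42_heckeHom_out [NeZero ℓ] (hℓ : ℓ.Prime) (hℓN : ¬ ℓ ∣ N)
    {A : Type*} [AddCommGroup A] (α : Additive (Gamma0 N) →+ A) (g : Gamma0 N) :
    heckeHom N ℓ A α (Additive.ofMul g) =
      ∑ᶠ q : ↥(Gamma0 N) ⧸ 𝐇,
        α (Additive.ofMul (hic88_dconj N ℓ ⟨((ct77_h 𝐇 g q : Gamma0 N) : SL(2, ℤ)),
          Subgroup.mem_subgroupOf.mp (ct77_h_mem _ g q)⟩)) := by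
  obtain ⟨D⟩ := tr43_Data_exists (N := N) (q := ℓ) ((Nat.Prime.coprime_iff_not_dvd hℓ).mpr hℓN)
  obtain ⟨cw, hcw⟩ := hk54_exists_cw D
  rw [hk54_heckeHom_eq_cores hℓ hℓN D cw hcw α g]
  exact finsum_congr fun q => td42_cw_eq D cw hcw α _

/-- **`T_ℓ` is the transfer of `α ∘ conj_δ`**, for an arbitrary system `r` of left-coset
representatives of `Γ₀(N) ⧸ Γ₀(N ℓ)` and an arbitrary cocycle `g * r j = r (π j) * x j`. -/
theorem td42_heckeHom_reps [NeZero ℓ] (hℓ : ℓ.Prime) (hℓN : ¬ ℓ ∣ N)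
    {A : Type*} [AddCommGroup A] (α : Additive (Gamma0 N) →+ A)
    {ι : Type*} [Fintype ι] (r : ι → Gamma0 N)
    (hr : Function.Bijective (fun i => (r i : ↥(Gamma0 N) ⧸ 𝐇)))
    (g : Gamma0 N) (π : Equiv.Perm ι) (x : ι → Gamma0 (N * ℓ))
    (hx : ∀ j, ((g * r j : Gamma0 N) : SL(2, ℤ)) = (r (π j) : SL(2, ℤ)) * (x j : SL(2, ℤ))) :
    heckeHom N ℓ A α (Additive.ofMul g) = ∑ j, α (Additive.ofMul (hic88_dconj N ℓ (x j))) := by
  have hle : Gamma0 (N * ℓ) ≤ Gamma0 N := hic88_le N ℓ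
  set x' : ι → 𝐇 := fun j => ⟨⟨(x j : SL(2, ℤ)), hle (x j).2⟩,
    Subgroup.mem_subgroupOf.mpr (x j).2⟩ with hx'
  have hx'' : ∀ j, g * r j = r (π j) * ((x' j : 𝐇) : Gamma0 N) := fun j => Subtype.ext (hx j)
  have key := td42_transfer_reps 𝐇
    (α.comp (MonoidHom.toAdditive ((hic88_dconj N ℓ).comp (td42_toNl N ℓ)))) r hr g π x' hx''
  rw [td42_heckeHom_out hℓ hℓN α g]
  exact key

end Hecke

/-! ### multiplicative form -/

section Zeta

variable {p : ℕ} [NeZero p] {M : Type*} [CommMonoid M]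

theorem td42_zeta_add (ζ : M) (hζ : ζ ^ p = 1) (a b : ZMod p) :
    ζ ^ (a + b).val = ζ ^ a.val * ζ ^ b.val := by
  rw [ZMod.val_add, ← pow_add, ← pow_eq_pow_mod _ hζ]

theorem td42_zeta_sum (ζ : M) (hζ : ζ ^ p = 1) {ι : Type*} (s : Finset ι) (a : ι → ZMod p) :
    ζ ^ (∑ j ∈ s, a j).val = ∏ j ∈ s, ζ ^ (a j).val := by
  classical
  induction s using Finset.induction_on with
  | empty => simp
  | insert i s hi ih => rw [Finset.sum_insert hi, Finset.prod_insert hi, td42_zeta_add ζ hζ, ih]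

/-- **multiplicative form of the transfer formula** for `μ_p`-valued characters. -/
theorem td42_zeta_heckeHom {N ℓ : ℕ} [NeZero ℓ] (hℓ : ℓ.Prime) (hℓN : ¬ ℓ ∣ N)
    (χ : Additive (Gamma0 N) →+ ZMod p) (ζ : M) (hζ : ζ ^ p = 1)
    {ι : Type*} [Fintype ι] (r : ι → Gamma0 N)
    (hr : Function.Bijective
      (fun i => (r i : ↥(Gamma0 N) ⧸ (Gamma0 (N * ℓ)).subgroupOf (Gamma0 N))))
    (g : Gamma0 N) (π : Equiv.Perm ι) (x : ι → Gamma0 (N * ℓ))
    (hx : ∀ j, ((g * r j : Gamma0 N) : SL(2, ℤ)) = (r (π j) : SL(2, ℤ)) * (x j : SL(2, ℤ))) :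
    ζ ^ (heckeHom N ℓ (ZMod p) χ (Additive.ofMul g)).val =
      ∏ j, ζ ^ (χ (Additive.ofMul (hic88_dconj N ℓ (x j)))).val := by
  rw [td42_heckeHom_reps hℓ hℓN χ r hr g π x hx, td42_zeta_sum ζ hζ]

end Zeta

/-! ### the cocycle in an ambient group -/

section Ambient

variable {N ℓ : ℕ}

local notation "mat[" x "]" => ((x : SL(2, ℤ)) : Matrix (Fin 2) (Fin 2) ℤ)

theorem td42_det_sl (γ : SL(2, ℤ)) : (0 : ℤ) < (mat[γ]).det := by
  rw [γ.2]; exact one_pos

theorem td42_det_delta [NeZero ℓ] : (0 : ℤ) < (lbMat ℓ none).det := by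
  rw [sc71_lbMat_det]
  exact_mod_cast Nat.pos_of_ne_zero (NeZero.ne ℓ)

variable {GG : Type*} [Group GG] (J : Matrix (Fin 2) (Fin 2) ℤ → GG)
  (hJ : ∀ A B : Matrix (Fin 2) (Fin 2) ℤ, 0 < A.det → 0 < B.det → J (A * B) = J A * J B)

include hJ in
/-- in the ambient group, `conj_δ γ = δ γ δ⁻¹`. -/
theorem td42_dconj_amb [NeZero ℓ] (γ : Gamma0 (N * ℓ)) :
    J mat[hic88_dconj N ℓ γ] = J (lbMat ℓ none) * J mat[γ] * (J (lbMat ℓ none))⁻¹ := by
  have h := hic88_dconj_spec N ℓ γ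
  have h1 := hJ _ _ (td42_det_sl (hic88_dconj N ℓ γ : SL(2, ℤ))) (td42_det_delta (ℓ := ℓ))
  have h2 := hJ _ _ (td42_det_delta (ℓ := ℓ)) (td42_det_sl (γ : SL(2, ℤ)))
  rw [h] at h1
  rw [h2] at h1
  rw [h1]
  group

include hJ in
/-- **the cocycle of the translates `r j * δ⁻¹`**: if `g * r j = r (π j) * x j` in `Γ₀(N)` with
`x j ∈ Γ₀(N ℓ)`, then `g * (r j * δ⁻¹) = (r (π j) * δ⁻¹) * conj_δ (x j)` in the ambient group. -/
theorem td42_cocycle_amb [NeZero ℓ] (g rj rπj : Gamma0 N) (xj : Gamma0 (N * ℓ))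
    (hx : ((g * rj : Gamma0 N) : SL(2, ℤ)) = (rπj : SL(2, ℤ)) * (xj : SL(2, ℤ))) :
    J mat[g] * (J mat[rj] * (J (lbMat ℓ none))⁻¹) =
      (J mat[rπj] * (J (lbMat ℓ none))⁻¹) * J mat[hic88_dconj N ℓ xj] := by
  rw [td42_dconj_amb J hJ xj]
  have h1 : J mat[g] * J mat[rj] = J mat[rπj] * J mat[xj] := by
    rw [← hJ _ _ (td42_det_sl _) (td42_det_sl _), ← hJ _ _ (td42_det_sl _) (td42_det_sl _),
      ← Matrix.SpecialLinearGroup.coe_mul, ← Matrix.SpecialLinearGroup.coe_mul, ← hx,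
      Subgroup.coe_mul]
  calc J mat[g] * (J mat[rj] * (J (lbMat ℓ none))⁻¹)
      = (J mat[g] * J mat[rj]) * (J (lbMat ℓ none))⁻¹ := by group
    _ = (J mat[rπj] * J mat[xj]) * (J (lbMat ℓ none))⁻¹ := by rw [h1]
    _ = _ := by group

end Ambient

/-! ### (H2): the character of the Hecke product -/

section Character

variable {N ℓ p : ℕ} [NeZero p]

local notation "mat[" x "]" => ((x : SL(2, ℤ)) : Matrix (Fin 2) (Fin 2) ℤ)

/-- for a system `r` of left-coset representatives and `g`, the permutation and the cocycle. -/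
theorem td42_exists_cocycle {G : Type*} [Group G] (H : Subgroup G) {ι : Type*} [Fintype ι]
    (r : ι → G) (hr : Function.Bijective (fun i => (r i : G ⧸ H))) (g : G) :
    ∃ (π : Equiv.Perm ι) (x : ι → H), ∀ j, g * r j = r (π j) * (x j : G) := by
  classical
  set e : ι ≃ G ⧸ H := Equiv.ofBijective _ hr with he
  have he_apply : ∀ j, e j = (r j : G ⧸ H) := fun j => rfl
  let π : Equiv.Perm ι := (e.trans (MulAction.toPerm g)).trans e.symm
  have hπ : ∀ j, (r (π j) : G ⧸ H) = ((g * r j : G) : G ⧸ H) := by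
    intro j
    rw [← he_apply (π j)]
    show e (e.symm (g • e j)) = _
    rw [Equiv.apply_symm_apply, he_apply]
    rfl
  have hmem : ∀ j, (r (π j))⁻¹ * (g * r j) ∈ H := fun j => QuotientGroup.eq.mp (hπ j)
  refine ⟨π, fun j => ⟨(r (π j))⁻¹ * (g * r j), hmem j⟩, fun j => ?_⟩
  show g * r j = r (π j) * ((r (π j))⁻¹ * (g * r j))
  group

variable {GG : Type*} [Group GG] {MM : Type*} [CommRing MM] [MulSemiringAction GG MM]

/-- **(H2).**  `GG` acts on the commutative ring `MM` (left action); `J` sends integer matrices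
of positive determinant multiplicatively into `GG`.  If `h` has character `ζ ^ χ` under
`Γ₀(N)` (`ζ ^ p = 1`, `ζ` fixed by `GG`), then the Hecke product
`∏ j, (r j * δ⁻¹) • h` over ANY system `r` of left-coset representatives of
`Γ₀(N) ⧸ Γ₀(N ℓ)` has character `ζ ^ (heckeHom N ℓ (ZMod p) χ)`. -/
theorem td42_hecke_char [NeZero ℓ] (hℓ : ℓ.Prime) (hℓN : ¬ ℓ ∣ N)
    (J : Matrix (Fin 2) (Fin 2) ℤ → GG)
    (hJ : ∀ A B : Matrix (Fin 2) (Fin 2) ℤ, 0 < A.det → 0 < B.det → J (A * B) = J A * J B)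
    (χ : Additive (Gamma0 N) →+ ZMod p) (ζ : MM) (hζ : ζ ^ p = 1) (hζfix : ∀ g : GG, g • ζ = ζ)
    (h : MM) (hh : ∀ γ : Gamma0 N, J mat[γ] • h = ζ ^ (χ (Additive.ofMul γ)).val * h)
    {ι : Type*} [Fintype ι] (r : ι → Gamma0 N)
    (hr : Function.Bijective
      (fun i => (r i : ↥(Gamma0 N) ⧸ (Gamma0 (N * ℓ)).subgroupOf (Gamma0 N))))
    (γ : Gamma0 N) :
    J mat[γ] • (∏ j, (J mat[r j] * (J (lbMat ℓ none))⁻¹) • h) =
      ζ ^ (heckeHom N ℓ (ZMod p) χ (Additive.ofMul γ)).val *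
        ∏ j, (J mat[r j] * (J (lbMat ℓ none))⁻¹) • h := by
  classical
  obtain ⟨π, x', hx'⟩ := td42_exists_cocycle
    ((Gamma0 (N * ℓ)).subgroupOf (Gamma0 N)) r hr γ
  set x : ι → Gamma0 (N * ℓ) := fun j => td42_toNl N ℓ (x' j) with hxdef
  have hx : ∀ j, ((γ * r j : Gamma0 N) : SL(2, ℤ)) = (r (π j) : SL(2, ℤ)) * (x j : SL(2, ℤ)) := by
    intro j
    have h0 := congrArg (fun y : Gamma0 N => (y : SL(2, ℤ))) (hx' j)
    simp only [Subgroup.coe_mul] at h0 ⊢
    exact h0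
  rw [td42_zeta_heckeHom hℓ hℓN χ ζ hζ r hr γ π x hx, Finset.smul_prod']
  have h1 : ∀ j, J mat[γ] • (J mat[r j] * (J (lbMat ℓ none))⁻¹) • h =
      ζ ^ (χ (Additive.ofMul (hic88_dconj N ℓ (x j)))).val *
        (J mat[r (π j)] * (J (lbMat ℓ none))⁻¹) • h := by
    intro j
    rw [← mul_smul, td42_cocycle_amb J hJ γ (r j) (r (π j)) (x j) (hx j), mul_smul, hh,
      smul_mul', smul_pow', hζfix]
  rw [Finset.prod_congr rfl fun j _ => h1 j, Finset.prod_mul_distrib]
  congr 1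
  exact Equiv.prod_comp π fun j => (J mat[r j] * (J (lbMat ℓ none))⁻¹) • h

end Character

end Fermat.Agent.S42
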