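/-
S42 / M8 seam (helper42): the Hecke seam (H2) on the concrete `mer95_MER`.

* `tm42_J`            : integer matrices of positive determinant in `GL(2, ℝ)⁺` (multiplicative:
                        `tm42_J_mul`; `tm42_J_sl` : on `SL(2, ℤ)` it is `mer95_slToGL`);
* `tm42_delta ℓ`      : `δ = diag(ℓ, 1)`; `tm42_delta_smul` : `δ • τ = scaleH ℓ τ` (`= ℓ τ`);
* `tm42_beta_apply`   : `(δ⁻¹ • f) τ = f (ℓ τ)` on `mer95_O` (the `β`-translate);
* `tm42_hecke_char`   : **(H2) on `mer95_MER`**: if `γ • h = ζ ^ χ(γ) • h` for `γ ∈ Γ₀(N)`, then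
                        `H = ∏ j, (r j * δ⁻¹) • h` satisfies `γ • H = ζ ^ (T'_ℓ χ)(γ) • H`,
                        `T'_ℓ = heckeHom N ℓ (ZMod p)`, for ANY system `r` of left-coset
                        representatives of `Γ₀(N) ⧸ Γ₀(N ℓ)`.
-/
import Mathlib
import Fermat.Agent.S42.TransferDelta42
import Fermat.Agent.S42.Mer95
import Fermat.Agent.S42.Mer44
import Fermat.Agent.S24.AnDefs

set_option autoImplicit false

open UpperHalfPlane Matrix CongruenceSubgroup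
open scoped MatrixGroups

namespace Fermat.Agent.S42

open Fermat.Agent.S16 Fermat.Agent.S41 Fermat.Agent.S24

local notation "mat[" x "]" => ((x : SL(2, ℤ)) : Matrix (Fin 2) (Fin 2) ℤ)

/-- integer matrices of positive determinant as elements of `GL(2, ℝ)⁺` (`1` otherwise). -/
noncomputable def tm42_J (A : Matrix (Fin 2) (Fin 2) ℤ) : GL(2, ℝ)⁺ := by
  classical
  exact if h : 0 < A.det then m0_ofInt A h else 1

theorem tm42_J_of_pos (A : Matrix (Fin 2) (Fin 2) ℤ) (h : 0 < A.det) : tm42_J A = m0_ofInt A h := by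
  rw [tm42_J, dif_pos h]

theorem tm42_J_mul (A B : Matrix (Fin 2) (Fin 2) ℤ) (hA : 0 < A.det) (hB : 0 < B.det) :
    tm42_J (A * B) = tm42_J A * tm42_J B := by
  have hAB : 0 < (A * B).det := by rw [Matrix.det_mul]; exact mul_pos hA hB
  rw [tm42_J_of_pos _ hAB, tm42_J_of_pos _ hA, tm42_J_of_pos _ hB, m0_ofInt_mul A B hA hB hAB]

theorem tm42_J_sl (γ : SL(2, ℤ)) : tm42_J mat[γ] = mer95_slToGL γ := by
  rw [tm42_J_of_pos _ (td42_det_sl γ)]
  exact (m0_sl_eq_ofInt γ).symm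

/-- `δ = diag(ℓ, 1)` in `GL(2, ℝ)⁺`. -/
noncomputable def tm42_delta (ℓ : ℕ) : GL(2, ℝ)⁺ := tm42_J (lbMat ℓ none)

theorem tm42_delta_smul (ℓ : ℕ) [NeZero ℓ] (τ : ℍ) : tm42_delta ℓ • τ = scaleH ℓ τ := by
  apply UpperHalfPlane.ext
  rw [tm42_delta, tm42_J_of_pos _ td42_det_delta, m0_ofInt_smul_coe, coe_scaleH ℓ (NeZero.ne ℓ)]
  simp [lbMat]

/-- the `β`-translate: `(δ⁻¹ • f) τ = f (ℓ τ)`. -/
theorem tm42_beta_apply (ℓ : ℕ) [NeZero ℓ] (f : mer95_O) (τ : ℍ) :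
    ((tm42_delta ℓ)⁻¹ • f).1 τ = f.1 (scaleH ℓ τ) := by
  rw [mer95_smul_apply, inv_inv, tm42_delta_smul]

/-- **(H2) on `mer95_MER`.**  If `h` has character `ζ ^ χ` under `Γ₀(N)`, the Hecke product
`∏ j, (r j * δ⁻¹) • h` has character `ζ ^ (heckeHom N ℓ (ZMod p) χ)`. -/
theorem tm42_hecke_char {N ℓ p : ℕ} [NeZero p] [NeZero ℓ] (hℓ : ℓ.Prime) (hℓN : ¬ ℓ ∣ N)
    (χ : Additive (Gamma0 N) →+ ZMod p) (ζ : ℂ) (hζ : ζ ^ p = 1) (h : mer95_MER)
    (hh : ∀ γ : Gamma0 N, (γ : SL(2, ℤ)) • h = (ζ ^ (χ (Additive.ofMul γ)).val) • h)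
    {ι : Type*} [Fintype ι] (r : ι → Gamma0 N)
    (hr : Function.Bijective
      (fun i => (r i : ↥(Gamma0 N) ⧸ (Gamma0 (N * ℓ)).subgroupOf (Gamma0 N))))
    (γ : Gamma0 N) :
    (γ : SL(2, ℤ)) • (∏ j, (mer95_slToGL (r j : SL(2, ℤ)) * (tm42_delta ℓ)⁻¹) • h) =
      (ζ ^ (heckeHom N ℓ (ZMod p) χ (Additive.ofMul γ)).val) •
        ∏ j, (mer95_slToGL (r j : SL(2, ℤ)) * (tm42_delta ℓ)⁻¹) • h := by
  have key := td42_hecke_char (GG := GL(2, ℝ)⁺) (MM := mer95_MER) hℓ hℓN tm42_J tm42_J_mul χ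
    (algebraMap ℂ mer95_MER ζ) (by rw [← map_pow, hζ, map_one])
    (fun g => mer95_smul_C g ζ) h
    (fun γ => by
      rw [tm42_J_sl, ← mer95_SL_smul_eq, hh γ, Algebra.smul_def, map_pow]) r hr γ
  simp only [tm42_J_sl] at key
  rw [mer95_SL_smul_eq, Algebra.smul_def, map_pow]
  exact key

end Fermat.Agent.S42
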