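import Fermat.Agent.S42.ThetaAbs70
import Fermat.Agent.S42.HeckeDiv63
import Fermat.Agent.S42.HeckeNormInst49
import Fermat.Agent.S42.TransferMer42

/-!
# S42, seam (G-HEC) (referee file, helper63): the Hecke step of `Θ`

This file checks the three producers of the Hecke seam against the consumer `th70_hecke_of`:

* (H1) `nm49_hecke_hnorm` (helper49): `e (Nm_α y) = ∏ q, q.out • e' y`;
* (H2) `tm42_hecke_char` (helper42): the character of `∏ q, (q.out * δ⁻¹) • h` is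
  `heckeHom N ℓ (ZMod p) χ`;
* (H3) `hd63_heckeOperatorBar_kummer` (helper63): `T_ℓ [D] = [D']`, `p • D' = div (Nm_α (β f))`.

Inputs: ring homomorphisms `e : F_ℚ̄(N) → mer95_MER`, `e' : F_ℚ̄(N ℓ) → mer95_MER` with the four
level facts `hcomp`, `hinv`, `hstab`, `hbeta`.

* `hr63_root` : the Hecke root `∏ q : Γ₀(N) ⧸ Γ₀(N ℓ), (q.out * δ⁻¹) • h`;
* `hr63_root_pow` : (H1) in closed form, `h ^ p = e f → (root h) ^ p = e (Nm_α (β f))`;
* `hr63_root_char` : (H2) in the `th70_IsChar` shape;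
* `hr63_adm` : admissible pairs are mapped to admissible pairs;
* `hr63_hT` : the literal hypothesis `hT` of `th70_hecke_of`;
* `hr63_hecke_theta` : `T_ℓ (Θ χ) = Θ (T'_ℓ χ)`.

All names are prefixed `hr63_`.
-/

set_option autoImplicit false
set_option linter.style.haveILetI false
set_option linter.unusedSectionVars false
set_option linter.unusedVariables false

open ModularCurve AlgebraicCurve CongruenceSubgroup
open scoped MatrixGroups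

namespace Fermat.Agent.S42

open Fermat.Agent.S16

local notation "Qb" => AlgebraicClosure ℚ

section hr63_delta

/-- The three spellings of `δ = diag(ℓ, 1)` in `GL(2, ℝ)⁺` on main agree: `tm42_delta ℓ`
(helper42) is `mer95_gl !![ℓ, 0; 0, 1] _` (helper45; `ff79_diag ℓ` of helper79 unfolds to
this). -/
theorem hr63_delta_eq_gl (ℓ : ℕ) [NeZero ℓ]
    (hpos : 0 < (!![(ℓ : ℤ), 0; 0, 1] : Matrix (Fin 2) (Fin 2) ℤ).det) :
    tm42_delta ℓ = mer95_gl !![(ℓ : ℤ), 0; 0, 1] hpos := by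
  rw [tm42_delta, tm42_J_of_pos _ td42_det_delta]
  apply Subtype.ext
  apply Matrix.GeneralLinearGroup.ext
  intro i j
  rfl

end hr63_delta

section hr63_root

variable (N ℓ : ℕ)

/-- The Hecke root `∏ q : Γ₀(N) ⧸ Γ₀(N ℓ), (q.out * δ⁻¹) • h`, `δ = diag(ℓ, 1)`. -/
noncomputable def hr63_root
    [Fintype (↥(Gamma0 N) ⧸ (Gamma0 (N * ℓ)).subgroupOf (Gamma0 N))] (h : mer95_MER) :
    mer95_MER :=
  ∏ q : ↥(Gamma0 N) ⧸ (Gamma0 (N * ℓ)).subgroupOf (Gamma0 N),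
    (mer95_slToGL ((q.out : ↥(Gamma0 N)) : SL(2, ℤ)) * (tm42_delta ℓ)⁻¹) • h

theorem hr63_root_def
    [Fintype (↥(Gamma0 N) ⧸ (Gamma0 (N * ℓ)).subgroupOf (Gamma0 N))] (h : mer95_MER) :
    hr63_root N ℓ h = ∏ q : ↥(Gamma0 N) ⧸ (Gamma0 (N * ℓ)).subgroupOf (Gamma0 N),
      (mer95_slToGL ((q.out : ↥(Gamma0 N)) : SL(2, ℤ)) * (tm42_delta ℓ)⁻¹) • h := rfl

theorem hr63_root_ne_zero
    [Fintype (↥(Gamma0 N) ⧸ (Gamma0 (N * ℓ)).subgroupOf (Gamma0 N))] {h : mer95_MER}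
    (hh : h ≠ 0) : hr63_root N ℓ h ≠ 0 := by
  rw [hr63_root_def]
  refine Finset.prod_ne_zero_iff.mpr fun q _ => ?_
  exact (smul_ne_zero_iff_ne _).mpr hh

theorem hr63_root_pow_eq
    [Fintype (↥(Gamma0 N) ⧸ (Gamma0 (N * ℓ)).subgroupOf (Gamma0 N))] (h : mer95_MER) (p : ℕ) :
    hr63_root N ℓ h ^ p = hr63_root N ℓ (h ^ p) := by
  rw [hr63_root_def, hr63_root_def, ← Finset.prod_pow]
  exact Finset.prod_congr rfl fun q _ => (smul_pow' _ _ _).symm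

end hr63_root

section hr63_main

variable (N ℓ : ℕ) [NeZero N] [NeZero ℓ]

/-- **(H1), closed form.**  If `h ^ p = e f`, the Hecke root of `h` is a `p`-th root of
`e (Nm_α (β f))`. -/
theorem hr63_root_pow (hℓ : ℓ.Prime) (hNℓ : ¬ ℓ ∣ N)
    (e : ↥(modularFunctionFieldBar N) →+* mer95_MER)
    (e' : ↥(modularFunctionFieldBar (N * ℓ)) →+* mer95_MER)
    (hcomp : ∀ x : ↥(modularFunctionFieldBar N), e' (heckeAlphaBar Qb N ℓ x) = e x)
    (hinv : ∀ (γ : ↥(Gamma0 N)) (x : ↥(modularFunctionFieldBar N)),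
      (γ : SL(2, ℤ)) • e x = e x)
    (hstab : ∀ γ : ↥(Gamma0 N),
      (∀ y : ↥(modularFunctionFieldBar (N * ℓ)), (γ : SL(2, ℤ)) • e' y = e' y) →
        (γ : SL(2, ℤ)) ∈ Gamma0 (N * ℓ))
    (hbeta : ∀ x : ↥(modularFunctionFieldBar N),
      e' (heckeBetaBar Qb N ℓ x) = (tm42_delta ℓ)⁻¹ • e x)
    [Fintype (↥(Gamma0 N) ⧸ (Gamma0 (N * ℓ)).subgroupOf (Gamma0 N))]
    (p : ℕ) (h : mer95_MER) (f : ↥(modularFunctionFieldBar N)) (hf : h ^ p = e f) :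
    hr63_root N ℓ h ^ p = e (hd63_heckeNorm N ℓ f) := by
  have h1 := nm49_hecke_hnorm (G := SL(2, ℤ)) (M := mer95_MER) N ℓ hℓ hNℓ
    (Gamma0 N).subtype e e' hcomp hinv hstab (heckeBetaBar Qb N ℓ f)
  have h2 : hd63_heckeNorm N ℓ f
      = ht45_normAlong (heckeAlphaBar Qb N ℓ) (heckeBetaBar Qb N ℓ f) := rfl
  rw [h2, h1, hr63_root_pow_eq, hr63_root_def]
  refine Finset.prod_congr rfl fun q _ => ?_
  rw [mul_smul, hf, hbeta]
  rfl

/-- **(H2) in the `th70_IsChar` shape.** -/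
theorem hr63_root_char {p : ℕ} [NeZero p] (hℓ : ℓ.Prime) (hNℓ : ¬ ℓ ∣ N)
    (ζ : ℂ) (hζ : ζ ^ p = 1) (χ : Additive (Gamma0 N) →+ ZMod p) (h : mer95_MER)
    (hh : th70_IsChar p (algebraMap ℂ mer95_MER ζ) χ h)
    [Fintype (↥(Gamma0 N) ⧸ (Gamma0 (N * ℓ)).subgroupOf (Gamma0 N))] :
    th70_IsChar p (algebraMap ℂ mer95_MER ζ) (heckeHom N ℓ (ZMod p) χ) (hr63_root N ℓ h) := by
  intro γ
  have hh' : ∀ γ : Gamma0 N, (γ : SL(2, ℤ)) • h = (ζ ^ (χ (Additive.ofMul γ)).val) • h := by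
    intro γ
    rw [Algebra.smul_def, map_pow]
    exact hh γ
  have key := tm42_hecke_char hℓ hNℓ χ ζ hζ h hh'
    (fun q : ↥(Gamma0 N) ⧸ (Gamma0 (N * ℓ)).subgroupOf (Gamma0 N) => q.out)
    ⟨fun a b hab => by simpa [QuotientGroup.out_eq'] using hab,
      fun q => ⟨q, QuotientGroup.out_eq' q⟩⟩ γ
  rw [Algebra.smul_def, map_pow] at key
  exact key

/-- **Admissible pairs are mapped to admissible pairs**: `(h, f) ↦ (root h, Nm_α (β f))`,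
`χ ↦ heckeHom N ℓ (ZMod p) χ`, `[D] ↦ T_ℓ [D]`. -/
theorem hr63_adm {p : ℕ} [NeZero p] (hℓ : ℓ.Prime) (hNℓ : ¬ ℓ ∣ N)
    (ζ : ℂ) (hζ : ζ ^ p = 1)
    (e : ↥(modularFunctionFieldBar N) →+* mer95_MER)
    (e' : ↥(modularFunctionFieldBar (N * ℓ)) →+* mer95_MER)
    (hcomp : ∀ x : ↥(modularFunctionFieldBar N), e' (heckeAlphaBar Qb N ℓ x) = e x)
    (hinv : ∀ (γ : ↥(Gamma0 N)) (x : ↥(modularFunctionFieldBar N)),
      (γ : SL(2, ℤ)) • e x = e x)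
    (hstab : ∀ γ : ↥(Gamma0 N),
      (∀ y : ↥(modularFunctionFieldBar (N * ℓ)), (γ : SL(2, ℤ)) • e' y = e' y) →
        (γ : SL(2, ℤ)) ∈ Gamma0 (N * ℓ))
    (hbeta : ∀ x : ↥(modularFunctionFieldBar N),
      e' (heckeBetaBar Qb N ℓ x) = (tm42_delta ℓ)⁻¹ • e x)
    [Fintype (↥(Gamma0 N) ⧸ (Gamma0 (N * ℓ)).subgroupOf (Gamma0 N))]
    (χ : Additive (Gamma0 N) →+ ZMod p) (h : mer95_MER) (f : ↥(modularFunctionFieldBar N))
    (H : th70_Adm Qb e p (algebraMap ℂ mer95_MER ζ) χ h f)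
    (D : Divisor.degZero (K := Qb) (F := ↥(modularFunctionFieldBar N)))
    (hD : th70_IsDivOf p f (D : Divisor Qb ↥(modularFunctionFieldBar N))) :
    ∃ D' : Divisor.degZero (K := Qb) (F := ↥(modularFunctionFieldBar N)),
      th70_Adm Qb e p (algebraMap ℂ mer95_MER ζ) (heckeHom N ℓ (ZMod p) χ)
        (hr63_root N ℓ h) (hd63_heckeNorm N ℓ f) ∧
      th70_IsDivOf p (hd63_heckeNorm N ℓ f) (D' : Divisor Qb ↥(modularFunctionFieldBar N)) ∧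
      heckeOperatorBar N ⟨ℓ, hℓ⟩ (Pic0.mk D) = Pic0.mk D' := by
  obtain ⟨a1, a2, a3, a4, a5⟩ := H
  obtain ⟨D', hTD, hD'⟩ := hd63_heckeOperatorBar_kummer hℓ (p : ℤ) D f a2 hD
  refine ⟨D', ⟨hr63_root_ne_zero N ℓ a1, hd63_heckeNorm_ne_zero N ℓ a2,
    hr63_root_char N ℓ hℓ hNℓ ζ hζ χ h a3,
    hr63_root_pow N ℓ hℓ hNℓ e e' hcomp hinv hstab hbeta p h f a4,
    fun v => ⟨(D' : Divisor Qb ↥(modularFunctionFieldBar N)) v, (hD' v).symm⟩⟩, hD', hTD⟩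

/-- **The hypothesis `hT` of `th70_hecke_of`**, literally, for `T = heckeOperatorBar N ℓ` and
`T' = heckeHom N ℓ (ZMod p)` (any subgroup `Par` of characters). -/
theorem hr63_hT {p : ℕ} [NeZero p] (hℓ : ℓ.Prime) (hNℓ : ¬ ℓ ∣ N)
    (ζ : ℂ) (hζ : ζ ^ p = 1)
    (e : ↥(modularFunctionFieldBar N) →+* mer95_MER)
    (e' : ↥(modularFunctionFieldBar (N * ℓ)) →+* mer95_MER)
    (hcomp : ∀ x : ↥(modularFunctionFieldBar N), e' (heckeAlphaBar Qb N ℓ x) = e x)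
    (hinv : ∀ (γ : ↥(Gamma0 N)) (x : ↥(modularFunctionFieldBar N)),
      (γ : SL(2, ℤ)) • e x = e x)
    (hstab : ∀ γ : ↥(Gamma0 N),
      (∀ y : ↥(modularFunctionFieldBar (N * ℓ)), (γ : SL(2, ℤ)) • e' y = e' y) →
        (γ : SL(2, ℤ)) ∈ Gamma0 (N * ℓ))
    (hbeta : ∀ x : ↥(modularFunctionFieldBar N),
      e' (heckeBetaBar Qb N ℓ x) = (tm42_delta ℓ)⁻¹ • e x)
    (Par : AddSubgroup (Additive (Gamma0 N) →+ ZMod p)) :
    ∀ χ ∈ Par, ∀ (h : mer95_MER) (f : ↥(modularFunctionFieldBar N)),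
      th70_Adm Qb e p (algebraMap ℂ mer95_MER ζ) χ h f →
      ∀ D : Divisor.degZero (K := Qb) (F := ↥(modularFunctionFieldBar N)),
        th70_IsDivOf p f (D : Divisor Qb ↥(modularFunctionFieldBar N)) →
        ∃ (h' : mer95_MER) (f' : ↥(modularFunctionFieldBar N))
          (D' : Divisor.degZero (K := Qb) (F := ↥(modularFunctionFieldBar N))),
          th70_Adm Qb e p (algebraMap ℂ mer95_MER ζ) (heckeHom N ℓ (ZMod p) χ) h' f' ∧
          th70_IsDivOf p f' (D' : Divisor Qb ↥(modularFunctionFieldBar N)) ∧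
          (heckeOperatorBar N ⟨ℓ, hℓ⟩).toAddMonoidHom (Pic0.mk D) = Pic0.mk D' := by
  intro χ _ h f H D hD
  haveI : Fintype (↥(Gamma0 N) ⧸ (Gamma0 (N * ℓ)).subgroupOf (Gamma0 N)) := by
    haveI : ((Gamma0 (N * ℓ)).subgroupOf (Gamma0 N)).FiniteIndex :=
      ⟨by
        have h1 : ((Gamma0 (N * ℓ)).subgroupOf (Gamma0 N)).index = ℓ + 1 :=
          gi41_relindex N ℓ hℓ hNℓ
        rw [h1]
        exact Nat.succ_ne_zero ℓ⟩
    exact Subgroup.fintypeQuotientOfFiniteIndex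
  obtain ⟨D', h1, h2, h3⟩ :=
    hr63_adm N ℓ hℓ hNℓ ζ hζ e e' hcomp hinv hstab hbeta χ h f H D hD
  exact ⟨_, _, D', h1, h2, h3⟩

/-- **(G-HEC).**  With the outputs `hex`, `heval` of `th70_exists_theta` (for the concrete
`e`), `Θ` intertwines `heckeHom N ℓ (ZMod p)` and `heckeOperatorBar N ℓ`. -/
theorem hr63_hecke_theta {p : ℕ} [NeZero p] (hℓ : ℓ.Prime) (hNℓ : ¬ ℓ ∣ N)
    (ζ : ℂ) (hζ : ζ ^ p = 1)
    (e : ↥(modularFunctionFieldBar N) →+* mer95_MER)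
    (e' : ↥(modularFunctionFieldBar (N * ℓ)) →+* mer95_MER)
    (hcomp : ∀ x : ↥(modularFunctionFieldBar N), e' (heckeAlphaBar Qb N ℓ x) = e x)
    (hinv : ∀ (γ : ↥(Gamma0 N)) (x : ↥(modularFunctionFieldBar N)),
      (γ : SL(2, ℤ)) • e x = e x)
    (hstab : ∀ γ : ↥(Gamma0 N),
      (∀ y : ↥(modularFunctionFieldBar (N * ℓ)), (γ : SL(2, ℤ)) • e' y = e' y) →
        (γ : SL(2, ℤ)) ∈ Gamma0 (N * ℓ))
    (hbeta : ∀ x : ↥(modularFunctionFieldBar N),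
      e' (heckeBetaBar Qb N ℓ x) = (tm42_delta ℓ)⁻¹ • e x)
    {Par : AddSubgroup (Additive (Gamma0 N) →+ ZMod p)}
    (hex : ∀ χ ∈ Par, ∃ (h : mer95_MER) (f : ↥(modularFunctionFieldBar N)),
      th70_Adm Qb e p (algebraMap ℂ mer95_MER ζ) χ h f)
    (Θ : Par →+ JZero N)
    (heval : ∀ (χ : Par) (h : mer95_MER) (f : ↥(modularFunctionFieldBar N)),
      th70_Adm Qb e p (algebraMap ℂ mer95_MER ζ) (χ : Additive (Gamma0 N) →+ ZMod p) h f →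
        ∀ D : Divisor.degZero (K := Qb) (F := ↥(modularFunctionFieldBar N)),
          th70_IsDivOf p f (D : Divisor Qb ↥(modularFunctionFieldBar N)) → Θ χ = Pic0.mk D)
    (χ : Par) (hχ : heckeHom N ℓ (ZMod p) (χ : Additive (Gamma0 N) →+ ZMod p) ∈ Par) :
    heckeOperatorBar N ⟨ℓ, hℓ⟩ (Θ χ) =
      Θ ⟨heckeHom N ℓ (ZMod p) (χ : Additive (Gamma0 N) →+ ZMod p), hχ⟩ := by
  haveI := Fermat.Agent.S37.hi63_hasPrincipalDivisors_bar N
  exact th70_hecke_of (K := Qb) hex Θ heval (NeZero.ne p)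
    (heckeOperatorBar N ⟨ℓ, hℓ⟩).toAddMonoidHom (fun χ => heckeHom N ℓ (ZMod p) χ)
    (hr63_hT N ℓ hℓ hNℓ ζ hζ e e' hcomp hinv hstab hbeta Par) χ hχ

end hr63_main

end Fermat.Agent.S42
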