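import Mathlib
import Fermat.Prelude.Def_AlgebraicCurve_Correspondence

/-!
# S42, row M8a (owner: helper53): Hecke-equivariance of the Kummer map `Θ`, abstract part

Everything here is Mathlib + Prelude only; all analytic inputs are plain hypotheses.

* (A) `ht53_H`, `ht53_H_pow`, `ht53_smul_H`: a group `G` acts on a field `M`; `ι : Γ →* G`,
  `S ≤ Γ` of finite index, `d : G`, `c : Γ → Γ` with `ι (c s) = d⁻¹ * ι s * d` on `S`;
  `U : M` with `ι γ • U = χ γ * U`.  The *Hecke product* `H := ∏_{q : Γ ⧸ S} (ι q.out * d) • U`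
  satisfies `H ^ p = ∏_q ι q.out • (d • U ^ p)` and transforms under `Γ` by the multiplicative
  transfer `γ ↦ ∏_q χ (c ((γ • q).out⁻¹ * γ * q.out))` of `χ ∘ c`.
* (B) `ht53_corr_principal`, `ht53_corr_root`, `ht53_pic0_corr`: for the Prelude correspondence
  `pushforwardAlong ψ ∘ pullbackAlong φ`: the image of `div u` is `div (N_ψ (φ u))`; hence if
  `p D₁ = div u`, `p D₁' = div u'` and `N_ψ (φ u) = u' * w ^ p`, the correspondence sends the
  class of `D₁` to the class of `D₁'`.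
* (C) `ht53_bridge`: from the analytic norm formula and the two characters one gets
  `N_ψ (φ u) = u' * w ^ p`.

All names are prefixed `ht53_`.
-/

set_option autoImplicit false
set_option linter.style.haveILetI false

open AlgebraicCurve

namespace Fermat.Agent.S42

/-! ### (A) the character of the Hecke product -/

section ht53_A

variable {G M Γ : Type*} [Group G] [Field M] [MulSemiringAction G M] [Group Γ]

/-- The Hecke product `∏_{q : Γ ⧸ S} (ι q.out * d) • U`. -/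
noncomputable def ht53_H (ι : Γ →* G) (S : Subgroup Γ) [Fintype (Γ ⧸ S)] (d : G) (U : M) : M :=
  ∏ q : Γ ⧸ S, (ι q.out * d) • U

/-- The element `(γ • q).out⁻¹ * γ * q.out` of `S`. -/
noncomputable def ht53_h (S : Subgroup Γ) (γ : Γ) (q : Γ ⧸ S) : Γ :=
  (γ • q).out⁻¹ * γ * q.out

theorem ht53_h_mem (S : Subgroup Γ) (γ : Γ) (q : Γ ⧸ S) : ht53_h S γ q ∈ S := by
  have h1 : ((γ • q).out : Γ ⧸ S) = ((γ * q.out : Γ) : Γ ⧸ S) := by
    rw [QuotientGroup.out_eq']
    conv_lhs => rw [← QuotientGroup.out_eq' q]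
    rfl
  have h2 := QuotientGroup.eq.mp h1
  simpa [ht53_h, mul_assoc] using h2

theorem ht53_mul_out (S : Subgroup Γ) (γ : Γ) (q : Γ ⧸ S) :
    γ * q.out = (γ • q).out * ht53_h S γ q := by
  simp [ht53_h, mul_assoc]

/-- The multiplicative transfer of `χ ∘ c`. -/
noncomputable def ht53_transfer (S : Subgroup Γ) [Fintype (Γ ⧸ S)] (c : Γ → Γ) (χ : Γ → M)
    (γ : Γ) : M :=
  ∏ q : Γ ⧸ S, χ (c (ht53_h S γ q))

theorem ht53_H_pow (ι : Γ →* G) (S : Subgroup Γ) [Fintype (Γ ⧸ S)] (d : G) (U : M) (p : ℕ) :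
    ht53_H ι S d U ^ p = ∏ q : Γ ⧸ S, ι q.out • (d • U ^ p) := by
  rw [ht53_H, ← Finset.prod_pow]
  refine Finset.prod_congr rfl fun q _ => ?_
  rw [← smul_pow', mul_smul]

theorem ht53_H_ne_zero (ι : Γ →* G) (S : Subgroup Γ) [Fintype (Γ ⧸ S)] (d : G) {U : M}
    (hU : U ≠ 0) : ht53_H ι S d U ≠ 0 := by
  rw [ht53_H]
  refine Finset.prod_ne_zero_iff.mpr fun q _ => ?_
  exact (smul_ne_zero_iff_ne _).mpr hU

/-- **The Hecke product transforms by the transfer.** -/
theorem ht53_smul_H (ι : Γ →* G) (S : Subgroup Γ) [Fintype (Γ ⧸ S)] (d : G)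
    (c : Γ → Γ) (hc : ∀ s ∈ S, ι (c s) = d⁻¹ * ι s * d)
    (χ : Γ → M) (hfix : ∀ (g : G) (γ : Γ), g • χ γ = χ γ)
    (U : M) (hU : ∀ γ : Γ, ι γ • U = χ γ * U) (γ : Γ) :
    ι γ • ht53_H ι S d U = ht53_transfer S c χ γ * ht53_H ι S d U := by
  have key : ∀ q : Γ ⧸ S, ι γ • ((ι q.out * d) • U) =
      χ (c (ht53_h S γ q)) * (ι (γ • q).out * d) • U := by
    intro q
    have h1 : ι γ * (ι q.out * d) = (ι (γ • q).out * d) * ι (c (ht53_h S γ q)) := by
      rw [hc _ (ht53_h_mem S γ q), ← mul_assoc, ← map_mul, ht53_mul_out S γ q, map_mul]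
      group
    rw [smul_smul, h1, mul_smul, hU, smul_mul', hfix]
  rw [ht53_H, Finset.smul_prod']
  rw [Finset.prod_congr rfl fun q _ => key q, Finset.prod_mul_distrib, ht53_transfer]
  congr 1
  exact Fintype.prod_equiv (MulAction.toPerm γ) _ _ fun q => rfl

end ht53_A

/-! ### (B) the divisor side -/

section ht53_B

variable {K F F' : Type*} [Field K] [Field F] [Field F'] [Algebra K F] [Algebra K F']

/-- The norm of `y : F'` down to `F` along `ψ : F →ₐ[K] F'`. -/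
noncomputable def ht53_normAlong (ψ : F →ₐ[K] F') (y : F') : F :=
  letI := algebraAlong ψ
  Algebra.norm F y

variable [HasPrincipalDivisors K F']
variable (φ ψ : F →ₐ[K] F') (hφ : φ.toRingHom.IsIntegral) (hψ : ψ.toRingHom.IsIntegral)

theorem ht53_pullbackAlong_ord {u : F} {D : Divisor K F} (hD : ∀ v, D v = v.ord u)
    (w : Place K F') : Divisor.pullbackAlong φ hφ D w = w.ord (φ u) := by
  letI := algebraAlong φ
  haveI := isScalarTower_along φ
  haveI := isIntegral_along φ hφ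
  exact Divisor.pullback_apply_eq_ord hD w

/-- **The correspondence of a principal divisor**: `ψ_* φ^* (div u) = div (N_ψ (φ u))`. -/
theorem ht53_corr_principal (hfin : FiniteAlong K ψ) (hN : NormFormulaAlong K ψ hfin)
    {u : F} (hu : u ≠ 0) {D : Divisor K F} (hD : ∀ v, D v = v.ord u) (v : Place K F) :
    Divisor.correspondence φ ψ hφ hψ D v = v.ord (ht53_normAlong ψ (φ u)) := by
  have hE := ht53_pullbackAlong_ord φ hφ hD
  have hφu : φ u ≠ 0 := (map_ne_zero_iff φ φ.injective).mpr hu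
  rw [Divisor.correspondence_apply]
  letI := algebraAlong ψ
  haveI := isScalarTower_along ψ
  haveI := isIntegral_along ψ hψ
  haveI : Module.Finite F F' := hfin
  exact hN (φ u) hφu _ hE v

/-- If `p D₁ = div u`, `N_ψ (φ u) = u' * w ^ p` and `p D₁' = div u'`, then
`ψ_* φ^* D₁ = D₁' + div w`. -/
theorem ht53_corr_root (hfin : FiniteAlong K ψ) (hN : NormFormulaAlong K ψ hfin)
    {p : ℕ} (hp : p ≠ 0) {u u' w : F} (hu : u ≠ 0) (hu' : u' ≠ 0) (hw : w ≠ 0)
    (hnorm : ht53_normAlong ψ (φ u) = u' * w ^ p)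
    {D₁ D₁' : Divisor K F} (hD₁ : ∀ v, (p : ℤ) * D₁ v = v.ord u)
    (hD₁' : ∀ v, (p : ℤ) * D₁' v = v.ord u') (v : Place K F) :
    Divisor.correspondence φ ψ hφ hψ D₁ v = D₁' v + v.ord w := by
  have h1 : ∀ v, ((p : ℤ) • D₁) v = v.ord u := fun v => by
    rw [Finsupp.smul_apply, smul_eq_mul, hD₁ v]
  have h2 := ht53_corr_principal φ ψ hφ hψ hfin hN hu h1 v
  rw [map_zsmul, Finsupp.smul_apply, smul_eq_mul, hnorm, v.ord_mul hu' (pow_ne_zero p hw),
    ← zpow_natCast, v.ord_zpow, ← hD₁' v, ← mul_add] at h2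
  exact mul_left_cancel₀ (by exact_mod_cast hp : (p : ℤ) ≠ 0) h2

end ht53_B

section ht53_B'

variable {K F F' : Type*} [Field K] [Field F] [Field F'] [Algebra K F] [Algebra K F']

/-- A divisor with `p D₁ = div u` has degree `0`. -/
theorem ht53_degree_eq_zero [HasPrincipalDivisors K F] {p : ℕ} (hp : p ≠ 0) {u : F}
    (hu : u ≠ 0) {D₁ : Divisor K F} (hD₁ : ∀ v, (p : ℤ) * D₁ v = v.ord u) :
    Divisor.degree D₁ = 0 := by
  obtain ⟨D, hD, hdeg⟩ := HasPrincipalDivisors.exists_divisor (K := K) u hu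
  have h : (p : ℤ) • D₁ = D := Finsupp.ext fun v => by
    rw [Finsupp.smul_apply, smul_eq_mul, hD₁ v, hD v]
  have h2 : (p : ℤ) * Divisor.degree D₁ = 0 := by
    rw [← smul_eq_mul, ← map_zsmul, h, hdeg]
  rcases mul_eq_zero.mp h2 with h3 | h3
  · exact absurd (by exact_mod_cast h3) hp
  · exact h3

variable [HasPrincipalDivisors K F']
variable (φ ψ : F →ₐ[K] F') (hφ : φ.toRingHom.IsIntegral) (hψ : ψ.toRingHom.IsIntegral)

/-- **Class form**: the `Pic⁰`-correspondence sends the class of `D₁` to the class of `D₁'`. -/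
theorem ht53_pic0_corr (hFI : FundamentalIdentityAlong K φ hφ) (hfin : FiniteAlong K ψ)
    (hN : NormFormulaAlong K ψ hfin)
    {p : ℕ} (hp : p ≠ 0) {u u' w : F} (hu : u ≠ 0) (hu' : u' ≠ 0) (hw : w ≠ 0)
    (hnorm : ht53_normAlong ψ (φ u) = u' * w ^ p)
    (D₁ D₁' : Divisor.degZero (K := K) (F := F))
    (hD₁ : ∀ v, (p : ℤ) * (D₁ : Divisor K F) v = v.ord u)
    (hD₁' : ∀ v, (p : ℤ) * (D₁' : Divisor K F) v = v.ord u') :
    Pic0.correspondence φ ψ hφ hψ hFI hfin hN (Pic0.mk D₁) = Pic0.mk D₁' := by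
  rw [Pic0.correspondence_mk]
  refine QuotientAddGroup.eq.mpr ?_
  rw [AddSubgroup.mem_addSubgroupOf]
  refine ⟨w⁻¹, inv_ne_zero hw, fun v => ?_⟩
  have h := ht53_corr_root φ ψ hφ hψ hfin hN hp hu hu' hw hnorm hD₁ hD₁' v
  rw [v.ord_inv]
  simp only [AddSubgroup.coe_add, NegMemClass.coe_neg, Finsupp.add_apply, Finsupp.neg_apply,
    Pic0.coe_degZeroCorrespondence, h]
  ring

end ht53_B'

/-! ### (C) the bridge from the analytic side -/

section ht53_C

variable {K F F' : Type*} [Field K] [Field F] [Field F'] [Algebra K F] [Algebra K F']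
variable {G M Γ : Type*} [Group G] [Field M] [MulSemiringAction G M] [Group Γ]

/-- **Bridge.**  `ev, ev'` embed `F, F'` in `M`; `φ` is translation by `d`, the norm along `ψ`
is the product over `Γ ⧸ S`; `U ^ p = ev u` has character `χ`, `U' ^ p = ev u'` has the
transferred character; `Γ`-invariant `p`-th roots of elements of `ev F` lie in `ev F`.
Then `N_ψ (φ u) = u' * w ^ p` for some `w ≠ 0`. -/
theorem ht53_bridge (φ ψ : F →ₐ[K] F') (ev : F →+* M) (ev' : F' →+* M)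
    (ι : Γ →* G) (S : Subgroup Γ) [Fintype (Γ ⧸ S)] (d : G)
    (hφ : ∀ x : F, ev' (φ x) = d • ev x)
    (hnorm : ∀ y : F', ev (ht53_normAlong ψ y) = ∏ q : Γ ⧸ S, ι q.out • ev' y)
    (c : Γ → Γ) (hc : ∀ s ∈ S, ι (c s) = d⁻¹ * ι s * d)
    (χ χ' : Γ → M) (hfix : ∀ (g : G) (γ : Γ), g • χ γ = χ γ)
    (hχ' : ∀ γ, χ' γ = ht53_transfer S c χ γ)
    {p : ℕ} (hp : p ≠ 0)
    (hroot : ∀ z : M, (∀ γ : Γ, ι γ • z = z) → (∃ x : F, z ^ p = ev x) → ∃ x : F, z = ev x)
    {u u' : F} (hu : u ≠ 0) (hu' : u' ≠ 0) {U U' : M}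
    (hU : U ^ p = ev u) (hUχ : ∀ γ : Γ, ι γ • U = χ γ * U)
    (hU' : U' ^ p = ev u') (hUχ' : ∀ γ : Γ, ι γ • U' = χ' γ * U') :
    ∃ w : F, w ≠ 0 ∧ ht53_normAlong ψ (φ u) = u' * w ^ p := by
  have hev : Function.Injective ev := ev.injective
  have hU0 : U ≠ 0 := by
    rintro rfl
    rw [zero_pow hp] at hU
    exact hu (hev (by rw [← hU, map_zero]))
  have hU'0 : U' ≠ 0 := by
    rintro rfl
    rw [zero_pow hp] at hU'
    exact hu' (hev (by rw [← hU', map_zero]))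
  have hH0 : ht53_H ι S d U ≠ 0 := ht53_H_ne_zero ι S d hU0
  have hHp : ht53_H ι S d U ^ p = ev (ht53_normAlong ψ (φ u)) := by
    rw [ht53_H_pow, hnorm]
    refine Finset.prod_congr rfl fun q _ => ?_
    rw [hU, hφ]
  have hinv : ∀ γ : Γ, ι γ • (ht53_H ι S d U / U') = ht53_H ι S d U / U' := by
    intro γ
    have hχ0 : χ' γ ≠ 0 := by
      intro h0
      have h1 := hUχ' γ
      rw [h0, zero_mul] at h1
      exact hU'0 ((smul_eq_zero_iff_eq _).mp h1)
    have h2 : ι γ • (ht53_H ι S d U / U') = (ι γ • ht53_H ι S d U) / (ι γ • U') :=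
      map_div₀ (MulSemiringAction.toRingHom G M (ι γ)) _ _
    rw [h2, ht53_smul_H ι S d c hc χ hfix U hUχ γ, ← hχ' γ, hUχ' γ,
      mul_div_mul_left _ _ hχ0]
  obtain ⟨w, hw⟩ := hroot _ hinv ⟨ht53_normAlong ψ (φ u) / u', by
    rw [div_pow, hHp, hU', map_div₀]⟩
  have hw0 : w ≠ 0 := by
    rintro rfl
    rw [map_zero] at hw
    exact div_ne_zero hH0 hU'0 hw
  refine ⟨w, hw0, hev ?_⟩
  rw [map_mul, map_pow, ← hw, div_pow, hHp, hU', mul_div_cancel₀]
  rw [← hU']
  exact pow_ne_zero p hU'0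

end ht53_C

end Fermat.Agent.S42
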