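/-
S42 / Project 4, row M12 (helper47): the group side of the `p = 2, 3` add-on needed by S29.

For `p = 2, 3` the Kummer map `Θ` is defined only on the homomorphisms `Γ₀(N) → ZMod p` which
kill the parabolic elements AND the elements of finite order (for `p ≥ 5` the second condition is
automatic).  This file provides that group:

* `m12p47_IsEllHom Γ χ` : `χ` kills every element of finite order of `Γ`;
* `m12p47_coh_isEllHom` : the operator of ANY Hecke coset system (`LbSys`) preserves this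
  property (cycle argument: along a cycle of length `m` of `i ↦ perm γ i` the elements `kap γ _`
  multiply to `kap (γ ^ m) i`, and `mat i * γ ^ m = kap (γ ^ m) i * mat i`, so `kap (γ ^ m) i` has
  finite order when `γ` has);
* `m12p47_heckeHom_isEllHom` : `heckeHom N ℓ A` (every prime `ℓ`, every `A`) preserves it;
* `m12p47_Par N p` : the `ZMod p`-submodule of `Hom(Γ₀(N), ZMod p)` of the homomorphisms which are
  parabolic and kill the elements of finite order; `m12p47_Par_le` (`≤ w1a28_Par N p`),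
  `m12p47_hecke_mem` (stable under `heckeHom N ℓ (ZMod p)`, `ℓ` prime),
  `m12p47_red_mem` (the reduction of an INTEGRAL parabolic homomorphism lies in it),
  `m12p47_comp_mem` (more generally `g ∘ ψ` for `ψ` parabolic with torsion-free values).
-/
import Mathlib
import Fermat.Agent.S42.HeckePar88
import Fermat.Agent.S42.W1Asm28

set_option autoImplicit false

open CongruenceSubgroup ModularCurve ModularCurve.Period
open scoped MatrixGroups TensorProduct

namespace Fermat.Agent.S42

open Fermat.Agent.S16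

/-! ### homomorphisms killing the elements of finite order -/

/-- `χ` kills every element of finite order of `Γ`. -/
def m12p47_IsEllHom {A : Type*} [AddCommGroup A] (Γ : Subgroup SL(2, ℤ))
    (χ : Additive Γ →+ A) : Prop :=
  ∀ γ : Γ, IsOfFinOrder γ → χ (Additive.ofMul γ) = 0

theorem m12p47_isEllHom_zero {A : Type*} [AddCommGroup A] (Γ : Subgroup SL(2, ℤ)) :
    m12p47_IsEllHom Γ (0 : Additive Γ →+ A) := fun _ _ => rfl

theorem m12p47_isEllHom_add {A : Type*} [AddCommGroup A] {Γ : Subgroup SL(2, ℤ)}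
    {χ χ' : Additive Γ →+ A} (h : m12p47_IsEllHom Γ χ) (h' : m12p47_IsEllHom Γ χ') :
    m12p47_IsEllHom Γ (χ + χ') := fun γ hγ => by
  rw [AddMonoidHom.add_apply, h γ hγ, h' γ hγ, add_zero]

/-- a homomorphism with values in a torsion-free group kills the elements of finite order. -/
theorem m12p47_isEllHom_of_torsionFree {A : Type*} [AddCommGroup A]
    (hA : ∀ (n : ℕ) (a : A), 0 < n → n • a = 0 → a = 0) (Γ : Subgroup SL(2, ℤ))
    (χ : Additive Γ →+ A) : m12p47_IsEllHom Γ χ := by
  intro γ hγ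
  obtain ⟨n, hn, hγn⟩ := isOfFinOrder_iff_pow_eq_one.mp hγ
  refine hA n _ hn ?_
  rw [← map_nsmul, ← ofMul_pow, hγn, ofMul_one, map_zero]

/-- integral homomorphisms kill the elements of finite order. -/
theorem m12p47_isEllHom_int (Γ : Subgroup SL(2, ℤ)) (χ : Additive Γ →+ ℤ) :
    m12p47_IsEllHom Γ χ :=
  m12p47_isEllHom_of_torsionFree (fun n a hn h => by
    rw [nsmul_eq_mul] at h
    rcases mul_eq_zero.mp h with h | h
    · exact absurd (by exact_mod_cast h) hn.ne'
    · exact h) Γ χ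

theorem m12p47_isEllHom_comp {A B : Type*} [AddCommGroup A] [AddCommGroup B]
    {Γ : Subgroup SL(2, ℤ)} (g : A →+ B) {χ : Additive Γ →+ A} (h : m12p47_IsEllHom Γ χ) :
    m12p47_IsEllHom Γ (g.comp χ) := fun γ hγ => by
  rw [AddMonoidHom.comp_apply, h γ hγ, map_zero]

/-! ### conjugation by a matrix of nonzero determinant preserves finite order -/

theorem m12p47_pow_eq_one_of_mul_eq {M G K : Matrix (Fin 2) (Fin 2) ℤ} (hM : M.det ≠ 0)
    (h : M * G = K * M) {n : ℕ} (hG : G ^ n = 1) : K ^ n = 1 := by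
  have hk : ∀ k : ℕ, M * G ^ k = K ^ k * M := by
    intro k
    induction k with
    | zero => simp
    | succ k ih =>
      rw [pow_succ, ← Matrix.mul_assoc, ih, Matrix.mul_assoc, h, ← Matrix.mul_assoc, ← pow_succ]
  have h1 := hk n
  rw [hG, Matrix.mul_one] at h1
  have h2 : M.det • (K ^ n) = M.det • (1 : Matrix (Fin 2) (Fin 2) ℤ) := by
    have h3 : K ^ n * M * M.adjugate = M * M.adjugate := by rw [← h1]
    rw [Matrix.mul_assoc, Matrix.mul_adjugate, Matrix.mul_smul, Matrix.mul_one] at h3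
    exact h3
  ext i j
  have h4 := congrFun (congrFun h2 i) j
  simp only [Matrix.smul_apply, smul_eq_mul] at h4
  exact mul_left_cancel₀ hM h4

/-! ### Hecke coset systems -/

section Lb

variable {Γ : Subgroup SL(2, ℤ)} (S : LbSys Γ)

/-- if `γ` has finite order and `i` is fixed by `perm γ`, then `kap γ i` has finite order. -/
theorem m12p47_kap_isOfFinOrder (γ : Γ) (hγ : IsOfFinOrder γ) (i : S.ι)
    (hfix : S.perm γ i = i) : IsOfFinOrder (S.kap γ i) := by
  obtain ⟨n, hn, hγn⟩ := isOfFinOrder_iff_pow_eq_one.mp hγ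
  refine isOfFinOrder_iff_pow_eq_one.mpr ⟨n, hn, ?_⟩
  have hmm := S.mat_mul γ i
  rw [hfix] at hmm
  have hG : ((γ : SL(2, ℤ)) : Matrix (Fin 2) (Fin 2) ℤ) ^ n = 1 := by
    rw [← Matrix.SpecialLinearGroup.coe_pow, ← Subgroup.coe_pow, hγn]
    rfl
  have hK := m12p47_pow_eq_one_of_mul_eq (S.det_pos i).ne' hmm hG
  apply Subtype.ext
  apply Subtype.ext
  rw [Subgroup.coe_pow, Matrix.SpecialLinearGroup.coe_pow]
  exact hK

/-- **The operator of a Hecke coset system preserves the homomorphisms killing the elements of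
finite order.** -/
theorem m12p47_coh_isEllHom {A : Type*} [AddCommGroup A] (φ : Additive Γ →+ A)
    (hφ : m12p47_IsEllHom Γ φ) : m12p47_IsEllHom Γ (S.coh A φ) := by
  classical
  intro γ hγ
  rw [LbSys.coh_apply]
  have hinj : Function.Injective (S.perm γ) := (S.permEquiv γ).injective
  have hper : ∀ i, 0 < Function.minimalPeriod (S.perm γ) i := by
    intro i
    have hn : 0 < orderOf (S.permEquiv γ) := orderOf_pos _
    refine Function.IsPeriodicPt.minimalPeriod_pos hn ?_
    have h1 : ((S.permEquiv γ) ^ orderOf (S.permEquiv γ)) i = i := by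
      rw [pow_orderOf_eq_one]
      rfl
    have h2 : ∀ (n : ℕ) (j : S.ι), ((S.permEquiv γ) ^ n) j = (S.perm γ)^[n] j := by
      intro n
      induction n with
      | zero => intro j; rfl
      | succ n ihn =>
        intro j
        rw [pow_succ, Equiv.Perm.mul_apply, ihn, Function.iterate_succ_apply]
        rfl
    rw [h2] at h1
    exact h1
  refine hpg88_sum_stable (S.perm γ) hinj hper (fun i => φ (Additive.ofMul (S.kap γ i))) ?_ _
    Finset.univ rfl (fun i _ => Finset.mem_univ _)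
  intro i
  rw [← hpg88_kap_pow S φ γ (Function.minimalPeriod (S.perm γ) i) i]
  apply hφ
  have hfix : S.perm (γ ^ Function.minimalPeriod (S.perm γ) i) i = i := by
    rw [hpg88_perm_pow]
    exact Function.iterate_minimalPeriod
  exact m12p47_kap_isOfFinOrder S _ hγ.pow i hfix

end Lb

/-! ### `heckeHom` -/

section HeckeHom

variable {N ℓ : ℕ} {A : Type*} [AddCommGroup A]

/-- **`heckeHom N ℓ A` (every prime `ℓ`, every `A`) preserves the homomorphisms killing the
elements of finite order.** -/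
theorem m12p47_heckeHom_isEllHom (hℓ : ℓ.Prime) (χ : Additive (Gamma0 N) →+ A)
    (hχ : m12p47_IsEllHom (Gamma0 N) χ) : m12p47_IsEllHom (Gamma0 N) (heckeHom N ℓ A χ) := by
  by_cases hℓN : ℓ ∣ N
  · rw [← hh_lbSysU_coh hℓ hℓN A]
    exact m12p47_coh_isEllHom _ χ hχ
  · rw [← hh_lbSysT_coh hℓ hℓN A]
    exact m12p47_coh_isEllHom _ χ hχ

end HeckeHom

/-! ### the group `Par'_N` -/

section Par

variable (N p : ℕ)

/-- `Par'_N ≤ Hom(Γ₀(N), ZMod p)`: the homomorphisms which kill the parabolic elements and the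
elements of finite order. -/
def m12p47_Par : Submodule (ZMod p) (Additive (Gamma0 N) →+ ZMod p) where
  carrier := {χ | IsParabolicHom (Gamma0 N) χ ∧ m12p47_IsEllHom (Gamma0 N) χ}
  zero_mem' := ⟨fun _ _ => rfl, fun _ _ => rfl⟩
  add_mem' := by
    rintro χ χ' ⟨h1, h2⟩ ⟨h1', h2'⟩
    refine ⟨fun γ hγ => ?_, m12p47_isEllHom_add h2 h2'⟩
    show χ (Additive.ofMul γ) + χ' (Additive.ofMul γ) = 0
    rw [h1 γ hγ, h1' γ hγ, add_zero]
  smul_mem' := by
    rintro c χ ⟨h1, h2⟩
    refine ⟨fun γ hγ => ?_, fun γ hγ => ?_⟩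
    · show c • χ (Additive.ofMul γ) = 0
      rw [h1 γ hγ, smul_zero]
    · show c • χ (Additive.ofMul γ) = 0
      rw [h2 γ hγ, smul_zero]

variable {N p}

theorem m12p47_mem_Par {χ : Additive (Gamma0 N) →+ ZMod p} :
    χ ∈ m12p47_Par N p ↔ IsParabolicHom (Gamma0 N) χ ∧ m12p47_IsEllHom (Gamma0 N) χ := Iff.rfl

variable (N p)

/-- `Par'_N ≤ Par_N`. -/
theorem m12p47_Par_le : m12p47_Par N p ≤ w1a28_Par N p := fun _ h => h.1

variable {N p}

/-- `Par'_N` is stable under `heckeHom N ℓ (ZMod p)`, `ℓ` prime. -/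
theorem m12p47_hecke_mem {ℓ : ℕ} (hℓ : ℓ.Prime) {χ : Additive (Gamma0 N) →+ ZMod p}
    (hχ : χ ∈ m12p47_Par N p) : heckeHom N ℓ (ZMod p) χ ∈ m12p47_Par N p :=
  ⟨hpg88_isParabolicHom_prime hℓ χ hχ.1, m12p47_heckeHom_isEllHom hℓ χ hχ.2⟩

/-- `g ∘ ψ ∈ Par'_N` for `ψ` parabolic with values in a torsion-free group. -/
theorem m12p47_comp_mem {A : Type*} [AddCommGroup A]
    (hA : ∀ (n : ℕ) (a : A), 0 < n → n • a = 0 → a = 0) (g : A →+ ZMod p)
    {ψ : Additive (Gamma0 N) →+ A} (hψ : IsParabolicHom (Gamma0 N) ψ) :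
    g.comp ψ ∈ m12p47_Par N p :=
  ⟨fun γ hγ => by rw [AddMonoidHom.comp_apply, hψ γ hγ, map_zero],
    m12p47_isEllHom_comp g (m12p47_isEllHom_of_torsionFree hA _ ψ)⟩

/-- the reduction modulo `p` of an integral parabolic homomorphism lies in `Par'_N`. -/
theorem m12p47_red_mem {ψ : Additive (Gamma0 N) →+ ℤ} (hψ : IsParabolicHom (Gamma0 N) ψ) :
    (Int.castAddHom (ZMod p)).comp ψ ∈ m12p47_Par N p :=
  ⟨fun γ hγ => by rw [AddMonoidHom.comp_apply, hψ γ hγ, map_zero],
    m12p47_isEllHom_comp _ (m12p47_isEllHom_int _ ψ)⟩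

end Par

end Fermat.Agent.S42
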