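import Fermat.Agent.S42.ThetaMod86
import Fermat.Agent.S42.ThetaFinal70

/-!
# The concrete `θ_m : Hom_par(Γ₀(N), ℤ) → J₀(N)(ℚ̄)` at an arbitrary modulus `m` (THETA-INT)

Modulus-`m`, integral-class twin of `ThetaInst70` / `ThetaFinal70` (helper70), for the riders
S30 / S31.  `L := parabolicHoms ℤ (Gamma0 N) ℤ`.  What is left are the three ANALYTIC statements
over `ℂ` at modulus `m`, as plain hypotheses on the concrete objects (the same three as in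
`ThetaFinal70`, with `m` in place of the prime `p` and integral classes in place of `Par_N`):

* `tm86_X N m`   : for every `x ∈ L` a nonzero `h : mer95_MER` with
  `γ • h = ζ_m ^ x(γ) * h` and `u ∈ F_ℂ(N)` with `ev u = h ^ m`, `m ∣ v.ord u` at every place;
* `tm86_K2C N m` : a `Γ₀(N)`-invariant `x ≠ 0` with `x ^ m ∈ ev F_ℂ(N)` lies in `ev F_ℂ(N)`;
* `tm86_HK φ N m`: the Hecke step on `m`-th roots.

Conclusions:
* `tm86_final_theta_int` : `θ : L →+ JZero N` with (a) `m • θ = 0`, (b) `θ x = 0 → x ∈ m L`,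
  (c) `T_ℓ (θ x) = θ (heckeHom N ℓ ℤ x)` for primes `ℓ ∤ N m`, and the evaluation lemma;
* `tm86_final_family` : for `m = p ^ n`, all `n`, with `p • θ_{n+1} = θ_n`.
-/

set_option autoImplicit false

open CongruenceSubgroup ModularCurve ModularCurve.Period AlgebraicCurve UpperHalfPlane
open scoped MatrixGroups

namespace Fermat.Agent.S42

open Fermat.Agent.S16 Fermat.Agent.S37

section tm86_final

variable (φ : AlgebraicClosure ℚ →+* ℂ) (N : ℕ) [NeZero N] (m : ℕ)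

/-- The analytic existence statement (X) over `ℂ` at modulus `m`, on integral parabolic
classes. -/
def tm86_X : Prop :=
  ∀ x ∈ parabolicHoms ℤ (Gamma0 N) ℤ, ∃ h : mer95_MER, h ≠ 0 ∧
    (∀ γ : ↥(Gamma0 N), γ • h = th70_zeta m ^ (x (Additive.ofMul γ)) * h) ∧
    ∃ u : ↥(laurentBaseChange ℂ (modularFunctionFieldFull N)), ff79_evMer N u = h ^ m ∧
      ∀ v : Place ℂ ↥(laurentBaseChange ℂ (modularFunctionFieldFull N)), (m : ℤ) ∣ v.ord u

/-- (K2) over `ℂ` in the `m`-th root form. -/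
def tm86_K2C : Prop :=
  ∀ x : mer95_MER, x ≠ 0 → (∀ γ : ↥(Gamma0 N), γ • x = x) →
    ∀ u : ↥(laurentBaseChange ℂ (modularFunctionFieldFull N)), x ^ m = ff79_evMer N u →
      ∃ w : ↥(laurentBaseChange ℂ (modularFunctionFieldFull N)), x = ff79_evMer N w

/-- The Hecke step on `m`-th roots, on reductions of integral parabolic classes. -/
def tm86_HK : Prop :=
  ∀ (ℓ : ℕ) [NeZero ℓ], ℓ.Prime → ¬ ℓ ∣ N * m → ∀ x ∈ parabolicHoms ℤ (Gamma0 N) ℤ,
    ∀ (h : mer95_MER) (f : ↥(modularFunctionFieldBar N)), h ≠ 0 → f ≠ 0 →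
      th70_IsChar m (th70_zeta m) (tm86_red m x) h → h ^ m = ff79_ev0 φ N f →
        ∃ h' : mer95_MER, h' ≠ 0 ∧
          th70_IsChar m (th70_zeta m) (heckeHom N ℓ (ZMod m) (tm86_red m x)) h' ∧
          h' ^ m = ff79_ev0 φ N (hd63_heckeNorm N ℓ f)

variable {N m}

/-- The evaluation property of a map `θ` on integral parabolic classes at modulus `m`. -/
def tm86_Eval (θ : ↥(parabolicHoms ℤ (Gamma0 N) ℤ) →+ JZero N) : Prop :=
  ∀ (x : ↥(parabolicHoms ℤ (Gamma0 N) ℤ)) (h : mer95_MER) (f : ↥(modularFunctionFieldBar N)),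
    th70_Adm (AlgebraicClosure ℚ) (ff79_ev0 φ N) m (th70_zeta m)
      (tm86_red m (x : Additive (Gamma0 N) →+ ℤ)) h f →
    ∀ D : Divisor.degZero (K := AlgebraicClosure ℚ) (F := ↥(modularFunctionFieldBar N)),
      th70_IsDivOf m f (D : Divisor (AlgebraicClosure ℚ) ↥(modularFunctionFieldBar N)) →
        θ x = Pic0.mk D

variable (N m)

/-- `hK2` at modulus `m` from (K2) over `ℂ` and the power descent. -/
theorem tm86_final_hK2 (hm : 0 < m) (hK2C : tm86_K2C N m) :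
    ∀ x : mer95_MER, x ≠ 0 → (∀ γ : ↥(Gamma0 N), γ • x = x) →
      ∀ f : ↥(modularFunctionFieldBar N), x ^ m = ff79_ev0 φ N f →
        ∃ (w : ↥(modularFunctionFieldBar N)) (a : AlgebraicClosure ℚ),
          f = algebraMap (AlgebraicClosure ℚ) ↥(modularFunctionFieldBar N) a * w ^ m := by
  intro x hx hinv f hxf
  obtain ⟨w', hw'⟩ := hK2C x hx hinv (ff79_bc φ N f) hxf
  have h1 : w' ^ m = ff79_bc φ N f := by
    apply (ff79_evMer N).toRingHom.injective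
    show ff79_evMer N (w' ^ m) = ff79_evMer N (ff79_bc φ N f)
    rw [map_pow, ← hw']
    exact hxf
  have h2 : coeffMap φ (f : LaurentSeries (AlgebraicClosure ℚ)) =
      algebraMap ℂ (LaurentSeries ℂ) 1 * (w' : LaurentSeries ℂ) ^ m := by
    rw [map_one, one_mul, ← ff79_bc_coe φ N f, ← h1]
    rfl
  obtain ⟨c0, v0, h3⟩ := di3_pow_descend_bar φ N hm f 1 w' h2
  exact ⟨v0, c0, h3⟩

/-- `hex` at modulus `m` from (X) over `ℂ` and the descent (DESC). -/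
theorem tm86_final_hex [NeZero m] (hX : tm86_X N m) :
    ∀ x ∈ (parabolicHoms ℤ (Gamma0 N) ℤ).toAddSubgroup,
      ∃ (h : mer95_MER) (f : ↥(modularFunctionFieldBar N)),
        th70_Adm (AlgebraicClosure ℚ) (ff79_ev0 φ N) m (th70_zeta m) (tm86_red m x) h f := by
  have hm : m ≠ 0 := NeZero.ne m
  have hζ : th70_zeta m ^ m = 1 := (th70_zeta_isPrimitiveRoot m hm).pow_eq_one
  intro x hx
  obtain ⟨h, h0, hchar, u, hu, hdvd⟩ := hX x hx
  have hu0 : u ≠ 0 := by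
    rintro rfl
    rw [map_zero] at hu
    exact pow_ne_zero m h0 hu.symm
  obtain ⟨g, w, c, hg, hw, hc, hgw, hP0⟩ :=
    di3_desc_bar φ N (Nat.pos_of_ne_zero hm) hu0 hdvd
  have hbc : ff79_bc φ N g =
      algebraMap ℂ ↥(laurentBaseChange ℂ (modularFunctionFieldFull N)) c * (w ^ m * u) := by
    apply Subtype.ext
    rw [ff79_bc_coe, hgw]
    rfl
  obtain ⟨d, hd⟩ := IsAlgClosed.exists_pow_nat_eq c (Nat.pos_of_ne_zero hm)
  have hd0 : d ≠ 0 := by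
    rintro rfl
    rw [zero_pow hm] at hd
    exact hc hd.symm
  have hCd : algebraMap ℂ mer95_MER d ≠ 0 := by simpa using hd0
  have hevw : ff79_evMer N w ≠ 0 := by simpa using hw
  refine ⟨algebraMap ℂ mer95_MER d * ff79_evMer N w * h, g,
    mul_ne_zero (mul_ne_zero hCd hevw) h0, hg, ?_, ?_, hP0⟩
  · rw [tm86_isChar_iff m hζ]
    intro γ
    rw [smul_mul', smul_mul', hchar γ]
    have e1 : γ • algebraMap ℂ mer95_MER d = algebraMap ℂ mer95_MER d :=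
      mer95_smul_C_SL (γ : SL(2, ℤ)) d
    have e2 : γ • ff79_evMer N w = ff79_evMer N w := ff79_evMer_smul N γ.1 γ.2 w
    rw [e1, e2]
    ring
  · rw [ff79_ev0_apply, hbc, map_mul, map_mul, map_pow, hu, ff79_evMer_C, mul_pow, mul_pow,
      ← map_pow, hd]
    ring

/-- **THETA-INT, concrete form**: `θ : Hom_par(Γ₀(N), ℤ) →+ J₀(N)(ℚ̄)` at modulus `m`, with
(a) `m • θ = 0`, (b) kernel `m L`, (c) Hecke equivariance at primes `ℓ ∤ N m`, and the evaluation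
lemma; only the three analytic statements over `ℂ` at modulus `m` are left. -/
theorem tm86_final_theta_int [NeZero m] (hX : tm86_X N m) (hK2C : tm86_K2C N m)
    (hHK : tm86_HK φ N m) :
    ∃ θ : ↥(parabolicHoms ℤ (Gamma0 N) ℤ) →+ JZero N,
      (∀ x, (m : ℤ) • θ x = 0) ∧
      (∀ x, θ x = 0 → ∃ y : ↥(parabolicHoms ℤ (Gamma0 N) ℤ),
        (x : Additive (Gamma0 N) →+ ℤ) = (m : ℤ) • (y : Additive (Gamma0 N) →+ ℤ)) ∧
      (∀ ℓ : Nat.Primes, ¬ (ℓ : ℕ) ∣ N * m → ∀ x : ↥(parabolicHoms ℤ (Gamma0 N) ℤ),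
        heckeOperatorBar N ℓ (θ x) =
          θ ⟨heckeHom N ℓ ℤ x, hpg88_mem_parabolicHoms_prime ℓ.2 ℤ x.2⟩) ∧
      tm86_Eval (m := m) φ θ := by
  have hm : m ≠ 0 := NeZero.ne m
  have := hi63_hasPrincipalDivisors_bar N
  have hroot : ∀ a : AlgebraicClosure ℚ, ∃ b : AlgebraicClosure ℚ, b ^ m = a :=
    fun a => IsAlgClosed.exists_pow_nat_eq a (Nat.pos_of_ne_zero hm)
  have hex := tm86_final_hex φ N m hX
  have hsat : ∀ y : Additive (Gamma0 N) →+ ℤ,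
      (m : ℤ) • y ∈ (parabolicHoms ℤ (Gamma0 N) ℤ).toAddSubgroup →
        y ∈ (parabolicHoms ℤ (Gamma0 N) ℤ).toAddSubgroup := by
    intro y hy γ hγ
    have h := hy γ hγ
    rw [AddMonoidHom.smul_apply, smul_eq_mul] at h
    rcases mul_eq_zero.mp h with h | h
    · exact absurd h (by exact_mod_cast hm)
    · exact h
  obtain ⟨θ, htors, hker, heval⟩ := tm86_theta_int (K := AlgebraicClosure ℚ) (ff79_ev0 φ N) m
    (th70_zeta m) (th70_zeta_isPrimitiveRoot m hm) (th70_zeta_fix N m) (ff79_ev0_fix φ N)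
    (tm86_final_hK2 φ N m (Nat.pos_of_ne_zero hm) hK2C) (th70_const N) hroot
    (parabolicHoms ℤ (Gamma0 N) ℤ).toAddSubgroup hsat hex
  refine ⟨θ, htors, hker, fun ℓ hℓN x => ?_, heval⟩
  have : NeZero (ℓ : ℕ) := ⟨ℓ.2.ne_zero⟩
  refine tm86_hecke_int (K := AlgebraicClosure ℚ) hex θ heval hm
    (heckeOperatorBar N ℓ).toAddMonoidHom (fun χ => heckeHom N ℓ (ZMod m) χ) ?_ x
    ⟨heckeHom N ℓ ℤ x, hpg88_mem_parabolicHoms_prime ℓ.2 ℤ x.2⟩
    (heckeHom_comp N ℓ (Int.castAddHom (ZMod m)) (x : Additive (Gamma0 N) →+ ℤ)).symm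
  intro y hy h f H D hD
  obtain ⟨h0, f0, hchar, hpow, hdvd⟩ := H
  obtain ⟨h', h'0, hchar', hpow'⟩ := hHK (ℓ : ℕ) ℓ.2 hℓN y hy h f h0 f0 hchar hpow
  obtain ⟨D', hTD, hD'⟩ :=
    hd63_heckeOperatorBar_kummer (N := N) (ℓ := (ℓ : ℕ)) ℓ.2 (m : ℤ) D f f0 hD
  exact ⟨h', hd63_heckeNorm N ℓ f, D',
    ⟨h'0, hd63_heckeNorm_ne_zero N ℓ f0, hchar', hpow', fun v => ⟨_, (hD' v).symm⟩⟩, hD', hTD⟩

end tm86_final

section tm86_family

variable (φ : AlgebraicClosure ℚ →+* ℂ) (N : ℕ) [NeZero N]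

/-- `ζ_{m d} ^ d = ζ_m`. -/
theorem tm86_zeta_pow (m d : ℕ) (hm : m ≠ 0) (hd : d ≠ 0) :
    th70_zeta (m * d) ^ d = th70_zeta m := by
  unfold th70_zeta
  rw [← map_pow, ← Complex.exp_nat_mul]
  congr 2
  have hm' : (m : ℂ) ≠ 0 := by exact_mod_cast hm
  have hd' : (d : ℂ) ≠ 0 := by exact_mod_cast hd
  push_cast
  field_simp

/-- **Level compatibility of the concrete maps**: `θ'` at modulus `m`, `θ` at modulus `m * d`,
both with the evaluation property, satisfy `θ' = d • θ`. -/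
theorem tm86_final_compat (m d : ℕ) [NeZero m] [NeZero d] (hX : tm86_X N (m * d))
    (θ θ' : ↥(parabolicHoms ℤ (Gamma0 N) ℤ) →+ JZero N)
    (heval : tm86_Eval (m := m * d) φ θ) (heval' : tm86_Eval (m := m) φ θ')
    (x : ↥(parabolicHoms ℤ (Gamma0 N) ℤ)) : θ' x = (d : ℤ) • θ x := by
  have : NeZero (m * d) := ⟨mul_ne_zero (NeZero.ne m) (NeZero.ne d)⟩
  have := hi63_hasPrincipalDivisors_bar N
  have hζ : th70_zeta (m * d) ^ (m * d) = 1 :=
    (th70_zeta_isPrimitiveRoot (m * d) (NeZero.ne _)).pow_eq_one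
  have heval'' : ∀ (x : ↥(parabolicHoms ℤ (Gamma0 N) ℤ).toAddSubgroup) (h : mer95_MER)
      (f : ↥(modularFunctionFieldBar N)),
      th70_Adm (AlgebraicClosure ℚ) (ff79_ev0 φ N) m (th70_zeta (m * d) ^ d)
        (tm86_red m (x : Additive (Gamma0 N) →+ ℤ)) h f →
      ∀ D : Divisor.degZero (K := AlgebraicClosure ℚ) (F := ↥(modularFunctionFieldBar N)),
        th70_IsDivOf m f (D : Divisor (AlgebraicClosure ℚ) ↥(modularFunctionFieldBar N)) →
          θ' x = Pic0.mk D := by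
    rw [tm86_zeta_pow m d (NeZero.ne m) (NeZero.ne d)]
    exact heval'
  exact tm86_compat (K := AlgebraicClosure ℚ) m d hζ (tm86_final_hex φ N (m * d) hX) θ θ'
    heval heval'' x

/-- **(I-Θ∞): the compatible family at the powers of `p`.**  From the three analytic statements
at all moduli `p ^ n`: maps `θ n : Hom_par(Γ₀(N), ℤ) →+ J₀(N)(ℚ̄)` with `p ^ n • θ n = 0`,
kernel `p ^ n L`, Hecke equivariance at primes `ℓ ∤ N p`, and `p • θ (n + 1) = θ n`. -/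
theorem tm86_final_family (p : ℕ) (hp : p.Prime)
    (hX : ∀ n : ℕ, tm86_X N (p ^ n)) (hK2C : ∀ n : ℕ, tm86_K2C N (p ^ n))
    (hHK : ∀ n : ℕ, tm86_HK φ N (p ^ n)) :
    ∃ θ : ℕ → (↥(parabolicHoms ℤ (Gamma0 N) ℤ) →+ JZero N),
      (∀ n x, ((p ^ n : ℕ) : ℤ) • θ n x = 0) ∧
      (∀ n x, θ n x = 0 → ∃ y : ↥(parabolicHoms ℤ (Gamma0 N) ℤ),
        (x : Additive (Gamma0 N) →+ ℤ) = ((p ^ n : ℕ) : ℤ) • (y : Additive (Gamma0 N) →+ ℤ)) ∧
      (∀ (n : ℕ) (ℓ : Nat.Primes), ¬ (ℓ : ℕ) ∣ N * p →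
        ∀ x : ↥(parabolicHoms ℤ (Gamma0 N) ℤ),
        heckeOperatorBar N ℓ (θ n x) =
          θ n ⟨heckeHom N ℓ ℤ x, hpg88_mem_parabolicHoms_prime ℓ.2 ℤ x.2⟩) ∧
      (∀ n x, (p : ℤ) • θ (n + 1) x = θ n x) := by
  have hpn : ∀ n : ℕ, NeZero (p ^ n) := fun n => ⟨pow_ne_zero n hp.ne_zero⟩
  have key : ∀ n : ℕ, ∃ θ : ↥(parabolicHoms ℤ (Gamma0 N) ℤ) →+ JZero N,
      (∀ x, ((p ^ n : ℕ) : ℤ) • θ x = 0) ∧
      (∀ x, θ x = 0 → ∃ y : ↥(parabolicHoms ℤ (Gamma0 N) ℤ),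
        (x : Additive (Gamma0 N) →+ ℤ) = ((p ^ n : ℕ) : ℤ) • (y : Additive (Gamma0 N) →+ ℤ)) ∧
      (∀ ℓ : Nat.Primes, ¬ (ℓ : ℕ) ∣ N * p ^ n → ∀ x : ↥(parabolicHoms ℤ (Gamma0 N) ℤ),
        heckeOperatorBar N ℓ (θ x) =
          θ ⟨heckeHom N ℓ ℤ x, hpg88_mem_parabolicHoms_prime ℓ.2 ℤ x.2⟩) ∧
      tm86_Eval (m := p ^ n) φ θ := fun n =>
    have := hpn n
    tm86_final_theta_int φ N (p ^ n) (hX n) (hK2C n) (hHK n)
  choose θ h1 h2 h3 h4 using key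
  refine ⟨θ, h1, h2, fun n ℓ hℓN x => ?_, fun n x => ?_⟩
  · refine h3 n ℓ (fun hdvd => ?_) x
    rcases (Nat.Prime.dvd_mul ℓ.2).mp hdvd with h | h
    · exact hℓN (dvd_mul_of_dvd_left h p)
    · exact hℓN (dvd_mul_of_dvd_right (ℓ.2.dvd_of_dvd_pow h) N)
  · have := hpn n
    have : NeZero p := ⟨hp.ne_zero⟩
    have hX' : tm86_X N (p ^ n * p) := by
      rw [← pow_succ]
      exact hX (n + 1)
    have heval : tm86_Eval (m := p ^ n * p) φ (θ (n + 1)) := by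
      rw [← pow_succ]
      exact h4 (n + 1)
    exact (tm86_final_compat φ N (p ^ n) p hX' (θ (n + 1)) (θ n) heval (h4 n) x).symm

end tm86_family

end Fermat.Agent.S42
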