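import Fermat.Agent.S42.XMod87
import Fermat.Agent.S42.GlueEex94
import Fermat.Agent.S42.ParEll47
import Fermat.Agent.S42.ThetaIntFinal86
import Fermat.Agent.S42.ThetaInstZ31

/-!
# S29 / riders: `hex` and `(X)` at an arbitrary modulus, in every consumer vocabulary (helper87)

`XMod87` ((X) over `ℂ`, any modulus `m ≥ 1`, finite-order form) composed with the descent
(`geex94_adm`, helper94 on helper3's block), and restated in the shapes the consumers bind to.
Everything is hypothesis-free; `φ : ℚ̄ →+* ℂ` is arbitrary, `ev0 = ff79_ev0 φ N`.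

* `hm87_adm` : `χ : Γ₀(N) → ZMod m` parabolic and killing the elements of finite order has an
  admissible pair `(h, f)` over `ℚ̄` (`th70_Adm`);
* `hm87_hex_ell` : `hex'` of `m12p47_W1` (helper47), on `m12p47_Par N p`, any `p ≠ 0`;
* `hm87_hex_tors` : the same on `pt46_Par N m` (helper46);
* `hm87_tm86_X` : `tm86_X N m` (helper86's named Prop of `ThetaIntFinal86`), any `m ≥ 1`;
* `hm87_hex_red` : `hex` of `tm86_theta_int` on reductions `tm86_red m x` of integral parabolic
  classes;
* `hm87_hex_Z` : `hex` of `thz31_I_Theta_Z` (helper31), in the integer-power vocabulary.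

All names are prefixed `hm87_`.
-/

set_option autoImplicit false
set_option linter.unusedSectionVars false
set_option linter.unusedVariables false
set_option linter.style.longLine false

open CongruenceSubgroup ModularCurve ModularCurve.Period AlgebraicCurve UpperHalfPlane
open scoped MatrixGroups

namespace Fermat.Agent.S42

section hm87

variable (φ : AlgebraicClosure ℚ →+* ℂ) (N : ℕ) [NeZero N] (m : ℕ) [NeZero m]

/-- **Admissible pairs over `ℚ̄` at any modulus**, for a parabolic character killing the elements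
of finite order. -/
theorem hm87_adm (χ : Additive ↥(Gamma0 N) →+ ZMod m) (hpar : IsParabolicHom (Gamma0 N) χ)
    (hfin : ∀ δ : ↥(Gamma0 N), IsOfFinOrder δ → χ (Additive.ofMul δ) = 0) :
    ∃ (h : mer95_MER) (f : ↥(modularFunctionFieldBar N)),
      th70_Adm (AlgebraicClosure ℚ) (ff79_ev0 φ N) m (th70_zeta m) χ h f := by
  obtain ⟨h, h0, hchar, u, hu, hdvd⟩ := xm87_X N m χ hpar hfin
  exact geex94_adm φ N (NeZero.ne m) (th70_zeta m) h0 hchar hu hdvd

/-- **`hex'` of `m12p47_W1`** (helper47's `Par'`: parabolic + killing finite-order elements). -/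
theorem hm87_hex_ell :
    ∀ χ ∈ m12p47_Par N m, ∃ (h : mer95_MER) (f : ↥(modularFunctionFieldBar N)),
      th70_Adm (AlgebraicClosure ℚ) (ff79_ev0 φ N) m (th70_zeta m) χ h f :=
  fun χ hχ => hm87_adm φ N m χ hχ.1 hχ.2

/-- **`hex` on `pt46_Par`** (helper46's `Par'`: homs killing every `γ` with `tr² ≤ 4`). -/
theorem hm87_hex_tors :
    ∀ χ ∈ pt46_Par N m, ∃ (h : mer95_MER) (f : ↥(modularFunctionFieldBar N)),
      th70_Adm (AlgebraicClosure ℚ) (ff79_ev0 φ N) m (th70_zeta m) χ h f :=
  fun χ hχ => hm87_adm φ N m χ (pt46_Par_le N m hχ)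
    (fun δ hδ => pt46_Par_kills_finOrder hχ δ hδ)

/-- **`tm86_X N m`**: the analytic existence statement on integral parabolic classes, at any
modulus. -/
theorem hm87_tm86_X : tm86_X N m := by
  intro x hx
  have hζ : th70_zeta m ^ m = 1 :=
    (th70_zeta_isPrimitiveRoot m (NeZero.ne m)).pow_eq_one
  obtain ⟨h, h0, hchar, u, hu, hdvd⟩ := xm87_X_int N m x hx
  have hchar' : th70_IsChar m (th70_zeta m) (tm86_red m x) h := hchar
  exact ⟨h, h0, (tm86_isChar_iff m hζ x h).mp hchar', u, hu, hdvd⟩

/-- **`hex` on reductions of integral parabolic classes** (`tm86_red`). -/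
theorem hm87_hex_red :
    ∀ x ∈ (parabolicHoms ℤ (Gamma0 N) ℤ).toAddSubgroup,
      ∃ (h : mer95_MER) (f : ↥(modularFunctionFieldBar N)),
        th70_Adm (AlgebraicClosure ℚ) (ff79_ev0 φ N) m (th70_zeta m) (tm86_red m x) h f :=
  tm86_final_hex φ N m (hm87_tm86_X N m)

/-- **`hex` of `thz31_I_Theta_Z`** (integer-power vocabulary of helper31). -/
theorem hm87_hex_Z :
    ∀ χ ∈ thz31_L N, ∃ (h : mer95_MER) (f : ↥(modularFunctionFieldBar N)),
      thz31_AdmZ (AlgebraicClosure ℚ) (ff79_ev0 φ N) m (th70_zeta m) χ h f := by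
  intro χ hχ
  have hζ : th70_zeta m ^ m = 1 :=
    (th70_zeta_isPrimitiveRoot m (NeZero.ne m)).pow_eq_one
  obtain ⟨h, f, H⟩ := hm87_hex_red φ N m χ hχ
  have H' : th70_Adm (AlgebraicClosure ℚ) (ff79_ev0 φ N) m (th70_zeta m)
      (thz31_red ↥(Gamma0 N) m χ) h f := H
  exact ⟨h, f, (thz31_adm_red hζ χ h f).mp H'⟩

end hm87

end Fermat.Agent.S42
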