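import Mathlib
import Fermat.Agent.S20.Helper98Lattice
import Fermat.Agent.S24.KleinJOrder
import Fermat.Agent.S24.KleinJSurj

/-!
# S42 / M12a: Klein's `j` is injective modulo `SL(2, ℤ)`

* `ji98_kleinJ_inj`    : `kleinJ τ₁ = kleinJ τ₂ → ∃ γ : SL(2, ℤ), γ • τ₁ = τ₂`;
* `ji98_kleinJ_eq_iff` : the corresponding equivalence;
* `ji98_E4_zero`       : a zero of `E₄` is `SL(2, ℤ)`-equivalent to `ρ`;
* `ji98_E6_zero`       : a zero of `E₆` is `SL(2, ℤ)`-equivalent to `i`.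

Proof: equal `j` gives a scalar `c ≠ 0` with `E₄ τ₁ = c⁴ E₄ τ₂`, `E₆ τ₁ = c⁶ E₆ τ₂`; then the period
pairs `(τ₂, 1)` and `(c τ₁, c)` have the same `G₄`, `G₆`, hence the same lattice
(`lattice_eq_of_G_eq`, from the Weierstrass differential equation), and a change of basis of a
lattice which preserves the upper half plane is in `SL(2, ℤ)`.
-/

set_option autoImplicit false

namespace Fermat.Agent.S42

open UpperHalfPlane ModularForm EisensteinSeries Complex
open Fermat.Agent.S20 Fermat.Agent.S24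
open scoped MatrixGroups

/-- the period pair `(c τ, c)`. -/
noncomputable def ji98_pp (c : ℂ) (hc : c ≠ 0) (τ : ℍ) : PeriodPair where
  ω₁ := c * τ
  ω₂ := c
  indep := by
    rw [LinearIndependent.pair_iff]
    intro s t hst
    have h1 : c * ((s : ℂ) * τ + t) = 0 := by
      simp only [real_smul] at hst
      linear_combination hst
    have h2 : (s : ℂ) * τ + t = 0 := (mul_eq_zero.mp h1).resolve_left hc
    have him := congrArg Complex.im h2
    have hre := congrArg Complex.re h2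
    simp only [add_im, mul_im, ofReal_re, ofReal_im, coe_im, coe_re, zero_mul, add_zero,
      zero_im, add_re, mul_re, sub_zero, zero_re] at him hre
    have hs : s = 0 := (mul_eq_zero.mp him).resolve_right τ.im_pos.ne'
    refine ⟨hs, ?_⟩
    rw [hs] at hre
    linarith

@[simp] theorem ji98_pp_ω₁ (c : ℂ) (hc : c ≠ 0) (τ : ℍ) : (ji98_pp c hc τ).ω₁ = c * τ := rfl

@[simp] theorem ji98_pp_ω₂ (c : ℂ) (hc : c ≠ 0) (τ : ℍ) : (ji98_pp c hc τ).ω₂ = c := rfl

/-- the lattice sum of `(c τ, c)` is `c⁻ᵏ · 2 ζ(k) E_k(τ)`. -/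
theorem ji98_G (c : ℂ) (hc : c ≠ 0) (τ : ℍ) (k : ℕ) (hk : 3 ≤ k) :
    c ^ k * (ji98_pp c hc τ).G k = 2 * riemannZeta k * E hk τ := by
  rw [G_eq_tsum, two_zeta_mul_E, ← tsum_mul_left]
  refine tsum_congr fun v => ?_
  simp only [ji98_pp_ω₁, ji98_pp_ω₂]
  have e : (v 0 : ℂ) * (c * τ) + v 1 * c = c * (v 0 * (τ : ℂ) + v 1) := by ring
  rw [e, mul_pow, mul_inv, ← mul_assoc, mul_inv_cancel₀ (pow_ne_zero _ hc), one_mul]

theorem ji98_zeta_ne (k : ℕ) (hk : 3 ≤ k) : (2 : ℂ) * riemannZeta k ≠ 0 := by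
  refine mul_ne_zero two_ne_zero (riemannZeta_ne_zero_of_one_lt_re ?_)
  simp only [natCast_re]
  exact_mod_cast (by omega : 1 < k)

/-- the scaling constant: equal `j` gives `c ≠ 0` with `E₄ τ₁ = c⁴ E₄ τ₂`, `E₆ τ₁ = c⁶ E₆ τ₂`. -/
theorem ji98_exists_scale (τ₁ τ₂ : ℍ) (h : kleinJ τ₁ = kleinJ τ₂) :
    ∃ c : ℂ, c ≠ 0 ∧ E₄ τ₁ = c ^ 4 * E₄ τ₂ ∧ E₆ τ₁ = c ^ 6 * E₆ τ₂ := by
  have hΔ1 := discriminant_ne_zero τ₁
  have hΔ2 := discriminant_ne_zero τ₂
  have e1 := discriminant_eq_E₄_cube_sub_E₆_sq τ₁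
  have e2 := discriminant_eq_E₄_cube_sub_E₆_sq τ₂
  set A1 := E₄ τ₁ with hA1
  set B1 := E₆ τ₁ with hB1
  set A2 := E₄ τ₂ with hA2
  set B2 := E₆ τ₂ with hB2
  have hd1 : A1 ^ 3 - B1 ^ 2 ≠ 0 := by
    intro h0
    apply hΔ1
    rw [e1, h0, zero_div]
  have hd2 : A2 ^ 3 - B2 ^ 2 ≠ 0 := by
    intro h0
    apply hΔ2
    rw [e2, h0, zero_div]
  -- the cross relation
  have hX : A1 ^ 3 * B2 ^ 2 = A2 ^ 3 * B1 ^ 2 := by
    have h' : A1 ^ 3 / ModularForm.discriminant τ₁ = A2 ^ 3 / ModularForm.discriminant τ₂ := h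
    rw [div_eq_div_iff hΔ1 hΔ2, e1, e2] at h'
    linear_combination (-1728 : ℂ) * h'
  by_cases hA : A1 = 0
  · -- `j = 0`
    have hA2' : A2 = 0 := by
      have : A2 ^ 3 * B1 ^ 2 = 0 := by rw [← hX, hA]; ring
      have hB1' : B1 ≠ 0 := by
        intro hb
        apply hd1
        rw [hA, hb]; ring
      rcases mul_eq_zero.mp this with h3 | h3
      · exact pow_eq_zero_iff (by norm_num) |>.mp h3
      · exact absurd (pow_eq_zero_iff (by norm_num) |>.mp h3) hB1'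
    have hB1' : B1 ≠ 0 := by
      intro hb
      apply hd1
      rw [hA, hb]; ring
    have hB2' : B2 ≠ 0 := by
      intro hb
      apply hd2
      rw [hA2', hb]; ring
    obtain ⟨c, hc⟩ := IsAlgClosed.exists_pow_nat_eq (B1 / B2) (by norm_num : 0 < 6)
    have hc0 : c ≠ 0 := by
      intro h0
      rw [h0] at hc
      have : B1 / B2 = 0 := by rw [← hc]; norm_num
      exact div_ne_zero hB1' hB2' this
    refine ⟨c, hc0, ?_, ?_⟩
    · rw [hA, hA2', mul_zero]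
    · rw [hc, div_mul_cancel₀ _ hB2']
  · have hA2' : A2 ≠ 0 := by
      intro h0
      have : A1 ^ 3 * B2 ^ 2 = 0 := by rw [hX, h0]; ring
      have hB2' : B2 ≠ 0 := by
        intro hb
        apply hd2
        rw [h0, hb]; ring
      rcases mul_eq_zero.mp this with h3 | h3
      · exact hA (pow_eq_zero_iff (by norm_num) |>.mp h3)
      · exact hB2' (pow_eq_zero_iff (by norm_num) |>.mp h3)
    by_cases hB : B1 = 0
    · have hB2' : B2 = 0 := by
        have : A1 ^ 3 * B2 ^ 2 = 0 := by rw [hX, hB]; ring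
        rcases mul_eq_zero.mp this with h3 | h3
        · exact absurd (pow_eq_zero_iff (by norm_num) |>.mp h3) hA
        · exact pow_eq_zero_iff (by norm_num) |>.mp h3
      obtain ⟨c, hc⟩ := IsAlgClosed.exists_pow_nat_eq (A1 / A2) (by norm_num : 0 < 4)
      have hc0 : c ≠ 0 := by
        intro h0
        rw [h0] at hc
        have : A1 / A2 = 0 := by rw [← hc]; norm_num
        exact div_ne_zero hA hA2' this
      refine ⟨c, hc0, ?_, ?_⟩
      · rw [hc, div_mul_cancel₀ _ hA2']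
      · rw [hB, hB2', mul_zero]
    · have hB2' : B2 ≠ 0 := by
        intro h0
        have : A2 ^ 3 * B1 ^ 2 = 0 := by rw [← hX, h0]; ring
        rcases mul_eq_zero.mp this with h3 | h3
        · exact hA2' (pow_eq_zero_iff (by norm_num) |>.mp h3)
        · exact hB (pow_eq_zero_iff (by norm_num) |>.mp h3)
      obtain ⟨c, hc⟩ := IsAlgClosed.exists_pow_nat_eq (B1 / B2 * (A2 / A1)) (by norm_num : 0 < 2)
      have hc0 : c ≠ 0 := by
        intro h0
        rw [h0] at hc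
        have : B1 / B2 * (A2 / A1) = 0 := by rw [← hc]; norm_num
        exact mul_ne_zero (div_ne_zero hB hB2') (div_ne_zero hA2' hA) this
      have h4 : c ^ 4 = A1 / A2 := by
        have : c ^ 4 = (c ^ 2) ^ 2 := by ring
        rw [this, hc]
        field_simp
        linear_combination (-1 : ℂ) * hX
      refine ⟨c, hc0, ?_, ?_⟩
      · rw [h4, div_mul_cancel₀ _ hA2']
      · have : c ^ 6 = c ^ 4 * c ^ 2 := by ring
        rw [this, h4, hc]
        field_simp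

theorem ji98_int_lin (τ : ℍ) (m n : ℤ) (h : (m : ℂ) * τ + n = 0) : m = 0 ∧ n = 0 := by
  have him := congrArg Complex.im h
  have hre := congrArg Complex.re h
  simp only [add_im, mul_im, intCast_re, intCast_im, coe_im, coe_re, zero_mul, add_zero,
    zero_im, add_re, mul_re, sub_zero, zero_re] at him hre
  have hm : (m : ℝ) = 0 := (mul_eq_zero.mp him).resolve_right τ.im_pos.ne'
  have hn : (n : ℝ) = 0 := by
    rw [hm] at hre
    linarith
  exact ⟨by exact_mod_cast hm, by exact_mod_cast hn⟩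

/-- **`j` is injective modulo `SL(2, ℤ)`.** -/
theorem ji98_kleinJ_inj (τ₁ τ₂ : ℍ) (h : kleinJ τ₁ = kleinJ τ₂) : ∃ γ : SL(2, ℤ), γ • τ₁ = τ₂ := by
  obtain ⟨c, hc0, h4, h6⟩ := ji98_exists_scale τ₁ τ₂ h
  -- the two period pairs `(c τ₁, c)` and `(τ₂, 1)`
  set L1 := ji98_pp c hc0 τ₁ with hL1
  set L2 := ji98_pp 1 one_ne_zero τ₂ with hL2
  have g4 : L1.G 4 = L2.G 4 := by
    have a := ji98_G c hc0 τ₁ 4 (by norm_num)
    have b := ji98_G 1 one_ne_zero τ₂ 4 (by norm_num)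
    have h4' : E (by norm_num : 3 ≤ 4) τ₁ = c ^ 4 * E (by norm_num : 3 ≤ 4) τ₂ := h4
    rw [one_pow, one_mul] at b
    rw [← hL1] at a
    rw [← hL2] at b
    have : c ^ 4 * L1.G 4 = c ^ 4 * L2.G 4 := by
      rw [a, h4', b]
      ring
    exact mul_left_cancel₀ (pow_ne_zero _ hc0) this
  have g6 : L1.G 6 = L2.G 6 := by
    have a := ji98_G c hc0 τ₁ 6 (by norm_num)
    have b := ji98_G 1 one_ne_zero τ₂ 6 (by norm_num)
    have h6' : E (by norm_num : 3 ≤ 6) τ₁ = c ^ 6 * E (by norm_num : 3 ≤ 6) τ₂ := h6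
    rw [one_pow, one_mul] at b
    rw [← hL1] at a
    rw [← hL2] at b
    have : c ^ 6 * L1.G 6 = c ^ 6 * L2.G 6 := by
      rw [a, h6', b]
      ring
    exact mul_left_cancel₀ (pow_ne_zero _ hc0) this
  have hlat : L1.lattice = L2.lattice := lattice_eq_of_G_eq L1 L2 g4 g6
  -- the four membership relations
  have m1 : L2.ω₁ ∈ L1.lattice := by rw [hlat]; exact L2.ω₁_mem_lattice
  have m2 : L2.ω₂ ∈ L1.lattice := by rw [hlat]; exact L2.ω₂_mem_lattice
  have m3 : L1.ω₁ ∈ L2.lattice := by rw [← hlat]; exact L1.ω₁_mem_lattice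
  have m4 : L1.ω₂ ∈ L2.lattice := by rw [← hlat]; exact L1.ω₂_mem_lattice
  obtain ⟨a, b, hab⟩ := PeriodPair.mem_lattice.mp m1
  obtain ⟨c', d, hcd⟩ := PeriodPair.mem_lattice.mp m2
  obtain ⟨a', b', hab'⟩ := PeriodPair.mem_lattice.mp m3
  obtain ⟨c'', d'', hcd'⟩ := PeriodPair.mem_lattice.mp m4
  simp only [hL1, hL2, ji98_pp_ω₁, ji98_pp_ω₂, one_mul, mul_one] at hab hcd hab' hcd'
  -- `hab : a * (c * τ₁) + b * c = τ₂`, `hcd : c' * (c * τ₁) + d * c = 1`,
  -- `hab' : a' * τ₂ + b' = c * τ₁`, `hcd' : c'' * τ₂ + d'' = c`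
  have e1 : (((a' * a + b' * c' - 1 : ℤ) : ℂ)) * τ₁ + ((a' * b + b' * d : ℤ) : ℂ) = 0 := by
    have : c * ((((a' * a + b' * c' - 1 : ℤ) : ℂ)) * τ₁ + ((a' * b + b' * d : ℤ) : ℂ)) = 0 := by
      push_cast
      linear_combination (a' : ℂ) * hab + (b' : ℂ) * hcd + hab'
    exact (mul_eq_zero.mp this).resolve_left hc0
  have e2 : (((c'' * a + d'' * c' : ℤ) : ℂ)) * τ₁ + ((c'' * b + d'' * d - 1 : ℤ) : ℂ) = 0 := by
    have : c * ((((c'' * a + d'' * c' : ℤ) : ℂ)) * τ₁ + ((c'' * b + d'' * d - 1 : ℤ) : ℂ)) = 0 := by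
      push_cast
      linear_combination (c'' : ℂ) * hab + (d'' : ℂ) * hcd + hcd'
    exact (mul_eq_zero.mp this).resolve_left hc0
  obtain ⟨f1, f2⟩ := ji98_int_lin τ₁ _ _ e1
  obtain ⟨f3, f4⟩ := ji98_int_lin τ₁ _ _ e2
  have hdetmul : (a' * d'' - b' * c'') * (a * d - b * c') = 1 := by
    linear_combination (c'' * b + d'' * d) * f1 + f4 - (c'' * a + d'' * c') * f2
  -- the relation `τ₂ (c' τ₁ + d) = a τ₁ + b`
  have hrel : (τ₂ : ℂ) * ((c' : ℂ) * τ₁ + d) = (a : ℂ) * τ₁ + b := by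
    have : c * ((τ₂ : ℂ) * ((c' : ℂ) * τ₁ + d)) = c * ((a : ℂ) * τ₁ + b) := by
      linear_combination (τ₂ : ℂ) * hcd - hab
    exact mul_left_cancel₀ hc0 this
  have hden : (c' : ℂ) * τ₁ + d ≠ 0 := by
    intro h0
    have : (1 : ℂ) = 0 := by
      rw [← hcd]
      linear_combination c * h0
    exact one_ne_zero this
  -- positivity of the determinant
  have hpos : (0 : ℝ) < ((a * d - b * c' : ℤ) : ℝ) := by
    have hy := τ₁.im_pos
    have hv := τ₂.im_pos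
    have him := congrArg Complex.im hrel
    have hre := congrArg Complex.re hrel
    simp only [add_im, mul_im, intCast_re, intCast_im, coe_im, coe_re, zero_mul, add_zero,
      add_re, mul_re, sub_zero] at him hre
    have hnorm : 0 < ((c' : ℝ) * τ₁.re + d) ^ 2 + ((c' : ℝ) * τ₁.im) ^ 2 := by
      by_contra hneg
      have h0 : ((c' : ℝ) * τ₁.re + d) ^ 2 + ((c' : ℝ) * τ₁.im) ^ 2 = 0 :=
        le_antisymm (not_lt.mp hneg) (by positivity)
      have hP : (c' : ℝ) * τ₁.re + d = 0 := by nlinarith [sq_nonneg ((c' : ℝ) * τ₁.im)]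
      have hQ : (c' : ℝ) * τ₁.im = 0 := by nlinarith [sq_nonneg ((c' : ℝ) * τ₁.re + d)]
      apply hden
      apply Complex.ext
      · simp only [add_re, mul_re, intCast_re, intCast_im, coe_re, coe_im, zero_mul, sub_zero,
          zero_re]
        exact hP
      · simp only [add_im, mul_im, intCast_re, intCast_im, coe_re, coe_im, zero_mul, add_zero,
          zero_im]
        exact hQ
    have key : ((a * d - b * c' : ℤ) : ℝ) * τ₁.im =
        τ₂.im * (((c' : ℝ) * τ₁.re + d) ^ 2 + ((c' : ℝ) * τ₁.im) ^ 2) := by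
      push_cast
      linear_combination (-((c' : ℝ) * τ₁.re + d)) * him + ((c' : ℝ) * τ₁.im) * hre
    have : 0 < ((a * d - b * c' : ℤ) : ℝ) * τ₁.im := by
      rw [key]
      exact mul_pos hv hnorm
    exact (pos_iff_pos_of_mul_pos this).mpr hy
  have hposZ : 0 < a * d - b * c' := by exact_mod_cast hpos
  have hdet : a * d - b * c' = 1 := by
    have hdvd : a * d - b * c' ∣ 1 := Dvd.intro_left _ hdetmul
    exact Int.eq_one_of_dvd_one hposZ.le hdvd
  let γ : SL(2, ℤ) := ⟨!![a, b; c', d], by rw [Matrix.det_fin_two_of]; exact hdet⟩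
  refine ⟨γ, ?_⟩
  apply UpperHalfPlane.ext
  have hγ := coe_specialLinearGroup_apply γ τ₁
  have g00 : γ 0 0 = a := rfl
  have g01 : γ 0 1 = b := rfl
  have g10 : γ 1 0 = c' := rfl
  have g11 : γ 1 1 = d := rfl
  rw [hγ, g00, g01, g10, g11]
  simp only [algebraMap_int_eq, eq_intCast, ofReal_intCast]
  rw [div_eq_iff hden, hrel]

theorem ji98_kleinJ_eq_iff (τ₁ τ₂ : ℍ) :
    kleinJ τ₁ = kleinJ τ₂ ↔ ∃ γ : SL(2, ℤ), γ • τ₁ = τ₂ := by
  refine ⟨ji98_kleinJ_inj τ₁ τ₂, ?_⟩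
  rintro ⟨γ, rfl⟩
  exact (wpA2_kleinJ_smul γ τ₁).symm

/-- a zero of `E₄` is `SL(2, ℤ)`-equivalent to `ρ`. -/
theorem ji98_E4_zero (τ : ℍ) (h : E₄ τ = 0) : ∃ γ : SL(2, ℤ), γ • rhoH = τ := by
  apply ji98_kleinJ_inj
  rw [wpA3_kleinJ_rho, kleinJ, h]
  simp

/-- a zero of `E₆` is `SL(2, ℤ)`-equivalent to `i`. -/
theorem ji98_E6_zero (τ : ℍ) (h : E₆ τ = 0) : ∃ γ : SL(2, ℤ), γ • UpperHalfPlane.I = τ := by
  apply ji98_kleinJ_inj
  have e := wpA3_kleinJ_sub τ
  rw [h] at e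
  rw [wpA3_kleinJ_I]
  have : kleinJ τ - 1728 = 0 := by rw [e]; simp
  linear_combination -this

end Fermat.Agent.S42
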