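import Mathlib

/-!
# S42 / M1-L2 (helper97): ramification of the `j`-function

Pure Mathlib.  With `E₄`, `E₆` the level-one Eisenstein series, `Δ` the discriminant and
`D = (2πi)⁻¹ d/dz`:

* `jr97_ramanujan` : `2 E₄ · D E₆ − 3 E₆ · D E₄ = −1728 Δ` (Ramanujan's identities in
  Rankin–Cohen form; the left side is a cusp form of weight `12`);
* `jr97_E₄_E₆_ne_zero`, `jr97_D_E₄_ne_zero`, `jr97_D_E₆_ne_zero` : `E₄`, `E₆` have no common
  zero and only simple zeros;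
* `jr97_deriv_j` : `j' = −2πi · E₄² E₆ / Δ` for `j = E₄³/Δ` (`jr97_j`);
* `jr97_order_three`, `jr97_order_two`, `jr97_order_one`, `jr97_order` : for every `τ` in the
  upper half plane the order of vanishing of `j − j(τ)` at `τ` is `3` if `E₄ τ = 0`, `2` if
  `E₆ τ = 0` and `1` otherwise.
-/

set_option autoImplicit false

open UpperHalfPlane ModularForm EisensteinSeries MatrixGroups Filter Function
open scoped Topology Derivative Manifold

namespace Fermat.Agent.S42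

local notation "𝕢" => Function.Periodic.qParam
local notation "Δ" => ModularForm.discriminant

/-- `D F z = q · φ'(q)` where `φ` is the cusp function of the level-one modular form `F`. -/
theorem jr97_D_eq_cusp {k : ℤ} (F : ModularForm 𝒮ℒ k) (z : ℍ) :
    Derivative.normalizedDerivOfComplex F z =
      𝕢 1 z * deriv (cuspFunction 1 F) (𝕢 1 z) := by
  have hq : HasDerivAt (𝕢 1) (2 * Real.pi * Complex.I * 𝕢 1 (z : ℂ)) (z : ℂ) := by
    have h1 : HasDerivAt (fun w : ℂ => 2 * Real.pi * Complex.I * w / ((1 : ℝ) : ℂ))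
        (2 * Real.pi * Complex.I) (z : ℂ) := by
      simpa using (hasDerivAt_id (z : ℂ)).const_mul (2 * Real.pi * Complex.I)
    have h2 : HasDerivAt (𝕢 1)
        (Complex.exp (2 * Real.pi * Complex.I * (z : ℂ) / ((1 : ℝ) : ℂ)) *
          (2 * Real.pi * Complex.I)) (z : ℂ) := h1.cexp
    rw [mul_comm] at h2
    exact h2
  have hφ : DifferentiableAt ℂ (cuspFunction 1 F) (𝕢 1 z) :=
    ModularFormClass.differentiableAt_cuspFunction F one_pos one_mem_strictPeriods_SL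
      (Function.Periodic.norm_qParam_lt_one one_pos z.im_pos)
  have hcomp : HasDerivAt (cuspFunction 1 F ∘ 𝕢 1)
      (deriv (cuspFunction 1 F) (𝕢 1 z) * (2 * Real.pi * Complex.I * 𝕢 1 (z : ℂ))) (z : ℂ) :=
    hφ.hasDerivAt.comp (z : ℂ) hq
  have hev : (F ∘ ofComplex) =ᶠ[𝓝 (z : ℂ)] (cuspFunction 1 F ∘ 𝕢 1) := by
    filter_upwards [isOpen_upperHalfPlaneSet.mem_nhds z.im_pos] with w hw
    have := SlashInvariantFormClass.eq_cuspFunction F ⟨w, hw⟩ one_mem_strictPeriods_SL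
      one_ne_zero
    simp only [Function.comp_apply, ofComplex_apply_of_im_pos hw]
    exact this.symm
  have hd : deriv (F ∘ ofComplex) (z : ℂ) =
      deriv (cuspFunction 1 F) (𝕢 1 z) * (2 * Real.pi * Complex.I * 𝕢 1 (z : ℂ)) :=
    (hcomp.congr_of_eventuallyEq hev).deriv
  have hpi : (2 * (Real.pi : ℂ) * Complex.I) ≠ 0 := by
    simp [Real.pi_ne_zero]
  rw [Derivative.normalizedDerivOfComplex, hd]
  field_simp


/-- The Rankin–Cohen bracket `2 E₄ D E₆ − 3 E₆ D E₄`. -/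
noncomputable def jr97_G (z : ℍ) : ℂ :=
  2 * E₄ z * Derivative.normalizedDerivOfComplex E₆ z -
    3 * E₆ z * Derivative.normalizedDerivOfComplex E₄ z

theorem jr97_slash_eq {k : ℤ} (F : ModularForm 𝒮ℒ k) (γ : SL(2, ℤ)) :
    (F : ℍ → ℂ) ∣[k] γ = F := by
  rw [SL_slash]
  exact SlashInvariantFormClass.slash_action_eq F _ ⟨γ, rfl⟩

theorem jr97_D_slash {k : ℤ} (F : ModularForm 𝒮ℒ k) (γ : SL(2, ℤ)) (z : ℍ) :
    (Derivative.normalizedDerivOfComplex F ∣[k + 2] γ) z =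
      Derivative.normalizedDerivOfComplex F z +
        (k : ℂ) * (2 * Real.pi * Complex.I)⁻¹ * (γ 1 0 / denom γ z) * F z := by
  have h := congrFun (Derivative.normalizedDerivOfComplex_SL_slash (k := k)
    (ModularFormClass.holo F) (γ := γ)) z
  rw [jr97_slash_eq F γ] at h
  simp only [Pi.sub_apply] at h
  rw [h]; ring

theorem jr97_G_slash (γ : SL(2, ℤ)) : jr97_G ∣[(12 : ℤ)] γ = jr97_G := by
  have hG : jr97_G = (2 : ℂ) • ((E₄ : ℍ → ℂ) * Derivative.normalizedDerivOfComplex E₆) -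
      (3 : ℂ) • ((E₆ : ℍ → ℂ) * Derivative.normalizedDerivOfComplex E₄) := by
    ext z; simp [jr97_G, mul_assoc]
  have key : ∀ (k k1 k2 : ℤ) (f g : ℍ → ℂ), k = k1 + k2 →
      (f * g) ∣[k] γ = (f ∣[k1] γ) * (g ∣[k2] γ) := by
    intro k k1 k2 f g hk
    subst hk
    exact mul_slash_SL2 k1 k2 γ f g
  have h1 : ((E₄ : ℍ → ℂ) * Derivative.normalizedDerivOfComplex E₆) ∣[(12 : ℤ)] γ =
      ((E₄ : ℍ → ℂ) ∣[(4 : ℤ)] γ) * (Derivative.normalizedDerivOfComplex E₆ ∣[(6 + 2 : ℤ)] γ) :=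
    key 12 4 (6 + 2) _ _ (by norm_num)
  have h2 : ((E₆ : ℍ → ℂ) * Derivative.normalizedDerivOfComplex E₄) ∣[(12 : ℤ)] γ =
      ((E₆ : ℍ → ℂ) ∣[(6 : ℤ)] γ) * (Derivative.normalizedDerivOfComplex E₄ ∣[(4 + 2 : ℤ)] γ) :=
    key 12 6 (4 + 2) _ _ (by norm_num)
  ext z
  rw [hG, sub_eq_add_neg, SlashAction.add_slash, SlashAction.neg_slash, SL_smul_slash,
    SL_smul_slash, h1, h2, jr97_slash_eq E₄ γ, jr97_slash_eq E₆ γ]
  simp only [Pi.add_apply, Pi.neg_apply, Pi.smul_apply, Pi.mul_apply, smul_eq_mul,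
    jr97_D_slash E₆ γ z, jr97_D_slash E₄ γ z]
  push_cast
  ring

theorem jr97_G_mdiff : MDiff jr97_G := by
  have h4 : MDiff (Derivative.normalizedDerivOfComplex E₄) :=
    Derivative.normalizedDerivOfComplex_mdifferentiable (ModularFormClass.holo E₄)
  have h6 : MDiff (Derivative.normalizedDerivOfComplex E₆) :=
    Derivative.normalizedDerivOfComplex_mdifferentiable (ModularFormClass.holo E₆)
  have e4 : MDiff (E₄ : ℍ → ℂ) := ModularFormClass.holo E₄
  have e6 : MDiff (E₆ : ℍ → ℂ) := ModularFormClass.holo E₆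
  exact ((mdifferentiable_const.mul e4).mul h6).sub ((mdifferentiable_const.mul e6).mul h4)


/-- The cusp-side function `W(q) = 2 φ₄ φ₆' − 3 φ₆ φ₄'`. -/
noncomputable def jr97_W (q : ℂ) : ℂ :=
  2 * cuspFunction 1 E₄ q * deriv (cuspFunction 1 E₆) q -
    3 * cuspFunction 1 E₆ q * deriv (cuspFunction 1 E₄) q

theorem jr97_G_eq_cusp (z : ℍ) : jr97_G z = 𝕢 1 z * jr97_W (𝕢 1 z) := by
  rw [jr97_G, jr97_W, jr97_D_eq_cusp, jr97_D_eq_cusp,
    SlashInvariantFormClass.eq_cuspFunction E₄ z one_mem_strictPeriods_SL one_ne_zero,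
    SlashInvariantFormClass.eq_cuspFunction E₆ z one_mem_strictPeriods_SL one_ne_zero]
  ring

theorem jr97_W_zero : jr97_W 0 = -1728 := by
  have h40 : cuspFunction 1 E₄ 0 = 1 := by
    have h := qExpansion_coeff (h := 1) (E₄ : ℍ → ℂ) 0
    rw [E_qExpansion_coeff_zero _ ⟨2, rfl⟩] at h
    simpa using h.symm
  have h60 : cuspFunction 1 E₆ 0 = 1 := by
    have h := qExpansion_coeff (h := 1) (E₆ : ℍ → ℂ) 0
    rw [E_qExpansion_coeff_zero _ ⟨3, rfl⟩] at h
    simpa using h.symm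
  have h41 : deriv (cuspFunction 1 E₄) 0 = 240 := by
    have h := qExpansion_coeff (h := 1) (E₄ : ℍ → ℂ) 1
    rw [E₄_qExpansion_coeff_one] at h
    simpa using h.symm
  have h61 : deriv (cuspFunction 1 E₆) 0 = -504 := by
    have h := qExpansion_coeff (h := 1) (E₆ : ℍ → ℂ) 1
    rw [E₆_qExpansion_coeff_one] at h
    simpa using h.symm
  rw [jr97_W, h40, h60, h41, h61]; norm_num

theorem jr97_W_continuousAt : ContinuousAt jr97_W 0 := by
  have a4 : AnalyticAt ℂ (cuspFunction 1 E₄) 0 :=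
    ModularFormClass.analyticAt_cuspFunction_zero E₄ one_pos one_mem_strictPeriods_SL
  have a6 : AnalyticAt ℂ (cuspFunction 1 E₆) 0 :=
    ModularFormClass.analyticAt_cuspFunction_zero E₆ one_pos one_mem_strictPeriods_SL
  have d4 := a4.deriv.continuousAt
  have d6 := a6.deriv.continuousAt
  unfold jr97_W
  exact ((continuousAt_const.mul a4.continuousAt).mul d6).sub
    ((continuousAt_const.mul a6.continuousAt).mul d4)

theorem jr97_W_tendsto : Tendsto (fun z : ℍ => jr97_W (𝕢 1 z)) atImInfty (𝓝 (-1728)) := by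
  have h := jr97_W_continuousAt.tendsto.comp (qParam_tendsto_atImInfty one_pos)
  rw [jr97_W_zero] at h
  exact h

theorem jr97_G_zeroAt : IsZeroAtImInfty jr97_G := by
  have h := (qParam_tendsto_atImInfty one_pos).mul jr97_W_tendsto
  rw [zero_mul] at h
  exact h.congr fun z => (jr97_G_eq_cusp z).symm

/-- `jr97_G` as a cusp form of weight `12` and level one. -/
noncomputable def jr97_Gform : CuspForm 𝒮ℒ 12 where
  toFun := jr97_G
  slash_action_eq' A hA := by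
    obtain ⟨γ, rfl⟩ := hA
    exact jr97_G_slash γ
  holo' := jr97_G_mdiff
  zero_at_cusps' hc := by
    rw [Subgroup.IsArithmetic.isCusp_iff_isCusp_SL2Z] at hc
    rw [OnePoint.isZeroAt_iff_forall_SL2Z hc]
    intro γ _
    rw [jr97_G_slash]
    exact jr97_G_zeroAt

/-- **Ramanujan's identity** in Rankin–Cohen form: `2 E₄ D E₆ − 3 E₆ D E₄ = −1728 Δ`. -/
theorem jr97_ramanujan (z : ℍ) :
    2 * E₄ z * Derivative.normalizedDerivOfComplex E₆ z -
      3 * E₆ z * Derivative.normalizedDerivOfComplex E₄ z = -1728 * Δ z := by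
  obtain ⟨c, hc⟩ := CuspForm.exists_smul_discriminant_of_weight_eq_twelve jr97_Gform
  have hpt : ∀ w : ℍ, c * Δ w = jr97_G w := fun w => congrArg (fun f : CuspForm 𝒮ℒ 12 => f w) hc
  have hc' : c = -1728 := by
    have h1 : ∀ w : ℍ, c * (∏' n : ℕ, (1 - eta_q n (w : ℂ)) ^ 24) = jr97_W (𝕢 1 w) := by
      intro w
      have h := hpt w
      rw [discriminant_eq_q_prod, jr97_G_eq_cusp] at h
      have hq : 𝕢 1 (w : ℂ) ≠ 0 := Function.Periodic.qParam_ne_zero _
      apply mul_left_cancel₀ hq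
      rw [← h]; ring
    have h2 : Tendsto (fun w : ℍ => c * (∏' n : ℕ, (1 - eta_q n (w : ℂ)) ^ 24)) atImInfty
        (𝓝 (c * 1)) := tendsto_atImInfty_tprod_one_sub_eta_q_pow.const_mul c
    have h3 := tendsto_nhds_unique (h2.congr h1) jr97_W_tendsto
    simpa using h3
  rw [← hc', hpt z, jr97_G]


/-- The `j`-function on the upper half plane, `j = E₄³/Δ = q⁻¹ + 744 + ⋯`. -/
noncomputable def jr97_j (z : ℍ) : ℂ := E₄ z ^ 3 / Δ z

theorem jr97_analyticAt {F : ℍ → ℂ} (hF : MDiff F) (τ : ℍ) :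
    AnalyticAt ℂ (F ∘ ofComplex) (τ : ℂ) :=
  (UpperHalfPlane.mdifferentiable_iff.mp hF).analyticAt
    (isOpen_upperHalfPlaneSet.mem_nhds τ.im_pos)

theorem jr97_deriv_eq (F : ℍ → ℂ) (τ : ℍ) :
    deriv (F ∘ ofComplex) (τ : ℂ) =
      2 * Real.pi * Complex.I * Derivative.normalizedDerivOfComplex F τ := by
  have hpi : (2 * (Real.pi : ℂ) * Complex.I) ≠ 0 := by simp [Real.pi_ne_zero]
  rw [Derivative.normalizedDerivOfComplex]
  field_simp

theorem jr97_Delta_mdiff : MDiff (Δ : ℍ → ℂ) := CuspForm.discriminant.holo'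

theorem jr97_j_mdiff : MDiff jr97_j :=
  ((ModularFormClass.holo E₄).pow 3).div jr97_Delta_mdiff discriminant_ne_zero

/-- `E₄` and `E₆` have no common zero. -/
theorem jr97_E₄_E₆_ne_zero (τ : ℍ) : E₄ τ ≠ 0 ∨ E₆ τ ≠ 0 := by
  by_contra h
  rw [not_or, not_not, not_not] at h
  have h1 := discriminant_eq_E₄_cube_sub_E₆_sq τ
  rw [h.1, h.2] at h1
  exact discriminant_ne_zero τ (by rw [h1]; norm_num)

/-- The zeros of `E₄` are simple. -/
theorem jr97_D_E₄_ne_zero (τ : ℍ) (h : E₄ τ = 0) :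
    Derivative.normalizedDerivOfComplex E₄ τ ≠ 0 := by
  intro h0
  have h1 := jr97_ramanujan τ
  rw [h, h0] at h1
  exact discriminant_ne_zero τ (by
    have : (-1728 : ℂ) * Δ τ = 0 := by rw [← h1]; ring
    simpa using this)

/-- The zeros of `E₆` are simple. -/
theorem jr97_D_E₆_ne_zero (τ : ℍ) (h : E₆ τ = 0) :
    Derivative.normalizedDerivOfComplex E₆ τ ≠ 0 := by
  intro h0
  have h1 := jr97_ramanujan τ
  rw [h, h0] at h1
  exact discriminant_ne_zero τ (by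
    have : (-1728 : ℂ) * Δ τ = 0 := by rw [← h1]; ring
    simpa using this)

/-- `j' = −2πi · E₄² E₆ / Δ`. -/
theorem jr97_deriv_j (τ : ℍ) :
    deriv (jr97_j ∘ ofComplex) (τ : ℂ) =
      -(2 * Real.pi * Complex.I) * (E₄ τ ^ 2 * E₆ τ / Δ τ) := by
  have hΔ0 : Δ τ ≠ 0 := discriminant_ne_zero τ
  have hJ := (jr97_analyticAt jr97_j_mdiff τ).differentiableAt.hasDerivAt
  have h4 := (jr97_analyticAt (ModularFormClass.holo E₄) τ).differentiableAt.hasDerivAt
  have h6 := (jr97_analyticAt (ModularFormClass.holo E₆) τ).differentiableAt.hasDerivAt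
  have hD := (jr97_analyticAt jr97_Delta_mdiff τ).differentiableAt.hasDerivAt
  rw [jr97_deriv_eq] at h4 h6
  set J' := deriv (jr97_j ∘ ofComplex) (τ : ℂ) with hJ'
  set d := deriv ((Δ : ℍ → ℂ) ∘ ofComplex) (τ : ℂ) with hd
  set a := Derivative.normalizedDerivOfComplex E₄ τ with ha
  set b := Derivative.normalizedDerivOfComplex E₆ τ with hb
  -- (i) j Δ = E₄³
  have e1 : (jr97_j ∘ ofComplex) * ((Δ : ℍ → ℂ) ∘ ofComplex) =
      ((E₄ : ℍ → ℂ) ∘ ofComplex) ^ 3 := by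
    ext z
    simp only [Pi.mul_apply, Function.comp_apply, Pi.pow_apply, jr97_j]
    exact div_mul_cancel₀ _ (discriminant_ne_zero _)
  -- (ii) 1728 Δ = E₄³ − E₆²
  have e2 : (fun z : ℂ => 1728 * ((Δ : ℍ → ℂ) ∘ ofComplex) z) =
      ((E₄ : ℍ → ℂ) ∘ ofComplex) ^ 3 - ((E₆ : ℍ → ℂ) ∘ ofComplex) ^ 2 := by
    ext z
    simp only [Function.comp_apply, Pi.sub_apply, Pi.pow_apply]
    rw [discriminant_eq_E₄_cube_sub_E₆_sq]; ring
  have r1 := (hJ.mul hD).unique (e1 ▸ h4.pow 3)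
  have r2 := (hD.const_mul (1728 : ℂ)).unique (e2 ▸ (h4.pow 3).sub (h6.pow 2))
  have r3 := jr97_ramanujan τ
  have r4 := discriminant_eq_E₄_cube_sub_E₆_sq τ
  simp only [Function.comp_apply, ofComplex_apply, jr97_j] at r1 r2
  norm_num at r1 r2
  rw [← ha, ← hb] at r3
  have key : 1728 * Δ τ ^ 2 * J' =
      1728 * Δ τ * (-(2 * Real.pi * Complex.I) * (E₄ τ ^ 2 * E₆ τ)) := by
    have r1' : J' * Δ τ ^ 2 + E₄ τ ^ 3 * d =
        3 * E₄ τ ^ 2 * (2 * Real.pi * Complex.I * a) * Δ τ := by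
      calc J' * Δ τ ^ 2 + E₄ τ ^ 3 * d = (J' * Δ τ + E₄ τ ^ 3 / Δ τ * d) * Δ τ := by
            field_simp
        _ = _ := by rw [r1]
    have r4' : 1728 * Δ τ = E₄ τ ^ 3 - E₆ τ ^ 2 := by rw [r4]; ring
    linear_combination (1728 : ℂ) * r1' - E₄ τ ^ 3 * r2 +
      (3 * E₄ τ ^ 2 * (2 * Real.pi * Complex.I * a)) * r4' +
      (2 * Real.pi * Complex.I) * E₄ τ ^ 2 * E₆ τ * r3
  have h1728 : (1728 : ℂ) * Δ τ ≠ 0 := mul_ne_zero (by norm_num) hΔ0
  have key2 : J' * Δ τ = -(2 * Real.pi * Complex.I) * (E₄ τ ^ 2 * E₆ τ) := by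
    apply mul_left_cancel₀ h1728
    rw [← key]; ring
  rw [mul_div_assoc', eq_div_iff hΔ0, key2]


theorem jr97_two_pi_I_ne_zero : (2 * (Real.pi : ℂ) * Complex.I) ≠ 0 := by
  simp [Real.pi_ne_zero]

theorem jr97_Delta_inv_analyticAt (τ : ℍ) :
    AnalyticAt ℂ (fun z : ℂ => (Δ (ofComplex z))⁻¹) (τ : ℂ) :=
  (jr97_analyticAt jr97_Delta_mdiff τ).inv (discriminant_ne_zero _)

theorem jr97_Delta_inv_order (τ : ℍ) :
    analyticOrderAt (fun z : ℂ => (Δ (ofComplex z))⁻¹) (τ : ℂ) = 0 :=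
  (jr97_Delta_inv_analyticAt τ).analyticOrderAt_eq_zero.mpr
    (inv_ne_zero (discriminant_ne_zero _))

/-- At a zero of `E₄` the function `j − j(τ) = j` vanishes to order exactly `3`. -/
theorem jr97_order_three (τ : ℍ) (h : E₄ τ = 0) :
    analyticOrderAt (fun z : ℂ => jr97_j (ofComplex z) - jr97_j τ) (τ : ℂ) = 3 := by
  have a4 := jr97_analyticAt (ModularFormClass.holo E₄) τ
  have hfun : (fun z : ℂ => jr97_j (ofComplex z) - jr97_j τ) =
      ((E₄ : ℍ → ℂ) ∘ ofComplex) ^ 3 * (fun z : ℂ => (Δ (ofComplex z))⁻¹) := by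
    ext z
    simp [jr97_j, h, div_eq_mul_inv]
  have o4 : analyticOrderAt ((E₄ : ℍ → ℂ) ∘ ofComplex) (τ : ℂ) = 1 :=
    a4.analyticOrderAt_eq_one_of_zero_deriv_ne_zero (by simp [h])
      (by rw [jr97_deriv_eq]; exact mul_ne_zero jr97_two_pi_I_ne_zero (jr97_D_E₄_ne_zero τ h))
  rw [hfun, analyticOrderAt_mul (a4.pow 3) (jr97_Delta_inv_analyticAt τ), analyticOrderAt_pow a4,
    o4, jr97_Delta_inv_order]
  norm_num

/-- At a zero of `E₆` the function `j − j(τ) = j − 1728` vanishes to order exactly `2`. -/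
theorem jr97_order_two (τ : ℍ) (h : E₆ τ = 0) :
    analyticOrderAt (fun z : ℂ => jr97_j (ofComplex z) - jr97_j τ) (τ : ℂ) = 2 := by
  have a6 := jr97_analyticAt (ModularFormClass.holo E₆) τ
  have hjτ : jr97_j τ = 1728 := by
    have h1 := discriminant_eq_E₄_cube_sub_E₆_sq τ
    rw [h] at h1
    have hΔ0 := discriminant_ne_zero τ
    rw [jr97_j, div_eq_iff hΔ0, h1]; ring
  have hfun : (fun z : ℂ => jr97_j (ofComplex z) - jr97_j τ) =
      ((E₆ : ℍ → ℂ) ∘ ofComplex) ^ 2 * (fun z : ℂ => (Δ (ofComplex z))⁻¹) := by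
    ext z
    have hΔ0 := discriminant_ne_zero (ofComplex z)
    have h1 := discriminant_eq_E₄_cube_sub_E₆_sq (ofComplex z)
    rw [hjτ]
    simp only [Pi.mul_apply, Pi.pow_apply, Function.comp_apply, jr97_j]
    rw [div_sub' hΔ0, div_eq_mul_inv]
    congr 1
    rw [h1]; ring
  have o6 : analyticOrderAt ((E₆ : ℍ → ℂ) ∘ ofComplex) (τ : ℂ) = 1 :=
    a6.analyticOrderAt_eq_one_of_zero_deriv_ne_zero (by simp [h])
      (by rw [jr97_deriv_eq]; exact mul_ne_zero jr97_two_pi_I_ne_zero (jr97_D_E₆_ne_zero τ h))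
  rw [hfun, analyticOrderAt_mul (a6.pow 2) (jr97_Delta_inv_analyticAt τ), analyticOrderAt_pow a6,
    o6, jr97_Delta_inv_order]
  norm_num

/-- Away from the zeros of `E₄` and `E₆` the function `j` is unramified. -/
theorem jr97_order_one (τ : ℍ) (h4 : E₄ τ ≠ 0) (h6 : E₆ τ ≠ 0) :
    analyticOrderAt (fun z : ℂ => jr97_j (ofComplex z) - jr97_j τ) (τ : ℂ) = 1 := by
  have hJ := jr97_analyticAt jr97_j_mdiff τ
  have hd : deriv (jr97_j ∘ ofComplex) (τ : ℂ) ≠ 0 := by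
    rw [jr97_deriv_j]
    exact mul_ne_zero (neg_ne_zero.mpr jr97_two_pi_I_ne_zero)
      (div_ne_zero (mul_ne_zero (pow_ne_zero 2 h4) h6) (discriminant_ne_zero τ))
  have := hJ.analyticOrderAt_sub_eq_one_of_deriv_ne_zero hd
  simpa only [Function.comp_apply, ofComplex_apply] using this

/-- **Ramification of `j`** (M1-L2): for every `τ` in the upper half plane, `j − j(τ)` vanishes
at `τ` to order `1`, `2` or `3`. -/
theorem jr97_order (τ : ℍ) :
    analyticOrderAt (fun z : ℂ => jr97_j (ofComplex z) - jr97_j τ) (τ : ℂ) = 1 ∨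
    analyticOrderAt (fun z : ℂ => jr97_j (ofComplex z) - jr97_j τ) (τ : ℂ) = 2 ∨
    analyticOrderAt (fun z : ℂ => jr97_j (ofComplex z) - jr97_j τ) (τ : ℂ) = 3 := by
  by_cases h4 : E₄ τ = 0
  · exact Or.inr (Or.inr (jr97_order_three τ h4))
  · by_cases h6 : E₆ τ = 0
    · exact Or.inr (Or.inl (jr97_order_two τ h6))
    · exact Or.inl (jr97_order_one τ h4 h6)

/-- Membership form of `jr97_order`. -/
theorem jr97_order_mem (τ : ℍ) :
    analyticOrderAt (fun z : ℂ => jr97_j (ofComplex z) - jr97_j τ) (τ : ℂ) ∈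
      ({1, 2, 3} : Set ℕ∞) := by
  rcases jr97_order τ with h | h | h <;> simp [h]

/-- `D j = − E₄² E₆ / Δ`. -/
theorem jr97_D_j (τ : ℍ) :
    Derivative.normalizedDerivOfComplex jr97_j τ = -(E₄ τ ^ 2 * E₆ τ / Δ τ) := by
  have h := jr97_deriv_j τ
  rw [jr97_deriv_eq] at h
  have h2 := jr97_two_pi_I_ne_zero
  apply mul_left_cancel₀ h2
  rw [h]; ring

end Fermat.Agent.S42
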