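import Fermat.Agent.S42.JRam97
import Fermat.Agent.S42.Mer95

/-!
# S42 / M1-L2 adapter (helper97): ramification of `j` in the M0 framework

`jr97_jO : mer95_O` is `j = E₄³/Δ` as a holomorphic function, `jr97_jM : mer95_MER` its image
in the field of meromorphic functions.  For `τ` in the upper half plane and `a : ℂ`:

* `jr97_ord_sub` : `ord_τ (j − a)` is `0` if `a ≠ j(τ)`, and otherwise `3` if `E₄ τ = 0`,
  `2` if `E₆ τ = 0`, `1` in all other cases (`jr97_ord_gen` for any `J : mer95_O` with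
  underlying function `E₄³/Δ`);
* `jr97_ord_sub_self` : `ord_τ (j − j(τ)) ∈ {1, 2, 3}`;
* `jr97_ord_sub_mem` : `ord_τ (j − a) ∈ {0, 1, 2, 3}`, and `jr97_ord_sub_pos_iff`;
* `jr97_dvd_ord_sub` : a prime `p ≥ 5` is coprime to `ord_τ (j − j(τ))`
  (`jr97_coprime_ord_sub`);
* `jr97_smul_jO`, `jr97_smul_jM` : `j` is `SL(2, ℤ)`-invariant.
-/

set_option autoImplicit false

open UpperHalfPlane ModularForm EisensteinSeries MatrixGroups
open scoped Manifold

namespace Fermat.Agent.S42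

local notation "Δ" => ModularForm.discriminant

noncomputable section

/-- `j = E₄³/Δ` as an element of the ring of holomorphic functions on `ℍ`. -/
def jr97_jO : mer95_O := mer95_mk jr97_j jr97_j_mdiff

/-- `j` as an element of the field of meromorphic functions on `ℍ`. -/
def jr97_jM : mer95_MER := algebraMap mer95_O mer95_MER jr97_jO

theorem jr97_jO_apply (τ : ℍ) : jr97_jO.1 τ = jr97_j τ := rfl

theorem jr97_jM_def : jr97_jM = algebraMap mer95_O mer95_MER jr97_jO := rfl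

/-- The complete local description of `j − a` at `τ`, for any element `J` of `mer95_O` whose
underlying function is `E₄³/Δ`. -/
theorem jr97_ord_gen (J : mer95_O) (hJ : ∀ z : ℍ, J.1 z = E₄ z ^ 3 / Δ z) (τ : ℍ) (a : ℂ) :
    mer95_ord τ (algebraMap mer95_O mer95_MER J - algebraMap ℂ mer95_MER a) =
      if a = J.1 τ then (if E₄ τ = 0 then 3 else if E₆ τ = 0 then 2 else 1) else 0 := by
  have h1 : algebraMap mer95_O mer95_MER J - algebraMap ℂ mer95_MER a =
      algebraMap mer95_O mer95_MER (J - algebraMap ℂ mer95_O a) := by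
    rw [map_sub, ← IsScalarTower.algebraMap_apply]
  have hfun : ((J - algebraMap ℂ mer95_O a).1 ∘ ofComplex) =
      fun z : ℂ => jr97_j (ofComplex z) - a := by
    funext z
    show J.1 (ofComplex z) - a = _
    rw [hJ]; rfl
  rw [h1, mer95_ord_algebraMap, hfun]
  by_cases ha : a = J.1 τ
  · have ha' : a = jr97_j τ := by rw [ha, hJ]; rfl
    rw [if_pos ha, ha']
    by_cases h4 : E₄ τ = 0
    · rw [if_pos h4, jr97_order_three τ h4]; rfl
    · by_cases h6 : E₆ τ = 0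
      · rw [if_neg h4, if_pos h6, jr97_order_two τ h6]; rfl
      · rw [if_neg h4, if_neg h6, jr97_order_one τ h4 h6]; rfl
  · have ha' : jr97_j τ - a ≠ 0 := by
      intro h
      apply ha
      rw [hJ]
      exact (sub_eq_zero.mp h).symm
    rw [if_neg ha]
    have han : AnalyticAt ℂ (fun z : ℂ => jr97_j (ofComplex z) - a) (τ : ℂ) :=
      (jr97_analyticAt jr97_j_mdiff τ).sub analyticAt_const
    have h0 : analyticOrderAt (fun z : ℂ => jr97_j (ofComplex z) - a) (τ : ℂ) = 0 :=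
      han.analyticOrderAt_eq_zero.mpr (by simpa only [ofComplex_apply] using ha')
    rw [h0]; rfl

/-- `ord_τ (j − a)` for every `a : ℂ`. -/
theorem jr97_ord_sub (τ : ℍ) (a : ℂ) :
    mer95_ord τ (jr97_jM - algebraMap ℂ mer95_MER a) =
      if a = jr97_j τ then (if E₄ τ = 0 then 3 else if E₆ τ = 0 then 2 else 1) else 0 :=
  jr97_ord_gen jr97_jO (fun _ => rfl) τ a

/-- **(L2)** in the M0 framework: `ord_τ (j − j(τ)) ∈ {1, 2, 3}`. -/
theorem jr97_ord_sub_self (τ : ℍ) :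
    mer95_ord τ (jr97_jM - algebraMap ℂ mer95_MER (jr97_j τ)) = 1 ∨
    mer95_ord τ (jr97_jM - algebraMap ℂ mer95_MER (jr97_j τ)) = 2 ∨
    mer95_ord τ (jr97_jM - algebraMap ℂ mer95_MER (jr97_j τ)) = 3 := by
  rw [jr97_ord_sub, if_pos rfl]
  by_cases h4 : E₄ τ = 0
  · rw [if_pos h4]; exact Or.inr (Or.inr rfl)
  · by_cases h6 : E₆ τ = 0
    · rw [if_neg h4, if_pos h6]; exact Or.inr (Or.inl rfl)
    · rw [if_neg h4, if_neg h6]; exact Or.inl rfl

theorem jr97_ord_sub_of_ne (τ : ℍ) {a : ℂ} (ha : a ≠ jr97_j τ) :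
    mer95_ord τ (jr97_jM - algebraMap ℂ mer95_MER a) = 0 := by
  rw [jr97_ord_sub, if_neg ha]

theorem jr97_ord_sub_three (τ : ℍ) (h : E₄ τ = 0) :
    mer95_ord τ (jr97_jM - algebraMap ℂ mer95_MER (jr97_j τ)) = 3 := by
  rw [jr97_ord_sub, if_pos rfl, if_pos h]

theorem jr97_ord_sub_two (τ : ℍ) (h : E₆ τ = 0) :
    mer95_ord τ (jr97_jM - algebraMap ℂ mer95_MER (jr97_j τ)) = 2 := by
  have h4 : E₄ τ ≠ 0 := by
    rcases jr97_E₄_E₆_ne_zero τ with h4 | h6
    · exact h4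
    · exact absurd h h6
  rw [jr97_ord_sub, if_pos rfl, if_neg h4, if_pos h]

theorem jr97_ord_sub_one (τ : ℍ) (h4 : E₄ τ ≠ 0) (h6 : E₆ τ ≠ 0) :
    mer95_ord τ (jr97_jM - algebraMap ℂ mer95_MER (jr97_j τ)) = 1 := by
  rw [jr97_ord_sub, if_pos rfl, if_neg h4, if_neg h6]

/-- `ord_τ (j − a) ∈ {0, 1, 2, 3}` for every `a`. -/
theorem jr97_ord_sub_mem (τ : ℍ) (a : ℂ) :
    mer95_ord τ (jr97_jM - algebraMap ℂ mer95_MER a) ∈ ({0, 1, 2, 3} : Set ℤ) := by
  by_cases ha : a = jr97_j τ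
  · subst ha
    rcases jr97_ord_sub_self τ with h | h | h <;> rw [h] <;> simp
  · rw [jr97_ord_sub_of_ne τ ha]; simp

theorem jr97_ord_sub_pos_iff (τ : ℍ) (a : ℂ) :
    0 < mer95_ord τ (jr97_jM - algebraMap ℂ mer95_MER a) ↔ a = jr97_j τ := by
  constructor
  · intro h
    by_contra ha
    rw [jr97_ord_sub_of_ne τ ha] at h
    exact lt_irrefl _ h
  · rintro rfl
    rcases jr97_ord_sub_self τ with h | h | h <;> rw [h] <;> norm_num

/-- A number `p ≥ 5` coprime to `6` is coprime to the ramification index `ord_τ (j − j(τ))`. -/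
theorem jr97_coprime_ord_sub (τ : ℍ) {p : ℕ} (hp : p.Prime) (hp5 : 5 ≤ p) :
    IsCoprime (p : ℤ) (mer95_ord τ (jr97_jM - algebraMap ℂ mer95_MER (jr97_j τ))) := by
  have h2 : Nat.Coprime p 2 := (Nat.coprime_primes hp Nat.prime_two).mpr (by omega)
  have h3 : Nat.Coprime p 3 := (Nat.coprime_primes hp Nat.prime_three).mpr (by omega)
  rcases jr97_ord_sub_self τ with h | h | h <;> rw [h]
  · exact isCoprime_one_right
  · exact_mod_cast Nat.isCoprime_iff_coprime.mpr h2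
  · exact_mod_cast Nat.isCoprime_iff_coprime.mpr h3

/-- `p ∣ κ · n` with `κ = ord_τ (j − j(τ))` and `p ≥ 5` prime forces `p ∣ n`. -/
theorem jr97_dvd_of_dvd_ord_mul (τ : ℍ) {p : ℕ} (hp : p.Prime) (hp5 : 5 ≤ p) {n : ℤ}
    (h : (p : ℤ) ∣ mer95_ord τ (jr97_jM - algebraMap ℂ mer95_MER (jr97_j τ)) * n) :
    (p : ℤ) ∣ n :=
  (jr97_coprime_ord_sub τ hp hp5).dvd_of_dvd_mul_left h

/-! ### Invariance -/

theorem jr97_j_smul (g : SL(2, ℤ)) (z : ℍ) : jr97_j (g • z) = jr97_j z := by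
  have h4 : ((E₄ : ℍ → ℂ) ^ 3) ∣[(12 : ℤ)] g = (E₄ : ℍ → ℂ) ^ 3 := by
    have h := jr97_slash_eq (ModularForm.mcast (by norm_num : (3 : ℕ) • (4 : ℤ) = 12) (E₄.pow 3)) g
    rw [ModularForm.coe_mcast, ModularForm.coe_pow] at h
    exact h
  have hD : (Δ : ℍ → ℂ) ∣[(12 : ℤ)] g = Δ := by
    have := SlashInvariantFormClass.slash_action_eq CuspForm.discriminant _ ⟨g, rfl⟩
    rw [SL_slash]
    exact this
  have h0 : (((E₄ : ℍ → ℂ) ^ 3) / (Δ : ℍ → ℂ)) ∣[((12 : ℤ) - 12)] g =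
      ((E₄ : ℍ → ℂ) ^ 3) / (Δ : ℍ → ℂ) := by
    rw [div_slash_SL2, h4, hD]
  have h1 := congrFun h0 z
  rw [SL_slash_apply] at h1
  simpa [jr97_j] using h1

theorem jr97_smul_jO (g : SL(2, ℤ)) : g • jr97_jO = jr97_jO := by
  apply Subtype.ext
  funext τ
  rw [mer95_smul_apply_SL]
  exact jr97_j_smul g⁻¹ τ

theorem jr97_smul_jM (g : SL(2, ℤ)) : g • jr97_jM = jr97_jM := by
  rw [jr97_jM, mer95_smul_algebraMap_SL, jr97_smul_jO]

end

end Fermat.Agent.S42
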