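/-
# S42, seam (G-K2p), concrete and hypothesis-free (helper41)

`gi41_hK2` is LITERALLY the hypothesis `hK2` of `th70_I_Theta` / `th70_W1` (`ThetaInst70`) at
`ev0 := ff79_ev0 φ N` (any ring hom `φ : ℚ̄ →+* ℂ`), for every exponent `n > 0`:

  a nonzero `Γ₀(N)`-invariant meromorphic `x` with `x ^ n = ev0 f`, `f ∈ F_ℚ̄(N)`,
  forces `f = a • w ^ n` with `a ∈ ℚ̄`, `w ∈ F_ℚ̄(N)`.

Proof: `(K2)` over `ℂ` (`gi41_final_K2_pow`: `x = ev w'`, `w' ∈ F_ℂ(N)`), injectivity of `ev`,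
and the descent of powers `T3` (`ds80_pow_descend_bc`, helper80 / helper3).
-/
import Fermat.Agent.S42.GaloisFinal41
import Fermat.Agent.S42.DescBar80

set_option autoImplicit false

open ModularCurve IntermediateField AlgebraicCurve MatrixGroups CongruenceSubgroup

namespace Fermat.Agent.S42

/-- **(E-K2p)** at `ev0 = ff79_ev0 φ N`, subgroup-membership form of the invariance. -/
theorem gi41_hK2_mem (φ : AlgebraicClosure ℚ →+* ℂ) (N : ℕ) [NeZero N] {n : ℕ} (hn : 0 < n)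
    (x : mer95_MER) (hx0 : x ≠ 0) (hx : ∀ g ∈ Gamma0 N, g • x = x)
    (f : ↥(modularFunctionFieldBar N)) (hxf : x ^ n = ff79_ev0 φ N f) :
    ∃ (w : ↥(modularFunctionFieldBar N)) (a : AlgebraicClosure ℚ),
      f = algebraMap (AlgebraicClosure ℚ) ↥(modularFunctionFieldBar N) a * w ^ n := by
  have hxf' : x ^ n = ff79_evMer N (ff79_bc φ N f) := hxf
  obtain ⟨w', rfl⟩ := gi41_final_K2_pow N hx hn (ff79_bc φ N f) hxf'
  have hf0 : f ≠ 0 := by
    rintro rfl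
    rw [map_zero] at hxf
    exact hx0 (pow_eq_zero_iff hn.ne' |>.mp hxf)
  have h1 : ff79_evMer N (w' ^ n) = ff79_evMer N (ff79_bc φ N f) := by rw [map_pow, hxf']
  have h2 : ff79_bc φ N f = algebraMap ℂ _ 1 * w' ^ n := by
    rw [map_one, one_mul]
    exact (ff79_evMer_injective N h1).symm
  obtain ⟨c0, v0, hv0⟩ := ds80_pow_descend_bc φ N hn hf0 h2
  exact ⟨v0, c0, hv0⟩

/-- **(E-K2p)** = `hK2` of `th70_I_Theta`, literally (`Gam = ↥(Γ₀(N))`). -/
theorem gi41_hK2 (φ : AlgebraicClosure ℚ →+* ℂ) (N : ℕ) [NeZero N] {n : ℕ} (hn : 0 < n) :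
    ∀ x : mer95_MER, x ≠ 0 → (∀ γ : ↥(Gamma0 N), γ • x = x) →
      ∀ f : ↥(modularFunctionFieldBar N), x ^ n = ff79_ev0 φ N f →
        ∃ (w : ↥(modularFunctionFieldBar N)) (a : AlgebraicClosure ℚ),
          f = algebraMap (AlgebraicClosure ℚ) ↥(modularFunctionFieldBar N) a * w ^ n :=
  fun x hx0 hx f hxf => gi41_hK2_mem φ N hn x hx0 (fun g hg => hx ⟨g, hg⟩) f hxf

end Fermat.Agent.S42
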