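import Mathlib
import Fermat.Agent.S42.DescPow3
import Fermat.Agent.S42.GaloisInst41

/-!
# S42, seam (G-K2p) (helper5): `(K2)` over the big constant field + `T3` ⟹ `(E-K2p)`

`(E-K2p)` is the hypothesis `hK2` of `th70_class_unique` / `th70_exists_theta` (file `ThetaAbs70`):

  `∀ x : M, x ≠ 0 → (∀ g : Gam, g • x = x) → ∀ f : F0, x ^ p = ev0 f →`
  `  ∃ (w : F0) (a : k0), f = algebraMap k0 F0 a * w ^ p`

for the small function field `F0 / k0` (`= F_ℚ̄(N)`), `ev0 = ev ∘ ι` with `ι : F0 → F` the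
constant extension (`F = F_ℂ(N)`) and `ev : F → M` the evaluation in the field `M` of
meromorphic functions.  It follows from

* `(K2)` over the big field, tower form (export of `gi41_K2_top`): a `Gam`-invariant `x : M`
  which is a root of a nonzero polynomial over `F` (through `ev`) is `ev w'`, `w' : F`;
* injectivity of `ev` (automatic: a ring homomorphism of fields);
* `T3 = ds3_pow_descend` (powers descend along `ι`).

Three forms: `gk5_K2p` (any group `Gam` acting on `M`), `gk5_K2p_subgroup` (`Gam = ↥Γ`,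
`Γ ≤ G`, `G` acting on `M`; hypothesis in the `ρ / Γ` shape of `gi41_*`), and `gk5_K2p_gi41`
(directly from the five hypotheses `hK hL1 hr hL hdeg` of `gi41_K2_top`).
-/

set_option autoImplicit false

namespace Fermat.Agent.S42

open Polynomial

section Abs

variable {k0 K F0 F M : Type*} [Field k0] [Field K] [Field F0] [Field F]
  [Algebra k0 F0] [Algebra K F] [Field M]

/-- A `p`-th root of `ev u` is a root of the nonzero polynomial `X ^ p - C u` over `F`. -/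
theorem gk5_root_poly (ev : F →+* M) {p : ℕ} (hp : 0 < p) {x : M} {u : F}
    (hx : x ^ p = ev u) : ∃ P : F[X], P ≠ 0 ∧ P.eval₂ ev x = 0 := by
  refine ⟨X ^ p - C u, X_pow_sub_C_ne_zero hp u, ?_⟩
  rw [eval₂_sub, eval₂_pow, eval₂_X, eval₂_C, hx, sub_self]

/-- **(G-K2p), core.**  From the membership form of `(K2)` over the big field. -/
theorem gk5_K2p_core [CharZero K] (S : ds3_Data k0 K F0 F) (ev : F →+* M) (ev0 : F0 →+* M)
    (hev0 : ∀ f : F0, ev0 f = ev (S.ι f)) {p : ℕ} (hp : 0 < p)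
    {x : M} (hx0 : x ≠ 0) (hmem : ∃ w' : F, ev w' = x) {f : F0} (hxf : x ^ p = ev0 f) :
    ∃ (w : F0) (a : k0), f = algebraMap k0 F0 a * w ^ p := by
  obtain ⟨w', rfl⟩ := hmem
  have hf0 : f ≠ 0 := by
    rintro rfl
    rw [map_zero] at hxf
    exact hx0 (pow_eq_zero_iff hp.ne' |>.mp hxf)
  have h1 : ev (w' ^ p) = ev (S.ι f) := by rw [map_pow, hxf, hev0]
  have h2 : S.ι f = algebraMap K F 1 * w' ^ p := by
    rw [map_one, one_mul]
    exact (ev.injective h1).symm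
  obtain ⟨c0, v0, hv0⟩ := ds3_pow_descend S hp hf0 h2
  exact ⟨v0, c0, hv0⟩

/-- **(G-K2p)**, any group `Gam` acting on `M`: `(K2)` over the big field in tower form
(`Gam`-invariant + root of a nonzero polynomial over `F` ⟹ in `ev F`) gives `(E-K2p)`. -/
theorem gk5_K2p [CharZero K] {Gam : Type*} [Group Gam] [MulSemiringAction Gam M]
    (S : ds3_Data k0 K F0 F) (ev : F →+* M) (ev0 : F0 →+* M)
    (hev0 : ∀ f : F0, ev0 f = ev (S.ι f)) {p : ℕ} (hp : 0 < p)
    (hK2 : ∀ x : M, (∀ g : Gam, g • x = x) → (∃ P : F[X], P ≠ 0 ∧ P.eval₂ ev x = 0) →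
      ∃ w' : F, ev w' = x) :
    ∀ x : M, x ≠ 0 → (∀ g : Gam, g • x = x) → ∀ f : F0, x ^ p = ev0 f →
      ∃ (w : F0) (a : k0), f = algebraMap k0 F0 a * w ^ p := by
  intro x hx0 hinv f hxf
  have hxf' : x ^ p = ev (S.ι f) := by rw [hxf, hev0]
  exact gk5_K2p_core S ev ev0 hev0 hp hx0 (hK2 x hinv (gk5_root_poly ev hp hxf')) hxf

/-- **(G-K2p)**, subgroup form: `G` acts on `M`, `Γ ≤ G`, `(K2)` in the `ρ / Γ` shape of
`gi41_K2_top` with `ρ = MulSemiringAction.toRingAut G M`; conclusion for `Gam = ↥Γ`. -/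
theorem gk5_K2p_subgroup [CharZero K] {G : Type*} [Group G] [MulSemiringAction G M]
    (Γ : Subgroup G) (S : ds3_Data k0 K F0 F) (ev : F →+* M) (ev0 : F0 →+* M)
    (hev0 : ∀ f : F0, ev0 f = ev (S.ι f)) {p : ℕ} (hp : 0 < p)
    (hK2 : ∀ x : M, (∀ g ∈ Γ, MulSemiringAction.toRingAut G M g x = x) →
      (∃ P : F[X], P ≠ 0 ∧ P.eval₂ ev x = 0) → ∃ w' : F, ev w' = x) :
    ∀ x : M, x ≠ 0 → (∀ g : Γ, g • x = x) → ∀ f : F0, x ^ p = ev0 f →
      ∃ (w : F0) (a : k0), f = algebraMap k0 F0 a * w ^ p :=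
  gk5_K2p (Gam := Γ) S ev ev0 hev0 hp fun x hinv hP =>
    hK2 x (fun g hg => hinv ⟨g, hg⟩) hP

end Abs

section Gi41

variable {k0 K F0 F M : Type*} [Field k0] [Field K] [Field F0] [Field F]
  [Algebra k0 F0] [Algebra K F] [Field M]
variable {K0 : Type*} [Field K0] [Algebra K0 F] [FiniteDimensional K0 F] [CharZero K0]
variable {G : Type*} [Group G] [MulSemiringAction G M] {ι : Type*} [Fintype ι] {r : ι → G}

/-- **(G-K2p)** directly from the hypotheses of `gi41_K2_top` (`K0` = the subfield `ℂ(j)` of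
`F = F_ℂ(N)`, `G = SL(2,ℤ)`, `Γ = Γ₀(N)`, `r` = coset representatives):
`hK` (`G` fixes `ev K0`), `hL1` (level one), `hr`, `hL` (`Γ` fixes `ev F`), `hdeg` (`(K1)`). -/
theorem gk5_K2p_gi41 [CharZero K] (Γ : Subgroup G) (S : ds3_Data k0 K F0 F) (ev : F →+* M)
    (ev0 : F0 →+* M) (hev0 : ∀ f : F0, ev0 f = ev (S.ι f)) {p : ℕ} (hp : 0 < p)
    (hK : ∀ (g : G) (c : K0), g • ev (algebraMap K0 F c) = ev (algebraMap K0 F c))
    (hL1 : ∀ x : M, (∀ g : G, g • x = x) →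
      (∃ P : K0[X], P ≠ 0 ∧ P.eval₂ (ev.comp (algebraMap K0 F)) x = 0) →
      ∃ c : K0, ev (algebraMap K0 F c) = x)
    (hr : Function.Bijective (fun i => (r i : G ⧸ Γ)))
    (hL : ∀ g ∈ Γ, ∀ f : F, g • ev f = ev f)
    (hdeg : Fintype.card ι ≤ Module.finrank K0 F) :
    ∀ x : M, x ≠ 0 → (∀ g : Γ, g • x = x) → ∀ f : F0, x ^ p = ev0 f →
      ∃ (w : F0) (a : k0), f = algebraMap k0 F0 a * w ^ p :=
  gk5_K2p_subgroup Γ S ev ev0 hev0 hp fun _ hx hP =>
    gi41_K2_top (K0 := K0) ev (MulSemiringAction.toRingAut G M) Γ hK hL1 hr hL hdeg hx hP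

end Gi41

end Fermat.Agent.S42
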