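import Fermat.Agent.S42.K2pGlue5
import Fermat.Agent.S42.GaloisMer41
import Fermat.Agent.S42.FunFieldBar79
import Fermat.Agent.S42.LevelOneMer27
import Fermat.Agent.S42.LaurentEigen80

/-!
# S42, seam (G-K2p), concrete instance (helper5)

The hypothesis `hK2` of `th70_exists_theta` / `th70_I_Theta` / `th70_W1` for

* `K = ℚ̄`, `F0 = ↥(modularFunctionFieldBar N)` (the field of `JZero N`),
* `M = mer95_MER`, `Gam = ↥(Γ₀(N))`,
* `ev0 = ff79_ev0 φ N` (helper79; `φ : ℚ̄ →+* ℂ` ARBITRARY),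

with NO hypothesis left:

* `gk5_mer_K2_top` : `(K2)` over `ℂ`, tower form, for `ev = ff79_evMer N` (all five hypotheses of
  `gi41_mer_K2_top` discharged: `j0 = j(q)`, `J = l1j27_J`, `hinv = ff79_evMer_smul`,
  `hL1 = l1j27_L1_MER`);
* `gk5_dataBar φ N` : the constant-extension datum `ds3_Data ℚ̄ ℂ F_ℚ̄(N) F_ℂ(N)` on the PRELUDE
  presentations (`modularFunctionFieldBar N`, `laurentBaseChange ℂ (modularFunctionFieldFull N)`),
  transported from `ld80_dataBar`; its `ι` is `ff79_bc φ N` (`gk5_dataBar_ι`);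
* `gk5_hK2` : **(E-K2p), concrete**.
-/

set_option autoImplicit false

open ModularCurve IntermediateField AlgebraicCurve MatrixGroups CongruenceSubgroup Polynomial

namespace Fermat.Agent.S42

open Fermat.Agent.S18 Fermat.Agent.S24

/-! ### Transport of the datum along equalities of intermediate fields -/

section Cast

variable {k0 K L0 L : Type*} [Field k0] [Field K] [Field L0] [Field L] [Algebra k0 L0]
  [Algebra K L]

/-- Transport of a constant-extension datum along equalities of the two function fields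
(as intermediate fields of fixed ambient fields). -/
noncomputable def gk5_castData {A A' : IntermediateField k0 L0} {B B' : IntermediateField K L}
    (hA : A' = A) (hB : B' = B) (S : ds3_Data k0 K ↥A ↥B) : ds3_Data k0 K ↥A' ↥B' :=
  hA ▸ hB ▸ S

theorem gk5_castData_φ {A A' : IntermediateField k0 L0} {B B' : IntermediateField K L}
    (hA : A' = A) (hB : B' = B) (S : ds3_Data k0 K ↥A ↥B) :
    (gk5_castData hA hB S).φ = S.φ := by
  subst hA; subst hB; rfl

theorem gk5_castData_ι_coe {A A' : IntermediateField k0 L0} {B B' : IntermediateField K L}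
    (hA : A' = A) (hB : B' = B) (S : ds3_Data k0 K ↥A ↥B) (f : ↥A') :
    (((gk5_castData hA hB S).ι f : ↥B') : L) = ((S.ι ⟨(f : L0), hA ▸ f.2⟩ : ↥B) : L) := by
  subst hA; subst hB; rfl

end Cast

/-! ### The datum on the Prelude presentations -/

section Data

variable (φ : AlgebraicClosure ℚ →+* ℂ) (N : ℕ)

/-- **The constant-extension datum `ℚ̄ ⊆ ℂ` for the Prelude's function fields**
`F_ℚ̄(N) = modularFunctionFieldBar N` and `F_ℂ(N) = laurentBaseChange ℂ (modularFunctionFieldFull N)`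
(transport of `ld80_dataBar φ N`). -/
noncomputable def gk5_dataBar :
    ds3_Data (AlgebraicClosure ℚ) ℂ ↥(modularFunctionFieldBar N) (gi41_FC N) :=
  gk5_castData (gi41_baseChange_eq (AlgebraicClosure ℚ) N) (gi41_baseChange_eq ℂ N)
    (ld80_dataBar φ N)

@[simp]
theorem gk5_dataBar_φ : (gk5_dataBar φ N).φ = φ := by
  rw [gk5_dataBar, gk5_castData_φ, ld80_dataBar_φ]

theorem gk5_dataBar_ι_coe (f : ↥(modularFunctionFieldBar N)) :
    (((gk5_dataBar φ N).ι f : gi41_FC N) : LaurentSeries ℂ) =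
      coeffMap φ (f : LaurentSeries (AlgebraicClosure ℚ)) := by
  rw [gk5_dataBar, gk5_castData_ι_coe, ld80_dataBar_ι_coe]

/-- The base change of the transported datum is helper79's coefficientwise map. -/
@[simp]
theorem gk5_dataBar_ι : (gk5_dataBar φ N).ι = ff79_bc φ N :=
  RingHom.ext fun f => Subtype.ext (by rw [gk5_dataBar_ι_coe, ff79_bc_coe])

end Data

/-! ### `(K2)` over `ℂ`, hypothesis-free -/

section K2

variable (N : ℕ) [NeZero N]

/-- The generator `j(q)` of `F_ℂ(N)`. -/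
noncomputable def gk5_j0 : gi41_FC N := ⟨ff79_JJ ℂ 1, ff79_JJ_mem ℂ N 1 (one_dvd N)⟩

theorem gk5_j0_coe : ((gk5_j0 N : gi41_FC N) : LaurentSeries ℂ) = jqModC ℂ := by
  show ff79_JJ ℂ 1 = jqModC ℂ
  rw [ff79_JJ_of_neZero, qExpand_one_apply, ← jqModC_rat, coeffEmb, coeffMap_jqModC]

theorem gk5_ev_j0 : ff79_evMer N (gk5_j0 N) = l1j27_J :=
  ff79_evMer_one N

/-- **(K2) over `ℂ`, tower form, no hypothesis left**: a `Γ₀(N)`-invariant meromorphic function
which is a root of a nonzero polynomial with coefficients in `ev F_ℂ(N)` lies in `ev F_ℂ(N)`. -/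
theorem gk5_mer_K2_top {x : mer95_MER} (hx : ∀ g ∈ Gamma0 N, g • x = x)
    (hxalg : ∃ P : (gi41_FC N)[X],
      P ≠ 0 ∧ P.eval₂ (ff79_evMer N : gi41_FC N →+* mer95_MER) x = 0) :
    ∃ f, ff79_evMer N f = x :=
  gi41_mer_K2_top N (ff79_evMer N) (gk5_j0 N) l1j27_J (gk5_j0_coe N) l1j27_J_smul (gk5_ev_j0 N)
    (fun g hg f => ff79_evMer_smul N g hg f) l1j27_L1_MER hx hxalg

/-- **(K2) over `ℂ`, absolute form**: invariant + algebraic over `ℂ(J)` ⟹ in `ev F_ℂ(N)`. -/
theorem gk5_mer_K2 {x : mer95_MER} (hx : ∀ g ∈ Gamma0 N, g • x = x)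
    (hxalg : IsAlgebraic ℂ⟮l1j27_J⟯ x) : ∃ f, ff79_evMer N f = x :=
  gi41_mer_K2 N (ff79_evMer N) (gk5_j0 N) l1j27_J (gk5_j0_coe N) l1j27_J_smul (gk5_ev_j0 N)
    (fun g hg f => ff79_evMer_smul N g hg f) l1j27_L1_MER hx hxalg

end K2

/-! ### `(E-K2p)`, concrete -/

section K2p

variable (φ : AlgebraicClosure ℚ →+* ℂ) (N : ℕ) [NeZero N]

theorem gk5_ev0_eq (f : ↥(modularFunctionFieldBar N)) :
    ff79_ev0 φ N f =
      (ff79_evMer N : gi41_FC N →+* mer95_MER) ((gk5_dataBar φ N).ι f) := by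
  rw [gk5_dataBar_ι]
  rfl

/-- **(E-K2p), concrete, no hypothesis left**: the `hK2` of `th70_exists_theta`, `th70_I_Theta`
and `th70_W1` at `ev0 := ff79_ev0 φ N`. -/
theorem gk5_hK2 (p : ℕ) (hp : 0 < p) :
    ∀ x : mer95_MER, x ≠ 0 → (∀ γ : ↥(Gamma0 N), γ • x = x) →
      ∀ f : ↥(modularFunctionFieldBar N), x ^ p = ff79_ev0 φ N f →
        ∃ (w : ↥(modularFunctionFieldBar N)) (a : AlgebraicClosure ℚ),
          f = algebraMap (AlgebraicClosure ℚ) ↥(modularFunctionFieldBar N) a * w ^ p :=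
  gk5_K2p_subgroup (Gamma0 N) (gk5_dataBar φ N)
    (ff79_evMer N : gi41_FC N →+* mer95_MER) (ff79_ev0 φ N) (gk5_ev0_eq φ N) hp
    fun _ hx hP => gk5_mer_K2_top N hx hP

end K2p

end Fermat.Agent.S42
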