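import Fermat.Agent.S42.K2pGlue5
import Fermat.Agent.S42.GaloisMer41
import Fermat.Agent.S42.FunFieldBar79
import Fermat.Agent.S42.LevelOneMer27
import Fermat.Agent.S42.LaurentEigen80
import Fermat.Agent.S42.ThetaAbs70

/-!
# S42, seam (G-K2p), referee / concrete instance (helper88)

The hypothesis `hK2` of `th70_exists_theta` (`ThetaAbs70`), hypothesis-free, for the concrete
objects of Project 4:

* `K := AlgebraicClosure ℚ`, `F := ↥(modularFunctionFieldBar N)` (the Prelude's field, on which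
  `JZero N` is built), `M := mer95_MER`, `Gam := ↥(Γ₀(N))`, `ev := ff79_ev0 φ N` for an
  arbitrary ring homomorphism `φ : ℚ̄ →+* ℂ`.

Producers (all on main): `gi41_mer_K2_top` (K2 over `ℂ`, `GaloisMer41`), `l1j27_L1_MER` (level
one, `LevelOneMer27`), `ff79_evMer_*` / `ff79_ev0` (`FunFieldMer79`, `FunFieldBar79`),
`ld80_dataBar` (the descent datum, `LaurentEigen80`), `ds3_pow_descend` (T3, `DescPow3`),
`gk5_K2p_core` (the abstract glue, `K2pGlue5`).

The only adapter needed: `ld80_dataBar` lives on `modularFunctionFieldFullC _ N`, the consumers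
on `laurentBaseChange _ (modularFunctionFieldFull N)`; the two intermediate fields are equal
(`gi41_baseChange_eq`) and the datum is transported by `subst` (`gk88_transport`), giving
`gk88_data φ N` on the Prelude's fields with `ι = ff79_bc φ N` definitionally.

Exports: `gk88_transport`, `gk88_data` (+ `gk88_data_φ`, `gk88_data_ι`, `gk88_ev0_eq`),
`gk88_K2C` (K2 over `ℂ` for `ff79_evMer N`, no hypothesis left), `gk88_hK2` (= (E-K2p)),
and the two referee checks `gk88_class_unique`, `gk88_exists_theta`.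
-/

set_option autoImplicit false

open ModularCurve AlgebraicCurve MatrixGroups Polynomial

namespace Fermat.Agent.S42

section Transport

variable {k0 K : Type*} [Field k0] [Field K]

/-- Transport of a constant-extension datum along equalities of the two function fields (as
intermediate fields of Laurent series), with a prescribed base-change map. -/
theorem gk88_transport {A A' : IntermediateField k0 (LaurentSeries k0)}
    {B B' : IntermediateField K (LaurentSeries K)} (hA : A = A') (hB : B = B')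
    (S : ds3_Data k0 K ↥A' ↥B') (ι : ↥A →+* ↥B)
    (hι : ∀ (g : ↥A) (hg : (g : LaurentSeries k0) ∈ A'),
      ((ι g : ↥B) : LaurentSeries K) = ((S.ι ⟨g, hg⟩ : ↥B') : LaurentSeries K)) :
    ∃ S' : ds3_Data k0 K ↥A ↥B, S'.φ = S.φ ∧ S'.ι = ι := by
  subst hA hB
  have h : S.ι = ι := RingHom.ext fun g => Subtype.ext (hι g g.2).symm
  exact ⟨S, rfl, h⟩

end Transport

section Data

variable (φ : AlgebraicClosure ℚ →+* ℂ) (N : ℕ)

/-- The transported datum exists. -/
theorem gk88_exists_data :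
    ∃ S : ds3_Data (AlgebraicClosure ℚ) ℂ ↥(modularFunctionFieldBar N)
        ↥(laurentBaseChange ℂ (modularFunctionFieldFull N)),
      S.φ = φ ∧ S.ι = ff79_bc φ N := by
  refine gk88_transport (gi41_baseChange_eq (AlgebraicClosure ℚ) N) (gi41_baseChange_eq ℂ N)
    (ld80_dataBar φ N) (ff79_bc φ N) ?_
  intro g hg
  rw [ff79_bc_coe, ld80_dataBar_ι_coe]


/-- **The descent datum on the Prelude's fields**: `F0 = ↥(modularFunctionFieldBar N)`,
`F = F_ℂ(N) = ↥(laurentBaseChange ℂ (modularFunctionFieldFull N))`, `ι = ff79_bc φ N`. -/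
noncomputable def gk88_data :
    ds3_Data (AlgebraicClosure ℚ) ℂ ↥(modularFunctionFieldBar N)
      ↥(laurentBaseChange ℂ (modularFunctionFieldFull N)) where
  φ := φ
  ι := ff79_bc φ N
  ι_algebraMap := ff79_bc_algebraMap φ N
  gen := by
    obtain ⟨S, -, h⟩ := gk88_exists_data φ N
    rw [← h]
    exact S.gen
  exists_adm := by
    obtain ⟨S, h1, h⟩ := gk88_exists_data φ N
    rw [← h, ← h1]
    exact S.exists_adm
  eigen := by
    obtain ⟨S, -, h⟩ := gk88_exists_data φ N
    rw [← h]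
    exact S.eigen
  const := by
    obtain ⟨S, -, h⟩ := gk88_exists_data φ N
    rw [← h]
    exact S.const

@[simp] theorem gk88_data_φ : (gk88_data φ N).φ = φ := rfl

@[simp] theorem gk88_data_ι : (gk88_data φ N).ι = ff79_bc φ N := rfl

/-- `ff79_ev0 = ff79_evMer ∘ ι` for the transported datum (by definition). -/
theorem gk88_ev0_eq [NeZero N] (f : ↥(modularFunctionFieldBar N)) :
    ff79_ev0 φ N f =
      (ff79_evMer N : ↥(laurentBaseChange ℂ (modularFunctionFieldFull N)) →+* mer95_MER)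
        ((gk88_data φ N).ι f) := rfl

end Data

section K2

variable (N : ℕ) [NeZero N]

/-- The series `j(q)` with complex coefficients, as an element of `F_ℂ(N)`. -/
noncomputable def gk88_j0 : ↥(laurentBaseChange ℂ (modularFunctionFieldFull N)) :=
  ⟨ff79_JJ ℂ 1, ff79_JJ_mem ℂ N 1 (one_dvd N)⟩

/-- Hypothesis `hj0` of `gi41_mer_K2_top`. -/
theorem gk88_j0_coe : ((gk88_j0 N : ↥(laurentBaseChange ℂ (modularFunctionFieldFull N))) :
    LaurentSeries ℂ) = jqModC ℂ := by
  show ff79_JJ ℂ 1 = jqModC ℂ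
  rw [ff79_JJ_of_neZero, qExpand_one_apply]
  show coeffMap (algebraMap ℚ ℂ) (jqModC ℚ) = _
  rw [coeffMap_jqModC]


/-- The two presentations of `j ∈ mer95_MER` (M1: `l1j27_J`, M2: `kleinJ`) agree definitionally. -/
theorem gk88_J_eq : l1j27_J = algebraMap mer95_O mer95_MER (mer95_mk Fermat.Agent.S24.kleinJ Fermat.Agent.S24.wpA5_kleinJ_mdiff) := rfl

/-- Hypothesis `hevj` of `gi41_mer_K2_top`: `ev (j(q)) = j`. -/
theorem gk88_ev_j0 : ff79_evMer N (gk88_j0 N) = l1j27_J := by
  rw [gk88_J_eq]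
  exact ff79_evMer_one N


/-- **(K2) over `ℂ`, tower form, hypothesis-free**: a `Γ₀(N)`-invariant meromorphic function
which is a root of a nonzero polynomial with coefficients in `ev F_ℂ(N)` lies in `ev F_ℂ(N)`. -/
theorem gk88_K2C {x : mer95_MER} (hx : ∀ g ∈ CongruenceSubgroup.Gamma0 N, g • x = x)
    (hxalg : ∃ P : (↥(laurentBaseChange ℂ (modularFunctionFieldFull N)))[X], P ≠ 0 ∧
      P.eval₂ (ff79_evMer N : ↥(laurentBaseChange ℂ (modularFunctionFieldFull N)) →+* mer95_MER)
        x = 0) :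
    ∃ f, ff79_evMer N f = x := by
  have hinv : ∀ g ∈ CongruenceSubgroup.Gamma0 N, ∀ f, g • ff79_evMer N f = ff79_evMer N f :=
    fun g hg f => ff79_evMer_smul N g hg f
  have hL1 : ∀ x : mer95_MER, (∀ g : SL(2, ℤ), g • x = x) →
      IsAlgebraic (IntermediateField.adjoin ℂ {l1j27_J}) x →
      x ∈ IntermediateField.adjoin ℂ {l1j27_J} := l1j27_L1_MER
  exact gi41_mer_K2_top N (ff79_evMer N) (gk88_j0 N) l1j27_J (gk88_j0_coe N) l1j27_J_smul
    (gk88_ev_j0 N) hinv hL1 hx hxalg


/-- **(E-K2p), hypothesis-free**: literally the hypothesis `hK2` of `th70_exists_theta` /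
`th70_class_unique` for `K := ℚ̄`, `F := ↥(modularFunctionFieldBar N)`, `M := mer95_MER`,
`Gam := ↥(Γ₀(N))`, `ev := ff79_ev0 φ N`. -/
theorem gk88_hK2 (φ : AlgebraicClosure ℚ →+* ℂ) {p : ℕ} (hp : 0 < p) :
    ∀ x : mer95_MER, x ≠ 0 → (∀ g : ↥(CongruenceSubgroup.Gamma0 N), g • x = x) →
      ∀ f : ↥(modularFunctionFieldBar N), x ^ p = ff79_ev0 φ N f →
        ∃ (w : ↥(modularFunctionFieldBar N)) (a : AlgebraicClosure ℚ),
          f = algebraMap (AlgebraicClosure ℚ) ↥(modularFunctionFieldBar N) a * w ^ p := by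
  intro x hx0 hinv f hxf
  have hP : ∃ P : (↥(laurentBaseChange ℂ (modularFunctionFieldFull N)))[X], P ≠ 0 ∧
      P.eval₂ (ff79_evMer N : ↥(laurentBaseChange ℂ (modularFunctionFieldFull N)) →+* mer95_MER)
        x = 0 :=
    gk5_root_poly (ff79_evMer N : ↥(laurentBaseChange ℂ (modularFunctionFieldFull N)) →+* mer95_MER)
      hp (u := ff79_bc φ N f) hxf
  have hmem : ∃ w', (ff79_evMer N : ↥(laurentBaseChange ℂ (modularFunctionFieldFull N)) →+* mer95_MER) w' = x :=
    gk88_K2C N (fun g hg => hinv ⟨g, hg⟩) hP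
  exact gk5_K2p_core (gk88_data φ N)
    (ff79_evMer N : ↥(laurentBaseChange ℂ (modularFunctionFieldFull N)) →+* mer95_MER)
    (ff79_ev0 φ N) (gk88_ev0_eq φ N) hp hx0 hmem hxf


/-- **Referee check 1**: `th70_class_unique` accepts `gk88_hK2` at the concrete objects. -/
theorem gk88_class_unique (φ : AlgebraicClosure ℚ →+* ℂ) {p : ℕ} (hp : p ≠ 0) {ζ : mer95_MER}
    (hζ0 : ζ ≠ 0) {χ : Additive ↥(CongruenceSubgroup.Gamma0 N) →+ ZMod p} {h h' : mer95_MER}
    {f f' : ↥(modularFunctionFieldBar N)}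
    (H : th70_Adm (AlgebraicClosure ℚ) (ff79_ev0 φ N) p ζ χ h f)
    (H' : th70_Adm (AlgebraicClosure ℚ) (ff79_ev0 φ N) p ζ χ h' f')
    (D D' : Divisor.degZero (K := AlgebraicClosure ℚ) (F := ↥(modularFunctionFieldBar N)))
    (hD : th70_IsDivOf p f (D : Divisor (AlgebraicClosure ℚ) ↥(modularFunctionFieldBar N)))
    (hD' : th70_IsDivOf p f' (D' : Divisor (AlgebraicClosure ℚ) ↥(modularFunctionFieldBar N))) :
    Pic0.mk D' = Pic0.mk D :=
  th70_class_unique hp hζ0 (gk88_hK2 N φ (Nat.pos_of_ne_zero hp)) H H' D D' hD hD'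

/-- **Referee check 2**: `th70_exists_theta` at the concrete objects, with `hζ`, `hζfix`, `hfix`
(`FunFieldBar79`) and `hK2` (this file) discharged; what remains is (G-const) (`hconst`, `hroot`,
principal divisors) and (G-Eex) (`hex`). -/
theorem gk88_exists_theta (φ : AlgebraicClosure ℚ →+* ℂ)
    [HasPrincipalDivisors (AlgebraicClosure ℚ) ↥(modularFunctionFieldBar N)]
    (p : ℕ) [Fact p.Prime] (c : ℂ) (hc : IsPrimitiveRoot c p)
    (hconst : ∀ f : ↥(modularFunctionFieldBar N), f ≠ 0 →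
      (∀ v : Place (AlgebraicClosure ℚ) ↥(modularFunctionFieldBar N), v.ord f = 0) →
      ∃ a : AlgebraicClosure ℚ, f = algebraMap (AlgebraicClosure ℚ) ↥(modularFunctionFieldBar N) a)
    (hroot : ∀ a : AlgebraicClosure ℚ, ∃ b : AlgebraicClosure ℚ, b ^ p = a)
    (Par : AddSubgroup (Additive ↥(CongruenceSubgroup.Gamma0 N) →+ ZMod p))
    (hex : ∀ χ ∈ Par, ∃ (h : mer95_MER) (f : ↥(modularFunctionFieldBar N)),
      th70_Adm (AlgebraicClosure ℚ) (ff79_ev0 φ N) p (algebraMap ℂ mer95_MER c) χ h f) :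
    ∃ Θ : Par →+ JZero N, Function.Injective Θ ∧ (∀ χ, (p : ℤ) • Θ χ = 0) ∧
      ∀ (χ : Par) (h : mer95_MER) (f : ↥(modularFunctionFieldBar N)),
        th70_Adm (AlgebraicClosure ℚ) (ff79_ev0 φ N) p (algebraMap ℂ mer95_MER c)
          (χ : Additive ↥(CongruenceSubgroup.Gamma0 N) →+ ZMod p) h f →
        ∀ D : Divisor.degZero (K := AlgebraicClosure ℚ) (F := ↥(modularFunctionFieldBar N)),
          th70_IsDivOf p f (D : Divisor (AlgebraicClosure ℚ) ↥(modularFunctionFieldBar N)) →
          Θ χ = Pic0.mk D :=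
  th70_exists_theta (ff79_ev0 φ N) p (algebraMap ℂ mer95_MER c)
    (hc.map_of_injective (algebraMap ℂ mer95_MER).injective)
    (fun g => ff79_zeta_fix N g c) (ff79_ev0_fix φ N)
    (gk88_hK2 N φ (Fact.out : p.Prime).pos) hconst hroot Par hex

end K2
end Fermat.Agent.S42
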