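import Mathlib
import Fermat.Prelude.Def_AlgebraicCurve_DivisorClassGroup

/-!
# S42 / M6 (helper30): the abstract Kummer map `Ψ`

Pure algebra; no analysis and no modular forms.  Setting:

* `F / K` a function field in the Prelude vocabulary (`Place K F`, `Divisor K F`, `Pic0 K F`);
* `M` a field on which a group `Γ` acts by ring automorphisms (`MulSemiringAction Γ M`);
* `ev : F →+* M` a ring homomorphism (hence injective), `p` a positive integer.

Under the plain hypotheses collected in `km30_Hyp` we construct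

`km30_Psi : Pic0(K, F)[p] →+ Additive (Γ →* Mˣ)`,

characterised by the evaluation rule `km30_Psi_eval`: if `c = [D]`, `p • D = div u` and
`h ^ p = ev u`, then `Ψ c g = (g • h) / h`.  It takes values in the `p`-th roots of unity
(`km30_Psi_pow`) and is injective as soon as `Γ`-invariant `p`-th roots of elements of `ev F`
lie in `ev F` (`km30_Psi_injective`).

Also: `km30_Psi_of_eigen` (a `p`-th root transforming by a function `χ` gives a class with
`Ψ = χ`; this is `Ψ ∘ Φ = id`) and `km30_ratio_prod` (the transfer formula for a finite family of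
ring endomorphisms permuted by `Γ`; this is the abstract form of the Hecke compatibility).
-/

set_option autoImplicit false

namespace Fermat.Agent.S42

open AlgebraicCurve

section Chi

variable {M : Type*} [Field M] {Γ : Type*} [Group Γ] [MulSemiringAction Γ M]
variable (p : ℕ)

theorem km30_smul_ne_zero {h : M} (hh : h ≠ 0) (g : Γ) : g • h ≠ 0 :=
  fun h0 => hh ((smul_eq_zero_iff_eq g).mp h0)

/-- If `h ^ p` is `Γ`-invariant then `(g • h) / h` is a `p`-th root of unity. -/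
theorem km30_ratio_pow {h : M} (hh : h ≠ 0) (hinv : ∀ g : Γ, g • (h ^ p) = h ^ p) (g : Γ) :
    ((g • h) / h) ^ p = 1 := by
  rw [div_pow, ← smul_pow', hinv g, div_self (pow_ne_zero p hh)]

theorem km30_smul_eq_ratio_mul {h : M} (hh : h ≠ 0) (g : Γ) : g • h = (g • h) / h * h := by
  rw [div_mul_cancel₀ _ hh]

/-- The Kummer character `g ↦ (g • h) / h` of a `p`-th root `h` of a `Γ`-invariant element. -/
noncomputable def km30_chi (hmu : ∀ ζ : M, ζ ^ p = 1 → ∀ g : Γ, g • ζ = ζ) (h : M) (hh : h ≠ 0)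
    (hinv : ∀ g : Γ, g • (h ^ p) = h ^ p) : Γ →* Mˣ where
  toFun g := Units.mk0 ((g • h) / h) (div_ne_zero (km30_smul_ne_zero hh g) hh)
  map_one' := by
    ext
    simp [div_self hh]
  map_mul' g₁ g₂ := by
    ext
    simp only [Units.val_mk0, Units.val_mul]
    rw [mul_smul]
    conv_lhs => rw [km30_smul_eq_ratio_mul hh g₂]
    rw [smul_mul', hmu _ (km30_ratio_pow p hh hinv g₂) g₁]
    field_simp

@[simp]
theorem km30_chi_apply (hmu : ∀ ζ : M, ζ ^ p = 1 → ∀ g : Γ, g • ζ = ζ) (h : M) (hh : h ≠ 0)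
    (hinv : ∀ g : Γ, g • (h ^ p) = h ^ p) (g : Γ) :
    ((km30_chi p hmu h hh hinv g : Mˣ) : M) = (g • h) / h := rfl

/-- **Transfer formula.**  Let `a i` be finitely many ring endomorphisms of `M` fixing the
`p`-th roots of unity, and suppose `g` permutes them up to elements `g' i` of `Γ`:
`g • a i x = a (π i) (g' i • x)`.  Then the Kummer ratio of `∏ i, a i h` at `g` is the product of
the Kummer ratios of `h` at the `g' i`. -/
theorem km30_ratio_prod {ι : Type*} [Fintype ι] (a : ι → M →+* M)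
    (ha : ∀ (i : ι) (ζ : M), ζ ^ p = 1 → a i ζ = ζ) {h : M} (hh : h ≠ 0)
    (hinv : ∀ g : Γ, g • (h ^ p) = h ^ p) (g : Γ) (π : Equiv.Perm ι) (g' : ι → Γ)
    (hcomm : ∀ i, g • a i h = a (π i) (g' i • h)) :
    (g • ∏ i, a i h) / ∏ i, a i h = ∏ i, (g' i • h) / h := by
  have hne : ∀ i, a i h ≠ 0 := fun i => (map_ne_zero (a i)).mpr hh
  have hprod : (∏ i, a i h) ≠ 0 := Finset.prod_ne_zero_iff.mpr fun i _ => hne i
  rw [div_eq_iff hprod, Finset.smul_prod']
  have h1 : ∀ i, g • a i h = (g' i • h) / h * a (π i) h := by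
    intro i
    rw [hcomm i]
    conv_lhs => rw [km30_smul_eq_ratio_mul hh (g' i)]
    rw [map_mul, ha (π i) _ (km30_ratio_pow p hh hinv (g' i))]
  rw [Finset.prod_congr rfl fun i _ => h1 i, Finset.prod_mul_distrib]
  congr 1
  exact Equiv.prod_comp π fun i => a i h

end Chi

section Psi

variable (K : Type*) {F : Type*} [Field K] [Field F] [Algebra K F]
variable {M : Type*} [Field M] {Γ : Type*} [Group Γ] [MulSemiringAction Γ M]
variable (ev : F →+* M) (p : ℕ)

/-- The hypotheses of the abstract Kummer map. In the application `F = F_L(N)` is the modular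
function field, `M` the field of meromorphic functions on the upper half plane,
`Γ = Γ₀(N)`:
* `fix`: `ev F` is `Γ`-invariant;
* `mu`: the `p`-th roots of unity of `M` are `Γ`-fixed (they are constants);
* `root`: an element all of whose orders are divisible by `p` becomes a `p`-th power in `M`;
* `unit`: an element without zeros and poles is a constant;
* `const`: constants are `p`-th powers. -/
structure km30_Hyp : Prop where
  pos : 0 < p
  fix : ∀ (g : Γ) (x : F), g • ev x = ev x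
  mu : ∀ ζ : M, ζ ^ p = 1 → ∀ g : Γ, g • ζ = ζ
  root : ∀ u : F, u ≠ 0 → (∀ v : Place K F, (p : ℤ) ∣ v.ord u) → ∃ h : M, h ^ p = ev u
  unit : ∀ u : F, u ≠ 0 → (∀ v : Place K F, v.ord u = 0) → ∃ c : K, algebraMap K F c = u
  const : ∀ c : K, ∃ d : K, d ^ p = c

variable {K}

/-- Kummer data of a class `c`: a divisor `D` in `c`, a function `u` with `div u = p • D` and a
`p`-th root `h` of `ev u`. -/
def km30_IsData (c : Pic0 K F) (D : Divisor.degZero (K := K) (F := F)) (u : F) (h : M) : Prop :=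
  Pic0.mk D = c ∧ u ≠ 0 ∧ (∀ v : Place K F, (p : ℤ) * (D : Divisor K F) v = v.ord u) ∧
    h ^ p = ev u

variable {ev p}

theorem km30_IsData.ev_ne_zero {c : Pic0 K F} {D : Divisor.degZero (K := K) (F := F)} {u : F}
    {h : M} (hd : km30_IsData ev p c D u h) : ev u ≠ 0 :=
  (map_ne_zero ev).mpr hd.2.1

theorem km30_IsData.ne_zero (hp : 0 < p) {c : Pic0 K F}
    {D : Divisor.degZero (K := K) (F := F)} {u : F} {h : M} (hd : km30_IsData ev p c D u h) :
    h ≠ 0 := by
  rintro rfl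
  have h1 := hd.2.2.2
  rw [zero_pow hp.ne'] at h1
  exact hd.ev_ne_zero h1.symm

theorem km30_IsData.inv (hfix : ∀ (g : Γ) (x : F), g • ev x = ev x) {c : Pic0 K F}
    {D : Divisor.degZero (K := K) (F := F)} {u : F} {h : M} (hd : km30_IsData ev p c D u h)
    (g : Γ) : g • (h ^ p) = h ^ p := by
  rw [hd.2.2.2, hfix]

theorem km30_mk_eq_zero_iff (D : Divisor.degZero (K := K) (F := F)) :
    Pic0.mk D = 0 ↔ Divisor.IsPrincipal (D : Divisor K F) := by
  rw [Pic0.mk, QuotientAddGroup.eq_zero_iff, AddSubgroup.mem_addSubgroupOf]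
  rfl

theorem km30_zsmul_mk (n : ℤ) (D : Divisor.degZero (K := K) (F := F)) :
    n • Pic0.mk D = Pic0.mk (n • D) := rfl

/-- Every `p`-torsion class has Kummer data. -/
theorem km30_exists_data (H : km30_Hyp (Γ := Γ) K ev p) (c : Pic0.torsion K F p) :
    ∃ (D : Divisor.degZero (K := K) (F := F)) (u : F) (h : M),
      km30_IsData ev p (c : Pic0 K F) D u h := by
  obtain ⟨D, hD⟩ := Pic0.mk_surjective (c : Pic0 K F)
  have hc : ((p : ℕ) : ℤ) • (c : Pic0 K F) = 0 := Pic0.mem_torsion.mp c.2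
  rw [← hD, km30_zsmul_mk, km30_mk_eq_zero_iff] at hc
  obtain ⟨u, hu, hdiv⟩ := hc
  have hdiv' : ∀ v : Place K F, (p : ℤ) * (D : Divisor K F) v = v.ord u := by
    intro v
    rw [← hdiv v]
    simp
  obtain ⟨h, hh⟩ := H.root u hu fun v => ⟨_, (hdiv' v).symm⟩
  exact ⟨D, u, h, hD, hu, hdiv', hh⟩

/-- Two Kummer data of the same class have the same Kummer ratios. -/
theorem km30_data_unique (H : km30_Hyp (Γ := Γ) K ev p) {c : Pic0 K F}
    {D₁ D₂ : Divisor.degZero (K := K) (F := F)} {u₁ u₂ : F} {h₁ h₂ : M}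
    (hd₁ : km30_IsData ev p c D₁ u₁ h₁) (hd₂ : km30_IsData ev p c D₂ u₂ h₂) (g : Γ) :
    (g • h₁) / h₁ = (g • h₂) / h₂ := by
  have hh₁ := hd₁.ne_zero H.pos
  have hh₂ := hd₂.ne_zero H.pos
  -- `D₁ - D₂ = div w`
  have h12 : Pic0.mk (D₁ - D₂) = 0 := by
    have : Pic0.mk (D₁ - D₂) = Pic0.mk D₁ - Pic0.mk D₂ := rfl
    rw [this, hd₁.1, hd₂.1, sub_self]
  rw [km30_mk_eq_zero_iff] at h12
  obtain ⟨w, hw, hwdiv⟩ := h12
  -- `t = u₁ / (u₂ * w ^ p)` has no zeros and poles
  have hu₁ := hd₁.2.1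
  have hu₂ := hd₂.2.1
  have hwp : w ^ p ≠ 0 := pow_ne_zero p hw
  have ht0 : u₁ * (u₂ * w ^ p)⁻¹ ≠ 0 := mul_ne_zero hu₁ (inv_ne_zero (mul_ne_zero hu₂ hwp))
  have htord : ∀ v : Place K F, v.ord (u₁ * (u₂ * w ^ p)⁻¹) = 0 := by
    intro v
    have e1 : v.ord (w ^ p) = (p : ℤ) * v.ord w := by
      have := v.ord_zpow w (p : ℤ)
      rwa [zpow_natCast] at this
    rw [v.ord_mul hu₁ (inv_ne_zero (mul_ne_zero hu₂ hwp)), v.ord_inv, v.ord_mul hu₂ hwp, e1,
      ← hd₁.2.2.1 v, ← hd₂.2.2.1 v, ← hwdiv v]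
    have : ((D₁ - D₂ : Divisor.degZero (K := K) (F := F)) : Divisor K F) v
        = (D₁ : Divisor K F) v - (D₂ : Divisor K F) v := by
      simp
    rw [this]
    ring
  obtain ⟨c₀, hc₀⟩ := H.unit _ ht0 htord
  obtain ⟨d, hd⟩ := H.const c₀
  -- `u₁ = u₂ * (w * d) ^ p`
  have hu : u₁ = u₂ * (w * algebraMap K F d) ^ p := by
    have h1 : u₁ = u₁ * (u₂ * w ^ p)⁻¹ * (u₂ * w ^ p) := by
      rw [inv_mul_cancel_right₀ (mul_ne_zero hu₂ hwp)]
    rw [h1, ← hc₀, ← hd, map_pow]
    ring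
  set e : M := ev (w * algebraMap K F d) with he
  have hee : g • e = e := H.fix g _
  have he0 : e ≠ 0 := by
    intro h0
    have h1 : ev u₁ = 0 := by rw [hu, map_mul, map_pow, ← he, h0, zero_pow H.pos.ne', mul_zero]
    exact hd₁.ev_ne_zero h1
  -- `ζ = h₁ / (h₂ * e)` is a `p`-th root of unity
  have hζ : (h₁ / (h₂ * e)) ^ p = 1 := by
    rw [div_pow, mul_pow, hd₁.2.2.2, hd₂.2.2.2, hu, map_mul, map_pow, ← he]
    exact div_self (mul_ne_zero hd₂.ev_ne_zero (pow_ne_zero p he0))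
  have hζg := H.mu _ hζ g
  have hh₁' : h₁ = h₁ / (h₂ * e) * (h₂ * e) := by
    rw [div_mul_cancel₀ _ (mul_ne_zero hh₂ he0)]
  have hg1 : g • h₁ = h₁ / (h₂ * e) * (g • h₂ * e) := by
    conv_lhs => rw [hh₁']
    rw [smul_mul', smul_mul', hζg, hee]
  rw [hg1]
  field_simp

/-- The chosen Kummer data. -/
theorem km30_choose_spec (H : km30_Hyp (Γ := Γ) K ev p) (c : Pic0.torsion K F p) :
    km30_IsData ev p (c : Pic0 K F) (km30_exists_data H c).choose
      (km30_exists_data H c).choose_spec.choose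
      (km30_exists_data H c).choose_spec.choose_spec.choose :=
  (km30_exists_data H c).choose_spec.choose_spec.choose_spec

/-- The Kummer character of a `p`-torsion class (as a plain function of the class). -/
noncomputable def km30_PsiFun (H : km30_Hyp (Γ := Γ) K ev p) (c : Pic0.torsion K F p) :
    Γ →* Mˣ :=
  km30_chi p H.mu (km30_exists_data H c).choose_spec.choose_spec.choose
    ((km30_choose_spec H c).ne_zero H.pos) ((km30_choose_spec H c).inv H.fix)

theorem km30_PsiFun_eval (H : km30_Hyp (Γ := Γ) K ev p) (c : Pic0.torsion K F p)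
    {D : Divisor.degZero (K := K) (F := F)} {u : F} {h : M}
    (hd : km30_IsData ev p (c : Pic0 K F) D u h) (g : Γ) :
    ((km30_PsiFun H c g : Mˣ) : M) = (g • h) / h := by
  rw [km30_PsiFun, km30_chi_apply]
  exact km30_data_unique H (km30_choose_spec H c) hd g

theorem km30_IsData.add {c₁ c₂ : Pic0 K F} {D₁ D₂ : Divisor.degZero (K := K) (F := F)}
    {u₁ u₂ : F} {h₁ h₂ : M} (hd₁ : km30_IsData ev p c₁ D₁ u₁ h₁)
    (hd₂ : km30_IsData ev p c₂ D₂ u₂ h₂) :
    km30_IsData ev p (c₁ + c₂) (D₁ + D₂) (u₁ * u₂) (h₁ * h₂) := by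
  refine ⟨by rw [Pic0.mk_add, hd₁.1, hd₂.1], mul_ne_zero hd₁.2.1 hd₂.2.1, fun v => ?_, ?_⟩
  · rw [v.ord_mul hd₁.2.1 hd₂.2.1, ← hd₁.2.2.1 v, ← hd₂.2.2.1 v]
    have : ((D₁ + D₂ : Divisor.degZero (K := K) (F := F)) : Divisor K F) v
        = (D₁ : Divisor K F) v + (D₂ : Divisor K F) v := by
      simp
    rw [this]
    ring
  · rw [mul_pow, hd₁.2.2.2, hd₂.2.2.2, map_mul]

/-- **The abstract Kummer map** `Ψ : Pic0(K, F)[p] →+ Hom(Γ, Mˣ)`. -/
noncomputable def km30_Psi (H : km30_Hyp (Γ := Γ) K ev p) :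
    ↥(Pic0.torsion K F p) →+ Additive (Γ →* Mˣ) :=
  AddMonoidHom.mk' (fun c => Additive.ofMul (km30_PsiFun H c)) <| by
    intro c₁ c₂
    apply Additive.toMul.injective
    rw [toMul_add, toMul_ofMul, toMul_ofMul, toMul_ofMul]
    ext g
    have hd := (km30_choose_spec H c₁).add (km30_choose_spec H c₂)
    have hd' : km30_IsData ev p ((c₁ + c₂ : Pic0.torsion K F p) : Pic0 K F) _ _ _ := hd
    rw [km30_PsiFun_eval H (c₁ + c₂) hd' g, MonoidHom.mul_apply, Units.val_mul,
      km30_PsiFun_eval H c₁ (km30_choose_spec H c₁) g,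
      km30_PsiFun_eval H c₂ (km30_choose_spec H c₂) g, smul_mul']
    have hh₁ := (km30_choose_spec H c₁).ne_zero H.pos
    have hh₂ := (km30_choose_spec H c₂).ne_zero H.pos
    field_simp

/-- **Evaluation rule**: if `c = [D]`, `p • D = div u` and `h ^ p = ev u`, then
`Ψ c g = (g • h) / h`. -/
theorem km30_Psi_eval (H : km30_Hyp (Γ := Γ) K ev p) (c : Pic0.torsion K F p)
    {D : Divisor.degZero (K := K) (F := F)} {u : F} {h : M}
    (hd : km30_IsData ev p (c : Pic0 K F) D u h) (g : Γ) :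
    (((km30_Psi H c).toMul g : Mˣ) : M) = (g • h) / h :=
  km30_PsiFun_eval H c hd g

/-- Same, in the form `g • h = Ψ c g * h`. -/
theorem km30_Psi_smul (H : km30_Hyp (Γ := Γ) K ev p) (c : Pic0.torsion K F p)
    {D : Divisor.degZero (K := K) (F := F)} {u : F} {h : M}
    (hd : km30_IsData ev p (c : Pic0 K F) D u h) (g : Γ) :
    g • h = (((km30_Psi H c).toMul g : Mˣ) : M) * h := by
  rw [km30_Psi_eval H c hd g, div_mul_cancel₀ _ (hd.ne_zero H.pos)]

/-- `Ψ` takes values in the `p`-th roots of unity. -/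
theorem km30_Psi_pow (H : km30_Hyp (Γ := Γ) K ev p) (c : Pic0.torsion K F p) (g : Γ) :
    (km30_Psi H c).toMul g ^ p = 1 := by
  ext
  rw [Units.val_pow_eq_pow_val, km30_Psi_eval H c (km30_choose_spec H c) g, Units.val_one]
  exact km30_ratio_pow p ((km30_choose_spec H c).ne_zero H.pos)
    ((km30_choose_spec H c).inv H.fix) g

/-- **Injectivity of the Kummer map**, given (K2): a `Γ`-invariant element of `M` whose `p`-th
power lies in `ev F` lies in `ev F`. -/
theorem km30_Psi_injective (H : km30_Hyp (Γ := Γ) K ev p)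
    (hK2 : ∀ h : M, (∀ g : Γ, g • h = h) → (∃ u : F, h ^ p = ev u) → ∃ w : F, ev w = h) :
    Function.Injective (km30_Psi H) := by
  rw [injective_iff_map_eq_zero]
  intro c hc
  obtain ⟨D, u, h, hd⟩ := km30_exists_data H c
  have hh := hd.ne_zero H.pos
  have hinv : ∀ g : Γ, g • h = h := by
    intro g
    have h1 := km30_Psi_smul H c hd g
    rw [hc] at h1
    simpa using h1
  obtain ⟨w, hw⟩ := hK2 h hinv ⟨u, hd.2.2.2⟩
  have hwu : w ^ p = u := by
    apply ev.injective
    rw [map_pow, hw, hd.2.2.2]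
  have hw0 : w ≠ 0 := by
    rintro rfl
    rw [zero_pow H.pos.ne'] at hwu
    exact hd.2.1 hwu.symm
  have hprin : Divisor.IsPrincipal ((D : Divisor.degZero (K := K) (F := F)) : Divisor K F) := by
    refine ⟨w, hw0, fun v => ?_⟩
    have e1 : v.ord (w ^ p) = (p : ℤ) * v.ord w := by
      have := v.ord_zpow w (p : ℤ)
      rwa [zpow_natCast] at this
    have h2 := hd.2.2.1 v
    rw [← hwu, e1] at h2
    exact mul_left_cancel₀ (by exact_mod_cast H.pos.ne') h2
  apply Subtype.ext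
  rw [← hd.1, (km30_mk_eq_zero_iff D).mpr hprin]
  rfl

/-- A divisor `D` of degree `0` with `p • D = div G` defines a `p`-torsion class. -/
theorem km30_mem_torsion (D : Divisor.degZero (K := K) (F := F)) {G : F} (hG : G ≠ 0)
    (hdiv : ∀ v : Place K F, (p : ℤ) * (D : Divisor K F) v = v.ord G) :
    Pic0.mk D ∈ Pic0.torsion K F p := by
  rw [Pic0.mem_torsion, km30_zsmul_mk, km30_mk_eq_zero_iff]
  refine ⟨G, hG, fun v => ?_⟩
  rw [← hdiv v]
  simp

/-- **`Ψ ∘ Φ = id`**: if `f ^ p = ev G`, `div G = p • D` and `g • f = χ g * f`, then `[D]` is a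
`p`-torsion class with `Ψ [D] = χ`. -/
theorem km30_Psi_of_eigen (H : km30_Hyp (Γ := Γ) K ev p) (D : Divisor.degZero (K := K) (F := F))
    {G : F} (hG : G ≠ 0) (hdiv : ∀ v : Place K F, (p : ℤ) * (D : Divisor K F) v = v.ord G)
    {f : M} (hf : f ^ p = ev G) (χ : Γ → M) (hχ : ∀ g : Γ, g • f = χ g * f) (g : Γ) :
    (((km30_Psi H ⟨Pic0.mk D, km30_mem_torsion D hG hdiv⟩).toMul g : Mˣ) : M) = χ g := by
  have hd : km30_IsData ev p
      ((⟨Pic0.mk D, km30_mem_torsion D hG hdiv⟩ : Pic0.torsion K F p) : Pic0 K F) D G f :=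
    ⟨rfl, hG, hdiv, hf⟩
  rw [km30_Psi_eval H _ hd g, hχ g, mul_div_assoc, div_self (hd.ne_zero H.pos), mul_one]

end Psi

end Fermat.Agent.S42
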