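import Fermat.Agent.S42.Roots78

/-!
# S42 / M6 (R): `p`-th roots in the fraction field of the ring of holomorphic functions (helper78)

API-independent adapter: for ANY subalgebra `O` of `ℍ → ℂ` whose carrier is the set of holomorphic
functions and ANY fraction field `K` of `O`:

* `h78_order_ne_top`   : a nonzero holomorphic function on `ℍ` has finite order at every point.
* `h78_root_frac`      : `x = a / b` with `p ∣ ord_τ a - ord_τ b` for all `τ`  ⟹  `x` is a `p`-th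
                         power in `K`.
* `h78_rootOfUnity_frac` : an element of `K` with `x ^ n = 1` is a constant.
-/

namespace Fermat.Agent.S42

open Complex Metric Set Filter Topology UpperHalfPlane
open scoped Manifold

/-- A holomorphic function on `ℍ` that is not identically zero has finite order of vanishing at
every point. -/
theorem h78_order_ne_top {f : ℍ → ℂ} (hf : MDifferentiable 𝓘(ℂ) 𝓘(ℂ) f) (hne : f ≠ 0) (τ : ℍ) :
    analyticOrderAt (f ∘ ofComplex) (τ : ℂ) ≠ ⊤ := by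
  have hUo : IsOpen {z : ℂ | 0 < z.im} := isOpen_lt continuous_const Complex.continuous_im
  have hUc : IsPreconnected {z : ℂ | 0 < z.im} := (convex_halfSpace_im_gt 0).isPreconnected
  have hA : AnalyticOnNhd ℂ (f ∘ ofComplex) {z : ℂ | 0 < z.im} :=
    (UpperHalfPlane.mdifferentiable_iff.mp hf).analyticOnNhd hUo
  obtain ⟨σ, hσ⟩ : ∃ σ : ℍ, f σ ≠ 0 := by
    by_contra hcon
    exact hne (funext fun σ => not_not.mp fun h => hcon ⟨σ, h⟩)
  have hσ' : analyticOrderAt (f ∘ ofComplex) (σ : ℂ) ≠ ⊤ := by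
    have h0 : analyticOrderAt (f ∘ ofComplex) (σ : ℂ) = 0 := by
      rw [(hA (σ : ℂ) σ.im_pos).analyticOrderAt_eq_zero]
      simpa [Function.comp_apply, ofComplex_apply] using hσ
    rw [h0]
    exact ENat.zero_ne_top
  exact hA.analyticOrderAt_ne_top_of_isPreconnected hUc σ.im_pos τ.im_pos hσ'

variable (O : Subalgebra ℂ (ℍ → ℂ))
  (hO : ∀ f : ℍ → ℂ, f ∈ O ↔ MDifferentiable 𝓘(ℂ) 𝓘(ℂ) f)
  {K : Type*} [Field K] [Algebra O K] [IsFractionRing O K]

include hO in
/-- **(R) in the fraction field.**  If `x = a / b` (`a b ∈ O`, `b ≠ 0`, `x ≠ 0`) and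
`p ∣ ord_τ a - ord_τ b` for all `τ`, then `x` is a `p`-th power in `K`. -/
theorem h78_root_frac {p : ℕ} (hp : 0 < p) (a b : O) (ha : a ≠ 0) (hb : b ≠ 0)
    (hord : ∀ τ : ℍ, (p : ℤ) ∣
      ((analyticOrderAt ((a : ℍ → ℂ) ∘ ofComplex) (τ : ℂ)).toNat : ℤ) -
        ((analyticOrderAt ((b : ℍ → ℂ) ∘ ofComplex) (τ : ℂ)).toNat : ℤ)) :
    ∃ h : O, (algebraMap O K h / algebraMap O K b) ^ p = algebraMap O K a / algebraMap O K b := by
  have haM : MDifferentiable 𝓘(ℂ) 𝓘(ℂ) (a : ℍ → ℂ) := (hO _).mp a.2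
  have hbM : MDifferentiable 𝓘(ℂ) 𝓘(ℂ) (b : ℍ → ℂ) := (hO _).mp b.2
  have ha' : (a : ℍ → ℂ) ≠ 0 := fun h => ha (Subtype.ext h)
  have hb' : (b : ℍ → ℂ) ≠ 0 := fun h => hb (Subtype.ext h)
  obtain ⟨h, hh, -, hpow⟩ := h78_root_quot_H hp haM hbM (fun τ => by
    refine ⟨(analyticOrderAt ((a : ℍ → ℂ) ∘ ofComplex) (τ : ℂ)).toNat,
      (analyticOrderAt ((b : ℍ → ℂ) ∘ ofComplex) (τ : ℂ)).toNat, ?_, ?_, hord τ⟩
    · exact (ENat.natCast_toNat (h78_order_ne_top haM ha' τ)).symm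
    · exact (ENat.natCast_toNat (h78_order_ne_top hbM hb' τ)).symm)
  refine ⟨⟨h, (hO _).mpr hh⟩, ?_⟩
  have hbK : algebraMap O K b ≠ 0 := by
    intro h0
    exact hb ((IsFractionRing.injective O K) (by rw [h0, map_zero]))
  have hO_eq : (⟨h, (hO _).mpr hh⟩ : O) ^ p * b = a * b ^ p := by
    apply Subtype.ext
    funext τ
    simpa using hpow τ
  have hK := congrArg (algebraMap O K) hO_eq
  simp only [map_mul, map_pow] at hK
  rw [div_pow, div_eq_div_iff (pow_ne_zero _ hbK) hbK]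
  exact hK

include hO in
/-- The same, for an arbitrary nonzero `x : K`: the divisibility hypothesis is asked for ONE
presentation `x = a / b`. -/
theorem h78_root_frac' {p : ℕ} (hp : 0 < p) (x : K) (hx : x ≠ 0)
    (hord : ∃ a b : O, b ≠ 0 ∧ x = algebraMap O K a / algebraMap O K b ∧ ∀ τ : ℍ, (p : ℤ) ∣
      ((analyticOrderAt ((a : ℍ → ℂ) ∘ ofComplex) (τ : ℂ)).toNat : ℤ) -
        ((analyticOrderAt ((b : ℍ → ℂ) ∘ ofComplex) (τ : ℂ)).toNat : ℤ)) :
    ∃ y : K, y ^ p = x := by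
  obtain ⟨a, b, hb, rfl, hd⟩ := hord
  have ha : a ≠ 0 := by
    rintro rfl
    simp at hx
  obtain ⟨h, hh⟩ := h78_root_frac (K := K) O hO hp a b ha hb hd
  exact ⟨_, hh⟩

include hO in
/-- A root of unity in the fraction field of the ring of holomorphic functions on `ℍ` is a
constant. -/
theorem h78_rootOfUnity_frac [Algebra ℂ K] [IsScalarTower ℂ O K] {n : ℕ} (hn : 0 < n) (x : K)
    (hx : x ^ n = 1) : ∃ ζ : ℂ, ζ ^ n = 1 ∧ x = algebraMap ℂ K ζ := by
  obtain ⟨a, b, hb, rfl⟩ := IsFractionRing.div_surjective (A := O) x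
  have hb0 : b ≠ 0 := nonZeroDivisors.ne_zero hb
  have hbK : algebraMap O K b ≠ 0 := by
    intro h0
    exact hb0 ((IsFractionRing.injective O K) (by rw [h0, map_zero]))
  have h1 : algebraMap O K (a ^ n) = algebraMap O K (b ^ n) := by
    rw [div_pow, div_eq_one_iff_eq (pow_ne_zero _ hbK)] at hx
    simpa using hx
  have h2 : a ^ n = b ^ n := IsFractionRing.injective O K h1
  have h3 : ∀ τ : ℍ, (a : ℍ → ℂ) τ ^ n = (b : ℍ → ℂ) τ ^ n := by
    intro τ
    have := congrArg (fun f : O => (f : ℍ → ℂ) τ) h2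
    simpa using this
  obtain ⟨ζ, hζ, hζ'⟩ := h78_root_unique_H hn ((hO _).mp b.2) ((hO _).mp a.2) h3
  refine ⟨ζ, hζ, ?_⟩
  have h4 : a = ζ • b := by
    apply Subtype.ext
    funext τ
    simpa using hζ' τ
  rw [h4, div_eq_iff hbK, Algebra.smul_def, map_mul, ← IsScalarTower.algebraMap_apply]

end Fermat.Agent.S42
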