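import Fermat.Agent.S42.KummerZ30
import Fermat.Agent.S42.Mer95
import Fermat.Agent.S42.RootsFrac78
import Fermat.Agent.S24.Counting

/-!
# S42 / M6c (helper30): the Kummer map into `Hom(Γ, ℤ/p)` for meromorphic functions on `ℍ`

Instantiation of the abstract Kummer map (`Kummer30`, `KummerZ30`) at `M = mer95_MER` (field of
meromorphic functions on the upper half plane, M0) and `Γ ≤ SL(2, ℤ)`, for ANY function field
`F / K` (Prelude vocabulary) with a ring embedding `ev : F →+* mer95_MER` which maps the constants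
`K` to constants of `ℂ` along `φ : K →+* ℂ` and has `Γ`-invariant image.  Both `K = ℚ̄` (the
statement (I-Ψ) of the S42 plan) and `K = ℂ` (finiteness of `Pic0(F_ℂ)[p]` for the descent) are
instances.

* `km30c_root_mer`  : (R) in `mer95_MER`: `p ∣ ord_τ x` for all `τ` ⟹ `x` is a `p`-th power;
* `km30c_dvd_ord`   : (P1) `p ∣ v.ord u` at all places of `F` ⟹ `p ∣ ord_τ (ev u)` for all `τ`;
* `km30c_unit`      : a function without zeros and poles is constant;
* `km30c_hyp`       : the hypotheses `km30_Hyp` of the abstract Kummer map;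
* `km30c_Psi`       : `Pic0(K, F)[p] →+ (Additive Γ →+ ZMod p)`, with the evaluation rule
  `km30c_Psi_smul`: `g • h = ζ_p ^ (Ψ c g) * h`, `ζ_p = exp (2πi/p)`;
* `km30c_Psi_injective`, `km30c_finite_torsion` (given (K2)).
-/

set_option autoImplicit false

open UpperHalfPlane AlgebraicCurve IntermediateField
open scoped MatrixGroups Manifold

namespace Fermat.Agent.S42

open Fermat.Agent.S24

noncomputable section

/-! ### Roots and roots of unity in `mer95_MER` -/

/-- **(R) in `mer95_MER`**: an element all of whose orders are divisible by `p` is a `p`-th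
power. -/
theorem km30c_root_mer {p : ℕ} (hp : 0 < p) (x : mer95_MER) (hx : x ≠ 0)
    (hord : ∀ τ : ℍ, (p : ℤ) ∣ mer95_ord τ x) : ∃ h : mer95_MER, h ^ p = x := by
  obtain ⟨a, b, hb, hab⟩ := mer95_exists_rep x
  have hbK : algebraMap mer95_O mer95_MER b ≠ 0 := mer95_algebraMap_ne_zero hb
  have hxab : x = algebraMap mer95_O mer95_MER a / algebraMap mer95_O mer95_MER b := by
    rw [eq_div_iff hbK]
    exact hab
  have ha : a ≠ 0 := by
    rintro rfl
    rw [map_zero, zero_div] at hxab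
    exact hx hxab
  refine h78_root_frac' (K := mer95_MER) mer95_O (fun f => mer95_mem_O) hp x hx
    ⟨a, b, hb, hxab, fun τ => ?_⟩
  have h1 := hord τ
  rw [hxab, mer95_ord_div τ (mer95_algebraMap_ne_zero ha) hbK, mer95_ord_algebraMap,
    mer95_ord_algebraMap] at h1
  exact h1

/-- The `p`-th roots of unity of `mer95_MER` are fixed by `SL(2, ℤ)` (they are constants). -/
theorem km30c_mu {p : ℕ} (hp : 0 < p) (Γ : Subgroup SL(2, ℤ)) (ζ : mer95_MER) (hζ : ζ ^ p = 1)
    (g : Γ) : g • ζ = ζ := by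
  obtain ⟨z, -, rfl⟩ := mer95_root_of_unity ζ hp hζ
  exact mer95_smul_C_SL (g : SL(2, ℤ)) z

/-- `exp (2πi/p)` as a unit of `mer95_MER`. -/
def km30c_zeta (p : ℕ) : mer95_MERˣ :=
  Units.mk0 (algebraMap ℂ mer95_MER (Complex.exp (2 * Real.pi * Complex.I / p)))
    ((map_ne_zero _).mpr (Complex.exp_ne_zero _))

theorem km30c_zeta_coe (p : ℕ) : ((km30c_zeta p : mer95_MERˣ) : mer95_MER) =
    algebraMap ℂ mer95_MER (Complex.exp (2 * Real.pi * Complex.I / p)) := rfl

theorem km30c_zeta_prim (p : ℕ) [NeZero p] : IsPrimitiveRoot (km30c_zeta p) p := by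
  rw [← IsPrimitiveRoot.coe_units_iff, km30c_zeta_coe]
  exact (Complex.isPrimitiveRoot_exp p (NeZero.ne p)).map_of_injective
    (algebraMap ℂ mer95_MER).injective

/-! ### Finiteness of `Hom(Γ, A)` -/

theorem km30c_finite_hom (Γ : Type*) [Group Γ] [Group.FG Γ] (A : Type*) [AddCommGroup A]
    [Finite A] : Finite (Additive Γ →+ A) := by
  obtain ⟨S, hS⟩ := Group.fg_def.mp (inferInstance : Group.FG Γ)
  let res : (Additive Γ →+ A) → (↥S → A) := fun f s => f (Additive.ofMul (s : Γ))
  have hinj : Function.Injective res := by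
    intro f g hfg
    apply (AddMonoidHom.toMultiplicativeRight (α := Γ) (β := A)).injective
    refine MonoidHom.eq_of_eqOn_dense hS fun s hs => ?_
    exact congrArg Multiplicative.ofAdd (congrFun hfg ⟨s, Finset.mem_coe.mp hs⟩)
  exact Finite.of_injective res hinj

/-! ### The function-field side -/

section Generic

variable {K F : Type*} [Field K] [Field F] [Algebra K F]
variable (φ : K →+* ℂ) (ev : F →+* mer95_MER)

/-- `ord_τ ∘ ev` as an order function on `F` (S24 vocabulary). -/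
def km30c_ordFn (hc : ∀ c : K, ev (algebraMap K F c) = algebraMap ℂ mer95_MER (φ c)) (τ : ℍ) :
    OrdFn K F where
  ord f := mer95_ord τ (ev f)
  ord_mul f g hf hg := by
    rw [map_mul]
    exact mer95_ord_mul τ ((map_ne_zero ev).mpr hf) ((map_ne_zero ev).mpr hg)
  ord_add f g _ _ hfg := by
    rw [map_add]
    exact mer95_ord_add τ (by rw [← map_add]; exact (map_ne_zero ev).mpr hfg)
  ord_const c _ := by
    rw [hc]
    exact mer95_ord_C τ _

variable {φ ev}

/-- **(P1) in divisibility form**: if `p` divides the order of `u` at every place of `F`, then it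
divides the order of `ev u` at every point of the upper half plane. -/
theorem km30c_dvd_ord (hc : ∀ c : K, ev (algebraMap K F c) = algebraMap ℂ mer95_MER (φ c))
    {p : ℕ} {u : F} (hu : u ≠ 0) (hdiv : ∀ v : Place K F, (p : ℤ) ∣ v.ord u) (τ : ℍ) :
    (p : ℤ) ∣ mer95_ord τ (ev u) := by
  by_cases h : ∃ y₀ : F, y₀ ≠ 0 ∧ 0 < (km30c_ordFn φ ev hc τ).ord y₀
  · obtain ⟨m, ϖ, -, -, -, hall⟩ := wp3_ord_eq_mul (km30c_ordFn φ ev hc τ) h
    have h1 : mer95_ord τ (ev u) = m * (wp3_place (km30c_ordFn φ ev hc τ) h).ord u := hall u hu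
    rw [h1]
    exact Dvd.dvd.mul_left (hdiv _) m
  · have h1 : mer95_ord τ (ev u) ≤ 0 := by
      by_contra hcon
      exact h ⟨u, hu, not_le.mp hcon⟩
    have h2 : mer95_ord τ (ev u⁻¹) ≤ 0 := by
      by_contra hcon
      exact h ⟨u⁻¹, inv_ne_zero hu, not_le.mp hcon⟩
    rw [map_inv₀, mer95_ord_inv] at h2
    have h3 : mer95_ord τ (ev u) = 0 := by omega
    rw [h3]
    exact dvd_zero _

/-- A function without zeros and poles is a constant. -/
theorem km30c_unit [IsAlgClosed K] [CharZero K] (y : F) (hy : Transcendental K y) [FiniteDimensional K⟮y⟯ F]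
    {u : F} (h : ∀ v : Place K F, v.ord u = 0) : ∃ c : K, algebraMap K F c = u := by
  classical
  by_cases halg : IsAlgebraic K u
  · obtain ⟨c, hc⟩ := wp1b_exists_eq_algebraMap_of_isAlgebraic halg
    exact ⟨c, hc.symm⟩
  · exfalso
    have ht : Transcendental K u := halg
    have : FiniteDimensional K⟮u⟯ F := wp1_finite_of_transcendental y hy u ht
    have hsum := wp1_sum_ord_zeros u ht
    have hpos : (0 : ℤ) < (Module.finrank K⟮u⟯ F : ℤ) := by
      exact_mod_cast Module.finrank_pos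
    rw [Finset.sum_eq_zero fun v _ => h v] at hsum
    omega

/-- **The hypotheses of the abstract Kummer map hold** for `ev : F →+* mer95_MER`. -/
theorem km30c_hyp [IsAlgClosed K] [CharZero K]
    (hc : ∀ c : K, ev (algebraMap K F c) = algebraMap ℂ mer95_MER (φ c))
    (Γ : Subgroup SL(2, ℤ)) {p : ℕ} (hp : 0 < p) (y : F) (hy : Transcendental K y)
    [FiniteDimensional K⟮y⟯ F] (hfix : ∀ (g : Γ) (x : F), g • ev x = ev x) :
    km30_Hyp (Γ := Γ) K ev p where
  pos := hp
  fix := hfix
  mu := fun ζ hζ g => km30c_mu hp Γ ζ hζ g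
  root := fun u hu hdiv =>
    km30c_root_mer hp (ev u) ((map_ne_zero ev).mpr hu) (km30c_dvd_ord hc hu hdiv)
  unit := fun _ _ h => km30c_unit y hy h
  const := fun c => IsAlgClosed.exists_pow_nat_eq c hp

variable {Γ : Subgroup SL(2, ℤ)} {p : ℕ} [NeZero p]

/-- **The Kummer map** `Ψ : Pic0(K, F)[p] →+ Hom(Γ, ℤ/p)` attached to `ev : F →+* mer95_MER`
(normalised by `ζ_p = exp (2πi/p)`). -/
def km30c_Psi (H : km30_Hyp (Γ := Γ) K ev p) :
    ↥(Pic0.torsion K F p) →+ (Additive Γ →+ ZMod p) :=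
  km30z_Psi H (km30c_zeta_prim p)

/-- **Evaluation rule**: for every Kummer datum `(D, u, h)` of `c` (`c = [D]`, `div u = p • D`,
`h ^ p = ev u`): `g • h = exp (2πi/p) ^ (Ψ c g) * h`. -/
theorem km30c_Psi_smul (H : km30_Hyp (Γ := Γ) K ev p) (c : Pic0.torsion K F p)
    {D : Divisor.degZero (K := K) (F := F)} {u : F} {h : mer95_MER}
    (hd : km30_IsData ev p (c : Pic0 K F) D u h) (g : Γ) :
    g • h = algebraMap ℂ mer95_MER
      (Complex.exp (2 * Real.pi * Complex.I / p) ^ (km30c_Psi H c (Additive.ofMul g)).val) * h := by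
  have h1 := km30z_Psi_smul H (km30c_zeta_prim p) c hd g
  rw [km30c_zeta_coe, ← map_pow] at h1
  exact h1

/-- Uniqueness: `g • h = exp (2πi/p) ^ a * h` for one Kummer datum forces `Ψ c g = a`. -/
theorem km30c_Psi_eq_of_smul (H : km30_Hyp (Γ := Γ) K ev p) (c : Pic0.torsion K F p)
    {D : Divisor.degZero (K := K) (F := F)} {u : F} {h : mer95_MER}
    (hd : km30_IsData ev p (c : Pic0 K F) D u h) (g : Γ) (a : ZMod p)
    (ha : g • h = algebraMap ℂ mer95_MER
      (Complex.exp (2 * Real.pi * Complex.I / p) ^ a.val) * h) :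
    km30c_Psi H c (Additive.ofMul g) = a := by
  refine km30z_Psi_eq_of_smul H (km30c_zeta_prim p) c hd g a ?_
  rw [km30c_zeta_coe, ← map_pow]
  exact ha

/-- **`Ψ ∘ Φ = id`**: a `p`-th root `f` of `ev G`, `div G = p • D`, transforming by
`g • f = exp (2πi/p) ^ (lam g) * f`, gives the class `[D]` with `Ψ [D] = lam`. -/
theorem km30c_Psi_of_eigen (H : km30_Hyp (Γ := Γ) K ev p)
    (D : Divisor.degZero (K := K) (F := F)) {G : F} (hG : G ≠ 0)
    (hdiv : ∀ v : Place K F, (p : ℤ) * (D : Divisor K F) v = v.ord G) {f : mer95_MER}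
    (hf : f ^ p = ev G) (lam : Γ → ZMod p)
    (hlam : ∀ g : Γ, g • f = algebraMap ℂ mer95_MER
      (Complex.exp (2 * Real.pi * Complex.I / p) ^ (lam g).val) * f) (g : Γ) :
    km30c_Psi H ⟨Pic0.mk D, km30_mem_torsion D hG hdiv⟩ (Additive.ofMul g) = lam g :=
  km30c_Psi_eq_of_smul H _ (D := D) (u := G) (h := f) ⟨rfl, hG, hdiv, hf⟩ g (lam g) (hlam g)

/-- **Injectivity** (given (K2)). -/
theorem km30c_Psi_injective (H : km30_Hyp (Γ := Γ) K ev p)
    (hK2 : ∀ h : mer95_MER, (∀ g : Γ, g • h = h) → (∃ u : F, h ^ p = ev u) → ∃ w : F, ev w = h) :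
    Function.Injective (km30c_Psi H) :=
  km30z_Psi_injective H (km30c_zeta_prim p) hK2

/-- **Finiteness of the `p`-torsion** (given (K2) and `Γ` finitely generated). -/
theorem km30c_finite_torsion [Group.FG Γ] (H : km30_Hyp (Γ := Γ) K ev p)
    (hK2 : ∀ h : mer95_MER, (∀ g : Γ, g • h = h) → (∃ u : F, h ^ p = ev u) → ∃ w : F, ev w = h) :
    Finite ↥(Pic0.torsion K F p) :=
  haveI := km30c_finite_hom Γ (ZMod p)
  Finite.of_injective _ (km30c_Psi_injective H hK2)

end Generic

end

end Fermat.Agent.S42
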