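import Fermat.Agent.S42.Kummer30

/-!
# S42 / M6 (helper30): the Kummer map with values in `ZMod p`

On top of `Kummer30`: given a primitive `p`-th root of unity `ζ : Mˣ`, the abstract Kummer map
becomes

`km30z_Psi : Pic0(K, F)[p] →+ (Additive Γ →+ ZMod p)`,   `Ψ c g = ζ ^ (km30z_Psi c g).val`,

additive, injective under (K2), with the evaluation rule `g • h = ζ ^ (…).val * h` for every
Kummer datum `(D, u, h)` of the class.  This is the shape (I-Ψ) of the S42 plan.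
-/

set_option autoImplicit false

namespace Fermat.Agent.S42

open AlgebraicCurve

section Log

variable {M : Type*} [Field M] {p : ℕ} [NeZero p]

theorem km30z_exists_zpow {ζ : Mˣ} (hζ : IsPrimitiveRoot ζ p) {x : Mˣ} (hx : x ^ p = 1) :
    ∃ n : ℤ, ζ ^ n = x := by
  have h1 : x ∈ Subgroup.zpowers ζ := by
    rw [hζ.zpowers_eq]
    exact (mem_rootsOfUnity p x).mpr hx
  exact Subgroup.mem_zpowers_iff.mp h1

open Classical in
/-- The discrete logarithm of a `p`-th root of unity with respect to a primitive one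
(junk value `0` outside the `p`-th roots of unity). -/
noncomputable def km30z_log {ζ : Mˣ} (hζ : IsPrimitiveRoot ζ p) (x : Mˣ) : ZMod p :=
  if hx : x ^ p = 1 then ((km30z_exists_zpow hζ hx).choose : ZMod p) else 0

omit [NeZero p] in
theorem km30z_zpow_pow {ζ : Mˣ} (hζ : IsPrimitiveRoot ζ p) (n : ℤ) : (ζ ^ n) ^ p = 1 := by
  rw [← zpow_natCast, ← zpow_mul, mul_comm, zpow_mul, zpow_natCast, hζ.pow_eq_one, one_zpow]

theorem km30z_log_zpow {ζ : Mˣ} (hζ : IsPrimitiveRoot ζ p) (n : ℤ) :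
    km30z_log hζ (ζ ^ n) = (n : ZMod p) := by
  have hx := km30z_zpow_pow hζ n
  rw [km30z_log, dif_pos hx]
  have h1 := (km30z_exists_zpow hζ hx).choose_spec
  set m := (km30z_exists_zpow hζ hx).choose
  have h2 : ζ ^ (m - n) = 1 := by rw [zpow_sub, h1, mul_inv_cancel]
  have h3 := (hζ.zpow_eq_one_iff_dvd (m - n)).mp h2
  have h4 : ((m - n : ℤ) : ZMod p) = 0 := (ZMod.intCast_zmod_eq_zero_iff_dvd _ _).mpr h3
  rw [Int.cast_sub, sub_eq_zero] at h4
  exact h4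

theorem km30z_zpow_val {ζ : Mˣ} (hζ : IsPrimitiveRoot ζ p) (n : ℤ) :
    ζ ^ ((n : ZMod p).val) = ζ ^ n := by
  have h1 : (((n : ZMod p).val : ℕ) : ℤ) = n % (p : ℤ) := ZMod.val_intCast n
  rw [← zpow_natCast, h1]
  conv_rhs => rw [← Int.emod_add_mul_ediv n (p : ℤ)]
  rw [zpow_add, zpow_mul, zpow_natCast ζ p, hζ.pow_eq_one, one_zpow, mul_one]

theorem km30z_pow_log {ζ : Mˣ} (hζ : IsPrimitiveRoot ζ p) {x : Mˣ} (hx : x ^ p = 1) :
    ζ ^ (km30z_log hζ x).val = x := by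
  obtain ⟨n, rfl⟩ := km30z_exists_zpow hζ hx
  rw [km30z_log_zpow, km30z_zpow_val hζ]

theorem km30z_log_pow_val {ζ : Mˣ} (hζ : IsPrimitiveRoot ζ p) (a : ZMod p) :
    km30z_log hζ (ζ ^ a.val) = a := by
  have h1 := km30z_log_zpow hζ (a.val : ℤ)
  rw [zpow_natCast] at h1
  rw [h1]
  simp

theorem km30z_log_mul {ζ : Mˣ} (hζ : IsPrimitiveRoot ζ p) {x y : Mˣ} (hx : x ^ p = 1)
    (hy : y ^ p = 1) : km30z_log hζ (x * y) = km30z_log hζ x + km30z_log hζ y := by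
  obtain ⟨n, rfl⟩ := km30z_exists_zpow hζ hx
  obtain ⟨m, rfl⟩ := km30z_exists_zpow hζ hy
  rw [← zpow_add, km30z_log_zpow, km30z_log_zpow, km30z_log_zpow, Int.cast_add]

theorem km30z_log_one {ζ : Mˣ} (hζ : IsPrimitiveRoot ζ p) : km30z_log hζ (1 : Mˣ) = 0 := by
  have := km30z_log_zpow hζ 0
  simpa using this

theorem km30z_log_eq_zero_iff {ζ : Mˣ} (hζ : IsPrimitiveRoot ζ p) {x : Mˣ} (hx : x ^ p = 1) :
    km30z_log hζ x = 0 ↔ x = 1 := by
  constructor
  · intro h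
    have h1 := km30z_pow_log hζ hx
    rw [h, ZMod.val_zero, pow_zero] at h1
    exact h1.symm
  · rintro rfl
    exact km30z_log_one hζ

variable {Γ : Type*} [Group Γ]

/-- A character with values in the `p`-th roots of unity, read in `ZMod p`. -/
noncomputable def km30z_toZ {ζ : Mˣ} (hζ : IsPrimitiveRoot ζ p) (χ : Γ →* Mˣ)
    (hχ : ∀ g, χ g ^ p = 1) : Additive Γ →+ ZMod p :=
  AddMonoidHom.mk' (fun g => km30z_log hζ (χ g.toMul)) <| by
    intro a b
    rw [toMul_add, map_mul, km30z_log_mul hζ (hχ _) (hχ _)]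

theorem km30z_toZ_apply {ζ : Mˣ} (hζ : IsPrimitiveRoot ζ p) (χ : Γ →* Mˣ)
    (hχ : ∀ g, χ g ^ p = 1) (g : Γ) :
    km30z_toZ hζ χ hχ (Additive.ofMul g) = km30z_log hζ (χ g) := rfl

end Log

section PsiZ

variable {K : Type*} {F : Type*} [Field K] [Field F] [Algebra K F]
variable {M : Type*} [Field M] {Γ : Type*} [Group Γ] [MulSemiringAction Γ M]
variable {ev : F →+* M} {p : ℕ} [NeZero p]

/-- **The Kummer map with values in `ZMod p`** (shape (I-Ψ)). -/
noncomputable def km30z_Psi (H : km30_Hyp (Γ := Γ) K ev p) {ζ : Mˣ} (hζ : IsPrimitiveRoot ζ p) :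
    ↥(Pic0.torsion K F p) →+ (Additive Γ →+ ZMod p) :=
  AddMonoidHom.mk' (fun c => km30z_toZ hζ (km30_Psi H c).toMul (km30_Psi_pow H c)) <| by
    intro c₁ c₂
    ext g
    change km30z_log hζ ((km30_Psi H (c₁ + c₂)).toMul g)
      = km30z_log hζ ((km30_Psi H c₁).toMul g) + km30z_log hζ ((km30_Psi H c₂).toMul g)
    rw [map_add, toMul_add, MonoidHom.mul_apply,
      km30z_log_mul hζ (km30_Psi_pow H c₁ _) (km30_Psi_pow H c₂ _)]

theorem km30z_Psi_apply (H : km30_Hyp (Γ := Γ) K ev p) {ζ : Mˣ} (hζ : IsPrimitiveRoot ζ p)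
    (c : Pic0.torsion K F p) (g : Γ) :
    km30z_Psi H hζ c (Additive.ofMul g) = km30z_log hζ ((km30_Psi H c).toMul g) := rfl

/-- `Ψ c g = ζ ^ (km30z_Psi c g).val`. -/
theorem km30z_Psi_spec (H : km30_Hyp (Γ := Γ) K ev p) {ζ : Mˣ} (hζ : IsPrimitiveRoot ζ p)
    (c : Pic0.torsion K F p) (g : Γ) :
    ζ ^ (km30z_Psi H hζ c (Additive.ofMul g)).val = (km30_Psi H c).toMul g := by
  rw [km30z_Psi_apply, km30z_pow_log hζ (km30_Psi_pow H c g)]

/-- **Evaluation rule** in `ZMod p` form: `g • h = ζ ^ (Ψ c g).val * h` for every Kummer datum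
`(D, u, h)` of `c`. -/
theorem km30z_Psi_smul (H : km30_Hyp (Γ := Γ) K ev p) {ζ : Mˣ} (hζ : IsPrimitiveRoot ζ p)
    (c : Pic0.torsion K F p) {D : Divisor.degZero (K := K) (F := F)} {u : F} {h : M}
    (hd : km30_IsData ev p (c : Pic0 K F) D u h) (g : Γ) :
    g • h = (ζ : M) ^ (km30z_Psi H hζ c (Additive.ofMul g)).val * h := by
  rw [km30_Psi_smul H c hd g, ← km30z_Psi_spec H hζ c g, Units.val_pow_eq_pow_val]

/-- Uniqueness: a function `lam` with `g • h = ζ ^ (lam g).val * h` for one Kummer datum is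
`km30z_Psi c`. -/
theorem km30z_Psi_eq_of_smul (H : km30_Hyp (Γ := Γ) K ev p) {ζ : Mˣ} (hζ : IsPrimitiveRoot ζ p)
    (c : Pic0.torsion K F p) {D : Divisor.degZero (K := K) (F := F)} {u : F} {h : M}
    (hd : km30_IsData ev p (c : Pic0 K F) D u h) (g : Γ) (a : ZMod p)
    (ha : g • h = (ζ : M) ^ a.val * h) : km30z_Psi H hζ c (Additive.ofMul g) = a := by
  have hh := hd.ne_zero H.pos
  have h1 := km30z_Psi_smul H hζ c hd g
  rw [ha] at h1
  have h2 : (ζ : M) ^ a.val = (ζ : M) ^ (km30z_Psi H hζ c (Additive.ofMul g)).val :=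
    mul_right_cancel₀ hh h1
  have h3 : ζ ^ a.val = ζ ^ (km30z_Psi H hζ c (Additive.ofMul g)).val := by
    ext
    rw [Units.val_pow_eq_pow_val, Units.val_pow_eq_pow_val, h2]
  have h4 := hζ.pow_inj (ZMod.val_lt a) (ZMod.val_lt _) h3
  exact (ZMod.val_injective p h4).symm

/-- **`Ψ ∘ Φ = id`** in `ZMod p` form. -/
theorem km30z_Psi_of_eigen (H : km30_Hyp (Γ := Γ) K ev p) {ζ : Mˣ} (hζ : IsPrimitiveRoot ζ p)
    (D : Divisor.degZero (K := K) (F := F)) {G : F} (hG : G ≠ 0)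
    (hdiv : ∀ v : Place K F, (p : ℤ) * (D : Divisor K F) v = v.ord G) {f : M}
    (hf : f ^ p = ev G) (lam : Γ → ZMod p) (hlam : ∀ g : Γ, g • f = (ζ : M) ^ (lam g).val * f)
    (g : Γ) :
    km30z_Psi H hζ ⟨Pic0.mk D, km30_mem_torsion D hG hdiv⟩ (Additive.ofMul g) = lam g :=
  km30z_Psi_eq_of_smul H hζ _ (D := D) (u := G) (h := f) ⟨rfl, hG, hdiv, hf⟩ g (lam g) (hlam g)

/-- **Injectivity** of the `ZMod p`-valued Kummer map, given (K2). -/
theorem km30z_Psi_injective (H : km30_Hyp (Γ := Γ) K ev p) {ζ : Mˣ} (hζ : IsPrimitiveRoot ζ p)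
    (hK2 : ∀ h : M, (∀ g : Γ, g • h = h) → (∃ u : F, h ^ p = ev u) → ∃ w : F, ev w = h) :
    Function.Injective (km30z_Psi H hζ) := by
  rw [injective_iff_map_eq_zero]
  intro c hc
  apply km30_Psi_injective H hK2
  rw [map_zero]
  apply Additive.toMul.injective
  ext g
  have h1 : km30z_Psi H hζ c (Additive.ofMul g) = 0 := by rw [hc]; rfl
  rw [km30z_Psi_apply, km30z_log_eq_zero_iff hζ (km30_Psi_pow H c g)] at h1
  rw [h1]
  rfl

end PsiZ

end Fermat.Agent.S42
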