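import Mathlib
import Fermat.Agent.S42.LevelOneMer27

/-!
# S42 / M1 (level one), part 4: (L2) in the `mer95_ord` language

* `l1j27_ord_J_sub` : `ord_τ (J − a) = toNat (analyticOrderAt (j − a) τ)`.
* `l1j27_ord_J_sub_self_mem` : `ord_τ (J − j(τ)) ∈ {1, 2, 3}`.
* `l1j27_ord_J_sub_mem` : `ord_τ (J − a) ∈ {0, 1, 2, 3}`.
* `l1j27_ord_J_sub_pos_iff` : `0 < ord_τ (J − a) ↔ a = j τ`.
* `l1j27_ord_J_sub_eq_three`, `_eq_two`, `_eq_one` : the exact values.
-/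

open UpperHalfPlane Filter Topology Polynomial ModularForm
open scoped Manifold MatrixGroups

namespace Fermat.Agent.S42

noncomputable section

theorem l1j27_J_sub_C (a : ℂ) :
    l1j27_J - algebraMap ℂ mer95_MER a
      = algebraMap mer95_O mer95_MER (l1j27_jO - algebraMap ℂ mer95_O a) := by
  unfold l1j27_J
  rw [map_sub, ← IsScalarTower.algebraMap_apply ℂ mer95_O mer95_MER]

theorem l1j27_ord_J_sub (τ : ℍ) (a : ℂ) :
    mer95_ord τ (l1j27_J - algebraMap ℂ mer95_MER a)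
      = ((analyticOrderAt (fun w : ℂ => l1j27_j (ofComplex w) - a) (τ : ℂ)).toNat : ℤ) := by
  rw [l1j27_J_sub_C, mer95_ord_algebraMap]
  rfl

/-- `ord_τ (J − j(τ)) ∈ {1, 2, 3}`. -/
theorem l1j27_ord_J_sub_self_mem (τ : ℍ) :
    mer95_ord τ (l1j27_J - algebraMap ℂ mer95_MER (l1j27_j τ)) ∈ ({1, 2, 3} : Set ℤ) := by
  rw [l1j27_ord_J_sub]
  have h := l1j27_ord τ
  simp only [Set.mem_insert_iff, Set.mem_singleton_iff] at h ⊢
  rcases h with h | h | h <;> rw [h] <;> simp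

/-- `ord_τ (J − a) ∈ {0, 1, 2, 3}`. -/
theorem l1j27_ord_J_sub_mem (τ : ℍ) (a : ℂ) :
    mer95_ord τ (l1j27_J - algebraMap ℂ mer95_MER a) ∈ ({0, 1, 2, 3} : Set ℤ) := by
  rw [l1j27_ord_J_sub]
  have h := l1j27_ord_sub_const τ a
  simp only [Set.mem_insert_iff, Set.mem_singleton_iff] at h ⊢
  rcases h with h | h | h | h <;> rw [h] <;> simp

/-- `ord_τ (J − a) = 0` unless `a = j(τ)`. -/
theorem l1j27_ord_J_sub_of_ne (τ : ℍ) (a : ℂ) (ha : a ≠ l1j27_j τ) :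
    mer95_ord τ (l1j27_J - algebraMap ℂ mer95_MER a) = 0 := by
  rw [l1j27_ord_J_sub]
  have han : AnalyticAt ℂ (fun w : ℂ => l1j27_j (ofComplex w) - a) (τ : ℂ) :=
    (l1j27_analyticAt l1j27_j_holo τ).sub analyticAt_const
  have : analyticOrderAt (fun w : ℂ => l1j27_j (ofComplex w) - a) (τ : ℂ) = 0 := by
    rw [han.analyticOrderAt_eq_zero]
    simp only [ofComplex_apply]
    exact sub_ne_zero.mpr (Ne.symm ha)
  rw [this]; rfl

theorem l1j27_ord_J_sub_pos_iff (τ : ℍ) (a : ℂ) :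
    0 < mer95_ord τ (l1j27_J - algebraMap ℂ mer95_MER a) ↔ a = l1j27_j τ := by
  constructor
  · intro h
    by_contra ha
    rw [l1j27_ord_J_sub_of_ne τ a ha] at h
    exact lt_irrefl _ h
  · rintro rfl
    have h := l1j27_ord_J_sub_self_mem τ
    simp only [Set.mem_insert_iff, Set.mem_singleton_iff] at h
    omega

theorem l1j27_ord_J_sub_eq_three (τ : ℍ) (h : E₄ τ = 0) :
    mer95_ord τ (l1j27_J - algebraMap ℂ mer95_MER (l1j27_j τ)) = 3 := by
  rw [l1j27_ord_J_sub, l1j27_ord_eq_three τ h]; rfl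

theorem l1j27_ord_J_sub_eq_two (τ : ℍ) (h : E₆ τ = 0) :
    mer95_ord τ (l1j27_J - algebraMap ℂ mer95_MER (l1j27_j τ)) = 2 := by
  rw [l1j27_ord_J_sub, l1j27_ord_eq_two τ h]; rfl

theorem l1j27_ord_J_sub_eq_one (τ : ℍ) (h4 : E₄ τ ≠ 0) (h6 : E₆ τ ≠ 0) :
    mer95_ord τ (l1j27_J - algebraMap ℂ mer95_MER (l1j27_j τ)) = 1 := by
  rw [l1j27_ord_J_sub, l1j27_ord_eq_one τ h4 h6]; rfl

/-- for a prime `p ≥ 5`, `ord_τ (J − a)` is prime to `p` whenever it is positive. -/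
theorem l1j27_ord_J_sub_coprime (τ : ℍ) (a : ℂ) (p : ℕ) (hp : 5 ≤ p) (hpp : p.Prime)
    (hpos : 0 < mer95_ord τ (l1j27_J - algebraMap ℂ mer95_MER a)) :
    IsCoprime (mer95_ord τ (l1j27_J - algebraMap ℂ mer95_MER a)) (p : ℤ) := by
  have h := l1j27_ord_J_sub_mem τ a
  simp only [Set.mem_insert_iff, Set.mem_singleton_iff] at h
  have hprime : Prime (p : ℤ) := Nat.prime_iff_prime_int.mp hpp
  rw [isCoprime_comm]
  refine (Prime.coprime_iff_not_dvd hprime).mpr (fun hdvd => ?_)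
  have hle := Int.le_of_dvd hpos hdvd
  rcases h with h | h | h | h <;> rw [h] at hle hpos <;> omega

end

end Fermat.Agent.S42
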