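import Fermat.Agent.S42.LaurentEigen80
import Fermat.Agent.S42.PlaceBC84

/-!
# S42, descent block (helper56): linear disjointness for the modular datum

The hypothesis `hld` of the place-extension theorems T2 (`pe99_place_ext`, `pe99_dvd_descend`,
`pb84_LinDisj` of `PlaceBC84`) for the modular function fields: `K` and `F(N)_{k0}` are linearly
disjoint over `k0` inside `K((q))` (coefficientwise).  Names are prefixed `ldj56_`.

* `ldj56_core` : the statement on Laurent series.
* `ldj56_hld` : literal shape of the hypothesis `hld` for any `ι` which is `coeffMap φ` on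
  underlying series; `ldj56_hld_iota` for `ld80_iota φ N`; `ldj56_hld_dataBar` for the datum
  `ld80_dataBar φ N` (`k0 = ℚ̄`).
* `ldj56_linDisj`, `ldj56_linDisj_dataBar` : the same in the shape `pb84_LinDisj`.
-/

set_option autoImplicit false

namespace Fermat.Agent.S42

open ModularCurve AlgebraicCurve IntermediateField

section ldj56

variable {k0 K : Type*} [Field k0] [Field K] (φ : k0 →+* K)

/-- **Linear disjointness of `K` and `k0((q))` over `k0`.** -/
theorem ldj56_core (m : ℕ) (c : Fin m → K) (g : Fin m → LaurentSeries k0)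
    (hc : ∀ a : Fin m → k0, ∑ i, φ (a i) * c i = 0 → ∀ i, a i = 0)
    (h : ∑ i, HahnSeries.single 0 (c i) * coeffMap φ (g i) = (0 : LaurentSeries K)) :
    ∀ i, g i = 0 := by
  have hcoeff : ∀ n : ℤ, ∀ i, (g i).coeff n = 0 := by
    intro n
    apply hc (fun i => (g i).coeff n)
    have h1 := congrArg (fun s : LaurentSeries K => s.coeff n) h
    simp only [HahnSeries.coeff_sum, HahnSeries.coeff_single_zero_mul, coeffMap_coeff,
      HahnSeries.coeff_zero] at h1
    rw [← h1]
    exact Finset.sum_congr rfl (fun i _ => mul_comm _ _)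
  intro i
  ext n
  exact hcoeff n i

variable (N : ℕ)
  (ι : ↥(modularFunctionFieldFullC k0 N) →+* ↥(modularFunctionFieldFullC K N))
  (hι : ∀ g : ↥(modularFunctionFieldFullC k0 N),
    ((ι g : ↥(modularFunctionFieldFullC K N)) : LaurentSeries K) =
      coeffMap φ (g : LaurentSeries k0))

include hι in
/-- The hypothesis `hld` of T2 for any base change `ι` which is `coeffMap φ` on series. -/
theorem ldj56_hld (m : ℕ) (c : Fin m → K) (g : Fin m → ↥(modularFunctionFieldFullC k0 N))
    (hc : ∀ a : Fin m → k0, ∑ i, φ (a i) * c i = 0 → ∀ i, a i = 0)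
    (h : ∑ i, algebraMap K ↥(modularFunctionFieldFullC K N) (c i) * ι (g i) = 0) :
    ∀ i, g i = 0 := by
  have h1 : ∑ i, HahnSeries.single 0 (c i) * coeffMap φ ((g i : LaurentSeries k0)) =
      (0 : LaurentSeries K) := by
    have h2 := congrArg (fun z : ↥(modularFunctionFieldFullC K N) => (z : LaurentSeries K)) h
    simp only [AddSubmonoidClass.coe_finsetSum, MulMemClass.coe_mul, ZeroMemClass.coe_zero,
      hι] at h2
    rw [← h2]
    refine Finset.sum_congr rfl (fun i _ => ?_)
    rw [← algebraMap_laurentSeries_eq_single]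
    rfl
  intro i
  exact Subtype.ext (ldj56_core φ m c (fun i => (g i : LaurentSeries k0)) hc h1 i)

/-- `hld` for `ld80_iota`. -/
theorem ldj56_hld_iota (m : ℕ) (c : Fin m → K) (g : Fin m → ↥(modularFunctionFieldFullC k0 N))
    (hc : ∀ a : Fin m → k0, ∑ i, φ (a i) * c i = 0 → ∀ i, a i = 0)
    (h : ∑ i, algebraMap K ↥(modularFunctionFieldFullC K N) (c i) * ld80_iota φ N (g i) = 0) :
    ∀ i, g i = 0 :=
  ldj56_hld φ N (ld80_iota φ N) (ld80_iota_coe φ N) m c g hc h

include hι in
/-- Linear disjointness in the shape `pb84_LinDisj`. -/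
theorem ldj56_linDisj : pb84_LinDisj φ ι :=
  fun n b w hb h => ldj56_hld φ N ι hι n b w hb h

end ldj56

section ldj56_bar

variable {K : Type*} [Field K] [CharZero K] (φ : AlgebraicClosure ℚ →+* K) (N : ℕ)

/-- **`hld` for the datum `ld80_dataBar φ N`**, literally the hypothesis of `pe99_place_ext`,
`pe99_place_ext_core` and `pe99_dvd_descend`. -/
theorem ldj56_hld_dataBar :
    ∀ (m : ℕ) (c : Fin m → K)
      (g : Fin m → ↥(modularFunctionFieldFullC (AlgebraicClosure ℚ) N)),
      (∀ a : Fin m → AlgebraicClosure ℚ,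
        ∑ i, (ld80_dataBar φ N).φ (a i) * c i = 0 → ∀ i, a i = 0) →
      ∑ i, algebraMap K ↥(modularFunctionFieldFullC K N) (c i) * (ld80_dataBar φ N).ι (g i) = 0 →
      ∀ i, g i = 0 :=
  fun m c g hc h => ldj56_hld_iota φ N m c g hc h

/-- **Linear disjointness for the datum `ld80_dataBar φ N`** in the shape `pb84_LinDisj`. -/
theorem ldj56_linDisj_dataBar :
    pb84_LinDisj (ld80_dataBar φ N).φ (ld80_dataBar φ N).ι :=
  ldj56_linDisj φ N (ld80_iota φ N) (ld80_iota_coe φ N)

end ldj56_bar

end Fermat.Agent.S42
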