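import Fermat.Agent.S24.PlacesBasicCore

/-!
S42 / descent row D3 (helper29): local rings of a function field `F/K` at a place `P`,
described by a "chart" `(R, t)`, and the local estimate for derivations.

* `ld29_Chart P R t`: `R` is a `K`-subalgebra of `F` inside the valuation ring of `P`, with
  fraction field `F`, `t ∈ R` has positive order and every element of `R` is congruent to a
  constant modulo `t` in the localisation of `R` at `P`.
* `ld29_core`: then `P.ord t = 1`.
* `ld29_core_deriv`: if moreover a derivation `D` preserves `R`, then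
  `D f / f - ord_P(f) • (D t / t)` is regular at `P` for every `f ≠ 0`.
-/

set_option autoImplicit false

open AlgebraicCurve

namespace Fermat.Agent.S42

open Fermat.Agent.S24

section Basic

variable {K F : Type*} [Field K] [Field F] [Algebra K F]

theorem ld29_ord_nonneg (P : Place K F) {f : F} (hf : f ∈ P.toValuationSubring) : 0 ≤ P.ord f :=
  (wp1_mem_iff_ord_nonneg P f).mp hf

theorem ld29_mem_of_ord_nonneg (P : Place K F) {f : F} (hf : 0 ≤ P.ord f) :
    f ∈ P.toValuationSubring :=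
  (wp1_mem_iff_ord_nonneg P f).mpr hf

theorem ld29_ord_neg (P : Place K F) (f : F) : P.ord (-f) = P.ord f := by
  rcases eq_or_ne f 0 with rfl | hf
  · simp
  have h1 : (-1 : F) ≠ 0 := by simp
  have h2 : P.ord (-1 : F) = 0 := by
    have h := wp1_ord_algebraMap P (-1 : K)
    simpa using h
  have : -f = (-1 : F) * f := by ring
  rw [this, P.ord_mul h1 hf, h2, zero_add]

/-- sum of two elements of positive order has positive order (or is zero). -/
theorem ld29_ord_add_pos (P : Place K F) {f g : F} (hf : 0 < P.ord f) (hg : 0 < P.ord g)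
    (hfg : f + g ≠ 0) : 0 < P.ord (f + g) := by
  have hf0 : f ≠ 0 := by rintro rfl; simp at hf
  have hg0 : g ≠ 0 := by rintro rfl; simp at hg
  have := wp1_ord_add P f g hfg hf0 hg0
  exact lt_of_lt_of_le (lt_min hf hg) this

/-- unit plus element of positive order is a unit. -/
theorem ld29_ord_add_eq_zero (P : Place K F) {f g : F} (hf0 : f ≠ 0) (hf : P.ord f = 0)
    (hg : 0 < P.ord g) : f + g ≠ 0 ∧ P.ord (f + g) = 0 := by
  have hg0 : g ≠ 0 := by rintro rfl; simp at hg
  have hne : f + g ≠ 0 := by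
    intro h
    have : f = -g := by linear_combination h
    rw [this, ld29_ord_neg] at hf
    omega
  refine ⟨hne, ?_⟩
  have h1 := wp1_ord_add P f g hne hf0 hg0
  rw [hf] at h1
  have h1' : 0 ≤ P.ord (f + g) := by
    have : min 0 (P.ord g) = 0 := min_eq_left hg.le
    rw [this] at h1; exact h1
  by_contra hcon
  have hpos : 0 < P.ord (f + g) := lt_of_le_of_ne h1' (Ne.symm hcon)
  -- then f = (f+g) + (-g) has positive order
  have hng : 0 < P.ord (-g) := by rw [ld29_ord_neg]; exact hg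
  have hsum : f + g + -g ≠ 0 := by simpa using hf0
  have := ld29_ord_add_pos P hpos hng hsum
  simp only [add_neg_cancel_right] at this
  omega

theorem ld29_ord_div (P : Place K F) {f g : F} (hf : f ≠ 0) (hg : g ≠ 0) :
    P.ord (f / g) = P.ord f - P.ord g := by
  rw [div_eq_mul_inv, P.ord_mul hf (inv_ne_zero hg), P.ord_inv]; ring

theorem ld29_ord_pow (P : Place K F) (f : F) (n : ℕ) : P.ord (f ^ n) = n * P.ord f := by
  have := P.ord_zpow f (n : ℤ)
  simpa using this

/-- existence of an element of order one. -/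
theorem ld29_exists_ord_one (P : Place K F) : ∃ π : F, π ≠ 0 ∧ P.ord π = 1 := by
  obtain ⟨π, hπ⟩ := IsDiscreteValuationRing.exists_irreducible P.toValuationSubring
  refine ⟨(π : F), ?_, P.ord_coe_irreducible hπ⟩
  simpa [ne_eq, ZeroMemClass.coe_eq_zero] using hπ.ne_zero

/-- the valuation ring of a place as a `K`-subalgebra. -/
def ld29_O (P : Place K F) : Subalgebra K F :=
  { P.toValuationSubring.toSubring with
    algebraMap_mem' := P.algebraMap_mem' }

theorem ld29_mem_O (P : Place K F) (f : F) : f ∈ ld29_O P ↔ f ∈ P.toValuationSubring := Iff.rfl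

theorem ld29_mem_O_iff (P : Place K F) (f : F) : f ∈ ld29_O P ↔ 0 ≤ P.ord f :=
  wp1_mem_iff_ord_nonneg P f

end Basic

section Core

variable {K F : Type*} [Field K] [Field F] [Algebra K F]

/-- A chart of the place `P`: a subalgebra `R` of the valuation ring with fraction field `F`
and an element `t ∈ R` of positive order such that `R ⊆ K + t R_loc`. -/
structure ld29_Chart (P : Place K F) (R : Subalgebra K F) (t : F) : Prop where
  le : ∀ r ∈ R, r ∈ P.toValuationSubring
  frac : ∀ f : F, ∃ r ∈ R, ∃ s ∈ R, s ≠ 0 ∧ f * s = r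
  t_mem : t ∈ R
  t_pos : 0 < P.ord t
  res : ∀ r ∈ R, ∃ a : K, ∃ w ∈ R, ∃ s ∈ R, s ≠ 0 ∧ P.ord s = 0 ∧
    (r - algebraMap K F a) * s = t * w

variable {P : Place K F} {R : Subalgebra K F} {t : F}

theorem ld29_Chart.t_ne_zero (h : ld29_Chart P R t) : t ≠ 0 := by
  rintro rfl
  have := h.t_pos
  simp at this

/-- every nonzero element of `R` is `t^m * unit / unit`. -/
theorem ld29_Chart.normal_form_R (h : ld29_Chart P R t) :
    ∀ n : ℕ, ∀ r ∈ R, r ≠ 0 → P.ord r ≤ n →
      ∃ m : ℕ, ∃ r' ∈ R, ∃ s ∈ R, r' ≠ 0 ∧ P.ord r' = 0 ∧ s ≠ 0 ∧ P.ord s = 0 ∧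
        r * s = t ^ m * r' := by
  intro n
  induction n with
  | zero =>
    intro r hr hr0 hle
    have h0 : P.ord r = 0 := le_antisymm (by exact_mod_cast hle) (ld29_ord_nonneg P (h.le r hr))
    exact ⟨0, r, hr, 1, R.one_mem, hr0, h0, one_ne_zero, P.ord_one, by simp⟩
  | succ n ih =>
    intro r hr hr0 hle
    obtain ⟨a, w, hw, s, hs, hs0, hsord, heq⟩ := h.res r hr
    have ht0 := h.t_ne_zero
    by_cases ha : a = 0
    · -- r * s = t * w
      subst ha
      rw [map_zero, sub_zero] at heq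
      have hw0 : w ≠ 0 := by
        rintro rfl
        rw [mul_zero] at heq
        exact (mul_ne_zero hr0 hs0) heq
      have hordw : P.ord w ≤ n := by
        have h1 : P.ord (r * s) = P.ord (t * w) := by rw [heq]
        rw [P.ord_mul hr0 hs0, P.ord_mul ht0 hw0, hsord] at h1
        have := h.t_pos
        push_cast at hle
        omega
      obtain ⟨m, w', hw', s₁, hs₁, hw'0, hw'ord, hs₁0, hs₁ord, heq₁⟩ := ih w hw hw0 hordw
      refine ⟨m + 1, w', hw', s * s₁, R.mul_mem hs hs₁, hw'0, hw'ord, mul_ne_zero hs0 hs₁0, ?_, ?_⟩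
      · rw [P.ord_mul hs0 hs₁0, hsord, hs₁ord, add_zero]
      · calc r * (s * s₁) = (r * s) * s₁ := by ring
          _ = t * (w * s₁) := by rw [heq]; ring
          _ = t ^ (m + 1) * w' := by rw [heq₁]; ring
    · -- r is a unit at P
      have ha0 : algebraMap K F a ≠ 0 := by
        simpa using ha
      have haord : P.ord (algebraMap K F a) = 0 := wp1_ord_algebraMap P a
      have h0 : P.ord r = 0 := by
        by_cases hw0 : w = 0
        · subst hw0
          rw [mul_zero] at heq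
          have : r - algebraMap K F a = 0 := by
            rcases mul_eq_zero.mp heq with h1 | h1
            · exact h1
            · exact absurd h1 hs0
          have hra : r = algebraMap K F a := by linear_combination this
          rw [hra]; exact haord
        · have hd : r - algebraMap K F a = t * w / s := by
            field_simp
            exact heq
          have hdord : 0 < P.ord (r - algebraMap K F a) := by
            rw [hd, ld29_ord_div P (mul_ne_zero ht0 hw0) hs0, P.ord_mul ht0 hw0, hsord]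
            have := h.t_pos
            have := ld29_ord_nonneg P (h.le w hw)
            omega
          have := (ld29_ord_add_eq_zero P ha0 haord hdord).2
          have hra : algebraMap K F a + (r - algebraMap K F a) = r := by ring
          rw [hra] at this
          exact this
      exact ⟨0, r, hr, 1, R.one_mem, hr0, h0, one_ne_zero, P.ord_one, by simp⟩

/-- normal form of an arbitrary nonzero element of `F`. -/
theorem ld29_Chart.normal_form (h : ld29_Chart P R t) (f : F) (hf : f ≠ 0) :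
    ∃ k : ℤ, ∃ r ∈ R, ∃ s ∈ R, r ≠ 0 ∧ P.ord r = 0 ∧ s ≠ 0 ∧ P.ord s = 0 ∧
      f * s = t ^ k * r := by
  obtain ⟨r, hr, s, hs, hs0, heq⟩ := h.frac f
  have hr0 : r ≠ 0 := by rw [← heq]; exact mul_ne_zero hf hs0
  have ht0 := h.t_ne_zero
  obtain ⟨m₁, r', hr', s₁, hs₁, hr'0, hr'ord, hs₁0, hs₁ord, heq₁⟩ :=
    h.normal_form_R (P.ord r).toNat r hr hr0 (Int.self_le_toNat _)
  obtain ⟨m₂, s', hs', s₂, hs₂, hs'0, hs'ord, hs₂0, hs₂ord, heq₂⟩ :=
    h.normal_form_R (P.ord s).toNat s hs hs0 (Int.self_le_toNat _)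
  refine ⟨(m₁ : ℤ) - m₂, r' * s₂, R.mul_mem hr' hs₂, s' * s₁, R.mul_mem hs' hs₁,
    mul_ne_zero hr'0 hs₂0, ?_, mul_ne_zero hs'0 hs₁0, ?_, ?_⟩
  · rw [P.ord_mul hr'0 hs₂0, hr'ord, hs₂ord, add_zero]
  · rw [P.ord_mul hs'0 hs₁0, hs'ord, hs₁ord, add_zero]
  · have htm : (t : F) ^ m₂ ≠ 0 := pow_ne_zero _ ht0
    rw [zpow_sub₀ ht0, zpow_natCast, zpow_natCast]
    field_simp
    -- goal: f * s' * s₁ * t^m₂ = t^m₁ * r' * s₂  (up to arrangement)
    have e1 : f * (s * s₂) * s₁ = (r * s₁) * s₂ := by rw [← heq]; ring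
    rw [heq₂, heq₁] at e1
    linear_combination e1

theorem ld29_core (h : ld29_Chart P R t) : P.ord t = 1 := by
  obtain ⟨π, hπ0, hπ⟩ := ld29_exists_ord_one P
  obtain ⟨k, r, hr, s, hs, hr0, hrord, hs0, hsord, heq⟩ := h.normal_form π hπ0
  have ht0 := h.t_ne_zero
  have h1 : P.ord (π * s) = P.ord (t ^ k * r) := by rw [heq]
  rw [P.ord_mul hπ0 hs0, P.ord_mul (zpow_ne_zero k ht0) hr0, P.ord_zpow, hπ, hsord, hrord] at h1
  have htpos := h.t_pos
  -- 1 = k * ord t, ord t > 0
  have h2 : k * P.ord t = 1 := by omega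
  have h3 : P.ord t ∣ 1 := Dvd.intro_left k h2
  exact Int.eq_one_of_dvd_one htpos.le h3

/-- normal form with the exponent identified. -/
theorem ld29_Chart.normal_form' (h : ld29_Chart P R t) (f : F) (hf : f ≠ 0) :
    ∃ r ∈ R, ∃ s ∈ R, r ≠ 0 ∧ P.ord r = 0 ∧ s ≠ 0 ∧ P.ord s = 0 ∧
      f * s = t ^ (P.ord f) * r := by
  obtain ⟨k, r, hr, s, hs, hr0, hrord, hs0, hsord, heq⟩ := h.normal_form f hf
  have ht0 := h.t_ne_zero
  have h1 : P.ord (f * s) = P.ord (t ^ k * r) := by rw [heq]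
  rw [P.ord_mul hf hs0, P.ord_mul (zpow_ne_zero k ht0) hr0, P.ord_zpow, ld29_core h, hsord,
    hrord] at h1
  have hk : k = P.ord f := by omega
  subst hk
  exact ⟨r, hr, s, hs, hr0, hrord, hs0, hsord, heq⟩

end Core

section Deriv

variable {K F : Type*} [Field K] [Field F] [Algebra K F]
variable {A : Type*} [CommRing A] [Algebra A F]

theorem ld29_logDeriv_mul (D : Derivation A F F) {f g : F} (hf : f ≠ 0) (hg : g ≠ 0) :
    D (f * g) / (f * g) = D f / f + D g / g := by
  rw [D.leibniz]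
  simp only [smul_eq_mul]
  field_simp
  ring

theorem ld29_logDeriv_zpow (D : Derivation A F F) {f : F} (hf : f ≠ 0) (n : ℤ) :
    D (f ^ n) / f ^ n = n • (D f / f) := by
  rw [Derivation.leibniz_zpow]
  simp only [smul_eq_mul, zsmul_eq_mul]
  rw [zpow_sub_one₀ hf]
  have h1 : f ^ n ≠ 0 := zpow_ne_zero n hf
  field_simp

variable {P : Place K F} {R : Subalgebra K F} {t : F}

/-- **Local derivation estimate in a chart**: `D f / f - ord_P(f) • (D t / t)` is regular at `P`
for every `f ≠ 0`, if the derivation `D` preserves `R`. -/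
theorem ld29_core_deriv (h : ld29_Chart P R t) (D : Derivation A F F)
    (hDR : ∀ r ∈ R, D r ∈ R) (f : F) (hf : f ≠ 0) :
    D f / f - (P.ord f) • (D t / t) ∈ P.toValuationSubring := by
  obtain ⟨r, hr, s, hs, hr0, hrord, hs0, hsord, heq⟩ := h.normal_form' f hf
  have ht0 := h.t_ne_zero
  have hz : (t : F) ^ (P.ord f) ≠ 0 := zpow_ne_zero _ ht0
  have h1 : D (f * s) / (f * s) = D (t ^ (P.ord f) * r) / (t ^ (P.ord f) * r) := by rw [heq]
  rw [ld29_logDeriv_mul D hf hs0, ld29_logDeriv_mul D hz hr0, ld29_logDeriv_zpow D ht0] at h1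
  have h2 : D f / f - (P.ord f) • (D t / t) = D r / r - D s / s := by
    linear_combination h1
  rw [h2]
  have hDr : D r / r ∈ P.toValuationSubring := by
    apply ld29_mem_of_ord_nonneg
    by_cases h0 : D r = 0
    · simp [h0]
    · rw [ld29_ord_div P h0 hr0, hrord, sub_zero]
      exact ld29_ord_nonneg P (h.le _ (hDR r hr))
  have hDs : D s / s ∈ P.toValuationSubring := by
    apply ld29_mem_of_ord_nonneg
    by_cases h0 : D s = 0
    · simp [h0]
    · rw [ld29_ord_div P h0 hs0, hsord, sub_zero]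
      exact ld29_ord_nonneg P (h.le _ (hDR s hs))
  exact P.toValuationSubring.sub_mem hDr hDs

/-- a derivation which kills a generating set `S` and maps `K` into `K` preserves
`Algebra.adjoin K S`. -/
theorem ld29_deriv_adjoin (D : Derivation A F F) (S : Set F) (hS : ∀ g ∈ S, D g = 0)
    (hDK : ∀ a : K, ∃ b : K, D (algebraMap K F a) = algebraMap K F b) :
    ∀ r ∈ Algebra.adjoin K S, D r ∈ Algebra.adjoin K S := by
  intro r hr
  induction hr using Algebra.adjoin_induction with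
  | mem x hx => rw [hS x hx]; exact zero_mem _
  | algebraMap a =>
    obtain ⟨b, hb⟩ := hDK a
    rw [hb]; exact Subalgebra.algebraMap_mem _ b
  | add x y hx hy ihx ihy => rw [map_add]; exact add_mem ihx ihy
  | mul x y hx hy ihx ihy =>
    rw [D.leibniz]
    simp only [smul_eq_mul]
    exact add_mem (mul_mem hx ihy) (mul_mem hy ihx)

end Deriv

section Rational

variable {K F : Type*} [Field K] [Field F] [Algebra K F]

/-- clearing denominators: every element of `K[F0]` times a power of `π` lies in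
`K[F0 ∩ O_P]`. -/
theorem ld29_clear (P : Place K F) (F0 : Subfield F) (π : F) (hπ : π ∈ F0)
    (hπpos : 0 < P.ord π) :
    ∀ r ∈ Algebra.adjoin K (F0 : Set F), ∃ m : ℕ,
      r * π ^ m ∈ Algebra.adjoin K {g : F | g ∈ F0 ∧ g ∈ P.toValuationSubring} := by
  have hπ0 : π ≠ 0 := by rintro rfl; simp at hπpos
  have hπR : π ∈ Algebra.adjoin K {g : F | g ∈ F0 ∧ g ∈ P.toValuationSubring} :=
    Algebra.subset_adjoin ⟨hπ, ld29_mem_of_ord_nonneg P hπpos.le⟩
  intro r hr
  induction hr using Algebra.adjoin_induction with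
  | mem g hg =>
    rcases eq_or_ne g 0 with rfl | hg0
    · exact ⟨0, by simp⟩
    refine ⟨(-P.ord g).toNat, Algebra.subset_adjoin ⟨?_, ?_⟩⟩
    · exact F0.mul_mem hg (F0.pow_mem hπ _)
    · apply ld29_mem_of_ord_nonneg
      rw [P.ord_mul hg0 (pow_ne_zero _ hπ0), ld29_ord_pow]
      have h1 : (-P.ord g) ≤ ((-P.ord g).toNat : ℤ) := Int.self_le_toNat _
      have h2 : (0 : ℤ) ≤ ((-P.ord g).toNat : ℤ) := Int.natCast_nonneg _
      nlinarith
  | algebraMap a => exact ⟨0, by simpa using Subalgebra.algebraMap_mem _ a⟩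
  | add x y hx hy ihx ihy =>
    obtain ⟨m₁, h₁⟩ := ihx
    obtain ⟨m₂, h₂⟩ := ihy
    refine ⟨m₁ + m₂, ?_⟩
    have : (x + y) * π ^ (m₁ + m₂) = x * π ^ m₁ * π ^ m₂ + y * π ^ m₂ * π ^ m₁ := by ring
    rw [this]
    exact add_mem (mul_mem h₁ (pow_mem hπR _)) (mul_mem h₂ (pow_mem hπR _))
  | mul x y hx hy ihx ihy =>
    obtain ⟨m₁, h₁⟩ := ihx
    obtain ⟨m₂, h₂⟩ := ihy
    refine ⟨m₁ + m₂, ?_⟩
    have : (x * y) * π ^ (m₁ + m₂) = (x * π ^ m₁) * (y * π ^ m₂) := by ring
    rw [this]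
    exact mul_mem h₁ h₂

/-- the chart of a rational place: `R = K[F0 ∩ O_P]`, `t = π` an element of `F0` of minimal
positive order. -/
theorem ld29_rational_chart (P : Place K F) (F0 : Subfield F)
    (hgen : ∀ f : F, ∃ r ∈ Algebra.adjoin K (F0 : Set F),
      ∃ s ∈ Algebra.adjoin K (F0 : Set F), s ≠ 0 ∧ f * s = r)
    (hres0 : ∀ g ∈ F0, g ∈ P.toValuationSubring → ∃ c : K, algebraMap K F c ∈ F0 ∧
      (g = algebraMap K F c ∨ 0 < P.ord (g - algebraMap K F c)))
    (π : F) (hπ : π ∈ F0) (hπpos : 0 < P.ord π)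
    (hmin : ∀ g ∈ F0, 0 < P.ord g → P.ord π ≤ P.ord g) :
    ld29_Chart P (Algebra.adjoin K {g : F | g ∈ F0 ∧ g ∈ P.toValuationSubring}) π := by
  have hπ0 : π ≠ 0 := by rintro rfl; simp at hπpos
  have hπR : π ∈ Algebra.adjoin K {g : F | g ∈ F0 ∧ g ∈ P.toValuationSubring} :=
    Algebra.subset_adjoin ⟨hπ, ld29_mem_of_ord_nonneg P hπpos.le⟩
  refine ⟨?_, ?_, hπR, hπpos, ?_⟩
  · -- le
    intro r hr
    have hle : Algebra.adjoin K {g : F | g ∈ F0 ∧ g ∈ P.toValuationSubring} ≤ ld29_O P :=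
      Algebra.adjoin_le (fun g hg => hg.2)
    exact hle hr
  · -- frac
    intro f
    obtain ⟨r, hr, s, hs, hs0, heq⟩ := hgen f
    obtain ⟨m₁, h₁⟩ := ld29_clear P F0 π hπ hπpos r hr
    obtain ⟨m₂, h₂⟩ := ld29_clear P F0 π hπ hπpos s hs
    refine ⟨r * π ^ m₁ * π ^ m₂, mul_mem h₁ (pow_mem hπR _), s * π ^ m₂ * π ^ m₁,
      mul_mem h₂ (pow_mem hπR _), ?_, ?_⟩
    · exact mul_ne_zero (mul_ne_zero hs0 (pow_ne_zero _ hπ0)) (pow_ne_zero _ hπ0)
    · rw [← heq]; ring
  · -- res
    intro r hr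
    have key : ∃ a : K, ∃ w ∈ Algebra.adjoin K {g : F | g ∈ F0 ∧ g ∈ P.toValuationSubring},
        r - algebraMap K F a = π * w := by
      induction hr using Algebra.adjoin_induction with
      | mem g hg =>
        obtain ⟨c, hcF0, hc⟩ := hres0 g hg.1 hg.2
        rcases hc with hc | hc
        · exact ⟨c, 0, zero_mem _, by rw [hc]; simp⟩
        · have hd0 : g - algebraMap K F c ≠ 0 := by
            intro h0; rw [h0] at hc; simp at hc
          have hdF0 : g - algebraMap K F c ∈ F0 := F0.sub_mem hg.1 hcF0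
          have hle := hmin _ hdF0 hc
          refine ⟨c, (g - algebraMap K F c) / π, Algebra.subset_adjoin ⟨?_, ?_⟩, ?_⟩
          · exact F0.div_mem hdF0 hπ
          · apply ld29_mem_of_ord_nonneg
            rw [ld29_ord_div P hd0 hπ0]; omega
          · field_simp
      | algebraMap a => exact ⟨a, 0, zero_mem _, by simp⟩
      | add x y hx hy ihx ihy =>
        obtain ⟨a₁, w₁, hw₁, e₁⟩ := ihx
        obtain ⟨a₂, w₂, hw₂, e₂⟩ := ihy
        refine ⟨a₁ + a₂, w₁ + w₂, add_mem hw₁ hw₂, ?_⟩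
        rw [map_add]; linear_combination e₁ + e₂
      | mul x y hx hy ihx ihy =>
        obtain ⟨a₁, w₁, hw₁, e₁⟩ := ihx
        obtain ⟨a₂, w₂, hw₂, e₂⟩ := ihy
        refine ⟨a₁ * a₂, w₁ * y + algebraMap K F a₁ * w₂,
          add_mem (mul_mem hw₁ hy) (mul_mem (Subalgebra.algebraMap_mem _ a₁) hw₂), ?_⟩
        rw [map_mul]; linear_combination y * e₁ + algebraMap K F a₁ * e₂
    obtain ⟨a, w, hw, e⟩ := key
    exact ⟨a, w, hw, 1, one_mem _, one_ne_zero, P.ord_one, by rw [mul_one]; exact e⟩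

/-- existence of an element of `F0` of minimal positive order at a place which is nontrivial
on `F0`. -/
theorem ld29_exists_min (P : Place K F) (F0 : Subfield F)
    (hnt : ∃ g ∈ F0, g ≠ 0 ∧ P.ord g ≠ 0) :
    ∃ π ∈ F0, 0 < P.ord π ∧ ∀ g ∈ F0, 0 < P.ord g → P.ord π ≤ P.ord g := by
  classical
  have hex : ∃ n : ℕ, ∃ g ∈ F0, 0 < P.ord g ∧ P.ord g = n := by
    obtain ⟨g, hg, hg0, hgord⟩ := hnt
    rcases lt_or_gt_of_ne hgord with h | h
    · refine ⟨(P.ord g⁻¹).toNat, g⁻¹, F0.inv_mem hg, ?_, ?_⟩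
      · rw [P.ord_inv]; omega
      · rw [P.ord_inv]; omega
    · exact ⟨(P.ord g).toNat, g, hg, h, by omega⟩
  obtain ⟨π, hπ, hπpos, hπn⟩ := Nat.find_spec hex
  refine ⟨π, hπ, hπpos, fun g hg hgpos => ?_⟩
  by_contra hlt
  push Not at hlt
  have : (P.ord g).toNat < Nat.find hex := by omega
  exact Nat.find_min hex this ⟨g, hg, hgpos, by omega⟩

/-- **Rational places**: a place of `F` which is nontrivial on `F0` has a uniformiser in `F0`,
and `(K[F0 ∩ O_P], π)` is a chart. -/
theorem ld29_rational (P : Place K F) (F0 : Subfield F)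
    (hgen : ∀ f : F, ∃ r ∈ Algebra.adjoin K (F0 : Set F),
      ∃ s ∈ Algebra.adjoin K (F0 : Set F), s ≠ 0 ∧ f * s = r)
    (hres0 : ∀ g ∈ F0, g ∈ P.toValuationSubring → ∃ c : K, algebraMap K F c ∈ F0 ∧
      (g = algebraMap K F c ∨ 0 < P.ord (g - algebraMap K F c)))
    (hnt : ∃ g ∈ F0, g ≠ 0 ∧ P.ord g ≠ 0) :
    ∃ π ∈ F0, P.ord π = 1 ∧
      ld29_Chart P (Algebra.adjoin K {g : F | g ∈ F0 ∧ g ∈ P.toValuationSubring}) π := by
  obtain ⟨π, hπ, hπpos, hmin⟩ := ld29_exists_min P F0 hnt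
  have hch := ld29_rational_chart P F0 hgen hres0 π hπ hπpos hmin
  exact ⟨π, hπ, ld29_core hch, hch⟩

/-- **Rational places, derivation estimate**: a derivation `D` of `F` which kills `F0` and maps
`K` into `K` satisfies `ord_P (D f) ≥ ord_P f`, in the form `D f / f ∈ O_P`. -/
theorem ld29_rational_deriv {A : Type*} [CommRing A] [Algebra A F]
    (P : Place K F) (F0 : Subfield F)
    (hgen : ∀ f : F, ∃ r ∈ Algebra.adjoin K (F0 : Set F),
      ∃ s ∈ Algebra.adjoin K (F0 : Set F), s ≠ 0 ∧ f * s = r)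
    (hres0 : ∀ g ∈ F0, g ∈ P.toValuationSubring → ∃ c : K, algebraMap K F c ∈ F0 ∧
      (g = algebraMap K F c ∨ 0 < P.ord (g - algebraMap K F c)))
    (hnt : ∃ g ∈ F0, g ≠ 0 ∧ P.ord g ≠ 0)
    (D : Derivation A F F) (hD0 : ∀ g ∈ F0, D g = 0)
    (hDK : ∀ a : K, ∃ b : K, D (algebraMap K F a) = algebraMap K F b)
    (f : F) (hf : f ≠ 0) : D f / f ∈ P.toValuationSubring := by
  obtain ⟨π, hπ, -, hch⟩ := ld29_rational P F0 hgen hres0 hnt
  have hDR := ld29_deriv_adjoin (K := K) D {g : F | g ∈ F0 ∧ g ∈ P.toValuationSubring}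
    (fun g hg => hD0 g hg.1) hDK
  have := ld29_core_deriv hch D hDR f hf
  rwa [hD0 π hπ, zero_div, smul_zero, sub_zero] at this

/-- order form of `ld29_rational_deriv`. -/
theorem ld29_rational_ord_le {A : Type*} [CommRing A] [Algebra A F]
    (P : Place K F) (F0 : Subfield F)
    (hgen : ∀ f : F, ∃ r ∈ Algebra.adjoin K (F0 : Set F),
      ∃ s ∈ Algebra.adjoin K (F0 : Set F), s ≠ 0 ∧ f * s = r)
    (hres0 : ∀ g ∈ F0, g ∈ P.toValuationSubring → ∃ c : K, algebraMap K F c ∈ F0 ∧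
      (g = algebraMap K F c ∨ 0 < P.ord (g - algebraMap K F c)))
    (hnt : ∃ g ∈ F0, g ≠ 0 ∧ P.ord g ≠ 0)
    (D : Derivation A F F) (hD0 : ∀ g ∈ F0, D g = 0)
    (hDK : ∀ a : K, ∃ b : K, D (algebraMap K F a) = algebraMap K F b)
    (f : F) (hf : f ≠ 0) (hDf : D f ≠ 0) : P.ord f ≤ P.ord (D f) := by
  have h := ld29_ord_nonneg P (ld29_rational_deriv P F0 hgen hres0 hnt D hD0 hDK f hf)
  rw [ld29_ord_div P hDf hf] at h
  omega

end Rational

end Fermat.Agent.S42
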