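import Fermat.Agent.S42.LocalDer29

/-!
S42 / descent row D3 (helper29), part B: NON-RATIONAL places.

`F/K` a function field, `F0 ⊆ F` a subfield, `P` a place of `F/K` which is TRIVIAL on `F0`,
`x ∈ F0`, `a : K` the value of `x` at `P`.  If `F0` is separable algebraic over a subfield `E`
all of whose elements are congruent to constants modulo `t := x - a` in the localisation of
`K[F0]` at `P` (e.g. `E = k0(x)`), then `(K[F0], x - a)` is a chart of `P`: `x - a` is a
uniformiser and `D f / f + ord_P(f) • (D a / (x - a))` is regular at `P` for every derivation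
`D` of `F` killing `F0` and preserving `K`.
-/

set_option autoImplicit false

open AlgebraicCurve

namespace Fermat.Agent.S42

open Fermat.Agent.S24

section Loc

variable {K F : Type*} [Field K] [Field F] [Algebra K F]

/-- the localisation of the subalgebra `R` at the place `P` (fractions with denominators in
`R` which are units at `P`). -/
def ld29_loc (P : Place K F) (R : Subalgebra K F) : Subalgebra K F where
  carrier := {f | ∃ r ∈ R, ∃ s ∈ R, s ≠ 0 ∧ P.ord s = 0 ∧ f * s = r}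
  mul_mem' := by
    rintro f₁ f₂ ⟨r₁, hr₁, s₁, hs₁, hs₁0, hs₁o, e₁⟩ ⟨r₂, hr₂, s₂, hs₂, hs₂0, hs₂o, e₂⟩
    refine ⟨r₁ * r₂, R.mul_mem hr₁ hr₂, s₁ * s₂, R.mul_mem hs₁ hs₂, mul_ne_zero hs₁0 hs₂0, ?_, ?_⟩
    · rw [P.ord_mul hs₁0 hs₂0, hs₁o, hs₂o, add_zero]
    · rw [← e₁, ← e₂]; ring
  one_mem' := ⟨1, R.one_mem, 1, R.one_mem, one_ne_zero, P.ord_one, by simp⟩
  add_mem' := by
    rintro f₁ f₂ ⟨r₁, hr₁, s₁, hs₁, hs₁0, hs₁o, e₁⟩ ⟨r₂, hr₂, s₂, hs₂, hs₂0, hs₂o, e₂⟩
    refine ⟨r₁ * s₂ + r₂ * s₁, R.add_mem (R.mul_mem hr₁ hs₂) (R.mul_mem hr₂ hs₁), s₁ * s₂,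
      R.mul_mem hs₁ hs₂, mul_ne_zero hs₁0 hs₂0, ?_, ?_⟩
    · rw [P.ord_mul hs₁0 hs₂0, hs₁o, hs₂o, add_zero]
    · rw [← e₁, ← e₂]; ring
  zero_mem' := ⟨0, R.zero_mem, 1, R.one_mem, one_ne_zero, P.ord_one, by simp⟩
  algebraMap_mem' a :=
    ⟨algebraMap K F a, R.algebraMap_mem a, 1, R.one_mem, one_ne_zero, P.ord_one, by simp⟩

theorem ld29_mem_loc (P : Place K F) (R : Subalgebra K F) (f : F) :
    f ∈ ld29_loc P R ↔ ∃ r ∈ R, ∃ s ∈ R, s ≠ 0 ∧ P.ord s = 0 ∧ f * s = r := Iff.rfl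

theorem ld29_le_loc (P : Place K F) (R : Subalgebra K F) : R ≤ ld29_loc P R := fun r hr =>
  ⟨r, hr, 1, R.one_mem, one_ne_zero, P.ord_one, by simp⟩

theorem ld29_loc_le (P : Place K F) (R : Subalgebra K F)
    (hRO : ∀ r ∈ R, r ∈ P.toValuationSubring) :
    ∀ f ∈ ld29_loc P R, f ∈ P.toValuationSubring := by
  rintro f ⟨r, hr, s, hs, hs0, hso, e⟩
  rcases eq_or_ne f 0 with rfl | hf
  · exact zero_mem _
  apply ld29_mem_of_ord_nonneg
  have h1 : P.ord (f * s) = P.ord r := by rw [e]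
  rw [P.ord_mul hf hs0, hso, add_zero] at h1
  rw [h1]
  exact ld29_ord_nonneg P (hRO r hr)

theorem ld29_loc_inv (P : Place K F) (R : Subalgebra K F) {u : F} (hu : u ∈ ld29_loc P R)
    (hu0 : u ≠ 0) (huo : P.ord u = 0) : u⁻¹ ∈ ld29_loc P R := by
  obtain ⟨r, hr, s, hs, hs0, hso, e⟩ := hu
  have hr0 : r ≠ 0 := by rw [← e]; exact mul_ne_zero hu0 hs0
  refine ⟨s, hs, r, hr, hr0, ?_, ?_⟩
  · rw [← e, P.ord_mul hu0 hs0, huo, hso, add_zero]
  · rw [← e]; field_simp

/-- `K + t R_loc` as a subalgebra. -/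
def ld29_G (P : Place K F) (R : Subalgebra K F) (t : F) (ht : t ∈ R) : Subalgebra K F where
  carrier := {g | ∃ c : K, ∃ z ∈ ld29_loc P R, g - algebraMap K F c = t * z}
  mul_mem' := by
    rintro g₁ g₂ ⟨c₁, z₁, hz₁, e₁⟩ ⟨c₂, z₂, hz₂, e₂⟩
    have hg₂ : g₂ ∈ ld29_loc P R := by
      have : g₂ = algebraMap K F c₂ + t * z₂ := by linear_combination e₂
      rw [this]
      exact add_mem (Subalgebra.algebraMap_mem _ c₂) (mul_mem (ld29_le_loc P R ht) hz₂)
    refine ⟨c₁ * c₂, z₁ * g₂ + algebraMap K F c₁ * z₂,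
      add_mem (mul_mem hz₁ hg₂) (mul_mem (Subalgebra.algebraMap_mem _ c₁) hz₂), ?_⟩
    rw [map_mul]; linear_combination g₂ * e₁ + algebraMap K F c₁ * e₂
  one_mem' := ⟨1, 0, zero_mem _, by simp⟩
  add_mem' := by
    rintro g₁ g₂ ⟨c₁, z₁, hz₁, e₁⟩ ⟨c₂, z₂, hz₂, e₂⟩
    refine ⟨c₁ + c₂, z₁ + z₂, add_mem hz₁ hz₂, ?_⟩
    rw [map_add]; linear_combination e₁ + e₂
  zero_mem' := ⟨0, 0, zero_mem _, by simp⟩
  algebraMap_mem' a := ⟨a, 0, zero_mem _, by simp⟩

theorem ld29_mem_G (P : Place K F) (R : Subalgebra K F) (t : F) (ht : t ∈ R) (g : F) :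
    g ∈ ld29_G P R t ht ↔ ∃ c : K, ∃ z ∈ ld29_loc P R, g - algebraMap K F c = t * z := Iff.rfl

theorem ld29_G_le_loc (P : Place K F) (R : Subalgebra K F) (t : F) (ht : t ∈ R) :
    ld29_G P R t ht ≤ ld29_loc P R := by
  rintro g ⟨c, z, hz, e⟩
  have : g = algebraMap K F c + t * z := by linear_combination e
  rw [this]
  exact add_mem (Subalgebra.algebraMap_mem _ c) (mul_mem (ld29_le_loc P R ht) hz)

theorem ld29_G_inv (P : Place K F) (R : Subalgebra K F) (t : F) (ht : t ∈ R)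
    (hRO : ∀ r ∈ R, r ∈ P.toValuationSubring) (htpos : 0 < P.ord t)
    {g : F} (hg : g ∈ ld29_G P R t ht) (hg0 : g ≠ 0) (hgo : P.ord g = 0) :
    g⁻¹ ∈ ld29_G P R t ht := by
  have hgloc := ld29_G_le_loc P R t ht hg
  obtain ⟨c, z, hz, e⟩ := hg
  have ht0 : t ≠ 0 := by rintro rfl; simp at htpos
  have hc : c ≠ 0 := by
    rintro rfl
    rw [map_zero, sub_zero] at e
    have hz0 : z ≠ 0 := by rintro rfl; rw [mul_zero] at e; exact hg0 e
    have hzo := ld29_ord_nonneg P (ld29_loc_le P R hRO z hz)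
    rw [e, P.ord_mul ht0 hz0] at hgo
    omega
  have hc' : algebraMap K F c ≠ 0 := by simpa using hc
  have hginv := ld29_loc_inv P R hgloc hg0 hgo
  refine ⟨c⁻¹, -(z * g⁻¹ * algebraMap K F c⁻¹), neg_mem (mul_mem (mul_mem hz hginv)
    (Subalgebra.algebraMap_mem _ _)), ?_⟩
  rw [map_inv₀]
  field_simp
  linear_combination -e

end Loc

section NonRational

variable {K F : Type*} [Field K] [Field F] [Algebra K F]

/-- evaluation of a polynomial over a subfield `E` at a point of a subring `T ⊇ E` stays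
in `T`. -/
theorem ld29_eval₂_mem (E : Subfield F) (T : Subring F) (hET : ∀ q ∈ E, q ∈ T)
    (p : Polynomial E) {y : F} (hy : y ∈ T) : p.eval₂ E.subtype y ∈ T := by
  rw [Polynomial.eval₂_eq_sum_range]
  exact T.sum_mem fun i _ => T.mul_mem (hET _ (p.coeff i).2) (T.pow_mem hy i)

/-- **Key step**: a separable algebraic element over a subfield `E ⊆ K + t R_loc` lies in
`K + t R_loc`. -/
theorem ld29_sep_mem_G (P : Place K F) (F0 : Subfield F)
    (htriv : ∀ g ∈ F0, g ≠ 0 → P.ord g = 0)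
    (hresK : ∀ f ∈ P.toValuationSubring,
      ∃ c : K, f = algebraMap K F c ∨ 0 < P.ord (f - algebraMap K F c))
    (t : F) (ht : t ∈ Algebra.adjoin K (F0 : Set F)) (htpos : 0 < P.ord t)
    (E : Subfield F) (hEF0 : E ≤ F0)
    (hEG : ∀ q ∈ E, q ∈ ld29_G P (Algebra.adjoin K (F0 : Set F)) t ht)
    (g : F) (hg : g ∈ F0) (p : Polynomial E) (hp : p.eval₂ E.subtype g = 0)
    (hp' : p.derivative.eval₂ E.subtype g ≠ 0) :
    g ∈ ld29_G P (Algebra.adjoin K (F0 : Set F)) t ht := by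
  set R := Algebra.adjoin K (F0 : Set F) with hR
  have ht0 : t ≠ 0 := by rintro rfl; simp at htpos
  have hF0R : ∀ y ∈ F0, y ∈ R := fun y hy => Algebra.subset_adjoin hy
  have hF0O : ∀ y ∈ F0, y ∈ P.toValuationSubring := by
    intro y hy
    rcases eq_or_ne y 0 with rfl | hy0
    · exact zero_mem _
    · exact ld29_mem_of_ord_nonneg P (by rw [htriv y hy hy0])
  have hRO : ∀ r ∈ R, r ∈ P.toValuationSubring := by
    intro r hr
    have hle : R ≤ ld29_O P := Algebra.adjoin_le (fun y hy => hF0O y hy)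
    exact hle hr
  have hlocO := ld29_loc_le P R hRO
  obtain ⟨c, hc | hc⟩ := hresK g (hF0O g hg)
  · rw [hc]; exact Subalgebra.algebraMap_mem _ c
  -- main case: 0 < ord (g - c)
  have hgc0 : g - algebraMap K F c ≠ 0 := by intro h0; rw [h0] at hc; simp at hc
  have hcg0 : algebraMap K F c - g ≠ 0 := fun h0 => hgc0 (by linear_combination -h0)
  have hcgo : 0 < P.ord (algebraMap K F c - g) := by
    have : algebraMap K F c - g = -(g - algebraMap K F c) := by ring
    rw [this, ld29_ord_neg]; exact hc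
  -- polynomials over the localisation
  let S : Subring F := (ld29_loc P R).toSubring
  have hES : ∀ q : E, (E.subtype q) ∈ S := fun q =>
    ld29_le_loc P R (hF0R _ (hEF0 q.2))
  let φ : E →+* S := E.subtype.codRestrict S hES
  have hι : S.subtype.comp φ = E.subtype := rfl
  have hgS : g ∈ S := ld29_le_loc P R (hF0R g hg)
  have hcS : algebraMap K F c ∈ S := Subalgebra.algebraMap_mem (ld29_loc P R) c
  let g' : S := ⟨g, hgS⟩
  let c' : S := ⟨algebraMap K F c, hcS⟩
  have key : ∀ (q : Polynomial E) (y : S),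
      ((Polynomial.eval y (q.map φ) : S) : F) = q.eval₂ E.subtype (y : F) := by
    intro q y
    have h1 := Polynomial.eval₂_at_apply (p := q.map φ) S.subtype y
    rw [Polynomial.eval₂_map, hι] at h1
    exact h1.symm
  obtain ⟨k, hk⟩ := Polynomial.binomExpansion (p.map φ) g' (c' - g')
  have hk' := congrArg (fun y : S => (y : F)) hk
  simp only [add_sub_cancel] at hk'
  have hd : Polynomial.derivative (p.map φ) = (Polynomial.derivative p).map φ :=
    Polynomial.derivative_map p φ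
  rw [hd] at hk'
  simp only [Subring.coe_add, Subring.coe_mul, Subring.coe_pow] at hk'
  rw [key, key, key, hp, zero_add] at hk'
  -- hk' : p(c) = p'(g) * (c - g) + k * (c - g)^2
  set V : F := p.derivative.eval₂ E.subtype g + (k : F) * (algebraMap K F c - g) with hV
  have hpc : p.eval₂ E.subtype (algebraMap K F c) = (algebraMap K F c - g) * V := by
    have hcg' : ((c' - g' : S) : F) = algebraMap K F c - g := rfl
    have hc'' : ((c' : S) : F) = algebraMap K F c := rfl
    have hg'' : ((g' : S) : F) = g := rfl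
    rw [hcg', hc'', hg''] at hk'
    rw [hk', hV]; ring
  -- V is a unit of the localisation
  have hp'F0 : p.derivative.eval₂ E.subtype g ∈ F0 :=
    ld29_eval₂_mem E F0.toSubring (fun q hq => hEF0 hq) _ hg
  have hp'o : P.ord (p.derivative.eval₂ E.subtype g) = 0 := htriv _ hp'F0 hp'
  have hkO : (k : F) ∈ P.toValuationSubring := hlocO _ k.2
  have hV0 : V ≠ 0 ∧ P.ord V = 0 := by
    by_cases hk0 : (k : F) * (algebraMap K F c - g) = 0
    · rw [hV, hk0, add_zero]; exact ⟨hp', hp'o⟩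
    · have hkk : (k : F) ≠ 0 := fun h => hk0 (by rw [h, zero_mul])
      have : 0 < P.ord ((k : F) * (algebraMap K F c - g)) := by
        rw [P.ord_mul hkk hcg0]
        have := ld29_ord_nonneg P hkO
        omega
      exact ld29_ord_add_eq_zero P hp' hp'o this
  have hVloc : V ∈ ld29_loc P R := by
    rw [hV]
    refine add_mem ?_ (mul_mem k.2 (sub_mem hcS hgS))
    exact ld29_eval₂_mem E S (fun q hq => hES ⟨q, hq⟩) _ hgS
  have hVinv := ld29_loc_inv P R hVloc hV0.1 hV0.2
  -- p(c) lies in G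
  have hpcG : p.eval₂ E.subtype (algebraMap K F c) ∈ ld29_G P R t ht :=
    ld29_eval₂_mem E (ld29_G P R t ht).toSubring (fun q hq => hEG q hq) _
      (Subalgebra.algebraMap_mem _ c)
  obtain ⟨κ, z, hz, e⟩ := hpcG
  have hκ : κ = 0 := by
    by_contra hκ0
    have hκ' : algebraMap K F κ ≠ 0 := by simpa using hκ0
    have hκo : P.ord (algebraMap K F κ) = 0 := wp1_ord_algebraMap P κ
    have hpco : 0 < P.ord (p.eval₂ E.subtype (algebraMap K F c)) := by
      rw [hpc, P.ord_mul hcg0 hV0.1, hV0.2, add_zero]; exact hcgo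
    have hκeq : algebraMap K F κ = p.eval₂ E.subtype (algebraMap K F c) + -(t * z) := by
      linear_combination -e
    by_cases hz0 : z = 0
    · rw [hz0, mul_zero, neg_zero, add_zero] at hκeq
      rw [hκeq] at hκo; omega
    · have htz : 0 < P.ord (-(t * z)) := by
        rw [ld29_ord_neg, P.ord_mul ht0 hz0]
        have := ld29_ord_nonneg P (hlocO z hz)
        omega
      have := ld29_ord_add_pos P hpco htz (by rw [← hκeq]; exact hκ')
      rw [← hκeq] at this; omega
  subst hκ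
  rw [map_zero, sub_zero, hpc] at e
  -- (c - g) * V = t * z
  refine ⟨c, -(z * V⁻¹), neg_mem (mul_mem hz hVinv), ?_⟩
  have hV0' := hV0.1
  field_simp
  linear_combination -e

/-- the subfield generated by `x` and a field of constants `k0` lies in `K + t R_loc`,
`t = x - a`. -/
theorem ld29_closure_le_G (P : Place K F) (F0 : Subfield F)
    (htriv : ∀ g ∈ F0, g ≠ 0 → P.ord g = 0)
    (x : F) (hx : x ∈ F0) (a : K) (ha : 0 < P.ord (x - algebraMap K F a))
    (ht : x - algebraMap K F a ∈ Algebra.adjoin K (F0 : Set F))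
    (k0 : Subfield F) (hk0 : k0 ≤ F0) (hk0K : ∀ c ∈ k0, ∃ b : K, algebraMap K F b = c) :
    ∀ q ∈ Subfield.closure (insert x (k0 : Set F)),
      q ∈ ld29_G P (Algebra.adjoin K (F0 : Set F)) (x - algebraMap K F a) ht := by
  set R := Algebra.adjoin K (F0 : Set F) with hR
  have hF0O : ∀ y ∈ F0, y ∈ P.toValuationSubring := by
    intro y hy
    rcases eq_or_ne y 0 with rfl | hy0
    · exact zero_mem _
    · exact ld29_mem_of_ord_nonneg P (by rw [htriv y hy hy0])
  have hRO : ∀ r ∈ R, r ∈ P.toValuationSubring := by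
    intro r hr
    have hle : R ≤ ld29_O P := Algebra.adjoin_le (fun y hy => hF0O y hy)
    exact hle hr
  have hcl : Subfield.closure (insert x (k0 : Set F)) ≤ F0 := by
    rw [Subfield.closure_le]
    intro y hy
    rcases hy with rfl | hy
    · exact hx
    · exact hk0 hy
  intro q hq
  induction hq using Subfield.closure_induction with
  | mem y hy =>
    rcases hy with rfl | hy
    · exact ⟨a, 1, one_mem _, by ring⟩
    · obtain ⟨b, rfl⟩ := hk0K y hy
      exact Subalgebra.algebraMap_mem _ b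
  | one => exact one_mem _
  | add y z hy hz ihy ihz => exact add_mem ihy ihz
  | neg y hy ihy => exact neg_mem ihy
  | inv y hy ihy =>
    rcases eq_or_ne y 0 with rfl | hy0
    · rw [inv_zero]; exact zero_mem _
    · exact ld29_G_inv P R _ ht hRO ha ihy hy0 (htriv y (hcl hy) hy0)
  | mul y z hy hz ihy ihz => exact mul_mem ihy ihz

/-- **Chart of a non-rational place.** -/
theorem ld29_nonrational_chart (P : Place K F) (F0 : Subfield F)
    (hgen : ∀ f : F, ∃ r ∈ Algebra.adjoin K (F0 : Set F),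
      ∃ s ∈ Algebra.adjoin K (F0 : Set F), s ≠ 0 ∧ f * s = r)
    (htriv : ∀ g ∈ F0, g ≠ 0 → P.ord g = 0)
    (hresK : ∀ f ∈ P.toValuationSubring,
      ∃ c : K, f = algebraMap K F c ∨ 0 < P.ord (f - algebraMap K F c))
    (x : F) (hx : x ∈ F0) (a : K) (ha : 0 < P.ord (x - algebraMap K F a))
    (k0 : Subfield F) (hk0 : k0 ≤ F0) (hk0K : ∀ c ∈ k0, ∃ b : K, algebraMap K F b = c)
    (hsep : ∀ g ∈ F0, ∃ p : Polynomial (Subfield.closure (insert x (k0 : Set F))),
      p.eval₂ (Subfield.subtype _) g = 0 ∧ p.derivative.eval₂ (Subfield.subtype _) g ≠ 0) :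
    ld29_Chart P (Algebra.adjoin K (F0 : Set F)) (x - algebraMap K F a) := by
  set R := Algebra.adjoin K (F0 : Set F) with hR
  have ht : x - algebraMap K F a ∈ R :=
    sub_mem (Algebra.subset_adjoin hx) (Subalgebra.algebraMap_mem _ a)
  have hF0O : ∀ y ∈ F0, y ∈ P.toValuationSubring := by
    intro y hy
    rcases eq_or_ne y 0 with rfl | hy0
    · exact zero_mem _
    · exact ld29_mem_of_ord_nonneg P (by rw [htriv y hy hy0])
  have hRO : ∀ r ∈ R, r ∈ P.toValuationSubring := by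
    intro r hr
    have hle : R ≤ ld29_O P := Algebra.adjoin_le (fun y hy => hF0O y hy)
    exact hle hr
  have hcl : Subfield.closure (insert x (k0 : Set F)) ≤ F0 := by
    rw [Subfield.closure_le]
    intro y hy
    rcases hy with rfl | hy
    · exact hx
    · exact hk0 hy
  have hEG := ld29_closure_le_G P F0 htriv x hx a ha ht k0 hk0 hk0K
  have hF0G : ∀ g ∈ F0, g ∈ ld29_G P R (x - algebraMap K F a) ht := by
    intro g hg
    obtain ⟨p, hp, hp'⟩ := hsep g hg
    exact ld29_sep_mem_G P F0 htriv hresK _ ht ha _ hcl hEG g hg p hp hp'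
  have hRG : R ≤ ld29_G P R (x - algebraMap K F a) ht := Algebra.adjoin_le hF0G
  refine ⟨hRO, hgen, ht, ha, ?_⟩
  intro r hr
  obtain ⟨c, z, ⟨w, hw, s, hs, hs0, hso, e'⟩, e⟩ := hRG hr
  refine ⟨c, w, hw, s, hs, hs0, hso, ?_⟩
  rw [e, mul_assoc, e']

/-- **Non-rational places**: `x - a` is a uniformiser. -/
theorem ld29_nonrational (P : Place K F) (F0 : Subfield F)
    (hgen : ∀ f : F, ∃ r ∈ Algebra.adjoin K (F0 : Set F),
      ∃ s ∈ Algebra.adjoin K (F0 : Set F), s ≠ 0 ∧ f * s = r)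
    (htriv : ∀ g ∈ F0, g ≠ 0 → P.ord g = 0)
    (hresK : ∀ f ∈ P.toValuationSubring,
      ∃ c : K, f = algebraMap K F c ∨ 0 < P.ord (f - algebraMap K F c))
    (x : F) (hx : x ∈ F0) (a : K) (ha : 0 < P.ord (x - algebraMap K F a))
    (k0 : Subfield F) (hk0 : k0 ≤ F0) (hk0K : ∀ c ∈ k0, ∃ b : K, algebraMap K F b = c)
    (hsep : ∀ g ∈ F0, ∃ p : Polynomial (Subfield.closure (insert x (k0 : Set F))),
      p.eval₂ (Subfield.subtype _) g = 0 ∧ p.derivative.eval₂ (Subfield.subtype _) g ≠ 0) :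
    P.ord (x - algebraMap K F a) = 1 :=
  ld29_core (ld29_nonrational_chart P F0 hgen htriv hresK x hx a ha k0 hk0 hk0K hsep)

/-- **Non-rational places, derivation estimate**: for a derivation `D` of `F` which kills
`F0` and maps `K` into `K`, `D f / f + ord_P(f) • (D a / (x - a))` is regular at `P`. -/
theorem ld29_nonrational_deriv {A : Type*} [CommRing A] [Algebra A F]
    (P : Place K F) (F0 : Subfield F)
    (hgen : ∀ f : F, ∃ r ∈ Algebra.adjoin K (F0 : Set F),
      ∃ s ∈ Algebra.adjoin K (F0 : Set F), s ≠ 0 ∧ f * s = r)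
    (htriv : ∀ g ∈ F0, g ≠ 0 → P.ord g = 0)
    (hresK : ∀ f ∈ P.toValuationSubring,
      ∃ c : K, f = algebraMap K F c ∨ 0 < P.ord (f - algebraMap K F c))
    (x : F) (hx : x ∈ F0) (a : K) (ha : 0 < P.ord (x - algebraMap K F a))
    (k0 : Subfield F) (hk0 : k0 ≤ F0) (hk0K : ∀ c ∈ k0, ∃ b : K, algebraMap K F b = c)
    (hsep : ∀ g ∈ F0, ∃ p : Polynomial (Subfield.closure (insert x (k0 : Set F))),
      p.eval₂ (Subfield.subtype _) g = 0 ∧ p.derivative.eval₂ (Subfield.subtype _) g ≠ 0)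
    (D : Derivation A F F) (hD0 : ∀ g ∈ F0, D g = 0)
    (hDK : ∀ a : K, ∃ b : K, D (algebraMap K F a) = algebraMap K F b)
    (f : F) (hf : f ≠ 0) :
    D f / f + (P.ord f) • (D (algebraMap K F a) / (x - algebraMap K F a))
      ∈ P.toValuationSubring := by
  have hch := ld29_nonrational_chart P F0 hgen htriv hresK x hx a ha k0 hk0 hk0K hsep
  have hDR := ld29_deriv_adjoin (K := K) D (F0 : Set F) (fun g hg => hD0 g hg) hDK
  have := ld29_core_deriv hch D hDR f hf
  have e : D f / f - (P.ord f) • (D (x - algebraMap K F a) / (x - algebraMap K F a))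
      = D f / f + (P.ord f) • (D (algebraMap K F a) / (x - algebraMap K F a)) := by
    rw [map_sub, hD0 x hx, zero_sub, neg_div, smul_neg, sub_neg_eq_add]
  rwa [e] at this

end NonRational

end Fermat.Agent.S42
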