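/-
S42 / Project 4, row M12 (helper47): the `Θ`-side and the eigenclass for an ARBITRARY submodule
`P ≤ Hom(Γ₀(N), ZMod p)`, and its instance `P = Par'_N = m12p47_Par N p` (parabolic + killing the
elements of finite order), which is what S29 needs at `p = 2, 3`.

* `m12p47_I_Theta` : helper70's `th70_I_Theta` with `w1a28_Par N p` replaced by any `P` (same
  proof: `th70_exists_theta` + `th70_hecke_of` + `hd63_heckeOperatorBar_kummer`);
* `m12p47_W1_of_Theta` : (I-Theta) on `P` + (I-EIG) on `P` ⟹ (W1) (same conclusion as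
  `w1a28_main_eigenform` / `th70_W1`);
* `m12p47_eig` : (I-EIG) on any `P` containing the reductions of the integral parabolic
  homomorphisms, from helper54's `m9e54_eigenclass` (any prime `p`, any field `k0 ⊇ ZMod p`);
* `m12p47_W1_gen` : (W1) from the five plain hypotheses of `th70_W1` stated on `P`;
* `m12p47_W1` : **(W1) for every prime `p`** from `ev0`, `hfix`, `hK2`, `hHK` (literally helper70's
  hypotheses, stated for `w1a28_Par N p`) and `hex'` (admissible pairs for `χ ∈ Par'_N` only);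
* `m12p47_char_ell` : for `χ ∈ Par'_N` a function with character `ζ ^ χ` is invariant under the
  elliptic elements (`dg93_IsEll`) of `Γ₀(N)` — the hypothesis `hell` of `dg93_GX_div_ell`, for
  every `p`.
-/
import Mathlib
import Fermat.Agent.S42.ParEll47
import Fermat.Agent.S42.ThetaInst70
import Fermat.Agent.S42.EigenClass54
import Fermat.Agent.S42.DivGEll93

set_option autoImplicit false
set_option linter.unusedSectionVars false
set_option linter.unusedVariables false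
set_option linter.style.longLine false
set_option linter.style.haveILetI false

open CongruenceSubgroup ModularCurve ModularCurve.Period AlgebraicCurve UpperHalfPlane
open scoped TensorProduct MatrixGroups

namespace Fermat.Agent.S42

open Fermat.Agent.S16 Fermat.Agent.S24 Fermat.Agent.S37 Fermat.Agent.S18

section m12p47_generic

variable (N : ℕ) [NeZero N] (p : ℕ) [Fact p.Prime]
variable (P : Submodule (ZMod p) (Additive (Gamma0 N) →+ ZMod p))

/-- **(I-Theta) on an arbitrary submodule `P`** (helper70's `th70_I_Theta`, same proof). -/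
theorem m12p47_I_Theta
    (ev0 : ↥(modularFunctionFieldBar N) →+* mer95_MER)
    (hfix : ∀ (γ : ↥(Gamma0 N)) (f : ↥(modularFunctionFieldBar N)), γ • ev0 f = ev0 f)
    (hK2 : ∀ x : mer95_MER, x ≠ 0 → (∀ γ : ↥(Gamma0 N), γ • x = x) →
      ∀ f : ↥(modularFunctionFieldBar N), x ^ p = ev0 f →
        ∃ (w : ↥(modularFunctionFieldBar N)) (a : AlgebraicClosure ℚ),
          f = algebraMap (AlgebraicClosure ℚ) ↥(modularFunctionFieldBar N) a * w ^ p)
    (hex : ∀ χ ∈ P, ∃ (h : mer95_MER) (f : ↥(modularFunctionFieldBar N)),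
      th70_Adm (AlgebraicClosure ℚ) ev0 p (th70_zeta p) χ h f)
    (hpar : ∀ ℓ : Nat.Primes, ¬ (ℓ : ℕ) ∣ N * p → ∀ χ ∈ P, heckeHom N ℓ (ZMod p) χ ∈ P)
    (hHK : ∀ (ℓ : ℕ) [NeZero ℓ], ℓ.Prime → ¬ ℓ ∣ N * p → ∀ χ ∈ P,
      ∀ (h : mer95_MER) (f : ↥(modularFunctionFieldBar N)), h ≠ 0 → f ≠ 0 →
        th70_IsChar p (th70_zeta p) χ h → h ^ p = ev0 f →
          ∃ h' : mer95_MER, h' ≠ 0 ∧ th70_IsChar p (th70_zeta p) (heckeHom N ℓ (ZMod p) χ) h' ∧
            h' ^ p = ev0 (hd63_heckeNorm N ℓ f)) :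
    ∃ Θ : P →+ JZero N, Function.Injective Θ ∧ (∀ χ, (p : ℤ) • Θ χ = 0) ∧
      ∀ ℓ : Nat.Primes, ¬ (ℓ : ℕ) ∣ N * p → ∀ χ : P,
        ∃ hχ : heckeHom N ℓ (ZMod p) χ ∈ P,
          heckeOperatorBar N ℓ (Θ χ) = Θ ⟨heckeHom N ℓ (ZMod p) χ, hχ⟩ := by
  have hp : p ≠ 0 := (Fact.out : p.Prime).ne_zero
  haveI := hi63_hasPrincipalDivisors_bar N
  have hroot : ∀ a : AlgebraicClosure ℚ, ∃ b : AlgebraicClosure ℚ, b ^ p = a :=
    fun a => IsAlgClosed.exists_pow_nat_eq a (Nat.pos_of_ne_zero hp)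
  have hex' : ∀ χ ∈ P.toAddSubgroup,
      ∃ (h : mer95_MER) (f : ↥(modularFunctionFieldBar N)),
        th70_Adm (AlgebraicClosure ℚ) ev0 p (th70_zeta p) χ h f := hex
  obtain ⟨Θ, hΘ, htors, heval⟩ := th70_exists_theta (K := AlgebraicClosure ℚ) ev0 p (th70_zeta p)
    (th70_zeta_isPrimitiveRoot p hp) (th70_zeta_fix N p) hfix hK2 (th70_const N) hroot
    P.toAddSubgroup hex'
  refine ⟨Θ, hΘ, htors, fun ℓ hℓ χ => ⟨hpar ℓ hℓ χ.1 χ.2, ?_⟩⟩
  refine th70_hecke_of (K := AlgebraicClosure ℚ) hex' Θ heval hp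
    (heckeOperatorBar N ℓ).toAddMonoidHom (fun χ => heckeHom N ℓ (ZMod p) χ) ?_ χ
    (hpar ℓ hℓ χ.1 χ.2)
  intro χ hχ h f H D hD
  obtain ⟨h0, f0, hchar, hpow, hdvd⟩ := H
  haveI : NeZero (ℓ : ℕ) := ⟨ℓ.2.ne_zero⟩
  obtain ⟨h', h'0, hchar', hpow'⟩ := hHK (ℓ : ℕ) ℓ.2 hℓ χ hχ h f h0 f0 hchar hpow
  obtain ⟨D', hTD, hD'⟩ := hd63_heckeOperatorBar_kummer (N := N) (ℓ := (ℓ : ℕ)) ℓ.2 (p : ℤ) D f f0 hD
  exact ⟨h', hd63_heckeNorm N ℓ f, D',
    ⟨h'0, hd63_heckeNorm_ne_zero N ℓ f0, hchar', hpow', fun v => ⟨_, (hD' v).symm⟩⟩, hD', hTD⟩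

variable {N p P}

/-- **(W1) from (I-Theta) on `P` and (I-EIG) on `P`.** -/
theorem m12p47_W1_of_Theta {k0 : Type*} [Field k0] [Algebra (ZMod p) k0]
    (Θ : P →+ JZero N) (hΘ : Function.Injective Θ) (htors : ∀ χ, (p : ℤ) • Θ χ = 0)
    (hhec : ∀ ℓ : Nat.Primes, ¬ (ℓ : ℕ) ∣ N * p → ∀ χ : P,
      ∃ hχ : heckeHom N ℓ (ZMod p) χ ∈ P,
        heckeOperatorBar N ℓ (Θ χ) = Θ ⟨heckeHom N ℓ (ZMod p) χ, hχ⟩)
    (f : CuspForm (Gamma0 N) 2) (φ : integralClosure ℤ ℂ →+* k0)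
    (heig : ∃ x : k0 ⊗[ZMod p] P, x ≠ 0 ∧
      ∀ ℓ : Nat.Primes, ¬ (ℓ : ℕ) ∣ N * p →
        ∃ a : integralClosure ℤ ℂ, (a : ℂ) = ModularFormClass.qCoeff (⇑f) ℓ ∧
          (w1a28_TX N p ℓ).baseChange k0 (P.subtype.baseChange k0 x)
            = φ a • P.subtype.baseChange k0 x) :
    ∃ y : k0 ⊗[ZMod p] w1a28_J N p, y ≠ 0 ∧
      ∀ ℓ : Nat.Primes, ¬ (ℓ : ℕ) ∣ N * p →
        ∃ a : integralClosure ℤ ℂ, (a : ℂ) = ModularFormClass.qCoeff (⇑f) ℓ ∧
          (w1a28_TJ N p ℓ).baseChange k0 y = φ a • y := by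
  obtain ⟨x, hx0, hx⟩ := heig
  -- `Θ` corestricted to the `p`-torsion
  let ΘJ : P →+ w1a28_J N p :=
    { toFun := fun χ => ⟨Θ χ, Pic0.mem_torsion.mpr (htors χ)⟩
      map_zero' := Subtype.ext (map_zero Θ)
      map_add' := fun χ χ' => Subtype.ext (map_add Θ χ χ') }
  have hΘJ : Function.Injective (ΘJ.toZModLinearMap p) := fun χ χ' h =>
    hΘ (congrArg (fun c : w1a28_J N p => (c : JZero N)) h)
  have key := w1t70_abs (k0 := k0) (ΘJ.toZModLinearMap p) hΘJ P.subtype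
    (Submodule.subtype_injective _) x hx0
  refine ⟨_, key.1, fun ℓ hℓ => ?_⟩
  obtain ⟨a, ha, hax⟩ := hx ℓ hℓ
  have hpar : ∀ χ : P, (w1a28_TX N p ℓ).comp P.subtype χ ∈ P := fun χ => (hhec ℓ hℓ χ).1
  refine ⟨a, ha, key.2 (w1a28_TJ N p ℓ) (w1a28_TX N p ℓ)
    (((w1a28_TX N p ℓ).comp P.subtype).codRestrict P hpar) ?_ ?_ (φ a) hax⟩
  · exact LinearMap.ext fun χ => rfl
  · refine LinearMap.ext fun χ => Subtype.ext ?_
    exact (hhec ℓ hℓ χ).2

end m12p47_generic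

section m12p47_eig

/-- a linearly independent finite family in a vector space `V` over a field `F` stays
"independent with coefficients in `k0`" inside `k0 ⊗ V`. -/
theorem m12p47_tmul_indep {F : Type*} [Field F] {k0 : Type*} [Field k0] [Algebra F k0]
    {V : Type*} [AddCommGroup V] [Module F V] {n : ℕ} (v : Fin n → V)
    (hv : LinearIndependent F v) (c : Fin n → k0)
    (h : ∑ i, c i ⊗ₜ[F] v i = 0) : c = 0 := by
  classical
  have hker : LinearMap.ker (Fintype.linearCombination F v) = ⊥ := by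
    rw [LinearMap.ker_eq_bot']
    intro g hg
    rw [Fintype.linearCombination_apply] at hg
    exact funext (Fintype.linearIndependent_iff.mp hv g hg)
  obtain ⟨r, hr⟩ := LinearMap.exists_leftInverse_of_injective _ hker
  have hrv : ∀ i, r (v i) = Pi.single i 1 := by
    intro i
    have h1 := LinearMap.congr_fun hr (Pi.single i 1)
    rw [LinearMap.comp_apply, Fintype.linearCombination_apply] at h1
    simpa [Pi.single_apply] using h1
  funext j
  have h2 := congrArg (fun t => TensorProduct.rid F k0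
    ((LinearMap.lTensor k0 ((LinearMap.proj j).comp r)) t)) h
  simp only [map_sum, LinearMap.lTensor_tmul, LinearMap.comp_apply, hrv, LinearMap.proj_apply,
    TensorProduct.rid_tmul, map_zero] at h2
  simpa [Pi.single_apply] using h2

variable (N : ℕ) [NeZero N] (p : ℕ) [Fact p.Prime]
variable (P : Submodule (ZMod p) (Additive (Gamma0 N) →+ ZMod p))

/-- reduction modulo `p` of an integral combination. -/
theorem m12p47_red_sum {n : ℕ} (r : Fin n → ℤ) (ψ : Fin n → Additive (Gamma0 N) →+ ℤ) :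
    (Int.castAddHom (ZMod p)).comp (∑ j, r j • ψ j) =
      ∑ j, (r j : ZMod p) • (Int.castAddHom (ZMod p)).comp (ψ j) := by
  refine AddMonoidHom.ext fun γ => ?_
  simp only [AddMonoidHom.comp_apply, AddMonoidHom.finsetSum_apply, AddMonoidHom.smul_apply,
    Int.coe_castAddHom, Int.cast_sum, smul_eq_mul, Int.cast_mul]

/-- **(I-EIG) on any submodule `P` containing the reductions of the integral parabolic
homomorphisms**, from `m9e54_eigenclass`. -/
theorem m12p47_eig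
    (hP : ∀ ψ : Additive (Gamma0 N) →+ ℤ, IsParabolicHom (Gamma0 N) ψ →
      (Int.castAddHom (ZMod p)).comp ψ ∈ P)
    {f : CuspForm (Gamma0 N) 2} (hf : f.IsNormalizedEigenform)
    {k0 : Type*} [Field k0] [Algebra (ZMod p) k0] (φ : integralClosure ℤ ℂ →+* k0) :
    ∃ x : k0 ⊗[ZMod p] P, x ≠ 0 ∧
      ∀ ℓ : Nat.Primes, ¬ (ℓ : ℕ) ∣ N * p →
        ∃ a : integralClosure ℤ ℂ, (a : ℂ) = ModularFormClass.qCoeff (⇑f) ℓ ∧
          (w1a28_TX N p ℓ).baseChange k0 (P.subtype.baseChange k0 x)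
            = φ a • P.subtype.baseChange k0 x := by
  classical
  haveI : CharP k0 p := charP_of_injective_algebraMap (algebraMap (ZMod p) k0).injective p
  obtain ⟨n, ψ, A, c, hψ, -, hind, hA, hc0, hc⟩ := m9e54_eigenclass N hf p φ
  let χ : Fin n → P := fun i => ⟨(Int.castAddHom (ZMod p)).comp (ψ i), hP _ (hψ i)⟩
  have hχ : LinearIndependent (ZMod p) χ := LinearIndependent.of_comp P.subtype hind
  refine ⟨∑ i, c i ⊗ₜ[ZMod p] χ i, fun h0 => hc0 (m12p47_tmul_indep χ hχ c h0), ?_⟩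
  intro ℓ hℓ
  have hℓN : ¬ (ℓ : ℕ) ∣ N := fun hd => hℓ (hd.mul_right p)
  obtain ⟨a, ha, hca⟩ := hc ℓ ℓ.2 hℓN
  refine ⟨a, ha, ?_⟩
  have hT : ∀ i, w1a28_TX N p ℓ ((χ i : P) : Additive (Gamma0 N) →+ ZMod p) =
      ∑ j, (A ℓ i j : ZMod p) • ((χ j : P) : Additive (Gamma0 N) →+ ZMod p) := by
    intro i
    rw [w1a28_TX_apply]
    show heckeHom N ℓ (ZMod p) ((Int.castAddHom (ZMod p)).comp (ψ i)) = _
    rw [heckeHom_comp, hA ℓ ℓ.2 hℓN i, m12p47_red_sum]
  simp only [map_sum, LinearMap.baseChange_tmul, Submodule.subtype_apply, hT,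
    TensorProduct.tmul_sum, TensorProduct.tmul_smul, Finset.smul_sum, TensorProduct.smul_tmul']
  rw [Finset.sum_comm]
  refine Finset.sum_congr rfl fun j _ => ?_
  rw [← TensorProduct.sum_tmul]
  congr 1
  rw [smul_eq_mul, ← hca j]
  refine Finset.sum_congr rfl fun i _ => ?_
  rw [Algebra.smul_def, map_intCast, mul_comm]

end m12p47_eig

section m12p47_final

variable (N : ℕ) [NeZero N] (p : ℕ) [Fact p.Prime]

/-- **(W1) from the five plain hypotheses of `th70_W1`, stated on an arbitrary submodule `P`**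
containing the reductions of the integral parabolic homomorphisms; (I-EIG) is discharged by
`m12p47_eig`. -/
theorem m12p47_W1_gen (P : Submodule (ZMod p) (Additive (Gamma0 N) →+ ZMod p))
    (hP : ∀ ψ : Additive (Gamma0 N) →+ ℤ, IsParabolicHom (Gamma0 N) ψ →
      (Int.castAddHom (ZMod p)).comp ψ ∈ P)
    {k0 : Type*} [Field k0] [Algebra (ZMod p) k0]
    (ev0 : ↥(modularFunctionFieldBar N) →+* mer95_MER)
    (hfix : ∀ (γ : ↥(Gamma0 N)) (f : ↥(modularFunctionFieldBar N)), γ • ev0 f = ev0 f)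
    (hK2 : ∀ x : mer95_MER, x ≠ 0 → (∀ γ : ↥(Gamma0 N), γ • x = x) →
      ∀ f : ↥(modularFunctionFieldBar N), x ^ p = ev0 f →
        ∃ (w : ↥(modularFunctionFieldBar N)) (a : AlgebraicClosure ℚ),
          f = algebraMap (AlgebraicClosure ℚ) ↥(modularFunctionFieldBar N) a * w ^ p)
    (hex : ∀ χ ∈ P, ∃ (h : mer95_MER) (f : ↥(modularFunctionFieldBar N)),
      th70_Adm (AlgebraicClosure ℚ) ev0 p (th70_zeta p) χ h f)
    (hpar : ∀ ℓ : Nat.Primes, ¬ (ℓ : ℕ) ∣ N * p → ∀ χ ∈ P, heckeHom N ℓ (ZMod p) χ ∈ P)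
    (hHK : ∀ (ℓ : ℕ) [NeZero ℓ], ℓ.Prime → ¬ ℓ ∣ N * p → ∀ χ ∈ P,
      ∀ (h : mer95_MER) (f : ↥(modularFunctionFieldBar N)), h ≠ 0 → f ≠ 0 →
        th70_IsChar p (th70_zeta p) χ h → h ^ p = ev0 f →
          ∃ h' : mer95_MER, h' ≠ 0 ∧ th70_IsChar p (th70_zeta p) (heckeHom N ℓ (ZMod p) χ) h' ∧
            h' ^ p = ev0 (hd63_heckeNorm N ℓ f))
    {f : CuspForm (Gamma0 N) 2} (hf : f.IsNormalizedEigenform)
    (φ : integralClosure ℤ ℂ →+* k0) :
    ∃ y : k0 ⊗[ZMod p] w1a28_J N p, y ≠ 0 ∧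
      ∀ ℓ : Nat.Primes, ¬ (ℓ : ℕ) ∣ N * p →
        ∃ a : integralClosure ℤ ℂ, (a : ℂ) = ModularFormClass.qCoeff (⇑f) ℓ ∧
          (w1a28_TJ N p ℓ).baseChange k0 y = φ a • y := by
  obtain ⟨Θ, hΘ, htors, hhec⟩ := m12p47_I_Theta N p P ev0 hfix hK2 hex hpar hHK
  exact m12p47_W1_of_Theta Θ hΘ htors hhec f φ (m12p47_eig N p P hP hf φ)

/-- **(W1) for EVERY prime `p` (the `p = 2, 3` form needed by S29).**  The hypotheses `ev0`,
`hfix`, `hK2`, `hHK` are literally those of helper70's `th70_W1` (stated for `w1a28_Par N p`);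
admissible pairs are only required for `χ ∈ Par'_N = m12p47_Par N p` (parabolic + killing the
elements of finite order), and (I-EIG), `hpar` are discharged here. -/
theorem m12p47_W1 {k0 : Type*} [Field k0] [Algebra (ZMod p) k0]
    (ev0 : ↥(modularFunctionFieldBar N) →+* mer95_MER)
    (hfix : ∀ (γ : ↥(Gamma0 N)) (f : ↥(modularFunctionFieldBar N)), γ • ev0 f = ev0 f)
    (hK2 : ∀ x : mer95_MER, x ≠ 0 → (∀ γ : ↥(Gamma0 N), γ • x = x) →
      ∀ f : ↥(modularFunctionFieldBar N), x ^ p = ev0 f →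
        ∃ (w : ↥(modularFunctionFieldBar N)) (a : AlgebraicClosure ℚ),
          f = algebraMap (AlgebraicClosure ℚ) ↥(modularFunctionFieldBar N) a * w ^ p)
    (hex' : ∀ χ ∈ m12p47_Par N p, ∃ (h : mer95_MER) (f : ↥(modularFunctionFieldBar N)),
      th70_Adm (AlgebraicClosure ℚ) ev0 p (th70_zeta p) χ h f)
    (hHK : ∀ (ℓ : ℕ) [NeZero ℓ], ℓ.Prime → ¬ ℓ ∣ N * p → ∀ χ ∈ w1a28_Par N p,
      ∀ (h : mer95_MER) (f : ↥(modularFunctionFieldBar N)), h ≠ 0 → f ≠ 0 →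
        th70_IsChar p (th70_zeta p) χ h → h ^ p = ev0 f →
          ∃ h' : mer95_MER, h' ≠ 0 ∧ th70_IsChar p (th70_zeta p) (heckeHom N ℓ (ZMod p) χ) h' ∧
            h' ^ p = ev0 (hd63_heckeNorm N ℓ f))
    {f : CuspForm (Gamma0 N) 2} (hf : f.IsNormalizedEigenform)
    (φ : integralClosure ℤ ℂ →+* k0) :
    ∃ y : k0 ⊗[ZMod p] w1a28_J N p, y ≠ 0 ∧
      ∀ ℓ : Nat.Primes, ¬ (ℓ : ℕ) ∣ N * p →
        ∃ a : integralClosure ℤ ℂ, (a : ℂ) = ModularFormClass.qCoeff (⇑f) ℓ ∧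
          (w1a28_TJ N p ℓ).baseChange k0 y = φ a • y :=
  m12p47_W1_gen N p (m12p47_Par N p) (fun ψ hψ => m12p47_red_mem hψ) ev0 hfix hK2 hex'
    (fun ℓ _ χ hχ => m12p47_hecke_mem ℓ.2 hχ)
    (fun ℓ _ hℓ hℓNp χ hχ => hHK ℓ hℓ hℓNp χ (m12p47_Par_le N p hχ)) hf φ

end m12p47_final

section m12p47_ell

/-- For `χ` killing the elements of finite order (e.g. `χ ∈ Par'_N`), an element `h` with
character `ζ ^ χ` is invariant under the elliptic elements of `Γ₀(N)`: the hypothesis `hell` of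
`dg93_GX_div_ell` / `hUell` of `dg93_finite_mer_ell`, for EVERY `p`. -/
theorem m12p47_char_ell {M : Type*} [Field M] [MulSemiringAction SL(2, ℤ) M] (N p : ℕ) (ζ : M)
    (χ : Additive (Gamma0 N) →+ ZMod p) (hχ : m12p47_IsEllHom (Gamma0 N) χ) (h : M)
    (hchar : th70_IsChar p ζ χ h) (δ : SL(2, ℤ)) (hδ : δ ∈ Gamma0 N) (hell : dg93_IsEll δ) :
    δ • h = h := by
  have h12 := hell.pow_twelve
  set d : Gamma0 N := ⟨δ, hδ⟩ with hd
  have hd12 : d ^ 12 = 1 := by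
    apply Subtype.ext
    simpa using h12
  have hfin : IsOfFinOrder d := isOfFinOrder_iff_pow_eq_one.mpr ⟨12, by norm_num, hd12⟩
  have h3 := hchar d
  rw [hχ d hfin, ZMod.val_zero, pow_zero, one_mul] at h3
  exact h3

/-- the same for `χ ∈ Par'_N`. -/
theorem m12p47_char_ell_of_mem {M : Type*} [Field M] [MulSemiringAction SL(2, ℤ) M] (N p : ℕ)
    (ζ : M) {χ : Additive (Gamma0 N) →+ ZMod p} (hχ : χ ∈ m12p47_Par N p) (h : M)
    (hchar : th70_IsChar p ζ χ h) (δ : SL(2, ℤ)) (hδ : δ ∈ Gamma0 N) (hell : dg93_IsEll δ) :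
    δ • h = h :=
  m12p47_char_ell N p ζ χ hχ.2 h hchar δ hδ hell

end m12p47_ell

end Fermat.Agent.S42
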