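import Fermat.Agent.S42.EisChiZeta77
import Fermat.Agent.S42.GchiMem96
import Fermat.Agent.S42.CuspGlue36
import Fermat.Agent.S42.ThetaFinal70

/-!
# S42, seam (G-X), top file (helper67): the analytic existence statement (X) over `ℂ`

`xa67_X : th70_X N p` for every level `N ≥ 1` and every prime `p ≥ 5`, with NO hypothesis left:
for every parabolic `χ : Γ₀(N) → ℤ/p` there are

* `h = ec77_hZ N p χ = E_{ζ^χ} / E_1 ≠ 0` in `mer95_MER` with character `th70_zeta p ^ χ`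
  (helper77, `EisChiZeta77`),
* `u ∈ F_ℂ(N)` with `ff79_evMer N u = h ^ p` (helper96, `GchiMem96`: norm to level one +
  `K2`),
* `p ∣ v.ord u` at every place `v` of `F_ℂ(N)` (helper93 `DivGFinal93` at the finite places,
  helper36 `CuspGlue36` at the places over `j = ∞`).

This is literally the hypothesis `hX` of `th70_final_I_Theta` / `th70_final_W1` (helper70) and of
`geex94_hex` (helper94).  Consequences recorded here: `xa67_final_I_Theta`, `xa67_final_W1`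
(only (K2) over `ℂ` in the `p`-th root form and the Hecke step on roots are left as hypotheses).
-/

set_option autoImplicit false

open CongruenceSubgroup ModularCurve ModularCurve.Period AlgebraicCurve UpperHalfPlane
open scoped TensorProduct MatrixGroups

namespace Fermat.Agent.S42

open Fermat.Agent.S16

section xa67

variable (N : ℕ) [NeZero N] (p : ℕ) [Fact p.Prime]

/-- **(X), membership clause** for the Kummer generator `h_χ = ec77_hZ N p χ`. -/
theorem xa67_mem (χ : Additive ↥(Gamma0 N) →+ ZMod p) (hχ : IsParabolicHom (Gamma0 N) χ) :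
    haveI : NeZero p := ⟨(Fact.out : p.Prime).ne_zero⟩
    ∃ u : gi41_FC N, u ≠ 0 ∧ ff79_evMer N u = ec77_hZ N p χ ^ p := by
  haveI : NeZero p := ⟨(Fact.out : p.Prime).ne_zero⟩
  exact ga96_Fchi_pow_mem N 4 (ec77_charZ (ec77_zetaU p) (ec77_zetaU_pow p) χ) p (by norm_num)
    ⟨2, by norm_num⟩ (NeZero.ne p) (ec77_charZ_pow (ec77_zetaU p) (ec77_zetaU_pow p) χ)
    (ec77_charZ_par (ec77_zetaU p) (ec77_zetaU_pow p) hχ)

/-- **(X)**: the analytic existence statement over `ℂ`, for every prime `p ≥ 5`. -/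
theorem xa67_X (hp5 : 5 ≤ p) : th70_X N p := by
  haveI : NeZero p := ⟨(Fact.out : p.Prime).ne_zero⟩
  intro χ hχ
  have hχ' : IsParabolicHom (Gamma0 N) χ := mem_parabolicHoms_iff.mp hχ
  obtain ⟨u, -, hu⟩ := xa67_mem N p χ hχ'
  refine ⟨ec77_hZ N p χ, ec77_hZ_ne_zero hχ', ec77_hZ_isChar hχ', u, hu, fun v => ?_⟩
  exact pc36_X_div N p Fact.out hp5 (th70_zeta p) χ u (ec77_hZ N p χ) (ec77_hZ_ne_zero hχ')
    (ec77_hZ_isChar hχ') hu (ec77_hZ_num N p χ) (ec77_hZ_den p) (ec77_hZ_den_ne_zero p)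
    (ec77_hZ_pow_eq_div χ) (ec77_hZ_pow_tendsto hχ') v

/-- **(I-Theta)** with (X) discharged: only (K2) over `ℂ` and the Hecke step are hypotheses. -/
theorem xa67_final_I_Theta (φ : AlgebraicClosure ℚ →+* ℂ) (hp5 : 5 ≤ p)
    (hK2C : th70_K2C N p) (hHK : th70_HK φ N p) :
    ∃ Θ : w1a28_Par N p →+ JZero N, Function.Injective Θ ∧ (∀ χ, (p : ℤ) • Θ χ = 0) ∧
      ∀ ℓ : Nat.Primes, ¬ (ℓ : ℕ) ∣ N * p → ∀ χ : w1a28_Par N p,
        ∃ hχ : heckeHom N ℓ (ZMod p) χ ∈ w1a28_Par N p,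
          heckeOperatorBar N ℓ (Θ χ) = Θ ⟨heckeHom N ℓ (ZMod p) χ, hχ⟩ :=
  th70_final_I_Theta φ N p (xa67_X N p hp5) hK2C hHK

/-- **(W1)** with (X) discharged. -/
theorem xa67_final_W1 (φ : AlgebraicClosure ℚ →+* ℂ) (hp5 : 5 ≤ p)
    {k0 : Type*} [Field k0] [Algebra (ZMod p) k0]
    (hK2C : th70_K2C N p) (hHK : th70_HK φ N p)
    (f : CuspForm (Gamma0 N) 2) (ψ : integralClosure ℤ ℂ →+* k0)
    (heig : ∃ x : k0 ⊗[ZMod p] w1a28_Par N p, x ≠ 0 ∧
      ∀ ℓ : Nat.Primes, ¬ (ℓ : ℕ) ∣ N * p →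
        ∃ a : integralClosure ℤ ℂ, (a : ℂ) = ModularFormClass.qCoeff (⇑f) ℓ ∧
          (w1a28_TX N p ℓ).baseChange k0 ((w1a28_Par N p).subtype.baseChange k0 x)
            = ψ a • (w1a28_Par N p).subtype.baseChange k0 x) :
    ∃ y : k0 ⊗[ZMod p] w1a28_J N p, y ≠ 0 ∧
      ∀ ℓ : Nat.Primes, ¬ (ℓ : ℕ) ∣ N * p →
        ∃ a : integralClosure ℤ ℂ, (a : ℂ) = ModularFormClass.qCoeff (⇑f) ℓ ∧
          (w1a28_TJ N p ℓ).baseChange k0 y = ψ a • y :=
  th70_final_W1 φ N p (xa67_X N p hp5) hK2C hHK f ψ heig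

end xa67

end Fermat.Agent.S42
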