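/-
S42 / S29, row M12, Ruling 4 (b) (helper47): **(W1) FOR EVERY PRIME `p`, HYPOTHESIS-FREE.**

The final instantiation of the `Θ` spine on `Par'_N = pt46_Par N p` (helper46: the homomorphisms
`Γ₀(N) → ZMod p` killing every `γ` with `(tr γ)² ≤ 4`, i.e. the parabolic elements and the
elements of finite order), for ALL primes `p` (including `p = 2, 3`, as needed by S29):

* `m12p47_X N p P` : the analytic existence statement (X) of `ThetaFinal70` on a submodule `P`;
  `m12p47_X_of_th70_X` (restriction of `th70_X`), `m12p47_X_mono`;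
* `m12p47_X_tors` : **(X) on `pt46_Par N p` for every prime `p`**, no hypothesis:
  `h = ec77_hZ N p χ` (helper77), membership `xa67_mem` (helper96/helper67), divisibility at all
  places `dg93_div_FC` (helper93; the invariance under the elements of finite order comes from
  `pt46_Par_kills_finOrder`), order `0` at the cusps `pc36_hcusp_FC` (helper36);
* `m12p47_final_hex` : admissible pairs over `ℚ̄` for `χ ∈ P` from (X) on `P` + the descent
  (`di3_desc_bar`; same proof as `th70_final_hex`);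
* `m12p47_final_W1_of` : (W1) from (X) on `P`, (K2) over `ℂ` and the Hecke step, for any
  Hecke-stable `P ≤ Par_N` containing the reductions of the integral parabolic homomorphisms;
* `m12p47_W1_all` : **(W1) for every level `N ≥ 1`, every prime `p`, every normalised eigenform
  and every `ψ : ℤ̄ → k0`** (conclusion literally that of `th70_W1` / `w1a28_main_eigenform`),
  with (X) = `m12p47_X_tors`, (K2C) = `gk5_K2C` (helper5), (HK) = `hk10_HK` (helper10),
  (I-EIG) = `m12p47_eig` (from helper54's `m9e54_eigenclass`).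
-/
import Mathlib
import Fermat.Agent.S42.M12Theta47
import Fermat.Agent.S42.ParTors46
import Fermat.Agent.S42.ThetaFinal70
import Fermat.Agent.S42.XAsm67
import Fermat.Agent.S42.K2CInst5
import Fermat.Agent.S42.HeckeHK10

set_option autoImplicit false
set_option linter.unusedSectionVars false
set_option linter.unusedVariables false
set_option linter.style.longLine false
set_option linter.style.haveILetI false

open CongruenceSubgroup ModularCurve ModularCurve.Period AlgebraicCurve UpperHalfPlane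
open scoped TensorProduct MatrixGroups

namespace Fermat.Agent.S42

open Fermat.Agent.S16

section m12p47_final

variable (φ : AlgebraicClosure ℚ →+* ℂ) (N : ℕ) [NeZero N] (p : ℕ) [Fact p.Prime]
variable (P : Submodule (ZMod p) (Additive (Gamma0 N) →+ ZMod p))

/-- The analytic existence statement (X) over `ℂ` on a submodule `P` (`th70_X` is the case
`P = w1a28_Par N p`). -/
def m12p47_X : Prop :=
  ∀ χ ∈ P, ∃ h : mer95_MER, h ≠ 0 ∧ th70_IsChar p (th70_zeta p) χ h ∧
    ∃ u : ↥(laurentBaseChange ℂ (modularFunctionFieldFull N)), ff79_evMer N u = h ^ p ∧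
      ∀ v : Place ℂ ↥(laurentBaseChange ℂ (modularFunctionFieldFull N)), (p : ℤ) ∣ v.ord u

variable {N p P}

theorem m12p47_X_mono {Q : Submodule (ZMod p) (Additive (Gamma0 N) →+ ZMod p)} (hPQ : P ≤ Q)
    (hX : m12p47_X N p Q) : m12p47_X N p P := fun χ hχ => hX χ (hPQ hχ)

theorem m12p47_X_of_th70_X (hP : P ≤ w1a28_Par N p) (hX : th70_X N p) : m12p47_X N p P :=
  fun χ hχ => hX χ (hP hχ)

variable (N p)

/-- **(X) on `Par'_N = pt46_Par N p`, for EVERY prime `p`** (no hypothesis). -/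
theorem m12p47_X_tors : m12p47_X N p (pt46_Par N p) := by
  haveI : NeZero p := ⟨(Fact.out : p.Prime).ne_zero⟩
  intro χ hχ
  have hχ' : IsParabolicHom (Gamma0 N) χ := pt46_Par_le N p hχ
  obtain ⟨u, hu0, hu⟩ := xa67_mem N p χ hχ'
  refine ⟨ec77_hZ N p χ, ec77_hZ_ne_zero hχ', ec77_hZ_isChar hχ', u, hu, fun v => ?_⟩
  refine dg93_div_FC N p u (ec77_hZ N p χ) (ec77_hZ_ne_zero hχ') hu (fun δ hδ hfin => ?_)
    (fun v hv => ?_) v
  · -- invariance under the elements of finite order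
    have hfin' : IsOfFinOrder (⟨δ, hδ⟩ : Gamma0 N) := by
      obtain ⟨n, hn, hδn⟩ := isOfFinOrder_iff_pow_eq_one.mp hfin
      exact isOfFinOrder_iff_pow_eq_one.mpr ⟨n, hn, Subtype.ext (by simpa using hδn)⟩
    have h3 := ec77_hZ_isChar hχ' (⟨δ, hδ⟩ : Gamma0 N)
    rw [pt46_Par_kills_finOrder hχ _ hfin', ZMod.val_zero, pow_zero, one_mul] at h3
    exact h3
  · -- order `0` at the cusps
    rw [pc36_hcusp_FC N u hu0 (ec77_hZ_num N p χ) (ec77_hZ_den p) (ec77_hZ_den_ne_zero p)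
      (hu.trans (ec77_hZ_pow_eq_div χ)) (ec77_hZ_pow_tendsto hχ') v hv]
    exact dvd_zero _

variable {N p}

/-- `hex` on `P` from (X) on `P` and the descent (same proof as `th70_final_hex`). -/
theorem m12p47_final_hex (hX : m12p47_X N p P) :
    ∀ χ ∈ P, ∃ (h : mer95_MER) (f : ↥(modularFunctionFieldBar N)),
      th70_Adm (AlgebraicClosure ℚ) (ff79_ev0 φ N) p (th70_zeta p) χ h f := by
  have hp : p ≠ 0 := (Fact.out : p.Prime).ne_zero
  have hζ0 : th70_zeta p ≠ 0 := (th70_zeta_isPrimitiveRoot p hp).ne_zero hp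
  intro χ hχ
  obtain ⟨h, h0, hchar, u, hu, hdvd⟩ := hX χ hχ
  have hu0 : u ≠ 0 := by
    rintro rfl
    rw [map_zero] at hu
    exact pow_ne_zero p h0 hu.symm
  obtain ⟨g, w, c, hg, hw, hc, hgw, hP0⟩ :=
    di3_desc_bar φ N (Nat.pos_of_ne_zero hp) hu0 hdvd
  have hbc : ff79_bc φ N g =
      algebraMap ℂ ↥(laurentBaseChange ℂ (modularFunctionFieldFull N)) c * (w ^ p * u) := by
    apply Subtype.ext
    rw [ff79_bc_coe, hgw]
    rfl
  obtain ⟨d, hd⟩ := IsAlgClosed.exists_pow_nat_eq c (Nat.pos_of_ne_zero hp)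
  have hd0 : d ≠ 0 := by
    rintro rfl
    rw [zero_pow hp] at hd
    exact hc hd.symm
  have hCd : algebraMap ℂ mer95_MER d ≠ 0 := by simpa using hd0
  have hevw : ff79_evMer N w ≠ 0 := by simpa using hw
  refine ⟨algebraMap ℂ mer95_MER d * ff79_evMer N w * h, g,
    mul_ne_zero (mul_ne_zero hCd hevw) h0, hg, fun γ => ?_, ?_, hP0⟩
  · rw [smul_mul', smul_mul', hchar γ]
    have e1 : γ • algebraMap ℂ mer95_MER d = algebraMap ℂ mer95_MER d :=
      mer95_smul_C_SL (γ : SL(2, ℤ)) d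
    have e2 : γ • ff79_evMer N w = ff79_evMer N w := ff79_evMer_smul N γ.1 γ.2 w
    rw [e1, e2]
    ring
  · rw [ff79_ev0_apply, hbc, map_mul, map_mul, map_pow, hu, ff79_evMer_C, mul_pow, mul_pow,
      ← map_pow, hd]
    ring

/-- **(W1) from (X) on `P`, (K2) over `ℂ` and the Hecke step**, for a Hecke-stable submodule
`P ≤ Par_N` containing the reductions of the integral parabolic homomorphisms. -/
theorem m12p47_final_W1_of {k0 : Type*} [Field k0] [Algebra (ZMod p) k0]
    (hP : ∀ ψ : Additive (Gamma0 N) →+ ℤ, IsParabolicHom (Gamma0 N) ψ →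
      (Int.castAddHom (ZMod p)).comp ψ ∈ P)
    (hPle : P ≤ w1a28_Par N p)
    (hpar : ∀ ℓ : Nat.Primes, ¬ (ℓ : ℕ) ∣ N * p → ∀ χ ∈ P, heckeHom N ℓ (ZMod p) χ ∈ P)
    (hX : m12p47_X N p P) (hK2C : th70_K2C N p) (hHK : th70_HK φ N p)
    {f : CuspForm (Gamma0 N) 2} (hf : f.IsNormalizedEigenform)
    (ψ : integralClosure ℤ ℂ →+* k0) :
    ∃ y : k0 ⊗[ZMod p] w1a28_J N p, y ≠ 0 ∧
      ∀ ℓ : Nat.Primes, ¬ (ℓ : ℕ) ∣ N * p →
        ∃ a : integralClosure ℤ ℂ, (a : ℂ) = ModularFormClass.qCoeff (⇑f) ℓ ∧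
          (w1a28_TJ N p ℓ).baseChange k0 y = ψ a • y :=
  m12p47_W1_gen N p P hP (ff79_ev0 φ N) (ff79_ev0_fix φ N) (th70_final_hK2 φ N p hK2C)
    (m12p47_final_hex φ hX) hpar
    (fun ℓ _ hℓ hℓN χ hχ h f h0 f0 hc hpow => hHK ℓ hℓ hℓN χ (hPle hχ) h f h0 f0 hc hpow) hf ψ

variable (N p)

/-- **(W1) FOR EVERY PRIME `p`** (in particular `p = 2, 3`): for every level `N ≥ 1`, every
normalised eigenform `f` of level `N` and every ring homomorphism `ψ : ℤ̄ → k0` into a field
`k0 ⊇ ZMod p`, there is a nonzero class `y ∈ k0 ⊗ J₀(N)(ℚ̄)[p]` with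
`(1 ⊗ T_ℓ) y = ψ(a_ℓ(f)) • y` for all primes `ℓ ∤ N p`. -/
theorem m12p47_W1_all {k0 : Type*} [Field k0] [Algebra (ZMod p) k0]
    {f : CuspForm (Gamma0 N) 2} (hf : f.IsNormalizedEigenform)
    (ψ : integralClosure ℤ ℂ →+* k0) :
    ∃ y : k0 ⊗[ZMod p] w1a28_J N p, y ≠ 0 ∧
      ∀ ℓ : Nat.Primes, ¬ (ℓ : ℕ) ∣ N * p →
        ∃ a : integralClosure ℤ ℂ, (a : ℂ) = ModularFormClass.qCoeff (⇑f) ℓ ∧
          (w1a28_TJ N p ℓ).baseChange k0 y = ψ a • y :=
  m12p47_final_W1_of (P := pt46_Par N p) Fermat.Agent.S24.phi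
    (fun χ hχ => pt46_red_mem χ hχ) (pt46_Par_le N p)
    (fun ℓ _ χ hχ => pt46_heckeHom_mem ℓ.2 hχ) (m12p47_X_tors N p) (gk5_K2C N p)
    (hk10_HK Fermat.Agent.S24.phi N p) hf ψ

end m12p47_final

end Fermat.Agent.S42
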