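import Fermat.Agent.S42.Mer44

/-!
# S42 / M0 (helper44): the order function `ord_τ` on `m0_MER`

For every `τ : ℍ`, `m0_ord τ : m0_MER → ℤ` is the order of vanishing at `τ` (junk value `0` at
`x = 0`). It is a discrete valuation: additive on products, ultrametric on sums, `0` on nonzero
constants, and compatible with the action: `m0_ord τ (g • x) = m0_ord (g⁻¹ • τ) x`.

Mathlib only (on top of `Mer44`).
-/

set_option autoImplicit false

open UpperHalfPlane Matrix Filter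
open scoped Manifold MatrixGroups Topology

namespace Fermat.Agent.S42

/-- The function on `ℂ` attached to a holomorphic function on `ℍ` (junk outside `ℍ`). -/
noncomputable def m0_fnO (f : m0_O) : ℂ → ℂ := (f : ℍ → ℂ) ∘ ofComplex

theorem m0_fnO_apply (f : m0_O) (τ : ℍ) : m0_fnO f (τ : ℂ) = (f : ℍ → ℂ) τ := by
  simp [m0_fnO]

theorem m0_fnO_analyticAt (f : m0_O) (τ : ℍ) : AnalyticAt ℂ (m0_fnO f) (τ : ℂ) :=
  m0_analyticAt f τ

theorem m0_fnO_mul (f g : m0_O) : m0_fnO (f * g) = m0_fnO f * m0_fnO g := rfl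

theorem m0_fnO_add (f g : m0_O) : m0_fnO (f + g) = m0_fnO f + m0_fnO g := rfl

theorem m0_fnO_one : m0_fnO 1 = 1 := rfl

theorem m0_fnO_zero : m0_fnO 0 = 0 := rfl

theorem m0_fnO_const (c : ℂ) : m0_fnO (algebraMap ℂ m0_O c) = fun _ => c := rfl

theorem m0_fnO_order_ne_top (f : m0_O) (hf : f ≠ 0) (τ : ℍ) :
    analyticOrderAt (m0_fnO f) (τ : ℂ) ≠ ⊤ := by
  intro htop
  apply hf
  rw [analyticOrderAt_eq_top] at htop
  apply Subtype.ext
  apply UpperHalfPlane.eq_zero_of_frequently f.2 (τ := τ)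
  apply Filter.Eventually.frequently
  rw [eventually_nhdsWithin_iff]
  have h2 : ∀ᶠ z in 𝓝 τ, m0_fnO f ((z : ℍ) : ℂ) = 0 :=
    continuous_coe.continuousAt.eventually htop
  filter_upwards [h2] with z hz _
  rwa [m0_fnO_apply] at hz

theorem m0_fnO_eventually_ne_zero (f : m0_O) (hf : f ≠ 0) (τ : ℍ) :
    ∀ᶠ z in 𝓝[≠] (τ : ℂ), m0_fnO f z ≠ 0 := by
  rcases (m0_fnO_analyticAt f τ).eventually_eq_zero_or_eventually_ne_zero with h | h
  · exact absurd (analyticOrderAt_eq_top.mpr h) (m0_fnO_order_ne_top f hf τ)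
  · exact h

/-- The order of vanishing at `τ` of a holomorphic function, as a natural number
(junk value `0` for `f = 0`). -/
noncomputable def m0_ordO (τ : ℍ) (f : m0_O) : ℕ := (analyticOrderAt (m0_fnO f) (τ : ℂ)).toNat

theorem m0_ordO_spec (τ : ℍ) (f : m0_O) (hf : f ≠ 0) :
    analyticOrderAt (m0_fnO f) (τ : ℂ) = (m0_ordO τ f : ℕ∞) := by
  unfold m0_ordO
  rw [ENat.natCast_toNat (m0_fnO_order_ne_top f hf τ)]

theorem m0_meromorphicOrderAt_fnO (τ : ℍ) (f : m0_O) (hf : f ≠ 0) :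
    meromorphicOrderAt (m0_fnO f) (τ : ℂ) = ((m0_ordO τ f : ℤ) : WithTop ℤ) := by
  rw [(m0_fnO_analyticAt f τ).meromorphicOrderAt_eq, m0_ordO_spec τ f hf]
  rfl

/-- A chosen numerator. -/
noncomputable def m0_num (x : m0_MER) : m0_O := (m0_exists_div x).choose

/-- A chosen denominator. -/
noncomputable def m0_den (x : m0_MER) : m0_O := (m0_exists_div x).choose_spec.choose

theorem m0_den_ne_zero (x : m0_MER) : m0_den x ≠ 0 :=
  (m0_exists_div x).choose_spec.choose_spec.1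

theorem m0_eq_num_div_den (x : m0_MER) :
    x = algebraMap m0_O m0_MER (m0_num x) / algebraMap m0_O m0_MER (m0_den x) :=
  (m0_exists_div x).choose_spec.choose_spec.2

theorem m0_algebraMap_ne_zero {b : m0_O} (hb : b ≠ 0) : algebraMap m0_O m0_MER b ≠ 0 :=
  fun h => hb (m0_algebraMap_injective (by rw [h, map_zero]))

theorem m0_cross {a b c d : m0_O} (hb : b ≠ 0) (hd : d ≠ 0)
    (h : algebraMap m0_O m0_MER a / algebraMap m0_O m0_MER b =
      algebraMap m0_O m0_MER c / algebraMap m0_O m0_MER d) : a * d = c * b := by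
  rw [div_eq_div_iff (m0_algebraMap_ne_zero hb) (m0_algebraMap_ne_zero hd), ← map_mul,
    ← map_mul] at h
  exact m0_algebraMap_injective h

/-- A function on `ℂ` representing `x` near every point of `ℍ` (away from the zeros of the chosen
denominator). -/
noncomputable def m0_fn (x : m0_MER) : ℂ → ℂ :=
  fun z => m0_fnO (m0_num x) z / m0_fnO (m0_den x) z

theorem m0_fn_eventuallyEq (x : m0_MER) (a b : m0_O) (hb : b ≠ 0)
    (hx : x = algebraMap m0_O m0_MER a / algebraMap m0_O m0_MER b) (τ : ℍ) :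
    m0_fn x =ᶠ[𝓝[≠] (τ : ℂ)] fun z => m0_fnO a z / m0_fnO b z := by
  have hc : m0_num x * b = a * m0_den x :=
    m0_cross (m0_den_ne_zero x) hb ((m0_eq_num_div_den x).symm.trans hx)
  filter_upwards [m0_fnO_eventually_ne_zero b hb τ,
    m0_fnO_eventually_ne_zero (m0_den x) (m0_den_ne_zero x) τ] with z hz1 hz2
  unfold m0_fn
  rw [div_eq_div_iff hz2 hz1]
  have := congrFun (congrArg m0_fnO hc) z
  simpa [m0_fnO_mul] using this

theorem m0_meromorphicAt_div (a b : m0_O) (τ : ℍ) :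
    MeromorphicAt (fun z => m0_fnO a z / m0_fnO b z) (τ : ℂ) :=
  (m0_fnO_analyticAt a τ).meromorphicAt.div (m0_fnO_analyticAt b τ).meromorphicAt

theorem m0_fn_meromorphicAt (x : m0_MER) (τ : ℍ) : MeromorphicAt (m0_fn x) (τ : ℂ) :=
  m0_meromorphicAt_div _ _ τ

/-- The order at `τ` of a meromorphic function on `ℍ` (junk value `0` for `x = 0`). -/
noncomputable def m0_ord (τ : ℍ) (x : m0_MER) : ℤ :=
  (meromorphicOrderAt (m0_fn x) (τ : ℂ)).untop₀

theorem m0_meromorphicOrderAt_div (τ : ℍ) (a b : m0_O) (ha : a ≠ 0) (hb : b ≠ 0) :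
    meromorphicOrderAt (fun z => m0_fnO a z / m0_fnO b z) (τ : ℂ) =
      (((m0_ordO τ a : ℤ) - (m0_ordO τ b : ℤ) : ℤ) : WithTop ℤ) := by
  have h := meromorphicOrderAt_div (m0_fnO_analyticAt a τ).meromorphicAt
    (m0_fnO_analyticAt b τ).meromorphicAt
  rw [m0_meromorphicOrderAt_fnO τ a ha, m0_meromorphicOrderAt_fnO τ b hb] at h
  rw [show (fun z => m0_fnO a z / m0_fnO b z) = m0_fnO a / m0_fnO b from rfl, h]
  rfl

theorem m0_ord_div (τ : ℍ) (a b : m0_O) (ha : a ≠ 0) (hb : b ≠ 0) :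
    m0_ord τ (algebraMap m0_O m0_MER a / algebraMap m0_O m0_MER b) =
      (m0_ordO τ a : ℤ) - (m0_ordO τ b : ℤ) := by
  unfold m0_ord
  rw [meromorphicOrderAt_congr (m0_fn_eventuallyEq _ a b hb rfl τ),
    m0_meromorphicOrderAt_div τ a b ha hb]
  rfl

/-- The meromorphic order of the representing function is finite and equal to `m0_ord`. -/
theorem m0_meromorphicOrderAt_fn (τ : ℍ) (x : m0_MER) (hx : x ≠ 0) :
    meromorphicOrderAt (m0_fn x) (τ : ℂ) = ((m0_ord τ x : ℤ) : WithTop ℤ) := by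
  have hnum : m0_num x ≠ 0 := by
    intro h
    apply hx
    rw [m0_eq_num_div_den x, h, map_zero, zero_div]
  unfold m0_ord
  have h := m0_meromorphicOrderAt_div τ (m0_num x) (m0_den x) hnum (m0_den_ne_zero x)
  rw [show m0_fn x = fun z => m0_fnO (m0_num x) z / m0_fnO (m0_den x) z from rfl, h]
  rfl

theorem m0_ord_zero (τ : ℍ) : m0_ord τ 0 = 0 := by
  have h : m0_fn (0 : m0_MER) =ᶠ[𝓝[≠] (τ : ℂ)] fun z => m0_fnO 0 z / m0_fnO 1 z :=
    m0_fn_eventuallyEq 0 0 1 one_ne_zero (by rw [map_zero, zero_div]) τ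
  unfold m0_ord
  rw [meromorphicOrderAt_congr h]
  have h2 : meromorphicOrderAt (fun z => m0_fnO 0 z / m0_fnO 1 z) (τ : ℂ) = ⊤ := by
    rw [meromorphicOrderAt_eq_top_iff]
    exact Filter.Eventually.of_forall fun z => by simp [m0_fnO_zero]
  rw [h2]
  rfl

theorem m0_ord_algebraMap (τ : ℍ) (f : m0_O) (hf : f ≠ 0) :
    m0_ord τ (algebraMap m0_O m0_MER f) = (m0_ordO τ f : ℤ) := by
  have h := m0_ord_div τ f 1 hf one_ne_zero
  rw [map_one, div_one] at h
  rw [h]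
  have h1 : m0_ordO τ 1 = 0 := by
    unfold m0_ordO
    rw [m0_fnO_one]
    have : analyticOrderAt (1 : ℂ → ℂ) (τ : ℂ) = 0 := by
      rw [analyticOrderAt_eq_zero]
      right
      simp
    rw [this]
    rfl
  rw [h1]
  simp

theorem m0_ord_algebraMap' (τ : ℍ) (f : m0_O) (hf : f ≠ 0) :
    m0_ord τ (algebraMap m0_O m0_MER f) =
      ((analyticOrderAt ((f : ℍ → ℂ) ∘ ofComplex) (τ : ℂ)).toNat : ℤ) :=
  m0_ord_algebraMap τ f hf

theorem m0_ord_algebraMap_nonneg (τ : ℍ) (f : m0_O) :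
    0 ≤ m0_ord τ (algebraMap m0_O m0_MER f) := by
  by_cases hf : f = 0
  · rw [hf, map_zero, m0_ord_zero]
  · rw [m0_ord_algebraMap τ f hf]
    exact Int.natCast_nonneg _

theorem m0_ordO_eq_zero_iff (τ : ℍ) (f : m0_O) (hf : f ≠ 0) :
    m0_ordO τ f = 0 ↔ (f : ℍ → ℂ) τ ≠ 0 := by
  have h := m0_ordO_spec τ f hf
  rw [← m0_fnO_apply]
  constructor
  · intro h0
    rw [h0] at h
    have := (analyticOrderAt_eq_zero).mp h
    rcases this with h1 | h1
    · exact absurd (m0_fnO_analyticAt f τ) h1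
    · exact h1
  · intro h0
    have h1 : analyticOrderAt (m0_fnO f) (τ : ℂ) = 0 := analyticOrderAt_eq_zero.mpr (Or.inr h0)
    rw [h1] at h
    exact_mod_cast h.symm

theorem m0_ord_mul (τ : ℍ) (x y : m0_MER) (hx : x ≠ 0) (hy : y ≠ 0) :
    m0_ord τ (x * y) = m0_ord τ x + m0_ord τ y := by
  have hxy : x * y = algebraMap m0_O m0_MER (m0_num x * m0_num y) /
      algebraMap m0_O m0_MER (m0_den x * m0_den y) := by
    rw [map_mul, map_mul, ← div_mul_div_comm, ← m0_eq_num_div_den, ← m0_eq_num_div_den]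
  have hd : m0_den x * m0_den y ≠ 0 := mul_ne_zero (m0_den_ne_zero x) (m0_den_ne_zero y)
  have h1 : m0_fn (x * y) =ᶠ[𝓝[≠] (τ : ℂ)] m0_fn x * m0_fn y := by
    refine (m0_fn_eventuallyEq _ _ _ hd hxy τ).trans (Filter.Eventually.of_forall fun z => ?_)
    show m0_fnO (m0_num x * m0_num y) z / m0_fnO (m0_den x * m0_den y) z =
      m0_fnO (m0_num x) z / m0_fnO (m0_den x) z * (m0_fnO (m0_num y) z / m0_fnO (m0_den y) z)
    rw [m0_fnO_mul, m0_fnO_mul, Pi.mul_apply, Pi.mul_apply, div_mul_div_comm]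
  have h2 := meromorphicOrderAt_mul (m0_fn_meromorphicAt x τ) (m0_fn_meromorphicAt y τ)
  rw [← meromorphicOrderAt_congr h1, m0_meromorphicOrderAt_fn τ x hx,
    m0_meromorphicOrderAt_fn τ y hy, m0_meromorphicOrderAt_fn τ (x * y) (mul_ne_zero hx hy)] at h2
  exact_mod_cast h2

theorem m0_ord_one (τ : ℍ) : m0_ord τ 1 = 0 := by
  have h := m0_ord_mul τ 1 1 one_ne_zero one_ne_zero
  rw [mul_one] at h
  linarith

theorem m0_ord_inv (τ : ℍ) (x : m0_MER) : m0_ord τ x⁻¹ = - m0_ord τ x := by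
  by_cases hx : x = 0
  · rw [hx, _root_.inv_zero, m0_ord_zero, neg_zero]
  · have h := m0_ord_mul τ x x⁻¹ hx (inv_ne_zero hx)
    rw [mul_inv_cancel₀ hx, m0_ord_one] at h
    linarith

theorem m0_ord_div' (τ : ℍ) (x y : m0_MER) (hx : x ≠ 0) (hy : y ≠ 0) :
    m0_ord τ (x / y) = m0_ord τ x - m0_ord τ y := by
  rw [div_eq_mul_inv, m0_ord_mul τ x y⁻¹ hx (inv_ne_zero hy), m0_ord_inv, sub_eq_add_neg]

theorem m0_ord_pow (τ : ℍ) (x : m0_MER) (n : ℕ) : m0_ord τ (x ^ n) = n * m0_ord τ x := by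
  by_cases hx : x = 0
  · rcases Nat.eq_zero_or_pos n with hn | hn
    · rw [hn, pow_zero, m0_ord_one]; simp
    · rw [hx, zero_pow hn.ne', m0_ord_zero, mul_zero]
  · induction n with
    | zero => rw [pow_zero, m0_ord_one]; simp
    | succ n ih =>
      rw [pow_succ, m0_ord_mul τ _ _ (pow_ne_zero n hx) hx, ih]
      push_cast
      ring

theorem m0_ord_zpow (τ : ℍ) (x : m0_MER) (n : ℤ) : m0_ord τ (x ^ n) = n * m0_ord τ x := by
  rcases n with n | n
  · rw [Int.ofNat_eq_natCast, zpow_natCast, m0_ord_pow]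
  · rw [zpow_negSucc, m0_ord_inv, m0_ord_pow]
    push_cast
    rw [Int.negSucc_eq]
    ring

theorem m0_ord_neg (τ : ℍ) (x : m0_MER) : m0_ord τ (-x) = m0_ord τ x := by
  by_cases hx : x = 0
  · rw [hx, neg_zero]
  · have h1 : m0_ord τ (-1 : m0_MER) = 0 := by
      have h := m0_ord_mul τ (-1) (-1) (neg_ne_zero.mpr one_ne_zero) (neg_ne_zero.mpr one_ne_zero)
      rw [neg_one_mul, neg_neg, m0_ord_one] at h
      linarith
    rw [← neg_one_mul, m0_ord_mul τ (-1) x (neg_ne_zero.mpr one_ne_zero) hx, h1, zero_add]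

theorem m0_ord_add (τ : ℍ) (x y : m0_MER) (hx : x ≠ 0) (hy : y ≠ 0) (hxy : x + y ≠ 0) :
    min (m0_ord τ x) (m0_ord τ y) ≤ m0_ord τ (x + y) := by
  have hsum : x + y = algebraMap m0_O m0_MER (m0_num x * m0_den y + m0_num y * m0_den x) /
      algebraMap m0_O m0_MER (m0_den x * m0_den y) := by
    rw [map_add, map_mul, map_mul, map_mul]
    nth_rewrite 1 [m0_eq_num_div_den x, m0_eq_num_div_den y]
    rw [div_add_div _ _ (m0_algebraMap_ne_zero (m0_den_ne_zero x))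
      (m0_algebraMap_ne_zero (m0_den_ne_zero y))]
    ring
  have hd : m0_den x * m0_den y ≠ 0 := mul_ne_zero (m0_den_ne_zero x) (m0_den_ne_zero y)
  have h1 : m0_fn (x + y) =ᶠ[𝓝[≠] (τ : ℂ)] m0_fn x + m0_fn y := by
    refine (m0_fn_eventuallyEq _ _ _ hd hsum τ).trans ?_
    filter_upwards [m0_fnO_eventually_ne_zero (m0_den x) (m0_den_ne_zero x) τ,
      m0_fnO_eventually_ne_zero (m0_den y) (m0_den_ne_zero y) τ] with z hz1 hz2
    show m0_fnO (m0_num x * m0_den y + m0_num y * m0_den x) z / m0_fnO (m0_den x * m0_den y) z =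
      m0_fnO (m0_num x) z / m0_fnO (m0_den x) z + m0_fnO (m0_num y) z / m0_fnO (m0_den y) z
    rw [m0_fnO_add, m0_fnO_mul, m0_fnO_mul, m0_fnO_mul, div_add_div _ _ hz1 hz2]
    simp only [Pi.add_apply, Pi.mul_apply]
    ring
  have h2 := meromorphicOrderAt_add (m0_fn_meromorphicAt x τ) (m0_fn_meromorphicAt y τ)
  rw [← meromorphicOrderAt_congr h1, m0_meromorphicOrderAt_fn τ x hx,
    m0_meromorphicOrderAt_fn τ y hy, m0_meromorphicOrderAt_fn τ (x + y) hxy] at h2
  exact_mod_cast h2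

theorem m0_ord_const (τ : ℍ) (c : ℂ) (hc : c ≠ 0) : m0_ord τ (algebraMap ℂ m0_MER c) = 0 := by
  have hc' : algebraMap ℂ m0_O c ≠ 0 := by
    intro h
    apply hc
    have := congrArg (fun f : m0_O => (f : ℍ → ℂ) UpperHalfPlane.I) h
    simpa using this
  rw [IsScalarTower.algebraMap_apply ℂ m0_O m0_MER, m0_ord_algebraMap τ _ hc']
  have : m0_ordO τ (algebraMap ℂ m0_O c) = 0 := by
    rw [m0_ordO_eq_zero_iff τ _ hc']
    simpa using hc
  rw [this]
  rfl

/-! ### Compatibility with the action -/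

theorem m0_fnO_smul (g : GL(2, ℝ)⁺) (f : m0_O) :
    m0_fnO (g • f) =
      m0_fnO f ∘ (fun z : ℂ => (((g⁻¹ : GL(2, ℝ)⁺) • ofComplex z : ℍ) : ℂ)) := by
  funext z
  simp only [m0_fnO, Function.comp_apply, m0_smul_apply, ofComplex_apply]

theorem m0_ord_smul (g : GL(2, ℝ)⁺) (x : m0_MER) (τ : ℍ) :
    m0_ord τ (g • x) = m0_ord (g⁻¹ • τ) x := by
  have hd : g • m0_den x ≠ 0 := by
    intro h
    apply m0_den_ne_zero x
    have := congrArg (fun f => g⁻¹ • f) h
    simpa using this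
  have hgx : g • x = algebraMap m0_O m0_MER (g • m0_num x) / algebraMap m0_O m0_MER (g • m0_den x) := by
    nth_rewrite 1 [m0_eq_num_div_den x]
    rw [m0_smul_div]
  unfold m0_ord
  rw [meromorphicOrderAt_congr (m0_fn_eventuallyEq _ _ _ hd hgx τ)]
  have hcomp : (fun z => m0_fnO (g • m0_num x) z / m0_fnO (g • m0_den x) z) =
      fun z : ℂ => (fun w : ℍ => (m0_num x : ℍ → ℂ) w / (m0_den x : ℍ → ℂ) w)
        (((g⁻¹ : GL(2, ℝ)⁺) : GL (Fin 2) ℝ) • ofComplex z) := by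
    funext z
    simp only [m0_fnO, Function.comp_apply, m0_smul_apply]
    rfl
  have key := UpperHalfPlane.meromorphicOrderAt_comp_smul
    (f := fun w : ℍ => (m0_num x : ℍ → ℂ) w / (m0_den x : ℍ → ℂ) w) (τ := τ) (m0_det_pos g⁻¹)
  rw [hcomp]
  exact congrArg WithTop.untop₀ key

theorem m0_ord_sl_smul (γ : SL(2, ℤ)) (x : m0_MER) (τ : ℍ) :
    m0_ord τ (γ • x) = m0_ord (γ⁻¹ • τ) x := by
  rw [m0_sl_smul_def, m0_ord_smul, ← map_inv, m0_sl_smul]

theorem m0_ordO_smul (g : GL(2, ℝ)⁺) (f : m0_O) (τ : ℍ) :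
    m0_ordO τ (g • f) = m0_ordO (g⁻¹ • τ) f := by
  by_cases hf : f = 0
  · rw [hf, smul_zero]
    unfold m0_ordO
    rw [m0_fnO_zero]
    have h : ∀ w : ℂ, analyticOrderAt (0 : ℂ → ℂ) w = ⊤ := fun w =>
      analyticOrderAt_eq_top.mpr (Filter.Eventually.of_forall fun _ => rfl)
    rw [h, h]
  · have hgf : g • f ≠ 0 := by
      intro h
      apply hf
      have := congrArg (fun f => g⁻¹ • f) h
      simpa using this
    have h1 := m0_ord_smul g (algebraMap m0_O m0_MER f) τ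
    rw [m0_smul_algebraMap, m0_ord_algebraMap τ _ hgf, m0_ord_algebraMap _ _ hf] at h1
    exact_mod_cast h1

end Fermat.Agent.S42
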