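import Fermat.Agent.S42.Mer95
import Fermat.Agent.S42.MerOrd44
import Fermat.Agent.S24.Defs

/-!
# S42 / M0 (helper44, second seat): bridge `m0_MER ≃+* mer95_MER` and extras on `mer95_MER`

The binding M0 API is `Mer95.lean` (`mer95_*`).  This file
* identifies the twin framework `m0_*` (`Mer44.lean`, `MerOrd44.lean`) with it
  (`m0b44_equiv`, compatible with constants, both actions and the orders);
* adds a few lemmas on `mer95_MER` which are not in `Mer95.lean`: `ord` of integer powers,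
  negatives, differences, finite products, products of translates, the exact ultrametric
  inequality, the packaging of `mer95_ord τ` as an `OrdFn` of the S24 library, and the
  multiplicativity of `mer95_gl`.
-/

set_option autoImplicit false

open UpperHalfPlane
open scoped Manifold MatrixGroups Topology

namespace Fermat.Agent.S42

/-! ### The bridge -/

theorem m0b44_O_eq : m0_O = mer95_O := rfl

/-- The identity, as an isomorphism between the two copies of the ring of holomorphic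
functions. -/
noncomputable def m0b44_equivO : m0_O ≃ₐ[ℂ] mer95_O := AlgEquiv.refl

theorem m0b44_equivO_apply (f : m0_O) (τ : ℍ) : (m0b44_equivO f).1 τ = (f : ℍ → ℂ) τ := rfl

theorem m0b44_equivO_smul (g : GL(2, ℝ)⁺) (f : m0_O) :
    m0b44_equivO (g • f) = g • m0b44_equivO f := by
  apply Subtype.ext
  funext τ
  rfl

/-- The two fields of meromorphic functions are isomorphic. -/
noncomputable def m0b44_equiv : m0_MER ≃+* mer95_MER :=
  IsFractionRing.ringEquivOfRingEquiv (m0b44_equivO : m0_O ≃+* mer95_O)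

theorem m0b44_equiv_algebraMap (f : m0_O) :
    m0b44_equiv (algebraMap m0_O m0_MER f) = algebraMap mer95_O mer95_MER (m0b44_equivO f) := by
  unfold m0b44_equiv
  rw [IsFractionRing.ringEquivOfRingEquiv_algebraMap]
  rfl

theorem m0b44_equiv_C (c : ℂ) :
    m0b44_equiv (algebraMap ℂ m0_MER c) = algebraMap ℂ mer95_MER c := by
  rw [IsScalarTower.algebraMap_apply ℂ m0_O m0_MER, m0b44_equiv_algebraMap,
    IsScalarTower.algebraMap_apply ℂ mer95_O mer95_MER]
  rfl

theorem m0b44_equiv_div (a b : m0_O) :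
    m0b44_equiv (algebraMap m0_O m0_MER a / algebraMap m0_O m0_MER b) =
      algebraMap mer95_O mer95_MER (m0b44_equivO a) /
        algebraMap mer95_O mer95_MER (m0b44_equivO b) := by
  rw [map_div₀, m0b44_equiv_algebraMap, m0b44_equiv_algebraMap]

theorem m0b44_equiv_smul (g : GL(2, ℝ)⁺) (x : m0_MER) :
    m0b44_equiv (g • x) = g • m0b44_equiv x := by
  obtain ⟨a, b, -, rfl⟩ := m0_exists_div x
  rw [m0_smul_div, m0b44_equiv_div, m0b44_equiv_div, smul_div₀', mer95_smul_algebraMap,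
    mer95_smul_algebraMap, m0b44_equivO_smul, m0b44_equivO_smul]

theorem m0b44_equiv_smul_SL (g : SL(2, ℤ)) (x : m0_MER) :
    m0b44_equiv (g • x) = g • m0b44_equiv x := by
  have h : g • x = m0_sl g • x := rfl
  rw [h, m0b44_equiv_smul, mer95_SL_smul_eq]
  rfl

theorem m0b44_ord (τ : ℍ) (x : m0_MER) : mer95_ord τ (m0b44_equiv x) = m0_ord τ x := by
  by_cases hx : x = 0
  · subst hx
    rw [map_zero, mer95_ord_zero, m0_ord_zero]
  obtain ⟨a, b, hb, rfl⟩ := m0_exists_div x
  have ha : a ≠ 0 := by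
    rintro rfl
    apply hx
    rw [map_zero, zero_div]
  have ha' : m0b44_equivO a ≠ 0 := fun h => ha (m0b44_equivO.injective (by rw [h, map_zero]))
  have hb' : m0b44_equivO b ≠ 0 := fun h => hb (m0b44_equivO.injective (by rw [h, map_zero]))
  rw [m0b44_equiv_div, mer95_ord_div τ (mer95_algebraMap_ne_zero ha')
    (mer95_algebraMap_ne_zero hb'), mer95_ord_algebraMap, mer95_ord_algebraMap,
    m0_ord_div τ a b ha hb]
  rfl

theorem m0b44_ord_symm (τ : ℍ) (y : mer95_MER) : m0_ord τ (m0b44_equiv.symm y) = mer95_ord τ y := by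
  rw [← m0b44_ord, RingEquiv.apply_symm_apply]

/-! ### Extras on `mer95_MER`: the order -/

theorem m0b44_ord_zpow (τ : ℍ) (x : mer95_MER) (n : ℤ) :
    mer95_ord τ (x ^ n) = n * mer95_ord τ x := by
  cases n with
  | ofNat n => rw [Int.ofNat_eq_natCast, zpow_natCast, mer95_ord_pow]
  | negSucc n =>
    rw [zpow_negSucc, mer95_ord_inv, mer95_ord_pow, Int.negSucc_eq]
    push_cast
    ring

theorem m0b44_ord_neg (τ : ℍ) (x : mer95_MER) : mer95_ord τ (-x) = mer95_ord τ x := by
  by_cases hx : x = 0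
  · subst hx
    rw [neg_zero]
  have h1 : (-1 : mer95_MER) ≠ 0 := neg_ne_zero.mpr one_ne_zero
  have h2 : mer95_ord τ (-1 : mer95_MER) = 0 := by
    have h := mer95_ord_mul τ h1 h1
    rw [neg_one_mul, neg_neg, mer95_ord_one] at h
    omega
  rw [← neg_one_mul, mer95_ord_mul τ h1 hx, h2, zero_add]

theorem m0b44_ord_sub (τ : ℍ) {x y : mer95_MER} (hxy : x - y ≠ 0) :
    min (mer95_ord τ x) (mer95_ord τ y) ≤ mer95_ord τ (x - y) := by
  have h := mer95_ord_add τ (x := x) (y := -y) (by rwa [← sub_eq_add_neg])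
  rwa [m0b44_ord_neg, ← sub_eq_add_neg] at h

/-- Exact form of the ultrametric inequality. -/
theorem m0b44_ord_add_eq_of_lt (τ : ℍ) {x y : mer95_MER} (hx : x ≠ 0)
    (h : mer95_ord τ x < mer95_ord τ y) : mer95_ord τ (x + y) = mer95_ord τ x := by
  have hxy : x + y ≠ 0 := by
    intro h0
    have h1 : x = -y := eq_neg_of_add_eq_zero_left h0
    rw [h1, m0b44_ord_neg] at h
    exact lt_irrefl _ h
  have h1 := mer95_ord_add τ hxy
  have h2 : min (mer95_ord τ (x + y)) (mer95_ord τ y) ≤ mer95_ord τ (x + y - y) :=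
    m0b44_ord_sub τ (by rwa [add_sub_cancel_right])
  rw [add_sub_cancel_right] at h2
  rw [min_eq_left h.le] at h1
  rcases le_total (mer95_ord τ (x + y)) (mer95_ord τ y) with h3 | h3
  · rw [min_eq_left h3] at h2
    exact le_antisymm h2 h1
  · rw [min_eq_right h3] at h2
    omega

theorem m0b44_ord_sub_eq_of_lt (τ : ℍ) {x y : mer95_MER} (hx : x ≠ 0)
    (h : mer95_ord τ x < mer95_ord τ y) : mer95_ord τ (x - y) = mer95_ord τ x := by
  rw [sub_eq_add_neg]
  exact m0b44_ord_add_eq_of_lt τ hx (by rwa [m0b44_ord_neg])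

theorem m0b44_ord_prod {ι : Type*} (s : Finset ι) (f : ι → mer95_MER) (hf : ∀ i ∈ s, f i ≠ 0)
    (τ : ℍ) : mer95_ord τ (∏ i ∈ s, f i) = ∑ i ∈ s, mer95_ord τ (f i) := by
  classical
  induction s using Finset.induction_on with
  | empty => simp [mer95_ord_one]
  | insert a s ha ih =>
    rw [Finset.prod_insert ha, Finset.sum_insert ha,
      mer95_ord_mul τ (hf a (Finset.mem_insert_self a s))
        (Finset.prod_ne_zero_iff.mpr fun i hi => hf i (Finset.mem_insert_of_mem hi)),
      ih fun i hi => hf i (Finset.mem_insert_of_mem hi)]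

/-- **Order form of the product formula (K3).**  The order at `τ` of a product of translates of
`y` is the sum of the orders of `y` at the translated points. -/
theorem m0b44_ord_smul_prod {ι : Type*} [Fintype ι] (r : ι → GL(2, ℝ)⁺) (y : mer95_MER)
    (hy : y ≠ 0) (τ : ℍ) :
    mer95_ord τ (∏ i, r i • y) = ∑ i, mer95_ord ((r i)⁻¹ • τ) y := by
  rw [m0b44_ord_prod Finset.univ _ (fun i _ => (smul_ne_zero_iff_ne (r i)).mpr hy)]
  exact Finset.sum_congr rfl fun i _ => mer95_ord_smul (r i) τ y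

theorem m0b44_ord_smul_prod_SL {ι : Type*} [Fintype ι] (r : ι → SL(2, ℤ)) (y : mer95_MER)
    (hy : y ≠ 0) (τ : ℍ) :
    mer95_ord τ (∏ i, r i • y) = ∑ i, mer95_ord ((r i)⁻¹ • τ) y := by
  rw [m0b44_ord_prod Finset.univ _ (fun i _ => (smul_ne_zero_iff_ne (r i)).mpr hy)]
  exact Finset.sum_congr rfl fun i _ => mer95_ord_smul_SL (r i) τ y

/-! ### `mer95_ord τ` as an order function of the S24 library -/

/-- The order at `τ`, packaged as an `OrdFn` (S24). -/
noncomputable def m0b44_ordFn (τ : ℍ) : Fermat.Agent.S24.OrdFn ℂ mer95_MER where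
  ord := mer95_ord τ
  ord_mul _ _ hf hg := mer95_ord_mul τ hf hg
  ord_add _ _ _ _ hfg := mer95_ord_add τ hfg
  ord_const c _ := mer95_ord_C τ c

theorem m0b44_ordFn_ord (τ : ℍ) (x : mer95_MER) : (m0b44_ordFn τ).ord x = mer95_ord τ x := rfl

/-- The hypothesis `hwsmul` of `dg93_finite`, verbatim. -/
theorem m0b44_ordFn_smul_SL (g : SL(2, ℤ)) (τ : ℍ) (x : mer95_MER) :
    (m0b44_ordFn τ).ord (g • x) = (m0b44_ordFn (g⁻¹ • τ)).ord x :=
  mer95_ord_smul_SL g τ x

theorem m0b44_ordFn_smul (g : GL(2, ℝ)⁺) (τ : ℍ) (x : mer95_MER) :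
    (m0b44_ordFn τ).ord (g • x) = (m0b44_ordFn (g⁻¹ • τ)).ord x :=
  mer95_ord_smul g τ x

/-! ### Integer matrices -/

theorem m0b44_gl_mul (A B : Matrix (Fin 2) (Fin 2) ℤ) (hA : 0 < A.det) (hB : 0 < B.det)
    (hAB : 0 < (A * B).det) : mer95_gl (A * B) hAB = mer95_gl A hA * mer95_gl B hB := by
  apply Subtype.ext
  apply Matrix.GeneralLinearGroup.ext
  intro i j
  show ((A * B).map (Int.cast : ℤ → ℝ)) i j =
    ((A.map (Int.cast : ℤ → ℝ)) * (B.map (Int.cast : ℤ → ℝ))) i j
  rw [Matrix.map_mul_intCast]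

theorem m0b44_gl_mul' (A B : Matrix (Fin 2) (Fin 2) ℤ) (hA : 0 < A.det) (hB : 0 < B.det) :
    mer95_gl A hA * mer95_gl B hB =
      mer95_gl (A * B) (by rw [Matrix.det_mul]; exact mul_pos hA hB) :=
  (m0b44_gl_mul A B hA hB _).symm

theorem m0b44_gl_one : mer95_gl 1 (by rw [Matrix.det_one]; exact one_pos) = 1 := by
  apply Subtype.ext
  apply Matrix.GeneralLinearGroup.ext
  intro i j
  show ((1 : Matrix (Fin 2) (Fin 2) ℤ).map (Int.cast : ℤ → ℝ)) i j =
    (1 : Matrix (Fin 2) (Fin 2) ℝ) i j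
  rw [Matrix.map_one Int.cast Int.cast_zero Int.cast_one]

theorem m0b44_gl_congr {A B : Matrix (Fin 2) (Fin 2) ℤ} (h : A = B) (hA : 0 < A.det) :
    mer95_gl A hA = mer95_gl B (h ▸ hA) := by
  subst h
  rfl

theorem m0b44_slToGL_eq_gl (γ : SL(2, ℤ)) :
    mer95_slToGL γ =
      mer95_gl (γ : Matrix (Fin 2) (Fin 2) ℤ) (by rw [γ.det_coe]; exact one_pos) := by
  apply Subtype.ext
  apply Matrix.GeneralLinearGroup.ext
  intro i j
  rfl

/-- The action of `SL(2, ℤ)` is the action of the underlying integer matrix. -/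
theorem m0b44_SL_smul_eq_gl (γ : SL(2, ℤ)) (x : mer95_MER) :
    γ • x = mer95_gl (γ : Matrix (Fin 2) (Fin 2) ℤ) (by rw [γ.det_coe]; exact one_pos) • x := by
  rw [mer95_SL_smul_eq, m0b44_slToGL_eq_gl]

end Fermat.Agent.S42
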