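import Fermat.Agent.S42.Mer95
import Fermat.Agent.S24.Defs

/-!
# S42 / M0 adapter (helper95): `mer95_ord τ` as an `OrdFn` of S24

This is the shape consumed by `PlacesAbs36` (M4): `u τ := mer95_ordFn τ : OrdFn ℂ mer95_MER`.
-/

set_option autoImplicit false

open UpperHalfPlane
open scoped MatrixGroups

namespace Fermat.Agent.S42

noncomputable section

/-- The order at `τ` as an `OrdFn` (S24) on the field of meromorphic functions. -/
def mer95_ordFn (τ : ℍ) : Fermat.Agent.S24.OrdFn ℂ mer95_MER where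
  ord := mer95_ord τ
  ord_mul := fun _ _ hf hg => mer95_ord_mul τ hf hg
  ord_add := fun _ _ _ _ hfg => mer95_ord_add τ hfg
  ord_const := fun c _ => mer95_ord_C τ c

@[simp] theorem mer95_ordFn_ord (τ : ℍ) (x : mer95_MER) :
    (mer95_ordFn τ).ord x = mer95_ord τ x := rfl

theorem mer95_ordFn_smul (g : GL(2, ℝ)⁺) (τ : ℍ) (x : mer95_MER) :
    (mer95_ordFn τ).ord (g • x) = (mer95_ordFn (g⁻¹ • τ)).ord x :=
  mer95_ord_smul g τ x

theorem mer95_ordFn_smul_SL (g : SL(2, ℤ)) (τ : ℍ) (x : mer95_MER) :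
    (mer95_ordFn τ).ord (g • x) = (mer95_ordFn (g⁻¹ • τ)).ord x :=
  mer95_ord_smul_SL g τ x

/-- The form used for coset representatives: `ord_τ (g⁻¹ • x) = ord_{g τ} x`. -/
theorem mer95_ordFn_inv_smul_SL (g : SL(2, ℤ)) (τ : ℍ) (x : mer95_MER) :
    (mer95_ordFn τ).ord (g⁻¹ • x) = (mer95_ordFn (g • τ)).ord x := by
  rw [mer95_ordFn_smul_SL, inv_inv]

end

end Fermat.Agent.S42
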