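import Fermat.Agent.S42.Mer95

/-!
# S42 / M0 stage 2 (helper95): the value of a meromorphic function at a point of `ℍ`

`mer95_val τ x : ℂ` is the value at `τ` of `x : mer95_MER` when `0 ≤ mer95_ord τ x`
(junk value `0` when `x` has a pole at `τ`).  It is a ring homomorphism on the valuation ring
`{x | 0 ≤ mer95_ord τ x}`, its kernel is `{x | 0 < mer95_ord τ x}` (together with `0`), it extends
evaluation on `mer95_O`, and it is compatible with the action:
`mer95_val τ (g • x) = mer95_val (g⁻¹ • τ) x`.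
-/

set_option autoImplicit false

open UpperHalfPlane Matrix Filter
open scoped Manifold MatrixGroups Topology

namespace Fermat.Agent.S42

noncomputable section

/-! ### Germs of sums, products, images -/

theorem mer95_germ_zero : mer95_germ (0 : mer95_MER) = 0 := by
  have h0 : mer95_num (0 : mer95_MER) = 0 := by
    apply mer95_algebraMap_injective
    rw [← mer95_num_den, zero_mul, map_zero]
  funext w
  simp [mer95_germ, mer95_Q, h0, mer95_F_zero]

theorem mer95_germ_add (x y : mer95_MER) {z : ℂ} (hz : z ∈ mer95_U) :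
    mer95_germ (x + y) =ᶠ[𝓝[≠] z] mer95_germ x + mer95_germ y := by
  have hb := mer95_den_ne_zero x
  have hd := mer95_den_ne_zero y
  have h : (x + y) * algebraMap mer95_O mer95_MER (mer95_den x * mer95_den y) =
      algebraMap mer95_O mer95_MER (mer95_num x * mer95_den y + mer95_num y * mer95_den x) := by
    rw [map_mul, map_add, map_mul, map_mul, ← mer95_num_den x, ← mer95_num_den y]
    ring
  refine (mer95_germ_eq (mul_ne_zero hb hd) h hz).trans ?_
  filter_upwards [mer95_F_eventually_ne hb hz, mer95_F_eventually_ne hd hz] with w hw1 hw2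
  simp only [mer95_Q, mer95_germ, mer95_F_mul, mer95_F_add, Pi.mul_apply, Pi.add_apply]
  field_simp

theorem mer95_germ_mul (x y : mer95_MER) {z : ℂ} (hz : z ∈ mer95_U) :
    mer95_germ (x * y) =ᶠ[𝓝[≠] z] mer95_germ x * mer95_germ y := by
  have hb := mer95_den_ne_zero x
  have hd := mer95_den_ne_zero y
  have h : x * y * algebraMap mer95_O mer95_MER (mer95_den x * mer95_den y) =
      algebraMap mer95_O mer95_MER (mer95_num x * mer95_num y) := by
    rw [map_mul, map_mul, ← mer95_num_den x, ← mer95_num_den y]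
    ring
  refine (mer95_germ_eq (mul_ne_zero hb hd) h hz).trans ?_
  refine Filter.Eventually.of_forall fun w => ?_
  simp only [mer95_Q, mer95_germ, mer95_F_mul, Pi.mul_apply]
  rw [mul_div_mul_comm]

theorem mer95_germ_algebraMap (f : mer95_O) {z : ℂ} (hz : z ∈ mer95_U) :
    mer95_germ (algebraMap mer95_O mer95_MER f) =ᶠ[𝓝[≠] z] mer95_F f := by
  have h : algebraMap mer95_O mer95_MER f * algebraMap mer95_O mer95_MER 1 =
      algebraMap mer95_O mer95_MER f := by rw [map_one, mul_one]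
  refine (mer95_germ_eq one_ne_zero h hz).trans ?_
  refine Filter.Eventually.of_forall fun w => ?_
  simp [mer95_Q, mer95_F_one]

theorem mer95_germ_smul (g : GL(2, ℝ)⁺) (x : mer95_MER) {z : ℂ} (hz : z ∈ mer95_U) :
    mer95_germ (g • x) =ᶠ[𝓝[≠] z] mer95_germ x ∘ mer95_phi g⁻¹ := by
  have hb : g • mer95_den x ≠ 0 := by
    intro h
    exact mer95_den_ne_zero x ((smul_eq_zero_iff_eq g).mp h)
  have h : g • x * algebraMap mer95_O mer95_MER (g • mer95_den x) =
      algebraMap mer95_O mer95_MER (g • mer95_num x) := by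
    rw [← mer95_smul_algebraMap, ← mer95_smul_algebraMap, ← smul_mul', mer95_num_den]
  refine (mer95_germ_eq hb h hz).trans ?_
  refine Filter.Eventually.of_forall fun w => ?_
  simp only [mer95_Q, mer95_germ, mer95_F_smul, Function.comp_apply]

/-- The Moebius map sends punctured neighbourhoods to punctured neighbourhoods. -/
theorem mer95_phi_tendsto_nhdsNE (g : GL(2, ℝ)⁺) {z : ℂ} (hz : z ∈ mer95_U) :
    Tendsto (mer95_phi g) (𝓝[≠] z) (𝓝[≠] (mer95_phi g z)) := by
  refine tendsto_nhdsWithin_iff.2 ⟨?_, ?_⟩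
  · exact (mer95_phi_analyticAt g hz).continuousAt.tendsto.mono_left nhdsWithin_le_nhds
  · filter_upwards [mer95_eventually_mem_U hz, self_mem_nhdsWithin] with w hw hne
    intro h
    apply hne
    have h1 := mer95_phi_inv_phi g hw
    have h2 := mer95_phi_inv_phi g hz
    have h3 : mer95_phi g w = mer95_phi g z := h
    rw [h3, h2] at h1
    exact h1.symm

/-! ### The value -/

/-- The value of `x` at `τ` (junk value `0` if `x` has a pole at `τ`). -/
def mer95_val (τ : ℍ) (x : mer95_MER) : ℂ :=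
  if 0 ≤ mer95_ord τ x then limUnder (𝓝[≠] (τ : ℂ)) (mer95_germ x) else 0

theorem mer95_val_of_ord_neg {τ : ℍ} {x : mer95_MER} (h : mer95_ord τ x < 0) :
    mer95_val τ x = 0 := by
  rw [mer95_val, if_neg (not_le.mpr h)]

/-- If `x` has no pole at `τ`, its germ tends to its value. -/
theorem mer95_tendsto_val {τ : ℍ} {x : mer95_MER} (h : 0 ≤ mer95_ord τ x) :
    Tendsto (mer95_germ x) (𝓝[≠] (τ : ℂ)) (𝓝 (mer95_val τ x)) := by
  rw [mer95_val, if_pos h]
  apply tendsto_nhds_limUnder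
  by_cases hx : x = 0
  · subst hx
    rw [mer95_germ_zero]
    exact ⟨0, tendsto_const_nhds⟩
  · apply tendsto_nhds_of_meromorphicOrderAt_nonneg
      (mer95_germ_meromorphicAt x (mer95_coe_mem_U τ))
    have h1 := mer95_coe_ord hx τ
    rw [mer95_ordC] at h1
    rw [← h1]
    exact_mod_cast h

/-- If the germ of `x` has a limit at `τ`, then `x` has no pole at `τ`. -/
theorem mer95_ord_nonneg_of_tendsto {τ : ℍ} {x : mer95_MER} {c : ℂ}
    (h : Tendsto (mer95_germ x) (𝓝[≠] (τ : ℂ)) (𝓝 c)) : 0 ≤ mer95_ord τ x := by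
  by_cases hx : x = 0
  · subst hx
    rw [mer95_ord_zero]
  · have h1 := (tendsto_nhds_iff_meromorphicOrderAt_nonneg
      (mer95_germ_meromorphicAt x (mer95_coe_mem_U τ))).mp ⟨c, h⟩
    have h2 := mer95_coe_ord hx τ
    rw [mer95_ordC] at h2
    rw [← h2] at h1
    exact_mod_cast h1

/-- The value is the limit of the germ. -/
theorem mer95_val_eq_of_tendsto {τ : ℍ} {x : mer95_MER} {c : ℂ}
    (h : Tendsto (mer95_germ x) (𝓝[≠] (τ : ℂ)) (𝓝 c)) : mer95_val τ x = c :=
  tendsto_nhds_unique (mer95_tendsto_val (mer95_ord_nonneg_of_tendsto h)) h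

/-- The value computed from any representation `x = a / b`. -/
theorem mer95_val_eq_of_tendsto_Q {τ : ℍ} {x : mer95_MER} {a b : mer95_O} {c : ℂ} (hb : b ≠ 0)
    (h : x * algebraMap mer95_O mer95_MER b = algebraMap mer95_O mer95_MER a)
    (ht : Tendsto (mer95_Q a b) (𝓝[≠] (τ : ℂ)) (𝓝 c)) : mer95_val τ x = c :=
  mer95_val_eq_of_tendsto (ht.congr' (mer95_germ_eq hb h (mer95_coe_mem_U τ)).symm)

/-- `x = a / b` with `b τ ≠ 0`: no pole at `τ`, and the value is `a τ / b τ`. -/
theorem mer95_tendsto_Q {τ : ℍ} (a b : mer95_O) (hbτ : b.1 τ ≠ 0) :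
    Tendsto (mer95_Q a b) (𝓝[≠] (τ : ℂ)) (𝓝 (a.1 τ / b.1 τ)) := by
  have ha : ContinuousAt (mer95_F a) (τ : ℂ) :=
    (mer95_F_analyticAt a (mer95_coe_mem_U τ)).continuousAt
  have hb : ContinuousAt (mer95_F b) (τ : ℂ) :=
    (mer95_F_analyticAt b (mer95_coe_mem_U τ)).continuousAt
  have hbτ' : mer95_F b (τ : ℂ) ≠ 0 := by rwa [mer95_F_apply_coe]
  have h := (ha.div hb hbτ').tendsto.mono_left (nhdsWithin_le_nhds (s := {(τ : ℂ)}ᶜ))
  have h1 : (mer95_F a / mer95_F b) (τ : ℂ) = a.1 τ / b.1 τ := by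
    rw [Pi.div_apply, mer95_F_apply_coe, mer95_F_apply_coe]
  rw [h1] at h
  exact h

theorem mer95_val_eq_div {τ : ℍ} {x : mer95_MER} {a b : mer95_O} (hbτ : b.1 τ ≠ 0)
    (h : x * algebraMap mer95_O mer95_MER b = algebraMap mer95_O mer95_MER a) :
    mer95_val τ x = a.1 τ / b.1 τ := by
  have hb : b ≠ 0 := by
    rintro rfl
    exact hbτ rfl
  exact mer95_val_eq_of_tendsto_Q hb h (mer95_tendsto_Q a b hbτ)

theorem mer95_ord_nonneg_of_rep {τ : ℍ} {x : mer95_MER} {a b : mer95_O} (hbτ : b.1 τ ≠ 0)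
    (h : x * algebraMap mer95_O mer95_MER b = algebraMap mer95_O mer95_MER a) :
    0 ≤ mer95_ord τ x := by
  have hb : b ≠ 0 := by
    rintro rfl
    exact hbτ rfl
  exact mer95_ord_nonneg_of_tendsto
    ((mer95_tendsto_Q a b hbτ).congr' (mer95_germ_eq hb h (mer95_coe_mem_U τ)).symm)

theorem mer95_val_algebraMap (τ : ℍ) (f : mer95_O) :
    mer95_val τ (algebraMap mer95_O mer95_MER f) = f.1 τ := by
  have h : algebraMap mer95_O mer95_MER f * algebraMap mer95_O mer95_MER 1 =
      algebraMap mer95_O mer95_MER f := by rw [map_one, mul_one]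
  have h1 : (1 : mer95_O).1 τ ≠ 0 := one_ne_zero
  rw [mer95_val_eq_div h1 h]
  show f.1 τ / 1 = f.1 τ
  rw [div_one]

theorem mer95_val_C (τ : ℍ) (c : ℂ) : mer95_val τ (algebraMap ℂ mer95_MER c) = c := by
  rw [IsScalarTower.algebraMap_apply ℂ mer95_O mer95_MER, mer95_val_algebraMap]
  rfl

theorem mer95_val_zero (τ : ℍ) : mer95_val τ 0 = 0 := by
  have h := mer95_val_C τ 0
  rwa [map_zero] at h

theorem mer95_val_one (τ : ℍ) : mer95_val τ 1 = 1 := by
  have h := mer95_val_C τ 1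
  rwa [map_one] at h

theorem mer95_ord_add_nonneg {τ : ℍ} {x y : mer95_MER} (hx : 0 ≤ mer95_ord τ x)
    (hy : 0 ≤ mer95_ord τ y) : 0 ≤ mer95_ord τ (x + y) := by
  by_cases hxy : x + y = 0
  · rw [hxy, mer95_ord_zero]
  · exact le_trans (le_min hx hy) (mer95_ord_add τ hxy)

theorem mer95_ord_mul_nonneg {τ : ℍ} {x y : mer95_MER} (hx : 0 ≤ mer95_ord τ x)
    (hy : 0 ≤ mer95_ord τ y) : 0 ≤ mer95_ord τ (x * y) := by
  by_cases hx0 : x = 0
  · rw [hx0, zero_mul, mer95_ord_zero]
  by_cases hy0 : y = 0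
  · rw [hy0, mul_zero, mer95_ord_zero]
  rw [mer95_ord_mul τ hx0 hy0]
  exact add_nonneg hx hy

theorem mer95_ord_neg (τ : ℍ) (x : mer95_MER) : mer95_ord τ (-x) = mer95_ord τ x := by
  by_cases hx : x = 0
  · rw [hx, neg_zero]
  have h1 : (-1 : mer95_MER) = algebraMap ℂ mer95_MER (-1) := by
    rw [map_neg, map_one]
  have h2 : (-1 : mer95_MER) ≠ 0 := neg_ne_zero.mpr one_ne_zero
  rw [← neg_one_mul, mer95_ord_mul τ h2 hx, h1, mer95_ord_C, zero_add]

theorem mer95_val_add (τ : ℍ) {x y : mer95_MER} (hx : 0 ≤ mer95_ord τ x)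
    (hy : 0 ≤ mer95_ord τ y) : mer95_val τ (x + y) = mer95_val τ x + mer95_val τ y := by
  apply mer95_val_eq_of_tendsto
  exact ((mer95_tendsto_val hx).add (mer95_tendsto_val hy)).congr'
    (mer95_germ_add x y (mer95_coe_mem_U τ)).symm

theorem mer95_val_mul (τ : ℍ) {x y : mer95_MER} (hx : 0 ≤ mer95_ord τ x)
    (hy : 0 ≤ mer95_ord τ y) : mer95_val τ (x * y) = mer95_val τ x * mer95_val τ y := by
  apply mer95_val_eq_of_tendsto
  exact ((mer95_tendsto_val hx).mul (mer95_tendsto_val hy)).congr'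
    (mer95_germ_mul x y (mer95_coe_mem_U τ)).symm

theorem mer95_val_neg (τ : ℍ) (x : mer95_MER) : mer95_val τ (-x) = - mer95_val τ x := by
  by_cases hx : 0 ≤ mer95_ord τ x
  · have h1 : (-1 : mer95_MER) = algebraMap ℂ mer95_MER (-1) := by
      rw [map_neg, map_one]
    have h2 : 0 ≤ mer95_ord τ (-1 : mer95_MER) := by
      rw [h1, mer95_ord_C]
    rw [← neg_one_mul, mer95_val_mul τ h2 hx, h1, mer95_val_C, neg_one_mul]
  · rw [mer95_val_of_ord_neg (not_le.mp hx), neg_zero]
    apply mer95_val_of_ord_neg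
    rw [mer95_ord_neg]
    exact not_le.mp hx

theorem mer95_val_sub (τ : ℍ) {x y : mer95_MER} (hx : 0 ≤ mer95_ord τ x)
    (hy : 0 ≤ mer95_ord τ y) : mer95_val τ (x - y) = mer95_val τ x - mer95_val τ y := by
  have hy' : 0 ≤ mer95_ord τ (-y) := by rwa [mer95_ord_neg]
  rw [sub_eq_add_neg, mer95_val_add τ hx hy', mer95_val_neg, ← sub_eq_add_neg]

theorem mer95_ord_pow_nonneg {τ : ℍ} {x : mer95_MER} (hx : 0 ≤ mer95_ord τ x) (n : ℕ) :
    0 ≤ mer95_ord τ (x ^ n) := by
  rw [mer95_ord_pow]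
  exact mul_nonneg (Int.natCast_nonneg n) hx

theorem mer95_val_pow (τ : ℍ) {x : mer95_MER} (hx : 0 ≤ mer95_ord τ x) (n : ℕ) :
    mer95_val τ (x ^ n) = mer95_val τ x ^ n := by
  induction n with
  | zero => rw [pow_zero, pow_zero, mer95_val_one]
  | succ n ih =>
    rw [pow_succ, pow_succ, mer95_val_mul τ (mer95_ord_pow_nonneg hx n) hx, ih]

/-- The kernel of the value map on the valuation ring is the maximal ideal. -/
theorem mer95_val_eq_zero_iff (τ : ℍ) {x : mer95_MER} (hx : x ≠ 0) (h : 0 ≤ mer95_ord τ x) :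
    mer95_val τ x = 0 ↔ 0 < mer95_ord τ x := by
  have hmer := mer95_germ_meromorphicAt x (mer95_coe_mem_U τ)
  have h2 := mer95_coe_ord hx τ
  rw [mer95_ordC] at h2
  have key : (0 < meromorphicOrderAt (mer95_germ x) (τ : ℂ)) ↔ 0 < mer95_ord τ x := by
    rw [← h2]
    exact_mod_cast Iff.rfl
  rw [← key, ← tendsto_zero_iff_meromorphicOrderAt_pos hmer]
  constructor
  · intro h0
    have := mer95_tendsto_val h
    rwa [h0] at this
  · intro ht
    exact mer95_val_eq_of_tendsto ht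

/-- A unit of the valuation ring has nonzero value. -/
theorem mer95_val_ne_zero (τ : ℍ) {x : mer95_MER} (hx : x ≠ 0) (h : mer95_ord τ x = 0) :
    mer95_val τ x ≠ 0 := by
  intro h0
  have := (mer95_val_eq_zero_iff τ hx h.ge).mp h0
  omega

theorem mer95_val_inv (τ : ℍ) {x : mer95_MER} (hx : x ≠ 0) (h : mer95_ord τ x = 0) :
    mer95_val τ x⁻¹ = (mer95_val τ x)⁻¹ := by
  have h1 : 0 ≤ mer95_ord τ x⁻¹ := by rw [mer95_ord_inv, h]; rfl
  have h2 := mer95_val_mul τ h.ge h1
  rw [mul_inv_cancel₀ hx, mer95_val_one] at h2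
  exact eq_inv_of_mul_eq_one_right h2.symm

/-! ### The value and the action -/

theorem mer95_val_smul (g : GL(2, ℝ)⁺) (τ : ℍ) (x : mer95_MER) :
    mer95_val τ (g • x) = mer95_val (g⁻¹ • τ) x := by
  by_cases h : 0 ≤ mer95_ord (g⁻¹ • τ) x
  · apply mer95_val_eq_of_tendsto
    have h1 := mer95_tendsto_val h
    have h2 := mer95_phi_tendsto_nhdsNE g⁻¹ (mer95_coe_mem_U τ)
    rw [mer95_phi_coe] at h2
    exact (h1.comp h2).congr' (mer95_germ_smul g x (mer95_coe_mem_U τ)).symm
  · rw [mer95_val_of_ord_neg (not_le.mp h)]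
    apply mer95_val_of_ord_neg
    rw [mer95_ord_smul]
    exact not_le.mp h

theorem mer95_val_smul_SL (g : SL(2, ℤ)) (τ : ℍ) (x : mer95_MER) :
    mer95_val τ (g • x) = mer95_val (g⁻¹ • τ) x := by
  rw [mer95_SL_smul_eq, mer95_val_smul, ← map_inv, mer95_slToGL_smul]

end

end Fermat.Agent.S42
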