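import Mathlib

/-!
# S42, row M8f (helper49): norm = product over distinct embeddings (K3-relative, no `hL1`)

`nm49_norm_eq_prod_algHom`: for a finite extension `F'/F` of characteristic zero and ANY family
of `[F' : F]` pairwise distinct `F`-embeddings `σ i : F' → M` into a field `M` (not assumed
algebraically closed), `Nm_{F'/F} v = ∏ i, σ i v` in `M`.

`nm49_norm_eq_prod`: the same when the embeddings are `y ↦ r i • e' y` for a group `G` acting on
`M` by ring automorphisms, `e : F →+* M`, `e' : F' →+* M` compatible with `F → F'`, the `r i`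
fixing `e F` pointwise and acting pairwise differently on `e' F'`.

Intended instance (M8 of Directive 11): `F = F_ℚ̄(N)`, `F' = F_ℚ̄(Nℓ)` along the inclusion `α`,
`M` = the field of meromorphic functions on the upper half plane, `G ∋ r i` = representatives of
`Γ₀(Nℓ) \ Γ₀(N)`; no descent/`K2` input is needed.
-/

set_option autoImplicit false
set_option linter.style.haveILetI false

namespace Fermat.Agent.S42

/-- Norm = product over a family of `[F' : F]` pairwise distinct embeddings into a field `M`. -/
theorem nm49_norm_eq_prod_algHom {F F' M ι : Type*} [Field F] [Field F'] [Field M] [CharZero F]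
    [Algebra F F'] [FiniteDimensional F F'] [Algebra F M] [Fintype ι]
    (σ : ι → (F' →ₐ[F] M)) (hσ : Function.Injective σ)
    (hcard : Fintype.card ι = Module.finrank F F') (v : F') :
    algebraMap F M (Algebra.norm F v) = ∏ i, σ i v := by
  classical
  let τ : ι → (F' →ₐ[F] AlgebraicClosure M) :=
    fun i => (IsScalarTower.toAlgHom F M (AlgebraicClosure M)).comp (σ i)
  have hτ : Function.Injective τ := by
    intro i j hij
    apply hσ
    ext y
    have h := DFunLike.congr_fun hij y
    exact (algebraMap M (AlgebraicClosure M)).injective h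
  have hcardE : Fintype.card (F' →ₐ[F] AlgebraicClosure M) = Module.finrank F F' :=
    AlgHom.card F F' (AlgebraicClosure M)
  have hbij : Function.Bijective τ := by
    rw [Fintype.bijective_iff_injective_and_card]
    exact ⟨hτ, by rw [hcard, hcardE]⟩
  have h1 := Algebra.norm_eq_prod_embeddings F (AlgebraicClosure M) v
  have h2 : ∏ σ' : F' →ₐ[F] AlgebraicClosure M, σ' v = ∏ i, τ i v :=
    (Fintype.prod_bijective τ hbij _ _ (fun _ => rfl)).symm
  apply (algebraMap M (AlgebraicClosure M)).injective
  rw [map_prod, ← IsScalarTower.algebraMap_apply, h1, h2]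
  rfl

/-- Trace = sum over a family of `[F' : F]` pairwise distinct embeddings into a field `M`. -/
theorem nm49_trace_eq_sum_algHom {F F' M ι : Type*} [Field F] [Field F'] [Field M] [CharZero F]
    [Algebra F F'] [FiniteDimensional F F'] [Algebra F M] [Fintype ι]
    (σ : ι → (F' →ₐ[F] M)) (hσ : Function.Injective σ)
    (hcard : Fintype.card ι = Module.finrank F F') (v : F') :
    algebraMap F M (Algebra.trace F F' v) = ∑ i, σ i v := by
  classical
  let τ : ι → (F' →ₐ[F] AlgebraicClosure M) :=
    fun i => (IsScalarTower.toAlgHom F M (AlgebraicClosure M)).comp (σ i)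
  have hτ : Function.Injective τ := by
    intro i j hij
    apply hσ
    ext y
    have h := DFunLike.congr_fun hij y
    exact (algebraMap M (AlgebraicClosure M)).injective h
  have hcardE : Fintype.card (F' →ₐ[F] AlgebraicClosure M) = Module.finrank F F' :=
    AlgHom.card F F' (AlgebraicClosure M)
  have hbij : Function.Bijective τ := by
    rw [Fintype.bijective_iff_injective_and_card]
    exact ⟨hτ, by rw [hcard, hcardE]⟩
  have h1 := trace_eq_sum_embeddings (K := F) (L := F') (AlgebraicClosure M) (x := v)
  have h2 : ∑ σ' : F' →ₐ[F] AlgebraicClosure M, σ' v = ∑ i, τ i v :=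
    (Fintype.sum_bijective τ hbij _ _ (fun _ => rfl)).symm
  apply (algebraMap M (AlgebraicClosure M)).injective
  rw [map_sum, ← IsScalarTower.algebraMap_apply, h1, h2]
  rfl

/-- **K3-relative without `hL1`.**  `e (Nm_{F'/F} v) = ∏ i, r i • e' v` for `[F' : F]` elements
`r i` of a group acting on `M`, fixing `e F` pointwise and pairwise different on `e' F'`. -/
theorem nm49_norm_eq_prod {F F' M G ι : Type*} [Field F] [Field F'] [Field M] [CharZero F]
    [Algebra F F'] [FiniteDimensional F F'] [Group G] [MulSemiringAction G M] [Fintype ι]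
    (e : F →+* M) (e' : F' →+* M) (hcomp : ∀ x : F, e' (algebraMap F F' x) = e x)
    (r : ι → G) (hfix : ∀ i (x : F), r i • e x = e x)
    (hdist : ∀ i j, (∀ y : F', r i • e' y = r j • e' y) → i = j)
    (hcard : Fintype.card ι = Module.finrank F F') (v : F') :
    e (Algebra.norm F v) = ∏ i, r i • e' v := by
  letI : Algebra F M := e.toAlgebra
  let σ : ι → (F' →ₐ[F] M) := fun i =>
    { toRingHom := (MulSemiringAction.toRingHom G M (r i)).comp e'
      commutes' := fun x => by
        show r i • e' (algebraMap F F' x) = e x
        rw [hcomp, hfix] }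
  have hσ : Function.Injective σ := by
    intro i j hij
    exact hdist i j (fun y => DFunLike.congr_fun hij y)
  exact nm49_norm_eq_prod_algHom σ hσ hcard v

/-- Trace version of `nm49_norm_eq_prod`. -/
theorem nm49_trace_eq_sum {F F' M G ι : Type*} [Field F] [Field F'] [Field M] [CharZero F]
    [Algebra F F'] [FiniteDimensional F F'] [Group G] [MulSemiringAction G M] [Fintype ι]
    (e : F →+* M) (e' : F' →+* M) (hcomp : ∀ x : F, e' (algebraMap F F' x) = e x)
    (r : ι → G) (hfix : ∀ i (x : F), r i • e x = e x)
    (hdist : ∀ i j, (∀ y : F', r i • e' y = r j • e' y) → i = j)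
    (hcard : Fintype.card ι = Module.finrank F F') (v : F') :
    e (Algebra.trace F F' v) = ∑ i, r i • e' v := by
  letI : Algebra F M := e.toAlgebra
  let σ : ι → (F' →ₐ[F] M) := fun i =>
    { toRingHom := (MulSemiringAction.toRingHom G M (r i)).comp e'
      commutes' := fun x => by
        show r i • e' (algebraMap F F' x) = e x
        rw [hcomp, hfix] }
  have hσ : Function.Injective σ := by
    intro i j hij
    exact hdist i j (fun y => DFunLike.congr_fun hij y)
  exact nm49_trace_eq_sum_algHom σ hσ hcard v

end Fermat.Agent.S42
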