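import Fermat.Agent.S37.ChartModClose80

/-!
# S42 / M10 input (helper13): the hypothesis-free S37 package

`pk13_pack` exports what the proof of `h64_final0` builds internally, with every hypothesis
discharged on main (S18, Hecke inputs, weak Riemann, reduction data at the levels `lcm N p₀`):
for every prime `ℓ ∤ N`, every `p` with `ℓ ∤ p` and every valuation ring `A` of `ℚ̄` over `ℓ`
a homomorphism `c : Div F(N) →+ G` which is inertia-invariant, Frobenius-equivariant, satisfies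
the Eichler-Shimura relation on divisors of degree zero and is injective on the classes of
degree-zero divisors killed by a power of `p`.  No `HeckeOperatorsCommuteBar`, no `SMulCommClass`.
-/

set_option autoImplicit false
set_option linter.style.haveILetI false

namespace Fermat.Agent.S42

open ModularCurve AlgebraicCurve Fermat.Agent.S37

local notation "Qb" => AlgebraicClosure ℚ
local notation "GQ" => AlgebraicClosure ℚ ≃ₐ[ℚ] AlgebraicClosure ℚ

/-- **The S37 package, hypothesis-free**, in the shape `h64_Pack0 … 1`. -/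
theorem pk13_pack (N p ℓ : ℕ) [NeZero N] (hℓ : ℓ.Prime) [NeZero ℓ] (hN : ¬ ℓ ∣ N)
    (hp : ¬ ℓ ∣ p) (A : ValuationSubring Qb) (hA : A.LiesOverPrime ℓ) :
    ∃ (hα : HeckeAlphaBarIntegral Qb N ℓ) (hβ : HeckeBetaBarIntegral Qb N ℓ)
      (hP : HasPrincipalDivisors Qb (modularFunctionFieldBar (N * ℓ))),
      @h64_Pack0 N p ℓ _ _ A hα hβ hP 1 := by
  obtain ⟨hα, hβ, hP, hfin, hFI, hNF⟩ := hi63_heckeInputsAlong N ℓ
  haveI := hP
  have hS18 : ∀ (M : ℕ) [NeZero M], ¬ ℓ ∣ M → top13_S18At M A ℓ := by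
    intro M _ hM h m hm z hmz hz
    haveI : Fact ℓ.Prime := ⟨hℓ⟩
    exact Fermat.Agent.S18.result M hM A hA h m hm z hmz hz
  have key : ∀ p₀ : ℕ, p₀.Prime → (p₀ = 2 ∨ p₀ = 3) → ℓ ≠ p₀ →
      h64_Pack0 N p ℓ A hα hβ (dedekindPsi (Nat.lcm N p₀) / dedekindPsi N) := by
    intro p₀ hp₀ h23 hne
    haveI : NeZero (Nat.lcm N p₀) := ⟨Nat.lcm_ne_zero (NeZero.ne N) hp₀.ne_zero⟩
    have hℓN' : ¬ ℓ ∣ Nat.lcm N p₀ := by
      intro hdvd
      have h1 : ℓ ∣ N * p₀ := hdvd.trans (Nat.lcm_dvd_mul N p₀)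
      rcases (Nat.Prime.dvd_mul hℓ).mp h1 with h2 | h2
      · exact hN h2
      · exact hne ((Nat.prime_dvd_prime_iff_eq hℓ hp₀).mp h2)
    have h23' : 2 ∣ Nat.lcm N p₀ ∨ 3 ∣ Nat.lcm N p₀ := by
      rcases h23 with rfl | rfl
      · exact Or.inl (Nat.dvd_lcm_right N 2)
      · exact Or.inr (Nat.dvd_lcm_right N 3)
    exact h64_pack_of_rc (Nat.dvd_lcm_left N p₀) hℓ hN p hp hA
      (hS18 (Nat.lcm N p₀) hℓN') hα hβ hFI (dz66_WR_modular N)
      (cm80_h64_RC (Nat.lcm N p₀) ℓ hℓ hℓN' h23' A hA)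
  have hpack : ∃ n : ℕ, Nat.Coprime n p ∧ h64_Pack0 N p ℓ A hα hβ n := by
    by_cases h2 : ℓ = 2
    · refine ⟨_, ?_, key 3 Nat.prime_three (Or.inr rfl) (by omega)⟩
      rcases Fermat.Agent.S18.nd38_psi_lcm N 3 Nat.prime_three with h | h
      · rw [h]
        exact Nat.coprime_one_left _
      · rw [h, show 3 + 1 = 2 ^ 2 from rfl]
        refine Nat.Coprime.pow_left 2 ?_
        rw [Nat.Prime.coprime_iff_not_dvd Nat.prime_two]
        rw [h2] at hp
        exact hp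
    by_cases h3 : ℓ = 3
    · refine ⟨_, ?_, key 2 Nat.prime_two (Or.inl rfl) (by omega)⟩
      rcases Fermat.Agent.S18.nd38_psi_lcm N 2 Nat.prime_two with h | h
      · rw [h]
        exact Nat.coprime_one_left _
      · rw [h, show 2 + 1 = 3 from rfl, Nat.Prime.coprime_iff_not_dvd Nat.prime_three]
        rw [h3] at hp
        exact hp
    · refine ⟨_, ?_, h64_pack_prod0 (key 2 Nat.prime_two (Or.inl rfl) h2)
        (key 3 Nat.prime_three (Or.inr rfl) h3)⟩
      have hg : Nat.gcd (dedekindPsi (Nat.lcm N 2) / dedekindPsi N)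
          (dedekindPsi (Nat.lcm N 3) / dedekindPsi N) = 1 := by
        rcases Fermat.Agent.S18.nd38_psi_lcm N 2 Nat.prime_two with h | h <;>
          rcases Fermat.Agent.S18.nd38_psi_lcm N 3 Nat.prime_three with h' | h' <;>
          rw [h, h'] <;> decide
      rw [hg]
      exact Nat.coprime_one_left _
  obtain ⟨n, hn, G, instG, c, Fr, V, h1, h2, h3, h4, h5⟩ := hpack
  refine ⟨hα, hβ, hP, G, instG, c, Fr, V, h1, h2, h3, h4, ?_⟩
  rintro D hD hcD ⟨k, hk⟩
  have hnD := h5 D hD hcD ⟨k, hk⟩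
  have hcop : Nat.Coprime n (p ^ k) := Nat.Coprime.pow_right k hn
  have hbez : (1 : ℤ) = (n : ℤ) * Nat.gcdA n (p ^ k) + ((p ^ k : ℕ) : ℤ) * Nat.gcdB n (p ^ k) := by
    have := Nat.gcd_eq_gcd_ab n (p ^ k)
    rw [hcop] at this
    exact_mod_cast this
  have h6 : D = Nat.gcdA n (p ^ k) • (n • D) + Nat.gcdB n (p ^ k) • ((p ^ k) • D) := by
    conv_lhs => rw [← one_zsmul D, hbez, add_smul, mul_comm (n : ℤ),
      mul_comm ((p ^ k : ℕ) : ℤ), mul_smul, mul_smul, natCast_zsmul, natCast_zsmul]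
  rw [one_smul, h6]
  exact AddSubgroup.add_mem _ (AddSubgroup.zsmul_mem _ hnD _) (AddSubgroup.zsmul_mem _ hk _)

end Fermat.Agent.S42
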