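import Fermat.Agent.S24.Counting

/-!
S42 / S29, row M12-exact (helper93): exact ramification indices of the analytic valuations.

Setting of S24's `wp3_card_zeros_eq_numOrbits'` (generic in the constant field `K`):
a family of embeddings `σ a : F →ₐ[K] M` indexed by a finite set `X`, an order function `w` on
`M`, and a permutation `π` of `X` of exponent `e₀` such that `w ∘ σ` is `π`-invariant and
`e₀ / (period of a)` divides `w (σ a f)`.  Then the counting squeeze `∑ e_v = [F : K(y)]` is an
equality termwise, so the order function `w ∘ σ a` is EXACTLY `e₀ / (period of a)` times the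
normalised order of its place.

* `pe93_count_eq` : the combinatorial core (termwise equality in `wp3_count`).
* `pe93_exact`    : the exactness statement.
* `pe93_exact_dvd`: the divisibility corollary used for the `p`-divisibility of `div (u ^ p)`.
-/

set_option autoImplicit false

open ModularCurve AlgebraicCurve MatrixGroups IntermediateField

namespace Fermat.Agent.S42

open Fermat.Agent.S24

section Counting

variable {X P : Type*} [Fintype X] [Fintype P]

/-- Termwise form of `wp3_count`: if `Φ : X → P` is surjective and `π`-invariant, `∑ d = |X|`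
and `d (Φ a) ≤ period of a`, then `d (Φ a) = period of a` for every `a`. -/
theorem pe93_count_eq (π : Equiv.Perm X) (Φ : X → P) (hΦsurj : Function.Surjective Φ)
    (hΦπ : ∀ a, Φ (π a) = Φ a) (d : P → ℕ) (hsum : ∑ p, d p = Fintype.card X)
    (hd : ∀ a, d (Φ a) ≤ Function.minimalPeriod π a) (a : X) :
    d (Φ a) = Function.minimalPeriod π a := by
  classical
  have hpow : ∀ (n : ℕ) (a : X), Φ ((π ^ n) a) = Φ a := by
    intro n
    induction n with
    | zero => intro a; simp
    | succ n ih => intro a; rw [pow_succ', Equiv.Perm.mul_apply, hΦπ, ih]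
  let fib : P → Finset X := fun p => Finset.univ.filter (fun a => Φ a = p)
  let orb : X → Finset X := fun a =>
    (Finset.range (Function.minimalPeriod π a)).image (fun i => (π ^ i) a)
  have horb_card : ∀ a, (orb a).card = Function.minimalPeriod π a := by
    intro a
    rw [Finset.card_image_of_injOn, Finset.card_range]
    intro i hi j hj hij
    have := Function.iterate_injOn_Iio_minimalPeriod (f := π) (x := a)
    apply this (by simpa using hi) (by simpa using hj)
    simpa [Equiv.Perm.iterate_eq_pow] using hij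
  have horb_sub : ∀ a, orb a ⊆ fib (Φ a) := by
    intro a b hb
    simp only [orb, Finset.mem_image, Finset.mem_range] at hb
    obtain ⟨i, -, rfl⟩ := hb
    simp [fib, hpow]
  have hfib_ge : ∀ p, d p ≤ (fib p).card := by
    intro p
    obtain ⟨a, rfl⟩ := hΦsurj p
    calc d (Φ a) ≤ Function.minimalPeriod π a := hd a
      _ = (orb a).card := (horb_card a).symm
      _ ≤ (fib (Φ a)).card := Finset.card_le_card (horb_sub a)
  have hfib_sum : ∑ p, (fib p).card = Fintype.card X := by
    rw [← Finset.card_univ]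
    exact (Finset.card_eq_sum_card_fiberwise (f := Φ) (s := Finset.univ) (t := Finset.univ)
      (fun _ _ => Finset.mem_univ _)).symm
  have hfib_eq : ∀ p, (fib p).card = d p := by
    have := (Finset.sum_eq_sum_iff_of_le (s := Finset.univ) (f := d)
      (g := fun p => (fib p).card) (fun p _ => hfib_ge p)).mp (by rw [hsum, hfib_sum])
    intro p
    exact (this p (Finset.mem_univ p)).symm
  apply le_antisymm (hd a)
  calc Function.minimalPeriod π a = (orb a).card := (horb_card a).symm
    _ ≤ (fib (Φ a)).card := Finset.card_le_card (horb_sub a)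
    _ = d (Φ a) := hfib_eq (Φ a)

end Counting

section Exact

variable {K F : Type*} [Field K] [IsAlgClosed K] [CharZero K] [Field F] [Algebra K F]
variable {M X : Type*} [Field M] [Algebra K M] [Fintype X]

/-- **Exact ramification.**  Under the hypotheses of `wp3_card_zeros_eq_numOrbits'`, for every
index `a` the order function `f ↦ w (σ a f)` on `F` is exactly `e₀ / (period of a)` times the
normalised order of a place of `F` over `y = 0`, and that place has `ord y = period of a`. -/
theorem pe93_exact (σ : X → (F →ₐ[K] M)) (y : F) (hy : Transcendental K y)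
    [FiniteDimensional K⟮y⟯ F]
    (hcard : Module.finrank K⟮y⟯ F = Fintype.card X)
    (hnorm : ∀ f : F, ∃ r : F, r ∈ K⟮y⟯ ∧ ∀ a : X, σ a r = ∏ b : X, σ b f)
    (hσy : ∀ a b : X, σ a y = σ b y)
    (w : OrdFn K M) (e₀ : ℕ) (he₀ : 0 < e₀) (hw : ∀ a : X, w.ord (σ a y) = e₀)
    (π : Equiv.Perm X) (hπ : π ^ e₀ = 1)
    (h1 : ∀ (a : X) (f : F), w.ord (σ (π a) f) = w.ord (σ a f))
    (h2 : ∀ (a : X) (f : F), f ≠ 0 →
      ((e₀ / Function.minimalPeriod π a : ℕ) : ℤ) ∣ w.ord (σ a f)) (a : X) :
    ∃ v : Place K F, v.ord y = (Function.minimalPeriod π a : ℤ) ∧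
      (∀ f : F, f ∈ v.toValuationSubring ↔ f = 0 ∨ 0 ≤ w.ord (σ a f)) ∧
      ∀ f : F, f ≠ 0 →
        w.ord (σ a f) = ((e₀ / Function.minimalPeriod π a : ℕ) : ℤ) * v.ord f := by
  classical
  have hy0 : y ≠ 0 := by
    rintro rfl
    exact hy isAlgebraic_zero
  have he₀' : (0 : ℤ) < (e₀ : ℤ) := by exact_mod_cast he₀
  have hnt : ∀ a, ∃ y₀ : F, y₀ ≠ 0 ∧ 0 < (wp3_comap w (σ a)).ord y₀ := fun a =>
    ⟨y, hy0, by rw [wp3_comap_ord, hw]; exact he₀'⟩
  choose m ϖ hm hϖ0 hϖm hmul using fun a => wp3_ord_eq_mul (wp3_comap w (σ a)) (hnt a)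
  have hΦy : ∀ a, m a * (wp3_place (wp3_comap w (σ a)) (hnt a)).ord y = e₀ := fun a => by
    rw [← hmul a y hy0]
    exact hw a
  have hΦypos : ∀ a, 0 < (wp3_place (wp3_comap w (σ a)) (hnt a)).ord y := by
    intro a
    by_contra hle
    have := mul_nonpos_of_nonneg_of_nonpos (hm a).le (not_lt.mp hle)
    rw [hΦy a] at this
    linarith
  have hΦπ : ∀ a, wp3_place (wp3_comap w (σ (π a))) (hnt (π a)) =
      wp3_place (wp3_comap w (σ a)) (hnt a) := by
    intro a
    apply Place.ext
    ext f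
    show (f = 0 ∨ 0 ≤ w.ord (σ (π a) f)) ↔ (f = 0 ∨ 0 ≤ w.ord (σ a f))
    rw [h1]
  have hdvd : ∀ a, Function.minimalPeriod π a ∣ e₀ := by
    intro a
    have hpp : Function.IsPeriodicPt π e₀ a := by
      show π^[e₀] a = a
      rw [Equiv.Perm.iterate_eq_pow, hπ]
      rfl
    exact hpp.minimalPeriod_dvd
  have hmpos : ∀ a, 0 < Function.minimalPeriod π a := by
    intro a
    have hpp : Function.IsPeriodicPt π e₀ a := by
      show π^[e₀] a = a
      rw [Equiv.Perm.iterate_eq_pow, hπ]
      rfl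
    exact hpp.minimalPeriod_pos he₀
  have hk' : ∀ a, (Function.minimalPeriod π a : ℤ) *
      ((e₀ / Function.minimalPeriod π a : ℕ) : ℤ) = (e₀ : ℤ) := by
    intro a
    exact_mod_cast Nat.mul_div_cancel' (hdvd a)
  have hkpos' : ∀ a, (0 : ℤ) < ((e₀ / Function.minimalPeriod π a : ℕ) : ℤ) := by
    intro a
    exact_mod_cast Nat.div_pos (Nat.le_of_dvd he₀ (hdvd a)) (hmpos a)
  have hkm : ∀ a, ((e₀ / Function.minimalPeriod π a : ℕ) : ℤ) ≤ m a := by
    intro a
    apply Int.le_of_dvd (hm a)
    have := h2 a (ϖ a) (hϖ0 a)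
    rwa [← wp3_comap_ord, hϖm a] at this
  have hper : ∀ a, (wp3_place (wp3_comap w (σ a)) (hnt a)).ord y ≤
      (Function.minimalPeriod π a : ℤ) := by
    intro a
    have h3 : ((e₀ / Function.minimalPeriod π a : ℕ) : ℤ) *
        (wp3_place (wp3_comap w (σ a)) (hnt a)).ord y ≤
        ((e₀ / Function.minimalPeriod π a : ℕ) : ℤ) * (Function.minimalPeriod π a : ℤ) := by
      calc ((e₀ / Function.minimalPeriod π a : ℕ) : ℤ) *
            (wp3_place (wp3_comap w (σ a)) (hnt a)).ord y
          ≤ m a * (wp3_place (wp3_comap w (σ a)) (hnt a)).ord y :=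
            mul_le_mul_of_nonneg_right (hkm a) (hΦypos a).le
        _ = (e₀ : ℤ) := hΦy a
        _ = ((e₀ / Function.minimalPeriod π a : ℕ) : ℤ) * (Function.minimalPeriod π a : ℤ) := by
            rw [← hk' a, mul_comm]
    exact le_of_mul_le_mul_left h3 (hkpos' a)
  have hsurj : ∀ v : Place K F, 0 < v.ord y →
      ∃ b, wp3_place (wp3_comap w (σ b)) (hnt b) = v :=
    wp3_surj σ y hy hnorm hσy w (fun b => by rw [hw]; exact he₀')
      (fun b => wp3_place (wp3_comap w (σ b)) (hnt b))
      (fun b f hf h0 => by rw [← wp3_comap_ord, hmul b f hf, h0, mul_zero]) hΦypos a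
  have hfin : Fintype {v : Place K F // 0 < v.ord y} := (wp1_finite_zeros y hy).fintype
  have hexact := pe93_count_eq π
    (fun b => (⟨wp3_place (wp3_comap w (σ b)) (hnt b), hΦypos b⟩ :
      {v : Place K F // 0 < v.ord y}))
    (by
      rintro ⟨v, hv⟩
      obtain ⟨b, hb⟩ := hsurj v hv
      exact ⟨b, Subtype.ext hb⟩)
    (fun b => Subtype.ext (hΦπ b)) (fun p => (p.1.ord y).toNat)
    (by
      have hsum := wp1_sum_ord_zeros y hy
      rw [Finset.sum_subtype (wp1_finite_zeros y hy).toFinset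
        (p := fun v : Place K F => 0 < v.ord y) (fun v => by simp) (fun v => v.ord y)] at hsum
      have hcast : ((∑ p : {v : Place K F // 0 < v.ord y}, (p.1.ord y).toNat : ℕ) : ℤ) =
          (Fintype.card X : ℤ) := by
        rw [← hcard, ← hsum, Nat.cast_sum]
        exact Finset.sum_congr rfl fun p _ => Int.toNat_of_nonneg p.2.le
      exact_mod_cast hcast)
    (fun b => Int.toNat_le.mpr (hper b)) a
  have hordy : (wp3_place (wp3_comap w (σ a)) (hnt a)).ord y =
      (Function.minimalPeriod π a : ℤ) := by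
    have h := congrArg (fun n : ℕ => (n : ℤ)) hexact
    simp only at h
    rw [Int.toNat_of_nonneg (hΦypos a).le] at h
    exact h
  have hma : m a = ((e₀ / Function.minimalPeriod π a : ℕ) : ℤ) := by
    have h := hΦy a
    rw [hordy, ← hk' a, mul_comm] at h
    have hp : (0 : ℤ) < (Function.minimalPeriod π a : ℤ) := by exact_mod_cast hmpos a
    exact mul_left_cancel₀ hp.ne' h
  refine ⟨wp3_place (wp3_comap w (σ a)) (hnt a), hordy, fun f => Iff.rfl, fun f hf => ?_⟩
  rw [← wp3_comap_ord, hmul a f hf, hma]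

/-- Divisibility corollary: if `u ∈ M` has `w u` divisible by `e₀ / (period of a)` and
`σ a f = u ^ p`, then `p` divides the order of `f` at the place of `a`. -/
theorem pe93_exact_dvd (σ : X → (F →ₐ[K] M)) (y : F) (hy : Transcendental K y)
    [FiniteDimensional K⟮y⟯ F]
    (hcard : Module.finrank K⟮y⟯ F = Fintype.card X)
    (hnorm : ∀ f : F, ∃ r : F, r ∈ K⟮y⟯ ∧ ∀ a : X, σ a r = ∏ b : X, σ b f)
    (hσy : ∀ a b : X, σ a y = σ b y)
    (w : OrdFn K M) (e₀ : ℕ) (he₀ : 0 < e₀) (hw : ∀ a : X, w.ord (σ a y) = e₀)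
    (π : Equiv.Perm X) (hπ : π ^ e₀ = 1)
    (h1 : ∀ (a : X) (f : F), w.ord (σ (π a) f) = w.ord (σ a f))
    (h2 : ∀ (a : X) (f : F), f ≠ 0 →
      ((e₀ / Function.minimalPeriod π a : ℕ) : ℤ) ∣ w.ord (σ a f)) (a : X) :
    ∃ v : Place K F, v.ord y = (Function.minimalPeriod π a : ℤ) ∧
      (∀ f : F, f ∈ v.toValuationSubring ↔ f = 0 ∨ 0 ≤ w.ord (σ a f)) ∧
      ∀ (p : ℕ) (f : F) (u : M), u ≠ 0 → σ a f = u ^ p →
        ((e₀ / Function.minimalPeriod π a : ℕ) : ℤ) ∣ w.ord u → (p : ℤ) ∣ v.ord f := by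
  classical
  obtain ⟨v, hvy, hmem, hv⟩ := pe93_exact σ y hy hcard hnorm hσy w e₀ he₀ hw π hπ h1 h2 a
  refine ⟨v, hvy, hmem, fun p f u hu hfu hdvd => ?_⟩
  have hpp : Function.IsPeriodicPt π e₀ a := by
    show π^[e₀] a = a
    rw [Equiv.Perm.iterate_eq_pow, hπ]
    rfl
  have hkpos : (0 : ℤ) < ((e₀ / Function.minimalPeriod π a : ℕ) : ℤ) := by
    exact_mod_cast Nat.div_pos (Nat.le_of_dvd he₀ hpp.minimalPeriod_dvd)
      (hpp.minimalPeriod_pos he₀)
  have hf0 : f ≠ 0 := by
    rintro rfl
    rw [map_zero] at hfu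
    exact pow_ne_zero p hu hfu.symm
  have h3 := hv f hf0
  rw [hfu, wp3_ord_pow w hu] at h3
  obtain ⟨c, hc⟩ := hdvd
  rw [hc] at h3
  have h4 : ((e₀ / Function.minimalPeriod π a : ℕ) : ℤ) * ((p : ℤ) * c) =
      ((e₀ / Function.minimalPeriod π a : ℕ) : ℤ) * v.ord f := by
    rw [← h3]; ring
  exact ⟨c, (mul_left_cancel₀ hkpos.ne' h4).symm⟩

end Exact

end Fermat.Agent.S42
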