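import Fermat.Agent.S42.PlacesExact93

/-!
S42 / S29, row M12-exact (helper93), part B: ALL places over `y = 0` at once.

Same generic setting as `PlacesExact93` (= hypotheses of S24's `wp3_card_zeros_eq_numOrbits'`).

* `pe93_exact_all` : every place `v` of `F` with `0 < v.ord y` is the place of some index `a`,
  with `w (σ a f) = (e₀ / period a) * v.ord f` and `v.ord y = period a`.
* `pe93_dvd_all`   : if `σ a f = (u a) ^ p` with `(e₀ / period a) ∣ w (u a)` for every `a`, then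
  `p ∣ v.ord f` at EVERY place `v` over `y = 0` (any `p`, in particular `p = 2, 3`).
-/

set_option autoImplicit false

open ModularCurve AlgebraicCurve MatrixGroups IntermediateField

namespace Fermat.Agent.S42

open Fermat.Agent.S24

variable {K F : Type*} [Field K] [IsAlgClosed K] [CharZero K] [Field F] [Algebra K F]
variable {M X : Type*} [Field M] [Algebra K M] [Fintype X]

/-- Every place over `y = 0` is the place of some index, with the exact ramification index. -/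
theorem pe93_exact_all (σ : X → (F →ₐ[K] M)) (y : F) (hy : Transcendental K y)
    [FiniteDimensional K⟮y⟯ F]
    (hcard : Module.finrank K⟮y⟯ F = Fintype.card X)
    (hnorm : ∀ f : F, ∃ r : F, r ∈ K⟮y⟯ ∧ ∀ a : X, σ a r = ∏ b : X, σ b f)
    (hσy : ∀ a b : X, σ a y = σ b y)
    (w : OrdFn K M) (e₀ : ℕ) (he₀ : 0 < e₀) (hw : ∀ a : X, w.ord (σ a y) = e₀)
    (π : Equiv.Perm X) (hπ : π ^ e₀ = 1)
    (h1 : ∀ (a : X) (f : F), w.ord (σ (π a) f) = w.ord (σ a f))
    (h2 : ∀ (a : X) (f : F), f ≠ 0 →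
      ((e₀ / Function.minimalPeriod π a : ℕ) : ℤ) ∣ w.ord (σ a f))
    (v : Place K F) (hv : 0 < v.ord y) :
    ∃ a : X, v.ord y = (Function.minimalPeriod π a : ℤ) ∧
      ∀ f : F, f ≠ 0 →
        w.ord (σ a f) = ((e₀ / Function.minimalPeriod π a : ℕ) : ℤ) * v.ord f := by
  classical
  have hX : Nonempty X := by
    rw [← Fintype.card_pos_iff, ← hcard]
    exact Module.finrank_pos
  obtain ⟨a₀⟩ := hX
  have he₀' : (0 : ℤ) < (e₀ : ℤ) := by exact_mod_cast he₀
  choose Φ hΦy hΦmem hΦ using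
    fun a => pe93_exact σ y hy hcard hnorm hσy w e₀ he₀ hw π hπ h1 h2 a
  have hmpos : ∀ a, 0 < Function.minimalPeriod π a := by
    intro a
    have hpp : Function.IsPeriodicPt π e₀ a := by
      show π^[e₀] a = a
      rw [Equiv.Perm.iterate_eq_pow, hπ]
      rfl
    exact hpp.minimalPeriod_pos he₀
  have hΦypos : ∀ a, 0 < (Φ a).ord y := by
    intro a
    rw [hΦy a]
    exact_mod_cast hmpos a
  obtain ⟨a, ha⟩ := wp3_surj σ y hy hnorm hσy w (fun b => by rw [hw]; exact he₀') Φ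
    (fun b f hf h0 => by rw [hΦ b f hf, h0, mul_zero]) hΦypos a₀ v hv
  exact ⟨a, by rw [← ha]; exact hΦy a, fun f hf => by rw [← ha]; exact hΦ a f hf⟩

/-- **`p`-divisibility at every place over `y = 0`.**  If for every index `a` the image
`σ a f` is a `p`-th power `(u a) ^ p` in `M` with `(e₀ / period a) ∣ w (u a)`, then `p` divides
`v.ord f` for every place `v` of `F` over `y = 0`. -/
theorem pe93_dvd_all (σ : X → (F →ₐ[K] M)) (y : F) (hy : Transcendental K y)
    [FiniteDimensional K⟮y⟯ F]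
    (hcard : Module.finrank K⟮y⟯ F = Fintype.card X)
    (hnorm : ∀ f : F, ∃ r : F, r ∈ K⟮y⟯ ∧ ∀ a : X, σ a r = ∏ b : X, σ b f)
    (hσy : ∀ a b : X, σ a y = σ b y)
    (w : OrdFn K M) (e₀ : ℕ) (he₀ : 0 < e₀) (hw : ∀ a : X, w.ord (σ a y) = e₀)
    (π : Equiv.Perm X) (hπ : π ^ e₀ = 1)
    (h1 : ∀ (a : X) (f : F), w.ord (σ (π a) f) = w.ord (σ a f))
    (h2 : ∀ (a : X) (f : F), f ≠ 0 →
      ((e₀ / Function.minimalPeriod π a : ℕ) : ℤ) ∣ w.ord (σ a f))
    (p : ℕ) (f : F) (u : X → M) (hu0 : ∀ a, u a ≠ 0) (hfu : ∀ a, σ a f = u a ^ p)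
    (hudvd : ∀ a, ((e₀ / Function.minimalPeriod π a : ℕ) : ℤ) ∣ w.ord (u a))
    (v : Place K F) (hv : 0 < v.ord y) : (p : ℤ) ∣ v.ord f := by
  classical
  obtain ⟨a, -, hva⟩ :=
    pe93_exact_all σ y hy hcard hnorm hσy w e₀ he₀ hw π hπ h1 h2 v hv
  have hpp : Function.IsPeriodicPt π e₀ a := by
    show π^[e₀] a = a
    rw [Equiv.Perm.iterate_eq_pow, hπ]
    rfl
  have hkpos : (0 : ℤ) < ((e₀ / Function.minimalPeriod π a : ℕ) : ℤ) := by
    exact_mod_cast Nat.div_pos (Nat.le_of_dvd he₀ hpp.minimalPeriod_dvd)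
      (hpp.minimalPeriod_pos he₀)
  have hf0 : f ≠ 0 := by
    rintro rfl
    have := hfu a
    rw [map_zero] at this
    exact pow_ne_zero p (hu0 a) this.symm
  have h3 := hva f hf0
  rw [hfu a, wp3_ord_pow w (hu0 a)] at h3
  obtain ⟨c, hc⟩ := hudvd a
  rw [hc] at h3
  have h4 : ((e₀ / Function.minimalPeriod π a : ℕ) : ℤ) * ((p : ℤ) * c) =
      ((e₀ / Function.minimalPeriod π a : ℕ) : ℤ) * v.ord f := by
    rw [← h3]; ring
  exact ⟨c, (mul_left_cancel₀ hkpos.ne' h4).symm⟩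

end Fermat.Agent.S42
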