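/-
S42 / M11-G (helper92): from the Frobenius quadratic relations to a quadratic relation for EVERY
element of `Gal(ℚ̄/ℚ)` (the hypothesis of the two-dimensionality lemma).

* `qa92_pow`           : `x² - t x + e = 0` ⟹ `(x^j)² - t' x^j + e^j = 0` for some `t'`;
* `cy92_chiK p k`      : the mod `p` cyclotomic character with values in `kˣ`;
* `qa92_quadratic_all` : if `ρ` has finite level and every Frobenius element `τ` at a prime
  `ℓ ∉ S` satisfies `ρ(τ)² - a_ℓ ρ(τ) + ℓ = 0`, then every `g` satisfies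
  `ρ(g)² - t ρ(g) + χ_p(g) = 0` for some `t`.
-/
import Fermat.Agent.S42.FrobGlue92
import Fermat.Agent.S42.CycloChar92

set_option autoImplicit false
set_option linter.style.haveILetI false

namespace Fermat.Agent.S42

local notation "Qb" => AlgebraicClosure ℚ
local notation "GQ" => AlgebraicClosure ℚ ≃ₐ[ℚ] AlgebraicClosure ℚ

section Pow

variable {k R : Type*} [Field k] [Ring R] [Algebra k R]

/-- the "conjugate root" `t - x` satisfies the same quadratic, and the power sums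
`x ^ j + (t - x) ^ j` are scalars. -/
theorem qa92_pow_sum (x : R) (t e : k) (h : x * x - t • x + e • (1 : R) = 0) (j : ℕ) :
    ∃ s : k, x ^ j + (t • (1 : R) - x) ^ j = s • (1 : R) := by
  set y : R := t • (1 : R) - x with hy
  have hx2 : x * x = t • x - e • (1 : R) := by
    have h2 : x * x - (t • x - e • (1 : R)) = x * x - t • x + e • (1 : R) := by abel
    rw [← sub_eq_zero, h2, h]
  have hy2 : y * y = t • y - e • (1 : R) := by
    have h3 : y * y = t • (t • (1 : R)) - t • x - t • x + x * x := by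
      rw [hy, sub_mul, mul_sub, mul_sub, smul_mul_assoc, one_mul, smul_mul_assoc, one_mul,
        mul_smul_comm, mul_one]
      abel
    rw [h3, hx2, hy, smul_sub]
    abel
  have key : ∀ j : ℕ, (∃ s : k, x ^ j + y ^ j = s • (1 : R)) ∧
      (∃ s : k, x ^ (j + 1) + y ^ (j + 1) = s • (1 : R)) := by
    intro j
    induction j with
    | zero =>
      refine ⟨⟨2, ?_⟩, ⟨t, ?_⟩⟩
      · rw [pow_zero, pow_zero, two_smul]
      · rw [zero_add, pow_one, pow_one, hy]
        abel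
    | succ j ih =>
      obtain ⟨⟨s0, hs0⟩, ⟨s1, hs1⟩⟩ := ih
      refine ⟨⟨s1, hs1⟩, ⟨t * s1 - e * s0, ?_⟩⟩
      have ex : x ^ (j + 1 + 1) = t • x ^ (j + 1) - e • x ^ j := by
        rw [pow_succ, pow_succ, mul_assoc, hx2, mul_sub, mul_smul_comm, mul_smul_comm, mul_one,
          ← pow_succ]
      have ey : y ^ (j + 1 + 1) = t • y ^ (j + 1) - e • y ^ j := by
        rw [pow_succ, pow_succ, mul_assoc, hy2, mul_sub, mul_smul_comm, mul_smul_comm, mul_one,
          ← pow_succ]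
      have e3 : x ^ (j + 1 + 1) + y ^ (j + 1 + 1) =
          t • (x ^ (j + 1) + y ^ (j + 1)) - e • (x ^ j + y ^ j) := by
        rw [ex, ey, smul_add, smul_add]
        abel
      rw [e3, hs0, hs1, smul_smul, smul_smul, ← sub_smul]
  exact (key j).1

/-- **Power trick.**  If `x` satisfies `x² - t x + e = 0`, then `x ^ j` satisfies
`X² - t' X + e ^ j` for a suitable scalar `t'`. -/
theorem qa92_pow (x : R) (t e : k) (h : x * x - t • x + e • (1 : R) = 0) (j : ℕ) :
    ∃ t' : k, x ^ j * x ^ j - t' • x ^ j + e ^ j • (1 : R) = 0 := by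
  obtain ⟨s, hs⟩ := qa92_pow_sum x t e h j
  refine ⟨s, ?_⟩
  set y : R := t • (1 : R) - x with hy
  have hyx : y * x = e • (1 : R) := by
    have h2 : y * x - e • (1 : R) = -(x * x - t • x + e • (1 : R)) := by
      rw [hy, sub_mul, smul_mul_assoc, one_mul]
      abel
    rw [← sub_eq_zero, h2, h, neg_zero]
  have hcomm : Commute y x := by
    rw [hy]
    exact ((Commute.one_left x).smul_left t).sub_left (Commute.refl x)
  have h1 : s • x ^ j = x ^ j * x ^ j + y ^ j * x ^ j := by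
    rw [← add_mul, hs, smul_mul_assoc, one_mul]
  have h2 : y ^ j * x ^ j = e ^ j • (1 : R) := by
    rw [← hcomm.mul_pow, hyx, smul_pow, one_pow]
  rw [h1, h2]
  abel

end Pow

section Chi

variable (p : ℕ) [Fact p.Prime] (k : Type*) [Field k] [Algebra (ZMod p) k]

/-- The mod `p` cyclotomic character of `Gal(ℚ̄/ℚ)` with values in `kˣ`, for a field `k` of
characteristic `p`. -/
noncomputable def cy92_chiK : (AlgebraicClosure ℚ ≃ₐ[ℚ] AlgebraicClosure ℚ) →* kˣ :=
  (Units.map ((algebraMap (ZMod p) k : ZMod p →+* k) : ZMod p →* k)).comp (ExtCitation.cycloChar p)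

theorem cy92_chiK_coe (g : AlgebraicClosure ℚ ≃ₐ[ℚ] AlgebraicClosure ℚ) :
    ((cy92_chiK p k g : kˣ) : k) =
      algebraMap (ZMod p) k ((ExtCitation.cycloChar p g : (ZMod p)ˣ) : ZMod p) := rfl

/-- value `ℓ` at Frobenius elements at `ℓ ≠ p`. -/
theorem cy92_chiK_frob {ℓ : ℕ} (hℓ : ℓ.Prime) (hℓp : ℓ ≠ p)
    (A : ValuationSubring (AlgebraicClosure ℚ)) (hA : A.LiesOverPrime ℓ)
    (τ : AlgebraicClosure ℚ ≃ₐ[ℚ] AlgebraicClosure ℚ) (hτ : A.IsFrobeniusAt τ ℓ) :
    ((cy92_chiK p k τ : kˣ) : k) = (ℓ : k) := by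
  rw [cy92_chiK_coe, cy92_frob p hℓ hℓp A hA τ hτ, map_natCast]

/-- trivial on inertia at `ℓ ≠ p`. -/
theorem cy92_chiK_inertia {ℓ : ℕ} (hℓ : ℓ.Prime) (hℓp : ℓ ≠ p)
    (A : ValuationSubring (AlgebraicClosure ℚ)) (hA : A.LiesOverPrime ℓ)
    (σ : AlgebraicClosure ℚ ≃ₐ[ℚ] AlgebraicClosure ℚ) (hσ : σ ∈ A.inertiaSubgroupIn ℚ) :
    cy92_chiK p k σ = 1 := by
  rw [cy92_chiK, MonoidHom.comp_apply, cy92_inertia p hℓ hℓp A hA σ hσ, map_one]

/-- trivial on elements fixing the `p`-th roots of unity. -/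
theorem cy92_chiK_eq_one_of_fix (σ : AlgebraicClosure ℚ ≃ₐ[ℚ] AlgebraicClosure ℚ)
    (h : ∀ z : AlgebraicClosure ℚ, z ^ p = 1 → σ z = z) : cy92_chiK p k σ = 1 := by
  rw [cy92_chiK, MonoidHom.comp_apply, cy92_eq_one_of_fix p σ h, map_one]

end Chi

section Main

variable (p : ℕ) [Fact p.Prime] {k : Type} [Field k] [Algebra (ZMod p) k]
  {V : Type} [AddCommGroup V] [Module k V]

/-- the cyclotomic character with values in `kˣ` factors through a finite level. -/
theorem cy92_chiK_finiteLevel : GaloisFactorsThroughFiniteLevel (cy92_chiK p k) := by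
  obtain ⟨L, hL, h⟩ := cy92_finiteLevel p
  exact ⟨L, hL, fun σ hσ => by rw [cy92_chiK, MonoidHom.comp_apply, h σ hσ, map_one]⟩

/-- **Quadratic relation for every element.**  Let `ρ` be a representation of `Gal(ℚ̄/ℚ)` on a
`k`-vector space (`k` of characteristic `p`) factoring through a finite level, and `S` a finite
set of primes containing `p` such that every Frobenius element `τ` at a prime `ℓ ∉ S` satisfies
`ρ(τ)² - a_ℓ ρ(τ) + ℓ = 0`.  Then every `g` satisfies `ρ(g)² - t ρ(g) + χ_p(g) = 0` for some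
scalar `t`, where `χ_p` is the mod `p` cyclotomic character. -/
theorem qa92_quadratic_all
    (ρ : (AlgebraicClosure ℚ ≃ₐ[ℚ] AlgebraicClosure ℚ) →* Module.End k V)
    (hfin : GaloisFactorsThroughFiniteLevel ρ) (S : Finset ℕ) (hpS : p ∈ S) (a : ℕ → k)
    (hfrob : ∀ ℓ : ℕ, ℓ.Prime → ℓ ∉ S → ∀ A : ValuationSubring (AlgebraicClosure ℚ),
      A.LiesOverPrime ℓ → ∀ τ : AlgebraicClosure ℚ ≃ₐ[ℚ] AlgebraicClosure ℚ, A.IsFrobeniusAt τ ℓ →
        ρ τ * ρ τ - a ℓ • ρ τ + (ℓ : k) • (1 : Module.End k V) = 0)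
    (g : AlgebraicClosure ℚ ≃ₐ[ℚ] AlgebraicClosure ℚ) :
    ∃ t : k, ρ g * ρ g - t • ρ g + ((cy92_chiK p k g : kˣ) : k) • (1 : Module.End k V) = 0 := by
  have hp : p.Prime := Fact.out
  obtain ⟨ℓ, A, τ, j, hℓ, hℓS, hA, hτ, hρ, hz⟩ := fg92_rep_frob ρ hfin p hp.pos g S
  have hℓp : ℓ ≠ p := fun h => hℓS (h ▸ hpS)
  obtain ⟨t', ht'⟩ := qa92_pow (ρ τ) (a ℓ) (ℓ : k) (hfrob ℓ hℓ hℓS A hA τ hτ) j
  refine ⟨t', ?_⟩
  have hχ : ((cy92_chiK p k g : kˣ) : k) = (ℓ : k) ^ j := by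
    have h1 : cy92_chiK p k g = cy92_chiK p k τ ^ j := by
      rw [cy92_chiK, MonoidHom.comp_apply, MonoidHom.comp_apply, cy92_of_pow p g τ j hz, map_pow]
    rw [h1, Units.val_pow_eq_pow_val, cy92_chiK_frob p k hℓ hℓp A hA τ hτ]
  rw [hρ, hχ]
  exact ht'

end Main

end Fermat.Agent.S42
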