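/-
S42 / M6 (R): the `p`-th root on a convex open set (helper9).

A holomorphic function on a convex open subset of `ℂ` (for instance the upper half plane) all of
whose zero orders are finite and divisible by `p` is the `p`-th power of a holomorphic function;
two holomorphic `p`-th roots on a connected open set differ by a constant `p`-th root of unity.
-/
import Mathlib

set_option autoImplicit false

open Complex Set Filter Topology Metric

namespace Fermat.Agent.S42

/-- Two functions continuous at `z` with the same `p`-th power near `z` and the same nonzero value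
at `z` agree near `z`. -/
theorem rt9_local_eq {p : ℕ} (hp : 0 < p) {h h' : ℂ → ℂ} {z : ℂ}
    (hc : ContinuousAt h z) (hc' : ContinuousAt h' z) (hz : h z = h' z) (hne : h z ≠ 0)
    (hpow : ∀ᶠ ζ in 𝓝 z, h ζ ^ p = h' ζ ^ p) : ∀ᶠ ζ in 𝓝 z, h ζ = h' ζ := by
  have hS : ContinuousAt (fun ζ => ∑ i ∈ Finset.range p, h ζ ^ i * h' ζ ^ (p - 1 - i)) z := by
    apply tendsto_finsetSum
    intro i _
    exact (hc.pow i).mul (hc'.pow _)
  have hSz : (∑ i ∈ Finset.range p, h z ^ i * h' z ^ (p - 1 - i)) ≠ 0 := by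
    rw [← hz]
    have : ∀ i ∈ Finset.range p, h z ^ i * h z ^ (p - 1 - i) = h z ^ (p - 1) := by
      intro i hi
      rw [← pow_add]
      congr 1
      have := Finset.mem_range.mp hi
      omega
    rw [Finset.sum_congr rfl this]
    simp [hne, hp.ne']
  filter_upwards [hpow, hS.eventually_ne hSz] with ζ h1 h2
  have h3 := Commute.geom_sum₂_mul (Commute.all (h ζ) (h' ζ)) p
  rw [h1, sub_self] at h3
  exact sub_eq_zero.mp ((mul_eq_zero.mp h3).resolve_left h2)

/-- A function continuous at `z` whose `p`-th power is (near `z`) a function differentiable at `z`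
and nonzero at `z` is differentiable at `z`. -/
theorem rt9_differentiableAt_of_ne {p : ℕ} (hp : 0 < p) {h w : ℂ → ℂ} {z : ℂ}
    (hc : ContinuousAt h z) (hw : DifferentiableAt ℂ w z)
    (hpow : ∀ᶠ ζ in 𝓝 z, h ζ ^ p = w ζ) (hne : w z ≠ 0) : DifferentiableAt ℂ h z := by
  have hr : h z ^ p = w z := hpow.self_of_nhds
  have hr0 : h z ≠ 0 := by
    intro h0
    rw [h0, zero_pow hp.ne'] at hr
    exact hne hr.symm
  set f₀ : ℂ → ℂ := fun ζ => h z * (w ζ / w z) ^ ((p : ℂ)⁻¹) with hf₀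
  have h1 : (w z / w z) ∈ slitPlane := by
    rw [div_self hne]; exact one_mem_slitPlane
  have hd : DifferentiableAt ℂ f₀ z := by
    apply DifferentiableAt.const_mul
    exact DifferentiableAt.cpow (hw.div_const _) (differentiableAt_const _) h1
  have hf₀z : f₀ z = h z := by
    simp [hf₀, div_self hne]
  have hf₀p : ∀ ζ, f₀ ζ ^ p = w ζ := by
    intro ζ
    simp only [hf₀, mul_pow, Complex.cpow_nat_inv_pow _ hp.ne', hr]
    field_simp
  have := rt9_local_eq hp hc hd.continuousAt hf₀z.symm hr0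
    (by filter_upwards [hpow] with ζ hζ; rw [hζ, hf₀p])
  exact hd.congr_of_eventuallyEq this

/-- **(L)** A continuous `p`-th root of a holomorphic function with isolated zeros is
holomorphic. -/
theorem rt9_differentiableOn {p : ℕ} (hp : 0 < p) {h w : ℂ → ℂ} {U : Set ℂ} (hU : IsOpen U)
    (hc : ContinuousOn h U) (hw : DifferentiableOn ℂ w U)
    (hfin : ∀ z ∈ U, analyticOrderAt w z ≠ ⊤)
    (hpow : ∀ z ∈ U, h z ^ p = w z) : DifferentiableOn ℂ h U := by
  have key : ∀ z ∈ U, w z ≠ 0 → DifferentiableAt ℂ h z := by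
    intro z hz hne
    have hUz : U ∈ 𝓝 z := hU.mem_nhds hz
    exact rt9_differentiableAt_of_ne hp (hc.continuousAt hUz) (hw.differentiableAt hUz)
      (by filter_upwards [hUz] with ζ hζ using hpow ζ hζ) hne
  intro z hz
  have hUz : U ∈ 𝓝 z := hU.mem_nhds hz
  refine DifferentiableAt.differentiableWithinAt ?_
  by_cases hne : w z = 0
  · have han : AnalyticAt ℂ w z := hw.analyticAt hUz
    have hev : ∀ᶠ ζ in 𝓝[≠] z, w ζ ≠ 0 := by
      rcases han.eventually_eq_zero_or_eventually_ne_zero with h0 | h0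
      · exact absurd (analyticOrderAt_eq_top.mpr h0) (hfin z hz)
      · exact h0
    rw [eventually_nhdsWithin_iff] at hev
    have hev2 : ∀ᶠ ζ in 𝓝 z, ζ ∈ U ∧ (ζ ∈ ({z}ᶜ : Set ℂ) → w ζ ≠ 0) := by
      filter_upwards [hUz, hev] with ζ h1 h2 using ⟨h1, h2⟩
    obtain ⟨ε, hε, hball⟩ := Metric.eventually_nhds_iff_ball.mp hev2
    have hs : ball z ε ∈ 𝓝 z := ball_mem_nhds z hε
    have hd : DifferentiableOn ℂ h (ball z ε \ {z}) := by
      intro ζ hζ
      exact (key ζ (hball ζ hζ.1).1 ((hball ζ hζ.1).2 hζ.2)).differentiableWithinAt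
    have := (Complex.differentiableOn_compl_singleton_and_continuousAt_iff hs).mp
      ⟨hd, hc.continuousAt hUz⟩
    exact this.differentiableAt hs
  · exact key z hz hne

/-- The zeros of a holomorphic function with isolated zeros in a compact set are finite in
number. -/
theorem rt9_zeros_finite {w : ℂ → ℂ} {U K : Set ℂ} (hU : IsOpen U) (hw : DifferentiableOn ℂ w U)
    (hK : IsCompact K) (hKU : K ⊆ U) (hfin : ∀ z ∈ U, analyticOrderAt w z ≠ ⊤) :
    {z ∈ K | w z = 0}.Finite := by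
  by_contra hinf
  obtain ⟨x, hxK, hacc⟩ := Set.Infinite.exists_accPt_of_subset_isCompact
    (Set.not_finite.mp hinf) hK (sep_subset _ _)
  have hx : x ∈ U := hKU hxK
  have han : AnalyticAt ℂ w x := hw.analyticAt (hU.mem_nhds hx)
  rw [accPt_iff_frequently_nhdsNE] at hacc
  have hfr : ∃ᶠ y in 𝓝[≠] x, w y = 0 := hacc.mono fun y hy => hy.2
  exact hfin x hx (analyticOrderAt_eq_top.mpr (han.frequently_zero_iff_eventually_zero.mp hfr))

/-- Dividing out a zero of order `n` at `a`. -/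
theorem rt9_factor {w : ℂ → ℂ} {U : Set ℂ} (hU : IsOpen U) (hw : DifferentiableOn ℂ w U)
    {a : ℂ} (ha : a ∈ U) {n : ℕ} (hn : analyticOrderAt w a = n) :
    ∃ w₁ : ℂ → ℂ, DifferentiableOn ℂ w₁ U ∧ w₁ a ≠ 0 ∧ ∀ z, w z = (z - a) ^ n * w₁ z := by
  have han : AnalyticAt ℂ w a := hw.analyticAt (hU.mem_nhds ha)
  obtain ⟨g, hg, hga, hev⟩ := han.analyticOrderAt_eq_natCast.mp hn
  classical
  have hFa : ∀ z, z = a → (if z = a then g a else w z / (z - a) ^ n) = g a := fun z hz => by
    simp [hz]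
  have hFne : ∀ z, z ≠ a → (if z = a then g a else w z / (z - a) ^ n) = w z / (z - a) ^ n :=
    fun z hz => by simp [hz]
  refine ⟨fun z => if z = a then g a else w z / (z - a) ^ n, ?_, by simpa using hga, ?_⟩
  · intro z hz
    refine DifferentiableAt.differentiableWithinAt ?_
    by_cases hza : z = a
    · have : (fun z => if z = a then g a else w z / (z - a) ^ n) =ᶠ[𝓝 z] g := by
        rw [hza]
        filter_upwards [hev] with ζ hζ
        by_cases hζa : ζ = a
        · rw [hFa ζ hζa, hζa]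
        · have : (ζ - a) ^ n ≠ 0 := pow_ne_zero _ (sub_ne_zero.mpr hζa)
          rw [hFne ζ hζa, hζ, smul_eq_mul]
          field_simp
      exact (hza ▸ hg).differentiableAt.congr_of_eventuallyEq this
    · have : (fun z => if z = a then g a else w z / (z - a) ^ n) =ᶠ[𝓝 z]
          fun z => w z / (z - a) ^ n := by
        filter_upwards [isOpen_ne.mem_nhds hza] with ζ hζ
        exact hFne ζ hζ
      refine DifferentiableAt.congr_of_eventuallyEq ?_ this
      refine (hw.differentiableAt (hU.mem_nhds hz)).div (by fun_prop) ?_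
      exact pow_ne_zero _ (sub_ne_zero.mpr hza)
  · intro z
    show w z = (z - a) ^ n * (if z = a then g a else w z / (z - a) ^ n)
    by_cases hza : z = a
    · have h0 := hev.self_of_nhds
      rw [hFa z hza, hza, h0, smul_eq_mul]
    · have : (z - a) ^ n ≠ 0 := pow_ne_zero _ (sub_ne_zero.mpr hza)
      rw [hFne z hza]
      field_simp

/-- A holomorphic function on a simply connected open set with finitely many zeros, all of order
divisible by `p`, has a continuous `p`-th root. -/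
theorem rt9_root_of_finset {p : ℕ} (hp : 0 < p) {U : Set ℂ} (hU : IsOpen U)
    (hsc : IsSimplyConnected U) (S : Finset ℂ) :
    ∀ w : ℂ → ℂ, DifferentiableOn ℂ w U →
      (∀ τ ∈ U, ∃ k : ℕ, analyticOrderAt w τ = ((p * k : ℕ) : ℕ∞)) →
      (∀ τ ∈ U, w τ = 0 → τ ∈ S) →
      ∃ h : ℂ → ℂ, ContinuousOn h U ∧ ∀ z ∈ U, h z ^ p = w z := by
  classical
  induction S using Finset.induction_on with
  | empty =>
    intro w hw _ hS
    have h0 : (0 : ℂ) ∉ w '' U := by
      rintro ⟨τ, hτ, h0⟩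
      exact absurd (hS τ hτ h0) (Finset.notMem_empty τ)
    obtain ⟨h, hc, hh⟩ := Complex.exists_continuousOn_pow_eq hsc hU hw.continuousOn h0 hp.ne'
    exact ⟨h, hc, fun z _ => hh z⟩
  | insert a S haS ih =>
    intro w hw hord hS
    by_cases ha : a ∈ U ∧ w a = 0
    · obtain ⟨k, hk⟩ := hord a ha.1
      obtain ⟨w₁, hw₁, hw₁a, hfac⟩ := rt9_factor hU hw ha.1 hk
      have hord₁ : ∀ τ ∈ U, ∃ k : ℕ, analyticOrderAt w₁ τ = ((p * k : ℕ) : ℕ∞) := by
        intro τ hτ
        have hanτ : AnalyticAt ℂ w₁ τ := hw₁.analyticAt (hU.mem_nhds hτ)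
        by_cases hτa : τ = a
        · refine ⟨0, ?_⟩
          rw [hτa] at hanτ ⊢
          simpa using hanτ.analyticOrderAt_eq_zero.mpr hw₁a
        · obtain ⟨k', hk'⟩ := hord τ hτ
          refine ⟨k', ?_⟩
          have hpoly : AnalyticAt ℂ (fun z : ℂ => (z - a) ^ (p * k)) τ := by fun_prop
          have hmul : w = (fun z : ℂ => (z - a) ^ (p * k)) * w₁ := funext hfac
          have h0 : analyticOrderAt (fun z : ℂ => (z - a) ^ (p * k)) τ = 0 :=
            hpoly.analyticOrderAt_eq_zero.mpr (pow_ne_zero _ (sub_ne_zero.mpr hτa))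
          rw [hmul, analyticOrderAt_mul hpoly hanτ, h0, zero_add] at hk'
          exact hk'
      have hS₁ : ∀ τ ∈ U, w₁ τ = 0 → τ ∈ S := by
        intro τ hτ h0
        have hτa : τ ≠ a := fun h => hw₁a (h ▸ h0)
        have : w τ = 0 := by rw [hfac τ, h0, mul_zero]
        exact Finset.mem_of_mem_insert_of_ne (hS τ hτ this) hτa
      obtain ⟨h₁, hc₁, hh₁⟩ := ih w₁ hw₁ hord₁ hS₁
      refine ⟨fun z => (z - a) ^ k * h₁ z, ?_, ?_⟩
      · exact (by fun_prop : Continuous fun z : ℂ => (z - a) ^ k).continuousOn.mul hc₁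
      · intro z hz
        rw [mul_pow, hh₁ z hz, hfac z, ← pow_mul, mul_comm k p]
    · refine ih w hw hord ?_
      intro τ hτ h0
      rcases Finset.mem_insert.mp (hS τ hτ h0) with h | h
      · exact absurd ⟨h ▸ hτ, h ▸ h0⟩ ha
      · exact h

/-- Two holomorphic functions on a preconnected open set with the same `p`-th power that agree at
a point where they do not vanish are equal. -/
theorem rt9_eqOn {p : ℕ} (hp : 0 < p) {h h' : ℂ → ℂ} {U : Set ℂ} (hU : IsOpen U)
    (hpc : IsPreconnected U) (hd : DifferentiableOn ℂ h U) (hd' : DifferentiableOn ℂ h' U)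
    (hpow : ∀ z ∈ U, h z ^ p = h' z ^ p) {z₀ : ℂ} (hz₀ : z₀ ∈ U) (heq : h z₀ = h' z₀)
    (hne : h z₀ ≠ 0) : EqOn h h' U := by
  have hUz : U ∈ 𝓝 z₀ := hU.mem_nhds hz₀
  have := rt9_local_eq hp (hd.differentiableAt hUz).continuousAt
    (hd'.differentiableAt hUz).continuousAt heq hne
    (by filter_upwards [hUz] with ζ hζ using hpow ζ hζ)
  exact (hd.analyticOnNhd hU).eqOn_of_preconnected_of_eventuallyEq (hd'.analyticOnNhd hU) hpc
    hz₀ this

/-- **Uniqueness of roots.** Two holomorphic functions on a preconnected open set with the same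
`p`-th power differ by a constant `p`-th root of unity (the second one being nonzero somewhere). -/
theorem rt9_root_unique {p : ℕ} (hp : 0 < p) {h h' : ℂ → ℂ} {U : Set ℂ} (hU : IsOpen U)
    (hpc : IsPreconnected U) (hd : DifferentiableOn ℂ h U) (hd' : DifferentiableOn ℂ h' U)
    (hpow : ∀ z ∈ U, h z ^ p = h' z ^ p) {z₀ : ℂ} (hz₀ : z₀ ∈ U) (hne : h' z₀ ≠ 0) :
    ∃ ζ : ℂ, ζ ^ p = 1 ∧ ∀ z ∈ U, h z = ζ * h' z := by
  have hζ : (h z₀ / h' z₀) ^ p = 1 := by
    rw [div_pow, hpow z₀ hz₀, div_self (pow_ne_zero _ hne)]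
  have hne0 : h z₀ ≠ 0 := by
    intro h0
    have := hpow z₀ hz₀
    rw [h0, zero_pow hp.ne'] at this
    exact hne ((pow_eq_zero_iff hp.ne').mp this.symm)
  refine ⟨h z₀ / h' z₀, hζ, ?_⟩
  have := rt9_eqOn hp hU hpc hd (hd'.const_mul (h z₀ / h' z₀))
    (fun z hz => by rw [mul_pow, hζ, one_mul, hpow z hz]) hz₀ (by field_simp) hne0
  exact fun z hz => this hz

/-- **(R), core.** A holomorphic function on a convex open set all of whose zero orders are finite
and divisible by `p` is the `p`-th power of a holomorphic function. -/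
theorem rt9_pth_root_convex {p : ℕ} (hp : 0 < p) {U : Set ℂ} (hU : IsOpen U) (hconv : Convex ℝ U)
    {w : ℂ → ℂ} (hw : DifferentiableOn ℂ w U)
    (hord : ∀ τ ∈ U, ∃ k : ℕ, analyticOrderAt w τ = ((p * k : ℕ) : ℕ∞)) :
    ∃ c : ℂ → ℂ, DifferentiableOn ℂ c U ∧ ∀ z ∈ U, c z ^ p = w z := by
  classical
  have hfin : ∀ z ∈ U, analyticOrderAt w z ≠ ⊤ := by
    intro z hz
    obtain ⟨k, hk⟩ := hord z hz
    rw [hk]
    exact ENat.natCast_ne_top _
  rcases U.eq_empty_or_nonempty with hemp | ⟨x, hx⟩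
  · exact ⟨0, by simp [hemp], by simp [hemp]⟩
  obtain ⟨z₀, hz₀, hwz₀⟩ : ∃ z₀ ∈ U, w z₀ ≠ 0 := by
    have han : AnalyticAt ℂ w x := hw.analyticAt (hU.mem_nhds hx)
    rcases han.eventually_eq_zero_or_eventually_ne_zero with h0 | h0
    · exact absurd (analyticOrderAt_eq_top.mpr h0) (hfin x hx)
    · have : ∀ᶠ ζ in 𝓝[≠] x, ζ ∈ U := nhdsWithin_le_nhds (hU.mem_nhds hx)
      obtain ⟨ζ, h1, h2⟩ := (h0.and this).exists
      exact ⟨ζ, h2, h1⟩
  obtain ⟨r₀, hr₀⟩ := IsAlgClosed.exists_pow_nat_eq (w z₀) hp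
  have hr₀ne : r₀ ≠ 0 := by
    intro h0
    rw [h0, zero_pow hp.ne'] at hr₀
    exact hwz₀ hr₀.symm
  let Good : Set ℂ → Prop := fun V =>
    IsOpen V ∧ Convex ℝ V ∧ V ⊆ U ∧ z₀ ∈ V ∧ {z ∈ V | w z = 0}.Finite
  have hroot : ∀ V, Good V → ∃ h : ℂ → ℂ, DifferentiableOn ℂ h V ∧
      (∀ z ∈ V, h z ^ p = w z) ∧ h z₀ = r₀ := by
    rintro V ⟨hVo, hVc, hVU, hz₀V, hVfin⟩
    have hsc : IsSimplyConnected V := by
      have : ContractibleSpace V := hVc.contractibleSpace ⟨z₀, hz₀V⟩
      exact (inferInstance : SimplyConnectedSpace V)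
    obtain ⟨h, hc, hh⟩ := rt9_root_of_finset hp hVo hsc hVfin.toFinset w (hw.mono hVU)
      (fun τ hτ => hord τ (hVU hτ)) (fun τ hτ h0 => hVfin.mem_toFinset.mpr ⟨hτ, h0⟩)
    have hhz₀ : h z₀ ≠ 0 := by
      intro h0
      have := hh z₀ hz₀V
      rw [h0, zero_pow hp.ne'] at this
      exact hwz₀ this.symm
    refine ⟨fun z => r₀ / h z₀ * h z, ?_, ?_, ?_⟩
    · exact (rt9_differentiableOn hp hVo hc (hw.mono hVU) (fun z hz => hfin z (hVU hz))
        hh).const_mul _
    · intro z hz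
      rw [mul_pow, div_pow, hr₀, hh z₀ hz₀V, div_self hwz₀, one_mul, hh z hz]
    · field_simp
  have huniq : ∀ V V' (h h' : ℂ → ℂ), Good V → Good V' → DifferentiableOn ℂ h V →
      (∀ z ∈ V, h z ^ p = w z) → h z₀ = r₀ → DifferentiableOn ℂ h' V' →
      (∀ z ∈ V', h' z ^ p = w z) → h' z₀ = r₀ → EqOn h h' (V ∩ V') := by
    intro V V' h h' hV hV' hd hh hz hd' hh' hz'
    exact rt9_eqOn hp (hV.1.inter hV'.1) (hV.2.1.inter hV'.2.1).isPreconnected
      (hd.mono inter_subset_left) (hd'.mono inter_subset_right)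
      (fun z hz => by rw [hh z hz.1, hh' z hz.2]) ⟨hV.2.2.2.1, hV'.2.2.2.1⟩
      (hz.trans hz'.symm) (hz ▸ hr₀ne)
  have hcover : ∀ z ∈ U, ∃ V, Good V ∧ z ∈ V := by
    intro z hz
    have hseg : segment ℝ z₀ z ⊆ U := hconv.segment_subset hz₀ hz
    have hK : IsCompact (segment ℝ z₀ z) := by
      rw [segment_eq_image_lineMap]
      exact isCompact_Icc.image (by fun_prop)
    obtain ⟨δ, hδ, hsub⟩ := hK.exists_cthickening_subset_open hU hseg
    refine ⟨thickening δ (segment ℝ z₀ z), ⟨isOpen_thickening, (convex_segment z₀ z).thickening δ,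
      (thickening_subset_cthickening _ _).trans hsub,
      self_subset_thickening hδ _ (left_mem_segment ℝ z₀ z), ?_⟩,
      self_subset_thickening hδ _ (right_mem_segment ℝ z₀ z)⟩
    exact (rt9_zeros_finite hU hw hK.cthickening hsub hfin).subset
      (fun y hy => ⟨thickening_subset_cthickening _ _ hy.1, hy.2⟩)
  choose! V hV hzV using hcover
  choose! H hHd hHp hHz using hroot
  have hloc : ∀ z ∈ U, ∀ z' ∈ V z, H (V z') z' = H (V z) z' := by
    intro z hz z' hz'
    have hz'U : z' ∈ U := (hV z hz).2.2.1 hz'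
    exact huniq (V z') (V z) (H (V z')) (H (V z)) (hV z' hz'U) (hV z hz)
      (hHd _ (hV z' hz'U)) (hHp _ (hV z' hz'U)) (hHz _ (hV z' hz'U))
      (hHd _ (hV z hz)) (hHp _ (hV z hz)) (hHz _ (hV z hz)) ⟨hzV z' hz'U, hz'⟩
  refine ⟨fun z => H (V z) z, ?_, ?_⟩
  · intro z hz
    refine DifferentiableAt.differentiableWithinAt ?_
    have hVz : V z ∈ 𝓝 z := (hV z hz).1.mem_nhds (hzV z hz)
    have : (fun z => H (V z) z) =ᶠ[𝓝 z] H (V z) := by
      filter_upwards [hVz] with z' hz' using hloc z hz z' hz'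
    exact ((hHd _ (hV z hz)).differentiableAt hVz).congr_of_eventuallyEq this
  · intro z hz
    exact hHp _ (hV z hz) z (hzV z hz)

/-- **(R) on the upper half plane.** A holomorphic function on the upper half plane all of whose
zero orders are (finite and) divisible by `p` is the `p`-th power of a holomorphic function. -/
theorem rt9_pth_root (p : ℕ) (hp : 0 < p) (w : ℂ → ℂ)
    (hw : DifferentiableOn ℂ w {z : ℂ | 0 < z.im})
    (hord : ∀ τ : ℂ, 0 < τ.im → ∃ k : ℕ, analyticOrderAt w τ = ((p * k : ℕ) : ℕ∞)) :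
    ∃ c : ℂ → ℂ, DifferentiableOn ℂ c {z : ℂ | 0 < z.im} ∧ ∀ z : ℂ, 0 < z.im → c z ^ p = w z :=
  rt9_pth_root_convex hp (isOpen_lt continuous_const Complex.continuous_im)
    (convex_halfSpace_im_gt 0) hw hord

/-- **(R), quotient form** (for a field of fractions of holomorphic functions): if `a`, `b` are
holomorphic on a convex open set, with finite orders everywhere, and `ord_τ a - ord_τ b` is
divisible by `p` for every `τ`, then there is a holomorphic `c` with `c ^ p * b = a * b ^ p`,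
that is `(c / b) ^ p = a / b`. -/
theorem rt9_pth_root_quot {p : ℕ} (hp : 0 < p) {U : Set ℂ} (hU : IsOpen U) (hconv : Convex ℝ U)
    {a b : ℂ → ℂ} (ha : DifferentiableOn ℂ a U) (hb : DifferentiableOn ℂ b U)
    (hord : ∀ τ ∈ U, ∃ m n : ℕ, ∃ k : ℤ, analyticOrderAt a τ = m ∧ analyticOrderAt b τ = n ∧
      (m : ℤ) - n = p * k) :
    ∃ c : ℂ → ℂ, DifferentiableOn ℂ c U ∧ ∀ z ∈ U, c z ^ p * b z = a z * b z ^ p := by
  have hw : DifferentiableOn ℂ (a * b ^ (p - 1)) U := ha.mul (hb.pow _)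
  have hord' : ∀ τ ∈ U, ∃ k : ℕ, analyticOrderAt (a * b ^ (p - 1)) τ = ((p * k : ℕ) : ℕ∞) := by
    intro τ hτ
    obtain ⟨m, n, k, hm, hn, hk⟩ := hord τ hτ
    have haτ : AnalyticAt ℂ a τ := ha.analyticAt (hU.mem_nhds hτ)
    have hbτ : AnalyticAt ℂ b τ := hb.analyticAt (hU.mem_nhds hτ)
    have h1 : analyticOrderAt (a * b ^ (p - 1)) τ = ((m + (p - 1) * n : ℕ) : ℕ∞) := by
      rw [analyticOrderAt_mul haτ (hbτ.pow _), analyticOrderAt_pow hbτ, hm, hn]
      push_cast
      simp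
    have h2 : 0 ≤ k + n := by
      by_contra hneg
      rw [not_le] at hneg
      have h3 : (m : ℤ) + (p - 1) * n = p * (k + n) := by linear_combination hk
      have h4 : (p : ℤ) * (k + n) < 0 := mul_neg_of_pos_of_neg (by exact_mod_cast hp) hneg
      have h5 : (0 : ℤ) ≤ (m : ℤ) + (p - 1) * n := by
        have : (1 : ℤ) ≤ p := by exact_mod_cast hp
        positivity
      omega
    refine ⟨(k + n).toNat, ?_⟩
    rw [h1]
    congr 1
    have h3 : ((m + (p - 1) * n : ℕ) : ℤ) = ((p * (k + n).toNat : ℕ) : ℤ) := by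
      push_cast
      rw [Int.toNat_of_nonneg h2, Nat.cast_sub hp]
      push_cast
      linear_combination hk
    exact_mod_cast h3
  obtain ⟨c, hc, hcp⟩ := rt9_pth_root_convex hp hU hconv hw hord'
  refine ⟨c, hc, fun z hz => ?_⟩
  rw [hcp z hz]
  simp only [Pi.mul_apply, Pi.pow_apply]
  rw [mul_assoc, ← pow_succ, Nat.sub_add_cancel hp]

end Fermat.Agent.S42
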