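import Mathlib

/-!
# S42 / M6 (R): `p`-th roots of holomorphic functions on the upper half plane (helper78)

* `h78_root_unique`       : two holomorphic `p`-th roots on a connected open set differ by a
                            constant `p`-th root of unity.
* `h78_root_ball_nonvanishing` : `p`-th root of a nonvanishing holomorphic function on a disc.
* `h78_root_ball`         : `p`-th root on a disc whose closure lies in the domain, when all
                            orders of vanishing are divisible by `p`.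
* `h78_root_glue`         : gluing along an increasing sequence of connected open sets.
* `h78_root_upperHalfPlane` : the statement (R0) on `{z | 0 < z.im}`.
-/

namespace Fermat.Agent.S42

open Complex Metric Set Filter Topology

/-- (R2) Two holomorphic `p`-th roots of the same function on a connected open set differ by a
constant `p`-th root of unity. -/
theorem h78_root_unique {U : Set ℂ} (hU : IsOpen U) (hUc : IsPreconnected U) {p : ℕ}
    (hp : 0 < p) {h h' : ℂ → ℂ} (hh : DifferentiableOn ℂ h U) (hh' : DifferentiableOn ℂ h' U)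
    (heq : ∀ z ∈ U, h' z ^ p = h z ^ p) :
    ∃ ζ : ℂ, ζ ^ p = 1 ∧ ∀ z ∈ U, h' z = ζ * h z := by
  classical
  have hprim := Complex.isPrimitiveRoot_exp p hp.ne'
  have key : ∀ z ∈ U, ∏ ζ ∈ Polynomial.nthRootsFinset p (1 : ℂ), (h' z - ζ * h z) = 0 := by
    intro z hz
    rw [← hprim.pow_sub_pow_eq_prod_sub_mul _ _ hp, heq z hz, sub_self]
  have hA : AnalyticOnNhd ℂ h U := hh.analyticOnNhd hU
  have hA' : AnalyticOnNhd ℂ h' U := hh'.analyticOnNhd hU
  have main : ∀ s : Finset ℂ, (∀ z ∈ U, ∏ ζ ∈ s, (h' z - ζ * h z) = 0) → U.Nonempty →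
      ∃ ζ ∈ s, ∀ z ∈ U, h' z = ζ * h z := by
    intro s
    induction s using Finset.induction_on with
    | empty =>
      rintro h0 ⟨z, hz⟩
      simpa using h0 z hz
    | insert a s ha ih =>
      intro h0 hne
      have h1 : AnalyticOnNhd ℂ (fun z => h' z - a * h z) U :=
        hA'.sub (analyticOnNhd_const.mul hA)
      have h2 : AnalyticOnNhd ℂ (fun z => ∏ ζ ∈ s, (h' z - ζ * h z)) U := by
        apply Finset.analyticOnNhd_fun_prod
        intro ζ _
        exact hA'.sub (analyticOnNhd_const.mul hA)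
      rcases AnalyticOnNhd.eq_zero_or_eq_zero_of_mul_eq_zero h1 h2
        (by intro z hz; simpa [Finset.prod_insert ha] using h0 z hz) hUc with h3 | h3
      · exact ⟨a, Finset.mem_insert_self _ _, fun z hz => sub_eq_zero.mp (h3 z hz)⟩
      · obtain ⟨ζ, hζ, hζ'⟩ := ih h3 hne
        exact ⟨ζ, Finset.mem_insert_of_mem hζ, hζ'⟩
  by_cases hne : U.Nonempty
  · obtain ⟨ζ, hζ, hζ'⟩ := main _ key hne
    exact ⟨ζ, ((Polynomial.mem_nthRootsFinset hp 1).mp hζ), hζ'⟩
  · refine ⟨1, one_pow _, fun z hz => absurd ⟨z, hz⟩ hne⟩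

/-- A nonvanishing holomorphic function on a disc has a holomorphic `p`-th root. -/
theorem h78_root_ball_nonvanishing {c : ℂ} {r : ℝ} {g : ℂ → ℂ}
    (hg : DifferentiableOn ℂ g (ball c r)) (hg0 : ∀ z ∈ ball c r, g z ≠ 0) {p : ℕ}
    (hp : 0 < p) :
    ∃ h : ℂ → ℂ, DifferentiableOn ℂ h (ball c r) ∧ ∀ z ∈ ball c r, h z ^ p = g z := by
  have hd : DifferentiableOn ℂ (fun z => deriv g z / g z) (ball c r) :=
    (hg.deriv isOpen_ball).div hg hg0
  obtain ⟨G, hG⟩ := hd.isExactOn_ball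
  have hGd : DifferentiableOn ℂ G (ball c r) := fun z hz =>
    (hG z hz).differentiableAt.differentiableWithinAt
  have hconst : ∃ a, ∀ z ∈ ball c r, g z * exp (-G z) = a := by
    apply isOpen_ball.exists_is_const_of_deriv_eq_zero (convex_ball c r).isPreconnected
    · exact hg.mul (hGd.neg.cexp)
    · intro z hz
      have h1 : HasDerivAt g (deriv g z) z :=
        (hg.differentiableAt (isOpen_ball.mem_nhds hz)).hasDerivAt
      have h2 : HasDerivAt (fun z => exp (-G z)) (exp (-G z) * -(deriv g z / g z)) z :=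
        (hG z hz).neg.cexp
      have h3 : HasDerivAt (fun x => g x * exp (-G x)) _ z := h1.mul h2
      rw [h3.deriv]
      have := hg0 z hz
      simp only [Pi.zero_apply]
      field_simp
      ring
  obtain ⟨a, ha⟩ := hconst
  refine ⟨fun z => a ^ ((p : ℂ)⁻¹) * exp (G z / p), ?_, ?_⟩
  · exact (differentiableOn_const _).mul ((hGd.div_const _).cexp)
  · intro z hz
    have hpc : (p : ℂ) ≠ 0 := Nat.cast_ne_zero.mpr hp.ne'
    rw [mul_pow, Complex.cpow_nat_inv_pow _ hp.ne', ← Complex.exp_nat_mul,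
      mul_div_cancel₀ _ hpc, ← ha z hz, mul_assoc, ← Complex.exp_add]
    simp

/-- On a disc whose closure lies in a connected open set `U` where `f` is holomorphic and all
orders of vanishing of `f` are (finite and) divisible by `p`, `f` has a holomorphic `p`-th
root. -/
theorem h78_root_ball {U : Set ℂ} (hU : IsOpen U) {f : ℂ → ℂ}
    (hf : DifferentiableOn ℂ f U) {p : ℕ} (hp : 0 < p)
    (hord : ∀ z ∈ U, ∃ m : ℕ, analyticOrderAt f z = ((p * m : ℕ) : ℕ∞))
    {c : ℂ} {r : ℝ} (hK : closedBall c r ⊆ U) :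
    ∃ h : ℂ → ℂ, DifferentiableOn ℂ h (ball c r) ∧ ∀ z ∈ ball c r, h z ^ p = f z := by
  classical
  have hfa : AnalyticOnNhd ℂ f U := hf.analyticOnNhd hU
  have hBU : ball c r ⊆ U := ball_subset_closedBall.trans hK
  have hmer : MeromorphicOn f (closedBall c r) := (hfa.mono hK).meromorphicOn
  have hmerB : MeromorphicOn f (ball c r) := hmer.mono_set ball_subset_closedBall
  have hfin : (MeromorphicOn.divisor f (ball c r)).support.Finite :=
    MeromorphicOn.divisor_ball_support_finite hmer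
  have h2 : ∀ u : ball c r, meromorphicOrderAt f u ≠ ⊤ := by
    rintro ⟨u, hu⟩
    obtain ⟨m, hm⟩ := hord u (hBU hu)
    rw [(hfa u (hBU hu)).meromorphicOrderAt_eq, hm, ENat.map_natCast]
    exact WithTop.coe_ne_top
  obtain ⟨g, hga, hg0, hfg⟩ := hmerB.extract_zeros_poles h2 hfin
  obtain ⟨k, hk, hkp⟩ := h78_root_ball_nonvanishing hga.differentiableOn
    (fun z hz => hg0 ⟨z, hz⟩) hp
  set D := MeromorphicOn.divisor f (ball c r) with hD
  -- the divisor is `p` times a nonnegative function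
  have hDm : ∀ u : ℂ, ∃ m : ℕ, D u = (p : ℤ) * (m : ℤ) := by
    intro u
    by_cases hu : u ∈ ball c r
    · obtain ⟨m, hm⟩ := hord u (hBU hu)
      refine ⟨m, ?_⟩
      rw [hD, MeromorphicOn.AnalyticOnNhd.divisor_apply (hfa.mono hBU) hu, hm, ENat.map_natCast]
      simp
    · exact ⟨0, by simpa using D.apply_eq_zero_of_notMem hu⟩
  choose m hm using hDm
  have hmsupp : (fun u => (m u : ℤ)).support ⊆ D.support := by
    intro u hu
    simp only [Function.mem_support, ne_eq] at hu ⊢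
    intro h0
    apply hu
    have := hm u
    rw [h0] at this
    have hp' : (p : ℤ) ≠ 0 := by exact_mod_cast hp.ne'
    rcases mul_eq_zero.mp this.symm with h | h
    · exact absurd h hp'
    · exact h
  have hmfin : (fun u => (m u : ℤ)).support.Finite := hfin.subset hmsupp
  set φ : ℂ → ℂ := ∏ᶠ u, (· - u) ^ ((m u : ℤ)) with hφ
  have hφa : ∀ x, AnalyticAt ℂ φ x := fun x =>
    Function.FactorizedRational.analyticAt (d := fun u => (m u : ℤ)) (by simp)
  have hφp : φ ^ p = ∏ᶠ u, (· - u) ^ D u := by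
    rw [hφ, finprod_pow]
    · congr 1
      funext u
      rw [hm u, mul_comm, zpow_mul]
      exact (zpow_natCast _ _).symm
    · unfold Function.HasFiniteMulSupport
      rw [Function.FactorizedRational.mulSupport (fun u => (m u : ℤ))]
      exact hmfin
  refine ⟨fun z => φ z * k z, ?_, ?_⟩
  · have hφd : DifferentiableOn ℂ φ (ball c r) := fun z _ =>
      (hφa z).differentiableAt.differentiableWithinAt
    exact hφd.mul hk
  · intro x hx
    -- both sides are continuous at `x` and agree on a punctured neighbourhood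
    have hcodis := hfg
    rw [Filter.EventuallyEq, Filter.Eventually, mem_codiscreteWithin_iff_forall_mem_nhdsNE]
      at hcodis
    have hx1 := hcodis x hx
    have hev : ∀ᶠ z in 𝓝[≠] x, (φ z * k z) ^ p = f z := by
      have hball : ∀ᶠ z in 𝓝[≠] x, z ∈ ball c r :=
        mem_nhdsWithin_of_mem_nhds (isOpen_ball.mem_nhds hx)
      filter_upwards [hx1, hball] with z hz hzb
      rcases hz with hz | hz
      · have hz' : f z = ((∏ᶠ u, (· - u) ^ D u) • g) z := hz
        rw [hz', ← hφp, mul_pow, hkp z hzb]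
        simp
      · exact absurd hzb hz
    have hc1 : ContinuousAt (fun z => (φ z * k z) ^ p) x :=
      (((hφa x).continuousAt).mul
        ((hk.differentiableAt (isOpen_ball.mem_nhds hx)).continuousAt)).pow p
    have hc2 : ContinuousAt f x := (hfa x (hBU hx)).continuousAt
    have h3 := hc1.tendsto.mono_left (nhdsWithin_le_nhds (s := {x}ᶜ))
    have h4 := hc2.tendsto.mono_left (nhdsWithin_le_nhds (s := {x}ᶜ))
    exact tendsto_nhds_unique (h3.congr' hev) h4

/-- Gluing `p`-th roots along an increasing sequence of connected open sets. -/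
theorem h78_root_glue {p : ℕ} (hp : 0 < p) {f : ℂ → ℂ} (B : ℕ → Set ℂ)
    (hBo : ∀ n, IsOpen (B n)) (hBc : ∀ n, IsPreconnected (B n)) (hBm : Monotone B)
    (hroot : ∀ n, ∃ h : ℂ → ℂ, DifferentiableOn ℂ h (B n) ∧ ∀ z ∈ B n, h z ^ p = f z) :
    ∃ h : ℂ → ℂ, DifferentiableOn ℂ h (⋃ n, B n) ∧ ∀ z ∈ ⋃ n, B n, h z ^ p = f z := by
  classical
  choose h hd hpow using hroot
  have hstep : ∀ n, ∃ ζ : ℂ, ζ ^ p = 1 ∧ ∀ z ∈ B n, h (n + 1) z = ζ * h n z := by
    intro n
    have hsub : B n ⊆ B (n + 1) := hBm (Nat.le_succ n)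
    exact h78_root_unique (hBo n) (hBc n) hp (hd n) ((hd (n + 1)).mono hsub)
      (fun z hz => by rw [hpow n z hz, hpow (n + 1) z (hsub hz)])
  choose ζ hζ1 hζ using hstep
  have hζ0 : ∀ n, ζ n ≠ 0 := by
    intro n h0
    have := hζ1 n
    rw [h0, zero_pow hp.ne'] at this
    exact zero_ne_one this
  -- normalising constants
  let cst : ℕ → ℂ := fun n => Nat.rec (1 : ℂ) (fun k ck => ck * (ζ k)⁻¹) n
  have hc0 : cst 0 = 1 := rfl
  have hcs : ∀ n, cst (n + 1) = cst n * (ζ n)⁻¹ := fun n => rfl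
  have hcp : ∀ n, cst n ^ p = 1 := by
    intro n
    induction n with
    | zero => simp [hc0]
    | succ k ih => rw [hcs, mul_pow, ih, inv_pow, hζ1 k]; simp
  let ht : ℕ → ℂ → ℂ := fun n z => cst n * h n z
  have hcompat1 : ∀ n, ∀ z ∈ B n, ht (n + 1) z = ht n z := by
    intro n z hz
    simp only [ht]
    rw [hcs, hζ n z hz]
    field_simp [hζ0 n]
  have hcompat : ∀ m n, m ≤ n → ∀ z ∈ B m, ht n z = ht m z := by
    intro m n hmn
    induction n, hmn using Nat.le_induction with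
    | base => intro z _; rfl
    | succ k hk ih =>
      intro z hz
      rw [hcompat1 k z (hBm hk hz), ih z hz]
  let H : ℂ → ℂ := fun z => if hz : ∃ n, z ∈ B n then ht (Nat.find hz) z else 0
  have hH : ∀ n, ∀ z ∈ B n, H z = ht n z := by
    intro n z hz
    have hex : ∃ n, z ∈ B n := ⟨n, hz⟩
    simp only [H, dif_pos hex]
    exact (hcompat _ _ (Nat.find_min' hex hz) z (Nat.find_spec hex)).symm
  refine ⟨H, ?_, ?_⟩
  · intro z hz
    obtain ⟨n, hn⟩ := mem_iUnion.mp hz
    have hdn : DifferentiableAt ℂ (ht n) z :=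
      ((differentiableOn_const (cst n)).mul (hd n)).differentiableAt ((hBo n).mem_nhds hn)
    have heq : H =ᶠ[𝓝 z] ht n := by
      filter_upwards [(hBo n).mem_nhds hn] with w hw using hH n w hw
    exact (hdn.congr_of_eventuallyEq heq).differentiableWithinAt
  · intro z hz
    obtain ⟨n, hn⟩ := mem_iUnion.mp hz
    rw [hH n z hn]
    simp only [ht]
    rw [mul_pow, hcp, one_mul, hpow n z hn]

/-- The discs `ball ((n+2) i) (n + 2 - 1/(n+2))` exhaust the upper half plane. -/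
theorem h78_exhaust_closedBall_subset (n : ℕ) :
    closedBall (((n : ℝ) + 2) * I : ℂ) ((n : ℝ) + 2 - 1 / ((n : ℝ) + 2)) ⊆
      {z : ℂ | 0 < z.im} := by
  intro z hz
  rw [mem_closedBall, Complex.dist_eq] at hz
  have h1 : |(z - ((n : ℝ) + 2) * I).im| ≤ ‖z - ((n : ℝ) + 2) * I‖ := Complex.abs_im_le_norm _
  have h2 : (z - ((n : ℝ) + 2) * I).im = z.im - ((n : ℝ) + 2) := by simp
  rw [h2] at h1
  have h3 : (0 : ℝ) < 1 / ((n : ℝ) + 2) := by positivity
  have h4 := abs_le.mp (h1.trans hz)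
  change 0 < z.im
  linarith [h4.1]

theorem h78_exhaust_mono :
    Monotone (fun n : ℕ => ball (((n : ℝ) + 2) * I : ℂ) ((n : ℝ) + 2 - 1 / ((n : ℝ) + 2))) := by
  apply monotone_nat_of_le_succ
  intro n
  apply ball_subset_ball'
  have hd : dist (((n : ℝ) + 2) * I : ℂ) ((((n + 1 : ℕ) : ℝ) + 2) * I) = 1 := by
    rw [Complex.dist_eq]
    have : (((n : ℝ) + 2) * I : ℂ) - ((((n + 1 : ℕ) : ℝ) + 2) * I) = -I := by
      push_cast; ring
    rw [this]; simp
  rw [hd]
  have h1 : (1 : ℝ) / ((((n + 1 : ℕ) : ℝ)) + 2) ≤ 1 / ((n : ℝ) + 2) := by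
    apply one_div_le_one_div_of_le (by positivity)
    push_cast; linarith
  have h0 : ((n + 1 : ℕ) : ℝ) = (n : ℝ) + 1 := by push_cast; ring
  rw [h0] at h1 ⊢
  linarith

theorem h78_exhaust_iUnion :
    (⋃ n : ℕ, ball (((n : ℝ) + 2) * I : ℂ) ((n : ℝ) + 2 - 1 / ((n : ℝ) + 2))) =
      {z : ℂ | 0 < z.im} := by
  apply Subset.antisymm
  · apply iUnion_subset
    intro n
    exact ball_subset_closedBall.trans (h78_exhaust_closedBall_subset n)
  · intro z hz
    change 0 < z.im at hz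
    obtain ⟨n, hn⟩ := exists_nat_gt ((z.re ^ 2 + z.im ^ 2 + 2) / (2 * z.im))
    refine mem_iUnion.mpr ⟨n, ?_⟩
    rw [mem_ball, Complex.dist_eq]
    have hN : (0 : ℝ) < (n : ℝ) + 2 := by positivity
    have h3 : (0 : ℝ) < 1 / ((n : ℝ) + 2) := by positivity
    have h5 : 1 / ((n : ℝ) + 2) ≤ 1 / 2 := by
      apply one_div_le_one_div_of_le (by norm_num)
      linarith [(Nat.cast_nonneg n : (0 : ℝ) ≤ n)]
    have hr : (0 : ℝ) ≤ (n : ℝ) + 2 - 1 / ((n : ℝ) + 2) := by linarith
    have hn' : z.re ^ 2 + z.im ^ 2 + 2 < (n : ℝ) * (2 * z.im) := by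
      rwa [div_lt_iff₀ (by linarith)] at hn
    have hsq : ‖z - ((n : ℝ) + 2) * I‖ ^ 2 = z.re ^ 2 + (z.im - ((n : ℝ) + 2)) ^ 2 := by
      rw [Complex.sq_norm, Complex.normSq_apply]
      simp
      ring
    have key : ‖z - ((n : ℝ) + 2) * I‖ ^ 2 < ((n : ℝ) + 2 - 1 / ((n : ℝ) + 2)) ^ 2 := by
      rw [hsq]
      have h6 : ((n : ℝ) + 2 - 1 / ((n : ℝ) + 2)) ^ 2 =
          ((n : ℝ) + 2) ^ 2 - 2 + (1 / ((n : ℝ) + 2)) ^ 2 := by
        field_simp
        ring
      rw [h6]
      nlinarith [sq_nonneg (1 / ((n : ℝ) + 2))]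
    exact lt_of_pow_lt_pow_left₀ 2 hr key

/-- **(R0)** A holomorphic function on the upper half plane all of whose orders of vanishing are
finite and divisible by `p` is a `p`-th power of a holomorphic function. -/
theorem h78_root_upperHalfPlane {p : ℕ} (hp : 0 < p) {f : ℂ → ℂ}
    (hf : DifferentiableOn ℂ f {z : ℂ | 0 < z.im})
    (hord : ∀ z : ℂ, 0 < z.im → ∃ m : ℕ, analyticOrderAt f z = ((p * m : ℕ) : ℕ∞)) :
    ∃ h : ℂ → ℂ, DifferentiableOn ℂ h {z : ℂ | 0 < z.im} ∧
      ∀ z : ℂ, 0 < z.im → h z ^ p = f z := by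
  have hUo : IsOpen {z : ℂ | 0 < z.im} := isOpen_lt continuous_const Complex.continuous_im
  have := h78_root_glue hp (f := f)
    (fun n : ℕ => ball (((n : ℝ) + 2) * I : ℂ) ((n : ℝ) + 2 - 1 / ((n : ℝ) + 2)))
    (fun n => isOpen_ball) (fun n => (convex_ball _ _).isPreconnected) h78_exhaust_mono
    (fun n => h78_root_ball hUo hf hp (fun z hz => hord z hz) (h78_exhaust_closedBall_subset n))
  rw [h78_exhaust_iUnion] at this
  exact this

open UpperHalfPlane in
open scoped Manifold in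
/-- **(R0) on `ℍ`**: a holomorphic function on `ℍ` all of whose orders of vanishing are finite
and divisible by `p` is the `p`-th power of a holomorphic function on `ℍ`. -/
theorem h78_root_H {p : ℕ} (hp : 0 < p) {f : ℍ → ℂ} (hf : MDifferentiable 𝓘(ℂ) 𝓘(ℂ) f)
    (hord : ∀ τ : ℍ, ∃ m : ℕ,
      analyticOrderAt (f ∘ ofComplex) (τ : ℂ) = ((p * m : ℕ) : ℕ∞)) :
    ∃ h : ℍ → ℂ, MDifferentiable 𝓘(ℂ) 𝓘(ℂ) h ∧ ∀ τ : ℍ, h τ ^ p = f τ := by
  obtain ⟨h0, hd, hpow⟩ := h78_root_upperHalfPlane hp (UpperHalfPlane.mdifferentiable_iff.mp hf)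
    (fun z hz => hord ⟨z, hz⟩)
  refine ⟨fun τ => h0 (τ : ℂ), ?_, ?_⟩
  · rw [UpperHalfPlane.mdifferentiable_iff]
    refine hd.congr ?_
    intro z hz
    simp [Function.comp_apply, ofComplex_apply_of_im_pos hz]
  · intro τ
    have := hpow (τ : ℂ) τ.im_pos
    simpa [Function.comp_apply, ofComplex_apply] using this

open UpperHalfPlane in
open scoped Manifold in
/-- **(R2) on `ℍ`**: two holomorphic `p`-th roots of the same function on `ℍ` differ by a
constant `p`-th root of unity. -/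
theorem h78_root_unique_H {p : ℕ} (hp : 0 < p) {h h' : ℍ → ℂ}
    (hh : MDifferentiable 𝓘(ℂ) 𝓘(ℂ) h) (hh' : MDifferentiable 𝓘(ℂ) 𝓘(ℂ) h')
    (heq : ∀ τ : ℍ, h' τ ^ p = h τ ^ p) :
    ∃ ζ : ℂ, ζ ^ p = 1 ∧ ∀ τ : ℍ, h' τ = ζ * h τ := by
  have hUo : IsOpen {z : ℂ | 0 < z.im} := isOpen_lt continuous_const Complex.continuous_im
  have hUc : IsPreconnected {z : ℂ | 0 < z.im} :=
    (convex_halfSpace_im_gt 0).isPreconnected
  obtain ⟨ζ, hζ, hζ'⟩ := h78_root_unique hUo hUc hp (UpperHalfPlane.mdifferentiable_iff.mp hh)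
    (UpperHalfPlane.mdifferentiable_iff.mp hh') (fun z hz => by
      simpa [Function.comp_apply, ofComplex_apply_of_im_pos hz] using heq ⟨z, hz⟩)
  refine ⟨ζ, hζ, fun τ => ?_⟩
  simpa [Function.comp_apply, ofComplex_apply] using hζ' (τ : ℂ) τ.im_pos

open UpperHalfPlane in
open scoped Manifold in
/-- **(R1)**: quotient form.  If `f, g` are holomorphic on `ℍ` with finite orders of vanishing
`a τ`, `b τ` and `p ∣ a τ - b τ` for every `τ`, then `f * g ^ (p - 1)` is a `p`-th power of a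
holomorphic `h`; hence `(h / g) ^ p = f / g`. -/
theorem h78_root_quot_H {p : ℕ} (hp : 0 < p) {f g : ℍ → ℂ}
    (hf : MDifferentiable 𝓘(ℂ) 𝓘(ℂ) f) (hg : MDifferentiable 𝓘(ℂ) 𝓘(ℂ) g)
    (hord : ∀ τ : ℍ, ∃ a b : ℕ, analyticOrderAt (f ∘ ofComplex) (τ : ℂ) = (a : ℕ∞) ∧
      analyticOrderAt (g ∘ ofComplex) (τ : ℂ) = (b : ℕ∞) ∧ (p : ℤ) ∣ (a : ℤ) - (b : ℤ)) :
    ∃ h : ℍ → ℂ, MDifferentiable 𝓘(ℂ) 𝓘(ℂ) h ∧ (∀ τ : ℍ, h τ ^ p = f τ * g τ ^ (p - 1)) ∧
      ∀ τ : ℍ, h τ ^ p * g τ = f τ * g τ ^ p := by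
  have hF : MDifferentiable 𝓘(ℂ) 𝓘(ℂ) (fun τ => f τ * g τ ^ (p - 1)) := hf.mul (hg.pow _)
  have hordF : ∀ τ : ℍ, ∃ m : ℕ,
      analyticOrderAt ((fun τ => f τ * g τ ^ (p - 1)) ∘ ofComplex) (τ : ℂ)
        = ((p * m : ℕ) : ℕ∞) := by
    intro τ
    obtain ⟨a, b, ha, hb, hab⟩ := hord τ
    have hfa : AnalyticAt ℂ (f ∘ ofComplex) (τ : ℂ) :=
      (UpperHalfPlane.mdifferentiable_iff.mp hf).analyticAt
        ((isOpen_lt continuous_const Complex.continuous_im).mem_nhds τ.im_pos)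
    have hga : AnalyticAt ℂ (g ∘ ofComplex) (τ : ℂ) :=
      (UpperHalfPlane.mdifferentiable_iff.mp hg).analyticAt
        ((isOpen_lt continuous_const Complex.continuous_im).mem_nhds τ.im_pos)
    have hfun : ((fun τ => f τ * g τ ^ (p - 1)) ∘ ofComplex)
        = (f ∘ ofComplex) * (g ∘ ofComplex) ^ (p - 1) := by
      funext z; simp [Function.comp_apply]
    rw [hfun, analyticOrderAt_mul hfa (hga.pow _), analyticOrderAt_pow hga, ha, hb]
    have hdvd : (p : ℤ) ∣ ((a + (p - 1) * b : ℕ) : ℤ) := by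
      have h1 : ((a + (p - 1) * b : ℕ) : ℤ) = ((a : ℤ) - b) + (p : ℤ) * b := by
        have hp1 : ((p - 1 : ℕ) : ℤ) = (p : ℤ) - 1 := by
          rw [Nat.cast_sub hp]; simp
        push_cast [hp1]
        ring
      rw [h1]
      exact dvd_add hab (dvd_mul_right _ _)
    obtain ⟨m, hm⟩ := Int.natCast_dvd_natCast.mp hdvd
    refine ⟨m, ?_⟩
    rw [← hm]
    simp
  obtain ⟨h, hh, hpow⟩ := h78_root_H hp hF hordF
  refine ⟨h, hh, hpow, fun τ => ?_⟩
  rw [hpow τ, mul_assoc, ← pow_succ, Nat.sub_add_cancel hp]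

end Fermat.Agent.S42
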