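/-
S42 / Project 4, row M11b (helper65): instantiation of the skeleton.  With BLR-lite
(`blr75_main`), the mod-`p` cyclotomic character (`ExtCitation.cycloChar`, facts `cy92_*`) and
(I-EIG) (`ec18_W1`) on main, the frozen statements S42 / S29 are reduced to the single
interface (I-Theta):

* `sk65_ITheta N p`      : (I-Theta) = the hypotheses of `w1t28_main` / `ec18_W1`, as one `Prop`;
* `sk65_S42_of_W1`       : frozen S42 from (W1) at the prime of the Frey package;
* `sk65_S42_of_ITheta`   : frozen S42 from (I-Theta) at all positive levels, `p = P.p`;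
* `sk65_S29_of_W1`, `sk65_S29_of_ITheta` : the same for S29 (all primes `p`).
-/
import Mathlib
import Fermat.Agent.S42.SkeletonCore65
import Fermat.Agent.S42.BLR75
import Fermat.Agent.S42.CycloChar92
import Fermat.Agent.S42.EigenTensorP18

set_option autoImplicit false
set_option linter.style.haveILetI false
set_option linter.unusedVariables false

open scoped TensorProduct
open Polynomial ModularCurve AlgebraicCurve CongruenceSubgroup

namespace Fermat.Agent.S42

open Fermat.Agent.S16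

local notation "Qb" => AlgebraicClosure ℚ
local notation "GQ" => AlgebraicClosure ℚ ≃ₐ[ℚ] AlgebraicClosure ℚ
local notation "Zb" => integralClosure ℤ ℂ

/-- BLR-lite (`blr75_main`) in the shape consumed by the skeleton. -/
theorem sk65_blr (k : Type) [Field k] [IsAlgClosed k] : sk65_BLR k :=
  fun W _ _ _ _ rho chi hq => blr75_main rho chi hq

/-- The Prelude mod-`p` cyclotomic character has the three properties used by the skeleton. -/
theorem sk65_isCyclo (p : ℕ) [Fact p.Prime] : sk65_IsCyclo p (ExtCitation.cycloChar p) :=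
  ⟨fun ℓ hℓ hℓp A hA τ hτ => cy92_frob p hℓ hℓp A hA τ hτ,
    fun ℓ hℓ hℓp A hA s hs => cy92_inertia p hℓ hℓp A hA s hs, cy92_finiteLevel p⟩

/-- **Frozen S42 from (W1)** at the prime of the Frey package. -/
theorem sk65_S42_of_W1 (P : FreyPackage) (hW1 : sk65_W1 P.p) :
    ∀ M : ℕ, 0 < M → P.EigenformResidualAttachmentAt M :=
  haveI : Fact P.p.Prime := ⟨P.pp⟩
  sk65_S42 P (fun k _ _ => sk65_blr k) (ExtCitation.cycloChar P.p) (sk65_isCyclo P.p) hW1

/-- **Frozen S29 from (W1)** at every prime. -/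
theorem sk65_S29_of_W1 (hW1 : ∀ p : ℕ, p.Prime → sk65_W1 p)
    {N : ℕ} {g : CuspForm (Gamma0 N) 2} (hg : g.IsNormalizedEigenform)
    {p : ℕ} (hp : p.Prime) {k : Type} [Field k] [CharP k p] (φ : Zb →+* k) :
    ∃ ρ : ResidualGaloisRep k, ρ.IsAttachedTo g φ ∧
      ∀ ℓ : ℕ, ℓ.Prime → ¬ ℓ ∣ N * p → ρ.IsUnramifiedAt ℓ :=
  sk65_S29 (fun k _ _ => sk65_blr k)
    (fun p hp => haveI : Fact p.Prime := ⟨hp⟩; ⟨ExtCitation.cycloChar p, sk65_isCyclo p⟩)
    hW1 hg hp φ

/-- **(I-Theta)** at level `N` and prime `p`: the four hypotheses of `w1t28_main` / `ec18_W1`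
as one proposition. -/
def sk65_ITheta (N p : ℕ) [NeZero N] : Prop :=
  ∃ Θ : w1a28_Par N p →+ JZero N, Function.Injective Θ ∧
    (∀ χ : w1a28_Par N p, (p : ℤ) • Θ χ = 0) ∧
    ∀ ℓ : Nat.Primes, ¬ (ℓ : ℕ) ∣ N * p → ∀ χ χ' : w1a28_Par N p,
      (χ' : Additive (Gamma0 N) →+ ZMod p) = heckeHom N ℓ (ZMod p) χ →
        heckeOperatorBar N ℓ (Θ χ) = Θ χ'

/-- (W1) at `p` from (I-Theta) at all positive levels ((I-EIG) = `ec18_W1` on main). -/
theorem sk65_W1_of_ITheta (p : ℕ) [Fact p.Prime] (h : ∀ (N : ℕ) [NeZero N], sk65_ITheta N p) :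
    sk65_W1 p := by
  intro N _ g hg k0 _ _ _ φ
  obtain ⟨Θ, hΘ, htors, hhec⟩ := h N
  exact ec18_W1 Θ hΘ htors hhec hg φ

/-- **Frozen S42 from (I-Theta)** at all positive levels and the prime of the Frey package. -/
theorem sk65_S42_of_ITheta (P : FreyPackage) (h : ∀ (N : ℕ) [NeZero N], sk65_ITheta N P.p) :
    ∀ M : ℕ, 0 < M → P.EigenformResidualAttachmentAt M :=
  haveI : Fact P.p.Prime := ⟨P.pp⟩
  sk65_S42_of_W1 P (sk65_W1_of_ITheta P.p h)

/-- **Frozen S29 from (I-Theta)** at all positive levels and all primes. -/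
theorem sk65_S29_of_ITheta (h : ∀ p : ℕ, p.Prime → ∀ (N : ℕ) [NeZero N], sk65_ITheta N p)
    {N : ℕ} {g : CuspForm (Gamma0 N) 2} (hg : g.IsNormalizedEigenform)
    {p : ℕ} (hp : p.Prime) {k : Type} [Field k] [CharP k p] (φ : Zb →+* k) :
    ∃ ρ : ResidualGaloisRep k, ρ.IsAttachedTo g φ ∧
      ∀ ℓ : ℕ, ℓ.Prime → ¬ ℓ ∣ N * p → ρ.IsUnramifiedAt ℓ :=
  sk65_S29_of_W1 (fun p hp => haveI : Fact p.Prime := ⟨hp⟩; sk65_W1_of_ITheta p (h p hp)) hg hp φ

end Fermat.Agent.S42
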