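/-
S42 / Project 4, (I-EIG) tensor step (helper52; second seat of M9, ruling #1848 R3 / #1858).

From a `k0`-valued Hecke eigenvector `χ : Γ₀(N) → k0` (parabolic, nonzero; `k0` any field over
`ZMod p`) to the literal hypothesis `heig` of `w1a28_main` / `w1t28_main`: a nonzero
`x ∈ k0 ⊗[ZMod p] Par_N` whose image in `k0 ⊗ Hom(Γ₀(N), ZMod p)` satisfies the same
eigen-equations under `1 ⊗ T'_ℓ`.

* `tf52_Phi : k0 ⊗[F] Hom(A, F) →ₗ[k0] Hom(A, k0)`, `c ⊗ ψ ↦ (a ↦ c * ψ a)`; injective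
  (`tf52_Phi_injective`, no finiteness), natural in operators (`tf52_Phi_baseChange`);
* `tf52_exists_preimage`: a hom with finitely generated value span is in the image of `k0 ⊗ P`
  for every submodule `P` containing the `F`-valued homs vanishing where it vanishes;
* `tf52_tensor`: the tensor step, uniform in `ℓ` and in the eigenvalue;
  `tf52_heig`, `tf52_heig_dvd`, `tf52_heig_eigenform`: the shapes consumed by the W1 assembly.
-/
import Mathlib
import Fermat.Agent.S42.W1Asm28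

set_option autoImplicit false

open CongruenceSubgroup ModularCurve ModularCurve.Period
open scoped TensorProduct MatrixGroups

namespace Fermat.Agent.S42

open Fermat.Agent.S16

section Abstract

variable {F : Type*} [Field F] {k0 : Type*} [Field k0] [Algebra F k0] {A : Type*} [AddGroup A]

theorem tf52_tower : IsScalarTower F k0 (A →+ k0) :=
  ⟨fun r c f => by ext a; simp [smul_assoc]⟩

attribute [local instance] tf52_tower

/-- coefficient extension `Hom(A, F) → Hom(A, k0)`, `F`-linear. -/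
noncomputable def tf52_ext : (A →+ F) →ₗ[F] (A →+ k0) where
  toFun χ := ((algebraMap F k0 : F →+* k0) : F →+ k0).comp χ
  map_add' χ ψ := by ext a; simp
  map_smul' c χ := by ext a; simp [Algebra.smul_def]

@[simp] theorem tf52_ext_apply (χ : A →+ F) (a : A) :
    tf52_ext (k0 := k0) χ a = algebraMap F k0 (χ a) := rfl

/-- `Φ : k0 ⊗[F] Hom(A, F) → Hom(A, k0)`, `c ⊗ χ ↦ (a ↦ c * χ a)`, `k0`-linear. -/
noncomputable def tf52_Phi : k0 ⊗[F] (A →+ F) →ₗ[k0] (A →+ k0) :=
  LinearMap.liftBaseChange k0 (tf52_ext (F := F) (k0 := k0) (A := A))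

theorem tf52_Phi_tmul (c : k0) (χ : A →+ F) (a : A) :
    tf52_Phi (c ⊗ₜ[F] χ) a = c * algebraMap F k0 (χ a) := by
  simp [tf52_Phi]

/-- evaluation at `a : A` as an additive map `Hom(A, k0) → k0`. -/
theorem tf52_Phi_sum {ι : Type*} (ℬ : ι → k0) (c : ι →₀ (A →+ F)) (a : A) :
    tf52_Phi (c.sum fun i n => ℬ i ⊗ₜ[F] n) a = c.sum fun i n => ℬ i * algebraMap F k0 (n a) := by
  classical
  rw [Finsupp.sum, map_sum, AddMonoidHom.finsetSum_apply, Finsupp.sum]
  exact Finset.sum_congr rfl fun i _ => tf52_Phi_tmul _ _ _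

/-- `Φ` is injective (no finiteness needed). -/
theorem tf52_Phi_injective :
    Function.Injective (tf52_Phi : k0 ⊗[F] (A →+ F) →ₗ[k0] (A →+ k0)) := by
  classical
  rw [injective_iff_map_eq_zero]
  intro x hx
  let ℬ := Module.Basis.ofVectorSpace F k0
  obtain ⟨c, rfl⟩ := TensorProduct.eq_repr_basis_left ℬ x
  have hc : c = 0 := by
    ext i a
    have h1 : (c.sum fun i n => ℬ i * algebraMap F k0 (n a)) = 0 := by
      rw [← tf52_Phi_sum, hx]; rfl
    have h2 : (Finsupp.linearCombination F ℬ) (c.mapRange (fun n : A →+ F => n a) rfl) = 0 := by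
      rw [Finsupp.linearCombination_apply, Finsupp.sum_mapRange_index (by simp)]
      rw [← h1]
      refine Finsupp.sum_congr fun j _ => ?_
      rw [Algebra.smul_def, mul_comm]
    have h4 : c.mapRange (fun n : A →+ F => n a) rfl = 0 := by
      have := ℬ.linearIndependent
      rw [linearIndependent_iff] at this
      exact this _ h2
    have h5 := DFunLike.congr_fun h4 i
    simpa using h5
  rw [hc]
  simp

/-- naturality: an `F`-operator `T` on `Hom(A, F)` and a `k0`-linear operator `T'` on `Hom(A, k0)`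
which agree on coefficient-extended homs are intertwined by `Φ`. -/
theorem tf52_Phi_baseChange (T : (A →+ F) →ₗ[F] (A →+ F)) (T' : (A →+ k0) →+ (A →+ k0))
    (hsmul : ∀ (c : k0) (f : A →+ k0), T' (c • f) = c • T' f)
    (hnat : ∀ χ : A →+ F, T' (tf52_ext χ) = tf52_ext (T χ)) (y : k0 ⊗[F] (A →+ F)) :
    tf52_Phi (T.baseChange k0 y) = T' (tf52_Phi y) := by
  induction y using TensorProduct.induction_on with
  | zero => simp
  | tmul c χ =>
    rw [LinearMap.baseChange_tmul]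
    have e : ∀ ψ : A →+ F, tf52_Phi (c ⊗ₜ[F] ψ) = c • tf52_ext (k0 := k0) ψ := fun ψ => by
      ext a
      rw [tf52_Phi_tmul]
      rfl
    rw [e, e, hsmul, hnat]
  | add x y hx hy => rw [map_add, map_add, map_add, map_add, hx, hy]

/-- existence of a preimage under `Φ` inside `k0 ⊗ P`, for a hom with finitely generated value
span, `P` any submodule containing every `F`-valued hom vanishing wherever `χ` vanishes. -/
theorem tf52_exists_preimage (P : Submodule F (A →+ F)) (χ : A →+ k0)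
    (hfin : (Submodule.span F (Set.range χ)).FG)
    (hP : ∀ ψ : A →+ F, (∀ a, χ a = 0 → ψ a = 0) → ψ ∈ P) :
    ∃ x : k0 ⊗[F] P, tf52_Phi (P.subtype.baseChange k0 x) = χ := by
  classical
  set W : Submodule F k0 := Submodule.span F (Set.range χ) with hW
  have : Module.Finite F W := Module.Finite.iff_fg.mpr hfin
  let b := Module.finBasis F W
  let χW : A →+ W := χ.codRestrict W (fun a => Submodule.subset_span ⟨a, rfl⟩)
  let ψ : Fin (Module.finrank F W) → (A →+ F) := fun i => (b.coord i).toAddMonoidHom.comp χW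
  have hψP : ∀ i, ψ i ∈ P := fun i => hP _ (fun a ha => by
    have h0 : χW a = 0 := Subtype.ext ha
    show b.coord i (χW a) = 0
    rw [h0, map_zero])
  have hsum : ∀ a, χ a = ∑ i, (b i : k0) * algebraMap F k0 (ψ i a) := fun a => by
    have h1 := congrArg (Subtype.val) (b.sum_repr (χW a))
    rw [AddSubmonoidClass.coe_finsetSum] at h1
    rw [show χ a = ((χW a : W) : k0) from rfl, ← h1]
    refine Finset.sum_congr rfl fun i _ => ?_
    rw [Submodule.coe_smul, Algebra.smul_def, mul_comm]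
    rfl
  refine ⟨∑ i, (b i : k0) ⊗ₜ[F] (⟨ψ i, hψP i⟩ : P), ?_⟩
  ext a
  rw [map_sum, map_sum, AddMonoidHom.finsetSum_apply, hsum a]
  refine Finset.sum_congr rfl fun i _ => ?_
  rw [LinearMap.baseChange_tmul, tf52_Phi_tmul]
  rfl

/-- the value span of a hom out of a finitely generated group is finitely generated. -/
theorem tf52_span_fg [AddGroup.FG A] (χ : A →+ k0) : (Submodule.span F (Set.range χ)).FG := by
  classical
  obtain ⟨s, hs⟩ := AddGroup.fg_def.mp (inferInstance : AddGroup.FG A)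
  have key : Submodule.span F (Set.range χ) = Submodule.span F (χ '' (s : Set A)) := by
    refine le_antisymm (Submodule.span_le.mpr ?_) (Submodule.span_mono (Set.image_subset_range _ _))
    rintro _ ⟨a, rfl⟩
    have ha : a ∈ AddSubgroup.closure (s : Set A) := by rw [hs]; trivial
    induction ha using AddSubgroup.closure_induction with
    | mem x hx => exact Submodule.subset_span ⟨x, hx, rfl⟩
    | zero => rw [map_zero]; exact Submodule.zero_mem _
    | add x y _ _ hx hy => rw [map_add]; exact Submodule.add_mem _ hx hy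
    | neg x _ hx => rw [map_neg]; exact Submodule.neg_mem _ hx
  rw [key]
  exact Submodule.fg_span (s.finite_toSet.image _)

end Abstract

section Concrete

variable {N p : ℕ} [NeZero N] [Fact p.Prime] {k0 : Type*} [Field k0] [Algebra (ZMod p) k0]

theorem tf52_fg_Gamma0 (N : ℕ) [NeZero N] : AddGroup.FG (Additive (Gamma0 N)) := by
  have h1 : Group.FG SL(2, ℤ) := by
    rw [Group.fg_def]
    exact ⟨{ModularGroup.S, ModularGroup.T}, by simpa using SpecialLinearGroup.SL2Z_generators⟩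
  have h2 : Group.FG (Gamma0 N) := Subgroup.fg_of_index_ne_zero (Gamma0 N)
  exact GroupFG.iff_add_fg.mp h2

omit [NeZero N] in
theorem tf52_heckeHom_smul (ℓ : ℕ) (c : k0) (f : Additive (Gamma0 N) →+ k0) :
    heckeHom N ℓ k0 (c • f) = c • heckeHom N ℓ k0 f := by
  have e : ∀ g : Additive (Gamma0 N) →+ k0, c • g = (AddMonoidHom.mulLeft c).comp g := fun g => by
    ext a; rfl
  rw [e, e, heckeHom_comp]

omit [NeZero N] in
theorem tf52_heckeHom_ext (ℓ : ℕ) (ψ : Additive (Gamma0 N) →+ ZMod p) :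
    heckeHom N ℓ k0 (tf52_ext ψ) = tf52_ext (w1a28_TX N p ℓ ψ) := by
  rw [w1a28_TX_apply]
  exact heckeHom_comp N ℓ _ ψ

/-- **The tensor step**, uniform in the prime and in the eigenvalue. -/
theorem tf52_tensor (χ : Additive (Gamma0 N) →+ k0) (hχ0 : χ ≠ 0)
    (hχ : IsParabolicHom (Gamma0 N) χ) :
    ∃ x : k0 ⊗[ZMod p] ↥(w1a28_Par N p), x ≠ 0 ∧
      tf52_Phi ((w1a28_Par N p).subtype.baseChange k0 x) = χ ∧
      ∀ (ℓ : ℕ) (c : k0), heckeHom N ℓ k0 χ = c • χ →
        (w1a28_TX N p ℓ).baseChange k0 ((w1a28_Par N p).subtype.baseChange k0 x)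
          = c • (w1a28_Par N p).subtype.baseChange k0 x := by
  have := tf52_fg_Gamma0 N
  obtain ⟨x, hx⟩ := tf52_exists_preimage (F := ZMod p) (w1a28_Par N p) χ (tf52_span_fg χ)
    (fun ψ hψ γ hγ => hψ _ (hχ γ hγ))
  refine ⟨x, fun h0 => hχ0 ?_, hx, fun ℓ c hc => tf52_Phi_injective ?_⟩
  · rw [← hx, h0, map_zero, map_zero]
  · rw [tf52_Phi_baseChange (w1a28_TX N p ℓ) (heckeHom N ℓ k0) (tf52_heckeHom_smul ℓ)
      (tf52_heckeHom_ext ℓ), hx, hc, map_smul, hx]

/-- the literal (I-EIG) hypothesis `heig` of `w1a28_main` (binding shape of #1858), all primes. -/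
theorem tf52_heig (χ : Additive (Gamma0 N) →+ k0) (hχ0 : χ ≠ 0)
    (hχ : IsParabolicHom (Gamma0 N) χ) (lam : Nat.Primes → k0)
    (heig : ∀ ℓ : Nat.Primes, heckeHom N ℓ k0 χ = lam ℓ • χ) :
    ∃ x : k0 ⊗[ZMod p] ↥(w1a28_Par N p), x ≠ 0 ∧ ∀ ℓ : Nat.Primes,
      (w1a28_TX N p ℓ).baseChange k0 ((w1a28_Par N p).subtype.baseChange k0 x)
        = lam ℓ • (w1a28_Par N p).subtype.baseChange k0 x := by
  obtain ⟨x, hx0, -, hx⟩ := tf52_tensor (p := p) χ hχ0 hχ
  exact ⟨x, hx0, fun ℓ => hx ℓ (lam ℓ) (heig ℓ)⟩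

/-- the literal `heig` of `w1a28_main` / `w1t28_main` (primes `ℓ ∤ N p`). -/
theorem tf52_heig_dvd (χ : Additive (Gamma0 N) →+ k0) (hχ0 : χ ≠ 0)
    (hχ : IsParabolicHom (Gamma0 N) χ) (lam : Nat.Primes → k0)
    (heig : ∀ ℓ : Nat.Primes, ¬ (ℓ : ℕ) ∣ N * p → heckeHom N ℓ k0 χ = lam ℓ • χ) :
    ∃ x : k0 ⊗[ZMod p] ↥(w1a28_Par N p), x ≠ 0 ∧ ∀ ℓ : Nat.Primes, ¬ (ℓ : ℕ) ∣ N * p →
      (w1a28_TX N p ℓ).baseChange k0 ((w1a28_Par N p).subtype.baseChange k0 x)
        = lam ℓ • (w1a28_Par N p).subtype.baseChange k0 x := by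
  obtain ⟨x, hx0, -, hx⟩ := tf52_tensor (p := p) χ hχ0 hχ
  exact ⟨x, hx0, fun ℓ hℓ => hx ℓ (lam ℓ) (heig ℓ hℓ)⟩

/-- the literal `heig` of `w1a28_main_eigenform` from the conclusion shape of `ev28_exists_field`
(a `k0`-valued parabolic eigenvector with eigenvalues `φ (a_ℓ)`, all primes `ℓ`). -/
theorem tf52_heig_eigenform (f : CuspForm (Gamma0 N) 2) (φ : integralClosure ℤ ℂ →+* k0)
    (h : ∃ χ : Additive (Gamma0 N) →+ k0, χ ≠ 0 ∧ IsParabolicHom (Gamma0 N) χ ∧
      ∀ ℓ : ℕ, ℓ.Prime → ∃ a : integralClosure ℤ ℂ,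
        (a : ℂ) = ModularFormClass.qCoeff (⇑f) ℓ ∧ heckeHom N ℓ k0 χ = φ a • χ) :
    ∃ x : k0 ⊗[ZMod p] ↥(w1a28_Par N p), x ≠ 0 ∧
      ∀ ℓ : Nat.Primes, ¬ (ℓ : ℕ) ∣ N * p →
        ∃ a : integralClosure ℤ ℂ, (a : ℂ) = ModularFormClass.qCoeff (⇑f) ℓ ∧
          (w1a28_TX N p ℓ).baseChange k0 ((w1a28_Par N p).subtype.baseChange k0 x)
            = φ a • (w1a28_Par N p).subtype.baseChange k0 x := by
  obtain ⟨χ, hχ0, hχ, heig⟩ := h
  obtain ⟨x, hx0, -, hx⟩ := tf52_tensor (p := p) χ hχ0 hχ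
  refine ⟨x, hx0, fun ℓ _ => ?_⟩
  obtain ⟨a, ha, hae⟩ := heig ℓ ℓ.2
  exact ⟨a, ha, hx ℓ (φ a) hae⟩

end Concrete

end Fermat.Agent.S42
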