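import Mathlib
import Fermat.Agent.S42.ThetaAbs70

/-!
# Riders S30 / S31, row THETA-Z (helper31): the abstract Kummer map at an ARBITRARY modulus,
on INTEGRAL characters

`ThetaAbs70` (helper70) builds `Θ : Par → Pic0 K F` for `ZMod p`-valued characters, `p` prime.
Nothing in the argument uses primality.  This file is the modulus-general twin, in the form the
riders consume:

* `thz31_exists_theta` : `th70_exists_theta` verbatim, for any modulus `m ≠ 0`;
* `thz31_red`, `thz31_IsCharZ`, `thz31_AdmZ` : integral characters `χ : Additive Gam →+ ℤ`,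
  `g • h = ζ ^ χ(g) * h` (integer power), and the comparison with `th70_IsChar` / `th70_Adm` of the
  reduction of `χ` modulo `m`;
* `thz31_exists_thetaZ` : `Θ : L →+ Pic0 K F` on a subgroup `L` of integral characters, killed by
  `m`, with kernel inside `m • Hom`, computed by ANY admissible pair;
* `thz31_hecke_of` : the abstract Hecke step for integral characters;
* `thz31_level` : level compatibility `k • Θ_{k m} = Θ_m` when `ζ_{k m} ^ k = ζ_m`.

All names are prefixed `thz31_`.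
-/

set_option autoImplicit false
set_option linter.unusedSectionVars false
set_option linter.unusedVariables false
set_option linter.style.longLine false
set_option linter.style.haveILetI false

open AlgebraicCurve

namespace Fermat.Agent.S42

section thz31_zmod

variable {K F : Type*} [Field K] [Field F] [Algebra K F]
variable {M : Type*} [Field M] {Gam : Type*} [Group Gam] [MulSemiringAction Gam M]

/-- **The abstract Kummer map at an arbitrary modulus `m ≠ 0`** (twin of `th70_exists_theta`,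
which asks for a prime modulus but only uses `p ≠ 0`). -/
theorem thz31_exists_theta [HasPrincipalDivisors K F] (ev : F →+* M) (m : ℕ) [NeZero m]
    (ζ : M) (hζ : IsPrimitiveRoot ζ m) (hζfix : ∀ g : Gam, g • ζ = ζ)
    (hfix : ∀ (g : Gam) (f : F), g • ev f = ev f)
    (hK2 : ∀ x : M, x ≠ 0 → (∀ g : Gam, g • x = x) → ∀ f : F, x ^ m = ev f →
      ∃ (w : F) (a : K), f = algebraMap K F a * w ^ m)
    (hconst : ∀ f : F, f ≠ 0 → (∀ v : Place K F, v.ord f = 0) → ∃ a : K, f = algebraMap K F a)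
    (hroot : ∀ a : K, ∃ b : K, b ^ m = a)
    (Par : AddSubgroup (Additive Gam →+ ZMod m))
    (hex : ∀ χ ∈ Par, ∃ (h : M) (f : F), th70_Adm K ev m ζ χ h f) :
    ∃ Θ : Par →+ Pic0 K F, Function.Injective Θ ∧ (∀ χ, (m : ℤ) • Θ χ = 0) ∧
      ∀ (χ : Par) (h : M) (f : F), th70_Adm K ev m ζ (χ : Additive Gam →+ ZMod m) h f →
        ∀ D : Divisor.degZero (K := K) (F := F), th70_IsDivOf m f (D : Divisor K F) →
          Θ χ = Pic0.mk D := by
  classical
  have hp : m ≠ 0 := NeZero.ne m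
  have hζp : ζ ^ m = 1 := hζ.pow_eq_one
  have hζ0 : ζ ≠ 0 := hζ.ne_zero hp
  choose hh ff hA using fun χ : Par => hex χ.1 χ.2
  choose DD hDD hdeg using fun χ : Par =>
    th70_exists_div (K := K) hp (hA χ).2.1 (hA χ).2.2.2.2
  let θ : Par → Pic0 K F := fun χ => Pic0.mk ⟨DD χ, hdeg χ⟩
  have heval : ∀ (χ : Par) (h : M) (f : F),
      th70_Adm K ev m ζ (χ : Additive Gam →+ ZMod m) h f →
        ∀ D : Divisor.degZero (K := K) (F := F), th70_IsDivOf m f (D : Divisor K F) →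
          θ χ = Pic0.mk D := by
    intro χ h f H D hD
    exact th70_class_unique hp hζ0 hK2 H (hA χ) D ⟨DD χ, hdeg χ⟩ hD (hDD χ)
  have hadd : ∀ χ₁ χ₂ : Par, θ (χ₁ + χ₂) = θ χ₁ + θ χ₂ := by
    intro χ₁ χ₂
    have H := th70_adm_mul (K := K) hζp (hA χ₁) (hA χ₂)
    have hD := th70_isDivOf_mul (hA χ₁).2.1 (hA χ₂).2.1 (hDD χ₁) (hDD χ₂)
    have := heval (χ₁ + χ₂) _ _ H (⟨DD χ₁, hdeg χ₁⟩ + ⟨DD χ₂, hdeg χ₂⟩) hD
    rw [this, Pic0.mk_add]
  refine ⟨AddMonoidHom.mk' θ hadd, ?_, ?_, heval⟩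
  · -- injectivity
    rw [injective_iff_map_eq_zero]
    intro χ hχ
    have hχ' : Pic0.mk (⟨DD χ, hdeg χ⟩ : Divisor.degZero (K := K) (F := F)) = 0 := hχ
    unfold Pic0.mk at hχ'
    rw [QuotientAddGroup.eq_zero_iff, AddSubgroup.mem_addSubgroupOf] at hχ'
    obtain ⟨w, hw, hwD⟩ := hχ'
    obtain ⟨a1, a2, a3, a4, a5⟩ := hA χ
    -- `f / w ^ m` has no zeros and poles
    have hwp : w ^ m ≠ 0 := pow_ne_zero _ hw
    have hord : ∀ v : Place K F, v.ord (ff χ / w ^ m) = 0 := by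
      intro v
      rw [div_eq_mul_inv, v.ord_mul a2 (inv_ne_zero hwp), v.ord_inv, th70_ord_pow, ← hDD χ v]
      have := hwD v
      simp only at this
      rw [this]
      ring
    obtain ⟨a, ha⟩ := hconst _ (div_ne_zero a2 hwp) hord
    obtain ⟨b, hb⟩ := hroot a
    have ha0 : a ≠ 0 := by
      rintro rfl
      rw [map_zero] at ha
      exact div_ne_zero a2 hwp ha
    have hb0 : b ≠ 0 := by
      rintro rfl
      rw [zero_pow hp] at hb
      exact ha0 hb.symm
    have hevb : ev (algebraMap K F b) ≠ 0 := by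
      simpa using hb0
    have hevw : ev w ≠ 0 := by simpa using hw
    -- `y := h / (ev w * ev b)` is an `m`-th root of unity
    have hy : (hh χ / (ev w * ev (algebraMap K F b))) ^ m = 1 := by
      have hf : ff χ = algebraMap K F a * w ^ m := by
        rw [← ha, div_mul_cancel₀ _ hwp]
      rw [div_pow, a4, hf, ← hb, map_mul, map_pow, map_pow, map_pow, mul_pow]
      have h1 : ev (algebraMap K F b) ^ m ≠ 0 := pow_ne_zero _ hevb
      have h2 : ev w ^ m ≠ 0 := pow_ne_zero _ hevw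
      field_simp
    obtain ⟨i, -, hi⟩ := hζ.eq_pow_of_pow_eq_one hy
    have hhval : hh χ = ζ ^ i * (ev w * ev (algebraMap K F b)) := by
      rw [hi, div_mul_cancel₀ _ (mul_ne_zero hevw hevb)]
    have hinvh : ∀ g : Gam, g • hh χ = hh χ := by
      intro g
      rw [hhval, smul_mul', smul_mul', smul_pow', hζfix, hfix, hfix]
    -- hence the character is trivial
    have hχ0 : (χ : Additive Gam →+ ZMod m) = 0 := by
      refine DFunLike.ext _ _ fun g => ?_
      have h1 := a3 (Additive.toMul g)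
      rw [ofMul_toMul] at h1
      rw [hinvh] at h1
      have h2 : ζ ^ ((χ : Additive Gam →+ ZMod m) g).val = 1 := by
        have h3 : (ζ ^ ((χ : Additive Gam →+ ZMod m) g).val - 1) * hh χ = 0 := by
          rw [sub_mul, one_mul]
          exact sub_eq_zero.mpr h1.symm
        rcases mul_eq_zero.mp h3 with h4 | h4
        · exact sub_eq_zero.mp h4
        · exact absurd h4 a1
      have h5 := (hζ.pow_eq_one_iff_dvd _).mp h2
      have h6 : ((χ : Additive Gam →+ ZMod m) g).val = 0 :=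
        Nat.eq_zero_of_dvd_of_lt h5 (ZMod.val_lt _)
      rw [AddMonoidHom.zero_apply]
      exact (ZMod.val_eq_zero _).mp h6
    exact Subtype.ext hχ0
  · -- `m`-torsion
    intro χ
    show (m : ℤ) • θ χ = 0
    show (m : ℤ) • Pic0.mk (⟨DD χ, hdeg χ⟩ : Divisor.degZero (K := K) (F := F)) = 0
    unfold Pic0.mk
    rw [← QuotientAddGroup.mk_zsmul, QuotientAddGroup.eq_zero_iff, AddSubgroup.mem_addSubgroupOf]
    refine ⟨ff χ, (hA χ).2.1, fun v => ?_⟩
    have := hDD χ v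
    simpa using this

end thz31_zmod

section thz31_defs

/-- Reduction of integral characters modulo `m`. -/
def thz31_red (Gam : Type*) [Group Gam] (m : ℕ) :
    (Additive Gam →+ ℤ) →+ (Additive Gam →+ ZMod m) :=
  AddMonoidHom.compHom (Int.castAddHom (ZMod m))

theorem thz31_red_apply {Gam : Type*} [Group Gam] (m : ℕ) (χ : Additive Gam →+ ℤ)
    (g : Additive Gam) : thz31_red Gam m χ g = ((χ g : ℤ) : ZMod m) := rfl

/-- `h` transforms under `Gam` by the character `g ↦ ζ ^ χ(g)`, `χ` integral (integer powers). -/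
def thz31_IsCharZ {M Gam : Type*} [Field M] [Group Gam] [MulSemiringAction Gam M]
    (ζ : M) (χ : Additive Gam →+ ℤ) (h : M) : Prop :=
  ∀ g : Gam, g • h = ζ ^ (χ (Additive.ofMul g)) * h

/-- Admissible pairs `(h, f)` at modulus `m` for the integral character `χ`. -/
def thz31_AdmZ (K : Type*) {F M Gam : Type*} [Field K] [Field F] [Algebra K F] [Field M]
    [Group Gam] [MulSemiringAction Gam M] (ev : F →+* M) (m : ℕ) (ζ : M)
    (χ : Additive Gam →+ ℤ) (h : M) (f : F) : Prop :=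
  h ≠ 0 ∧ f ≠ 0 ∧ thz31_IsCharZ ζ χ h ∧ h ^ m = ev f ∧ ∀ v : Place K F, (m : ℤ) ∣ v.ord f

end thz31_defs

section thz31_main

variable {K F : Type*} [Field K] [Field F] [Algebra K F]
variable {M : Type*} [Field M] {Gam : Type*} [Group Gam] [MulSemiringAction Gam M]

/-- For `ζ ^ m = 1` the natural power by the residue of `n` is the integer power by `n`. -/
theorem thz31_pow_val {m : ℕ} [NeZero m] {ζ : M} (hζ : ζ ^ m = 1) (n : ℤ) :
    ζ ^ ((n : ZMod m).val) = ζ ^ n := by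
  have hm : m ≠ 0 := NeZero.ne m
  have hζ0 : ζ ≠ 0 := by
    rintro rfl
    rw [zero_pow hm] at hζ
    exact zero_ne_one hζ
  have h1 : ζ ^ n = ζ ^ (n % (m : ℤ)) := by
    conv_lhs => rw [← Int.emod_add_mul_ediv n (m : ℤ)]
    rw [zpow_add₀ hζ0, zpow_mul, zpow_natCast, hζ, one_zpow, mul_one]
  rw [h1, ← zpow_natCast, ZMod.val_intCast]

theorem thz31_isChar_red {m : ℕ} [NeZero m] {ζ : M} (hζ : ζ ^ m = 1)
    (χ : Additive Gam →+ ℤ) (h : M) :
    th70_IsChar m ζ (thz31_red Gam m χ) h ↔ thz31_IsCharZ ζ χ h := by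
  unfold th70_IsChar thz31_IsCharZ
  refine forall_congr' fun g => ?_
  rw [thz31_red_apply, thz31_pow_val hζ]

theorem thz31_adm_red {ev : F →+* M} {m : ℕ} [NeZero m] {ζ : M} (hζ : ζ ^ m = 1)
    (χ : Additive Gam →+ ℤ) (h : M) (f : F) :
    th70_Adm K ev m ζ (thz31_red Gam m χ) h f ↔ thz31_AdmZ K ev m ζ χ h f := by
  unfold th70_Adm thz31_AdmZ
  rw [thz31_isChar_red hζ]

/-- The character of an integral multiple `m • χ'` is trivial modulo `m`. -/
theorem thz31_red_eq_zero_iff {m : ℕ} (χ : Additive Gam →+ ℤ) :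
    thz31_red Gam m χ = 0 ↔ ∀ g : Additive Gam, (m : ℤ) ∣ χ g := by
  constructor
  · intro h g
    have := DFunLike.congr_fun h g
    rw [thz31_red_apply, AddMonoidHom.zero_apply] at this
    exact (ZMod.intCast_zmod_eq_zero_iff_dvd _ _).mp this
  · intro h
    refine DFunLike.ext _ _ fun g => ?_
    rw [thz31_red_apply, AddMonoidHom.zero_apply]
    exact (ZMod.intCast_zmod_eq_zero_iff_dvd _ _).mpr (h g)

/-- **The abstract Kummer map on integral characters, modulus `m`.**  `Θ : L →+ Pic0 K F` is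
killed by `m`, vanishes exactly on the characters divisible by `m`, and is computed by ANY
admissible pair. -/
theorem thz31_exists_thetaZ [HasPrincipalDivisors K F] (ev : F →+* M) (m : ℕ) [NeZero m]
    (ζ : M) (hζ : IsPrimitiveRoot ζ m) (hζfix : ∀ g : Gam, g • ζ = ζ)
    (hfix : ∀ (g : Gam) (f : F), g • ev f = ev f)
    (hK2 : ∀ x : M, x ≠ 0 → (∀ g : Gam, g • x = x) → ∀ f : F, x ^ m = ev f →
      ∃ (w : F) (a : K), f = algebraMap K F a * w ^ m)
    (hconst : ∀ f : F, f ≠ 0 → (∀ v : Place K F, v.ord f = 0) → ∃ a : K, f = algebraMap K F a)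
    (hroot : ∀ a : K, ∃ b : K, b ^ m = a)
    (L : AddSubgroup (Additive Gam →+ ℤ))
    (hex : ∀ χ ∈ L, ∃ (h : M) (f : F), thz31_AdmZ K ev m ζ χ h f) :
    ∃ Θ : L →+ Pic0 K F, (∀ χ, (m : ℤ) • Θ χ = 0) ∧
      (∀ χ : L, Θ χ = 0 ↔ ∀ g : Additive Gam, (m : ℤ) ∣ (χ : Additive Gam →+ ℤ) g) ∧
      ∀ (χ : L) (h : M) (f : F), thz31_AdmZ K ev m ζ (χ : Additive Gam →+ ℤ) h f →
        ∀ D : Divisor.degZero (K := K) (F := F), th70_IsDivOf m f (D : Divisor K F) →
          Θ χ = Pic0.mk D := by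
  have hζm : ζ ^ m = 1 := hζ.pow_eq_one
  have hex' : ∀ χ ∈ L.map (thz31_red Gam m), ∃ (h : M) (f : F), th70_Adm K ev m ζ χ h f := by
    rintro _ ⟨χ, hχ, rfl⟩
    obtain ⟨h, f, H⟩ := hex χ hχ
    exact ⟨h, f, (thz31_adm_red hζm χ h f).mpr H⟩
  obtain ⟨Θ, hinj, htors, heval⟩ := thz31_exists_theta (K := K) ev m ζ hζ hζfix hfix hK2 hconst
    hroot (L.map (thz31_red Gam m)) hex'
  refine ⟨Θ.comp ((thz31_red Gam m).addSubgroupMap L), fun χ => htors _, fun χ => ?_,
    fun χ h f H D hD => ?_⟩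
  · rw [← thz31_red_eq_zero_iff]
    constructor
    · intro h0
      have h1 : Θ ((thz31_red Gam m).addSubgroupMap L χ) = Θ 0 := by
        rw [map_zero]
        exact h0
      have h2 := hinj h1
      exact congrArg Subtype.val h2
    · intro h0
      have h2 : (thz31_red Gam m).addSubgroupMap L χ = 0 := Subtype.ext h0
      show Θ ((thz31_red Gam m).addSubgroupMap L χ) = 0
      rw [h2, map_zero]
  · exact heval ((thz31_red Gam m).addSubgroupMap L χ) h f
      ((thz31_adm_red hζm (χ : Additive Gam →+ ℤ) h f).mpr H) D hD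

/-- **Abstract Hecke step, integral characters.** -/
theorem thz31_hecke_of {ev : F →+* M} {m : ℕ} {ζ : M}
    {L : AddSubgroup (Additive Gam →+ ℤ)}
    (hex : ∀ χ ∈ L, ∃ (h : M) (f : F), thz31_AdmZ K ev m ζ χ h f)
    (Θ : L →+ Pic0 K F)
    (heval : ∀ (χ : L) (h : M) (f : F), thz31_AdmZ K ev m ζ (χ : Additive Gam →+ ℤ) h f →
        ∀ D : Divisor.degZero (K := K) (F := F), th70_IsDivOf m f (D : Divisor K F) →
          Θ χ = Pic0.mk D)
    (hm : m ≠ 0) [HasPrincipalDivisors K F]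
    (T : Pic0 K F →+ Pic0 K F) (T' : (Additive Gam →+ ℤ) → (Additive Gam →+ ℤ))
    (hT : ∀ χ ∈ L, ∀ (h : M) (f : F), thz31_AdmZ K ev m ζ χ h f →
      ∀ D : Divisor.degZero (K := K) (F := F), th70_IsDivOf m f (D : Divisor K F) →
        ∃ (h' : M) (f' : F) (D' : Divisor.degZero (K := K) (F := F)),
          thz31_AdmZ K ev m ζ (T' χ) h' f' ∧ th70_IsDivOf m f' (D' : Divisor K F) ∧
            T (Pic0.mk D) = Pic0.mk D')
    (χ : L) (hχ : T' (χ : Additive Gam →+ ℤ) ∈ L) :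
    T (Θ χ) = Θ ⟨T' (χ : Additive Gam →+ ℤ), hχ⟩ := by
  obtain ⟨h, f, H⟩ := hex χ.1 χ.2
  obtain ⟨D, hD, hdeg⟩ := th70_exists_div (K := K) hm H.2.1 H.2.2.2.2
  obtain ⟨h', f', D', H', hD', hTD⟩ := hT χ.1 χ.2 h f H ⟨D, hdeg⟩ hD
  rw [heval χ h f H ⟨D, hdeg⟩ hD, hTD]
  exact (heval ⟨T' (χ : Additive Gam →+ ℤ), hχ⟩ h' f' H' D' hD').symm

/-- An admissible pair at modulus `k * m` gives one at modulus `m` (for `ζ = ζ' ^ k`). -/
theorem thz31_adm_pow {ev : F →+* M} {m k : ℕ} {ζ' : M} {χ : Additive Gam →+ ℤ} {h : M} {f : F}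
    (H : thz31_AdmZ K ev (k * m) ζ' χ h f) : thz31_AdmZ K ev m (ζ' ^ k) χ (h ^ k) f := by
  obtain ⟨a1, a2, a3, a4, a5⟩ := H
  refine ⟨pow_ne_zero _ a1, a2, fun g => ?_, ?_, fun v => ?_⟩
  · rw [smul_pow', a3 g, mul_pow]
    congr 1
    rw [← zpow_natCast (ζ' ^ _) k, ← zpow_mul, mul_comm, zpow_mul, zpow_natCast]
  · rw [← pow_mul, a4]
  · refine dvd_trans ?_ (a5 v)
    exact ⟨(k : ℤ), by push_cast; ring⟩

/-- **Level compatibility**: `k • Θ_{k m} = Θ_m` as soon as `ζ_{k m} ^ k = ζ_m`. -/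
theorem thz31_level [HasPrincipalDivisors K F] {ev : F →+* M} {m k : ℕ} (hm : m ≠ 0)
    (hk : k ≠ 0) {ζ ζ' : M} (hζζ' : ζ' ^ k = ζ) {L : AddSubgroup (Additive Gam →+ ℤ)}
    (Θ Θ' : L →+ Pic0 K F)
    (heval : ∀ (χ : L) (h : M) (f : F), thz31_AdmZ K ev m ζ (χ : Additive Gam →+ ℤ) h f →
        ∀ D : Divisor.degZero (K := K) (F := F), th70_IsDivOf m f (D : Divisor K F) →
          Θ χ = Pic0.mk D)
    (heval' : ∀ (χ : L) (h : M) (f : F),
        thz31_AdmZ K ev (k * m) ζ' (χ : Additive Gam →+ ℤ) h f →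
        ∀ D : Divisor.degZero (K := K) (F := F), th70_IsDivOf (k * m) f (D : Divisor K F) →
          Θ' χ = Pic0.mk D)
    (hex' : ∀ χ ∈ L, ∃ (h : M) (f : F), thz31_AdmZ K ev (k * m) ζ' χ h f)
    (χ : L) : (k : ℤ) • Θ' χ = Θ χ := by
  obtain ⟨h, f, H'⟩ := hex' χ.1 χ.2
  obtain ⟨D, hD, hdeg⟩ := th70_exists_div (K := K) (mul_ne_zero hk hm) H'.2.1 H'.2.2.2.2
  have H : thz31_AdmZ K ev m ζ (χ : Additive Gam →+ ℤ) (h ^ k) f := hζζ' ▸ thz31_adm_pow H'
  have hD1 : th70_IsDivOf m f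
      (((k : ℤ) • (⟨D, hdeg⟩ : Divisor.degZero (K := K) (F := F)) :
        Divisor.degZero (K := K) (F := F)) : Divisor K F) := by
    intro v
    have h1 := hD v
    rw [AddSubgroup.coe_zsmul, Finsupp.smul_apply, smul_eq_mul, ← h1]
    push_cast
    ring
  rw [heval' χ h f H' ⟨D, hdeg⟩ hD, heval χ (h ^ k) f H _ hD1]
  unfold Pic0.mk
  rw [QuotientAddGroup.mk_zsmul]

/-- `thz31_level` with the larger modulus given up to a propositional equality. -/
theorem thz31_level' [HasPrincipalDivisors K F] {ev : F →+* M} {m k m' : ℕ} (hm' : m' = k * m)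
    (hm : m ≠ 0) (hk : k ≠ 0) {ζ ζ' : M} (hζζ' : ζ' ^ k = ζ)
    {L : AddSubgroup (Additive Gam →+ ℤ)} (Θ Θ' : L →+ Pic0 K F)
    (heval : ∀ (χ : L) (h : M) (f : F), thz31_AdmZ K ev m ζ (χ : Additive Gam →+ ℤ) h f →
        ∀ D : Divisor.degZero (K := K) (F := F), th70_IsDivOf m f (D : Divisor K F) →
          Θ χ = Pic0.mk D)
    (heval' : ∀ (χ : L) (h : M) (f : F),
        thz31_AdmZ K ev m' ζ' (χ : Additive Gam →+ ℤ) h f →
        ∀ D : Divisor.degZero (K := K) (F := F), th70_IsDivOf m' f (D : Divisor K F) →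
          Θ' χ = Pic0.mk D)
    (hex' : ∀ χ ∈ L, ∃ (h : M) (f : F), thz31_AdmZ K ev m' ζ' χ h f)
    (χ : L) : (k : ℤ) • Θ' χ = Θ χ := by
  subst hm'
  exact thz31_level hm hk hζζ' Θ Θ' heval heval' hex' χ

end thz31_main

end Fermat.Agent.S42
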