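import Fermat.Agent.S42.ThetaFinal30
import Fermat.Agent.S42.HeckeHK10
import Fermat.Agent.S42.GchiZeta96
import Fermat.Agent.S42.CuspGlue36

/-!
# S42, row I-Theta-Inst, twin (helper30): (I-Theta) and (W1), HYPOTHESIS-FREE for `p ≥ 5`

The two statements left open in `ThetaFinal30` are closed by the producers' exports on main:

* `tc30_X`  : (X) = `tf30_X N p` for a prime `p ≥ 5`, with `h := ec77_hZ N p χ` (= `E_χ / E_1`
  in weight `4`, helper77), membership `ga96_hZ_pow_mem_Par` (helper96) and divisibility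
  `pc36_X_div` (finite places helper93, cusps helper36);
* `tc30_HK` : the Hecke seam `tf30_HK φ N p` = `hk10_HK φ N p` (helper10), every prime `p`.

Hence, for every `N ≠ 0` and every prime `p ≥ 5` (the embedding `ℚ̄ → ℂ` used inside is the
fixed `Fermat.Agent.S24.phi`; the statements do not mention it):

* `tc30_I_Theta` : `Θ : Par_N →+ J₀(N)(ℚ̄)`, injective, `p`-torsion valued, Hecke equivariant
  (literal shape of the hypotheses of `w1t28_main`);
* `tc30_W1` : for a normalised eigenform `f` of level `N` and `ψ : ℤ̄ →+* k0` (`k0` a field of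
  characteristic `p`), a nonzero class in `k0 ⊗ J₀(N)(ℚ̄)[p]` on which `T_ℓ` acts by
  `ψ (a_ℓ(f))` for every prime `ℓ ∤ N p`.

All names are prefixed `tc30_`.
-/

set_option autoImplicit false
set_option linter.unusedSectionVars false
set_option linter.unusedVariables false
set_option linter.style.longLine false

open CongruenceSubgroup ModularCurve ModularCurve.Period AlgebraicCurve UpperHalfPlane
open scoped TensorProduct MatrixGroups

namespace Fermat.Agent.S42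

open Fermat.Agent.S16

section tc30

variable (φ : AlgebraicClosure ℚ →+* ℂ) (N : ℕ) [NeZero N] (p : ℕ)

/-- **(X), hypothesis-free** for a prime `p ≥ 5`. -/
theorem tc30_X (hp : p.Prime) (hp5 : 5 ≤ p) : tf30_X N p := by
  intro χ hχ
  haveI : NeZero p := ⟨hp.ne_zero⟩
  have hχ' : IsParabolicHom (Gamma0 N) χ := mem_parabolicHoms_iff.mp hχ
  obtain ⟨u, hu0, hu⟩ := ga96_hZ_pow_mem_Par N p χ hχ
  exact ⟨ec77_hZ N p χ, u, ec77_hZ_ne_zero hχ', ec77_hZ_isChar hχ', hu, fun v =>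
    pc36_X_div N p hp hp5 (th70_zeta p) χ u (ec77_hZ N p χ) (ec77_hZ_ne_zero hχ')
      (ec77_hZ_isChar hχ') hu (ec77_hZ_num N p χ) (ec77_hZ_den p) (ec77_hZ_den_ne_zero p)
      (ec77_hZ_pow_eq_div χ) (ec77_hZ_pow_tendsto hχ') v⟩

variable [Fact p.Prime]

/-- **The Hecke seam, hypothesis-free** (every prime `p`). -/
theorem tc30_HK : tf30_HK φ N p :=
  hk10_HK φ N p

/-- **(I-Theta), hypothesis-free** (`p ≥ 5`), in the literal shape of the hypotheses
`Θ, hΘ, htors, hhec` of `w1t28_main`. -/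
theorem tc30_I_Theta (hp5 : 5 ≤ p) :
    ∃ Θ : w1a28_Par N p →+ JZero N, Function.Injective Θ ∧ (∀ χ, (p : ℤ) • Θ χ = 0) ∧
      ∀ ℓ : Nat.Primes, ¬ (ℓ : ℕ) ∣ N * p → ∀ χ χ' : w1a28_Par N p,
        (χ' : Additive (Gamma0 N) →+ ZMod p) = heckeHom N ℓ (ZMod p) χ →
          heckeOperatorBar N ℓ (Θ χ) = Θ χ' :=
  tf30_I_Theta Fermat.Agent.S24.phi N p (tc30_X N p Fact.out hp5)
    (tc30_HK Fermat.Agent.S24.phi N p)

/-- **(I-Theta), hypothesis-free** (`p ≥ 5`), ARCH-1 shape of the Hecke clause. -/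
theorem tc30_I_Theta' (hp5 : 5 ≤ p) :
    ∃ Θ : w1a28_Par N p →+ JZero N, Function.Injective Θ ∧ (∀ χ, (p : ℤ) • Θ χ = 0) ∧
      ∀ ℓ : Nat.Primes, ¬ (ℓ : ℕ) ∣ N * p → ∀ χ : w1a28_Par N p,
        ∃ hχ : heckeHom N ℓ (ZMod p) χ ∈ w1a28_Par N p,
          heckeOperatorBar N ℓ (Θ χ) = Θ ⟨heckeHom N ℓ (ZMod p) χ, hχ⟩ :=
  tf30_I_Theta' Fermat.Agent.S24.phi N p (tc30_X N p Fact.out hp5)
    (tc30_HK Fermat.Agent.S24.phi N p)

/-- **(W1), hypothesis-free** (`p ≥ 5`): for a normalised eigenform `f` of level `N` there is a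
nonzero class in `k0 ⊗ J₀(N)(ℚ̄)[p]` on which every `T_ℓ`, `ℓ ∤ N p`, acts by `ψ (a_ℓ(f))`. -/
theorem tc30_W1 (hp5 : 5 ≤ p) {k0 : Type*} [Field k0] [Algebra (ZMod p) k0]
    {f : CuspForm (Gamma0 N) 2} (hf : f.IsNormalizedEigenform)
    (ψ : integralClosure ℤ ℂ →+* k0) :
    ∃ y : k0 ⊗[ZMod p] w1a28_J N p, y ≠ 0 ∧
      ∀ ℓ : Nat.Primes, ¬ (ℓ : ℕ) ∣ N * p →
        ∃ a : integralClosure ℤ ℂ, (a : ℂ) = ModularFormClass.qCoeff (⇑f) ℓ ∧
          (w1a28_TJ N p ℓ).baseChange k0 y = ψ a • y :=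
  tf30_W1 Fermat.Agent.S24.phi N p (tc30_X N p Fact.out hp5)
    (tc30_HK Fermat.Agent.S24.phi N p) hf ψ

end tc30

end Fermat.Agent.S42
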