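import Fermat.Agent.S42.XAsm67
import Fermat.Agent.S42.K2CInst5
import Fermat.Agent.S42.HeckeHK10

/-!
# S42, (I-Theta) and (W1) with ALL THREE analytic inputs discharged (helper67)

`th70_final_I_Theta` / `th70_final_W1` (helper70) with

* (G-X)   `hX   := xa67_X N p hp5`   (XAsm67; needs `5 ≤ p`),
* (K2/ℂ)  `hK2C := gk5_K2C N p`       (helper5, K2CInst5),
* (G-HEC) `hHK  := hk10_HK φ N p`     (helper10, HeckeHK10),

at the fixed embedding `φ := Fermat.Agent.S24.phi : ℚ̄ →+* ℂ`.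

* `tc67_I_Theta` : **(I-Theta), hypothesis-free**: for `N ≥ 1` and a prime `p ≥ 5` there is an
  injective additive `Θ : Par_N → J₀(N)(ℚ̄)`, killed by `p`, with
  `heckeOperatorBar N ℓ (Θ χ) = Θ (heckeHom N ℓ χ)` for every prime `ℓ ∤ N p`.
* `tc67_I_Theta'` : the same in the literal hypothesis shape of `w1t28_main` (helper28).
* `tc67_W1` : **(W1) from (I-EIG) alone.**
-/

set_option autoImplicit false

open CongruenceSubgroup ModularCurve ModularCurve.Period AlgebraicCurve UpperHalfPlane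
open scoped TensorProduct MatrixGroups

namespace Fermat.Agent.S42

open Fermat.Agent.S16

section tc67

variable (N : ℕ) [NeZero N] (p : ℕ) [Fact p.Prime]

/-- **(I-Theta), hypothesis-free** (`p ≥ 5`). -/
theorem tc67_I_Theta (hp5 : 5 ≤ p) :
    ∃ Θ : w1a28_Par N p →+ JZero N, Function.Injective Θ ∧ (∀ χ, (p : ℤ) • Θ χ = 0) ∧
      ∀ ℓ : Nat.Primes, ¬ (ℓ : ℕ) ∣ N * p → ∀ χ : w1a28_Par N p,
        ∃ hχ : heckeHom N ℓ (ZMod p) χ ∈ w1a28_Par N p,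
          heckeOperatorBar N ℓ (Θ χ) = Θ ⟨heckeHom N ℓ (ZMod p) χ, hχ⟩ :=
  th70_final_I_Theta Fermat.Agent.S24.phi N p (xa67_X N p hp5) (gk5_K2C N p)
    (hk10_HK Fermat.Agent.S24.phi N p)

/-- **(I-Theta), hypothesis-free**, Hecke clause in the shape `χ' = heckeHom N ℓ χ`. -/
theorem tc67_I_Theta' (hp5 : 5 ≤ p) :
    ∃ Θ : w1a28_Par N p →+ JZero N, Function.Injective Θ ∧ (∀ χ, (p : ℤ) • Θ χ = 0) ∧
      ∀ ℓ : Nat.Primes, ¬ (ℓ : ℕ) ∣ N * p → ∀ χ χ' : w1a28_Par N p,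
        (χ' : Additive (Gamma0 N) →+ ZMod p) = heckeHom N ℓ (ZMod p) χ →
          heckeOperatorBar N ℓ (Θ χ) = Θ χ' := by
  obtain ⟨Θ, hΘ, htors, hhec⟩ := tc67_I_Theta N p hp5
  refine ⟨Θ, hΘ, htors, fun ℓ hℓ χ χ' h => ?_⟩
  obtain ⟨hχ, he⟩ := hhec ℓ hℓ χ
  rw [he]
  congr 1
  exact Subtype.ext h.symm

/-- **(W1) from (I-EIG) alone** (`p ≥ 5`): the eigensystem of `f` mod `p` occurs in
`k0 ⊗ J₀(N)(ℚ̄)[p]` as soon as it occurs in `k0 ⊗ Par_N`. -/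
theorem tc67_W1 (hp5 : 5 ≤ p) {k0 : Type*} [Field k0] [Algebra (ZMod p) k0]
    (f : CuspForm (Gamma0 N) 2) (ψ : integralClosure ℤ ℂ →+* k0)
    (heig : ∃ x : k0 ⊗[ZMod p] w1a28_Par N p, x ≠ 0 ∧
      ∀ ℓ : Nat.Primes, ¬ (ℓ : ℕ) ∣ N * p →
        ∃ a : integralClosure ℤ ℂ, (a : ℂ) = ModularFormClass.qCoeff (⇑f) ℓ ∧
          (w1a28_TX N p ℓ).baseChange k0 ((w1a28_Par N p).subtype.baseChange k0 x)
            = ψ a • (w1a28_Par N p).subtype.baseChange k0 x) :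
    ∃ y : k0 ⊗[ZMod p] w1a28_J N p, y ≠ 0 ∧
      ∀ ℓ : Nat.Primes, ¬ (ℓ : ℕ) ∣ N * p →
        ∃ a : integralClosure ℤ ℂ, (a : ℂ) = ModularFormClass.qCoeff (⇑f) ℓ ∧
          (w1a28_TJ N p ℓ).baseChange k0 y = ψ a • y :=
  th70_final_W1 Fermat.Agent.S24.phi N p (xa67_X N p hp5) (gk5_K2C N p)
    (hk10_HK Fermat.Agent.S24.phi N p) f ψ heig

end tc67

end Fermat.Agent.S42
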