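import Fermat.Agent.S42.ThetaFinal70
import Fermat.Agent.S42.GaloisFinal41
import Fermat.Agent.S42.HeckeRef63
import Fermat.Agent.S42.FunFieldStab79
import Fermat.Agent.S42.EigenTensor54

/-!
# S42, row ARCH / R7 (helper70): two of the three analytic statements are closed

`ThetaFinal70` reduced (I-Theta) and (W1) to three statements over `ℂ`: `th70_X` (the analytic
existence (X)), `th70_K2C` ((K2) in `p`-th root form) and `th70_HK` (the Hecke step on roots).
Here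

* `th70_K2C_holds` : `th70_K2C N p`, from `gi41_final_K2_pow` (helper41);
* `th70_HK_holds` : `th70_HK φ N p`, from the referee file `HeckeRef63` (helper63) with the four
  level facts of `ff79_ev0` (helper79): `ff79_ev0_alpha`, `ff79_ev0_fix`, `ff79_ev0_stab`,
  `ff79_ev0_beta`;
* `th70_closed_I_Theta`, `th70_closed_W1` : (I-Theta) and (W1) from `th70_X N p` ALONE (the
  eigenclass input is `m9t54_heig'`, helper54).
-/

set_option autoImplicit false
set_option linter.unusedSectionVars false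
set_option linter.unusedVariables false
set_option linter.style.longLine false
set_option linter.style.haveILetI false

open CongruenceSubgroup ModularCurve ModularCurve.Period AlgebraicCurve UpperHalfPlane
open scoped TensorProduct MatrixGroups

namespace Fermat.Agent.S42

open Fermat.Agent.S16

section th70_closed

variable (φ : AlgebraicClosure ℚ →+* ℂ) (N : ℕ) [NeZero N] (p : ℕ) [Fact p.Prime]

/-- (K2) over `ℂ` in the `p`-th root form holds. -/
theorem th70_K2C_holds : th70_K2C N p := by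
  intro x hx hinv u hxu
  obtain ⟨f, hf⟩ := gi41_final_K2_pow N (x := x) (fun g hg => hinv ⟨g, hg⟩)
    (Fact.out : p.Prime).pos u hxu
  exact ⟨f, hf.symm⟩

/-- The Hecke step on roots holds for `ev0 = ff79_ev0 φ N`. -/
theorem th70_HK_holds : th70_HK φ N p := by
  intro ℓ _ hℓ hℓNp χ hχ h f h0 f0 hchar hpow
  have hNℓ : ¬ ℓ ∣ N := fun hd => hℓNp (Dvd.dvd.mul_right hd p)
  haveI : NeZero p := ⟨(Fact.out : p.Prime).ne_zero⟩
  haveI : Fintype (↥(Gamma0 N) ⧸ (Gamma0 (N * ℓ)).subgroupOf (Gamma0 N)) := by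
    haveI : ((Gamma0 (N * ℓ)).subgroupOf (Gamma0 N)).FiniteIndex :=
      ⟨by
        have h1 : ((Gamma0 (N * ℓ)).subgroupOf (Gamma0 N)).index = ℓ + 1 :=
          gi41_relindex N ℓ hℓ hNℓ
        rw [h1]
        exact Nat.succ_ne_zero ℓ⟩
    exact Subgroup.fintypeQuotientOfFiniteIndex
  haveI : NeZero (N * ℓ) := ⟨Nat.mul_ne_zero (NeZero.ne N) (NeZero.ne ℓ)⟩
  have hζ : (Complex.exp (2 * Real.pi * Complex.I / p)) ^ p = 1 :=
    (Complex.isPrimitiveRoot_exp p (NeZero.ne p)).pow_eq_one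
  have hbeta : ∀ x : ↥(modularFunctionFieldBar N),
      ff79_ev0 φ (N * ℓ) (heckeBetaBar (AlgebraicClosure ℚ) N ℓ x)
        = (tm42_delta ℓ)⁻¹ • ff79_ev0 φ N x := by
    intro x
    rw [ff79_ev0_beta φ N ℓ x]
    congr 2
    exact (hr63_delta_eq_gl ℓ _).symm
  refine ⟨hr63_root N ℓ h, hr63_root_ne_zero N ℓ h0,
    hr63_root_char N ℓ hℓ hNℓ _ hζ χ h hchar, ?_⟩
  exact hr63_root_pow N ℓ hℓ hNℓ (ff79_ev0 φ N) (ff79_ev0 φ (N * ℓ))
    (fun x => ff79_ev0_alpha φ N ℓ x)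
    (fun γ x => ff79_ev0_smul φ N (γ : SL(2, ℤ)) γ.2 x)
    (fun γ hγ => ff79_ev0_stab φ (N * ℓ) (γ : SL(2, ℤ)) hγ)
    hbeta p h f hpow

/-- A fixed embedding `ℚ̄ → ℂ` (the conclusions below do not depend on it). -/
noncomputable def th70_phi : AlgebraicClosure ℚ →+* ℂ := by
  haveI : Algebra.IsAlgebraic ℚ (AlgebraicClosure ℚ) := AlgebraicClosure.isAlgebraic ℚ
  exact (IsAlgClosed.lift : AlgebraicClosure ℚ →ₐ[ℚ] ℂ).toRingHom

/-- **(I-Theta) from (X) alone.** -/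
theorem th70_closed_I_Theta (hX : th70_X N p) :
    ∃ Θ : w1a28_Par N p →+ JZero N, Function.Injective Θ ∧ (∀ χ, (p : ℤ) • Θ χ = 0) ∧
      ∀ ℓ : Nat.Primes, ¬ (ℓ : ℕ) ∣ N * p → ∀ χ : w1a28_Par N p,
        ∃ hχ : heckeHom N ℓ (ZMod p) χ ∈ w1a28_Par N p,
          heckeOperatorBar N ℓ (Θ χ) = Θ ⟨heckeHom N ℓ (ZMod p) χ, hχ⟩ :=
  th70_final_I_Theta th70_phi N p hX (th70_K2C_holds N p) (th70_HK_holds th70_phi N p)

/-- **(W1) from (X) alone**: for a normalised eigenform `f` of level `Γ₀(N)` and a ring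
homomorphism `ψ : ℤ̄ → k0` (`k0` a field over `𝔽_p`), there is a nonzero class in
`k0 ⊗ J₀(N)[p]` on which `T_ℓ` acts by `ψ (a_ℓ f)` for every prime `ℓ ∤ N p`. -/
theorem th70_closed_W1 {k0 : Type*} [Field k0] [Algebra (ZMod p) k0]
    (hX : th70_X N p) {f : CuspForm (Gamma0 N) 2} (hf : f.IsNormalizedEigenform)
    (ψ : integralClosure ℤ ℂ →+* k0) :
    ∃ y : k0 ⊗[ZMod p] w1a28_J N p, y ≠ 0 ∧
      ∀ ℓ : Nat.Primes, ¬ (ℓ : ℕ) ∣ N * p →
        ∃ a : integralClosure ℤ ℂ, (a : ℂ) = ModularFormClass.qCoeff (⇑f) ℓ ∧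
          (w1a28_TJ N p ℓ).baseChange k0 y = ψ a • y :=
  th70_final_W1 th70_phi N p hX (th70_K2C_holds N p) (th70_HK_holds th70_phi N p) f ψ
    (m9t54_heig' N p hf ψ)

end th70_closed

end Fermat.Agent.S42
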