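/-
S42 / S29, Project 4 (helper71): (W1) DIRECTLY FROM THE INTEGRAL EIGENCLASS, FOR AN ARBITRARY
DOMAIN OF `Θ`.

`m9e54_eigenclass` (helper54, `EigenClass54`) gives a `ℤ`-basis `ψ 1, …, ψ n` of the integral
parabolic homomorphisms, the integer matrices `A ℓ` of the Hecke operators in it, and a common left
eigenvector `c ≠ 0` over `k0` with eigenvalues `φ (a_ℓ(f))`.  Here:

* `w1i71_sum_tmul_ne_zero` : `∑ j, c j ⊗ v j ≠ 0` for a linearly independent family `v` and
  `c ≠ 0` (over a field);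
* `w1i71_main` : for ANY `ZMod p`-submodule `P` of `Hom(Γ₀(N), ZMod p)` containing the reductions
  of the integral parabolic homomorphisms, and ANY additive, injective, `p`-torsion valued,
  Hecke-equivariant `Θ : P →+ JZero N`, the class `y := ∑ i, c i ⊗ Θ (ψ i mod p)` is a nonzero
  eigenvector in `k0 ⊗ J₀(N)[p]` with eigenvalues `φ (a_ℓ(f))` for the primes `ℓ ∤ N p`: the
  literal conclusion of `w1a28_main_eigenform`.  No Hecke-stability of `P` is needed.
* `w1i71_ParE N p` : the homomorphisms killing every `γ` with `(tr γ)² ≤ 4` (parabolic and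
  elliptic elements), the domain of `Θ` for `p = 2, 3`; `w1i71_red_mem_ParE` (reductions of
  integral parabolic homomorphisms lie in it), `w1i71_red_mem_Par`, `w1i71_ParE_le_Par`,
  `w1i71_ParE_eq_Par` (`5 ≤ p`);
* `w1i71_main_Par`, `w1i71_main_ParE` : the two instances.
-/
import Mathlib
import Fermat.Agent.S42.W1Asm28
import Fermat.Agent.S42.EigenClass54

set_option autoImplicit false

open CongruenceSubgroup ModularCurve ModularCurve.Period AlgebraicCurve
open scoped TensorProduct MatrixGroups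

namespace Fermat.Agent.S42

open Fermat.Agent.S16

/-! ### a tensor with independent right legs is nonzero -/

section Abstract

variable {F : Type*} [Field F] {k0 : Type*} [Field k0] [Algebra F k0]
variable {J : Type*} [AddCommGroup J] [Module F J]

theorem w1i71_sum_tmul_ne_zero {n : ℕ} (v : Fin n → J) (hv : LinearIndependent F v)
    (c : Fin n → k0) (hc : c ≠ 0) : (∑ j, c j ⊗ₜ[F] v j : k0 ⊗[F] J) ≠ 0 := by
  classical
  obtain ⟨i, hi⟩ : ∃ i, c i ≠ 0 := by
    by_contra h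
    exact hc (funext fun i => by_contra fun hi => h ⟨i, hi⟩)
  obtain ⟨g, hg⟩ := LinearMap.exists_leftInverse_of_injective (Finsupp.linearCombination F v)
    (LinearMap.ker_eq_bot.mpr hv)
  let π : J →ₗ[F] F := (Finsupp.lapply i).comp g
  have hπ : ∀ j, π (v j) = if j = i then 1 else 0 := by
    intro j
    have h1 : g (v j) = Finsupp.single j 1 := by
      have h2 := LinearMap.congr_fun hg (Finsupp.single j 1)
      simpa using h2
    show (g (v j)) i = _
    rw [h1, Finsupp.single_apply]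
  intro h0
  have h1 := congrArg (fun t => TensorProduct.rid F k0 (π.baseChange k0 t)) h0
  simp only [map_sum, LinearMap.baseChange_tmul, TensorProduct.rid_tmul, hπ, map_zero] at h1
  rw [Finset.sum_eq_single i (fun j _ hj => by rw [if_neg hj, zero_smul])
    (fun h => absurd (Finset.mem_univ i) h), if_pos rfl, one_smul] at h1
  exact hi h1

end Abstract

/-! ### (W1) from the integral eigenclass -/

section Main

variable {N : ℕ} [NeZero N] {p : ℕ} [Fact p.Prime] {k0 : Type*} [Field k0] [Algebra (ZMod p) k0]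

/-- **(W1) directly from the integral eigenclass**, for an arbitrary domain `P` of `Θ`
containing the reductions of the integral parabolic homomorphisms. -/
theorem w1i71_main
    (P : Submodule (ZMod p) (Additive (Gamma0 N) →+ ZMod p))
    (hP : ∀ χ : Additive (Gamma0 N) →+ ℤ, IsParabolicHom (Gamma0 N) χ →
      (Int.castAddHom (ZMod p)).comp χ ∈ P)
    (Θ : P →+ JZero N) (hΘ : Function.Injective Θ)
    (htors : ∀ χ : P, (p : ℤ) • Θ χ = 0)
    (hhec : ∀ ℓ : Nat.Primes, ¬ (ℓ : ℕ) ∣ N * p → ∀ χ χ' : P,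
      (χ' : Additive (Gamma0 N) →+ ZMod p) = heckeHom N ℓ (ZMod p) χ →
        heckeOperatorBar N ℓ (Θ χ) = Θ χ')
    {f : CuspForm (Gamma0 N) 2} (hf : f.IsNormalizedEigenform)
    (φ : integralClosure ℤ ℂ →+* k0) :
    ∃ y : k0 ⊗[ZMod p] w1a28_J N p, y ≠ 0 ∧
      ∀ ℓ : Nat.Primes, ¬ (ℓ : ℕ) ∣ N * p →
        ∃ a : integralClosure ℤ ℂ, (a : ℂ) = ModularFormClass.qCoeff (⇑f) ℓ ∧
          (w1a28_TJ N p ℓ).baseChange k0 y = φ a • y := by
  classical
  have hchar : CharP k0 p :=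
    charP_of_injective_algebraMap (algebraMap (ZMod p) k0).injective p
  obtain ⟨n, ψ, A, c, hψ, -, hli, hA, hc0, hc⟩ := m9e54_eigenclass (N := N) hf p φ
  -- the reductions, as elements of `P`
  let ψb : Fin n → P := fun i => ⟨(Int.castAddHom (ZMod p)).comp (ψ i), hP _ (hψ i)⟩
  -- `Θ` corestricted to the `p`-torsion, `ZMod p`-linear
  let ΘJ : P →+ w1a28_J N p :=
    { toFun := fun χ => ⟨Θ χ, Pic0.mem_torsion.mpr (htors χ)⟩
      map_zero' := Subtype.ext (by simp)
      map_add' := fun χ χ' => Subtype.ext (by simp) }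
  let ΘL : P →ₗ[ZMod p] w1a28_J N p := ΘJ.toZModLinearMap p
  have hΘL : Function.Injective ΘL :=
    fun χ χ' h => hΘ (congrArg (fun c : w1a28_J N p => (c : JZero N)) h)
  have hliP : LinearIndependent (ZMod p) ψb := LinearIndependent.of_comp P.subtype hli
  have hv : LinearIndependent (ZMod p) (fun i => ΘL (ψb i)) :=
    hliP.map' ΘL (LinearMap.ker_eq_bot.mpr hΘL)
  refine ⟨∑ i, c i ⊗ₜ[ZMod p] ΘL (ψb i), w1i71_sum_tmul_ne_zero _ hv c hc0, fun ℓ hℓ => ?_⟩
  have hℓN : ¬ (ℓ : ℕ) ∣ N := fun h => hℓ (h.mul_right p)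
  obtain ⟨a, ha, hac⟩ := hc ℓ ℓ.2 hℓN
  refine ⟨a, ha, ?_⟩
  -- `T_ℓ` on the generators
  have hT : ∀ i, w1a28_TJ N p ℓ (ΘL (ψb i)) = ∑ j, (A ℓ i j : ZMod p) • ΘL (ψb j) := by
    intro i
    have hsum : ((∑ j, (A ℓ i j : ZMod p) • ψb j : P) : Additive (Gamma0 N) →+ ZMod p)
        = heckeHom N ℓ (ZMod p) (ψb i) := by
      rw [show ((ψb i : P) : Additive (Gamma0 N) →+ ZMod p)
          = (Int.castAddHom (ZMod p)).comp (ψ i) from rfl, heckeHom_comp, hA ℓ ℓ.2 hℓN i]
      refine AddMonoidHom.ext fun γ => ?_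
      simp only [AddSubmonoidClass.coe_finsetSum, Submodule.coe_smul, AddMonoidHom.coe_comp,
        Function.comp_apply, AddMonoidHom.finsetSum_apply, AddMonoidHom.smul_apply,
        Int.coe_castAddHom, smul_eq_mul, ψb]
      rw [Int.cast_sum]
      exact Finset.sum_congr rfl fun j _ => (Int.cast_mul _ _).symm
    have h1 := hhec ℓ hℓ (ψb i) (∑ j, (A ℓ i j : ZMod p) • ψb j) hsum
    have h2 : w1a28_TJ N p ℓ (ΘL (ψb i)) = ΘL (∑ j, (A ℓ i j : ZMod p) • ψb j) :=
      Subtype.ext h1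
    rw [h2, map_sum]
    exact Finset.sum_congr rfl fun j _ => map_smul ΘL _ _
  rw [map_sum, Finset.smul_sum]
  have h3 : ∀ i, (w1a28_TJ N p ℓ).baseChange k0 (c i ⊗ₜ[ZMod p] ΘL (ψb i))
      = ∑ j, (c i * (A ℓ i j : k0)) ⊗ₜ[ZMod p] ΘL (ψb j) := by
    intro i
    rw [LinearMap.baseChange_tmul, hT i, TensorProduct.tmul_sum]
    refine Finset.sum_congr rfl fun j _ => ?_
    rw [← TensorProduct.smul_tmul, Algebra.smul_def, map_intCast, mul_comm]
  rw [Finset.sum_congr rfl fun i _ => h3 i, Finset.sum_comm]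
  refine Finset.sum_congr rfl fun j _ => ?_
  rw [← TensorProduct.sum_tmul, hac j, TensorProduct.smul_tmul', smul_eq_mul]

end Main

/-! ### The domain for all primes: homomorphisms killing parabolic and elliptic elements -/

section ParE

/-- Cayley-Hamilton for an integer `2 × 2` matrix of determinant `1` whose trace `t` satisfies
`t ^ 2 < 4`: its twelfth power is `1`. -/
theorem w1i71_mat_pow_twelve (M : Matrix (Fin 2) (Fin 2) ℤ) (hdet : M.det = 1)
    (htr : M.trace ^ 2 < 4) : M ^ 12 = 1 := by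
  have htr2 : M.trace = M 0 0 + M 1 1 := Matrix.trace_fin_two M
  have hd : M 0 0 * M 1 1 - M 0 1 * M 1 0 = 1 := by rw [← Matrix.det_fin_two]; exact hdet
  have h00 : (M * M) 0 0 = (M.trace • M - 1) 0 0 := by
    rw [Matrix.mul_apply, Fin.sum_univ_two, Matrix.sub_apply, Matrix.smul_apply,
      Matrix.one_apply_eq, smul_eq_mul, htr2]
    linear_combination (-1 : ℤ) * hd
  have h01 : (M * M) 0 1 = (M.trace • M - 1) 0 1 := by
    rw [Matrix.mul_apply, Fin.sum_univ_two, Matrix.sub_apply, Matrix.smul_apply,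
      Matrix.one_apply_ne (by decide : (0 : Fin 2) ≠ 1), smul_eq_mul, htr2]
    ring
  have h10 : (M * M) 1 0 = (M.trace • M - 1) 1 0 := by
    rw [Matrix.mul_apply, Fin.sum_univ_two, Matrix.sub_apply, Matrix.smul_apply,
      Matrix.one_apply_ne (by decide : (1 : Fin 2) ≠ 0), smul_eq_mul, htr2]
    ring
  have h11 : (M * M) 1 1 = (M.trace • M - 1) 1 1 := by
    rw [Matrix.mul_apply, Fin.sum_univ_two, Matrix.sub_apply, Matrix.smul_apply,
      Matrix.one_apply_eq, smul_eq_mul, htr2]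
    linear_combination (-1 : ℤ) * hd
  have hCH : M * M = M.trace • M - 1 := by
    ext i j
    fin_cases i <;> fin_cases j
    · exact h00
    · exact h01
    · exact h10
    · exact h11
  have h1 : -2 < M.trace := by nlinarith
  have h2 : M.trace < 2 := by nlinarith
  have ht : M.trace = -1 ∨ M.trace = 0 ∨ M.trace = 1 := by omega
  rcases ht with ht | ht | ht
  · rw [ht, neg_one_smul] at hCH
    have h3 : M ^ 3 = 1 := by
      rw [pow_succ, pow_two, hCH, sub_mul, neg_mul, hCH, one_mul]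
      abel
    rw [show (12 : ℕ) = 3 * 4 from rfl, pow_mul, h3, one_pow]
  · rw [ht, zero_smul, zero_sub] at hCH
    rw [show (12 : ℕ) = 2 * 6 from rfl, pow_mul, pow_two, hCH]
    exact Even.neg_one_pow ⟨3, rfl⟩
  · rw [ht, one_smul] at hCH
    have h3 : M ^ 3 = -1 := by
      rw [pow_succ, pow_two, hCH, sub_mul, hCH, one_mul]
      abel
    rw [show (12 : ℕ) = 3 * 4 from rfl, pow_mul, h3]
    exact Even.neg_one_pow ⟨2, rfl⟩

variable (N : ℕ) (p : ℕ)

/-- An element of `Γ₀(N)` with `(tr γ) ^ 2 < 4` has order dividing `12`. -/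
theorem w1i71_pow_twelve (γ : Gamma0 N)
    (h : ((γ : SL(2, ℤ)) : Matrix (Fin 2) (Fin 2) ℤ).trace ^ 2 < 4) : γ ^ 12 = 1 := by
  apply Subtype.ext
  rw [Subgroup.coe_pow, Subgroup.coe_one]
  apply Subtype.ext
  rw [Matrix.SpecialLinearGroup.coe_pow, Matrix.SpecialLinearGroup.coe_one]
  exact w1i71_mat_pow_twelve _ (γ : SL(2, ℤ)).det_coe h

/-- A homomorphism to a group without `12`-torsion kills the elliptic elements. -/
theorem w1i71_elliptic_eq_zero {A : Type*} [AddCommGroup A] (hA : ∀ a : A, 12 • a = 0 → a = 0)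
    (χ : Additive (Gamma0 N) →+ A) (γ : Gamma0 N)
    (h : ((γ : SL(2, ℤ)) : Matrix (Fin 2) (Fin 2) ℤ).trace ^ 2 < 4) :
    χ (Additive.ofMul γ) = 0 := by
  apply hA
  rw [← map_nsmul, ← ofMul_pow, w1i71_pow_twelve N γ h, ofMul_one, map_zero]

/-- `Par'_N`: the homomorphisms `Γ₀(N) → ZMod p` killing every `γ` with `(tr γ) ^ 2 ≤ 4`
(parabolic and elliptic elements, and `± 1`). -/
def w1i71_ParE : Submodule (ZMod p) (Additive (Gamma0 N) →+ ZMod p) where
  carrier := {φ | ∀ γ : Gamma0 N,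
    ((γ : SL(2, ℤ)) : Matrix (Fin 2) (Fin 2) ℤ).trace ^ 2 ≤ 4 → φ (Additive.ofMul γ) = 0}
  zero_mem' := fun _ _ => rfl
  add_mem' := by
    intro φ ψ hφ hψ γ hγ
    show φ (Additive.ofMul γ) + ψ (Additive.ofMul γ) = 0
    rw [hφ γ hγ, hψ γ hγ, add_zero]
  smul_mem' := by
    intro c φ hφ γ hγ
    show c • φ (Additive.ofMul γ) = 0
    rw [hφ γ hγ, smul_zero]

theorem w1i71_mem_ParE {φ : Additive (Gamma0 N) →+ ZMod p} :
    φ ∈ w1i71_ParE N p ↔ ∀ γ : Gamma0 N,
      ((γ : SL(2, ℤ)) : Matrix (Fin 2) (Fin 2) ℤ).trace ^ 2 ≤ 4 → φ (Additive.ofMul γ) = 0 :=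
  Iff.rfl

theorem w1i71_ParE_le_Par : w1i71_ParE N p ≤ w1a28_Par N p :=
  fun _ hφ γ hγ => hφ γ hγ.le

/-- The reduction of an integral parabolic homomorphism is parabolic. -/
theorem w1i71_red_mem_Par (χ : Additive (Gamma0 N) →+ ℤ) (hχ : IsParabolicHom (Gamma0 N) χ) :
    (Int.castAddHom (ZMod p)).comp χ ∈ w1a28_Par N p := by
  intro γ hγ
  show ((χ (Additive.ofMul γ) : ℤ) : ZMod p) = 0
  rw [hχ γ hγ, Int.cast_zero]

/-- The reduction of an integral parabolic homomorphism kills the elliptic elements too. -/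
theorem w1i71_red_mem_ParE (χ : Additive (Gamma0 N) →+ ℤ) (hχ : IsParabolicHom (Gamma0 N) χ) :
    (Int.castAddHom (ZMod p)).comp χ ∈ w1i71_ParE N p := by
  intro γ hγ
  show ((χ (Additive.ofMul γ) : ℤ) : ZMod p) = 0
  rcases hγ.lt_or_eq with h | h
  · rw [w1i71_elliptic_eq_zero N (fun a ha => by simpa [nsmul_eq_mul] using ha) χ γ h,
      Int.cast_zero]
  · rw [hχ γ h, Int.cast_zero]

/-- For `p ≥ 5` the two domains agree. -/
theorem w1i71_ParE_eq_Par [Fact p.Prime] (hp5 : 5 ≤ p) : w1i71_ParE N p = w1a28_Par N p := by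
  refine le_antisymm (w1i71_ParE_le_Par N p) fun φ hφ γ hγ => ?_
  rcases hγ.lt_or_eq with h | h
  · refine w1i71_elliptic_eq_zero N (fun a ha => ?_) φ γ h
    have hp : p.Prime := Fact.out
    have h12 : ((12 : ℕ) : ZMod p) ≠ 0 := by
      intro h0
      have hd : p ∣ 2 ^ 2 * 3 := (ZMod.natCast_eq_zero_iff 12 p).mp h0
      rcases hp.dvd_mul.mp hd with h2 | h3
      · have := Nat.le_of_dvd (by norm_num) (hp.dvd_of_dvd_pow h2)
        omega
      · have := Nat.le_of_dvd (by norm_num) h3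
        omega
    rw [nsmul_eq_mul] at ha
    exact (mul_eq_zero.mp ha).resolve_left h12
  · exact hφ γ h

end ParE

/-! ### The two instances -/

section Instances

variable {N : ℕ} [NeZero N] {p : ℕ} [Fact p.Prime] {k0 : Type*} [Field k0] [Algebra (ZMod p) k0]

/-- (W1) with `Θ` defined on `Par_N` (the `S42` case): the hypotheses on `Θ` are literally those
of `w1t28_main`. -/
theorem w1i71_main_Par
    (Θ : w1a28_Par N p →+ JZero N) (hΘ : Function.Injective Θ)
    (htors : ∀ χ : w1a28_Par N p, (p : ℤ) • Θ χ = 0)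
    (hhec : ∀ ℓ : Nat.Primes, ¬ (ℓ : ℕ) ∣ N * p → ∀ χ χ' : w1a28_Par N p,
      (χ' : Additive (Gamma0 N) →+ ZMod p) = heckeHom N ℓ (ZMod p) χ →
        heckeOperatorBar N ℓ (Θ χ) = Θ χ')
    {f : CuspForm (Gamma0 N) 2} (hf : f.IsNormalizedEigenform)
    (φ : integralClosure ℤ ℂ →+* k0) :
    ∃ y : k0 ⊗[ZMod p] w1a28_J N p, y ≠ 0 ∧
      ∀ ℓ : Nat.Primes, ¬ (ℓ : ℕ) ∣ N * p →
        ∃ a : integralClosure ℤ ℂ, (a : ℂ) = ModularFormClass.qCoeff (⇑f) ℓ ∧
          (w1a28_TJ N p ℓ).baseChange k0 y = φ a • y :=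
  w1i71_main (w1a28_Par N p) (w1i71_red_mem_Par N p) Θ hΘ htors hhec hf φ

/-- (W1) with `Θ` defined on `Par'_N` (every prime `p`, the `S29` case). -/
theorem w1i71_main_ParE
    (Θ : w1i71_ParE N p →+ JZero N) (hΘ : Function.Injective Θ)
    (htors : ∀ χ : w1i71_ParE N p, (p : ℤ) • Θ χ = 0)
    (hhec : ∀ ℓ : Nat.Primes, ¬ (ℓ : ℕ) ∣ N * p → ∀ χ χ' : w1i71_ParE N p,
      (χ' : Additive (Gamma0 N) →+ ZMod p) = heckeHom N ℓ (ZMod p) χ →
        heckeOperatorBar N ℓ (Θ χ) = Θ χ')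
    {f : CuspForm (Gamma0 N) 2} (hf : f.IsNormalizedEigenform)
    (φ : integralClosure ℤ ℂ →+* k0) :
    ∃ y : k0 ⊗[ZMod p] w1a28_J N p, y ≠ 0 ∧
      ∀ ℓ : Nat.Primes, ¬ (ℓ : ℕ) ∣ N * p →
        ∃ a : integralClosure ℤ ℂ, (a : ℂ) = ModularFormClass.qCoeff (⇑f) ℓ ∧
          (w1a28_TJ N p ℓ).baseChange k0 y = φ a • y :=
  w1i71_main (w1i71_ParE N p) (w1i71_red_mem_ParE N p) Θ hΘ htors hhec hf φ

end Instances

end Fermat.Agent.S42
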