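import Fermat.Agent.S42.ThetaFinal70
import Fermat.Agent.S42.W1Int71

/-!
# S42 / S29 (helper71): the `Θ` spine for an arbitrary domain `P ≤ Par_N`, every prime `p`

`ThetaFinal70` (helper70) closes the spine for `Θ : Par_N → J₀(N)(ℚ̄)[p]`.  For `p = 2, 3` the
map `Θ` only exists on the homomorphisms killing the elliptic elements as well
(`w1i71_ParE N p`).  This file restates the final instantiation for ANY `ZMod p`-submodule
`P ≤ Par_N`, with the Hecke clause in the form consumed by `w1i71_main` (so that no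
Hecke-stability of `P` is needed), and composes it with `w1i71_main_ParE`:

* `tfe71_X N p P`   : the analytic existence statement (X) for the characters `χ ∈ P`;
* `tfe71_hex`       : admissible pairs for `χ ∈ P` from `tfe71_X` and the descent;
* `tfe71_I_Theta`   : `Θ : P →+ JZero N`, injective, `p`-torsion valued, Hecke equivariant;
* `tfe71_W1`        : **(W1) for every prime `p`**, from `tfe71_X N p (w1i71_ParE N p)`,
  `th70_K2C N p`, `th70_HK φ N p` and a normalised eigenform; the eigenclass (I-EIG) is no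
  hypothesis (it is `m9e54_eigenclass`, consumed by `w1i71_main`);
* `tfe71_X_of_X`    : `th70_X N p → tfe71_X N p (w1i71_ParE N p)`;  `tfe71_W1_of_X`.
-/

set_option autoImplicit false
set_option linter.unusedSectionVars false
set_option linter.unusedVariables false
set_option linter.style.longLine false
set_option linter.style.haveILetI false

open CongruenceSubgroup ModularCurve ModularCurve.Period AlgebraicCurve UpperHalfPlane
open scoped TensorProduct MatrixGroups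

namespace Fermat.Agent.S42

open Fermat.Agent.S16 Fermat.Agent.S24 Fermat.Agent.S37 Fermat.Agent.S18

section tfe71

variable (φ : AlgebraicClosure ℚ →+* ℂ) (N : ℕ) [NeZero N] (p : ℕ) [Fact p.Prime]

/-- The analytic existence statement (X) over `ℂ` for the characters in `P`. -/
def tfe71_X (P : Submodule (ZMod p) (Additive (Gamma0 N) →+ ZMod p)) : Prop :=
  ∀ χ ∈ P, ∃ h : mer95_MER, h ≠ 0 ∧ th70_IsChar p (th70_zeta p) χ h ∧
    ∃ u : ↥(laurentBaseChange ℂ (modularFunctionFieldFull N)), ff79_evMer N u = h ^ p ∧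
      ∀ v : Place ℂ ↥(laurentBaseChange ℂ (modularFunctionFieldFull N)), (p : ℤ) ∣ v.ord u

/-- (X) on `Par_N` gives (X) on every smaller domain. -/
theorem tfe71_X_of_le {P : Submodule (ZMod p) (Additive (Gamma0 N) →+ ZMod p)}
    (hPle : P ≤ w1a28_Par N p) (hX : th70_X N p) : tfe71_X N p P :=
  fun χ hχ => hX χ (hPle hχ)

/-- (X) on `Par_N` gives (X) on `Par'_N`. -/
theorem tfe71_X_of_X (hX : th70_X N p) : tfe71_X N p (w1i71_ParE N p) :=
  tfe71_X_of_le N p (w1i71_ParE_le_Par N p) hX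

/-- Admissible pairs for the characters of `P`, from (X) on `P` and the descent (DESC). -/
theorem tfe71_hex (P : Submodule (ZMod p) (Additive (Gamma0 N) →+ ZMod p))
    (hX : tfe71_X N p P) :
    ∀ χ ∈ P, ∃ (h : mer95_MER) (f : ↥(modularFunctionFieldBar N)),
      th70_Adm (AlgebraicClosure ℚ) (ff79_ev0 φ N) p (th70_zeta p) χ h f := by
  have hp : p ≠ 0 := (Fact.out : p.Prime).ne_zero
  have hζ0 : th70_zeta p ≠ 0 := (th70_zeta_isPrimitiveRoot p hp).ne_zero hp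
  intro χ hχ
  obtain ⟨h, h0, hchar, u, hu, hdvd⟩ := hX χ hχ
  have hu0 : u ≠ 0 := by
    rintro rfl
    rw [map_zero] at hu
    exact pow_ne_zero p h0 hu.symm
  obtain ⟨g, w, c, hg, hw, hc, hgw, hP0⟩ :=
    di3_desc_bar φ N (Nat.pos_of_ne_zero hp) hu0 hdvd
  have hbc : ff79_bc φ N g =
      algebraMap ℂ ↥(laurentBaseChange ℂ (modularFunctionFieldFull N)) c * (w ^ p * u) := by
    apply Subtype.ext
    rw [ff79_bc_coe, hgw]
    rfl
  obtain ⟨d, hd⟩ := IsAlgClosed.exists_pow_nat_eq c (Nat.pos_of_ne_zero hp)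
  have hd0 : d ≠ 0 := by
    rintro rfl
    rw [zero_pow hp] at hd
    exact hc hd.symm
  have hCd : algebraMap ℂ mer95_MER d ≠ 0 := by simpa using hd0
  have hevw : ff79_evMer N w ≠ 0 := by simpa using hw
  refine ⟨algebraMap ℂ mer95_MER d * ff79_evMer N w * h, g,
    mul_ne_zero (mul_ne_zero hCd hevw) h0, hg, fun γ => ?_, ?_, hP0⟩
  · rw [smul_mul', smul_mul', hchar γ]
    have e1 : γ • algebraMap ℂ mer95_MER d = algebraMap ℂ mer95_MER d :=
      mer95_smul_C_SL (γ : SL(2, ℤ)) d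
    have e2 : γ • ff79_evMer N w = ff79_evMer N w := ff79_evMer_smul N γ.1 γ.2 w
    rw [e1, e2]
    ring
  · rw [ff79_ev0_apply, hbc, map_mul, map_mul, map_pow, hu, ff79_evMer_C, mul_pow, mul_pow,
      ← map_pow, hd]
    ring

/-- **(I-Theta) on an arbitrary domain `P ≤ Par_N`**, Hecke clause in the form of
`w1i71_main`. -/
theorem tfe71_I_Theta (P : Submodule (ZMod p) (Additive (Gamma0 N) →+ ZMod p))
    (hPle : P ≤ w1a28_Par N p)
    (hX : tfe71_X N p P) (hK2C : th70_K2C N p) (hHK : th70_HK φ N p) :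
    ∃ Θ : P →+ JZero N, Function.Injective Θ ∧ (∀ χ, (p : ℤ) • Θ χ = 0) ∧
      ∀ ℓ : Nat.Primes, ¬ (ℓ : ℕ) ∣ N * p → ∀ χ χ' : P,
        (χ' : Additive (Gamma0 N) →+ ZMod p) = heckeHom N ℓ (ZMod p) χ →
          heckeOperatorBar N ℓ (Θ χ) = Θ χ' := by
  have hp : p ≠ 0 := (Fact.out : p.Prime).ne_zero
  haveI := hi63_hasPrincipalDivisors_bar N
  have hroot : ∀ a : AlgebraicClosure ℚ, ∃ b : AlgebraicClosure ℚ, b ^ p = a :=
    fun a => IsAlgClosed.exists_pow_nat_eq a (Nat.pos_of_ne_zero hp)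
  have hex' : ∀ χ ∈ P.toAddSubgroup,
      ∃ (h : mer95_MER) (f : ↥(modularFunctionFieldBar N)),
        th70_Adm (AlgebraicClosure ℚ) (ff79_ev0 φ N) p (th70_zeta p) χ h f :=
    tfe71_hex φ N p P hX
  obtain ⟨Θ, hΘ, htors, heval⟩ := th70_exists_theta (K := AlgebraicClosure ℚ) (ff79_ev0 φ N) p
    (th70_zeta p) (th70_zeta_isPrimitiveRoot p hp) (th70_zeta_fix N p) (ff79_ev0_fix φ N)
    (th70_final_hK2 φ N p hK2C) (th70_const N) hroot P.toAddSubgroup hex'
  refine ⟨Θ, hΘ, htors, fun ℓ hℓ χ χ' hχ' => ?_⟩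
  have hmem : heckeHom N ℓ (ZMod p) (χ : Additive (Gamma0 N) →+ ZMod p) ∈ P.toAddSubgroup := by
    rw [← hχ']
    exact χ'.2
  have hχeq : (⟨heckeHom N ℓ (ZMod p) (χ : Additive (Gamma0 N) →+ ZMod p), hmem⟩ :
      P.toAddSubgroup) = χ' := Subtype.ext hχ'.symm
  rw [← hχeq]
  refine th70_hecke_of (K := AlgebraicClosure ℚ) hex' Θ heval hp
    (heckeOperatorBar N ℓ).toAddMonoidHom (fun χ => heckeHom N ℓ (ZMod p) χ) ?_ χ hmem
  intro χ hχ h f H D hD
  obtain ⟨h0, f0, hchar, hpow, hdvd⟩ := H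
  haveI : NeZero (ℓ : ℕ) := ⟨ℓ.2.ne_zero⟩
  obtain ⟨h', h'0, hchar', hpow'⟩ := hHK (ℓ : ℕ) ℓ.2 hℓ χ (hPle hχ) h f h0 f0 hchar hpow
  obtain ⟨D', hTD, hD'⟩ :=
    hd63_heckeOperatorBar_kummer (N := N) (ℓ := (ℓ : ℕ)) ℓ.2 (p : ℤ) D f f0 hD
  exact ⟨h', hd63_heckeNorm N ℓ f, D',
    ⟨h'0, hd63_heckeNorm_ne_zero N ℓ f0, hchar', hpow', fun v => ⟨_, (hD' v).symm⟩⟩, hD', hTD⟩

/-- **(W1) for every prime `p`**: from (X) on `Par'_N`, (K2) over `ℂ` and the Hecke step on
roots.  The eigenclass is not a hypothesis. -/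
theorem tfe71_W1 {k0 : Type*} [Field k0] [Algebra (ZMod p) k0]
    (hX : tfe71_X N p (w1i71_ParE N p)) (hK2C : th70_K2C N p) (hHK : th70_HK φ N p)
    {f : CuspForm (Gamma0 N) 2} (hf : f.IsNormalizedEigenform)
    (ψ : integralClosure ℤ ℂ →+* k0) :
    ∃ y : k0 ⊗[ZMod p] w1a28_J N p, y ≠ 0 ∧
      ∀ ℓ : Nat.Primes, ¬ (ℓ : ℕ) ∣ N * p →
        ∃ a : integralClosure ℤ ℂ, (a : ℂ) = ModularFormClass.qCoeff (⇑f) ℓ ∧
          (w1a28_TJ N p ℓ).baseChange k0 y = ψ a • y := by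
  obtain ⟨Θ, hΘ, htors, hhec⟩ :=
    tfe71_I_Theta φ N p (w1i71_ParE N p) (w1i71_ParE_le_Par N p) hX hK2C hHK
  exact w1i71_main_ParE Θ hΘ htors hhec hf ψ

/-- (W1) from the three analytic statements of `ThetaFinal70` (`th70_X` on all of `Par_N`),
without the eigenclass hypothesis. -/
theorem tfe71_W1_of_X {k0 : Type*} [Field k0] [Algebra (ZMod p) k0]
    (hX : th70_X N p) (hK2C : th70_K2C N p) (hHK : th70_HK φ N p)
    {f : CuspForm (Gamma0 N) 2} (hf : f.IsNormalizedEigenform)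
    (ψ : integralClosure ℤ ℂ →+* k0) :
    ∃ y : k0 ⊗[ZMod p] w1a28_J N p, y ≠ 0 ∧
      ∀ ℓ : Nat.Primes, ¬ (ℓ : ℕ) ∣ N * p →
        ∃ a : integralClosure ℤ ℂ, (a : ℂ) = ModularFormClass.qCoeff (⇑f) ℓ ∧
          (w1a28_TJ N p ℓ).baseChange k0 y = ψ a • y :=
  tfe71_W1 φ N p (tfe71_X_of_X N p hX) hK2C hHK hf ψ

end tfe71

end Fermat.Agent.S42
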