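import Fermat.Agent.S42.ThetaInst70
import Fermat.Agent.S42.ParTors46

/-!
# S42 / S29 add-on (helper46): the concrete `Θ` on a general Hecke-stable submodule, all primes `p`

Twin of `ThetaInst70` with the domain `w1a28_Par N p` replaced by

* an arbitrary submodule `P ≤ Hom(Γ₀(N), ℤ/p)` (`pt46_I_Theta_of`, `pt46_W1_of`), and
* `P = pt46_Par N p`, the homs killing parabolic AND elliptic elements (`pt46_I_Theta`,
  `pt46_W1`), for which the Hecke stability is `pt46_heckeHom_mem`.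

For `p = 2, 3` admissible pairs exist only for `χ ∈ pt46_Par N p`, so this is the form of
(I-Theta) / (W1) which S29 uses.  The conclusion (W1) is literally the one of `th70_W1`.
-/

set_option autoImplicit false
set_option linter.unusedSectionVars false
set_option linter.unusedVariables false
set_option linter.style.longLine false
set_option linter.style.haveILetI false

open CongruenceSubgroup ModularCurve ModularCurve.Period AlgebraicCurve UpperHalfPlane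
open IntermediateField
open scoped TensorProduct MatrixGroups

namespace Fermat.Agent.S42

open Fermat.Agent.S16 Fermat.Agent.S24 Fermat.Agent.S37 Fermat.Agent.S18

section pt46_inst

variable (N : ℕ) [NeZero N] (p : ℕ) [Fact p.Prime]

/-- **(I-Theta) on an arbitrary Hecke-stable submodule `P`.** -/
theorem pt46_I_Theta_of (P : Submodule (ZMod p) (Additive (Gamma0 N) →+ ZMod p))
    (ev0 : ↥(modularFunctionFieldBar N) →+* mer95_MER)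
    (hfix : ∀ (γ : ↥(Gamma0 N)) (f : ↥(modularFunctionFieldBar N)), γ • ev0 f = ev0 f)
    (hK2 : ∀ x : mer95_MER, x ≠ 0 → (∀ γ : ↥(Gamma0 N), γ • x = x) →
      ∀ f : ↥(modularFunctionFieldBar N), x ^ p = ev0 f →
        ∃ (w : ↥(modularFunctionFieldBar N)) (a : AlgebraicClosure ℚ),
          f = algebraMap (AlgebraicClosure ℚ) ↥(modularFunctionFieldBar N) a * w ^ p)
    (hex : ∀ χ ∈ P, ∃ (h : mer95_MER) (f : ↥(modularFunctionFieldBar N)),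
      th70_Adm (AlgebraicClosure ℚ) ev0 p (th70_zeta p) χ h f)
    (hpar : ∀ ℓ : Nat.Primes, ¬ (ℓ : ℕ) ∣ N * p → ∀ χ ∈ P, heckeHom N ℓ (ZMod p) χ ∈ P)
    (hHK : ∀ (ℓ : ℕ) [NeZero ℓ], ℓ.Prime → ¬ ℓ ∣ N * p → ∀ χ ∈ P,
      ∀ (h : mer95_MER) (f : ↥(modularFunctionFieldBar N)), h ≠ 0 → f ≠ 0 →
        th70_IsChar p (th70_zeta p) χ h → h ^ p = ev0 f →
          ∃ h' : mer95_MER, h' ≠ 0 ∧ th70_IsChar p (th70_zeta p) (heckeHom N ℓ (ZMod p) χ) h' ∧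
            h' ^ p = ev0 (hd63_heckeNorm N ℓ f)) :
    ∃ Θ : P →+ JZero N, Function.Injective Θ ∧ (∀ χ, (p : ℤ) • Θ χ = 0) ∧
      ∀ ℓ : Nat.Primes, ¬ (ℓ : ℕ) ∣ N * p → ∀ χ : P,
        ∃ hχ : heckeHom N ℓ (ZMod p) χ ∈ P,
          heckeOperatorBar N ℓ (Θ χ) = Θ ⟨heckeHom N ℓ (ZMod p) χ, hχ⟩ := by
  have hp : p ≠ 0 := (Fact.out : p.Prime).ne_zero
  haveI := hi63_hasPrincipalDivisors_bar N
  have hroot : ∀ a : AlgebraicClosure ℚ, ∃ b : AlgebraicClosure ℚ, b ^ p = a :=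
    fun a => IsAlgClosed.exists_pow_nat_eq a (Nat.pos_of_ne_zero hp)
  have hex' : ∀ χ ∈ P.toAddSubgroup,
      ∃ (h : mer95_MER) (f : ↥(modularFunctionFieldBar N)),
        th70_Adm (AlgebraicClosure ℚ) ev0 p (th70_zeta p) χ h f := hex
  obtain ⟨Θ, hΘ, htors, heval⟩ := th70_exists_theta (K := AlgebraicClosure ℚ) ev0 p (th70_zeta p)
    (th70_zeta_isPrimitiveRoot p hp) (th70_zeta_fix N p) hfix hK2 (th70_const N) hroot
    P.toAddSubgroup hex'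
  refine ⟨Θ, hΘ, htors, fun ℓ hℓ χ => ⟨hpar ℓ hℓ χ.1 χ.2, ?_⟩⟩
  refine th70_hecke_of (K := AlgebraicClosure ℚ) hex' Θ heval hp
    (heckeOperatorBar N ℓ).toAddMonoidHom (fun χ => heckeHom N ℓ (ZMod p) χ) ?_ χ
    (hpar ℓ hℓ χ.1 χ.2)
  intro χ hχ h f H D hD
  obtain ⟨h0, f0, hchar, hpow, hdvd⟩ := H
  haveI : NeZero (ℓ : ℕ) := ⟨ℓ.2.ne_zero⟩
  obtain ⟨h', h'0, hchar', hpow'⟩ := hHK (ℓ : ℕ) ℓ.2 hℓ χ hχ h f h0 f0 hchar hpow
  obtain ⟨D', hTD, hD'⟩ := hd63_heckeOperatorBar_kummer (N := N) (ℓ := (ℓ : ℕ)) ℓ.2 (p : ℤ) D f f0 hD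
  exact ⟨h', hd63_heckeNorm N ℓ f, D',
    ⟨h'0, hd63_heckeNorm_ne_zero N ℓ f0, hchar', hpow', fun v => ⟨_, (hD' v).symm⟩⟩, hD', hTD⟩

/-- **(I-Theta) on `Par'_N = pt46_Par N p`** (homs killing parabolic and elliptic elements),
every prime `p`. -/
theorem pt46_I_Theta
    (ev0 : ↥(modularFunctionFieldBar N) →+* mer95_MER)
    (hfix : ∀ (γ : ↥(Gamma0 N)) (f : ↥(modularFunctionFieldBar N)), γ • ev0 f = ev0 f)
    (hK2 : ∀ x : mer95_MER, x ≠ 0 → (∀ γ : ↥(Gamma0 N), γ • x = x) →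
      ∀ f : ↥(modularFunctionFieldBar N), x ^ p = ev0 f →
        ∃ (w : ↥(modularFunctionFieldBar N)) (a : AlgebraicClosure ℚ),
          f = algebraMap (AlgebraicClosure ℚ) ↥(modularFunctionFieldBar N) a * w ^ p)
    (hex : ∀ χ ∈ pt46_Par N p, ∃ (h : mer95_MER) (f : ↥(modularFunctionFieldBar N)),
      th70_Adm (AlgebraicClosure ℚ) ev0 p (th70_zeta p) χ h f)
    (hHK : ∀ (ℓ : ℕ) [NeZero ℓ], ℓ.Prime → ¬ ℓ ∣ N * p → ∀ χ ∈ pt46_Par N p,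
      ∀ (h : mer95_MER) (f : ↥(modularFunctionFieldBar N)), h ≠ 0 → f ≠ 0 →
        th70_IsChar p (th70_zeta p) χ h → h ^ p = ev0 f →
          ∃ h' : mer95_MER, h' ≠ 0 ∧ th70_IsChar p (th70_zeta p) (heckeHom N ℓ (ZMod p) χ) h' ∧
            h' ^ p = ev0 (hd63_heckeNorm N ℓ f)) :
    ∃ Θ : pt46_Par N p →+ JZero N, Function.Injective Θ ∧ (∀ χ, (p : ℤ) • Θ χ = 0) ∧
      ∀ ℓ : Nat.Primes, ¬ (ℓ : ℕ) ∣ N * p → ∀ χ : pt46_Par N p,
        ∃ hχ : heckeHom N ℓ (ZMod p) χ ∈ pt46_Par N p,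
          heckeOperatorBar N ℓ (Θ χ) = Θ ⟨heckeHom N ℓ (ZMod p) χ, hχ⟩ :=
  pt46_I_Theta_of N p (pt46_Par N p) ev0 hfix hK2 hex
    (fun ℓ _ _ hχ => pt46_heckeHom_mem ℓ.2 hχ) hHK

/-- **(W1) from the binding interfaces, on an arbitrary Hecke-stable submodule `P`.** -/
theorem pt46_W1_of {k0 : Type*} [Field k0] [Algebra (ZMod p) k0]
    (P : Submodule (ZMod p) (Additive (Gamma0 N) →+ ZMod p))
    (ev0 : ↥(modularFunctionFieldBar N) →+* mer95_MER)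
    (hfix : ∀ (γ : ↥(Gamma0 N)) (f : ↥(modularFunctionFieldBar N)), γ • ev0 f = ev0 f)
    (hK2 : ∀ x : mer95_MER, x ≠ 0 → (∀ γ : ↥(Gamma0 N), γ • x = x) →
      ∀ f : ↥(modularFunctionFieldBar N), x ^ p = ev0 f →
        ∃ (w : ↥(modularFunctionFieldBar N)) (a : AlgebraicClosure ℚ),
          f = algebraMap (AlgebraicClosure ℚ) ↥(modularFunctionFieldBar N) a * w ^ p)
    (hex : ∀ χ ∈ P, ∃ (h : mer95_MER) (f : ↥(modularFunctionFieldBar N)),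
      th70_Adm (AlgebraicClosure ℚ) ev0 p (th70_zeta p) χ h f)
    (hpar : ∀ ℓ : Nat.Primes, ¬ (ℓ : ℕ) ∣ N * p → ∀ χ ∈ P, heckeHom N ℓ (ZMod p) χ ∈ P)
    (hHK : ∀ (ℓ : ℕ) [NeZero ℓ], ℓ.Prime → ¬ ℓ ∣ N * p → ∀ χ ∈ P,
      ∀ (h : mer95_MER) (f : ↥(modularFunctionFieldBar N)), h ≠ 0 → f ≠ 0 →
        th70_IsChar p (th70_zeta p) χ h → h ^ p = ev0 f →
          ∃ h' : mer95_MER, h' ≠ 0 ∧ th70_IsChar p (th70_zeta p) (heckeHom N ℓ (ZMod p) χ) h' ∧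
            h' ^ p = ev0 (hd63_heckeNorm N ℓ f))
    (f : CuspForm (Gamma0 N) 2) (φ : integralClosure ℤ ℂ →+* k0)
    (heig : ∃ x : k0 ⊗[ZMod p] P, x ≠ 0 ∧
      ∀ ℓ : Nat.Primes, ¬ (ℓ : ℕ) ∣ N * p →
        ∃ a : integralClosure ℤ ℂ, (a : ℂ) = ModularFormClass.qCoeff (⇑f) ℓ ∧
          (w1a28_TX N p ℓ).baseChange k0 (P.subtype.baseChange k0 x)
            = φ a • P.subtype.baseChange k0 x) :
    ∃ y : k0 ⊗[ZMod p] w1a28_J N p, y ≠ 0 ∧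
      ∀ ℓ : Nat.Primes, ¬ (ℓ : ℕ) ∣ N * p →
        ∃ a : integralClosure ℤ ℂ, (a : ℂ) = ModularFormClass.qCoeff (⇑f) ℓ ∧
          (w1a28_TJ N p ℓ).baseChange k0 y = φ a • y := by
  obtain ⟨Θ, hΘ, htors, hhec⟩ := pt46_I_Theta_of N p P ev0 hfix hK2 hex hpar hHK
  exact pt46_main_eigenform_of P Θ hΘ htors hhec f φ heig

/-- **(W1) from the binding interfaces on `Par'_N = pt46_Par N p`**, every prime `p`: the
S29 form of `th70_W1`. -/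
theorem pt46_W1 {k0 : Type*} [Field k0] [Algebra (ZMod p) k0]
    (ev0 : ↥(modularFunctionFieldBar N) →+* mer95_MER)
    (hfix : ∀ (γ : ↥(Gamma0 N)) (f : ↥(modularFunctionFieldBar N)), γ • ev0 f = ev0 f)
    (hK2 : ∀ x : mer95_MER, x ≠ 0 → (∀ γ : ↥(Gamma0 N), γ • x = x) →
      ∀ f : ↥(modularFunctionFieldBar N), x ^ p = ev0 f →
        ∃ (w : ↥(modularFunctionFieldBar N)) (a : AlgebraicClosure ℚ),
          f = algebraMap (AlgebraicClosure ℚ) ↥(modularFunctionFieldBar N) a * w ^ p)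
    (hex : ∀ χ ∈ pt46_Par N p, ∃ (h : mer95_MER) (f : ↥(modularFunctionFieldBar N)),
      th70_Adm (AlgebraicClosure ℚ) ev0 p (th70_zeta p) χ h f)
    (hHK : ∀ (ℓ : ℕ) [NeZero ℓ], ℓ.Prime → ¬ ℓ ∣ N * p → ∀ χ ∈ pt46_Par N p,
      ∀ (h : mer95_MER) (f : ↥(modularFunctionFieldBar N)), h ≠ 0 → f ≠ 0 →
        th70_IsChar p (th70_zeta p) χ h → h ^ p = ev0 f →
          ∃ h' : mer95_MER, h' ≠ 0 ∧ th70_IsChar p (th70_zeta p) (heckeHom N ℓ (ZMod p) χ) h' ∧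
            h' ^ p = ev0 (hd63_heckeNorm N ℓ f))
    (f : CuspForm (Gamma0 N) 2) (φ : integralClosure ℤ ℂ →+* k0)
    (heig : ∃ x : k0 ⊗[ZMod p] pt46_Par N p, x ≠ 0 ∧
      ∀ ℓ : Nat.Primes, ¬ (ℓ : ℕ) ∣ N * p →
        ∃ a : integralClosure ℤ ℂ, (a : ℂ) = ModularFormClass.qCoeff (⇑f) ℓ ∧
          (w1a28_TX N p ℓ).baseChange k0 ((pt46_Par N p).subtype.baseChange k0 x)
            = φ a • (pt46_Par N p).subtype.baseChange k0 x) :
    ∃ y : k0 ⊗[ZMod p] w1a28_J N p, y ≠ 0 ∧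
      ∀ ℓ : Nat.Primes, ¬ (ℓ : ℕ) ∣ N * p →
        ∃ a : integralClosure ℤ ℂ, (a : ℂ) = ModularFormClass.qCoeff (⇑f) ℓ ∧
          (w1a28_TJ N p ℓ).baseChange k0 y = φ a • y :=
  pt46_W1_of N p (pt46_Par N p) ev0 hfix hK2 hex
    (fun ℓ _ _ hχ => pt46_heckeHom_mem ℓ.2 hχ) hHK f φ heig

end pt46_inst

end Fermat.Agent.S42
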