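import Fermat.Agent.S42.ThetaFinal70
import Fermat.Agent.S42.ThetaTors46
import Fermat.Agent.S42.W1Int71
import Fermat.Agent.S42.DivGFinal93

/-!
# S42 / S29 add-on (helper46): the final instantiation of the `Θ` spine for EVERY prime `p`

Twin of `ThetaFinal70` with the domain `Par'_N = pt46_Par N p` (homs `Γ₀(N) → ℤ/p` killing the
parabolic AND the elliptic elements).  For `p = 2, 3` the statement (X) is false on the whole of
`Par_N` (e.g. `N = 13`, `p = 2`), but it holds on `Par'_N`, which contains the reductions of the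
integral parabolic homs and hence still carries every eigenclass.

* `pt46_X N p`      : (X) on `Par'_N`;  `pt46_X_of_par` (from `th70_X`);
* `pt46_Xcusp N p`  : (X) with divisibility required only at the places over `j = ∞`;
  `pt46_X_of_cusp`  : `pt46_Xcusp → pt46_X`, every prime `p` (finite places: `dg93_div_FC`, the
  invariance under the finite-order elements being `pt46_trace_of_isOfFinOrder`);
* `pt46_HK φ N p`   : the Hecke step on `Par'_N`;  `pt46_HK_of` (from `th70_HK`);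
* `pt46_final_hex`, `pt46_final_I_Theta` : admissible pairs and (I-Theta) on `Par'_N`;
* `pt46_final_W1`   : (W1) for a normalized eigenform, every prime `p`, from `pt46_X`, `th70_K2C`,
  `pt46_HK` (the eigenclass comes from `m9e54_eigenclass` through `w1i71_main`).
-/

set_option autoImplicit false
set_option linter.unusedSectionVars false
set_option linter.unusedVariables false
set_option linter.style.longLine false
set_option linter.style.haveILetI false

open CongruenceSubgroup ModularCurve ModularCurve.Period AlgebraicCurve UpperHalfPlane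
open scoped TensorProduct MatrixGroups

namespace Fermat.Agent.S42

open Fermat.Agent.S16

section pt46_final

variable (φ : AlgebraicClosure ℚ →+* ℂ) (N : ℕ) [NeZero N] (p : ℕ) [Fact p.Prime]

/-- The analytic existence statement (X) over `ℂ`, on `Par'_N`. -/
def pt46_X : Prop :=
  ∀ χ ∈ pt46_Par N p, ∃ h : mer95_MER, h ≠ 0 ∧ th70_IsChar p (th70_zeta p) χ h ∧
    ∃ u : ↥(laurentBaseChange ℂ (modularFunctionFieldFull N)), ff79_evMer N u = h ^ p ∧
      ∀ v : Place ℂ ↥(laurentBaseChange ℂ (modularFunctionFieldFull N)), (p : ℤ) ∣ v.ord u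

/-- (X) on `Par'_N` with the divisibility required only at the places over `j = ∞`. -/
def pt46_Xcusp : Prop :=
  ∀ χ ∈ pt46_Par N p, ∃ h : mer95_MER, h ≠ 0 ∧ th70_IsChar p (th70_zeta p) χ h ∧
    ∃ u : gi41_FC N, ff79_evMer N u = h ^ p ∧
      ∀ v : Place ℂ (gi41_FC N), v.ord (dg93_j0 N) < 0 → (p : ℤ) ∣ v.ord u

/-- The Hecke step on roots, on `Par'_N`. -/
def pt46_HK : Prop :=
  ∀ (ℓ : ℕ) [NeZero ℓ], ℓ.Prime → ¬ ℓ ∣ N * p → ∀ χ ∈ pt46_Par N p,
    ∀ (h : mer95_MER) (f : ↥(modularFunctionFieldBar N)), h ≠ 0 → f ≠ 0 →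
      th70_IsChar p (th70_zeta p) χ h → h ^ p = ff79_ev0 φ N f →
        ∃ h' : mer95_MER, h' ≠ 0 ∧ th70_IsChar p (th70_zeta p) (heckeHom N ℓ (ZMod p) χ) h' ∧
          h' ^ p = ff79_ev0 φ N (hd63_heckeNorm N ℓ f)

theorem pt46_X_of_par (hX : th70_X N p) : pt46_X N p :=
  fun χ hχ => hX χ (pt46_Par_le N p hχ)

theorem pt46_HK_of (hHK : th70_HK φ N p) : pt46_HK φ N p :=
  fun ℓ _ hℓ hℓN χ hχ => hHK ℓ hℓ hℓN χ (pt46_Par_le N p hχ)

/-- a function with a character in `Par'_N` is invariant under the finite-order elements. -/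
theorem pt46_char_finOrder {χ : Additive (Gamma0 N) →+ ZMod p} (hχ : χ ∈ pt46_Par N p)
    (ζ : mer95_MER) (h : mer95_MER) (hchar : th70_IsChar p ζ χ h)
    (δ : SL(2, ℤ)) (hδ : δ ∈ Gamma0 N) (hfin : IsOfFinOrder δ) : δ • h = h := by
  have h1 := hchar ⟨δ, hδ⟩
  have h2 : χ (Additive.ofMul (⟨δ, hδ⟩ : Gamma0 N)) = 0 :=
    hχ ⟨δ, hδ⟩ (pt46_trace_of_isOfFinOrder δ hfin)
  rw [h2, ZMod.val_zero, pow_zero, one_mul] at h1
  exact h1

/-- **(X) on `Par'_N` from its cusp form**, every prime `p`. -/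
theorem pt46_X_of_cusp (hX : pt46_Xcusp N p) : pt46_X N p := by
  intro χ hχ
  obtain ⟨h, h0, hchar, u, hu, hcusp⟩ := hX χ hχ
  refine ⟨h, h0, hchar, u, hu, fun v => ?_⟩
  exact dg93_div_FC N p u h h0 hu
    (fun δ hδ hfin => pt46_char_finOrder N p hχ _ h hchar δ hδ hfin) hcusp v

/-- `hex` on `Par'_N` from (X) over `ℂ` and the descent (DESC). -/
theorem pt46_final_hex (hX : pt46_X N p) :
    ∀ χ ∈ pt46_Par N p, ∃ (h : mer95_MER) (f : ↥(modularFunctionFieldBar N)),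
      th70_Adm (AlgebraicClosure ℚ) (ff79_ev0 φ N) p (th70_zeta p) χ h f := by
  have hp : p ≠ 0 := (Fact.out : p.Prime).ne_zero
  have hζ0 : th70_zeta p ≠ 0 := (th70_zeta_isPrimitiveRoot p hp).ne_zero hp
  intro χ hχ
  obtain ⟨h, h0, hchar, u, hu, hdvd⟩ := hX χ hχ
  have hu0 : u ≠ 0 := by
    rintro rfl
    rw [map_zero] at hu
    exact pow_ne_zero p h0 hu.symm
  obtain ⟨g, w, c, hg, hw, hc, hgw, hP0⟩ :=
    di3_desc_bar φ N (Nat.pos_of_ne_zero hp) hu0 hdvd
  have hbc : ff79_bc φ N g =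
      algebraMap ℂ ↥(laurentBaseChange ℂ (modularFunctionFieldFull N)) c * (w ^ p * u) := by
    apply Subtype.ext
    rw [ff79_bc_coe, hgw]
    rfl
  obtain ⟨d, hd⟩ := IsAlgClosed.exists_pow_nat_eq c (Nat.pos_of_ne_zero hp)
  have hd0 : d ≠ 0 := by
    rintro rfl
    rw [zero_pow hp] at hd
    exact hc hd.symm
  have hCd : algebraMap ℂ mer95_MER d ≠ 0 := by simpa using hd0
  have hevw : ff79_evMer N w ≠ 0 := by simpa using hw
  refine ⟨algebraMap ℂ mer95_MER d * ff79_evMer N w * h, g,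
    mul_ne_zero (mul_ne_zero hCd hevw) h0, hg, fun γ => ?_, ?_, hP0⟩
  · rw [smul_mul', smul_mul', hchar γ]
    have e1 : γ • algebraMap ℂ mer95_MER d = algebraMap ℂ mer95_MER d :=
      mer95_smul_C_SL (γ : SL(2, ℤ)) d
    have e2 : γ • ff79_evMer N w = ff79_evMer N w := ff79_evMer_smul N γ.1 γ.2 w
    rw [e1, e2]
    ring
  · rw [ff79_ev0_apply, hbc, map_mul, map_mul, map_pow, hu, ff79_evMer_C, mul_pow, mul_pow,
      ← map_pow, hd]
    ring

/-- **(I-Theta) on `Par'_N`, final form, every prime `p`.** -/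
theorem pt46_final_I_Theta (hX : pt46_X N p) (hK2C : th70_K2C N p) (hHK : pt46_HK φ N p) :
    ∃ Θ : pt46_Par N p →+ JZero N, Function.Injective Θ ∧ (∀ χ, (p : ℤ) • Θ χ = 0) ∧
      ∀ ℓ : Nat.Primes, ¬ (ℓ : ℕ) ∣ N * p → ∀ χ : pt46_Par N p,
        ∃ hχ : heckeHom N ℓ (ZMod p) χ ∈ pt46_Par N p,
          heckeOperatorBar N ℓ (Θ χ) = Θ ⟨heckeHom N ℓ (ZMod p) χ, hχ⟩ :=
  pt46_I_Theta N p (ff79_ev0 φ N) (ff79_ev0_fix φ N) (th70_final_hK2 φ N p hK2C)
    (pt46_final_hex φ N p hX)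
    (fun ℓ _ hℓ hℓN χ hχ h f h0 f0 hc hpow => hHK ℓ hℓ hℓN χ hχ h f h0 f0 hc hpow)

/-- **(W1), final form, every prime `p`**: the eigenclass of a normalized eigenform in
`k0 ⊗ J₀(N)(ℚ̄)[p]`, from the three analytic statements over `ℂ` on `Par'_N`. -/
theorem pt46_final_W1 {k0 : Type*} [Field k0] [Algebra (ZMod p) k0]
    (hX : pt46_X N p) (hK2C : th70_K2C N p) (hHK : pt46_HK φ N p)
    {f : CuspForm (Gamma0 N) 2} (hf : f.IsNormalizedEigenform)
    (ψ : integralClosure ℤ ℂ →+* k0) :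
    ∃ y : k0 ⊗[ZMod p] w1a28_J N p, y ≠ 0 ∧
      ∀ ℓ : Nat.Primes, ¬ (ℓ : ℕ) ∣ N * p →
        ∃ a : integralClosure ℤ ℂ, (a : ℂ) = ModularFormClass.qCoeff (⇑f) ℓ ∧
          (w1a28_TJ N p ℓ).baseChange k0 y = ψ a • y := by
  obtain ⟨Θ, hΘ, htors, hhec⟩ := pt46_final_I_Theta φ N p hX hK2C hHK
  refine w1i71_main (pt46_Par N p) (fun χ hχ => pt46_red_mem χ hχ) Θ hΘ htors ?_ hf ψ
  intro ℓ hℓ χ χ' hχ'
  obtain ⟨hm, he⟩ := hhec ℓ hℓ χ
  rw [he]
  exact congrArg Θ (Subtype.ext hχ'.symm)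

end pt46_final

end Fermat.Agent.S42
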