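import Fermat.Agent.S42.ThetaInstZ31
import Fermat.Agent.S42.ThetaFinal70
import Fermat.Agent.S42.K2pFinal41
import Fermat.Agent.S42.HeckeHK10

/-!
# Riders S30 / S31, row THETA-Z (helper31): the Z-rows — `(I-Theta-Z)` with only `(X)` left

`ThetaInstZ31` proves (I-Theta-Z) at an arbitrary modulus `m ≠ 0` from the plain hypotheses
`hK2`, `hex`, `hHK` for an evaluation `ev0`.  Here they are discharged for
`ev0 := ff79_ev0 φ N` (`φ : ℚ̄ →+* ℂ` arbitrary) from what Project 4 has on main — every piece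
used is already modulus-general:

* Z1 `hK2` : `gi41_hK2` (helper41; K2 over `ℂ` + power descent, any exponent `n > 0`);
* Z3 `hHK` : `thz31_final_hHK`, from `hc45_hecke_pair` (helper45; generic coefficient group, here
  `A = ℤ` with the character `n ↦ exp(2πi/m) ^ n`) and `nm49_hecke_hnorm` (helper49);
* Z2 `hex` : `thz31_final_hex`, from the descent `di3_desc_bar` (helper3's block, any `n > 0`) and
  the ONE remaining analytic statement

  `thz31_X N m` : every integral parabolic `χ` has a nonzero `h : mer95_MER` with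
  `γ • h = ζ_m ^ χ(γ) * h` and `u ∈ F_ℂ(N)` with `ev u = h ^ m`, `m ∣ v.ord u` at every place.

Conclusions: `thz31_final_I_Theta_Z` ((I-Theta-Z) from `thz31_X N m`), and
`thz31_final_family` (the compatible family at the moduli `p ^ n` from `∀ n, thz31_X N (p ^ n)`).
-/

set_option autoImplicit false
set_option linter.unusedSectionVars false
set_option linter.unusedVariables false
set_option linter.style.longLine false
set_option linter.style.haveILetI false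

open CongruenceSubgroup ModularCurve ModularCurve.Period AlgebraicCurve UpperHalfPlane
open scoped TensorProduct MatrixGroups

namespace Fermat.Agent.S42

open Fermat.Agent.S16 Fermat.Agent.S24

section thz31_final

variable (φ : AlgebraicClosure ℚ →+* ℂ) (N : ℕ) [NeZero N] (m : ℕ) [NeZero m]

/-- The analytic existence statement (X) over `ℂ` at modulus `m`, for integral characters. -/
def thz31_X : Prop :=
  ∀ χ ∈ thz31_L N, ∃ h : mer95_MER, h ≠ 0 ∧ thz31_IsCharZ (th70_zeta m) χ h ∧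
    ∃ u : ↥(laurentBaseChange ℂ (modularFunctionFieldFull N)), ff79_evMer N u = h ^ m ∧
      ∀ v : Place ℂ ↥(laurentBaseChange ℂ (modularFunctionFieldFull N)), (m : ℤ) ∣ v.ord u

/-- `n ↦ exp(2πi/m) ^ n` as a character of `ℤ`. -/
noncomputable def thz31_e : Multiplicative ℤ →* ℂ :=
  (Units.coeHom ℂ).comp (zpowersHom ℂˣ
    (Units.mk0 (Complex.exp (2 * Real.pi * Complex.I / m)) (Complex.exp_ne_zero _)))

theorem thz31_e_apply (n : ℤ) :
    algebraMap ℂ mer95_MER (thz31_e m (Multiplicative.ofAdd n)) = th70_zeta m ^ n := by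
  unfold th70_zeta thz31_e
  rw [← map_zpow₀]
  congr 1
  show ((Units.mk0 (Complex.exp (2 * Real.pi * Complex.I / m)) (Complex.exp_ne_zero _) ^ n : ℂˣ) : ℂ)
    = _
  rw [Units.val_zpow_eq_zpow_val, Units.val_mk0]

/-- **Z2**: `hex` of `thz31_I_Theta_Z` from (X) over `ℂ` and the descent (DESC). -/
theorem thz31_final_hex (hX : thz31_X N m) :
    ∀ χ ∈ thz31_L N, ∃ (h : mer95_MER) (f : ↥(modularFunctionFieldBar N)),
      thz31_AdmZ (AlgebraicClosure ℚ) (ff79_ev0 φ N) m (th70_zeta m) χ h f := by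
  have hm : m ≠ 0 := NeZero.ne m
  intro χ hχ
  obtain ⟨h, h0, hchar, u, hu, hdvd⟩ := hX χ hχ
  have hu0 : u ≠ 0 := by
    rintro rfl
    rw [map_zero] at hu
    exact pow_ne_zero m h0 hu.symm
  obtain ⟨g, w, c, hg, hw, hc, hgw, hP0⟩ :=
    di3_desc_bar φ N (Nat.pos_of_ne_zero hm) hu0 hdvd
  -- the identity in `F_ℂ(N)`
  have hbc : ff79_bc φ N g =
      algebraMap ℂ ↥(laurentBaseChange ℂ (modularFunctionFieldFull N)) c * (w ^ m * u) := by
    apply Subtype.ext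
    rw [ff79_bc_coe, hgw]
    rfl
  obtain ⟨d, hd⟩ := IsAlgClosed.exists_pow_nat_eq c (Nat.pos_of_ne_zero hm)
  have hd0 : d ≠ 0 := by
    rintro rfl
    rw [zero_pow hm] at hd
    exact hc hd.symm
  have hCd : algebraMap ℂ mer95_MER d ≠ 0 := by simpa using hd0
  have hevw : ff79_evMer N w ≠ 0 := by simpa using hw
  refine ⟨algebraMap ℂ mer95_MER d * ff79_evMer N w * h, g,
    mul_ne_zero (mul_ne_zero hCd hevw) h0, hg, fun γ => ?_, ?_, hP0⟩
  · rw [smul_mul', smul_mul', hchar γ]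
    have e1 : γ • algebraMap ℂ mer95_MER d = algebraMap ℂ mer95_MER d :=
      mer95_smul_C_SL (γ : SL(2, ℤ)) d
    have e2 : γ • ff79_evMer N w = ff79_evMer N w := ff79_evMer_smul N γ.1 γ.2 w
    rw [e1, e2]
    ring
  · rw [ff79_ev0_apply, hbc, map_mul, map_mul, map_pow, hu, ff79_evMer_C, mul_pow, mul_pow,
      ← map_pow, hd]
    ring

/-- **Z3**: `hHK` of `thz31_I_Theta_Z` — the Hecke step on roots at modulus `m`, integral
characters; no hypothesis left. -/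
theorem thz31_final_hHK :
    ∀ (ℓ : ℕ) [NeZero ℓ], ℓ.Prime → ¬ ℓ ∣ N * m → ∀ χ ∈ thz31_L N,
      ∀ (h : mer95_MER) (f : ↥(modularFunctionFieldBar N)), h ≠ 0 → f ≠ 0 →
        thz31_IsCharZ (th70_zeta m) χ h → h ^ m = ff79_ev0 φ N f →
          ∃ h' : mer95_MER, h' ≠ 0 ∧ thz31_IsCharZ (th70_zeta m) (heckeHom N ℓ ℤ χ) h' ∧
            h' ^ m = ff79_ev0 φ N (hd63_heckeNorm N ℓ f) := by
  intro ℓ _ hℓ hℓNm χ hχ h f h0 f0 hchar hpow
  have hℓN : ¬ ℓ ∣ N := fun hd => hℓNm (Dvd.dvd.mul_right hd m)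
  have hpos : 0 < (!![(ℓ : ℤ), 0; 0, 1] : Matrix (Fin 2) (Fin 2) ℤ).det := by
    rw [Matrix.det_fin_two_of]
    have : (0 : ℤ) < ℓ := by exact_mod_cast hℓ.pos
    linarith
  haveI : ((Gamma0 (N * ℓ)).subgroupOf (Gamma0 N)).FiniteIndex := ⟨by
    have h1 := gi41_relindex N ℓ hℓ hℓN
    rw [Subgroup.relIndex] at h1
    rw [h1]
    exact Nat.succ_ne_zero ℓ⟩
  letI : Fintype (↥(Gamma0 N) ⧸ (Gamma0 (N * ℓ)).subgroupOf (Gamma0 N)) := Fintype.ofFinite _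
  have hh : ∀ γ : Gamma0 N, (γ : SL(2, ℤ)) • h
      = algebraMap ℂ mer95_MER (thz31_e m (Multiplicative.ofAdd (χ (Additive.ofMul γ)))) * h := by
    intro γ
    rw [thz31_e_apply]
    exact hchar γ
  obtain ⟨k1, k2, k3⟩ := hc45_hecke_pair (N := N) (ℓ := ℓ) (K := AlgebraicClosure ℚ) hℓ hℓN
    (heckeBetaBar (AlgebraicClosure ℚ) N ℓ) (heckeAlphaBar (AlgebraicClosure ℚ) N ℓ)
    (ff79_ev0 φ N) (ff79_ev0 φ (N * ℓ)) hpos
    (fun x => ff79_ev0_beta φ N ℓ x)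
    (fun w => nm49_hecke_hnorm N ℓ hℓ hℓN (mer95_slToGL.comp (Gamma0 N).subtype)
      (ff79_ev0 φ N) (ff79_ev0 φ (N * ℓ)) (ff79_ev0_alpha φ N ℓ)
      (fun γ x => ff79_ev0_fix φ N γ x)
      (fun γ hγ => hk10_stab φ (N * ℓ) (γ : SL(2, ℤ)) hγ) w)
    χ (thz31_e m) h hh m hpow
  refine ⟨_, k3 h0, ?_, k1⟩
  intro γ
  rw [← thz31_e_apply]
  exact k2 γ

/-- **(I-Theta-Z), final form, with the evaluation clause**: only (X) at modulus `m` is left. -/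
theorem thz31_final_I_Theta_Z_eval (hX : thz31_X N m) :
    ∃ Θ : ↥(thz31_L N) →+ JZero N,
      (∀ χ, (m : ℤ) • Θ χ = 0) ∧
      (∀ χ, Θ χ = 0 → ∃ χ' : ↥(thz31_L N), χ = m • χ') ∧
      (∀ ℓ : Nat.Primes, ¬ (ℓ : ℕ) ∣ N * m → ∀ χ : ↥(thz31_L N),
        ∃ hχ : heckeHom N ℓ ℤ χ ∈ thz31_L N,
          heckeOperatorBar N ℓ (Θ χ) = Θ ⟨heckeHom N ℓ ℤ χ, hχ⟩) ∧
      ∀ (χ : ↥(thz31_L N)) (h : mer95_MER) (f : ↥(modularFunctionFieldBar N)),
        thz31_AdmZ (AlgebraicClosure ℚ) (ff79_ev0 φ N) m (th70_zeta m)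
          (χ : Additive (Gamma0 N) →+ ℤ) h f →
        ∀ D : Divisor.degZero (K := AlgebraicClosure ℚ) (F := ↥(modularFunctionFieldBar N)),
          th70_IsDivOf m f (D : Divisor (AlgebraicClosure ℚ) ↥(modularFunctionFieldBar N)) →
            Θ χ = Pic0.mk D :=
  thz31_I_Theta_Z_eval N m (ff79_ev0 φ N) (ff79_ev0_fix φ N)
    (gi41_hK2 φ N (Nat.pos_of_ne_zero (NeZero.ne m)))
    (thz31_final_hex φ N m hX)
    (fun ℓ _ hℓ hℓN χ hχ h f h0 f0 hc hpow =>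
      thz31_final_hHK φ N m ℓ hℓ hℓN χ hχ h f h0 f0 hc hpow)

include φ in
/-- **(I-Theta-Z), final form** (the shape (A) of the S31 rider): only (X) at modulus `m` is
left (`φ : ℚ̄ →+* ℂ` is any embedding, e.g. `Fermat.Agent.S24.phi`). -/
theorem thz31_final_I_Theta_Z (hX : thz31_X N m) :
    ∃ Θ : ↥(parabolicHoms ℤ (Gamma0 N) ℤ) →+ JZero N,
      (∀ χ, (m : ℤ) • Θ χ = 0) ∧
      (∀ χ, Θ χ = 0 → ∃ χ' : ↥(parabolicHoms ℤ (Gamma0 N) ℤ), χ = m • χ') ∧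
      ∀ ℓ : Nat.Primes, ¬ (ℓ : ℕ) ∣ N * m → ∀ χ : ↥(parabolicHoms ℤ (Gamma0 N) ℤ),
        ∃ hχ : heckeHom N ℓ ℤ χ ∈ parabolicHoms ℤ (Gamma0 N) ℤ,
          heckeOperatorBar N ℓ (Θ χ) = Θ ⟨heckeHom N ℓ ℤ χ, hχ⟩ := by
  obtain ⟨Θ, h1, h2, h3, -⟩ := thz31_final_I_Theta_Z_eval φ N m hX
  exact ⟨Θ, h1, h2, h3⟩

end thz31_final

/-- **The compatible family at the moduli `p ^ n`, final form**: only (X) at the moduli `p ^ n`
is left. -/
theorem thz31_final_family (φ : AlgebraicClosure ℚ →+* ℂ) (N : ℕ) [NeZero N] (p : ℕ)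
    (hp : p ≠ 0) (hX : ∀ n : ℕ, haveI : NeZero (p ^ n) := ⟨pow_ne_zero n hp⟩; thz31_X N (p ^ n)) :
    ∃ Θ : ℕ → (↥(parabolicHoms ℤ (Gamma0 N) ℤ) →+ JZero N),
      (∀ n χ, ((p ^ n : ℕ) : ℤ) • Θ n χ = 0) ∧
      (∀ n χ, Θ n χ = 0 → ∃ χ' : ↥(parabolicHoms ℤ (Gamma0 N) ℤ), χ = (p ^ n) • χ') ∧
      (∀ (n : ℕ) (ℓ : Nat.Primes), ¬ (ℓ : ℕ) ∣ N * p ^ n →
        ∀ χ : ↥(parabolicHoms ℤ (Gamma0 N) ℤ),
          ∃ hχ : heckeHom N ℓ ℤ χ ∈ parabolicHoms ℤ (Gamma0 N) ℤ,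
            heckeOperatorBar N ℓ (Θ n χ) = Θ n ⟨heckeHom N ℓ ℤ χ, hχ⟩) ∧
      ∀ n χ, (p : ℤ) • Θ (n + 1) χ = Θ n χ := by
  have hne : ∀ n : ℕ, NeZero (p ^ n) := fun n => ⟨pow_ne_zero n hp⟩
  refine thz31_I_Theta_family N p hp (ff79_ev0 φ N) (ff79_ev0_fix φ N)
    (fun n => gi41_hK2 φ N (Nat.pos_of_ne_zero (pow_ne_zero n hp)))
    (fun n => @thz31_final_hex φ N _ (p ^ n) (hne n) (hX n))
    (fun n ℓ _ hℓ hℓN χ hχ h f h0 f0 hc hpow =>
      @thz31_final_hHK φ N _ (p ^ n) (hne n) ℓ _ hℓ hℓN χ hχ h f h0 f0 hc hpow)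

end Fermat.Agent.S42
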