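import Fermat.Agent.S42.ThetaConst21
import Fermat.Agent.S42.DescData3

/-!
# S42, Ruling 3 item (c) (helper21): the generator `j` of the function fields, on the
`laurentBaseChange` types

For every field `L` of characteristic `0` (`[Algebra ℚ L]`) and `N ≠ 0`:

* `tc21_x L N : ↥(laurentBaseChange L (modularFunctionFieldFull N))` is `j = jqModC L`
  (for `L = ℚ̄` this is an element of `↥(modularFunctionFieldBar N)`, definitionally);
* `tc21_x_transcendental`, `tc21_x_finite` : `j` is transcendental over `L` and the function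
  field is finite over `L(j)`;
* `tc21_iota_x`, `tc21_iota_x_transcendental`, `tc21_iota_x_finite` : for ANY descent datum
  `S : ds3_Data ℚ̄ ℂ F0 F` on these types whose `ι` is coefficientwise (`hι`), `S.ι j = j`, so
  `S.ι j` is transcendental over `ℂ` and `F` is finite over `ℂ(S.ι j)`: the four function-field
  hypotheses of `ld29_kummer` / `dr86_desc` at `x := tc21_x ℚ̄ N`.

All names are prefixed `tc21_`.
-/

set_option autoImplicit false
set_option linter.style.haveILetI false
set_option linter.unusedSectionVars false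

open ModularCurve AlgebraicCurve IntermediateField

namespace Fermat.Agent.S42

open Fermat.Agent.S24 Fermat.Agent.S37 Fermat.Agent.S18

section tc21_gen

variable (L : Type) [Field L] [Algebra ℚ L] (N : ℕ) [NeZero N]

theorem tc21_jq_mem : jqModC L ∈ laurentBaseChange L (modularFunctionFieldFull N) := by
  rw [cg36_baseChange_eq_fullC L N]
  exact jqModC_mem_full L N

/-- `j` as an element of `laurentBaseChange L (modularFunctionFieldFull N)`. -/
noncomputable def tc21_x : ↥(laurentBaseChange L (modularFunctionFieldFull N)) :=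
  ⟨jqModC L, tc21_jq_mem L N⟩

@[simp]
theorem tc21_x_coe :
    ((tc21_x L N : ↥(laurentBaseChange L (modularFunctionFieldFull N))) : LaurentSeries L) =
      jqModC L := rfl

theorem tc21_x_ne_zero : tc21_x L N ≠ 0 := by
  intro h
  have h1 := congrArg (fun s : ↥(laurentBaseChange L (modularFunctionFieldFull N)) =>
    (s : LaurentSeries L).coeff (-1)) h
  simp only [tc21_x_coe, coeff_jqModC_neg_one] at h1
  exact one_ne_zero h1

/-- `j` is transcendental over `L`. -/
theorem tc21_x_transcendental : Transcendental L (tc21_x L N) := by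
  intro halg
  exact relimc_jqModC_transcendental L
    (halg.algHom (IntermediateField.val (laurentBaseChange L (modularFunctionFieldFull N))))

theorem tc21_finite_aux (E E' : IntermediateField L (LaurentSeries L)) (h : E = E')
    (x : LaurentSeries L) (hx : x ∈ E) (hx' : x ∈ E')
    (hfin : FiniteDimensional L⟮(⟨x, hx'⟩ : ↥E')⟯ ↥E') :
    FiniteDimensional L⟮(⟨x, hx⟩ : ↥E)⟯ ↥E := by
  subst h
  exact hfin

/-- The function field is finite over `L(j)`. -/
theorem tc21_x_finite :
    FiniteDimensional L⟮tc21_x L N⟯ ↥(laurentBaseChange L (modularFunctionFieldFull N)) :=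
  tc21_finite_aux L _ _ (cg36_baseChange_eq_fullC L N) (jqModC L) (tc21_jq_mem L N)
    (jqModC_mem_full L N) (relimc_finite L N)

end tc21_gen

section tc21_desc

variable (N : ℕ) [NeZero N]

/-- A coefficientwise base change maps `j` to `j`. -/
theorem tc21_iota_x
    (S : ds3_Data (AlgebraicClosure ℚ) ℂ ↥(modularFunctionFieldBar N)
      ↥(laurentBaseChange ℂ (modularFunctionFieldFull N)))
    (hι : ∀ g : ↥(modularFunctionFieldBar N),
      ((S.ι g : ↥(laurentBaseChange ℂ (modularFunctionFieldFull N))) : LaurentSeries ℂ) =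
        coeffMap S.φ (g : LaurentSeries (AlgebraicClosure ℚ))) :
    S.ι (tc21_x (AlgebraicClosure ℚ) N) = tc21_x ℂ N := by
  apply Subtype.ext
  rw [hι, tc21_x_coe, tc21_x_coe, coeffMap_jqModC]

/-- `S.ι j` is transcendental over `ℂ`. -/
theorem tc21_iota_x_transcendental
    (S : ds3_Data (AlgebraicClosure ℚ) ℂ ↥(modularFunctionFieldBar N)
      ↥(laurentBaseChange ℂ (modularFunctionFieldFull N)))
    (hι : ∀ g : ↥(modularFunctionFieldBar N),
      ((S.ι g : ↥(laurentBaseChange ℂ (modularFunctionFieldFull N))) : LaurentSeries ℂ) =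
        coeffMap S.φ (g : LaurentSeries (AlgebraicClosure ℚ))) :
    Transcendental ℂ (S.ι (tc21_x (AlgebraicClosure ℚ) N)) := by
  rw [tc21_iota_x N S hι]
  exact tc21_x_transcendental ℂ N

/-- `F_ℂ(N)` is finite over `ℂ(S.ι j)`. -/
theorem tc21_iota_x_finite
    (S : ds3_Data (AlgebraicClosure ℚ) ℂ ↥(modularFunctionFieldBar N)
      ↥(laurentBaseChange ℂ (modularFunctionFieldFull N)))
    (hι : ∀ g : ↥(modularFunctionFieldBar N),
      ((S.ι g : ↥(laurentBaseChange ℂ (modularFunctionFieldFull N))) : LaurentSeries ℂ) =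
        coeffMap S.φ (g : LaurentSeries (AlgebraicClosure ℚ))) :
    FiniteDimensional ℂ⟮S.ι (tc21_x (AlgebraicClosure ℚ) N)⟯
      ↥(laurentBaseChange ℂ (modularFunctionFieldFull N)) := by
  rw [tc21_iota_x N S hι]
  exact tc21_x_finite ℂ N

/-- The four function-field hypotheses of the descent block at `x := j`, in one statement. -/
theorem tc21_desc_gen
    (S : ds3_Data (AlgebraicClosure ℚ) ℂ ↥(modularFunctionFieldBar N)
      ↥(laurentBaseChange ℂ (modularFunctionFieldFull N)))
    (hι : ∀ g : ↥(modularFunctionFieldBar N),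
      ((S.ι g : ↥(laurentBaseChange ℂ (modularFunctionFieldFull N))) : LaurentSeries ℂ) =
        coeffMap S.φ (g : LaurentSeries (AlgebraicClosure ℚ))) :
    Transcendental (AlgebraicClosure ℚ) (tc21_x (AlgebraicClosure ℚ) N) ∧
      FiniteDimensional (AlgebraicClosure ℚ)⟮tc21_x (AlgebraicClosure ℚ) N⟯
        ↥(modularFunctionFieldBar N) ∧
      Transcendental ℂ (S.ι (tc21_x (AlgebraicClosure ℚ) N)) ∧
      FiniteDimensional ℂ⟮S.ι (tc21_x (AlgebraicClosure ℚ) N)⟯
        ↥(laurentBaseChange ℂ (modularFunctionFieldFull N)) :=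
  ⟨tc21_x_transcendental (AlgebraicClosure ℚ) N, tc21_x_finite (AlgebraicClosure ℚ) N,
    tc21_iota_x_transcendental N S hι, tc21_iota_x_finite N S hι⟩

end tc21_desc

end Fermat.Agent.S42
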