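import Fermat.Agent.S42.ThetaAbs70

/-!
# The abstract Kummer map `Θ` at an arbitrary modulus `m`, on integral classes

Twin of `ThetaAbs70` (helper70) for the riders S30 / S31: nothing in the construction of
`th70_exists_theta` uses that the modulus is prime.

* `tm86_exists_theta` : `th70_exists_theta` at a modulus `m ≠ 0`.
* `tm86_red m x` : reduction mod `m` of an integral homomorphism `x : Additive Gam →+ ℤ`;
  `tm86_isChar_iff` : the character condition for `tm86_red m x` in `zpow` form.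
* `tm86_theta_int` : for a saturated subgroup `L` of integral homomorphisms with admissible pairs
  at modulus `m`: an additive `θ : L → Pic0` with `m • θ = 0`, kernel `m L`, and the evaluation
  lemma.  (= THETA-INT (a), (b).)
* `tm86_hecke_int` : Hecke equivariance of `θ` from the pair-level Hecke step. (= THETA-INT (c).)
* `tm86_adm_pow`, `tm86_compat` : an admissible pair at modulus `m * d` gives one at modulus
  `m`, and `θ_m = d • θ_{m d}`.

All names are prefixed `tm86_`.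
-/

set_option autoImplicit false

open AlgebraicCurve

namespace Fermat.Agent.S42

section tm86_main

variable {K F : Type*} [Field K] [Field F] [Algebra K F]
variable {M : Type*} [Field M] {Gam : Type*} [Group Gam] [MulSemiringAction Gam M]

/-- **The abstract Kummer map at an arbitrary modulus `m ≠ 0`** (`th70_exists_theta` without
primality of the modulus). -/
theorem tm86_exists_theta [HasPrincipalDivisors K F] (ev : F →+* M) (m : ℕ) [NeZero m]
    (ζ : M) (hζ : IsPrimitiveRoot ζ m) (hζfix : ∀ g : Gam, g • ζ = ζ)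
    (hfix : ∀ (g : Gam) (f : F), g • ev f = ev f)
    (hK2 : ∀ x : M, x ≠ 0 → (∀ g : Gam, g • x = x) → ∀ f : F, x ^ m = ev f →
      ∃ (w : F) (a : K), f = algebraMap K F a * w ^ m)
    (hconst : ∀ f : F, f ≠ 0 → (∀ v : Place K F, v.ord f = 0) → ∃ a : K, f = algebraMap K F a)
    (hroot : ∀ a : K, ∃ b : K, b ^ m = a)
    (Par : AddSubgroup (Additive Gam →+ ZMod m))
    (hex : ∀ χ ∈ Par, ∃ (h : M) (f : F), th70_Adm K ev m ζ χ h f) :
    ∃ Θ : Par →+ Pic0 K F, Function.Injective Θ ∧ (∀ χ, (m : ℤ) • Θ χ = 0) ∧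
      ∀ (χ : Par) (h : M) (f : F), th70_Adm K ev m ζ (χ : Additive Gam →+ ZMod m) h f →
        ∀ D : Divisor.degZero (K := K) (F := F), th70_IsDivOf m f (D : Divisor K F) →
          Θ χ = Pic0.mk D := by
  classical
  have hp : m ≠ 0 := NeZero.ne m
  have hζp : ζ ^ m = 1 := hζ.pow_eq_one
  have hζ0 : ζ ≠ 0 := hζ.ne_zero hp
  choose hh ff hA using fun χ : Par => hex χ.1 χ.2
  choose DD hDD hdeg using fun χ : Par =>
    th70_exists_div (K := K) hp (hA χ).2.1 (hA χ).2.2.2.2
  let θ : Par → Pic0 K F := fun χ => Pic0.mk ⟨DD χ, hdeg χ⟩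
  have heval : ∀ (χ : Par) (h : M) (f : F),
      th70_Adm K ev m ζ (χ : Additive Gam →+ ZMod m) h f →
        ∀ D : Divisor.degZero (K := K) (F := F), th70_IsDivOf m f (D : Divisor K F) →
          θ χ = Pic0.mk D := by
    intro χ h f H D hD
    exact th70_class_unique hp hζ0 hK2 H (hA χ) D ⟨DD χ, hdeg χ⟩ hD (hDD χ)
  have hadd : ∀ χ₁ χ₂ : Par, θ (χ₁ + χ₂) = θ χ₁ + θ χ₂ := by
    intro χ₁ χ₂
    have H := th70_adm_mul (K := K) hζp (hA χ₁) (hA χ₂)
    have hD := th70_isDivOf_mul (hA χ₁).2.1 (hA χ₂).2.1 (hDD χ₁) (hDD χ₂)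
    have := heval (χ₁ + χ₂) _ _ H (⟨DD χ₁, hdeg χ₁⟩ + ⟨DD χ₂, hdeg χ₂⟩) hD
    rw [this, Pic0.mk_add]
  refine ⟨AddMonoidHom.mk' θ hadd, ?_, ?_, heval⟩
  · -- injectivity
    rw [injective_iff_map_eq_zero]
    intro χ hχ
    have hχ' : Pic0.mk (⟨DD χ, hdeg χ⟩ : Divisor.degZero (K := K) (F := F)) = 0 := hχ
    unfold Pic0.mk at hχ'
    rw [QuotientAddGroup.eq_zero_iff, AddSubgroup.mem_addSubgroupOf] at hχ'
    obtain ⟨w, hw, hwD⟩ := hχ'
    obtain ⟨a1, a2, a3, a4, a5⟩ := hA χ
    have hwp : w ^ m ≠ 0 := pow_ne_zero _ hw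
    have hord : ∀ v : Place K F, v.ord (ff χ / w ^ m) = 0 := by
      intro v
      rw [div_eq_mul_inv, v.ord_mul a2 (inv_ne_zero hwp), v.ord_inv, th70_ord_pow, ← hDD χ v]
      have := hwD v
      simp only at this
      rw [this]
      ring
    obtain ⟨a, ha⟩ := hconst _ (div_ne_zero a2 hwp) hord
    obtain ⟨b, hb⟩ := hroot a
    have ha0 : a ≠ 0 := by
      rintro rfl
      rw [map_zero] at ha
      exact div_ne_zero a2 hwp ha
    have hb0 : b ≠ 0 := by
      rintro rfl
      rw [zero_pow hp] at hb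
      exact ha0 hb.symm
    have hevb : ev (algebraMap K F b) ≠ 0 := by
      simpa using hb0
    have hevw : ev w ≠ 0 := by simpa using hw
    have hy : (hh χ / (ev w * ev (algebraMap K F b))) ^ m = 1 := by
      have hf : ff χ = algebraMap K F a * w ^ m := by
        rw [← ha, div_mul_cancel₀ _ hwp]
      rw [div_pow, a4, hf, ← hb, map_mul, map_pow, map_pow, map_pow, mul_pow]
      have h1 : ev (algebraMap K F b) ^ m ≠ 0 := pow_ne_zero _ hevb
      have h2 : ev w ^ m ≠ 0 := pow_ne_zero _ hevw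
      field_simp
    obtain ⟨i, -, hi⟩ := hζ.eq_pow_of_pow_eq_one hy
    have hhval : hh χ = ζ ^ i * (ev w * ev (algebraMap K F b)) := by
      rw [hi, div_mul_cancel₀ _ (mul_ne_zero hevw hevb)]
    have hinvh : ∀ g : Gam, g • hh χ = hh χ := by
      intro g
      rw [hhval, smul_mul', smul_mul', smul_pow', hζfix, hfix, hfix]
    have hχ0 : (χ : Additive Gam →+ ZMod m) = 0 := by
      refine DFunLike.ext _ _ fun g => ?_
      have h1 := a3 (Additive.toMul g)
      rw [ofMul_toMul] at h1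
      rw [hinvh] at h1
      have h2 : ζ ^ ((χ : Additive Gam →+ ZMod m) g).val = 1 := by
        have h3 : (ζ ^ ((χ : Additive Gam →+ ZMod m) g).val - 1) * hh χ = 0 := by
          rw [sub_mul, one_mul]
          exact sub_eq_zero.mpr h1.symm
        rcases mul_eq_zero.mp h3 with h4 | h4
        · exact sub_eq_zero.mp h4
        · exact absurd h4 a1
      have h5 := (hζ.pow_eq_one_iff_dvd _).mp h2
      have h6 : ((χ : Additive Gam →+ ZMod m) g).val = 0 :=
        Nat.eq_zero_of_dvd_of_lt h5 (ZMod.val_lt _)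
      rw [AddMonoidHom.zero_apply]
      exact (ZMod.val_eq_zero _).mp h6
    exact Subtype.ext hχ0
  · -- `m`-torsion
    intro χ
    show (m : ℤ) • Pic0.mk (⟨DD χ, hdeg χ⟩ : Divisor.degZero (K := K) (F := F)) = 0
    unfold Pic0.mk
    rw [← QuotientAddGroup.mk_zsmul, QuotientAddGroup.eq_zero_iff, AddSubgroup.mem_addSubgroupOf]
    refine ⟨ff χ, (hA χ).2.1, fun v => ?_⟩
    have := hDD χ v
    simpa using this

end tm86_main

section tm86_red

variable {Gam : Type*} [Group Gam]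

/-- Reduction mod `m` of integral homomorphisms, as an additive map. -/
def tm86_redHom (m : ℕ) : (Additive Gam →+ ℤ) →+ (Additive Gam →+ ZMod m) :=
  AddMonoidHom.compHom (Int.castAddHom (ZMod m))

/-- Reduction mod `m` of an integral homomorphism. -/
def tm86_red (m : ℕ) (x : Additive Gam →+ ℤ) : Additive Gam →+ ZMod m :=
  tm86_redHom m x

@[simp]
theorem tm86_red_apply (m : ℕ) (x : Additive Gam →+ ℤ) (g : Additive Gam) :
    tm86_red m x g = ((x g : ℤ) : ZMod m) := rfl

theorem tm86_red_add (m : ℕ) (x y : Additive Gam →+ ℤ) :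
    tm86_red m (x + y) = tm86_red m x + tm86_red m y :=
  map_add (tm86_redHom m) x y

/-- An integral homomorphism which vanishes mod `m` is `m` times an integral homomorphism. -/
theorem tm86_red_eq_zero (m : ℕ) (x : Additive Gam →+ ℤ) (hx : tm86_red m x = 0) :
    ∃ y : Additive Gam →+ ℤ, x = (m : ℤ) • y := by
  have hdvd : ∀ g : Additive Gam, (m : ℤ) ∣ x g := by
    intro g
    have h := DFunLike.congr_fun hx g
    rw [tm86_red_apply, AddMonoidHom.zero_apply] at h
    exact (ZMod.intCast_zmod_eq_zero_iff_dvd _ _).mp h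
  refine ⟨AddMonoidHom.mk' (fun g => x g / (m : ℤ)) (fun a b => ?_), ?_⟩
  · rw [map_add, Int.add_ediv_of_dvd_left (hdvd a)]
  · refine DFunLike.ext _ _ fun g => ?_
    rw [AddMonoidHom.smul_apply, AddMonoidHom.mk'_apply, smul_eq_mul,
      Int.mul_ediv_cancel' (hdvd g)]

end tm86_red

section tm86_char

variable {M : Type*} [Field M] {Gam : Type*} [Group Gam] [MulSemiringAction Gam M]

/-- `ζ ^ (n mod m) = ζ ^ n` for an `m`-th root of unity. -/
theorem tm86_pow_val (m : ℕ) [NeZero m] {ζ : M} (hζ : ζ ^ m = 1) (n : ℤ) :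
    ζ ^ ((n : ZMod m)).val = ζ ^ n := by
  have hζ0 : ζ ≠ 0 := by
    rintro rfl
    rw [zero_pow (NeZero.ne m)] at hζ
    exact zero_ne_one hζ
  have h1 : (((n : ZMod m)).val : ℤ) = n % (m : ℤ) := ZMod.val_intCast n
  have h2 : ζ ^ n = ζ ^ (n % (m : ℤ) + (m : ℤ) * (n / (m : ℤ))) := by
    rw [Int.emod_add_mul_ediv]
  rw [h2, zpow_add₀ hζ0, zpow_mul, zpow_natCast ζ m, hζ, one_zpow, mul_one, ← h1, zpow_natCast]

/-- The character condition for the reduction of an integral homomorphism, in `zpow` form. -/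
theorem tm86_isChar_iff (m : ℕ) [NeZero m] {ζ : M} (hζ : ζ ^ m = 1) (x : Additive Gam →+ ℤ)
    (h : M) :
    th70_IsChar m ζ (tm86_red m x) h ↔ ∀ g : Gam, g • h = ζ ^ (x (Additive.ofMul g)) * h := by
  unfold th70_IsChar
  refine forall_congr' fun g => ?_
  rw [tm86_red_apply, tm86_pow_val m hζ]

end tm86_char

section tm86_int

variable {K F : Type*} [Field K] [Field F] [Algebra K F]
variable {M : Type*} [Field M] {Gam : Type*} [Group Gam] [MulSemiringAction Gam M]

/-- **THETA-INT (a), (b) + evaluation lemma.**  For a saturated subgroup `L` of integral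
homomorphisms all of whose reductions mod `m` have admissible pairs: an additive map
`θ : L → Pic0 K F` killed by `m`, with kernel `m L`, computed by any admissible pair. -/
theorem tm86_theta_int [HasPrincipalDivisors K F] (ev : F →+* M) (m : ℕ) [NeZero m]
    (ζ : M) (hζ : IsPrimitiveRoot ζ m) (hζfix : ∀ g : Gam, g • ζ = ζ)
    (hfix : ∀ (g : Gam) (f : F), g • ev f = ev f)
    (hK2 : ∀ x : M, x ≠ 0 → (∀ g : Gam, g • x = x) → ∀ f : F, x ^ m = ev f →
      ∃ (w : F) (a : K), f = algebraMap K F a * w ^ m)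
    (hconst : ∀ f : F, f ≠ 0 → (∀ v : Place K F, v.ord f = 0) → ∃ a : K, f = algebraMap K F a)
    (hroot : ∀ a : K, ∃ b : K, b ^ m = a)
    (L : AddSubgroup (Additive Gam →+ ℤ))
    (hsat : ∀ y : Additive Gam →+ ℤ, (m : ℤ) • y ∈ L → y ∈ L)
    (hex : ∀ x ∈ L, ∃ (h : M) (f : F), th70_Adm K ev m ζ (tm86_red m x) h f) :
    ∃ θ : L →+ Pic0 K F, (∀ x, (m : ℤ) • θ x = 0) ∧
      (∀ x : L, θ x = 0 →
        ∃ y : L, (x : Additive Gam →+ ℤ) = (m : ℤ) • (y : Additive Gam →+ ℤ)) ∧
      ∀ (x : L) (h : M) (f : F),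
        th70_Adm K ev m ζ (tm86_red m (x : Additive Gam →+ ℤ)) h f →
        ∀ D : Divisor.degZero (K := K) (F := F), th70_IsDivOf m f (D : Divisor K F) →
          θ x = Pic0.mk D := by
  classical
  obtain ⟨Θ, hinj, htors, heval⟩ := tm86_exists_theta (K := K) ev m ζ hζ hζfix hfix hK2 hconst
    hroot (L.map (tm86_redHom m)) (by
      rintro χ ⟨x, hx, rfl⟩
      exact hex x hx)
  refine ⟨Θ.comp ((tm86_redHom m).addSubgroupMap L), fun x => htors _, fun x hx => ?_,
    fun x h f H D hD => ?_⟩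
  · have h0 : (tm86_redHom m).addSubgroupMap L x = 0 := by
      apply hinj
      rw [map_zero]
      exact hx
    have h1 : tm86_red m (x : Additive Gam →+ ℤ) = 0 := congrArg Subtype.val h0
    obtain ⟨y, hy⟩ := tm86_red_eq_zero m _ h1
    exact ⟨⟨y, hsat y (hy ▸ x.2)⟩, hy⟩
  · exact heval ((tm86_redHom m).addSubgroupMap L x) h f H D hD

/-- **THETA-INT (c): Hecke equivariance** from the pair-level Hecke step (the hypothesis `hT` of
`th70_hecke_of` at modulus `m`, on reductions of integral classes). -/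
theorem tm86_hecke_int {ev : F →+* M} {m : ℕ} {ζ : M}
    {L : AddSubgroup (Additive Gam →+ ℤ)}
    (hex : ∀ x ∈ L, ∃ (h : M) (f : F), th70_Adm K ev m ζ (tm86_red m x) h f)
    (θ : L →+ Pic0 K F)
    (heval : ∀ (x : L) (h : M) (f : F),
      th70_Adm K ev m ζ (tm86_red m (x : Additive Gam →+ ℤ)) h f →
        ∀ D : Divisor.degZero (K := K) (F := F), th70_IsDivOf m f (D : Divisor K F) →
          θ x = Pic0.mk D)
    (hm : m ≠ 0) [HasPrincipalDivisors K F]
    (T : Pic0 K F →+ Pic0 K F) (T' : (Additive Gam →+ ZMod m) → (Additive Gam →+ ZMod m))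
    (hT : ∀ x ∈ L, ∀ (h : M) (f : F), th70_Adm K ev m ζ (tm86_red m x) h f →
      ∀ D : Divisor.degZero (K := K) (F := F), th70_IsDivOf m f (D : Divisor K F) →
        ∃ (h' : M) (f' : F) (D' : Divisor.degZero (K := K) (F := F)),
          th70_Adm K ev m ζ (T' (tm86_red m x)) h' f' ∧ th70_IsDivOf m f' (D' : Divisor K F) ∧
            T (Pic0.mk D) = Pic0.mk D')
    (x x' : L)
    (hx' : tm86_red m (x' : Additive Gam →+ ℤ) = T' (tm86_red m (x : Additive Gam →+ ℤ))) :
    T (θ x) = θ x' := by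
  obtain ⟨h, f, H⟩ := hex x.1 x.2
  obtain ⟨D, hD, hdeg⟩ := th70_exists_div (K := K) hm H.2.1 H.2.2.2.2
  obtain ⟨h', f', D', H', hD', hTD⟩ := hT x.1 x.2 h f H ⟨D, hdeg⟩ hD
  rw [heval x h f H ⟨D, hdeg⟩ hD, hTD]
  rw [← hx'] at H'
  exact (heval x' h' f' H' D' hD').symm

/-- An admissible pair at modulus `m * d` gives an admissible pair at modulus `m`. -/
theorem tm86_adm_pow {ev : F →+* M} (m d : ℕ) [NeZero m] [NeZero d] {ζ : M}
    (hζ : ζ ^ (m * d) = 1) {x : Additive Gam →+ ℤ} {h : M} {f : F}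
    (H : th70_Adm K ev (m * d) ζ (tm86_red (m * d) x) h f) :
    th70_Adm K ev m (ζ ^ d) (tm86_red m x) (h ^ d) f := by
  have : NeZero (m * d) := ⟨mul_ne_zero (NeZero.ne m) (NeZero.ne d)⟩
  obtain ⟨a1, a2, a3, a4, a5⟩ := H
  have hζd : (ζ ^ d) ^ m = 1 := by rw [← pow_mul, mul_comm d m, hζ]
  refine ⟨pow_ne_zero _ a1, a2, ?_, ?_, fun v => ?_⟩
  · rw [tm86_isChar_iff m hζd]
    rw [tm86_isChar_iff (m * d) hζ] at a3
    intro g
    rw [smul_pow', a3 g, mul_pow]
    congr 1
    rw [← zpow_natCast (ζ ^ x (Additive.ofMul g)) d, ← zpow_mul, ← zpow_natCast ζ d,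
      ← zpow_mul, mul_comm]
  · rw [← pow_mul, mul_comm d m, a4]
  · refine dvd_trans ?_ (a5 v)
    push_cast
    exact dvd_mul_right _ _

/-- **Level compatibility**: if `θ` (modulus `m * d`, root `ζ`) and `θ'` (modulus `m`, root
`ζ ^ d`) both satisfy the evaluation lemma, then `θ' = d • θ`. -/
theorem tm86_compat [HasPrincipalDivisors K F] {ev : F →+* M} (m d : ℕ) [NeZero m] [NeZero d]
    {ζ : M} (hζ : ζ ^ (m * d) = 1) {L : AddSubgroup (Additive Gam →+ ℤ)}
    (hex : ∀ x ∈ L, ∃ (h : M) (f : F), th70_Adm K ev (m * d) ζ (tm86_red (m * d) x) h f)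
    (θ θ' : L →+ Pic0 K F)
    (heval : ∀ (x : L) (h : M) (f : F),
      th70_Adm K ev (m * d) ζ (tm86_red (m * d) (x : Additive Gam →+ ℤ)) h f →
        ∀ D : Divisor.degZero (K := K) (F := F), th70_IsDivOf (m * d) f (D : Divisor K F) →
          θ x = Pic0.mk D)
    (heval' : ∀ (x : L) (h : M) (f : F),
      th70_Adm K ev m (ζ ^ d) (tm86_red m (x : Additive Gam →+ ℤ)) h f →
        ∀ D : Divisor.degZero (K := K) (F := F), th70_IsDivOf m f (D : Divisor K F) →
          θ' x = Pic0.mk D)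
    (x : L) : θ' x = (d : ℤ) • θ x := by
  have hmd : m * d ≠ 0 := mul_ne_zero (NeZero.ne m) (NeZero.ne d)
  obtain ⟨h, f, H⟩ := hex x.1 x.2
  obtain ⟨D, hD, hdeg⟩ := th70_exists_div (K := K) hmd H.2.1 H.2.2.2.2
  have hD' : th70_IsDivOf m f
      (((d : ℤ) • (⟨D, hdeg⟩ : Divisor.degZero (K := K) (F := F)) :
        Divisor.degZero (K := K) (F := F)) : Divisor K F) := by
    intro v
    have := hD v
    push_cast at this
    rw [AddSubgroup.coe_zsmul, Finsupp.smul_apply, smul_eq_mul, ← this]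
    ring
  rw [heval' x _ f (tm86_adm_pow m d hζ H) _ hD', heval x h f H ⟨D, hdeg⟩ hD]
  unfold Pic0.mk
  rw [QuotientAddGroup.mk_zsmul]

end tm86_int

end Fermat.Agent.S42
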