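import Fermat.Agent.S42.ThetaIntFinal86
import Fermat.Agent.S42.XMod87
import Fermat.Agent.S42.K2CInst5
import Fermat.Agent.S42.HeckeHKMod10

/-!
# THETA-Z, hypothesis-free, at every modulus `m ≥ 1` (row ZC, twin seat helper86)

The three analytic statements of `ThetaIntFinal86` at an arbitrary modulus `m`, discharged from
main:

* `tzc86_X`   : `tm86_X N m`   from `xm87_X_int` (helper87) + `tm86_isChar_iff`;
* `tzc86_K2C` : `tm86_K2C N m` = `gk5_K2C_pos` (helper5);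
* `tzc86_HK`  : `tm86_HK φ N m` from `hk10_HK_mod` (helper10).

Conclusions, with `L := parabolicHoms ℤ (Gamma0 N) ℤ`, for EVERY `N ≥ 1`:

* `tzc86_theta_int` : `θ : L →+ JZero N` at modulus `m` with (a) `m • θ = 0`, (b) kernel `m L`,
  (c) Hecke equivariance at primes `ℓ ∤ N m`, and the evaluation clause;
* `tzc86_A` : the same in the literal shape (A) of the S31 registry;
* `tzc86_family` : for EVERY prime `p` (2, 3 and `p ∣ N` included) the compatible family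
  `θ n` at the moduli `p ^ n` with (a)-(d), `p • θ (n + 1) = θ n`;
* `tzc86_family_A` : the same in the literal shape of the S30 registry.
-/

set_option autoImplicit false

open CongruenceSubgroup ModularCurve ModularCurve.Period AlgebraicCurve UpperHalfPlane
open scoped MatrixGroups

namespace Fermat.Agent.S42

open Fermat.Agent.S16 Fermat.Agent.S37

section tzc86

variable (φ : AlgebraicClosure ℚ →+* ℂ) (N : ℕ) [NeZero N]

/-- (X) at an arbitrary modulus, on integral parabolic classes. -/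
theorem tzc86_X (m : ℕ) [NeZero m] : tm86_X N m := by
  intro x hx
  have hζ : th70_zeta m ^ m = 1 := (th70_zeta_isPrimitiveRoot m (NeZero.ne m)).pow_eq_one
  obtain ⟨h, h0, hchar, u, hu, hdvd⟩ := xm87_X_int N m x hx
  exact ⟨h, h0, (tm86_isChar_iff m hζ x h).mp hchar, u, hu, hdvd⟩

/-- (K2) over `ℂ` at an arbitrary modulus. -/
theorem tzc86_K2C (m : ℕ) [NeZero m] : tm86_K2C N m :=
  gk5_K2C_pos N m (Nat.pos_of_ne_zero (NeZero.ne m))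

/-- The Hecke step on roots at an arbitrary modulus. -/
theorem tzc86_HK (m : ℕ) [NeZero m] : tm86_HK φ N m := by
  intro ℓ _ hℓ hℓNm x _ h f h0 _ hchar hpow
  exact hk10_HK_mod φ N m ℓ hℓ (fun hd => hℓNm (Dvd.dvd.mul_right hd m)) (tm86_red m x) h f h0
    hchar hpow

/-- **THETA-Z at modulus `m`, hypothesis-free.** -/
theorem tzc86_theta_int (m : ℕ) [NeZero m] :
    ∃ θ : ↥(parabolicHoms ℤ (Gamma0 N) ℤ) →+ JZero N,
      (∀ x, (m : ℤ) • θ x = 0) ∧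
      (∀ x, θ x = 0 → ∃ y : ↥(parabolicHoms ℤ (Gamma0 N) ℤ),
        (x : Additive (Gamma0 N) →+ ℤ) = (m : ℤ) • (y : Additive (Gamma0 N) →+ ℤ)) ∧
      (∀ ℓ : Nat.Primes, ¬ (ℓ : ℕ) ∣ N * m → ∀ x : ↥(parabolicHoms ℤ (Gamma0 N) ℤ),
        heckeOperatorBar N ℓ (θ x) =
          θ ⟨heckeHom N ℓ ℤ x, hpg88_mem_parabolicHoms_prime ℓ.2 ℤ x.2⟩) ∧
      tm86_Eval (m := m) φ θ :=
  tm86_final_theta_int φ N m (tzc86_X N m) (tzc86_K2C N m) (tzc86_HK φ N m)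

/-- **(A) of the S31 registry, literally, hypothesis-free**: `N ≥ 1` and `m ≥ 1` arbitrary. -/
theorem tzc86_A (m : ℕ) [NeZero m] :
    ∃ Θ : ↥(parabolicHoms ℤ (Gamma0 N) ℤ) →+ JZero N,
      (∀ χ, (m : ℤ) • Θ χ = 0) ∧
      (∀ χ, Θ χ = 0 → ∃ χ' : ↥(parabolicHoms ℤ (Gamma0 N) ℤ), χ = m • χ') ∧
      ∀ ℓ : Nat.Primes, ¬ (ℓ : ℕ) ∣ N * m → ∀ χ : ↥(parabolicHoms ℤ (Gamma0 N) ℤ),
        ∃ hχ : heckeHom N ℓ ℤ (χ : Additive ↥(Gamma0 N) →+ ℤ) ∈ parabolicHoms ℤ (Gamma0 N) ℤ,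
          heckeOperatorBar N ℓ (Θ χ) = Θ ⟨heckeHom N ℓ ℤ χ, hχ⟩ := by
  obtain ⟨θ, h1, h2, h3, -⟩ := tzc86_theta_int Fermat.Agent.S24.phi N m
  refine ⟨θ, h1, fun χ hχ => ?_, fun ℓ hℓ χ => ⟨_, h3 ℓ hℓ χ⟩⟩
  obtain ⟨y, hy⟩ := h2 χ hχ
  refine ⟨y, Subtype.ext ?_⟩
  rw [hy, Submodule.coe_smul_of_tower, natCast_zsmul]

/-- **THETA-Z (a)-(d) of Directive 12, hypothesis-free**: for every `N ≥ 1` and EVERY prime `p`
the compatible family at the moduli `p ^ n`. -/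
theorem tzc86_family (p : ℕ) (hp : p.Prime) :
    ∃ θ : ℕ → (↥(parabolicHoms ℤ (Gamma0 N) ℤ) →+ JZero N),
      (∀ n x, ((p ^ n : ℕ) : ℤ) • θ n x = 0) ∧
      (∀ n x, θ n x = 0 → ∃ y : ↥(parabolicHoms ℤ (Gamma0 N) ℤ),
        (x : Additive (Gamma0 N) →+ ℤ) = ((p ^ n : ℕ) : ℤ) • (y : Additive (Gamma0 N) →+ ℤ)) ∧
      (∀ (n : ℕ) (ℓ : Nat.Primes), ¬ (ℓ : ℕ) ∣ N * p →
        ∀ x : ↥(parabolicHoms ℤ (Gamma0 N) ℤ),
        heckeOperatorBar N ℓ (θ n x) =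
          θ n ⟨heckeHom N ℓ ℤ x, hpg88_mem_parabolicHoms_prime ℓ.2 ℤ x.2⟩) ∧
      (∀ n x, (p : ℤ) • θ (n + 1) x = θ n x) :=
  have hpn : ∀ n : ℕ, NeZero (p ^ n) := fun n => ⟨pow_ne_zero n hp.ne_zero⟩
  tm86_final_family Fermat.Agent.S24.phi N p hp (fun n => have := hpn n; tzc86_X N (p ^ n))
    (fun n => have := hpn n; tzc86_K2C N (p ^ n))
    (fun n => have := hpn n; tzc86_HK Fermat.Agent.S24.phi N (p ^ n))

/-- **The THETA-Z family in the literal shape of the S30 registry** (conclusion of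
`thz31_I_Theta_family`), hypothesis-free, every `N ≥ 1`, every prime `p`. -/
theorem tzc86_family_A (p : ℕ) (hp : p.Prime) :
    ∃ Θ : ℕ → (↥(parabolicHoms ℤ (Gamma0 N) ℤ) →+ JZero N),
      (∀ n χ, ((p ^ n : ℕ) : ℤ) • Θ n χ = 0) ∧
      (∀ n χ, Θ n χ = 0 → ∃ χ' : ↥(parabolicHoms ℤ (Gamma0 N) ℤ), χ = (p ^ n) • χ') ∧
      (∀ (n : ℕ) (ℓ : Nat.Primes), ¬ (ℓ : ℕ) ∣ N * p ^ n →
        ∀ χ : ↥(parabolicHoms ℤ (Gamma0 N) ℤ),
          ∃ hχ : heckeHom N ℓ ℤ χ ∈ parabolicHoms ℤ (Gamma0 N) ℤ,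
            heckeOperatorBar N ℓ (Θ n χ) = Θ n ⟨heckeHom N ℓ ℤ χ, hχ⟩) ∧
      ∀ n χ, (p : ℤ) • Θ (n + 1) χ = Θ n χ := by
  have hpn : ∀ n : ℕ, NeZero (p ^ n) := fun n => ⟨pow_ne_zero n hp.ne_zero⟩
  have key : ∀ n : ℕ, ∃ θ : ↥(parabolicHoms ℤ (Gamma0 N) ℤ) →+ JZero N,
      (∀ x, ((p ^ n : ℕ) : ℤ) • θ x = 0) ∧
      (∀ x, θ x = 0 → ∃ y : ↥(parabolicHoms ℤ (Gamma0 N) ℤ),
        (x : Additive (Gamma0 N) →+ ℤ) = ((p ^ n : ℕ) : ℤ) • (y : Additive (Gamma0 N) →+ ℤ)) ∧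
      (∀ ℓ : Nat.Primes, ¬ (ℓ : ℕ) ∣ N * p ^ n → ∀ x : ↥(parabolicHoms ℤ (Gamma0 N) ℤ),
        heckeOperatorBar N ℓ (θ x) =
          θ ⟨heckeHom N ℓ ℤ x, hpg88_mem_parabolicHoms_prime ℓ.2 ℤ x.2⟩) ∧
      tm86_Eval (m := p ^ n) Fermat.Agent.S24.phi θ := fun n =>
    have := hpn n
    tzc86_theta_int Fermat.Agent.S24.phi N (p ^ n)
  choose θ h1 h2 h3 h4 using key
  refine ⟨θ, h1, fun n χ hχ => ?_, fun n ℓ hℓ χ => ⟨_, h3 n ℓ hℓ χ⟩, fun n x => ?_⟩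
  · obtain ⟨y, hy⟩ := h2 n χ hχ
    refine ⟨y, Subtype.ext ?_⟩
    rw [hy, Submodule.coe_smul_of_tower, natCast_zsmul]
  · have := hpn n
    have : NeZero p := ⟨hp.ne_zero⟩
    have hX' : tm86_X N (p ^ n * p) := by
      rw [← pow_succ]
      have := hpn (n + 1)
      exact tzc86_X N (p ^ (n + 1))
    have heval : tm86_Eval (m := p ^ n * p) Fermat.Agent.S24.phi (θ (n + 1)) := by
      rw [← pow_succ]
      exact h4 (n + 1)
    exact (tm86_final_compat Fermat.Agent.S24.phi N (p ^ n) p hX' (θ (n + 1)) (θ n) heval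
      (h4 n) x).symm

end tzc86

end Fermat.Agent.S42
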