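/-
S42 / Project 4, row `W1-Assembly`, binding shape of S42 RULING 2 (R2) (helper28).

(I-Theta) with a domain `𝒜 ⊇ Par_N` (an additive subgroup of `Hom(Γ₀(N), ℤ/p)` stable under the
Hecke operators, e.g. the characters admitting a Kummer pair) + (I-EIG) ⟹ (W1).
Proof: restrict `Θ` to `Par_N` (Hecke operators preserve `Par_N`: `w1t28_heckeHom_parabolic`)
and apply `w1t28_main`.
-/
import Mathlib
import Fermat.Agent.S42.W1Theta28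

set_option autoImplicit false

open CongruenceSubgroup ModularCurve ModularCurve.Period AlgebraicCurve
open scoped TensorProduct MatrixGroups

namespace Fermat.Agent.S42

open Fermat.Agent.S16

section Main

variable {N : ℕ} [NeZero N] {p : ℕ} [Fact p.Prime] {k0 : Type*} [Field k0] [Algebra (ZMod p) k0]

/-- **(W1) from (I-Theta) in the shape of Ruling 2 + (I-EIG)**, abstract eigenvalues. -/
theorem w1ta28_main
    (hTheta : ∃ (𝒜 : AddSubgroup (Additive (Gamma0 N) →+ ZMod p)) (Θ : ↥𝒜 →+ JZero N),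
      (∀ χ, χ ∈ w1a28_Par N p → χ ∈ 𝒜) ∧ Function.Injective Θ ∧
      (∀ χ, (p : ℤ) • Θ χ = 0) ∧
      ∀ ℓ : Nat.Primes, ¬ (ℓ : ℕ) ∣ N * p → ∀ χ : ↥𝒜,
        ∃ h : heckeHom N ℓ (ZMod p) (χ : Additive (Gamma0 N) →+ ZMod p) ∈ 𝒜,
          heckeOperatorBar N ℓ (Θ χ) = Θ ⟨_, h⟩)
    (lam : Nat.Primes → k0)
    (heig : ∃ x : k0 ⊗[ZMod p] w1a28_Par N p, x ≠ 0 ∧
      ∀ ℓ : Nat.Primes, ¬ (ℓ : ℕ) ∣ N * p →
        (w1a28_TX N p ℓ).baseChange k0 ((w1a28_Par N p).subtype.baseChange k0 x)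
          = lam ℓ • (w1a28_Par N p).subtype.baseChange k0 x) :
    ∃ y : k0 ⊗[ZMod p] w1a28_J N p, y ≠ 0 ∧
      ∀ ℓ : Nat.Primes, ¬ (ℓ : ℕ) ∣ N * p →
        (w1a28_TJ N p ℓ).baseChange k0 y = lam ℓ • y := by
  obtain ⟨𝒜, Θ, hle, hΘ, htors, hhec⟩ := hTheta
  -- the inclusion `Par_N → 𝒜`
  let inc : w1a28_Par N p →+ 𝒜 :=
    { toFun := fun χ => ⟨χ.1, hle χ.1 χ.2⟩
      map_zero' := rfl
      map_add' := fun _ _ => rfl }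
  have hinc : Function.Injective inc := fun χ χ' h =>
    Subtype.ext (congrArg (fun c : 𝒜 => (c : Additive (Gamma0 N) →+ ZMod p)) h)
  refine w1t28_main (Θ.comp inc) (hΘ.comp hinc) (fun χ => htors (inc χ)) ?_ lam heig
  intro ℓ hℓ χ χ' hχ'
  obtain ⟨h, hh⟩ := hhec ℓ hℓ (inc χ)
  show heckeOperatorBar N ℓ (Θ (inc χ)) = Θ (inc χ')
  rw [hh]
  exact congrArg Θ (Subtype.ext hχ'.symm)

/-- The same for an eigenform: eigenvalues `φ (a_ℓ)`. -/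
theorem w1ta28_main_eigenform
    (hTheta : ∃ (𝒜 : AddSubgroup (Additive (Gamma0 N) →+ ZMod p)) (Θ : ↥𝒜 →+ JZero N),
      (∀ χ, χ ∈ w1a28_Par N p → χ ∈ 𝒜) ∧ Function.Injective Θ ∧
      (∀ χ, (p : ℤ) • Θ χ = 0) ∧
      ∀ ℓ : Nat.Primes, ¬ (ℓ : ℕ) ∣ N * p → ∀ χ : ↥𝒜,
        ∃ h : heckeHom N ℓ (ZMod p) (χ : Additive (Gamma0 N) →+ ZMod p) ∈ 𝒜,
          heckeOperatorBar N ℓ (Θ χ) = Θ ⟨_, h⟩)
    (f : CuspForm (Gamma0 N) 2) (φ : integralClosure ℤ ℂ →+* k0)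
    (heig : ∃ x : k0 ⊗[ZMod p] w1a28_Par N p, x ≠ 0 ∧
      ∀ ℓ : Nat.Primes, ¬ (ℓ : ℕ) ∣ N * p →
        ∃ a : integralClosure ℤ ℂ, (a : ℂ) = ModularFormClass.qCoeff (⇑f) ℓ ∧
          (w1a28_TX N p ℓ).baseChange k0 ((w1a28_Par N p).subtype.baseChange k0 x)
            = φ a • (w1a28_Par N p).subtype.baseChange k0 x) :
    ∃ y : k0 ⊗[ZMod p] w1a28_J N p, y ≠ 0 ∧
      ∀ ℓ : Nat.Primes, ¬ (ℓ : ℕ) ∣ N * p →
        ∃ a : integralClosure ℤ ℂ, (a : ℂ) = ModularFormClass.qCoeff (⇑f) ℓ ∧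
          (w1a28_TJ N p ℓ).baseChange k0 y = φ a • y := by
  classical
  obtain ⟨x, hx0, hx⟩ := heig
  -- choose the eigenvalues
  let lam : Nat.Primes → k0 := fun ℓ =>
    if hℓ : ¬ (ℓ : ℕ) ∣ N * p then φ (hx ℓ hℓ).choose else 0
  have hlam : ∀ ℓ : Nat.Primes, ∀ hℓ : ¬ (ℓ : ℕ) ∣ N * p, lam ℓ = φ (hx ℓ hℓ).choose :=
    fun ℓ hℓ => dif_pos hℓ
  obtain ⟨y, hy0, hy⟩ := w1ta28_main hTheta lam
    ⟨x, hx0, fun ℓ hℓ => by rw [hlam ℓ hℓ]; exact (hx ℓ hℓ).choose_spec.2⟩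
  exact ⟨y, hy0, fun ℓ hℓ => ⟨(hx ℓ hℓ).choose, (hx ℓ hℓ).choose_spec.1, by
    rw [← hlam ℓ hℓ]; exact hy ℓ hℓ⟩⟩

end Main

end Fermat.Agent.S42
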