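/-
S42 / S29 project (helper38): frozen-statement wrappers, part 2.

* `wr38_trace_det_of_charpoly` : trace and determinant of an endomorphism of a plane from its
  characteristic polynomial.
* `wr38_frey_level` : the Galois action on the `p`-torsion of the Frey curve factors through a
  finite level.
* `wr38_common_level`, `wr38_package` : a common finite normal level of two representations,
  packaged as a number field in the shape of the frozen statement.
* `wr38_S42` : the frozen statement S42 from the core statement `wr38_CoreAlgAt P.p`.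
-/
import Mathlib
import Fermat.Prelude.Def_GaloisRep_Residual
import Fermat.Prelude.Def_FreyPackage_EigenformResidualAttachment
import Fermat.Agent.Lib.FreyModel
import Fermat.Agent.S41.TorsCard83
import Fermat.Agent.S42.Wrap38

set_option autoImplicit false

open Polynomial WeierstrassCurve WeierstrassCurve.Affine WeierstrassCurve.Affine.Point

namespace Fermat.Agent.S42

local notation "Zb" => integralClosure ℤ ℂ
local notation "Qb" => AlgebraicClosure ℚ
local notation "GQ" => (AlgebraicClosure ℚ ≃ₐ[ℚ] AlgebraicClosure ℚ)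

/-! ### Linear algebra -/

/-- trace and determinant of an endomorphism of a plane from its characteristic polynomial -/
theorem wr38_trace_det_of_charpoly {K V : Type*} [Field K] [AddCommGroup V] [Module K V]
    [Module.Finite K V] (hV : Module.finrank K V = 2) (f : Module.End K V) (t d : K)
    (hf : LinearMap.charpoly f = X ^ 2 - C t * X + C d) :
    LinearMap.trace K V f = t ∧ LinearMap.det f = d := by
  constructor
  · let b := Module.finBasis K V
    have h1 : LinearMap.trace K V f = (LinearMap.toMatrix b b f).trace :=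
      LinearMap.trace_eq_matrix_trace K b f
    have h2 : (LinearMap.toMatrix b b f).charpoly = X ^ 2 - C t * X + C d := by
      rw [LinearMap.charpoly_toMatrix f b, hf]
    have : Nonempty (Fin (Module.finrank K V)) := by rw [hV]; exact ⟨0⟩
    rw [h1, Matrix.trace_eq_neg_charpoly_coeff, h2, Fintype.card_fin, hV]
    simp [Polynomial.coeff_X_pow, Polynomial.coeff_C]
  · rw [LinearMap.det_eq_sign_charpoly_coeff, hV, hf]
    simp [Polynomial.coeff_X_pow, Polynomial.coeff_X, Polynomial.coeff_C]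

/-! ### `ℚ̄` over `ℚ` -/

theorem wr38_isAlgClosure_rat : IsAlgClosure ℚ Qb := by
  have h : (DivisionRing.toRatAlgebra : Algebra ℚ Qb) = AlgebraicClosure.instAlgebra ℚ :=
    Subsingleton.elim _ _
  rw [h]
  infer_instance

theorem wr38_normal_rat : Normal ℚ Qb :=
  haveI := wr38_isAlgClosure_rat
  IsAlgClosure.normal ℚ Qb

theorem wr38_isAlgebraic_rat : Algebra.IsAlgebraic ℚ Qb :=
  haveI := wr38_isAlgClosure_rat
  IsAlgClosure.isAlgebraic

/-! ### The finite level of the Frey representation -/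

/-- the coordinates of a point -/
def wr38_coords {F : Type*} [Field F] {W' : Affine F} : W'.Point → Set F
  | .zero => ∅
  | .some x y _ => {x, y}

theorem wr38_coords_finite {F : Type*} [Field F] {W' : Affine F} (P : W'.Point) :
    (wr38_coords P).Finite := by
  cases P with
  | zero => exact Set.finite_empty
  | some x y h => exact Set.toFinite {x, y}

/-- an automorphism fixing the coordinates of a point fixes the point -/
theorem wr38_smul_eq_of_fix (E : WeierstrassCurve ℚ) (g : GQ) (Q : (E⁄Qb).Point)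
    (hc : ∀ x ∈ wr38_coords Q, g x = x) : g • Q = Q := by
  cases Q with
  | zero => rfl
  | some x y h =>
    have hx : g x = x := hc x (by simp [wr38_coords])
    have hy : g y = y := hc y (by simp [wr38_coords])
    rw [algEquiv_smul_def, Point.map_some]
    rw [Point.some.injEq]
    exact ⟨hx, hy⟩

/-- the Galois action on the `p`-torsion of the Frey curve factors through a finite level -/
theorem wr38_frey_level (P : FreyPackage) :
    GaloisFactorsThroughFiniteLevel
      (galoisRepModuleEnd (S := ℚ) (K := Qb) P.freyCurve P.p) := by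
  have : P.freyCurve.IsElliptic :=
    ⟨isUnit_iff_ne_zero.mpr (Fermat.Agent.Lib.freyCurve_Δ_ne_zero P)⟩
  have hp2 : P.p ≠ 2 := by have := P.hp5; omega
  obtain ⟨hfin, -⟩ := Fermat.Agent.S41.tc83_card_torsion P.freyCurve P.pp hp2
  set S : Set Qb := ⋃ Q : Submodule.torsionBy ℤ (P.freyCurve⁄Qb).Point P.p,
    wr38_coords (Q : (P.freyCurve⁄Qb).Point) with hS
  have hSfin : S.Finite := Set.finite_iUnion fun _ => wr38_coords_finite _
  have := wr38_isAlgebraic_rat
  refine ⟨IntermediateField.adjoin ℚ S, ?_, fun σ hσ => ?_⟩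
  · have : Finite S := hSfin.to_subtype
    exact IntermediateField.finiteDimensional_adjoin fun x _ =>
      (Algebra.IsAlgebraic.isAlgebraic x).isIntegral
  · apply LinearMap.ext
    intro Q
    rw [galoisRepModuleEnd_apply]
    apply Subtype.ext
    show σ • (Q : (P.freyCurve⁄Qb).Point) = (Q : (P.freyCurve⁄Qb).Point)
    exact wr38_smul_eq_of_fix P.freyCurve σ _ fun x hx =>
      hσ x (IntermediateField.subset_adjoin ℚ S (Set.mem_iUnion.mpr ⟨Q, hx⟩))

/-! ### Common finite normal level, packaged as a number field -/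

/-- two finite levels have a common finite normal level -/
theorem wr38_common_level {M₁ M₂ : Type} [MulOneClass M₁] [MulOneClass M₂]
    (ρ₁ : GQ →* M₁) (ρ₂ : GQ →* M₂) (h₁ : GaloisFactorsThroughFiniteLevel ρ₁)
    (h₂ : GaloisFactorsThroughFiniteLevel ρ₂) :
    ∃ L : IntermediateField ℚ Qb, FiniteDimensional ℚ L ∧ Normal ℚ L ∧
      ∀ σ : GQ, (∀ x ∈ L, σ x = x) → ρ₁ σ = 1 ∧ ρ₂ σ = 1 := by
  obtain ⟨L₁, hL₁, h₁⟩ := h₁
  obtain ⟨L₂, hL₂, h₂⟩ := h₂
  have := wr38_normal_rat
  have hfin : FiniteDimensional ℚ (L₁ ⊔ L₂ : IntermediateField ℚ Qb) :=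
    IntermediateField.finiteDimensional_sup L₁ L₂
  refine ⟨IntermediateField.normalClosure ℚ (L₁ ⊔ L₂ : IntermediateField ℚ Qb) Qb,
    normalClosure.is_finiteDimensional ℚ _ Qb, normalClosure.normal ℚ _ Qb, fun σ hσ => ?_⟩
  have hle : (L₁ ⊔ L₂ : IntermediateField ℚ Qb) ≤
      IntermediateField.normalClosure ℚ (L₁ ⊔ L₂ : IntermediateField ℚ Qb) Qb :=
    IntermediateField.le_normalClosure _
  exact ⟨h₁ σ fun x hx => hσ x (hle (le_sup_left (a := L₁) (b := L₂) hx)),
    h₂ σ fun x hx => hσ x (hle (le_sup_right (a := L₁) (b := L₂) hx))⟩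

/-- a finite normal subextension of `ℚ̄`, packaged as a number field in the shape of the frozen
statement S42 -/
theorem wr38_package (L : IntermediateField ℚ Qb) (hfin : FiniteDimensional ℚ L)
    (hnorm : Normal ℚ L) :
    ∃ (F : Type) (_ : Field F) (_ : NumberField F) (_ : IsGalois ℚ F) (_ : Algebra F Qb)
      (_ : IsScalarTower ℚ F Qb),
      ∀ σ : GQ, σ ∈ (AlgEquiv.restrictNormalHom (F := ℚ) (K₁ := Qb) F).ker →
        ∀ x ∈ L, σ x = x := by
  have hnf : NumberField L := by
    refine { to_charZero := inferInstance, to_finiteDimensional := ?_ }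
    convert hfin
  have hgal : IsGalois ℚ L := by
    have hn : Normal ℚ L := by
      convert hnorm
    exact { }
  have htower : IsScalarTower ℚ L Qb := by
    refine ⟨fun q x y => ?_⟩
    rw [Algebra.smul_def q x, Algebra.smul_def x y, Algebra.smul_def, eq_ratCast, map_mul,
      map_ratCast, mul_assoc]
    exact (Rat.smul_def q _).symm
  refine ⟨L, inferInstance, hnf, hgal, inferInstance, htower, fun σ hσ x hx => ?_⟩
  have h1 : AlgEquiv.restrictNormalHom (F := ℚ) (K₁ := Qb) L σ = 1 := hσ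
  have h2 := AlgEquiv.restrictNormal_commutes σ L ⟨x, hx⟩
  have h3 : σ.restrictNormal L = 1 := h1
  rw [h3] at h2
  exact h2.symm

/-! ### The S42 wrapper -/

/-- **S42 from the core statement** (frozen statement of S42, verbatim conclusion). -/
theorem wr38_S42 (P : FreyPackage) (hcore : wr38_CoreAlgAt P.p) :
    ∀ M : ℕ, 0 < M → P.EigenformResidualAttachmentAt M := by
  intro M hM g hg 𝔪 h𝔪 hp𝔪
  have := h𝔪
  let : Field (Zb ⧸ 𝔪) := Ideal.Quotient.field 𝔪
  have : IsAlgClosed (Zb ⧸ 𝔪) := wr38_isAlgClosed_quot 𝔪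
  have hchar : CharP (Zb ⧸ 𝔪) P.p := by
    have : Fact P.p.Prime := ⟨P.pp⟩
    refine (CharP.charP_iff_prime_eq_zero P.pp).mpr ?_
    have h0 : Ideal.Quotient.mk 𝔪 (P.p : Zb) = 0 := Ideal.Quotient.eq_zero_iff_mem.mpr hp𝔪
    rwa [map_natCast] at h0
  obtain ⟨ρ, hatt, -⟩ := hcore M hM g hg (Zb ⧸ 𝔪) (Ideal.Quotient.mk 𝔪)
  obtain ⟨L, hLfin, hLnorm, hL⟩ := wr38_common_level
    (galoisRepModuleEnd (S := ℚ) (K := Qb) P.freyCurve P.p) ρ.ρ (wr38_frey_level P)
    ρ.factorsThroughFiniteLevel
  obtain ⟨F, iF, iNF, iGal, iAlg, iTower, hF⟩ := wr38_package L hLfin hLnorm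
  have hne : ∀ ℓ : ℕ, ℓ.Prime → ℓ ≠ P.p → ((ℓ : ℕ) : Zb ⧸ 𝔪) ≠ 0 := by
    intro ℓ hℓ hℓp h0
    have hdvd : P.p ∣ ℓ := (CharP.cast_eq_zero_iff (Zb ⧸ 𝔪) P.p ℓ).mp h0
    exact hℓp ((Nat.prime_dvd_prime_iff_eq P.pp hℓ).mp hdvd).symm
  refine ⟨Zb ⧸ 𝔪, inferInstance, ZMod.algebra (Zb ⧸ 𝔪) P.p, ρ.V, inferInstance, inferInstance,
    ρ.ρ, Ideal.Quotient.mk 𝔪, F, iF, iNF, iGal, iAlg, iTower, ?_, ρ.finrank_eq, ?_, ?_, ?_⟩
  · rw [Ideal.mk_ker]
  · intro σ hσ
    have h := hL σ (hF σ hσ)
    exact ⟨h.1, h.2⟩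
  · intro ℓ hℓ hℓM hℓp A hA τ hτ
    obtain ⟨a, ha, hchar⟩ := hatt ℓ hℓ hℓM (hne ℓ hℓ hℓp) A hA τ hτ
    exact ⟨a, ha, (wr38_trace_det_of_charpoly ρ.finrank_eq (ρ.ρ τ) _ _ hchar).1⟩
  · intro ℓ hℓ hℓM hℓp A hA τ hτ
    obtain ⟨a, ha, hchar⟩ := hatt ℓ hℓ hℓM (hne ℓ hℓ hℓp) A hA τ hτ
    exact (wr38_trace_det_of_charpoly ρ.finrank_eq (ρ.ρ τ) _ _ hchar).2

end Fermat.Agent.S42
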