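import Fermat.Agent.S42.XRef94
import Fermat.Agent.S42.ThetaFinalE71
import Fermat.Agent.S42.ParTors46
import Fermat.Agent.S42.ParEll47

/-!
# S42 / S29, seam (G-X) for EVERY modulus (helper94, referee; Ruling 4 (e))

The analytic existence statement (X) for every level `N ≠ 0`, every modulus `p ≠ 0` (no
primality, `p = 2, 3` included) and every homomorphism `χ : Γ₀(N) → ℤ/p` which is parabolic and
kills the elements of finite order of `Γ₀(N)`:

  `h = ec77_hZ N p χ = E_χ / E_1 ≠ 0` has character `χ`, `h ^ p = ev u` with `u ∈ F_ℂ(N)`, and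
  `p ∣ ord_v u` at every place `v` of `F_ℂ(N)`.

Finite places: `dg93_div_FC` (helper93, finite-order form, any `p`); cusps: `gx94_cusp`
(any `p ≠ 0`); membership: `gx94_mem` (any `p ≠ 0`).

Corollaries, for every prime `p`: (X) in the shape `tfe71_X N p P` (helper71) for the three
presentations of `Par'_N` on main, `w1i71_ParE N p` (helper71), `pt46_Par N p` (helper46),
`m12p47_Par N p` (helper47), and for any submodule `P` of such homomorphisms.

All names are prefixed `gx94_`.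
-/

set_option autoImplicit false
set_option linter.unusedSectionVars false
set_option linter.unusedVariables false
set_option linter.style.longLine false
set_option linter.style.haveILetI false

open CongruenceSubgroup ModularCurve ModularCurve.Period AlgebraicCurve UpperHalfPlane
open IntermediateField
open scoped MatrixGroups

namespace Fermat.Agent.S42

open Fermat.Agent.S24

section gx94_all

variable (N : ℕ) [NeZero N]

/-- `h_χ` is fixed by the elements of finite order of `Γ₀(N)` as soon as `χ` kills them. -/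
theorem gx94_hZ_smul_finOrder (p : ℕ) [NeZero p] {χ : Additive ↥(Gamma0 N) →+ ZMod p}
    (hχ : IsParabolicHom (Gamma0 N) χ)
    (hfin : ∀ δ : ↥(Gamma0 N), IsOfFinOrder δ → χ (Additive.ofMul δ) = 0)
    (δ : SL(2, ℤ)) (hδ : δ ∈ Gamma0 N) (hfo : IsOfFinOrder δ) :
    δ • ec77_hZ N p χ = ec77_hZ N p χ := by
  have hfo' : IsOfFinOrder (⟨δ, hδ⟩ : ↥(Gamma0 N)) := by
    obtain ⟨n, hn, hδn⟩ := isOfFinOrder_iff_pow_eq_one.mp hfo
    exact isOfFinOrder_iff_pow_eq_one.mpr ⟨n, hn, Subtype.ext hδn⟩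
  have h1 := ec77_hZ_isChar hχ (⟨δ, hδ⟩ : ↥(Gamma0 N))
  rw [hfin ⟨δ, hδ⟩ hfo', ZMod.val_zero, pow_zero, one_mul] at h1
  exact h1

/-- **Divisibility at every place, every modulus** (finite-order form). -/
theorem gx94_dvd_fin (p : ℕ) [NeZero p] {χ : Additive ↥(Gamma0 N) →+ ZMod p}
    (hχ : IsParabolicHom (Gamma0 N) χ)
    (hfin : ∀ δ : ↥(Gamma0 N), IsOfFinOrder δ → χ (Additive.ofMul δ) = 0)
    (u : gi41_FC N) (hu : ff79_evMer N u = ec77_hZ N p χ ^ p) (v : Place ℂ (gi41_FC N)) :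
    (p : ℤ) ∣ v.ord u :=
  dg93_div_FC N p u (ec77_hZ N p χ) (ec77_hZ_ne_zero hχ) hu
    (fun δ hδ hfo => gx94_hZ_smul_finOrder N p hχ hfin δ hδ hfo)
    (fun v hv => by rw [gx94_cusp N p hχ u hu v hv]; exact dvd_zero _) v

/-- **(X) for every modulus `p ≠ 0`**, one character at a time: `χ` parabolic and killing the
elements of finite order. -/
theorem gx94_X_fin (p : ℕ) [NeZero p] {χ : Additive ↥(Gamma0 N) →+ ZMod p}
    (hχ : IsParabolicHom (Gamma0 N) χ)
    (hfin : ∀ δ : ↥(Gamma0 N), IsOfFinOrder δ → χ (Additive.ofMul δ) = 0) :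
    ∃ h : mer95_MER, h ≠ 0 ∧ th70_IsChar p (th70_zeta p) χ h ∧
      ∃ u : ↥(laurentBaseChange ℂ (modularFunctionFieldFull N)), ff79_evMer N u = h ^ p ∧
        ∀ v : Place ℂ ↥(laurentBaseChange ℂ (modularFunctionFieldFull N)), (p : ℤ) ∣ v.ord u := by
  obtain ⟨u, -, hu⟩ := gx94_mem N p hχ
  exact ⟨ec77_hZ N p χ, ec77_hZ_ne_zero hχ, ec77_hZ_isChar hχ, u, hu,
    fun v => gx94_dvd_fin N p hχ hfin u hu v⟩

/-- The same with the pair `(h, u)` in one existential (the shape of `geex94_adm`). -/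
theorem gx94_X_fin' (p : ℕ) [NeZero p] {χ : Additive ↥(Gamma0 N) →+ ZMod p}
    (hχ : IsParabolicHom (Gamma0 N) χ)
    (hfin : ∀ δ : ↥(Gamma0 N), IsOfFinOrder δ → χ (Additive.ofMul δ) = 0) :
    ∃ (h : mer95_MER) (u : ↥(laurentBaseChange ℂ (modularFunctionFieldFull N))),
      h ≠ 0 ∧ th70_IsChar p (th70_zeta p) χ h ∧ ff79_evMer N u = h ^ p ∧
        ∀ v : Place ℂ ↥(laurentBaseChange ℂ (modularFunctionFieldFull N)), (p : ℤ) ∣ v.ord u := by
  obtain ⟨h, hh, hchar, u, hu, hdvd⟩ := gx94_X_fin N p hχ hfin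
  exact ⟨h, u, hh, hchar, hu, hdvd⟩

variable (p : ℕ) [Fact p.Prime]

/-- **(X) on any submodule of parabolic homomorphisms killing the elements of finite order**,
every prime `p`. -/
theorem gx94_X_of_fin (P : Submodule (ZMod p) (Additive (Gamma0 N) →+ ZMod p))
    (hP : ∀ χ ∈ P, IsParabolicHom (Gamma0 N) χ ∧
      ∀ δ : ↥(Gamma0 N), IsOfFinOrder δ → χ (Additive.ofMul δ) = 0) :
    tfe71_X N p P :=
  fun χ hχ => gx94_X_fin N p (hP χ hχ).1 (hP χ hχ).2

/-- **(X) on `Par'_N = w1i71_ParE N p`** (helper71), every prime `p`. -/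
theorem gx94_X_ParE : tfe71_X N p (w1i71_ParE N p) :=
  gx94_X_of_fin N p _ fun χ hχ =>
    ⟨w1i71_ParE_le_Par N p hχ, fun δ hδ => pt46_kills_finOrder χ hχ δ hδ⟩

/-- **(X) on `Par'_N = pt46_Par N p`** (helper46), every prime `p`. -/
theorem gx94_X_pt46 : tfe71_X N p (pt46_Par N p) :=
  gx94_X_of_fin N p _ fun χ hχ =>
    ⟨pt46_Par_le N p hχ, fun δ hδ => pt46_Par_kills_finOrder hχ δ hδ⟩

/-- **(X) on `Par'_N = m12p47_Par N p`** (helper47), every prime `p`. -/
theorem gx94_X_m12p47 : tfe71_X N p (m12p47_Par N p) :=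
  gx94_X_of_fin N p _ fun χ hχ => ⟨hχ.1, fun δ hδ => hχ.2 δ hδ⟩

/-- Admissible pairs over `ℚ̄` for every `χ ∈ Par'_N` (`w1i71_ParE`), every prime `p`: the
hypothesis `hex` of the `Θ` spine on `Par'_N`, with no hypothesis left. -/
theorem gx94_hex_ParE (φ : AlgebraicClosure ℚ →+* ℂ) :
    ∀ χ ∈ w1i71_ParE N p, ∃ (h : mer95_MER) (f : ↥(modularFunctionFieldBar N)),
      th70_Adm (AlgebraicClosure ℚ) (ff79_ev0 φ N) p (th70_zeta p) χ h f :=
  tfe71_hex φ N p _ (gx94_X_ParE N p)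

/-- Admissible pairs over `ℚ̄` for every `χ ∈ pt46_Par N p`, every prime `p`. -/
theorem gx94_hex_pt46 (φ : AlgebraicClosure ℚ →+* ℂ) :
    ∀ χ ∈ pt46_Par N p, ∃ (h : mer95_MER) (f : ↥(modularFunctionFieldBar N)),
      th70_Adm (AlgebraicClosure ℚ) (ff79_ev0 φ N) p (th70_zeta p) χ h f :=
  tfe71_hex φ N p _ (gx94_X_pt46 N p)

/-- Admissible pairs over `ℚ̄` for every `χ ∈ m12p47_Par N p`, every prime `p`. -/
theorem gx94_hex_m12p47 (φ : AlgebraicClosure ℚ →+* ℂ) :
    ∀ χ ∈ m12p47_Par N p, ∃ (h : mer95_MER) (f : ↥(modularFunctionFieldBar N)),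
      th70_Adm (AlgebraicClosure ℚ) (ff79_ev0 φ N) p (th70_zeta p) χ h f :=
  tfe71_hex φ N p _ (gx94_X_m12p47 N p)

end gx94_all

end Fermat.Agent.S42
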