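import Fermat.Agent.S42.EisChiMer77
import Fermat.Agent.S42.ThetaInst70

/-!
# S42 / seam (G-X), helper44: the multiplier function for a `ZMod p`-valued parabolic character

`(X)` of ARCH-1 quantifies over `χ ∈ w1a28_Par N p`, i.e. over parabolic homomorphisms
`Additive (Gamma0 N) →+ ZMod p`; helper77's `ec77_charOfHom` is for `ℤ`-valued homomorphisms
(which a `ZMod p`-valued homomorphism need not lift to).  This file supplies the adapter:

* `xc44_char p χ : Γ →* ℂˣ`, `γ ↦ exp(2πi/p) ^ (χ γ).val`, with the hypotheses `hχp`, `hpar`,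
  `hunit` of the `ec77_*` API discharged;
* `xc44_h N p χ : mer95_MER`, the weight-4 quotient `E_χ / E_1`;
* `xc44_h_ne_zero`, `xc44_h_isChar : th70_IsChar p (th70_zeta p) χ (xc44_h N p χ)`;
* `xc44_h_pow`, `xc44_h_pow_eq_div`, `xc44_tendsto`, `xc44_den_eventually_ne_zero` : the `p`-th
  power in the shapes consumed by the membership and cusp rows;
* `xc44_h_smul_finOrder` : invariance under the elements of finite order (for `p = 2, 3`).
-/

set_option autoImplicit false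

open Matrix UpperHalfPlane Filter Topology
open scoped MatrixGroups Manifold

namespace Fermat.Agent.S42

open CongruenceSubgroup ModularCurve.Period

section Char

variable {Γ : Subgroup SL(2, ℤ)}

/-- The root of unity `exp(2πi/p)` as a unit of `ℂ`. -/
noncomputable def xc44_zeta (p : ℕ) : ℂˣ :=
  Units.mk0 (Complex.exp (2 * Real.pi * Complex.I / p)) (Complex.exp_ne_zero _)

theorem xc44_zeta_coe (p : ℕ) :
    ((xc44_zeta p : ℂˣ) : ℂ) = Complex.exp (2 * Real.pi * Complex.I / p) := rfl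

theorem xc44_zeta_isPrimitiveRoot (p : ℕ) (hp : p ≠ 0) : IsPrimitiveRoot (xc44_zeta p) p := by
  have h := Complex.isPrimitiveRoot_exp p hp
  rw [← xc44_zeta_coe] at h
  exact IsPrimitiveRoot.coe_units_iff.mp h

theorem xc44_zeta_pow (p : ℕ) (hp : p ≠ 0) : xc44_zeta p ^ p = 1 :=
  (xc44_zeta_isPrimitiveRoot p hp).pow_eq_one

theorem xc44_algebraMap_zeta (p : ℕ) :
    algebraMap ℂ mer95_MER ((xc44_zeta p : ℂˣ) : ℂ) = th70_zeta p := rfl

/-- The character `γ ↦ exp(2πi/p) ^ (χ γ).val` of a `ZMod p`-valued homomorphism. -/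
noncomputable def xc44_char (p : ℕ) [NeZero p] (χ : Additive ↥Γ →+ ZMod p) : ↥Γ →* ℂˣ where
  toFun γ := xc44_zeta p ^ (χ (Additive.ofMul γ)).val
  map_one' := by
    have h : χ (Additive.ofMul (1 : ↥Γ)) = 0 := χ.map_zero
    rw [h, ZMod.val_zero, pow_zero]
  map_mul' a b := by
    have h : χ (Additive.ofMul (a * b)) = χ (Additive.ofMul a) + χ (Additive.ofMul b) :=
      χ.map_add _ _
    rw [h, ZMod.val_add, ← pow_add]
    exact (pow_eq_pow_mod _ (xc44_zeta_pow p (NeZero.ne p))).symm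

variable (p : ℕ) [NeZero p] (χ : Additive ↥Γ →+ ZMod p)

theorem xc44_char_apply (γ : ↥Γ) :
    xc44_char p χ γ = xc44_zeta p ^ (χ (Additive.ofMul γ)).val := rfl

theorem xc44_char_pow (γ : ↥Γ) : xc44_char p χ γ ^ p = 1 := by
  rw [xc44_char_apply, ← pow_mul, mul_comm, pow_mul, xc44_zeta_pow p (NeZero.ne p), one_pow]

theorem xc44_char_unit (γ : ↥Γ) : ‖((xc44_char p χ γ : ℂˣ) : ℂ)‖ = 1 :=
  ec77_unit_of_pow (NeZero.ne p) (xc44_char_pow p χ) γ

variable {p χ}

theorem xc44_char_eq_one_of_eq_zero {γ : ↥Γ} (h : χ (Additive.ofMul γ) = 0) :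
    xc44_char p χ γ = 1 := by
  rw [xc44_char_apply, h, ZMod.val_zero, pow_zero]

theorem xc44_char_eq_one_iff (γ : ↥Γ) : xc44_char p χ γ = 1 ↔ χ (Additive.ofMul γ) = 0 := by
  refine ⟨fun h => ?_, xc44_char_eq_one_of_eq_zero⟩
  rw [xc44_char_apply] at h
  have h1 := ((xc44_zeta_isPrimitiveRoot p (NeZero.ne p)).pow_eq_one_iff_dvd _).mp h
  have h2 : (χ (Additive.ofMul γ)).val = 0 :=
    Nat.eq_zero_of_dvd_of_lt h1 (ZMod.val_lt _)
  exact (ZMod.val_eq_zero _).mp h2

/-- The hypothesis `hpar` of the `ec77_*` API. -/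
theorem xc44_char_par (hχ : IsParabolicHom Γ χ) (γ : ↥Γ)
    (h : ((γ : SL(2, ℤ)) : Matrix (Fin 2) (Fin 2) ℤ).trace ^ 2 = 4) : xc44_char p χ γ = 1 :=
  xc44_char_eq_one_of_eq_zero (hχ γ h)

theorem xc44_char_add (χ ψ : Additive ↥Γ →+ ZMod p) :
    xc44_char p (χ + ψ) = xc44_char p χ * xc44_char p ψ := by
  apply MonoidHom.ext
  intro γ
  rw [MonoidHom.mul_apply, xc44_char_apply, xc44_char_apply, xc44_char_apply,
    AddMonoidHom.add_apply, ZMod.val_add, ← pow_add]
  exact (pow_eq_pow_mod _ (xc44_zeta_pow p (NeZero.ne p))).symm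

end Char

section H

variable (N p : ℕ) [NeZero p] (χ : Additive ↥(Gamma0 N) →+ ZMod p)

/-- The numerator `E_χ` (weight `4`) in `mer95_O`. -/
noncomputable def xc44_A : mer95_O :=
  ec77_EchiO 4 (Gamma0 N) (xc44_char p χ) (by norm_num) (xc44_char_unit p χ)

/-- The denominator `E_1` (weight `4`, level one) in `mer95_O`. -/
noncomputable def xc44_B : mer95_O := ec77_EoneO 4 (by norm_num)

/-- The multiplier function `E_χ / E_1` (weight `4`) of a `ZMod p`-valued character. -/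
noncomputable def xc44_h : mer95_MER :=
  ec77_Fchi 4 (Gamma0 N) (xc44_char p χ) (by norm_num) (xc44_char_unit p χ)

theorem xc44_h_eq_div :
    xc44_h N p χ =
      algebraMap mer95_O mer95_MER (xc44_A N p χ) / algebraMap mer95_O mer95_MER xc44_B := rfl

theorem xc44_B_ne_zero : xc44_B ≠ 0 := ec77_EoneO_ne_zero 4 (by norm_num) (by decide)

variable {N p χ}

theorem xc44_h_ne_zero (hχ : IsParabolicHom (Gamma0 N) χ) : xc44_h N p χ ≠ 0 :=
  ec77_Fchi_ne_zero (by norm_num) (by decide) (xc44_char_unit p χ) (xc44_char_par hχ)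

theorem xc44_A_ne_zero (hχ : IsParabolicHom (Gamma0 N) χ) : xc44_A N p χ ≠ 0 :=
  ec77_EchiO_ne_zero (by norm_num) (by decide) (xc44_char_unit p χ) (xc44_char_par hχ)

/-- **The transformation law**, in the binding shape `th70_IsChar` (left action of `mer95`):
`γ • h = ζ ^ (χ γ).val * h` with `ζ = th70_zeta p`. -/
theorem xc44_h_isChar (hχ : IsParabolicHom (Gamma0 N) χ) :
    th70_IsChar p (th70_zeta p) χ (xc44_h N p χ) := by
  intro γ
  have h := ec77_Fchi_smul (k := 4) (by norm_num) (by decide) (xc44_char_unit p χ)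
    (xc44_char_par hχ) γ
  have h2 : algebraMap ℂ mer95_MER ((xc44_char p χ γ : ℂˣ) : ℂ) =
      th70_zeta p ^ (χ (Additive.ofMul γ)).val := by
    rw [xc44_char_apply, Units.val_pow_eq_pow_val, map_pow, xc44_algebraMap_zeta]
  rw [h2] at h
  exact h

/-- The same for `χ ∈ w1a28_Par N p`. -/
theorem xc44_h_isChar_par (hχ : χ ∈ w1a28_Par N p) :
    th70_IsChar p (th70_zeta p) χ (xc44_h N p χ) :=
  xc44_h_isChar hχ

theorem xc44_h_ne_zero_par (hχ : χ ∈ w1a28_Par N p) : xc44_h N p χ ≠ 0 :=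
  xc44_h_ne_zero hχ

/-- `h ^ p` is the function `G_χ` of helper77. -/
theorem xc44_h_pow :
    xc44_h N p χ ^ p =
      ec77_Gchi 4 (Gamma0 N) (xc44_char p χ) p (by norm_num) (xc44_char_unit p χ) := rfl

theorem xc44_h_pow_eq_div :
    xc44_h N p χ ^ p =
      algebraMap mer95_O mer95_MER (xc44_A N p χ ^ p) /
        algebraMap mer95_O mer95_MER (xc44_B ^ p) :=
  ec77_Gchi_eq_div (by norm_num) p (xc44_char_unit p χ)

/-- `h ^ p` is invariant under `Γ₀(N)`. -/
theorem xc44_h_pow_smul (hχ : IsParabolicHom (Gamma0 N) χ) (γ : ↥(Gamma0 N)) :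
    (γ : SL(2, ℤ)) • (xc44_h N p χ ^ p) = xc44_h N p χ ^ p :=
  ec77_Gchi_smul (k := 4) (by norm_num) (by decide) (NeZero.ne p) (xc44_char_pow p χ)
    (xc44_char_par hχ) γ

/-- The values of numerator and denominator of `h ^ p`. -/
theorem xc44_A_apply (τ : ℍ) :
    (xc44_A N p χ).1 τ = ec77_Echi 4 (Gamma0 N) (xc44_char p χ) τ := rfl

theorem xc44_B_apply (τ : ℍ) : xc44_B.1 τ = ec77_Eone 4 τ := rfl

/-- **Cusp behaviour**: for every `s ∈ SL(2, ℤ)` the quotient of the values of numerator and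
denominator of `h ^ p` at `s • z` tends to `1` as `Im z → ∞`. -/
theorem xc44_tendsto (hχ : IsParabolicHom (Gamma0 N) χ) (s : SL(2, ℤ)) :
    Tendsto (fun z : ℍ => (xc44_A N p χ ^ p).1 (s • z) / (xc44_B ^ p).1 (s • z)) atImInfty
      (𝓝 1) :=
  ec77_Gchi_tendsto (k := 4) (by norm_num) (by decide) (NeZero.ne p) (xc44_char_pow p χ)
    (xc44_char_par hχ) s

/-- The same limit, written with the `p`-th power outside. -/
theorem xc44_tendsto' (hχ : IsParabolicHom (Gamma0 N) χ) (s : SL(2, ℤ)) :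
    Tendsto (fun z : ℍ => ((xc44_A N p χ).1 (s • z) / xc44_B.1 (s • z)) ^ p) atImInfty
      (𝓝 1) :=
  ec77_ratio_pow_tendsto (k := 4) (by norm_num) (by decide) (NeZero.ne p) (xc44_char_pow p χ)
    (xc44_char_par hχ) s

omit [NeZero p] in
/-- The denominator of `h ^ p` does not vanish near the cusps. -/
theorem xc44_den_eventually_ne_zero (s : SL(2, ℤ)) :
    ∀ᶠ z in atImInfty, (xc44_B ^ p).1 (s • z) ≠ 0 :=
  ec77_EoneO_pow_eventually_ne_zero (k := 4) (by norm_num) (by decide) p s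

/-- If `χ` kills the elements of finite order of `Γ₀(N)` (automatic for `p ≥ 5`; the condition
defining `Par'` for `p = 2, 3`), these elements fix `h`. -/
theorem xc44_h_smul_finOrder (hχ : IsParabolicHom (Gamma0 N) χ)
    (hfin : ∀ δ : ↥(Gamma0 N), IsOfFinOrder δ → χ (Additive.ofMul δ) = 0)
    (δ : ↥(Gamma0 N)) (hδ : IsOfFinOrder δ) :
    (δ : SL(2, ℤ)) • xc44_h N p χ = xc44_h N p χ := by
  have h := ec77_Fchi_smul (k := 4) (by norm_num) (by decide) (xc44_char_unit p χ)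
    (xc44_char_par hχ) δ
  rw [xc44_char_eq_one_of_eq_zero (hfin δ hδ), Units.val_one, map_one, one_mul] at h
  exact h

/-- **The `h`-half of `(X)`**: for every parabolic `χ` there is `h ≠ 0` in `mer95_MER` with
character `χ`, whose `p`-th power is `Γ₀(N)`-invariant. -/
theorem xc44_exists (hχ : χ ∈ w1a28_Par N p) :
    ∃ h : mer95_MER, h ≠ 0 ∧ th70_IsChar p (th70_zeta p) χ h ∧
      ∀ γ : ↥(Gamma0 N), (γ : SL(2, ℤ)) • (h ^ p) = h ^ p :=
  ⟨xc44_h N p χ, xc44_h_ne_zero hχ, xc44_h_isChar hχ, xc44_h_pow_smul hχ⟩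

end H

end Fermat.Agent.S42
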