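import Fermat.Agent.S42.XRef94
import Fermat.Agent.S42.ThetaIntFinal86

/-!
# Riders S30 / S31, row Z2 (helper68): the analytic existence statement (X) at an arbitrary
modulus `m`, on INTEGRAL parabolic classes

`xi68_X : tm86_X N m` for every level `N ≠ 0` and EVERY modulus `m ≠ 0` (no primality, no
`gcd(m, 6) = 1`): for an integral parabolic homomorphism `x : Γ₀(N) → ℤ` the Eisenstein quotient
`h = ec77_hZ N m (x mod m)` (helper77) is nonzero, transforms by `γ • h = ζ_m ^ x(γ) * h`, its
`m`-th power is `ev u` with `u ∈ F_ℂ(N)` (`gx94_mem`, helper94/96/41), and `m ∣ ord_v u` at every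
place `v` of `F_ℂ(N)`: over `j = ∞` the order is `0` (`gx94_cusp`, helper94/36/57); over a finite
value of `j` by `dg93_div_FC_ell` (helper93, ANY modulus), whose only input is the invariance of
`h` under the elliptic elements of `Γ₀(N)` - automatic here, because an integral homomorphism
kills elements of finite order.

`tm86_X` is the binding shape of helper86's `ThetaIntFinal86`; together with `gk5_K2C_pos`
(helper5) and `hk10_HK_mod` (helper10) it makes `tm86_final_theta_int` / `tm86_final_family`
hypothesis-free for all primes `p` (including `2`, `3`).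

All names are prefixed `xi68_`.
-/

set_option autoImplicit false
set_option linter.unusedSectionVars false
set_option linter.unusedVariables false
set_option linter.style.longLine false
set_option linter.style.haveILetI false

open CongruenceSubgroup ModularCurve ModularCurve.Period AlgebraicCurve UpperHalfPlane
open scoped MatrixGroups

namespace Fermat.Agent.S42

open Fermat.Agent.S24

section xi68

variable (N : ℕ) [NeZero N] (m : ℕ) [NeZero m]

/-- The reduction mod `m` of an integral parabolic homomorphism is parabolic. -/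
theorem xi68_red_parabolic {x : Additive (Gamma0 N) →+ ℤ}
    (hx : x ∈ parabolicHoms ℤ (Gamma0 N) ℤ) : IsParabolicHom (Gamma0 N) (tm86_red m x) := by
  intro γ hγ
  have h1 : x (Additive.ofMul γ) = 0 := hx γ hγ
  rw [tm86_red_apply, h1, Int.cast_zero]

/-- An integral homomorphism kills the elements of finite exponent. -/
theorem xi68_eq_zero_of_pow (x : Additive (Gamma0 N) →+ ℤ) (d : Gamma0 N) (k : ℕ) (hk : k ≠ 0)
    (hd : d ^ k = 1) : x (Additive.ofMul d) = 0 := by
  have h1 : k • x (Additive.ofMul d) = 0 := by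
    rw [← map_nsmul, ← ofMul_pow, hd, ofMul_one, map_zero]
  rw [nsmul_eq_mul] at h1
  exact (mul_eq_zero.mp h1).resolve_left (by exact_mod_cast hk)

/-- **(X) at modulus `m`, one integral parabolic class at a time.** -/
theorem xi68_X_one {x : Additive (Gamma0 N) →+ ℤ} (hx : x ∈ parabolicHoms ℤ (Gamma0 N) ℤ) :
    ∃ h : mer95_MER, h ≠ 0 ∧
      (∀ γ : ↥(Gamma0 N), γ • h = th70_zeta m ^ (x (Additive.ofMul γ)) * h) ∧
      ∃ u : ↥(laurentBaseChange ℂ (modularFunctionFieldFull N)), ff79_evMer N u = h ^ m ∧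
        ∀ v : Place ℂ ↥(laurentBaseChange ℂ (modularFunctionFieldFull N)), (m : ℤ) ∣ v.ord u := by
  have hm : m ≠ 0 := NeZero.ne m
  have hχ : IsParabolicHom (Gamma0 N) (tm86_red m x) := xi68_red_parabolic N m hx
  have hζ : th70_zeta m ^ m = 1 := (th70_zeta_isPrimitiveRoot m hm).pow_eq_one
  have hchar : ∀ γ : ↥(Gamma0 N), γ • ec77_hZ N m (tm86_red m x)
      = th70_zeta m ^ (x (Additive.ofMul γ)) * ec77_hZ N m (tm86_red m x) :=
    (tm86_isChar_iff m hζ x _).mp (ec77_hZ_isChar hχ)
  obtain ⟨u, -, hu⟩ := gx94_mem N m hχ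
  refine ⟨ec77_hZ N m (tm86_red m x), ec77_hZ_ne_zero hχ, hchar, u, hu, fun v => ?_⟩
  refine dg93_div_FC_ell N m u (ec77_hZ N m (tm86_red m x)) (ec77_hZ_ne_zero hχ) hu ?_
    (fun v hv => by rw [gx94_cusp N m hχ u hu v hv]; exact dvd_zero _) v
  intro δ hδ hell
  have h12 : (⟨δ, hδ⟩ : Gamma0 N) ^ 12 = 1 := by
    apply Subtype.ext
    simpa using hell.pow_twelve
  have h0 : x (Additive.ofMul (⟨δ, hδ⟩ : Gamma0 N)) = 0 :=
    xi68_eq_zero_of_pow N x ⟨δ, hδ⟩ 12 (by norm_num) h12
  have h1 := hchar ⟨δ, hδ⟩
  rw [h0, zpow_zero, one_mul] at h1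
  exact h1

/-- **Z2: (X) over `ℂ` at an arbitrary modulus `m ≠ 0` on integral parabolic classes**, in the
binding shape `tm86_X` of `ThetaIntFinal86`.  No hypothesis left. -/
theorem xi68_X : tm86_X N m :=
  fun x hx => xi68_X_one N m hx

end xi68

end Fermat.Agent.S42
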